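import Fermat.Agent.S35.LatCores
import Fermat.Agent.S42.MobiusMer
import Fermat.Agent.S42.RootDvd

/-!
P20 (S35), block KD, leaf L2 (second team): the product of the translates of a meromorphic
function with character, over a system of right coset representatives, transforms through the
corestricted character.

* `s35kd_compSL_prod_B` : if `H` acts on `Y` through `ζ_m ^ χ`, then `G` acts on
  `∏ i, compSL (R.r i) Y` through `ζ_m ^ (R.cores χ)`.
-/

set_option autoImplicit false

namespace Fermat.Agent.S35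

open Fermat.Agent.S24 Fermat.Agent.S42
open scoped MatrixGroups

/-- One factor: `compSL γ (compSL (r i) Y) = ζ ^ χ(elt γ i) * compSL (r (idx γ i)) Y`. -/
theorem s35kdchb_compSL_factor {m : ℕ} {H G : Subgroup SL(2, ℤ)} {ι : Type*}
    (R : S35RightReps H G ι) (χ : Additive ↥H →+ ZMod m) (Y : Mer)
    (hY : ∀ h : ↥H, compSL (h : SL(2, ℤ)) Y =
      RootDvd.merC (zetaP m ^ (χ (Additive.ofMul h)).val) * Y)
    (γ : ↥G) (i : ι) :
    compSL (γ : SL(2, ℤ)) (compSL (R.r i) Y) =
      RootDvd.merC (zetaP m ^ (χ (Additive.ofMul (R.elt γ i))).val) *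
        compSL (R.r (R.perm γ i)) Y := by
  rw [← compSL_mul, ← R.elt_mul_r γ i, compSL_mul, hY (R.elt γ i), map_mul,
    RootDvd.compSL_merC, S35RightReps.perm_apply]

/-- (C3) If `H` acts on `Y` through the character `ζ_m ^ χ`, then `G` acts on the product of the
translates `∏ i, compSL (R.r i) Y` through the character `ζ_m ^ (R.cores χ)`. -/
theorem s35kd_compSL_prod_B {m : ℕ} [NeZero m] {H G : Subgroup SL(2, ℤ)} {ι : Type*} [Fintype ι]
    (R : S35RightReps H G ι) (χ : Additive ↥H →+ ZMod m) (Y : Mer)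
    (hY : ∀ h : ↥H, compSL (h : SL(2, ℤ)) Y =
      RootDvd.merC (zetaP m ^ (χ (Additive.ofMul h)).val) * Y)
    (γ : ↥G) :
    compSL (γ : SL(2, ℤ)) (∏ i, compSL (R.r i) Y) =
      RootDvd.merC (zetaP m ^ (R.cores χ (Additive.ofMul γ)).val) * ∏ i, compSL (R.r i) Y := by
  rw [map_prod, Finset.prod_congr rfl (fun i _ => s35kdchb_compSL_factor R χ Y hY γ i),
    Finset.prod_mul_distrib, Equiv.prod_comp (R.perm γ) (fun i => compSL (R.r i) Y),
    ← map_prod RootDvd.merC, R.cores_apply, MobiusMer.zetaP_pow_val_sum]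

end Fermat.Agent.S35
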