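import Fermat.Agent.S35.Defs
import Fermat.Agent.S42.NormConj

/-!
# P20 (S35), block KD, leaf L1 (second team): the norm along `α` as a product of translates

* `s35kd_exists_repsA_B` : a system of representatives of `Γ₀(N q) \ Γ₀(N)` indexed by
  `Option (Fin q)` (from `S42.exists_heckeReps`);
* `s35kd_toMer_normAlpha_B` : for ANY such system `R`, the analytic realisation of the norm of
  `x ∈ F_{N q}` along `α : F_N → F_{N q}` is the product of the translates of the realisation of
  `x` by the representatives `R.r i`.

The proof of the second statement follows `S42.NormConj.toMer_realHom_normAlpha`: the `q + 1` ring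
homomorphisms `x ↦ (realisation of x) ∘ r_i` are pairwise distinct and agree on `α(F_N)`, and
`[F_{N q} : α(F_N)] = q + 1`.
-/

set_option autoImplicit false
set_option linter.style.haveILetI false

namespace Fermat.Agent.S35

open Fermat.Agent.S24 Fermat.Agent.S31 Fermat.Agent.S42
open CongruenceSubgroup ModularCurve AlgebraicCurve UpperHalfPlane
open scoped MatrixGroups

/-- (C2) A system of representatives of `Γ₀(N q) \ Γ₀(N)` indexed by `Option (Fin q)`. -/
theorem s35kd_exists_repsA_B {N q : ℕ} (hq : q.Prime) (hqN : ¬ q ∣ N) :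
    Nonempty (S35RightReps (Gamma0 (N * q)) (Gamma0 N) (Option (Fin q))) := by
  obtain ⟨δ, -, -, hinj, hcov⟩ := exists_heckeReps hq hqN
  exact ⟨{ r := fun i => (δ i : SL(2, ℤ))
           mem := fun i => (δ i).2
           cover := fun g hg => hcov ⟨g, hg⟩
           inj := hinj }⟩

/-- (C1) The norm along `α` is the product of the translates by any system of representatives
of `Γ₀(N q) \ Γ₀(N)`. -/
theorem s35kd_toMer_normAlpha_B (N q : ℕ) [NeZero N] [NeZero q] (hq : q.Prime) (hqN : ¬ q ∣ N)
    (R : S35RightReps (Gamma0 (N * q)) (Gamma0 N) (Option (Fin q)))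
    (x : FFL (AlgebraicClosure ℚ) (N * q)) :
    toMer N (realHom N embQ (NormConj.normAlpha N q x)) =
      ∏ i : Option (Fin q), compSL (R.r i) (toMer (N * q) (realHom (N * q) embQ x)) := by
  classical
  letI : Algebra (FFL (AlgebraicClosure ℚ) N) (FFL (AlgebraicClosure ℚ) (N * q)) :=
    algebraAlong (heckeAlphaBar (AlgebraicClosure ℚ) N q)
  haveI : Module.Finite (FFL (AlgebraicClosure ℚ) N) (FFL (AlgebraicClosure ℚ) (N * q)) :=
    Fermat.Agent.S37.heckeAlphaBar_finiteAlong N q
  haveI : Algebra.IsSeparable (FFL (AlgebraicClosure ℚ) N) (FFL (AlgebraicClosure ℚ) (N * q)) :=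
    Algebra.IsAlgebraic.isSeparable_of_perfectField
  -- the `q + 1` conjugate embeddings of `F_{N q}` over `α(F_N)`
  let E : Option (Fin q) → FFL (AlgebraicClosure ℚ) (N * q) →+* Mer := fun i =>
    (compSL (R.r i)).comp ((toMer (N * q)).comp (realHom (N * q) embQ))
  have hE : ∀ i y, E i y = compSL (R.r i) (toMer (N * q) (realHom (N * q) embQ y)) :=
    fun _ _ => rfl
  -- they agree on `α(F_N)`
  have hEα : ∀ i (a : FFL (AlgebraicClosure ℚ) N),
      E i (algebraMap (FFL (AlgebraicClosure ℚ) N) (FFL (AlgebraicClosure ℚ) (N * q)) a) =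
        toMer N (realHom N embQ a) := by
    intro i a
    show compSL (R.r i) (toMer (N * q) (realHom (N * q) embQ
      (heckeAlphaBar (AlgebraicClosure ℚ) N q a))) = _
    rw [toMer_realHom_heckeAlphaBar, ← toMer_act, act_realHom_of_mem N embQ _ (R.mem i)]
  -- they are pairwise distinct
  have hEinj : Function.Injective E := by
    intro i k hik
    apply R.inj
    have h1 : conj (N * q) embQ (QuotientGroup.mk ((R.r i)⁻¹) : XX (N * q)) =
        conj (N * q) embQ (QuotientGroup.mk ((R.r k)⁻¹) : XX (N * q)) := by
      ext y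
      rw [conj_mk_apply, conj_mk_apply, inv_inv, inv_inv]
      apply toMer_injective (N * q)
      rw [toMer_act, toMer_act]
      exact RingHom.congr_fun hik y
    have h2 := conj_injective (N * q) embQ h1
    rw [QuotientGroup.eq, inv_inv] at h2
    exact h2
  -- their number is the degree
  have hcard : Module.finrank (FFL (AlgebraicClosure ℚ) N) (FFL (AlgebraicClosure ℚ) (N * q)) =
      Fintype.card (Option (Fin q)) := by
    rw [Fintype.card_option, Fintype.card_fin]
    exact Fermat.Agent.S37.finrankAlong_heckeAlphaBar N q hq hqN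
  have key := prod_eq_map_norm_of_embeddings E hEinj (fun i j a => by rw [hEα, hEα]) hcard none x
  rw [hEα] at key
  rw [NormConj.normAlpha_eq, ← key]
  exact Finset.prod_congr rfl fun i _ => hE i x

end Fermat.Agent.S35
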