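import Fermat.Agent.S35.Defs
import Fermat.Agent.S42.HeckeKummer

/-!
# P20 (S35), block KD, leaf L3: orders of a norm along a finite morphism

If `m • D = div u` on the upper curve, then `m • φ_* D = div (Norm u)` on the lower curve
(`s35kd_ord_norm`): the norm formula applied to the divisor `m • D`.
-/

set_option autoImplicit false
set_option linter.style.haveILetI false

namespace Fermat.Agent.S35

open Fermat.Agent.S24 Fermat.Agent.S31 Fermat.Agent.S42
open CongruenceSubgroup ModularCurve AlgebraicCurve UpperHalfPlane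
open scoped MatrixGroups

/-- (C4) file `S35/KDOrd.lean`. -/
theorem s35kd_ord_norm {K F F' : Type*} [Field K] [Field F] [Field F'] [Algebra K F]
    [Algebra K F'] (φ : F →ₐ[K] F') (hφ : φ.toRingHom.IsIntegral) (hfin : FiniteAlong K φ)
    (hN : NormFormulaAlong K φ hfin) (m : ℕ) (D : Divisor K F') (u : F') (hu : u ≠ 0)
    (h : ∀ w : Place K F', (m : ℤ) * D w = w.ord u) (v : Place K F) :
    (m : ℤ) * Divisor.pushforwardAlong φ hφ D v =
      v.ord (@Algebra.norm F F' _ _ (algebraAlong φ) u) := by
  have key : Divisor.pushforwardAlong φ hφ ((m : ℤ) • D) v =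
      v.ord (@Algebra.norm F F' _ _ (algebraAlong φ) u) :=
    hN u hu ((m : ℤ) • D) (fun w => by rw [Finsupp.smul_apply, smul_eq_mul, h]) v
  rw [← key, map_zsmul, Finsupp.smul_apply, smul_eq_mul]

end Fermat.Agent.S35
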