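import Fermat.Agent.S35.Defs
import Fermat.Agent.S35.KDNormAB
import Fermat.Agent.S35.KDCharB
import Fermat.Agent.S35.KDOrd
import Fermat.Agent.S42.HeckeKummer

/-!
# P20 (S35), block KD-A: Kummer classes and the push-forward along `α`

If `c ∈ J₀(N q)(ℚ̄)` is the Kummer class of the character `ζ_m ^ φ` of `Γ₀(N q)`, then `α_* c` is
the Kummer class of the transfer (corestriction) of `φ` to `Γ₀(N)`.
-/

set_option autoImplicit false
set_option linter.style.haveILetI false

namespace Fermat.Agent.S35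

open Fermat.Agent.S24 Fermat.Agent.S31 Fermat.Agent.S42
open CongruenceSubgroup ModularCurve AlgebraicCurve UpperHalfPlane
open scoped MatrixGroups

/-- **(KD-A)** Kummer classes are compatible with the push-forward along `α` and the transfer
from `Γ₀(N q)` to `Γ₀(N)`. -/
theorem s35_isKummer_pushA {N q m : ℕ} [NeZero N] [NeZero q] [NeZero m] (hq : q.Prime)
    (hqN : ¬ q ∣ N) {φ : Additive ↥(Gamma0 (N * q)) →+ ZMod m} {c : JZero (N * q)}
    (h : IsKummer (N * q) m φ c) :
    ∃ R : S35RightReps (Gamma0 (N * q)) (Gamma0 N) (Option (Fin q)),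
      IsKummer N m (R.cores φ) (s35_pushA N q c) := by
  have hm : 0 < m := Nat.pos_of_ne_zero (NeZero.ne m)
  obtain ⟨R⟩ := s35kd_exists_repsA_B hq hqN
  refine ⟨R, ?_⟩
  obtain ⟨D, hD, u, f, hu, hdiv, hc, hfp, hact⟩ := h
  set u' : FFL (AlgebraicClosure ℚ) N := NormConj.normAlpha N q u with hu'
  have hu'0 : u' ≠ 0 := HeckeKummer.normAlpha_ne_zero N q hu
  have hdiv' : ∀ v : Place (AlgebraicClosure ℚ) (FFL (AlgebraicClosure ℚ) N),
      (m : ℤ) * Divisor.pushforwardAlong (heckeAlphaBar (AlgebraicClosure ℚ) N q)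
        (Fermat.Agent.S37.heckeAlphaBar_isIntegral N q) D v = v.ord u' :=
    s35kd_ord_norm _ _ (Fermat.Agent.S37.heckeAlphaBar_finiteAlong N q)
      (Fermat.Agent.S37.heckeAlphaBar_normFormulaAlong N q) m D u hu hdiv
  set F' : Mer := ∏ i : Option (Fin q), compSL (R.r i) (toMer (N * q) f) with hF'
  have hF'p : F' ^ m = toMer N (realHom N embQ u') := by
    rw [hu', s35kd_toMer_normAlpha_B N q hq hqN R u, hF', ← Finset.prod_pow]
    refine Finset.prod_congr rfl fun i _ => ?_
    rw [← map_pow, ← map_pow, hfp]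
  obtain ⟨f'', hf''⟩ := exists_toMer_eq_of_dvd_ord N embQ m hm u' hu'0
    (fun P => ⟨_, (hdiv' P).symm⟩) F' hF'p
  refine ⟨_, Divisor.pushforwardAlong_mem_degZero _ _ hD, u', f'', hu'0, hdiv', ?_, ?_, ?_⟩
  · rw [hc]
    rfl
  · apply toMer_injective N
    rw [map_pow, hf'', hF'p]
  · intro γ
    apply toMer_injective N
    rw [toMer_act, hf'', map_mul, hf'', RootDvd.toMer_cM]
    refine s35kd_compSL_prod_B R φ (toMer (N * q) f) (fun h => ?_) γ
    rw [← toMer_act, hact h, map_mul, RootDvd.toMer_cM]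

end Fermat.Agent.S35
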