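import Fermat.Agent.S35.Defs
import Fermat.Agent.S42.MobiusMer

/-!
# P20 (S35), block KD, leaf L4: the Hecke matrix `(1 0; 0 q)` on meromorphic functions

* `s35kd_compSL_compM_HB` : for `h ∈ Γ₀(N) ∩ Γ⁰(q)`, precomposition with `h` after `τ ↦ τ / q`
  is `τ ↦ τ / q` after precomposition with `κ_B h ∈ Γ₀(N q)` (matrix identity
  `(1 0; 0 q) h = κ_B(h) (1 0; 0 q)`);
* `s35kd_compM_none_some` : `τ ↦ q τ` followed by `τ ↦ τ / q` is the identity.
-/

set_option autoImplicit false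

namespace Fermat.Agent.S35

open Fermat.Agent.S24 Fermat.Agent.S31 Fermat.Agent.S42
open CongruenceSubgroup ModularCurve AlgebraicCurve UpperHalfPlane
open scoped MatrixGroups

/-- The matrix identity `(1 0; 0 q) h = κ_B(h) (1 0; 0 q)` for `h ∈ Γ₀(N) ∩ Γ⁰(q)`. -/
theorem s35kdm_heckeMat_mul {N q : ℕ} (hq : 0 < q) (h : ↥(s35_HB N q)) :
    heckeMat q (some ⟨0, hq⟩) * ((h : SL(2, ℤ)) : Matrix (Fin 2) (Fin 2) ℤ) =
      (((s35_kappaB N q h : ↥(Gamma0 (N * q))) : SL(2, ℤ)) : Matrix (Fin 2) (Fin 2) ℤ) *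
        heckeMat q (some ⟨0, hq⟩) := by
  have hdvd : (q : ℤ) ∣ (h : SL(2, ℤ)) 0 1 := h.2.2
  have hb : (h : SL(2, ℤ)) 0 1 / (q : ℤ) * (q : ℤ) = (h : SL(2, ℤ)) 0 1 :=
    Int.ediv_mul_cancel hdvd
  rw [s35_coe_kappaB]
  ext i j
  fin_cases i <;> fin_cases j
  · simp [heckeMat, s35_matK, Matrix.mul_apply, Fin.sum_univ_two]
  · simp [heckeMat, s35_matK, Matrix.mul_apply, Fin.sum_univ_two, hb]
  · simp [heckeMat, s35_matK, Matrix.mul_apply, Fin.sum_univ_two]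
  · simp [heckeMat, s35_matK, Matrix.mul_apply, Fin.sum_univ_two, mul_comm]

/-- (B-i) file `S35/KDMob.lean`. -/
theorem s35kd_compSL_compM_HB {N q : ℕ} (hq : 0 < q) (h : ↥(s35_HB N q)) (X : Mer) :
    compSL (h : SL(2, ℤ)) (MobiusMer.compM q (some ⟨0, hq⟩) X) =
      MobiusMer.compM q (some ⟨0, hq⟩)
        (compSL ((s35_kappaB N q h : ↥(Gamma0 (N * q))) : SL(2, ℤ)) X) :=
  MobiusMer.compSL_compM_of_eq hq.ne' (s35kdm_heckeMat_mul hq h) X

/-- `τ ↦ q τ` followed by `τ ↦ τ / q` is the identity of the upper half plane. -/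
theorem s35kdm_hGL_some_none_smul {q : ℕ} (hq : 0 < q) (τ : ℍ) :
    PeriodHecke.hGL q (some ⟨0, hq⟩) • (PeriodHecke.hGL q none • τ) = τ := by
  have hqC : (q : ℂ) ≠ 0 := by exact_mod_cast hq.ne'
  apply UpperHalfPlane.ext
  rw [MobiusMer.coe_hGL_some_smul hq.ne', MobiusMer.coe_hGL_none_smul hq.ne']
  simp only [Nat.cast_zero, add_zero]
  exact mul_div_cancel_left₀ _ hqC

/-- `τ ↦ q τ` followed by `τ ↦ τ / q`, on holomorphic functions. -/
theorem s35kdm_compMHol_none_some {q : ℕ} (hq : 0 < q) (a : Hol) :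
    MobiusMer.compMHol q none (MobiusMer.compMHol q (some ⟨0, hq⟩) a) = a := by
  apply Subtype.ext
  funext τ
  rw [MobiusMer.compMHol_apply, MobiusMer.compMHol_apply, s35kdm_hGL_some_none_smul hq]

/-- (B-i') file `S35/KDMob.lean`: `τ ↦ q τ` followed by `τ ↦ τ / q`. -/
theorem s35kd_compM_none_some {q : ℕ} (hq : 0 < q) (X : Mer) :
    MobiusMer.compM q none (MobiusMer.compM q (some ⟨0, hq⟩) X) = X := by
  obtain ⟨a, b, -, rfl⟩ := mer_exists_div X
  rw [MobiusMer.compM_div, MobiusMer.compM_div, s35kdm_compMHol_none_some hq,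
    s35kdm_compMHol_none_some hq]

end Fermat.Agent.S35
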