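import Fermat.Agent.S35.Defs

/-!
# P20 (S35), block KD, leaf L6 (B-R): the `B`-side representatives

For a prime `q ∤ N` choose `t, y` with `q t - N y = 1` and put
`γ₀ = (1 y; N q t)`, `γ₁ = (q y; N t)` (both in `Γ₀(N)`).  Then
`diag(q, 1) γ₀ = γ₁ diag(1, q)`, `diag(1, q) γ₁ = γ₀ diag(q, 1)`, and for `g ∈ Γ₀(N)` one has
`γ₁ g γ₁⁻¹ ∈ Γ₀(N) ∩ Γ⁰(q)` iff `g ∈ Γ₀(N q)`.  Hence, if the `r i` represent
`Γ₀(N q) \ Γ₀(N)`, then the `γ₁ r i` represent `(Γ₀(N) ∩ Γ⁰(q)) \ Γ₀(N)`.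
-/

set_option autoImplicit false
set_option linter.style.haveILetI false

namespace Fermat.Agent.S35

open Fermat.Agent.S24 Fermat.Agent.S31 Fermat.Agent.S42
open CongruenceSubgroup ModularCurve AlgebraicCurve UpperHalfPlane
open scoped MatrixGroups

theorem s35kdr_mem_gamma0_iff {M : ℕ} {g : SL(2, ℤ)} : g ∈ Gamma0 M ↔ (M : ℤ) ∣ g 1 0 := by
  rw [Gamma0_mem, ZMod.intCast_zmod_eq_zero_iff_dvd]

/-- The upper right entry of `γ₁ g γ₁⁻¹` for `γ₁ = (q y; N t)`. -/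
theorem s35kdr_conj_entry (q N y t : ℤ) (γ₁ g : SL(2, ℤ))
    (hγ₁ : (γ₁ : Matrix (Fin 2) (Fin 2) ℤ) = !![q, y; N, t]) :
    (γ₁ * g * γ₁⁻¹) 0 1 = q * (q * g 0 1 + y * g 1 1 - g 0 0 * y) - y ^ 2 * g 1 0 := by
  rw [Matrix.SpecialLinearGroup.coe_mul, Matrix.SpecialLinearGroup.coe_mul,
    Matrix.SpecialLinearGroup.coe_inv, hγ₁, Matrix.adjugate_fin_two_of]
  simp only [Matrix.mul_apply, Fin.sum_univ_two, Matrix.of_apply, Matrix.cons_val',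
    Matrix.cons_val_zero, Matrix.cons_val_one, Matrix.cons_val_fin_one, Fin.isValue]
  ring

/-- For `g ∈ Γ₀(N)`: `γ₁ g γ₁⁻¹ ∈ Γ₀(N) ∩ Γ⁰(q)` iff `g ∈ Γ₀(N q)`. -/
theorem s35kdr_conj_mem_iff {N q : ℕ} (hq : q.Prime) (y t : ℤ)
    (hdet : (q : ℤ) * t - (N : ℤ) * y = 1) (γ₁ : SL(2, ℤ))
    (hγ₁ : (γ₁ : Matrix (Fin 2) (Fin 2) ℤ) = !![(q : ℤ), y; (N : ℤ), t])
    (hγ₁N : γ₁ ∈ Gamma0 N) (g : SL(2, ℤ)) (hg : g ∈ Gamma0 N) :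
    γ₁ * g * γ₁⁻¹ ∈ s35_HB N q ↔ g ∈ Gamma0 (N * q) := by
  have hqp : Prime (q : ℤ) := Nat.prime_iff_prime_int.mp hq
  have hNg : (N : ℤ) ∣ g 1 0 := s35kdr_mem_gamma0_iff.mp hg
  have hqy : ¬ (q : ℤ) ∣ y := by
    intro hdvd
    have h1 : (q : ℤ) ∣ 1 := by
      rw [← hdet]
      exact dvd_sub (dvd_mul_right _ _) (dvd_mul_of_dvd_right hdvd _)
    exact hqp.not_dvd_one h1
  have hcop : IsCoprime (N : ℤ) (q : ℤ) := ⟨-y, t, by linarith⟩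
  have hconj : γ₁ * g * γ₁⁻¹ ∈ Gamma0 N :=
    (Gamma0 N).mul_mem ((Gamma0 N).mul_mem hγ₁N hg) ((Gamma0 N).inv_mem hγ₁N)
  rw [s35_mem_HB, s35kdr_conj_entry (q : ℤ) (N : ℤ) y t γ₁ g hγ₁]
  constructor
  · rintro ⟨-, hdvd⟩
    have h1 : (q : ℤ) ∣ y ^ 2 * g 1 0 := by
      have h2 : y ^ 2 * g 1 0 = (q : ℤ) * ((q : ℤ) * g 0 1 + y * g 1 1 - g 0 0 * y) -
          ((q : ℤ) * ((q : ℤ) * g 0 1 + y * g 1 1 - g 0 0 * y) - y ^ 2 * g 1 0) := by ring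
      rw [h2]
      exact dvd_sub (dvd_mul_right _ _) hdvd
    have h3 : (q : ℤ) ∣ g 1 0 := by
      rcases hqp.dvd_or_dvd h1 with h | h
      · exact absurd (hqp.dvd_of_dvd_pow h) hqy
      · exact h
    rw [s35kdr_mem_gamma0_iff]
    push_cast
    exact hcop.mul_dvd hNg h3
  · intro hmem
    have hdvd : ((N * q : ℕ) : ℤ) ∣ g 1 0 := s35kdr_mem_gamma0_iff.mp hmem
    refine ⟨hconj, ?_⟩
    have h3 : (q : ℤ) ∣ g 1 0 := by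
      refine dvd_trans ?_ hdvd
      push_cast
      exact dvd_mul_left _ _
    exact dvd_sub (dvd_mul_right _ _) (dvd_mul_of_dvd_right h3 _)

/-- (B-R) file `S35/KDRepsB.lean`: the matrices `γ₀ = (x y; N z, q t)`, `γ₁ = (q x, y; N z, t)`
(`q x t - N y z = 1`) and the `B`-side representatives `γ₁ r_i`. -/
theorem s35kd_exists_repsB {N q : ℕ} (hq : q.Prime) (hqN : ¬ q ∣ N)
    (R : S35RightReps (Gamma0 (N * q)) (Gamma0 N) (Option (Fin q))) :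
    ∃ (γ₀ γ₁ : SL(2, ℤ)) (RB : S35RightReps (s35_HB N q) (Gamma0 N) (Option (Fin q))),
      γ₀ ∈ Gamma0 N ∧ γ₁ ∈ Gamma0 N ∧
      heckeMat q none * (γ₀ : Matrix (Fin 2) (Fin 2) ℤ) =
        (γ₁ : Matrix (Fin 2) (Fin 2) ℤ) * heckeMat q (some ⟨0, hq.pos⟩) ∧
      heckeMat q (some ⟨0, hq.pos⟩) * (γ₁ : Matrix (Fin 2) (Fin 2) ℤ) =
        (γ₀ : Matrix (Fin 2) (Fin 2) ℤ) * heckeMat q none ∧
      ∀ i, RB.r i = γ₁ * R.r i := by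
  -- Bezout
  have hcop : IsCoprime (q : ℤ) (N : ℤ) :=
    Nat.isCoprime_iff_coprime.mpr ((Nat.Prime.coprime_iff_not_dvd hq).mpr hqN)
  obtain ⟨t, b, htb⟩ := hcop
  have hdet : (q : ℤ) * t - (N : ℤ) * (-b) = 1 := by linarith
  obtain ⟨γ₀, hγ₀⟩ : ∃ γ₀ : SL(2, ℤ),
      (γ₀ : Matrix (Fin 2) (Fin 2) ℤ) = !![1, -b; (N : ℤ), (q : ℤ) * t] :=
    ⟨⟨!![1, -b; (N : ℤ), (q : ℤ) * t], by rw [Matrix.det_fin_two_of]; linarith⟩, rfl⟩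
  obtain ⟨γ₁, hγ₁⟩ : ∃ γ₁ : SL(2, ℤ),
      (γ₁ : Matrix (Fin 2) (Fin 2) ℤ) = !![(q : ℤ), -b; (N : ℤ), t] :=
    ⟨⟨!![(q : ℤ), -b; (N : ℤ), t], by rw [Matrix.det_fin_two_of]; linarith⟩, rfl⟩
  have hγ₀N : γ₀ ∈ Gamma0 N := by
    rw [s35kdr_mem_gamma0_iff, hγ₀]
    simp
  have hγ₁N : γ₁ ∈ Gamma0 N := by
    rw [s35kdr_mem_gamma0_iff, hγ₁]
    simp
  have key : ∀ g : SL(2, ℤ), g ∈ Gamma0 N →
      (γ₁ * g * γ₁⁻¹ ∈ s35_HB N q ↔ g ∈ Gamma0 (N * q)) :=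
    fun g hg => s35kdr_conj_mem_iff hq (-b) t hdet γ₁ hγ₁ hγ₁N g hg
  refine ⟨γ₀, γ₁,
    { r := fun i => γ₁ * R.r i
      mem := fun i => (Gamma0 N).mul_mem hγ₁N (R.mem i)
      cover := ?_
      inj := ?_ }, hγ₀N, hγ₁N, ?_, ?_, fun i => rfl⟩
  · intro g hg
    have hg' : γ₁⁻¹ * g ∈ Gamma0 N := (Gamma0 N).mul_mem ((Gamma0 N).inv_mem hγ₁N) hg
    obtain ⟨i, hi⟩ := R.cover (γ₁⁻¹ * g) hg'
    refine ⟨i, ?_⟩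
    have h1 : g * (γ₁ * R.r i)⁻¹ = γ₁ * (γ₁⁻¹ * g * (R.r i)⁻¹) * γ₁⁻¹ := by group
    rw [h1]
    exact (key _ (s35_gamma0_mul_le N q hi)).mpr hi
  · intro i j hij
    apply R.inj
    have h1 : γ₁ * R.r i * (γ₁ * R.r j)⁻¹ = γ₁ * (R.r i * (R.r j)⁻¹) * γ₁⁻¹ := by group
    rw [h1] at hij
    exact (key _ ((Gamma0 N).mul_mem (R.mem i) ((Gamma0 N).inv_mem (R.mem j)))).mp hij
  · rw [hγ₀, hγ₁]
    ext i j
    fin_cases i <;> fin_cases j <;>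
      simp [heckeMat, Matrix.mul_apply, Fin.sum_univ_two, mul_comm]
  · rw [hγ₀, hγ₁]
    ext i j
    fin_cases i <;> fin_cases j <;>
      simp [heckeMat, Matrix.mul_apply, Fin.sum_univ_two, mul_comm]

end Fermat.Agent.S35
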