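import Fermat.Agent.S35.Defs
import Fermat.Agent.S42.HeckeKummer
import Fermat.Agent.S42.RealDegen
import Fermat.Agent.S42.MobiusMer

/-!
# P20 (S35), block KD, leaf L5 (second team): the analytic realisation of the Atkin–Lehner
involution

Let `W` be an automorphism of the function field `F_{Nq}` of `X₀(N q)` exchanging the two
degeneracy maps `α, β : F_N → F_{Nq}`, and let `γ₀, γ₁ ∈ Γ₀(N)` satisfy
`diag(q, 1) γ₀ = γ₁ (1 0; 0 q)`.  Then the analytic realisation of `W x` is
`τ ↦ (x ∘ γ₀)(q τ)` (`s35kd_toMer_realHom_W_B`).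

Proof: both sides are ring homomorphisms `F_{Nq} → Mer`; the field `F_{Nq}` is generated by the
constants and the functions `j(dτ)`, `d ∣ N q`, which are all of the form `α a` or `β a`; on
`α a` both sides are `ã(q τ)` (`ã` the realisation of `a`), on `β a` both sides are `ã`.
-/

set_option autoImplicit false

namespace Fermat.Agent.S35

open Fermat.Agent.S24 Fermat.Agent.S31 Fermat.Agent.S42
open CongruenceSubgroup ModularCurve AlgebraicCurve UpperHalfPlane
open scoped MatrixGroups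

/-- `τ ↦ q τ` followed by `τ ↦ τ / q` is the identity of the upper half plane. -/
theorem s35kdwb_hGL_some_none_smul {q : ℕ} (hq : 0 < q) (τ : ℍ) :
    PeriodHecke.hGL q (some ⟨0, hq⟩) • (PeriodHecke.hGL q none • τ) = τ := by
  have hq0 : q ≠ 0 := hq.ne'
  have hqC : (q : ℂ) ≠ 0 := Nat.cast_ne_zero.mpr hq0
  apply UpperHalfPlane.ext
  rw [MobiusMer.coe_hGL_some_smul hq0, MobiusMer.coe_hGL_none_smul hq0]
  show ((q : ℂ) * (τ : ℂ) + ((0 : ℕ) : ℂ)) / (q : ℂ) = (τ : ℂ)
  rw [Nat.cast_zero, add_zero, mul_div_cancel_left₀ _ hqC]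

theorem s35kdwb_compMHol_none_some {q : ℕ} (hq : 0 < q) (a : Hol) :
    MobiusMer.compMHol q none (MobiusMer.compMHol q (some ⟨0, hq⟩) a) = a := by
  apply Subtype.ext
  funext τ
  rw [MobiusMer.compMHol_apply, MobiusMer.compMHol_apply, s35kdwb_hGL_some_none_smul hq]

/-- `τ ↦ q τ` followed by `τ ↦ τ / q`, on meromorphic functions. -/
theorem s35kdwb_compM_none_some {q : ℕ} (hq : 0 < q) (X : Mer) :
    MobiusMer.compM q none (MobiusMer.compM q (some ⟨0, hq⟩) X) = X := by
  obtain ⟨a, b, -, rfl⟩ := mer_exists_div X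
  rw [MobiusMer.compM_div, MobiusMer.compM_div, s35kdwb_compMHol_none_some hq,
    s35kdwb_compMHol_none_some hq]

/-- A divisor of `N q` (`q` a prime not dividing `N`) divides `N` or is `q` times a divisor of
`N`. -/
theorem s35kdwb_dvd_cases {N q : ℕ} (hq : q.Prime) {d : ℕ} (hd : d ∣ N * q) :
    d ∣ N ∨ ∃ d' : ℕ, d' ∣ N ∧ d = q * d' := by
  by_cases hqd : q ∣ d
  · obtain ⟨d', rfl⟩ := hqd
    refine Or.inr ⟨d', ?_, rfl⟩
    rw [mul_comm N q] at hd
    exact Nat.dvd_of_mul_dvd_mul_left hq.pos hd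
  · exact Or.inl ((Nat.Coprime.dvd_mul_right
      ((Nat.Prime.coprime_iff_not_dvd hq).mpr hqd).symm).mp hd)

/-- The invariance of the realisation at level `N` under `Γ₀(N)`, on `Mer`. -/
theorem s35kdwb_compSL_toMer_realHom (N : ℕ) [NeZero N] (γ : SL(2, ℤ)) (hγ : γ ∈ Gamma0 N)
    (a : FFL (AlgebraicClosure ℚ) N) :
    compSL γ (toMer N (realHom N embQ a)) = toMer N (realHom N embQ a) := by
  rw [← toMer_act, act_realHom_of_mem N embQ γ hγ a]

/-- **The analytic realisation of the Atkin–Lehner involution** (second team's copy of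
`s35kd_toMer_realHom_W`). -/
theorem s35kd_toMer_realHom_W_B (N q : ℕ) [NeZero N] [NeZero q] (hq : q.Prime) (hqN : ¬ q ∣ N)
    (γ₀ γ₁ : SL(2, ℤ)) (hγ₀ : γ₀ ∈ Gamma0 N) (hγ₁ : γ₁ ∈ Gamma0 N)
    (hmat : heckeMat q none * (γ₀ : Matrix (Fin 2) (Fin 2) ℤ) =
      (γ₁ : Matrix (Fin 2) (Fin 2) ℤ) * heckeMat q (some ⟨0, hq.pos⟩))
    (W : FFL (AlgebraicClosure ℚ) (N * q) ≃ₐ[AlgebraicClosure ℚ] FFL (AlgebraicClosure ℚ) (N * q))
    (hWβ : ∀ g : FFL (AlgebraicClosure ℚ) N,
      W (heckeBetaBar (AlgebraicClosure ℚ) N q g) = heckeAlphaBar (AlgebraicClosure ℚ) N q g)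
    (hWα : ∀ g : FFL (AlgebraicClosure ℚ) N,
      W (heckeAlphaBar (AlgebraicClosure ℚ) N q g) = heckeBetaBar (AlgebraicClosure ℚ) N q g)
    (x : FFL (AlgebraicClosure ℚ) (N * q)) :
    toMer (N * q) (realHom (N * q) embQ (W x)) =
      MobiusMer.compM q none (compSL γ₀ (toMer (N * q) (realHom (N * q) embQ x))) := by
  have _hqN := hqN
  -- the two sides on `α a`
  have hA : ∀ a : FFL (AlgebraicClosure ℚ) N,
      toMer (N * q) (realHom (N * q) embQ (W (heckeAlphaBar (AlgebraicClosure ℚ) N q a))) =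
        MobiusMer.compM q none (compSL γ₀ (toMer (N * q) (realHom (N * q) embQ
          (heckeAlphaBar (AlgebraicClosure ℚ) N q a)))) := by
    intro a
    rw [hWα, toMer_realHom_heckeBetaBar, toMer_realHom_heckeAlphaBar,
      s35kdwb_compSL_toMer_realHom N γ₀ hγ₀ a]
  -- the two sides on `β a`
  have hB : ∀ a : FFL (AlgebraicClosure ℚ) N,
      toMer (N * q) (realHom (N * q) embQ (W (heckeBetaBar (AlgebraicClosure ℚ) N q a))) =
        MobiusMer.compM q none (compSL γ₀ (toMer (N * q) (realHom (N * q) embQ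
          (heckeBetaBar (AlgebraicClosure ℚ) N q a)))) := by
    intro a
    rw [hWβ, toMer_realHom_heckeAlphaBar, toMer_realHom_heckeBetaBar,
      MobiusMer.compSL_compM_of_eq hq.ne_zero hmat, s35kdwb_compSL_toMer_realHom N γ₁ hγ₁ a,
      s35kdwb_compM_none_some hq.pos]
  have h : (toMer (N * q)).comp ((realHom (N * q) embQ).comp
        (W : FFL (AlgebraicClosure ℚ) (N * q) →+* FFL (AlgebraicClosure ℚ) (N * q))) =
      (MobiusMer.compM q none).comp ((compSL γ₀).comp
        ((toMer (N * q)).comp (realHom (N * q) embQ))) := by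
    refine FFL_ringHom_ext (N * q) (AlgebraicClosure ℚ) (fun c => ?_) (fun d hd => ?_)
    · have hc : algebraMap (AlgebraicClosure ℚ) (FFL (AlgebraicClosure ℚ) (N * q)) c =
          heckeAlphaBar (AlgebraicClosure ℚ) N q
            (algebraMap (AlgebraicClosure ℚ) (FFL (AlgebraicClosure ℚ) N) c) :=
        (AlgHom.commutes _ c).symm
      rw [hc]
      exact hA _
    · rcases s35kdwb_dvd_cases hq hd with hdN | ⟨d', hd'N, rfl⟩
      · have hj : jdL (N * q) (AlgebraicClosure ℚ) d hd =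
            heckeAlphaBar (AlgebraicClosure ℚ) N q (jdL N (AlgebraicClosure ℚ) d hdN) :=
          (RealDegen.heckeAlphaBar_jdL N q (AlgebraicClosure ℚ) d hdN).symm
        rw [hj]
        exact hA _
      · have hj : jdL (N * q) (AlgebraicClosure ℚ) (q * d') hd =
            heckeBetaBar (AlgebraicClosure ℚ) N q (jdL N (AlgebraicClosure ℚ) d' hd'N) :=
          (RealDegen.heckeBetaBar_jdL N q (AlgebraicClosure ℚ) d' hd'N).symm
        rw [hj]
        exact hB _
  exact RingHom.congr_fun h x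

end Fermat.Agent.S35
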