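import Fermat.Agent.S35.Defs
import Fermat.Agent.S35.KDNormAB
import Fermat.Agent.S35.KDMob
import Fermat.Agent.S35.KDWB
import Fermat.Agent.S35.KDRepsB
import Fermat.Agent.S42.NormConj
import Fermat.Agent.S37.ALEmb

/-!
# P20 (S35), block KD: the norm along `β` as a product of Möbius translates

`Norm_β (x) = Norm_α (W x)` for the Atkin–Lehner involution `W`, whose analytic realisation is
`x̃ ↦ x̃ (γ₀ (q τ))`; with the `A`-side formula (`KDNormA`) this gives
`Norm_β (x)~ = ∏ i, x̃ (r_i τ / q)` for the representatives `r_i = γ₁ δ_i` of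
`(Γ₀(N) ∩ Γ⁰(q)) \ Γ₀(N)`.
-/

set_option autoImplicit false
set_option linter.style.haveILetI false

namespace Fermat.Agent.S35

open Fermat.Agent.S24 Fermat.Agent.S31 Fermat.Agent.S42
open CongruenceSubgroup ModularCurve AlgebraicCurve UpperHalfPlane
open scoped MatrixGroups

/-- The norm of the extension `F_{Nq} / β(F_N)`. -/
noncomputable def s35kd_normBeta (N q : ℕ) [NeZero N] [NeZero q]
    (x : FFL (AlgebraicClosure ℚ) (N * q)) : FFL (AlgebraicClosure ℚ) N :=
  letI := algebraAlong (heckeBetaBar (AlgebraicClosure ℚ) N q)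
  Algebra.norm (FFL (AlgebraicClosure ℚ) N) x

theorem s35kd_normBeta_eq (N q : ℕ) [NeZero N] [NeZero q]
    (W : FFL (AlgebraicClosure ℚ) (N * q) ≃ₐ[AlgebraicClosure ℚ] FFL (AlgebraicClosure ℚ) (N * q))
    (hWβ : ∀ g : FFL (AlgebraicClosure ℚ) N,
      W (heckeBetaBar (AlgebraicClosure ℚ) N q g) = heckeAlphaBar (AlgebraicClosure ℚ) N q g)
    (x : FFL (AlgebraicClosure ℚ) (N * q)) :
    s35kd_normBeta N q x = NormConj.normAlpha N q (W x) :=
  @Algebra.norm_eq_of_equiv_equiv _ _ _ _ _ _ _ _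
    (algebraAlong (heckeBetaBar (AlgebraicClosure ℚ) N q))
    (algebraAlong (heckeAlphaBar (AlgebraicClosure ℚ) N q)) (RingEquiv.refl _) W.toRingEquiv
    (RingHom.ext fun g => (hWβ g).symm) x

/-- The analytic realisation of the norm along `β` is the product over representatives `r_i` of
`(Γ₀(N) ∩ Γ⁰(q)) \ Γ₀(N)` of the translates `τ ↦ x̃ (r_i τ / q)`. -/
theorem s35kd_toMer_normBeta (N q : ℕ) [NeZero N] [NeZero q] (hq : q.Prime) (hqN : ¬ q ∣ N) :
    ∃ R : S35RightReps (s35_HB N q) (Gamma0 N) (Option (Fin q)),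
      ∀ x : FFL (AlgebraicClosure ℚ) (N * q),
        toMer N (realHom N embQ (s35kd_normBeta N q x)) =
          ∏ i : Option (Fin q), compSL (R.r i)
            (MobiusMer.compM q (some ⟨0, hq.pos⟩) (toMer (N * q) (realHom (N * q) embQ x))) := by
  have hcop : Nat.Coprime N q := ((Nat.Prime.coprime_iff_not_dvd hq).2 hqN).symm
  obtain ⟨RA⟩ := s35kd_exists_repsA_B hq hqN
  obtain ⟨γ₀, γ₁, RB, hγ₀, hγ₁, hmat, hmat', hRB⟩ := s35kd_exists_repsB hq hqN RA
  obtain ⟨W, hWβ, hWα, -⟩ := Fermat.Agent.S37.exists_alInvolution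
    (L := AlgebraicClosure ℚ) embQ N q hcop
  refine ⟨RB, fun x => ?_⟩
  rw [s35kd_normBeta_eq N q W hWβ x, s35kd_toMer_normAlpha_B N q hq hqN RA (W x)]
  refine Finset.prod_congr rfl fun i _ => ?_
  rw [s35kd_toMer_realHom_W_B N q hq hqN γ₀ γ₁ hγ₀ hγ₁ hmat W hWβ hWα x, hRB i, compSL_mul,
    MobiusMer.compSL_compM_of_eq hq.ne_zero hmat']

end Fermat.Agent.S35
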