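import Fermat.Agent.S35.Defs
import Fermat.Agent.S35.KDA
import Fermat.Agent.S35.KDB
import Fermat.Agent.S42.Kummer
import Fermat.Agent.S42.KummerUnique
import Fermat.Agent.S31.GeomKummerB

/-!
# P20 (S35), block KD: the Kummer class of a `q`-new character lies in the `q`-new part

A `q`-new character `φ : Γ₀(N q) → ℤ/m` (reduction of an integral cuspidal character killed by the
two transfers to `Γ₀(N)`) has a Kummer class `x ∈ J₀(N q)[m]` with `α_* x = 0 = β_* x`.
-/

set_option autoImplicit false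
set_option linter.style.haveILetI false

namespace Fermat.Agent.S35

open Fermat.Agent.S24 Fermat.Agent.S31 Fermat.Agent.S42
open CongruenceSubgroup ModularCurve AlgebraicCurve UpperHalfPlane
open scoped MatrixGroups

/-- **(KD)** The Kummer class of a `q`-new character lies in the `q`-new part of the torsion. -/
theorem s35_kd {N q m : ℕ} [NeZero N] [NeZero q] [NeZero m] (hq : q.Prime) (hqN : ¬ q ∣ N)
    (S : Set ℕ) {φ : Additive ↥(Gamma0 (N * q)) →+ ZMod m} (hφ : s35New N q S m φ) :
    ∃ x : JZero (N * q), IsKummer (N * q) m φ x ∧ x ∈ s35_newPart N q m := by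
  obtain ⟨ψ, hψ, rfl⟩ := hφ
  obtain ⟨hcusp, hA, hB⟩ := hψ 1
  rw [map_one, Module.End.one_apply] at hcusp hA hB
  have hcusp' : IsCuspidalHom (N * q) ((Int.castAddHom (ZMod m)).comp ψ) := by
    intro γ hγ
    show ((ψ (Additive.ofMul γ) : ℤ) : ZMod m) = 0
    rw [hcusp γ hγ, Int.cast_zero]
  obtain ⟨x, hx⟩ := exists_isKummer_of_cuspidal (N * q) m _ hcusp'
  refine ⟨x, hx, s35_mem_newPart.mpr ⟨isKummer_mem_Jp hx, ?_, ?_⟩⟩
  · obtain ⟨R, hR⟩ := s35_isKummer_pushA hq hqN hx
    rw [R.cores_comp, hA R, AddMonoidHom.comp_zero] at hR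
    exact isKummer_unique hR (GeomKummerB.isKummer_zero_of hR)
  · obtain ⟨R, hR⟩ := s35_isKummer_pushB hq hqN hx
    rw [s35_charB_comp, R.cores_comp, hB R, AddMonoidHom.comp_zero] at hR
    exact isKummer_unique hR (GeomKummerB.isKummer_zero_of hR)

end Fermat.Agent.S35
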