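import Mathlib

/-!
P20 (S35), block LAT: the abstract core of the new-part lattice bound (note 779 §2), Mathlib-only.

* `s35_lat_dvd_of_scaleRoots` : if `c` is a root of `scaleRoots χ d` (`χ ∈ ℤ[X]` monic), then the
  image of `c` in an integrally closed domain `O` with `d ≠ 0` is divisible by `d`.
* `s35_lat_core` : let the algebra `F` act on a finitely generated torsion-free abelian group `H`
  (`ev`), let `C ≤ H` be an `F`-stable subgroup and `θ : F →+* R` an "eigencharacter" which is
  faithful on `C` (`ev e = 0` on `C` implies `θ e = 0`).  If `ev e` maps `C` into `d • C`, then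
  `iota (θ e)` is divisible by `d` in every integrally closed domain `O` receiving `R` in which
  `d ≠ 0` (Cayley–Hamilton for `ev e / d` on `C` + `scaleRoots`).  No constant is lost.
-/

set_option autoImplicit false

namespace Fermat.Agent.S35

open Polynomial

/-- If `c` is a root of `scaleRoots χ d` with `χ ∈ ℤ[X]` monic, then the image of `c` in an
integrally closed domain in which `d ≠ 0` is divisible by `d`. -/
theorem s35_lat_dvd_of_scaleRoots {R O : Type*} [CommRing R] [CommRing O] [IsDomain O]
    [IsIntegrallyClosed O] (iota : R →+* O) (d : ℤ) (hd : (d : O) ≠ 0) (c : R) (χ : ℤ[X])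
    (hχ : χ.Monic) (h : aeval c (scaleRoots χ d) = 0) : ∃ y : O, iota c = (d : O) * y := by
  have hdK : ((d : ℤ) : FractionRing O) ≠ 0 := by
    have h1 : ((d : ℤ) : FractionRing O) = algebraMap O (FractionRing O) (d : O) := by
      rw [map_intCast]
    rw [h1]
    exact (map_ne_zero_iff _ (IsFractionRing.injective O (FractionRing O))).mpr hd
  -- the relation, transported to the fraction field
  have h1 : eval₂ (Int.castRingHom (FractionRing O))
      (algebraMap O (FractionRing O) (iota c)) (scaleRoots χ d) = 0 := by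
    have h2 : ((algebraMap O (FractionRing O)).comp iota)
        (eval₂ (Int.castRingHom R) c (scaleRoots χ d)) = 0 := by
      have h3 : eval₂ (Int.castRingHom R) c (scaleRoots χ d) = aeval c (scaleRoots χ d) := by
        rw [aeval_def, algebraMap_int_eq]
      rw [h3, h, map_zero]
    rw [hom_eval₂] at h2
    have h4 : ((algebraMap O (FractionRing O)).comp iota).comp (Int.castRingHom R) =
        Int.castRingHom (FractionRing O) := RingHom.ext_int _ _
    rw [h4] at h2
    exact h2
  have h5 : Int.castRingHom (FractionRing O) d *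
      (algebraMap O (FractionRing O) (iota c) / ((d : ℤ) : FractionRing O)) =
      algebraMap O (FractionRing O) (iota c) := by
    rw [eq_intCast]
    field_simp
  have h6 := scaleRoots_eval₂_mul (p := χ) (Int.castRingHom (FractionRing O))
    (algebraMap O (FractionRing O) (iota c) / ((d : ℤ) : FractionRing O)) d
  rw [h5, h1] at h6
  have h7 : eval₂ (Int.castRingHom (FractionRing O))
      (algebraMap O (FractionRing O) (iota c) / ((d : ℤ) : FractionRing O)) χ = 0 := by
    rcases mul_eq_zero.mp h6.symm with h8 | h8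
    · rw [eq_intCast] at h8
      exact absurd h8 (pow_ne_zero _ hdK)
    · exact h8
  have hint : IsIntegral ℤ
      (algebraMap O (FractionRing O) (iota c) / ((d : ℤ) : FractionRing O)) :=
    ⟨χ, hχ, by
      have h9 : algebraMap ℤ (FractionRing O) = Int.castRingHom (FractionRing O) :=
        RingHom.ext_int _ _
      rw [h9]
      exact h7⟩
  have hintO : IsIntegral O
      (algebraMap O (FractionRing O) (iota c) / ((d : ℤ) : FractionRing O)) := hint.tower_top
  obtain ⟨y, hy⟩ := IsIntegrallyClosed.isIntegral_iff.mp hintO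
  refine ⟨y, IsFractionRing.injective O (FractionRing O) ?_⟩
  rw [map_mul, hy, map_intCast]
  field_simp

/-- **Abstract new-part lattice bound.**  See the file header. -/
theorem s35_lat_core {F H : Type*} [Ring F] [Algebra ℤ F] [AddCommGroup H] [Module.Finite ℤ H]
    (htf : ∀ (n : ℤ) (ψ : H), n ≠ 0 → n • ψ = 0 → ψ = 0)
    (ev : F →ₐ[ℤ] Module.End ℤ H) (C : Submodule ℤ H)
    (hstab : ∀ e : F, ∀ ψ ∈ C, ev e ψ ∈ C)
    {R O : Type*} [CommRing R] [CommRing O] [IsDomain O] [IsIntegrallyClosed O]
    (θ : F →+* R)
    (hfaith : ∀ e : F, (∀ ψ ∈ C, ev e ψ = 0) → θ e = 0)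
    (iota : R →+* O) (d : ℤ) (hd : (d : O) ≠ 0) (e : F)
    (hdiv : ∀ ψ ∈ C, ∃ ψ' ∈ C, ev e ψ = d • ψ') :
    ∃ y : O, iota (θ e) = (d : O) * y := by
  classical
  have hd0 : d ≠ 0 := by
    rintro rfl
    exact hd (by simp)
  have : Module.IsTorsionFree ℤ H := ⟨fun r hr a b hab => by
    have hr0 : r ≠ 0 := hr.ne_zero
    have h1 : r • (a - b) = 0 := by
      rw [smul_sub, sub_eq_zero]
      exact hab
    exact sub_eq_zero.mp (htf r _ hr0 h1)⟩
  have hinj : ∀ x y : C, d • x = d • y → x = y := by
    intro x y hxy
    apply Subtype.ext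
    have h1 : d • ((x : H) - (y : H)) = 0 := by
      rw [smul_sub, sub_eq_zero]
      exact congrArg Subtype.val hxy
    exact sub_eq_zero.mp (htf d _ hd0 h1)
  -- the restricted action
  let ρ : F →ₐ[ℤ] Module.End ℤ C :=
    { toFun := fun a => (ev a).restrict (hstab a)
      map_one' := by
        ext ψ
        simp
      map_mul' := fun a b => by
        ext ψ
        simp [Module.End.mul_apply]
      map_zero' := by
        ext ψ
        simp
      map_add' := fun a b => by
        ext ψ
        simp
      commutes' := fun n => by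
        ext ψ
        simp }
  have hρ : ∀ (a : F) (ψ : C), ((ρ a ψ : C) : H) = ev a (ψ : H) := fun a ψ => rfl
  -- division by `d`
  have hex : ∀ ψ : C, ∃ ψ' : C, ρ e ψ = d • ψ' := by
    intro ψ
    obtain ⟨ψ', hψ', h⟩ := hdiv ψ ψ.2
    exact ⟨⟨ψ', hψ'⟩, Subtype.ext (by rw [hρ]; exact h)⟩
  choose g hg using hex
  have hgadd : ∀ a b : C, g (a + b) = g a + g b := by
    intro a b
    apply hinj
    rw [← hg, map_add, hg, hg, smul_add]
  let E : Module.End ℤ C := (AddMonoidHom.mk' g hgadd).toIntLinearMap
  have hE : ρ e = d • E := by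
    ext ψ
    rw [hg]
    rfl
  -- Cayley–Hamilton, scaled
  have hCH := LinearMap.aeval_self_charpoly E
  have h2 := scaleRoots_aeval_eq_zero (r := d) hCH
  rw [← Algebra.smul_def, ← hE, Polynomial.aeval_algHom_apply ρ e] at h2
  have h3 : θ (aeval e (scaleRoots E.charpoly d)) = 0 := by
    apply hfaith
    intro ψ hψ
    have h4 := LinearMap.congr_fun h2 ⟨ψ, hψ⟩
    exact congrArg Subtype.val h4
  -- `θ` as an algebra homomorphism
  let θ' : F →ₐ[ℤ] R :=
    { θ with
      commutes' := fun n => by
        show θ (algebraMap ℤ F n) = algebraMap ℤ R n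
        rw [eq_intCast (algebraMap ℤ F) n, eq_intCast (algebraMap ℤ R) n, map_intCast] }
  have h5 : aeval (θ e) (scaleRoots E.charpoly d) = 0 := by
    have h6 := Polynomial.aeval_algHom_apply θ' e (scaleRoots E.charpoly d)
    have h7 : θ' (aeval e (scaleRoots E.charpoly d)) = θ (aeval e (scaleRoots E.charpoly d)) := rfl
    have h8 : θ' e = θ e := rfl
    rw [h8, h7, h3] at h6
    exact h6
  exact s35_lat_dvd_of_scaleRoots iota d hd (θ e) E.charpoly (LinearMap.charpoly_monic E) h5

end Fermat.Agent.S35
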