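import Mathlib
import Fermat.Agent.S35.LatCore

/-!
P20 (S35), block LAT (i): corestriction (transfer) of additive characters and the new lattice.
Mathlib-only (+ `LatCore`).

* `S35RightReps H G ι` : a system of representatives `r i` of the right cosets `H \ G`
  (`H`, `G` subgroups of an ambient group).  For `δ ∈ G` the index `R.idx δ i` and the element
  `R.elt δ i ∈ H` are defined by `r i * δ = elt δ i * r (idx δ i)`.
* `R.cores φ` : the corestriction (transfer) `G → A` of an additive character `φ : H → A`,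
  `cores φ δ = ∑ i, φ (elt δ i)`; `R.cores_eq_sum` : the same formula for ANY datum
  `r i * δ = h i * r (π i)`; `R.cores_comp` : naturality in the coefficient group.
* `s35_newLattice ev C c₁ c₂` : the largest `ev`-stable subgroup of `C` killed by `c₁` and `c₂`;
  it is stable (`s35_newLattice_stable`) and saturated (`s35_newLattice_saturated`).
* `s35_lat_new` : the new-part lattice bound for `s35_newLattice` (from `s35_lat_core`).
-/

set_option autoImplicit false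

namespace Fermat.Agent.S35

section Reps

variable {𝔾 : Type*} [Group 𝔾]

/-- A system of representatives `r i` of the right cosets `H \ G`. -/
structure S35RightReps (H G : Subgroup 𝔾) (ι : Type*) where
  /-- the representatives -/
  r : ι → 𝔾
  mem : ∀ i, r i ∈ G
  cover : ∀ g ∈ G, ∃ i, g * (r i)⁻¹ ∈ H
  inj : ∀ i j, r i * (r j)⁻¹ ∈ H → i = j

namespace S35RightReps

variable {H G : Subgroup 𝔾} {ι : Type*} (R : S35RightReps H G ι)

theorem exists_idx (δ : G) (i : ι) : ∃ j, R.r i * (δ : 𝔾) * (R.r j)⁻¹ ∈ H :=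
  R.cover (R.r i * (δ : 𝔾)) (G.mul_mem (R.mem i) δ.2)

/-- the index of the coset of `r i * δ` -/
noncomputable def idx (δ : G) (i : ι) : ι := Classical.choose (R.exists_idx δ i)

theorem idx_spec (δ : G) (i : ι) : R.r i * (δ : 𝔾) * (R.r (R.idx δ i))⁻¹ ∈ H :=
  Classical.choose_spec (R.exists_idx δ i)

theorem idx_eq {δ : G} {i j : ι} (h : R.r i * (δ : 𝔾) * (R.r j)⁻¹ ∈ H) : R.idx δ i = j := by
  apply R.inj
  have h1 : R.r (R.idx δ i) * (R.r j)⁻¹ =
      (R.r i * (δ : 𝔾) * (R.r (R.idx δ i))⁻¹)⁻¹ * (R.r i * (δ : 𝔾) * (R.r j)⁻¹) := by group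
  rw [h1]
  exact H.mul_mem (H.inv_mem (R.idx_spec δ i)) h

/-- the element `h ∈ H` with `r i * δ = h * r (idx δ i)` -/
noncomputable def elt (δ : G) (i : ι) : H := ⟨R.r i * (δ : 𝔾) * (R.r (R.idx δ i))⁻¹, R.idx_spec δ i⟩

theorem coe_elt (δ : G) (i : ι) :
    ((R.elt δ i : H) : 𝔾) = R.r i * (δ : 𝔾) * (R.r (R.idx δ i))⁻¹ := rfl

theorem elt_mul_r (δ : G) (i : ι) :
    ((R.elt δ i : H) : 𝔾) * R.r (R.idx δ i) = R.r i * (δ : 𝔾) := by
  rw [coe_elt]
  group

theorem idx_mul (δ δ' : G) (i : ι) : R.idx (δ * δ') i = R.idx δ' (R.idx δ i) := by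
  apply R.idx_eq
  have h1 : R.r i * ((δ * δ' : G) : 𝔾) * (R.r (R.idx δ' (R.idx δ i)))⁻¹ =
      (R.r i * (δ : 𝔾) * (R.r (R.idx δ i))⁻¹) *
        (R.r (R.idx δ i) * (δ' : 𝔾) * (R.r (R.idx δ' (R.idx δ i)))⁻¹) := by
    rw [Subgroup.coe_mul]
    group
  rw [h1]
  exact H.mul_mem (R.idx_spec δ i) (R.idx_spec δ' (R.idx δ i))

theorem elt_mul (δ δ' : G) (i : ι) :
    R.elt (δ * δ') i = R.elt δ i * R.elt δ' (R.idx δ i) := by
  apply Subtype.ext
  rw [Subgroup.coe_mul, coe_elt, coe_elt, coe_elt, R.idx_mul, Subgroup.coe_mul]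
  group

theorem idx_one (i : ι) : R.idx (1 : G) i = i := by
  apply R.idx_eq
  have h1 : R.r i * ((1 : G) : 𝔾) * (R.r i)⁻¹ = 1 := by
    rw [Subgroup.coe_one]
    group
  rw [h1]
  exact H.one_mem

/-- the permutation of the cosets induced by right multiplication by `δ` -/
noncomputable def perm (δ : G) : Equiv.Perm ι where
  toFun := R.idx δ
  invFun := R.idx δ⁻¹
  left_inv := fun i => by rw [← R.idx_mul, mul_inv_cancel, R.idx_one]
  right_inv := fun i => by rw [← R.idx_mul, inv_mul_cancel, R.idx_one]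

@[simp] theorem perm_apply (δ : G) (i : ι) : R.perm δ i = R.idx δ i := rfl

/-- uniqueness of the datum -/
theorem eq_of_datum (δ : G) (π : ι → ι) (h : ι → H)
    (hd : ∀ i, R.r i * (δ : 𝔾) = (h i : 𝔾) * R.r (π i)) (i : ι) :
    R.idx δ i = π i ∧ R.elt δ i = h i := by
  have h1 : R.r i * (δ : 𝔾) * (R.r (π i))⁻¹ = (h i : 𝔾) := by
    rw [hd i]
    group
  have h2 : R.idx δ i = π i := R.idx_eq (by rw [h1]; exact (h i).2)
  refine ⟨h2, Subtype.ext ?_⟩
  rw [coe_elt, h2, h1]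

variable [Fintype ι] {A : Type*} [AddCommGroup A]

/-- The corestriction (transfer) of an additive character of `H` to `G`. -/
noncomputable def cores (φ : Additive H →+ A) : Additive G →+ A :=
  AddMonoidHom.mk' (fun δ => ∑ i, φ (Additive.ofMul (R.elt (Additive.toMul δ) i))) (by
    intro a b
    have h1 : ∀ i, φ (Additive.ofMul (R.elt (Additive.toMul (a + b)) i)) =
        φ (Additive.ofMul (R.elt (Additive.toMul a) i)) +
          φ (Additive.ofMul (R.elt (Additive.toMul b) (R.perm (Additive.toMul a) i))) := by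
      intro i
      rw [toMul_add, R.elt_mul, ofMul_mul, map_add]
      rfl
    rw [Finset.sum_congr rfl (fun i _ => h1 i), Finset.sum_add_distrib]
    congr 1
    exact Equiv.sum_comp (R.perm (Additive.toMul a))
      (fun j => φ (Additive.ofMul (R.elt (Additive.toMul b) j))))

theorem cores_apply (φ : Additive H →+ A) (δ : G) :
    R.cores φ (Additive.ofMul δ) = ∑ i, φ (Additive.ofMul (R.elt δ i)) := rfl

/-- The corestriction, computed from any datum `r i * δ = h i * r (π i)`. -/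
theorem cores_eq_sum (φ : Additive H →+ A) (δ : G) (π : ι → ι) (h : ι → H)
    (hd : ∀ i, R.r i * (δ : 𝔾) = (h i : 𝔾) * R.r (π i)) :
    R.cores φ (Additive.ofMul δ) = ∑ i, φ (Additive.ofMul (h i)) := by
  rw [cores_apply]
  refine Finset.sum_congr rfl fun i _ => ?_
  rw [(R.eq_of_datum δ π h hd i).2]

/-- Naturality of the corestriction in the coefficient group. -/
theorem cores_comp {B : Type*} [AddCommGroup B] (f : A →+ B) (φ : Additive H →+ A) :
    R.cores (f.comp φ) = f.comp (R.cores φ) := by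
  refine AddMonoidHom.ext fun δ => ?_
  show ∑ i, f (φ (Additive.ofMul (R.elt (Additive.toMul δ) i))) =
    f (∑ i, φ (Additive.ofMul (R.elt (Additive.toMul δ) i)))
  rw [map_sum]

theorem cores_add (φ ψ : Additive H →+ A) : R.cores (φ + ψ) = R.cores φ + R.cores ψ := by
  refine AddMonoidHom.ext fun δ => ?_
  show ∑ i, (φ + ψ) (Additive.ofMul (R.elt (Additive.toMul δ) i)) =
    ∑ i, φ (Additive.ofMul (R.elt (Additive.toMul δ) i)) +
      ∑ i, ψ (Additive.ofMul (R.elt (Additive.toMul δ) i))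
  rw [← Finset.sum_add_distrib]
  rfl

theorem cores_zero : R.cores (0 : Additive H →+ A) = 0 := by
  refine AddMonoidHom.ext fun δ => ?_
  show ∑ i, (0 : Additive H →+ A) (Additive.ofMul (R.elt (Additive.toMul δ) i)) = 0
  simp

/-- The corestriction as an additive map on characters. -/
noncomputable def coresHom : (Additive H →+ A) →+ (Additive G →+ A) :=
  AddMonoidHom.mk' R.cores R.cores_add

@[simp] theorem coresHom_apply (φ : Additive H →+ A) : R.coresHom φ = R.cores φ := rfl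

end S35RightReps

end Reps

section New

variable {F X Y₁ Y₂ : Type*} [Ring F] [Algebra ℤ F] [AddCommGroup X] [AddCommGroup Y₁]
  [AddCommGroup Y₂]

/-- The largest `ev`-stable subgroup of `C` killed by `c₁` and `c₂`. -/
def s35_newLattice (ev : F →ₐ[ℤ] Module.End ℤ X) (C : Submodule ℤ X) (c₁ : X →+ Y₁)
    (c₂ : X →+ Y₂) : Submodule ℤ X where
  carrier := {ψ | ∀ e : F, ev e ψ ∈ C ∧ c₁ (ev e ψ) = 0 ∧ c₂ (ev e ψ) = 0}
  add_mem' := by
    intro a b ha hb e
    obtain ⟨h1, h2, h3⟩ := ha e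
    obtain ⟨h1', h2', h3'⟩ := hb e
    refine ⟨?_, ?_, ?_⟩
    · rw [map_add]; exact C.add_mem h1 h1'
    · rw [map_add, map_add, h2, h2', add_zero]
    · rw [map_add, map_add, h3, h3', add_zero]
  zero_mem' := by
    intro e
    refine ⟨?_, ?_, ?_⟩
    · rw [map_zero]; exact C.zero_mem
    · rw [map_zero, map_zero]
    · rw [map_zero, map_zero]
  smul_mem' := by
    intro n a ha e
    obtain ⟨h1, h2, h3⟩ := ha e
    refine ⟨?_, ?_, ?_⟩
    · rw [map_smul]; exact C.smul_mem n h1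
    · rw [map_smul, map_zsmul, h2, smul_zero]
    · rw [map_smul, map_zsmul, h3, smul_zero]

theorem s35_mem_newLattice {ev : F →ₐ[ℤ] Module.End ℤ X} {C : Submodule ℤ X} {c₁ : X →+ Y₁}
    {c₂ : X →+ Y₂} {ψ : X} :
    ψ ∈ s35_newLattice ev C c₁ c₂ ↔ ∀ e : F, ev e ψ ∈ C ∧ c₁ (ev e ψ) = 0 ∧ c₂ (ev e ψ) = 0 :=
  Iff.rfl

theorem s35_newLattice_le (ev : F →ₐ[ℤ] Module.End ℤ X) (C : Submodule ℤ X) (c₁ : X →+ Y₁)
    (c₂ : X →+ Y₂) : s35_newLattice ev C c₁ c₂ ≤ C := by
  intro ψ hψ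
  have h := (hψ 1).1
  rwa [map_one, Module.End.one_apply] at h

/-- The new lattice is stable under the action. -/
theorem s35_newLattice_stable (ev : F →ₐ[ℤ] Module.End ℤ X) (C : Submodule ℤ X) (c₁ : X →+ Y₁)
    (c₂ : X →+ Y₂) (e : F) {ψ : X} (hψ : ψ ∈ s35_newLattice ev C c₁ c₂) :
    ev e ψ ∈ s35_newLattice ev C c₁ c₂ := by
  intro e'
  have h := hψ (e' * e)
  rwa [map_mul, Module.End.mul_apply] at h

/-- The new lattice is saturated (if `C` is, and the targets of `c₁`, `c₂` are torsion-free). -/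
theorem s35_newLattice_saturated (ev : F →ₐ[ℤ] Module.End ℤ X) (C : Submodule ℤ X)
    (c₁ : X →+ Y₁) (c₂ : X →+ Y₂)
    (hC : ∀ (n : ℤ) (ψ : X), n ≠ 0 → n • ψ ∈ C → ψ ∈ C)
    (h₁ : ∀ (n : ℤ) (y : Y₁), n ≠ 0 → n • y = 0 → y = 0)
    (h₂ : ∀ (n : ℤ) (y : Y₂), n ≠ 0 → n • y = 0 → y = 0)
    (n : ℤ) (hn : n ≠ 0) {ψ : X} (hψ : n • ψ ∈ s35_newLattice ev C c₁ c₂) :
    ψ ∈ s35_newLattice ev C c₁ c₂ := by
  intro e
  obtain ⟨h1, h2, h3⟩ := hψ e
  rw [map_smul] at h1 h2 h3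
  refine ⟨hC n _ hn h1, h₁ n _ hn ?_, h₂ n _ hn ?_⟩
  · rw [← map_zsmul]; exact h2
  · rw [← map_zsmul]; exact h3

/-- **The new-part lattice bound, abstract form.**  `X` a finitely generated torsion-free abelian
group with an action `ev` of `F`; `θ` an eigencharacter which is faithful on the new lattice.  If
`ev e` maps the new lattice into `d • X`, then `iota (θ e)` is divisible by `d`. -/
theorem s35_lat_new [Module.Finite ℤ X]
    (htf : ∀ (n : ℤ) (ψ : X), n ≠ 0 → n • ψ = 0 → ψ = 0)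
    (ev : F →ₐ[ℤ] Module.End ℤ X) (C : Submodule ℤ X) (c₁ : X →+ Y₁) (c₂ : X →+ Y₂)
    (hC : ∀ (n : ℤ) (ψ : X), n ≠ 0 → n • ψ ∈ C → ψ ∈ C)
    (h₁ : ∀ (n : ℤ) (y : Y₁), n ≠ 0 → n • y = 0 → y = 0)
    (h₂ : ∀ (n : ℤ) (y : Y₂), n ≠ 0 → n • y = 0 → y = 0)
    {R O : Type*} [CommRing R] [CommRing O] [IsDomain O] [IsIntegrallyClosed O]
    (θ : F →+* R)
    (hfaith : ∀ e : F, (∀ ψ ∈ s35_newLattice ev C c₁ c₂, ev e ψ = 0) → θ e = 0)
    (iota : R →+* O) (d : ℤ) (hd : (d : O) ≠ 0) (e : F)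
    (hdiv : ∀ ψ ∈ s35_newLattice ev C c₁ c₂, ∃ ψ' : X, ev e ψ = d • ψ') :
    ∃ y : O, iota (θ e) = (d : O) * y := by
  have hd0 : d ≠ 0 := by
    rintro rfl
    exact hd (by simp)
  refine s35_lat_core htf ev (s35_newLattice ev C c₁ c₂)
    (fun a ψ hψ => s35_newLattice_stable ev C c₁ c₂ a hψ) θ hfaith iota d hd e ?_
  intro ψ hψ
  obtain ⟨ψ', hψ'⟩ := hdiv ψ hψ
  refine ⟨ψ', ?_, hψ'⟩
  apply s35_newLattice_saturated ev C c₁ c₂ hC h₁ h₂ d hd0
  rw [← hψ']
  exact s35_newLattice_stable ev C c₁ c₂ e hψ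

end New

end Fermat.Agent.S35
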