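import Fermat.Agent.S35.LatNew
import Fermat.Agent.S31.CharLattice
import Fermat.Agent.S35.LatCores

/-!
# P20 (S35), block LAT: the new-part lattice bound

`s35_lat_bound`: an element `e` of the free algebra on the good primes which kills the reductions
modulo `lam ^ n` of the `q`-new integral characters of `Γ₀(N q)` has `χ_g (evHecke e)` divisible
by `lam ^ n` (no constant is lost).

Proof: `LatCores.s35_lat_new` for the lattice of integral characters of `Γ₀(N q)` with the action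
`evChar`, the cuspidal characters and the two transfers (for all systems of representatives at
once).  Faithfulness of the eigencharacter of `g` on the new lattice: the period character `P` of
`g` is an eigenvector of `evChar ℂ` (`S31.Faithful.periodMap_evHecke`) which is cuspidal and killed
by both transfers (`s35_cores_periodMap_eq_zero`); composing with a `ℚ`-linear functional and
clearing denominators (`S31.Faithful.exists_int_functional`) gives new integral characters.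
-/

set_option autoImplicit false

namespace Fermat.Agent.S35

open CongruenceSubgroup ModularCurve AlgebraicCurve UpperHalfPlane
open Fermat.Agent.S31 Fermat.Agent.S42 Fermat.Agent.S30
open scoped MatrixGroups

/-- A normalised eigenform is an eigenvector of `evHecke e` with eigenvalue `χ (evHecke e)`, for
every ring homomorphism `χ` of the Hecke algebra taking the value `a_ℓ` at `T_ℓ`. -/
theorem s35lat_evHecke_eigen {M : ℕ} [NeZero M] (S : Set ℕ) {g : CuspForm (Gamma0 M) 2}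
    (hg : g.IsNormalizedEigenform)
    (chig : CuspForm.heckeAlgebra M 2 S →+* ℂ)
    (hchig : ∀ (ℓ : ℕ) (hℓ : ℓ.Prime) (hℓM : ¬ ℓ ∣ M) (hℓS : ℓ ∉ S),
      chig (CuspForm.heckeAlgebra.T hℓ hℓM hℓS) = ModularFormClass.qCoeff g ℓ)
    (e : FreeAlgebra ℤ (GoodPrime M S)) :
    (evHecke M S e : Module.End ℂ (CuspForm (Gamma0 M) 2)) g = chig (evHecke M S e) • g := by
  induction e using FreeAlgebra.induction with
  | grade0 r =>
    rw [AlgHom.commutes]
    have h1 : ((algebraMap ℤ (CuspForm.heckeAlgebra M 2 S) r : CuspForm.heckeAlgebra M 2 S) :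
        Module.End ℂ (CuspForm (Gamma0 M) 2)) g = r • g := by
      have h2 : ((algebraMap ℤ (CuspForm.heckeAlgebra M 2 S) r : CuspForm.heckeAlgebra M 2 S) :
          Module.End ℂ (CuspForm (Gamma0 M) 2))
          = algebraMap ℤ (Module.End ℂ (CuspForm (Gamma0 M) 2)) r := rfl
      rw [h2, eq_intCast, Module.End.intCast_apply]
    rw [h1, eq_intCast, map_intCast]
    exact (Int.cast_smul_eq_zsmul ℂ r g).symm
  | grade1 ℓ =>
    rw [evHecke_ι, CuspForm.heckeAlgebra.coe_T, hchig]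
    exact heckeTLin_eq_qCoeff_smul hg ℓ.2.1 ℓ.2.2.1
  | mul a b ha hb =>
    rw [map_mul]
    have h1 : ((evHecke M S a * evHecke M S b : CuspForm.heckeAlgebra M 2 S) :
        Module.End ℂ (CuspForm (Gamma0 M) 2)) g
        = (evHecke M S a : Module.End ℂ (CuspForm (Gamma0 M) 2))
          ((evHecke M S b : Module.End ℂ (CuspForm (Gamma0 M) 2)) g) := rfl
    rw [h1, hb, map_smul, ha, smul_smul, map_mul, mul_comm]
  | add a b ha hb =>
    rw [map_add]
    have h1 : ((evHecke M S a + evHecke M S b : CuspForm.heckeAlgebra M 2 S) :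
        Module.End ℂ (CuspForm (Gamma0 M) 2)) g
        = (evHecke M S a : Module.End ℂ (CuspForm (Gamma0 M) 2)) g
          + (evHecke M S b : Module.End ℂ (CuspForm (Gamma0 M) 2)) g := rfl
    rw [h1, ha, hb, map_add, add_smul]

/-- The period character of a normalised eigenform is an eigenvector of `evChar ℂ e`. -/
theorem s35lat_evChar_periodMap {M : ℕ} [NeZero M] (S : Set ℕ) {g : CuspForm (Gamma0 M) 2}
    (hg : g.IsNormalizedEigenform)
    (chig : CuspForm.heckeAlgebra M 2 S →+* ℂ)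
    (hchig : ∀ (ℓ : ℕ) (hℓ : ℓ.Prime) (hℓM : ¬ ℓ ∣ M) (hℓS : ℓ ∉ S),
      chig (CuspForm.heckeAlgebra.T hℓ hℓM hℓS) = ModularFormClass.qCoeff g ℓ)
    (e : FreeAlgebra ℤ (GoodPrime M S)) (γ : Additive ↥(Gamma0 M)) :
    evChar M S ℂ e (periodMap M g) γ = chig (evHecke M S e) * periodMap M g γ := by
  obtain ⟨pml, hpml⟩ := Fermat.Agent.S21.existsPeriodMapLinear' M
  rw [← Faithful.periodMap_evHecke, s35lat_evHecke_eigen S hg chig hchig e, ← hpml, ← hpml,
    map_smul]
  rfl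

/-- (LAT) The new-part lattice bound. -/
theorem s35_lat_bound {N q : ℕ} [NeZero N] [NeZero q] (hq : q.Prime) (hqN : ¬ q ∣ N)
    {g : CuspForm (Gamma0 (N * q)) 2} (hg : g.IsNewform) (lam : ℕ) [Fact lam.Prime]
    (S : Finset ℕ)
    (O' : Type) [CommRing O'] [IsDomain O'] [IsDiscreteValuationRing O'] [CharZero O']
    (chig : CuspForm.heckeAlgebra (N * q) 2 (↑S : Set ℕ) →+* ℂ)
    (hchig : ∀ (ℓ : ℕ) (hℓ : ℓ.Prime) (hℓM : ¬ ℓ ∣ N * q) (hℓS : ℓ ∉ (↑S : Set ℕ)),
      chig (CuspForm.heckeAlgebra.T hℓ hℓM hℓS) = ModularFormClass.qCoeff g ℓ)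
    (iota : chig.range →+* O') :
    ∃ c : ℕ, ∀ (n : ℕ) (e : FreeAlgebra ℤ (GoodPrime (N * q) (↑S : Set ℕ))),
      (∀ φ : Additive ↥(Gamma0 (N * q)) →+ ZMod (lam ^ n), s35New N q (↑S : Set ℕ) (lam ^ n) φ →
        evChar (N * q) (↑S : Set ℕ) (ZMod (lam ^ n)) e φ = 0) →
      ∃ t : O', (iota.comp chig.rangeRestrict) (evHecke (N * q) (↑S : Set ℕ) e)
        = (lam : O') ^ (n - c) * t := by
  classical
  have hlam : lam.Prime := Fact.out
  refine ⟨0, fun n e he => ?_⟩
  -- the lattice of integral characters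
  have hfin : Module.Finite ℤ (Additive ↥(Gamma0 (N * q)) →+ ℤ) :=
    CharLattice.finite_hom_int (gamma0_fg (N * q))
  have htf : ∀ (k : ℤ) (ψ : Additive ↥(Gamma0 (N * q)) →+ ℤ), k ≠ 0 → k • ψ = 0 → ψ = 0 := by
    intro k ψ hk h
    refine AddMonoidHom.ext fun γ => ?_
    have h1 := DFunLike.congr_fun h γ
    rw [AddMonoidHom.smul_apply, smul_eq_mul] at h1
    exact (mul_eq_zero.mp h1).resolve_left hk
  -- the cuspidal characters
  let Ccusp : Submodule ℤ (Additive ↥(Gamma0 (N * q)) →+ ℤ) :=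
    { carrier := {ψ | IsCuspidalHom (N * q) ψ}
      add_mem' := by
        intro a b ha hb γ hγ
        rw [AddMonoidHom.add_apply, ha γ hγ, hb γ hγ, add_zero]
      zero_mem' := fun γ _ => rfl
      smul_mem' := by
        intro r a ha γ hγ
        rw [AddMonoidHom.smul_apply, ha γ hγ, smul_zero] }
  have hCcusp : ∀ ψ : Additive ↥(Gamma0 (N * q)) →+ ℤ, ψ ∈ Ccusp ↔ IsCuspidalHom (N * q) ψ :=
    fun ψ => Iff.rfl
  have hCsat : ∀ (k : ℤ) (ψ : Additive ↥(Gamma0 (N * q)) →+ ℤ), k ≠ 0 → k • ψ ∈ Ccusp →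
      ψ ∈ Ccusp := by
    intro k ψ hk h γ hγ
    have h1 := h γ hγ
    rw [AddMonoidHom.smul_apply, smul_eq_mul] at h1
    exact (mul_eq_zero.mp h1).resolve_left hk
  -- the two transfers, for all systems of representatives at once
  let c₁ : (Additive ↥(Gamma0 (N * q)) →+ ℤ) →+
      ((R : S35RightReps (Gamma0 (N * q)) (Gamma0 N) (Option (Fin q))) →
        (Additive ↥(Gamma0 N) →+ ℤ)) :=
    AddMonoidHom.mk' (fun ψ R => R.cores ψ) (fun a b => funext fun R => R.cores_add a b)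
  let c₂ : (Additive ↥(Gamma0 (N * q)) →+ ℤ) →+
      ((R : S35RightReps (s35_HB N q) (Gamma0 N) (Option (Fin q))) →
        (Additive ↥(Gamma0 N) →+ ℤ)) :=
    AddMonoidHom.mk' (fun ψ R => R.cores (s35_charB N q ψ))
      (fun a b => funext fun R => R.cores_add (s35_charB N q a) (s35_charB N q b))
  have hc₁ : ∀ ψ, c₁ ψ = 0 ↔
      ∀ R : S35RightReps (Gamma0 (N * q)) (Gamma0 N) (Option (Fin q)), R.cores ψ = 0 :=
    fun ψ => ⟨fun h R => congrFun h R, fun h => funext fun R => h R⟩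
  have hc₂ : ∀ ψ, c₂ ψ = 0 ↔
      ∀ R : S35RightReps (s35_HB N q) (Gamma0 N) (Option (Fin q)),
        R.cores (s35_charB N q ψ) = 0 :=
    fun ψ => ⟨fun h R => congrFun h R, fun h => funext fun R => h R⟩
  have htf₁ : ∀ (k : ℤ) (y : (R : S35RightReps (Gamma0 (N * q)) (Gamma0 N) (Option (Fin q))) →
      (Additive ↥(Gamma0 N) →+ ℤ)), k ≠ 0 → k • y = 0 → y = 0 := by
    intro k y hk h
    funext R
    refine AddMonoidHom.ext fun γ => ?_
    have h1 := DFunLike.congr_fun (congrFun h R) γ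
    rw [Pi.smul_apply, AddMonoidHom.smul_apply, smul_eq_mul] at h1
    exact (mul_eq_zero.mp h1).resolve_left hk
  have htf₂ : ∀ (k : ℤ) (y : (R : S35RightReps (s35_HB N q) (Gamma0 N) (Option (Fin q))) →
      (Additive ↥(Gamma0 N) →+ ℤ)), k ≠ 0 → k • y = 0 → y = 0 := by
    intro k y hk h
    funext R
    refine AddMonoidHom.ext fun γ => ?_
    have h1 := DFunLike.congr_fun (congrFun h R) γ
    rw [Pi.smul_apply, AddMonoidHom.smul_apply, smul_eq_mul] at h1
    exact (mul_eq_zero.mp h1).resolve_left hk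
  -- the new lattice is the set of `q`-new integral characters
  have hmem : ∀ ψ : Additive ↥(Gamma0 (N * q)) →+ ℤ,
      ψ ∈ s35_newLattice (evChar (N * q) (↑S : Set ℕ) ℤ) Ccusp c₁ c₂ ↔
        s35NewInt N q (↑S : Set ℕ) ψ := by
    intro ψ
    rw [s35_mem_newLattice]
    constructor
    · intro h e'
      obtain ⟨h1, h2, h3⟩ := h e'
      exact ⟨h1, (hc₁ _).mp h2, (hc₂ _).mp h3⟩
    · intro h e'
      obtain ⟨h1, h2, h3⟩ := h e'
      exact ⟨h1, (hc₁ _).mpr h2, (hc₂ _).mpr h3⟩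
  -- the eigencharacter
  let θ : FreeAlgebra ℤ (GoodPrime (N * q) (↑S : Set ℕ)) →+* chig.range :=
    chig.rangeRestrict.comp (evHecke (N * q) (↑S : Set ℕ)).toRingHom
  have hθ : ∀ e', ((θ e' : chig.range) : ℂ) = chig (evHecke (N * q) (↑S : Set ℕ) e') :=
    fun e' => rfl
  -- the period character of `g`
  set P : Additive ↥(Gamma0 (N * q)) →+ ℂ := periodMap (N * q) g with hP
  have hP0 : P ≠ 0 := PeriodEigen.periodMap_ne_zero (N * q) g hg.ne_zero
  have hPcusp : IsCuspidalHom (N * q) P := PeriodEigen.periodMap_cuspidal (N * q) g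
  have hPeig : ∀ (e' : FreeAlgebra ℤ (GoodPrime (N * q) (↑S : Set ℕ))) (γ : Additive ↥(Gamma0 (N * q))),
      evChar (N * q) (↑S : Set ℕ) ℂ e' P γ = chig (evHecke (N * q) (↑S : Set ℕ) e') * P γ :=
    fun e' γ => s35lat_evChar_periodMap (↑S : Set ℕ) hg.1 chig hchig e' γ
  obtain ⟨hPA, hPB⟩ := s35_cores_periodMap_eq_zero hq hqN hg
  -- faithfulness
  have hfaith : ∀ e' : FreeAlgebra ℤ (GoodPrime (N * q) (↑S : Set ℕ)),
      (∀ ψ ∈ s35_newLattice (evChar (N * q) (↑S : Set ℕ) ℤ) Ccusp c₁ c₂,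
        evChar (N * q) (↑S : Set ℕ) ℤ e' ψ = 0) → θ e' = 0 := by
    intro e₀ he₀
    by_contra hne
    have hc : chig (evHecke (N * q) (↑S : Set ℕ) e₀) ≠ 0 := by
      intro h0
      apply hne
      apply Subtype.ext
      rw [hθ, h0]
      rfl
    obtain ⟨γ₁, hγ₁⟩ : ∃ γ₁, P γ₁ ≠ 0 := by
      by_contra hcon
      exact hP0 (AddMonoidHom.ext fun γ => not_not.mp fun hγ => hcon ⟨γ, hγ⟩)
    have hx : chig (evHecke (N * q) (↑S : Set ℕ) e₀) * P γ₁ ≠ 0 := mul_ne_zero hc hγ₁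
    obtain ⟨ψ₀, Λ, d, hΛ, hd, hψ₀⟩ :=
      Faithful.exists_int_functional (gamma0_fg (N * q)) P _ hx
    let f : ℂ →+ ℚ := (AddMonoidHom.mulLeft ((d : ℤ) : ℚ)).comp Λ
    have h1 : (Int.castAddHom ℚ).comp ψ₀ = f.comp P := AddMonoidHom.ext fun γ => hψ₀ γ
    -- the Hecke transforms of `ψ₀`
    have hkey : ∀ (e' : FreeAlgebra ℤ (GoodPrime (N * q) (↑S : Set ℕ))),
        (Int.castAddHom ℚ).comp (evChar (N * q) (↑S : Set ℕ) ℤ e' ψ₀) =
          (f.comp (AddMonoidHom.mulLeft (chig (evHecke (N * q) (↑S : Set ℕ) e')))).comp P := by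
      intro e'
      rw [← evChar_comp, h1, evChar_comp]
      refine AddMonoidHom.ext fun γ => ?_
      show f (evChar (N * q) (↑S : Set ℕ) ℂ e' P γ) = f (chig (evHecke (N * q) (↑S : Set ℕ) e') * P γ)
      rw [hPeig e' γ]
    have hinjQ : ∀ χ : Additive ↥(Gamma0 N) →+ ℤ, (Int.castAddHom ℚ).comp χ = 0 → χ = 0 := by
      intro χ h
      refine AddMonoidHom.ext fun γ => ?_
      have h2 := DFunLike.congr_fun h γ
      have h3 : ((χ γ : ℤ) : ℚ) = 0 := h2
      exact_mod_cast h3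
    have hmem₀ : ψ₀ ∈ s35_newLattice (evChar (N * q) (↑S : Set ℕ) ℤ) Ccusp c₁ c₂ := by
      rw [hmem]
      intro e'
      refine ⟨?_, ?_, ?_⟩
      · intro γ hγ
        have h2 := DFunLike.congr_fun (hkey e') (Additive.ofMul γ)
        have h3 : ((evChar (N * q) (↑S : Set ℕ) ℤ e' ψ₀ (Additive.ofMul γ) : ℤ) : ℚ) =
            f (chig (evHecke (N * q) (↑S : Set ℕ) e') * P (Additive.ofMul γ)) := h2
        rw [hPcusp γ hγ, mul_zero, map_zero] at h3
        exact_mod_cast h3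
      · intro R
        apply hinjQ
        rw [← S35RightReps.cores_comp, hkey e', S35RightReps.cores_comp, hPA R,
          AddMonoidHom.comp_zero]
      · intro R
        apply hinjQ
        rw [← S35RightReps.cores_comp, ← s35_charB_comp, hkey e', s35_charB_comp,
          S35RightReps.cores_comp, hPB R, AddMonoidHom.comp_zero]
    have h5 := he₀ ψ₀ hmem₀
    have h6 := DFunLike.congr_fun (hkey e₀) γ₁
    rw [h5] at h6
    have h7 : (0 : ℚ) = ((d : ℤ) : ℚ) * Λ (chig (evHecke (N * q) (↑S : Set ℕ) e₀) * P γ₁) := h6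
    rcases mul_eq_zero.mp h7.symm with h8 | h8
    · exact hd (by exact_mod_cast h8)
    · exact hΛ h8
  -- divisibility
  have hd : ((((lam : ℤ) ^ n : ℤ)) : O') ≠ 0 := by
    push_cast
    exact pow_ne_zero _ (Nat.cast_ne_zero.mpr hlam.ne_zero)
  have hdiv : ∀ ψ ∈ s35_newLattice (evChar (N * q) (↑S : Set ℕ) ℤ) Ccusp c₁ c₂,
      ∃ ψ' : Additive ↥(Gamma0 (N * q)) →+ ℤ,
        evChar (N * q) (↑S : Set ℕ) ℤ e ψ = ((lam : ℤ) ^ n) • ψ' := by
    intro ψ hψ
    have hnew : s35New N q (↑S : Set ℕ) (lam ^ n) ((Int.castAddHom (ZMod (lam ^ n))).comp ψ) :=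
      ⟨ψ, (hmem ψ).mp hψ, rfl⟩
    have h2 := he _ hnew
    rw [evChar_comp] at h2
    apply CharLattice.exists_eq_zsmul_of_forall_dvd
    intro γ
    have h3 : ((evChar (N * q) (↑S : Set ℕ) ℤ e ψ γ : ℤ) : ZMod (lam ^ n)) = 0 :=
      DFunLike.congr_fun h2 γ
    have h4 := (ZMod.intCast_zmod_eq_zero_iff_dvd _ _).mp h3
    rw [Nat.cast_pow] at h4
    exact h4
  obtain ⟨y, hy⟩ := s35_lat_new htf (evChar (N * q) (↑S : Set ℕ) ℤ) Ccusp c₁ c₂ hCsat htf₁ htf₂
    θ hfaith iota ((lam : ℤ) ^ n) hd e hdiv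
  refine ⟨y, ?_⟩
  have h9 : (iota.comp chig.rangeRestrict) (evHecke (N * q) (↑S : Set ℕ) e) = iota (θ e) := rfl
  rw [h9, hy, Nat.sub_zero]
  push_cast
  rfl

end Fermat.Agent.S35
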