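import Mathlib
import Fermat.Agent.S34.KronDefs

/-!
# P20 (S35), block F1, concrete part VAL: the two vertical valuations (definitions)

KRON generic setting (`L` a field of characteristic `0`, `Λ ⊆ L` a Gauss ring,
`hΛ : IsGaussRing Λ π res`), `F_N = laurentBaseChange L (modularFunctionFieldFull N)`.

* `s35valO hΛ N`  : the Gauss valuation ring `GaussL.gaussV Λ res F_N` as a `ValuationSubring`;
* `s35valW₁ hΛ N` : its valuation `w_∞` (value group `(s35valO hΛ N).ValueGroup`);
* `s35valW₂ hΛ ι M q hcop` : `w_0 = w_∞ ∘ W` on `F_{Mq}` (`W = kronW`).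
-/

set_option autoImplicit false

namespace Fermat.Agent.S35

open ModularCurve AlgebraicCurve
open Fermat.Agent.S18 Fermat.Agent.S28 Fermat.Agent.S28.FreeBasisAbs Fermat.Agent.S34

noncomputable section

variable {L k : Type*} [Field L] [Algebra ℚ L] [Field k] {Λ : Subring L} {π : L}
  {res : ↥Λ →+* k}

theorem s35val_le_gaussK (hΛ : IsGaussRing Λ π res) (N : ℕ) [NeZero N] :
    laurentBaseChange L (modularFunctionFieldFull N) ≤ GaussL.gaussK hΛ := by
  rw [Fermat.Agent.S37.ALEmb.baseChange_eq_fullC L N]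
  exact GaussL.full_le_gaussK hΛ N

/-- The Gauss valuation ring of `F_N = laurentBaseChange L (modularFunctionFieldFull N)` as a
`ValuationSubring` (carrier `GaussL.gaussV Λ res F_N`). -/
def s35valO (hΛ : IsGaussRing Λ π res) (N : ℕ) [NeZero N] :
    ValuationSubring ↥(laurentBaseChange L (modularFunctionFieldFull N)) :=
  (GaussL.isGaussRing_gaussV (laurentBaseChange L (modularFunctionFieldFull N)) hΛ
    (s35val_le_gaussK hΛ N)).valuationSubring

theorem s35val_mem_O (hΛ : IsGaussRing Λ π res) (N : ℕ) [NeZero N]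
    (f : ↥(laurentBaseChange L (modularFunctionFieldFull N))) :
    f ∈ s35valO hΛ N ↔
      f ∈ GaussL.gaussV Λ res (laurentBaseChange L (modularFunctionFieldFull N)) := Iff.rfl

/-- `w_∞`: the Gauss valuation of `F_N`. -/
def s35valW₁ (hΛ : IsGaussRing Λ π res) (N : ℕ) [NeZero N] :
    Valuation ↥(laurentBaseChange L (modularFunctionFieldFull N)) (s35valO hΛ N).ValueGroup :=
  (s35valO hΛ N).valuation

/-- `w_0 = w_∞ ∘ W` on `F_{Mq}`. -/
def s35valW₂ (hΛ : IsGaussRing Λ π res) (ι : L →+* ℂ) (M q : ℕ) [NeZero M] [NeZero q]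
    (hcop : Nat.Coprime M q) :
    Valuation ↥(laurentBaseChange L (modularFunctionFieldFull (M * q)))
      (s35valO hΛ (M * q)).ValueGroup :=
  (s35valW₁ hΛ (M * q)).comap
    (kronW L ι M q hcop : ↥(laurentBaseChange L (modularFunctionFieldFull (M * q))) →+*
      ↥(laurentBaseChange L (modularFunctionFieldFull (M * q))))

theorem s35val_w₁_le_one_iff (hΛ : IsGaussRing Λ π res) (N : ℕ) [NeZero N]
    (f : ↥(laurentBaseChange L (modularFunctionFieldFull N))) :
    s35valW₁ hΛ N f ≤ 1 ↔
      f ∈ GaussL.gaussV Λ res (laurentBaseChange L (modularFunctionFieldFull N)) :=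
  (s35valO hΛ N).valuation_le_one_iff f

theorem s35val_w₂_apply (hΛ : IsGaussRing Λ π res) (ι : L →+* ℂ) (M q : ℕ) [NeZero M] [NeZero q]
    (hcop : Nat.Coprime M q)
    (f : ↥(laurentBaseChange L (modularFunctionFieldFull (M * q)))) :
    s35valW₂ hΛ ι M q hcop f = s35valW₁ hΛ (M * q) (kronW L ι M q hcop f) := rfl

theorem s35val_w₂_le_one_iff (hΛ : IsGaussRing Λ π res) (ι : L →+* ℂ) (M q : ℕ) [NeZero M]
    [NeZero q] (hcop : Nat.Coprime M q)
    (f : ↥(laurentBaseChange L (modularFunctionFieldFull (M * q)))) :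
    s35valW₂ hΛ ι M q hcop f ≤ 1 ↔
      kronW L ι M q hcop f ∈
        GaussL.gaussV Λ res (laurentBaseChange L (modularFunctionFieldFull (M * q))) :=
  s35val_w₁_le_one_iff hΛ (M * q) _

end

end Fermat.Agent.S35
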