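import Mathlib
import Fermat.Agent.S35.F1ValDefs
import Fermat.Agent.S34.KronBasic
import Fermat.Agent.S34.KronTwoVal

/-!
# P20 (S35), block F1, concrete part VAL: the two vertical valuations

KRON generic setting (`L`, `Λ ⊆ L`, `hΛ : IsGaussRing Λ π res`), level `M q`,
`F = laurentBaseChange L (modularFunctionFieldFull (M * q))`, `w₁ = s35valW₁ hΛ (M * q)` the Gauss
valuation, `w₂ = s35valW₂ hΛ ι M q hcop = w₁ ∘ kronW`.

* `s35val_w₁_lt_one_iff`           : on `gaussV`, `w₁ f < 1 ↔ gaussRed f = 0`;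
* `s35val_w₁_algebraMap_lt_one_iff`: for constants `c ∈ Λ`, `w₁ c < 1 ↔ res c = 0`;
* `s35val_w₁_unit`, `s35val_w₂_unit` : units of `Λ` have valuation one;
* `s35val_w₁_pi_lt_one`, `s35val_w₂_pi_lt_one`, `…_pi_ne_zero` : (V3);
* `s35val_w₁_lt_one_iff_redInf`, `s35val_w₂_lt_one_iff_redZero`, `s35val_mem_kronO_iff` : (V4);
* `s35val_isIntegral_iff`          : (V1) the integral closure of the Gauss ring of the `j`-line
  is `{w₁ ≤ 1} ∩ {w₂ ≤ 1}`;
* `s35val_exists_eq_smul`          : (V2) `w₁ f < 1`, `w₂ f < 1` imply `f = π • δ`, `δ` integral.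
-/

set_option autoImplicit false

namespace Fermat.Agent.S35

open ModularCurve AlgebraicCurve
open Fermat.Agent.S18 Fermat.Agent.S28 Fermat.Agent.S28.FreeBasisAbs Fermat.Agent.S34

noncomputable section

variable {L k : Type*} [Field L] [Algebra ℚ L] [Field k] {Λ : Subring L} {π : L}
  {res : ↥Λ →+* k}

/-! ## Level `N`: the Gauss valuation `w₁` -/

section W1

variable (hΛ : IsGaussRing Λ π res) (N : ℕ) [NeZero N]

/-- the uniformiser (as a constant of `L`) has `w₁ < 1`. -/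
theorem s35val_w₁_pi_lt_one' :
    s35valW₁ hΛ N (algebraMap L ↥(laurentBaseChange L (modularFunctionFieldFull N)) π) < 1 := by
  have hG := GaussL.isGaussRing_gaussV (laurentBaseChange L (modularFunctionFieldFull N)) hΛ
    (s35val_le_gaussK hΛ N)
  have hle : s35valW₁ hΛ N (algebraMap L ↥(laurentBaseChange L (modularFunctionFieldFull N)) π)
      ≤ 1 := (s35val_w₁_le_one_iff hΛ N _).mpr hG.pi_mem
  refine lt_of_le_of_ne hle (fun h1 => ?_)
  have hinv : (algebraMap L ↥(laurentBaseChange L (modularFunctionFieldFull N)) π)⁻¹ ∈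
      GaussL.gaussV Λ res (laurentBaseChange L (modularFunctionFieldFull N)) := by
    rw [← s35val_w₁_le_one_iff hΛ N, map_inv₀, h1, inv_one]
  exact hG.red_ne_zero_of_unit hG.pi_mem hinv hG.pi_ne_zero (hG.red_pi hG.pi_mem)

/-- (V4) on the Gauss valuation ring, `w₁ f < 1` iff the reduction of `f` vanishes. -/
theorem s35val_w₁_lt_one_iff {f : ↥(laurentBaseChange L (modularFunctionFieldFull N))}
    (hf : f ∈ GaussL.gaussV Λ res (laurentBaseChange L (modularFunctionFieldFull N))) :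
    s35valW₁ hΛ N f < 1 ↔
      GaussL.gaussRed Λ res (laurentBaseChange L (modularFunctionFieldFull N)) ⟨f, hf⟩ = 0 := by
  constructor
  · intro hlt
    by_contra hne
    have hinv := GaussL.inv_mem_gaussV (laurentBaseChange L (modularFunctionFieldFull N)) hf hne
    have h1 : s35valW₁ hΛ N f⁻¹ ≤ 1 := (s35val_w₁_le_one_iff hΛ N _).mpr hinv
    have hf0 : f ≠ 0 := by
      rintro rfl
      apply hne
      have : (⟨0, hf⟩ : ↥(GaussL.gaussV Λ res
          (laurentBaseChange L (modularFunctionFieldFull N)))) = 0 := rfl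
      rw [this, map_zero]
    have hpos : 0 < s35valW₁ hΛ N f := zero_lt_iff.mpr ((Valuation.ne_zero_iff _).mpr hf0)
    rw [map_inv₀, inv_le_one₀ hpos] at h1
    exact absurd hlt (not_lt.mpr h1)
  · intro h0
    obtain ⟨y, hy⟩ := (GaussL.gaussRed_eq_zero_iff
      (laurentBaseChange L (modularFunctionFieldFull N)) hΛ ⟨f, hf⟩).mp h0
    have hy' : f = algebraMap L ↥(laurentBaseChange L (modularFunctionFieldFull N)) π *
        (y : ↥(laurentBaseChange L (modularFunctionFieldFull N))) := hy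
    rw [hy', map_mul]
    exact lt_of_le_of_lt (mul_le_of_le_one_right' ((s35val_w₁_le_one_iff hΛ N _).mpr y.2))
      (s35val_w₁_pi_lt_one' hΛ N)

/-- constants of `Λ`: `w₁ ≤ 1`. -/
theorem s35val_w₁_algebraMap_le_one (c : ↥Λ) :
    s35valW₁ hΛ N (algebraMap ↥Λ ↥(laurentBaseChange L (modularFunctionFieldFull N)) c) ≤ 1 :=
  (s35val_w₁_le_one_iff hΛ N _).mpr
    ((GaussL.gaussV Λ res (laurentBaseChange L (modularFunctionFieldFull N))).algebraMap_mem c)

/-- constants of `Λ`: `w₁ < 1` iff the residue vanishes. -/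
theorem s35val_w₁_algebraMap_lt_one_iff (c : ↥Λ) :
    s35valW₁ hΛ N (algebraMap ↥Λ ↥(laurentBaseChange L (modularFunctionFieldFull N)) c) < 1 ↔
      res c = 0 := by
  rw [s35val_w₁_lt_one_iff hΛ N
    ((GaussL.gaussV Λ res (laurentBaseChange L (modularFunctionFieldFull N))).algebraMap_mem c)]
  have h := GaussL.gaussRed_algebraMap (res := res)
    (laurentBaseChange L (modularFunctionFieldFull N)) c
  have e : (⟨algebraMap ↥Λ ↥(laurentBaseChange L (modularFunctionFieldFull N)) c,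
      (GaussL.gaussV Λ res (laurentBaseChange L (modularFunctionFieldFull N))).algebraMap_mem c⟩ :
      ↥(GaussL.gaussV Λ res (laurentBaseChange L (modularFunctionFieldFull N)))) =
      algebraMap ↥Λ ↥(GaussL.gaussV Λ res (laurentBaseChange L (modularFunctionFieldFull N))) c :=
    rfl
  rw [e, h]
  constructor
  · intro h0
    have h1 := congrArg (fun s : LaurentSeries k => s.coeff 0) h0
    simpa using h1
  · intro h0
    rw [h0, map_zero]

/-- units of `Λ` have `w₁ = 1` (`hΛ₁`). -/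
theorem s35val_w₁_unit {c : ↥Λ} (hc : IsUnit c) :
    s35valW₁ hΛ N (algebraMap ↥Λ ↥(laurentBaseChange L (modularFunctionFieldFull N)) c) = 1 :=
  le_antisymm (s35val_w₁_algebraMap_le_one hΛ N c)
    (not_lt.mp fun h => (hc.map res).ne_zero ((s35val_w₁_algebraMap_lt_one_iff hΛ N c).mp h))

/-- (V3) -/
theorem s35val_w₁_pi_lt_one :
    s35valW₁ hΛ N (algebraMap ↥Λ ↥(laurentBaseChange L (modularFunctionFieldFull N))
      (GaussL.piL hΛ)) < 1 :=
  (s35val_w₁_algebraMap_lt_one_iff hΛ N (GaussL.piL hΛ)).mpr (GaussL.res_piL hΛ)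

/-- (V3) -/
theorem s35val_w₁_pi_ne_zero :
    s35valW₁ hΛ N (algebraMap ↥Λ ↥(laurentBaseChange L (modularFunctionFieldFull N))
      (GaussL.piL hΛ)) ≠ 0 :=
  (Valuation.ne_zero_iff _).mpr
    (GaussL.algebraMap_pi_ne_zero (laurentBaseChange L (modularFunctionFieldFull N)) hΛ)

end W1

/-! ## Level `M q`: the two valuations -/

section W2

variable (hΛ : IsGaussRing Λ π res) (ι : L →+* ℂ) (M q : ℕ) [NeZero M] [NeZero q]
  (hcop : Nat.Coprime M q)

/-- constants of `Λ`: `w₂ = w₁`. -/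
theorem s35val_w₂_algebraMap (c : ↥Λ) :
    s35valW₂ hΛ ι M q hcop
        (algebraMap ↥Λ ↥(laurentBaseChange L (modularFunctionFieldFull (M * q))) c) =
      s35valW₁ hΛ (M * q)
        (algebraMap ↥Λ ↥(laurentBaseChange L (modularFunctionFieldFull (M * q))) c) := by
  rw [s35val_w₂_apply]
  congr 1
  exact (kronW L ι M q hcop).commutes (c : L)

/-- units of `Λ` have `w₂ = 1`. -/
theorem s35val_w₂_unit {c : ↥Λ} (hc : IsUnit c) :
    s35valW₂ hΛ ι M q hcop
      (algebraMap ↥Λ ↥(laurentBaseChange L (modularFunctionFieldFull (M * q))) c) = 1 := by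
  rw [s35val_w₂_algebraMap]
  exact s35val_w₁_unit hΛ (M * q) hc

/-- (V3) -/
theorem s35val_w₂_pi_lt_one :
    s35valW₂ hΛ ι M q hcop
      (algebraMap ↥Λ ↥(laurentBaseChange L (modularFunctionFieldFull (M * q)))
        (GaussL.piL hΛ)) < 1 := by
  rw [s35val_w₂_algebraMap]
  exact s35val_w₁_pi_lt_one hΛ (M * q)

/-- (V3) -/
theorem s35val_w₂_pi_ne_zero :
    s35valW₂ hΛ ι M q hcop
      (algebraMap ↥Λ ↥(laurentBaseChange L (modularFunctionFieldFull (M * q)))
        (GaussL.piL hΛ)) ≠ 0 := by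
  rw [s35val_w₂_algebraMap]
  exact s35val_w₁_pi_ne_zero hΛ (M * q)

/-- (V4) on `𝒪`: `w₁ < 1` iff the reduction at `∞` vanishes. -/
theorem s35val_w₁_lt_one_iff_redInf (z : ↥(kronO Λ res ι M q hcop)) :
    s35valW₁ hΛ (M * q) (z : ↥(laurentBaseChange L (modularFunctionFieldFull (M * q)))) < 1 ↔
      kronRedInf Λ res ι M q hcop z = 0 := by
  rw [kronRedInf_apply]
  exact s35val_w₁_lt_one_iff hΛ (M * q) z.2.1

/-- (V4) on `𝒪`: `w₂ < 1` iff the reduction at `0` vanishes. -/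
theorem s35val_w₂_lt_one_iff_redZero (z : ↥(kronO Λ res ι M q hcop)) :
    s35valW₂ hΛ ι M q hcop (z : ↥(laurentBaseChange L (modularFunctionFieldFull (M * q)))) < 1 ↔
      kronRedZero Λ res ι M q hcop z = 0 := by
  rw [kronRedZero_apply, s35val_w₂_apply]
  exact s35val_w₁_lt_one_iff hΛ (M * q) z.2.2

/-- `𝒪 = {w₁ ≤ 1} ∩ {w₂ ≤ 1}`. -/
theorem s35val_mem_kronO_iff (f : ↥(laurentBaseChange L (modularFunctionFieldFull (M * q)))) :
    f ∈ kronO Λ res ι M q hcop ↔
      s35valW₁ hΛ (M * q) f ≤ 1 ∧ s35valW₂ hΛ ι M q hcop f ≤ 1 := by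
  rw [mem_kronO_iff, s35val_w₁_le_one_iff, s35val_w₂_le_one_iff]

set_option synthInstance.maxHeartbeats 400000 in
/-- (V1) = `hVw`: the integral closure of the Gauss ring of the `j`-line is
`{w₁ ≤ 1} ∩ {w₂ ≤ 1}`. -/
theorem s35val_isIntegral_iff [CharZero L] (hq : q.Prime) [CharP k q]
    (f : ↥(laurentBaseChange L (modularFunctionFieldFull (M * q)))) :
    IsIntegral (gaussSub (GaussL.piL hΛ) (GaussL.prime_piL hΛ)
        (Fermat.Agent.S24.jL L (M * q))) f ↔
      s35valW₁ hΛ (M * q) f ≤ 1 ∧ s35valW₂ hΛ ι M q hcop f ≤ 1 :=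
  ⟨fun h => (s35val_mem_kronO_iff hΛ ι M q hcop f).mp
      (mem_kronO_of_isIntegral ι M q hcop hΛ hq h),
    fun h => kronO_isIntegral ι M q hcop hΛ hq ((s35val_mem_kronO_iff hΛ ι M q hcop f).mpr h)⟩

set_option synthInstance.maxHeartbeats 400000 in
/-- (V2) = `hπw`: an element with `w₁ < 1` and `w₂ < 1` is `π` times an integral element. -/
theorem s35val_exists_eq_smul [CharZero L] (hq : q.Prime) [CharP k q]
    (f : ↥(laurentBaseChange L (modularFunctionFieldFull (M * q))))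
    (h1 : s35valW₁ hΛ (M * q) f < 1) (h2 : s35valW₂ hΛ ι M q hcop f < 1) :
    ∃ δ : ↥(laurentBaseChange L (modularFunctionFieldFull (M * q))),
      IsIntegral (gaussSub (GaussL.piL hΛ) (GaussL.prime_piL hΛ)
        (Fermat.Agent.S24.jL L (M * q))) δ ∧ f = GaussL.piL hΛ • δ := by
  have hf : f ∈ kronO Λ res ι M q hcop :=
    (s35val_mem_kronO_iff hΛ ι M q hcop f).mpr ⟨h1.le, h2.le⟩
  exact kronO_lemmaK ι M q hcop hΛ hq ⟨f, hf⟩
    ((s35val_w₁_lt_one_iff_redInf hΛ ι M q hcop ⟨f, hf⟩).mp h1)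
    ((s35val_w₂_lt_one_iff_redZero hΛ ι M q hcop ⟨f, hf⟩).mp h2)

end W2

end

end Fermat.Agent.S35
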