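import Mathlib
import Fermat.Agent.S34.KronBasic
import Fermat.Agent.S35.F1ValDefs
import Fermat.Agent.S35.F1Val

/-!
# P20 (S35), block F1-CONC, leaf L8b: valuation facts for the Frobenius side

KRON generic setting (`L`, `Λ ⊆ L`, `hΛ : IsGaussRing Λ π res`).

* `s35f1c_w₁_frob_sq`      : (V6) for a constant `c` of `Λ` and a coefficientwise automorphism
  `σ` inducing the `q`-th power map on the residue field, `σ (σ c) - c ^ (q ^ 2)` has `w₁ < 1`;
* `s35f1c_inv_one_add_mem` : (hU) `(1 + π δ)⁻¹` lies in the semi-local ring `kronO` for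
  `δ` in `kronO`;
* `s35f1c_sub_one_eq`      : (hu1) an element of `kronO` with both reductions `1` is
  `1 + π δ` with `δ` in `kronO`.
-/

set_option autoImplicit false

namespace Fermat.Agent.S35

open ModularCurve AlgebraicCurve
open Fermat.Agent.S18 Fermat.Agent.S28 Fermat.Agent.S28.FreeBasisAbs Fermat.Agent.S34

/-- In a Gauss valuation ring, `1 + π δ` is invertible. -/
theorem s35f1cw_inv_one_add_mem_gaussV {K k : Type*} [Field K] [Field k] {Λ : Subring K} {π : K}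
    {res : ↥Λ →+* k} (hΛ : IsGaussRing Λ π res)
    (E : IntermediateField K (LaurentSeries K)) {δ : ↥E} (hδ : δ ∈ GaussL.gaussV Λ res E) :
    (1 + algebraMap K ↥E π * δ)⁻¹ ∈ GaussL.gaussV Λ res E := by
  have hπ : algebraMap K ↥E π ∈ GaussL.gaussV Λ res E := GaussL.algebraMap_pi_mem_gaussV E hΛ
  have hx : 1 + algebraMap K ↥E π * δ ∈ GaussL.gaussV Λ res E :=
    add_mem (one_mem _) (mul_mem hπ hδ)
  refine GaussL.inv_mem_gaussV E hx ?_
  have e : (⟨1 + algebraMap K ↥E π * δ, hx⟩ : ↥(GaussL.gaussV Λ res E)) =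
      1 + ⟨algebraMap K ↥E π, hπ⟩ * ⟨δ, hδ⟩ := rfl
  rw [e, map_add, map_one, map_mul, GaussL.gaussRed_algebraMap_pi E hΛ, zero_mul, add_zero]
  exact one_ne_zero

section L8

variable {L k : Type*} [Field L] [Algebra ℚ L] [Field k] {Λ : Subring L} {π : L}
  {res : ↥Λ →+* k}

/-- (V6) Frobenius on constants, two steps (`hfrob` of F1-G with `Q = q ^ 2`). -/
theorem s35f1c_w₁_frob_sq (hΛ : IsGaussRing Λ π res) (N : ℕ) [NeZero N] (q : ℕ)
    (σ : L ≃ₐ[ℚ] L) (hσΛ : ∀ a ∈ Λ, σ a ∈ Λ)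
    (hσ : ∀ a : ↥Λ, res ⟨σ a, hσΛ a a.2⟩ = res a ^ q) (c : ↥Λ) :
    s35valW₁ hΛ N (arithmeticRingAut (modularFunctionFieldFull N) σ
        (arithmeticRingAut (modularFunctionFieldFull N) σ
          (algebraMap ↥Λ ↥(laurentBaseChange L (modularFunctionFieldFull N)) c)) -
      algebraMap ↥Λ ↥(laurentBaseChange L (modularFunctionFieldFull N)) c ^ (q ^ 2)) < 1 := by
  have h1 : arithmeticRingAut (modularFunctionFieldFull N) σ
      (algebraMap ↥Λ ↥(laurentBaseChange L (modularFunctionFieldFull N)) c) =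
      algebraMap ↥Λ ↥(laurentBaseChange L (modularFunctionFieldFull N))
        ⟨σ c, hσΛ c c.2⟩ :=
    arithmeticRingAut_algebraMap (modularFunctionFieldFull N) σ (c : L)
  have h2 : arithmeticRingAut (modularFunctionFieldFull N) σ
      (algebraMap ↥Λ ↥(laurentBaseChange L (modularFunctionFieldFull N))
        ⟨σ c, hσΛ c c.2⟩) =
      algebraMap ↥Λ ↥(laurentBaseChange L (modularFunctionFieldFull N))
        ⟨σ (σ c), hσΛ (σ c) (hσΛ c c.2)⟩ :=
    arithmeticRingAut_algebraMap (modularFunctionFieldFull N) σ (σ c)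
  rw [h1, h2, ← map_pow, ← map_sub, s35val_w₁_algebraMap_lt_one_iff, map_sub, map_pow]
  have h3 : res ⟨σ (σ c), hσΛ (σ c) (hσΛ c c.2)⟩ = res c ^ (q ^ 2) := by
    have := hσ ⟨σ c, hσΛ c c.2⟩
    rw [hσ c, ← pow_mul, ← sq] at this
    exact this
  rw [h3, sub_self]

/-- (hU) `(1 + π δ)⁻¹ ∈ 𝒪` for `δ ∈ 𝒪`. -/
theorem s35f1c_inv_one_add_mem (hΛ : IsGaussRing Λ π res) (ι : L →+* ℂ) (M q : ℕ) [NeZero M]
    [NeZero q] (hcop : Nat.Coprime M q)
    {δ : ↥(laurentBaseChange L (modularFunctionFieldFull (M * q)))}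
    (hδ : δ ∈ kronO Λ res ι M q hcop) :
    (1 + algebraMap L ↥(laurentBaseChange L (modularFunctionFieldFull (M * q))) π * δ)⁻¹ ∈
      kronO Λ res ι M q hcop := by
  rw [mem_kronO_iff] at hδ ⊢
  refine ⟨s35f1cw_inv_one_add_mem_gaussV hΛ _ hδ.1, ?_⟩
  rw [map_inv₀, map_add, map_one, map_mul, AlgEquiv.commutes]
  exact s35f1cw_inv_one_add_mem_gaussV hΛ _ hδ.2

/-- (hu1) an element of `𝒪` with both reductions `1` is `≡ 1` modulo `π 𝒪`. -/
theorem s35f1c_sub_one_eq (hΛ : IsGaussRing Λ π res) (ι : L →+* ℂ) (M q : ℕ) [NeZero M]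
    [NeZero q] (hcop : Nat.Coprime M q) (u : ↥(kronO Λ res ι M q hcop))
    (h1 : kronRedInf Λ res ι M q hcop u = 1) (h2 : kronRedZero Λ res ι M q hcop u = 1) :
    ∃ δ : ↥(laurentBaseChange L (modularFunctionFieldFull (M * q))),
      δ ∈ kronO Λ res ι M q hcop ∧
      (u : ↥(laurentBaseChange L (modularFunctionFieldFull (M * q)))) - 1 =
        algebraMap L ↥(laurentBaseChange L (modularFunctionFieldFull (M * q))) π * δ := by
  obtain ⟨y, hy⟩ := kronO_exists_eq_pi_mul ι M q hcop hΛ (u - 1)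
    (by rw [map_sub, h1, map_one, sub_self]) (by rw [map_sub, h2, map_one, sub_self])
  exact ⟨(y : ↥(laurentBaseChange L (modularFunctionFieldFull (M * q)))), y.2, hy⟩

end L8

end Fermat.Agent.S35
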