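import Mathlib
import Fermat.Agent.S34.KronWGal
import Fermat.Agent.S35.F1ValDefs

/-!
# P20 (S35), block F1-CONC, leaf L8a (V5): coefficientwise automorphisms and the two
vertical valuations

KRON generic setting (`L`, `Λ ⊆ L`, `hΛ : IsGaussRing Λ π res`).  A coefficientwise
automorphism `arithmeticRingAut σ` with `σ Λ ⊆ Λ` and `σ⁻¹ Λ ⊆ Λ` preserves the Gauss
valuation `w₁ = s35valW₁` (`s35f1c_w₁_ringAut`) and `w₂ = w₁ ∘ W` (`s35f1c_w₂_ringAut`).

No compatibility with a map of the residue field is needed: a series with coefficients in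
`Λ` has nonzero reduction iff one of its coefficients is a unit of `Λ`, and ring
endomorphisms of `Λ` preserve units (`s35f1cv_coeffMap_gaussO`).  Moreover `σ π = π * c`
with `c` a unit of `Λ` (`s35f1cv_map_pi`), so that `f = π ^ n * u` (`u` a unit of the Gauss
ring) is mapped to `π ^ n * (c ^ n * σ u)` with `c ^ n * σ u` again a unit.
-/

set_option autoImplicit false

namespace Fermat.Agent.S35

open ModularCurve AlgebraicCurve IntermediateField
open Fermat.Agent.S18 Fermat.Agent.S28 Fermat.Agent.S28.FreeBasisAbs Fermat.Agent.S34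

section L8

variable {L k : Type*} [Field L] [Algebra ℚ L] [Field k] {Λ : Subring L} {π : L}
  {res : ↥Λ →+* k}

omit [Algebra ℚ L] in
/-- An element of `Λ` with nonzero residue has its inverse in `Λ`. -/
theorem s35f1cv_inv_mem_of_res_ne_zero (hΛ : IsGaussRing Λ π res) {u : ↥Λ} (hu : res u ≠ 0) :
    (u : L)⁻¹ ∈ Λ := by
  have hu0 : (u : L) ≠ 0 := fun h => hu (by rw [show u = 0 from Subtype.ext h, map_zero])
  obtain ⟨n, v, hv, hv', huv⟩ := hΛ.unit ((u : L)⁻¹) (inv_ne_zero hu0)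
  rcases le_or_gt 0 n with hn | hn
  · rw [huv]
    exact mul_mem (hΛ.zpow_mem hn) hv
  · exfalso
    apply hu
    obtain ⟨m, hm⟩ : ∃ m : ℕ, -n = m + 1 := ⟨(-n - 1).toNat, by omega⟩
    have h1 : (u : L) = π * (π ^ m * v⁻¹) := by
      have h2 : (u : L) = ((u : L)⁻¹)⁻¹ := (inv_inv _).symm
      rw [h2, huv, mul_inv, ← zpow_neg, hm, ← mul_assoc, ← pow_succ']
      norm_cast
    have h3 : u = GaussL.piL hΛ * (GaussL.piL hΛ ^ m * ⟨v⁻¹, hv'⟩) := Subtype.ext h1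
    rw [h3, map_mul, GaussL.res_piL, zero_mul]

omit [Algebra ℚ L] in
/-- A ring endomorphism of `L` preserving `Λ` preserves the Gauss ring of `L((q))`. -/
theorem s35f1cv_coeffMap_gaussO (hΛ : IsGaussRing Λ π res) (σ : L →+* L)
    (hσ : ∀ a ∈ Λ, σ a ∈ Λ) {x : LaurentSeries L} (hx : x ∈ GaussL.gaussO Λ res) :
    coeffMap σ x ∈ GaussL.gaussO Λ res := by
  obtain ⟨a, b, hb, hab⟩ := hx
  let σΛ : ↥Λ →+* ↥Λ := (σ.comp Λ.subtype).codRestrict Λ (fun a => hσ a a.2)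
  have h1 : ∀ c : LaurentSeries ↥Λ,
      coeffMap σ (coeffMap Λ.subtype c) = coeffMap Λ.subtype (coeffMap σΛ c) := by
    intro c
    rw [coeffMap_coeffMap, coeffMap_coeffMap]
    exact coeffMap_congr (RingHom.ext fun _ => rfl) c
  refine ⟨coeffMap σΛ a, coeffMap σΛ b, ?_, ?_⟩
  · -- some coefficient of `b` is a unit of `Λ`
    obtain ⟨n, hn⟩ : ∃ n : ℤ, res (b.coeff n) ≠ 0 := by
      by_contra hcon
      apply hb
      ext n
      rw [coeffMap_coeff, HahnSeries.coeff_zero]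
      by_contra hne
      exact hcon ⟨n, hne⟩
    intro h0
    have h2 : res (σΛ (b.coeff n)) = 0 := by
      have h3 := congrArg (fun s : LaurentSeries k => s.coeff n) h0
      simpa using h3
    have hinv := s35f1cv_inv_mem_of_res_ne_zero hΛ hn
    have hb0 : ((b.coeff n : ↥Λ) : L) ≠ 0 := fun h =>
      hn (by rw [show b.coeff n = 0 from Subtype.ext h, map_zero])
    have hunit : IsUnit (b.coeff n) :=
      IsUnit.of_mul_eq_one (⟨_, hinv⟩ : ↥Λ) (Subtype.ext (mul_inv_cancel₀ hb0))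
    exact ((hunit.map σΛ).map res).ne_zero h2
  · rw [← h1, ← h1, ← map_mul, hab]

/-- A coefficientwise automorphism preserving `Λ` preserves the Gauss valuation ring (no
compatibility with the residue field needed). -/
theorem s35f1cv_ringAut_mem_gaussV (hΛ : IsGaussRing Λ π res)
    (F₀ : IntermediateField ℚ (LaurentSeries ℚ)) (σ : L ≃ₐ[ℚ] L) (hσΛ : ∀ a ∈ Λ, σ a ∈ Λ)
    {f : ↥(laurentBaseChange L F₀)} (hf : f ∈ GaussL.gaussV Λ res (laurentBaseChange L F₀)) :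
    arithmeticRingAut F₀ σ f ∈ GaussL.gaussV Λ res (laurentBaseChange L F₀) :=
  s35f1cv_coeffMap_gaussO hΛ (σ : L →+* L) hσΛ
    ((GaussL.mem_gaussV_iff (laurentBaseChange L F₀) f).mp hf)

/-- An automorphism preserving `Λ` whose inverse preserves `Λ` maps `π` into `π Λ`. -/
theorem s35f1cv_map_pi_aux (hΛ : IsGaussRing Λ π res) (τ : L ≃ₐ[ℚ] L)
    (hτ : ∀ a ∈ Λ, τ a ∈ Λ) (hτ' : ∀ a ∈ Λ, τ.symm a ∈ Λ) :
    ∃ c : L, c ∈ Λ ∧ τ π = π * c := by
  have hmem : τ π ∈ Λ := hτ π hΛ.pi_mem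
  have hres : res ⟨τ π, hmem⟩ = 0 := by
    by_contra hne
    have h1 : (τ π)⁻¹ ∈ Λ := s35f1cv_inv_mem_of_res_ne_zero hΛ hne
    have h2 : τ.symm ((τ π)⁻¹) ∈ Λ := hτ' _ h1
    rw [map_inv₀, AlgEquiv.symm_apply_apply] at h2
    exact hΛ.red_ne_zero_of_unit hΛ.pi_mem h2 hΛ.pi_ne_zero (hΛ.red_pi hΛ.pi_mem)
  obtain ⟨y, hy⟩ := hΛ.ker ⟨τ π, hmem⟩ hres
  exact ⟨y, y.2, hy⟩

/-- `σ π = π * c` with `c` a unit of `Λ`. -/
theorem s35f1cv_map_pi (hΛ : IsGaussRing Λ π res) (σ : L ≃ₐ[ℚ] L)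
    (hσΛ : ∀ a ∈ Λ, σ a ∈ Λ) (hσΛ' : ∀ a ∈ Λ, σ.symm a ∈ Λ) :
    ∃ c : L, c ∈ Λ ∧ c⁻¹ ∈ Λ ∧ σ π = π * c := by
  obtain ⟨c, hc, hσc⟩ := s35f1cv_map_pi_aux hΛ σ hσΛ hσΛ'
  obtain ⟨d, hd, hσd⟩ := s35f1cv_map_pi_aux hΛ σ.symm hσΛ' (fun a ha => hσΛ a ha)
  refine ⟨c, hc, ?_, hσc⟩
  have h1 : π * (c * σ d) = π * 1 := by
    have h2 : σ (σ.symm π) = π := σ.apply_symm_apply π
    rw [hσd, map_mul, hσc] at h2
    rw [← mul_assoc, h2, mul_one]
  have h2 : c * σ d = 1 := mul_left_cancel₀ hΛ.pi_ne_zero h1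
  have h3 : c⁻¹ = σ d := (eq_inv_of_mul_eq_one_right h2).symm
  rw [h3]
  exact hσΛ d hd

/-- (V5) a coefficientwise automorphism preserving `Λ` (in both directions) preserves `w₁`. -/
theorem s35f1c_w₁_ringAut (hΛ : IsGaussRing Λ π res) (N : ℕ) [NeZero N]
    (σ : L ≃ₐ[ℚ] L) (hσΛ : ∀ a ∈ Λ, σ a ∈ Λ) (hσΛ' : ∀ a ∈ Λ, σ.symm a ∈ Λ)
    (f : ↥(laurentBaseChange L (modularFunctionFieldFull N))) :
    s35valW₁ hΛ N (arithmeticRingAut (modularFunctionFieldFull N) σ f) = s35valW₁ hΛ N f := by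
  have hG := GaussL.isGaussRing_gaussV (laurentBaseChange L (modularFunctionFieldFull N)) hΛ
    (s35val_le_gaussK hΛ N)
  -- units of the Gauss ring have valuation one
  have hone : ∀ u : ↥(laurentBaseChange L (modularFunctionFieldFull N)),
      u ∈ GaussL.gaussV Λ res (laurentBaseChange L (modularFunctionFieldFull N)) →
      u⁻¹ ∈ GaussL.gaussV Λ res (laurentBaseChange L (modularFunctionFieldFull N)) →
      u ≠ 0 → s35valW₁ hΛ N u = 1 := by
    intro u hu hu' hu0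
    have h1 : s35valW₁ hΛ N u ≤ 1 := (s35val_w₁_le_one_iff hΛ N u).mpr hu
    have h2 : s35valW₁ hΛ N u⁻¹ ≤ 1 := (s35val_w₁_le_one_iff hΛ N _).mpr hu'
    have hpos : 0 < s35valW₁ hΛ N u := zero_lt_iff.mpr ((Valuation.ne_zero_iff _).mpr hu0)
    rw [map_inv₀, inv_le_one₀ hpos] at h2
    exact le_antisymm h1 h2
  by_cases hf : f = 0
  · subst hf
    rw [map_zero]
  obtain ⟨n, u, hu, hu', rfl⟩ := hG.unit f hf
  have hu0 : u ≠ 0 := right_ne_zero_of_mul hf
  obtain ⟨c, hc, hc', hσc⟩ := s35f1cv_map_pi hΛ σ hσΛ hσΛ'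
  have hc0 : c ≠ 0 := by
    rintro rfl
    rw [mul_zero] at hσc
    exact hΛ.pi_ne_zero ((map_eq_zero σ).1 hσc)
  -- the constant `c` is a unit of the Gauss ring
  have hcV : algebraMap L ↥(laurentBaseChange L (modularFunctionFieldFull N)) c ∈
      GaussL.gaussV Λ res (laurentBaseChange L (modularFunctionFieldFull N)) :=
    (GaussL.gaussV Λ res (laurentBaseChange L (modularFunctionFieldFull N))).algebraMap_mem
      ⟨c, hc⟩
  have hcV' : (algebraMap L ↥(laurentBaseChange L (modularFunctionFieldFull N)) c)⁻¹ ∈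
      GaussL.gaussV Λ res (laurentBaseChange L (modularFunctionFieldFull N)) := by
    rw [← map_inv₀]
    exact (GaussL.gaussV Λ res (laurentBaseChange L (modularFunctionFieldFull N))).algebraMap_mem
      ⟨c⁻¹, hc'⟩
  have hc1 : s35valW₁ hΛ N (algebraMap L ↥(laurentBaseChange L (modularFunctionFieldFull N)) c)
      = 1 := hone _ hcV hcV' ((map_ne_zero _).2 hc0)
  -- `σ u` is a unit of the Gauss ring
  have hTu : arithmeticRingAut (modularFunctionFieldFull N) σ u ∈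
      GaussL.gaussV Λ res (laurentBaseChange L (modularFunctionFieldFull N)) :=
    s35f1cv_ringAut_mem_gaussV hΛ (modularFunctionFieldFull N) σ hσΛ hu
  have hTu' : (arithmeticRingAut (modularFunctionFieldFull N) σ u)⁻¹ ∈
      GaussL.gaussV Λ res (laurentBaseChange L (modularFunctionFieldFull N)) := by
    rw [← map_inv₀]
    exact s35f1cv_ringAut_mem_gaussV hΛ (modularFunctionFieldFull N) σ hσΛ hu'
  have hTu1 : s35valW₁ hΛ N (arithmeticRingAut (modularFunctionFieldFull N) σ u) = 1 :=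
    hone _ hTu hTu' ((map_ne_zero _).2 hu0)
  have hu1 : s35valW₁ hΛ N u = 1 := hone u hu hu' hu0
  rw [map_mul, map_zpow₀, arithmeticRingAut_algebraMap, hσc, map_mul, map_mul, map_zpow₀,
    map_mul, hc1, mul_one, hTu1, mul_one, map_mul, map_zpow₀, hu1, mul_one]

/-- (V5) ... and `w₂`. -/
theorem s35f1c_w₂_ringAut (hΛ : IsGaussRing Λ π res) (ι : L →+* ℂ) (M q : ℕ) [NeZero M]
    [NeZero q] (hcop : Nat.Coprime M q) (hq : q.Prime)
    (σ : L ≃ₐ[ℚ] L) (hσΛ : ∀ a ∈ Λ, σ a ∈ Λ) (hσΛ' : ∀ a ∈ Λ, σ.symm a ∈ Λ)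
    (f : ↥(laurentBaseChange L (modularFunctionFieldFull (M * q)))) :
    s35valW₂ hΛ ι M q hcop (arithmeticRingAut (modularFunctionFieldFull (M * q)) σ f) =
      s35valW₂ hΛ ι M q hcop f := by
  rw [s35val_w₂_apply, s35val_w₂_apply, kronW_ringAut ι M q hcop hq σ f]
  exact s35f1c_w₁_ringAut hΛ (M * q) σ hσΛ hσΛ' _

end L8

end Fermat.Agent.S35
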