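import Mathlib
import Fermat.Agent.S34.GalKummerField
import Fermat.Agent.S34.KronBasic
import Fermat.Agent.S34.KronTwoVal
import Fermat.Agent.S35.F1ValDefs
import Fermat.Agent.S35.F1Val
import Fermat.Agent.S35.F1cValAut
import Fermat.Agent.S35.F1cVal

/-!
# P20 (S35), F1 core, slot 1 (second team): the VAL + `s2` glue binders

The binders `hVw hπw hπ₁ hπ₂ hΛ₁ hs2j hs2Λ hs2Λs hs₁ hs₂ hfrob hu hu1` of
`s35f1_kummer_laurent3` (and of `s35f1_kummer_laurent`) at the instantiation of the generic-`L`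
core: `Λ := ↥Λ`, `K := L`, `E := laurentBaseChange L (modularFunctionFieldFull (M * q))`,
`π := GaussL.piL hΛ`, `j := S24.jL L (M * q)`, `w₁ := s35valW₁ hΛ (M * q)`,
`w₂ := s35valW₂ hΛ ι M q hcop`, `s2 := (T σ).trans (T σ)` with
`T σ := arithmeticRingAut (modularFunctionFieldFull (M * q)) σ`, `Q := q ^ 2`, `u := (u : E)`.
One lemma per binder, `s35f1coreB_<binder>`.
-/

set_option autoImplicit false

namespace Fermat.Agent.S35

open ModularCurve AlgebraicCurve
open Fermat.Agent.S18 Fermat.Agent.S28 Fermat.Agent.S28.FreeBasisAbs Fermat.Agent.S34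

variable {L k : Type*} [Field L] [Algebra ℚ L] [Field k] {Λ : Subring L} {π : L}
  {res : ↥Λ →+* k}

/-! ## the automorphism `s2 = (T σ).trans (T σ)` -/

section S2

variable (N : ℕ) [NeZero N] (σ : L ≃ₐ[ℚ] L)

theorem s35f1coreB_s2_apply (f : ↥(laurentBaseChange L (modularFunctionFieldFull N))) :
    ((arithmeticRingAut (modularFunctionFieldFull N) σ).trans
        (arithmeticRingAut (modularFunctionFieldFull N) σ)) f =
      arithmeticRingAut (modularFunctionFieldFull N) σ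
        (arithmeticRingAut (modularFunctionFieldFull N) σ f) := rfl

/-- `hs2j` -/
theorem s35f1coreB_hs2j :
    ((arithmeticRingAut (modularFunctionFieldFull N) σ).trans
        (arithmeticRingAut (modularFunctionFieldFull N) σ)) (Fermat.Agent.S24.jL L N) =
      Fermat.Agent.S24.jL L N := by
  rw [s35f1coreB_s2_apply, s34gal_ringAut_jL, s34gal_ringAut_jL]

theorem s35f1coreB_ringAut_symm_algebraMap (a : L) :
    (arithmeticRingAut (modularFunctionFieldFull N) σ).symm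
        (algebraMap L ↥(laurentBaseChange L (modularFunctionFieldFull N)) a) =
      algebraMap L ↥(laurentBaseChange L (modularFunctionFieldFull N)) (σ.symm a) := by
  rw [RingEquiv.symm_apply_eq, arithmeticRingAut_algebraMap, AlgEquiv.apply_symm_apply]

/-- `hs2Λ` -/
theorem s35f1coreB_hs2Λ (hσΛ : ∀ a ∈ Λ, σ a ∈ Λ) (c : ↥Λ) :
    ∃ c' : ↥Λ, ((arithmeticRingAut (modularFunctionFieldFull N) σ).trans
        (arithmeticRingAut (modularFunctionFieldFull N) σ))
        (algebraMap ↥Λ ↥(laurentBaseChange L (modularFunctionFieldFull N)) c) =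
      algebraMap ↥Λ ↥(laurentBaseChange L (modularFunctionFieldFull N)) c' := by
  refine ⟨⟨σ (σ c), hσΛ _ (hσΛ _ c.2)⟩, ?_⟩
  rw [s35f1coreB_s2_apply]
  have h1 : arithmeticRingAut (modularFunctionFieldFull N) σ
      (algebraMap ↥Λ ↥(laurentBaseChange L (modularFunctionFieldFull N)) c) =
      algebraMap L ↥(laurentBaseChange L (modularFunctionFieldFull N)) (σ c) :=
    arithmeticRingAut_algebraMap (modularFunctionFieldFull N) σ (c : L)
  rw [h1]
  exact arithmeticRingAut_algebraMap (modularFunctionFieldFull N) σ (σ c)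

/-- `hs2Λs` -/
theorem s35f1coreB_hs2Λs (hσΛs : ∀ a ∈ Λ, σ.symm a ∈ Λ) (c : ↥Λ) :
    ∃ c' : ↥Λ, ((arithmeticRingAut (modularFunctionFieldFull N) σ).trans
        (arithmeticRingAut (modularFunctionFieldFull N) σ)).symm
        (algebraMap ↥Λ ↥(laurentBaseChange L (modularFunctionFieldFull N)) c) =
      algebraMap ↥Λ ↥(laurentBaseChange L (modularFunctionFieldFull N)) c' := by
  refine ⟨⟨σ.symm (σ.symm c), hσΛs _ (hσΛs _ c.2)⟩, ?_⟩
  have h0 : ((arithmeticRingAut (modularFunctionFieldFull N) σ).trans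
        (arithmeticRingAut (modularFunctionFieldFull N) σ)).symm
        (algebraMap ↥Λ ↥(laurentBaseChange L (modularFunctionFieldFull N)) c) =
      (arithmeticRingAut (modularFunctionFieldFull N) σ).symm
        ((arithmeticRingAut (modularFunctionFieldFull N) σ).symm
          (algebraMap ↥Λ ↥(laurentBaseChange L (modularFunctionFieldFull N)) c)) := rfl
  rw [h0]
  have h1 : (arithmeticRingAut (modularFunctionFieldFull N) σ).symm
      (algebraMap ↥Λ ↥(laurentBaseChange L (modularFunctionFieldFull N)) c) =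
      algebraMap L ↥(laurentBaseChange L (modularFunctionFieldFull N)) (σ.symm c) :=
    s35f1coreB_ringAut_symm_algebraMap N σ (c : L)
  rw [h1]
  exact s35f1coreB_ringAut_symm_algebraMap N σ (σ.symm c)

/-- `hs₁` -/
theorem s35f1coreB_hs₁ (hΛ : IsGaussRing Λ π res) (hσΛ : ∀ a ∈ Λ, σ a ∈ Λ)
    (hσΛs : ∀ a ∈ Λ, σ.symm a ∈ Λ)
    (f : ↥(laurentBaseChange L (modularFunctionFieldFull N))) :
    s35valW₁ hΛ N (((arithmeticRingAut (modularFunctionFieldFull N) σ).trans
        (arithmeticRingAut (modularFunctionFieldFull N) σ)) f) = s35valW₁ hΛ N f := by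
  rw [s35f1coreB_s2_apply, s35f1c_w₁_ringAut hΛ N σ hσΛ hσΛs, s35f1c_w₁_ringAut hΛ N σ hσΛ hσΛs]

/-- `hfrob` (with `Q = q ^ 2`) -/
theorem s35f1coreB_hfrob (hΛ : IsGaussRing Λ π res) (q : ℕ) (hσΛ : ∀ a ∈ Λ, σ a ∈ Λ)
    (hσres : ∀ a : ↥Λ, res ⟨σ a, hσΛ a a.2⟩ = res a ^ q) (c : ↥Λ) :
    s35valW₁ hΛ N (((arithmeticRingAut (modularFunctionFieldFull N) σ).trans
        (arithmeticRingAut (modularFunctionFieldFull N) σ))
          (algebraMap ↥Λ ↥(laurentBaseChange L (modularFunctionFieldFull N)) c) -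
        algebraMap ↥Λ ↥(laurentBaseChange L (modularFunctionFieldFull N)) c ^ (q ^ 2)) < 1 :=
  s35f1c_w₁_frob_sq hΛ N q σ hσΛ hσres c

end S2

/-! ## level `M q` -/

section MQ

variable (hΛ : IsGaussRing Λ π res) (ι : L →+* ℂ) (M q : ℕ) [NeZero M] [NeZero q]
  (hcop : Nat.Coprime M q)

/-- `hs₂` -/
theorem s35f1coreB_hs₂ (hq : q.Prime) (σ : L ≃ₐ[ℚ] L) (hσΛ : ∀ a ∈ Λ, σ a ∈ Λ)
    (hσΛs : ∀ a ∈ Λ, σ.symm a ∈ Λ)
    (f : ↥(laurentBaseChange L (modularFunctionFieldFull (M * q)))) :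
    s35valW₂ hΛ ι M q hcop (((arithmeticRingAut (modularFunctionFieldFull (M * q)) σ).trans
        (arithmeticRingAut (modularFunctionFieldFull (M * q)) σ)) f) =
      s35valW₂ hΛ ι M q hcop f := by
  rw [s35f1coreB_s2_apply, s35f1c_w₂_ringAut hΛ ι M q hcop hq σ hσΛ hσΛs,
    s35f1c_w₂_ringAut hΛ ι M q hcop hq σ hσΛ hσΛs]

/-- `hπ₁` -/
theorem s35f1coreB_hπ₁ :
    s35valW₁ hΛ (M * q) (algebraMap ↥Λ ↥(laurentBaseChange L (modularFunctionFieldFull (M * q)))
      (GaussL.piL hΛ)) < 1 :=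
  s35val_w₁_pi_lt_one hΛ (M * q)

/-- `hπ₂` -/
theorem s35f1coreB_hπ₂ :
    s35valW₂ hΛ ι M q hcop
      (algebraMap ↥Λ ↥(laurentBaseChange L (modularFunctionFieldFull (M * q)))
        (GaussL.piL hΛ)) < 1 :=
  s35val_w₂_pi_lt_one hΛ ι M q hcop

/-- `hΛ₁` -/
theorem s35f1coreB_hΛ₁ (c : ↥Λ) (hc : IsUnit c) :
    s35valW₁ hΛ (M * q)
      (algebraMap ↥Λ ↥(laurentBaseChange L (modularFunctionFieldFull (M * q))) c) = 1 :=
  s35val_w₁_unit hΛ (M * q) hc

set_option synthInstance.maxHeartbeats 400000 in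
/-- `hVw` -/
theorem s35f1coreB_hVw [CharZero L] (hq : q.Prime) [CharP k q]
    (f : ↥(laurentBaseChange L (modularFunctionFieldFull (M * q)))) :
    IsIntegral (gaussSub (GaussL.piL hΛ) (GaussL.prime_piL hΛ)
        (Fermat.Agent.S24.jL L (M * q))) f ↔
      s35valW₁ hΛ (M * q) f ≤ 1 ∧ s35valW₂ hΛ ι M q hcop f ≤ 1 :=
  s35val_isIntegral_iff hΛ ι M q hcop hq f

set_option synthInstance.maxHeartbeats 400000 in
/-- `hπw` -/
theorem s35f1coreB_hπw [CharZero L] (hq : q.Prime) [CharP k q]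
    (f : ↥(laurentBaseChange L (modularFunctionFieldFull (M * q))))
    (h1 : s35valW₁ hΛ (M * q) f < 1) (h2 : s35valW₂ hΛ ι M q hcop f < 1) :
    ∃ δ : ↥(laurentBaseChange L (modularFunctionFieldFull (M * q))),
      IsIntegral (gaussSub (GaussL.piL hΛ) (GaussL.prime_piL hΛ)
        (Fermat.Agent.S24.jL L (M * q))) δ ∧ f = GaussL.piL hΛ • δ :=
  s35val_exists_eq_smul hΛ ι M q hcop hq f h1 h2

/-- `hu` -/
theorem s35f1coreB_hu (u : ↥(kronO Λ res ι M q hcop))
    (hu1 : kronRedInf Λ res ι M q hcop u = 1) :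
    (u : ↥(laurentBaseChange L (modularFunctionFieldFull (M * q)))) ≠ 0 := by
  intro h
  have h0 : u = 0 := Subtype.ext h
  rw [h0, map_zero] at hu1
  exact zero_ne_one hu1

set_option synthInstance.maxHeartbeats 400000 in
/-- `hu1` -/
theorem s35f1coreB_hu1 [CharZero L] (hq : q.Prime) [CharP k q]
    (u : ↥(kronO Λ res ι M q hcop))
    (hu1 : kronRedInf Λ res ι M q hcop u = 1) (hu2 : kronRedZero Λ res ι M q hcop u = 1) :
    ∃ δ : ↥(laurentBaseChange L (modularFunctionFieldFull (M * q))),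
      IsIntegral (gaussSub (GaussL.piL hΛ) (GaussL.prime_piL hΛ)
        (Fermat.Agent.S24.jL L (M * q))) δ ∧
      (u : ↥(laurentBaseChange L (modularFunctionFieldFull (M * q)))) - 1 =
        GaussL.piL hΛ • δ := by
  obtain ⟨δ, hδ, hδu⟩ := s35f1c_sub_one_eq hΛ ι M q hcop u hu1 hu2
  refine ⟨δ, kronO_isIntegral ι M q hcop hΛ hq hδ, ?_⟩
  rw [hδu, Algebra.smul_def]
  rfl

end MQ

end Fermat.Agent.S35
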