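import Mathlib
import Fermat.Agent.S34.AbsLPInst
import Fermat.Agent.S34.DictPoint

/-!
# P20 (S35), F1 core, provider P-DICT: `Λ`-points from rational residue fields

`s35f1_hdict`: on a chart `t` (chart rings `B = ` integral closure of `Λ[t]`, `Bη = ` integral
closure of `K[t]` in `F`), a horizontal prime `𝔔` through a closed point `𝔫 ∋ π` of the special
fibre whose residue field is `K` is the kernel of a `Λ`-point centred at `𝔫`.  With the residue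
hypothesis on the support of `u` (`hres`) this is exactly the hypothesis `hdict_fin` of
`s35f1_kummer_laurent3` (`s35f1_hdict_fin`, `t = j`) and `hdict_inf` (`s35f1_hdict_inf`,
`t = j⁻¹`; the cusp premise is not used).
-/

set_option autoImplicit false

namespace Fermat.Agent.S35

open IsDedekindDomain
open Fermat.Agent.S34

section

variable {Λ K F : Type*} [CommRing Λ] [IsDomain Λ] [IsDiscreteValuationRing Λ] [Field K]
  [Algebra Λ K] [IsFractionRing Λ K] [Field F] [Algebra K F] [Algebra Λ F] [IsScalarTower Λ K F]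

/-- **P-DICT** for the chart `t`. -/
theorem s35f1_hdict (π : Λ) (hπ : Irreducible π) (t : F)
    [IsDedekindDomain ↥(integralClosure (Algebra.adjoin K {t}) F)]
    [IsFractionRing ↥(integralClosure (Algebra.adjoin K {t}) F) F]
    (u : F)
    (hres : ∀ 𝔔 : HeightOneSpectrum ↥(integralClosure (Algebra.adjoin K {t}) F),
      𝔔.valuation F u ≠ 1 →
      ∀ y : ↥(integralClosure (Algebra.adjoin K {t}) F),
        ∃ c : K, y - algebraMap K ↥(integralClosure (Algebra.adjoin K {t}) F) c ∈ 𝔔.asIdeal)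
    (𝔫 : Ideal ↥(integralClosure (Algebra.adjoin Λ {t}) F)) (h𝔫 : 𝔫.IsMaximal)
    (hπ𝔫 : algebraMap Λ ↥(integralClosure (Algebra.adjoin Λ {t}) F) π ∈ 𝔫)
    (𝔔 : HeightOneSpectrum ↥(integralClosure (Algebra.adjoin K {t}) F))
    (h𝔔 : 𝔔 ∈ absThrough (absIncl Λ K t) 𝔫) (h𝔔u : 𝔔.valuation F u ≠ 1) :
    ∃ φ : ↥(integralClosure (Algebra.adjoin Λ {t}) F) →ₐ[Λ] Λ,
      𝔫 = Ideal.comap (φ : ↥(integralClosure (Algebra.adjoin Λ {t}) F) →+* Λ)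
        (Ideal.span {π}) ∧
      ∀ b : ↥(integralClosure (Algebra.adjoin Λ {t}) F),
        absIncl Λ K t b ∈ 𝔔.asIdeal ↔ φ b = 0 :=
  s34dict_point_of_residue (absIncl Λ K t) (absIncl_algebraMap Λ K t) π hπ 𝔫 h𝔫 hπ𝔫 𝔔 h𝔔
    (hres 𝔔 h𝔔u)

/-- **P-DICT, chart `j`**: the hypothesis `hdict_fin` of `s35f1_kummer_laurent3`. -/
theorem s35f1_hdict_fin (π : Λ) (hπ : Irreducible π) (j : F)
    [IsDedekindDomain ↥(integralClosure (Algebra.adjoin K {j}) F)]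
    [IsFractionRing ↥(integralClosure (Algebra.adjoin K {j}) F) F]
    (u : F)
    (hres : ∀ 𝔔 : HeightOneSpectrum ↥(integralClosure (Algebra.adjoin K {j}) F),
      𝔔.valuation F u ≠ 1 →
      ∀ y : ↥(integralClosure (Algebra.adjoin K {j}) F),
        ∃ c : K, y - algebraMap K ↥(integralClosure (Algebra.adjoin K {j}) F) c ∈ 𝔔.asIdeal) :
    ∀ 𝔫 : Ideal ↥(integralClosure (Algebra.adjoin Λ {j}) F), 𝔫.IsMaximal →
      algebraMap Λ ↥(integralClosure (Algebra.adjoin Λ {j}) F) π ∈ 𝔫 →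
      ∀ 𝔔 ∈ absThrough (absIncl Λ K j) 𝔫, 𝔔.valuation F u ≠ 1 →
      ∃ φ : ↥(integralClosure (Algebra.adjoin Λ {j}) F) →ₐ[Λ] Λ,
        𝔫 = Ideal.comap (φ : ↥(integralClosure (Algebra.adjoin Λ {j}) F) →+* Λ)
          (Ideal.span {π}) ∧
        ∀ b : ↥(integralClosure (Algebra.adjoin Λ {j}) F),
          absIncl Λ K j b ∈ 𝔔.asIdeal ↔ φ b = 0 :=
  fun 𝔫 h𝔫 hπ𝔫 𝔔 h𝔔 h𝔔u => s35f1_hdict π hπ j u hres 𝔫 h𝔫 hπ𝔫 𝔔 h𝔔 h𝔔u

/-- **P-DICT, chart `j⁻¹`**: the hypothesis `hdict_inf` of `s35f1_kummer_laurent3`. -/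
theorem s35f1_hdict_inf (π : Λ) (hπ : Irreducible π) (j : F)
    [IsDedekindDomain ↥(integralClosure (Algebra.adjoin K {j⁻¹}) F)]
    [IsFractionRing ↥(integralClosure (Algebra.adjoin K {j⁻¹}) F) F]
    (u : F)
    (hres : ∀ 𝔔 : HeightOneSpectrum ↥(integralClosure (Algebra.adjoin K {j⁻¹}) F),
      𝔔.valuation F u ≠ 1 →
      ∀ y : ↥(integralClosure (Algebra.adjoin K {j⁻¹}) F),
        ∃ c : K, y - algebraMap K ↥(integralClosure (Algebra.adjoin K {j⁻¹}) F) c ∈ 𝔔.asIdeal) :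
    ∀ 𝔫 : Ideal ↥(integralClosure (Algebra.adjoin Λ {j⁻¹}) F), 𝔫.IsMaximal →
      algebraMap Λ ↥(integralClosure (Algebra.adjoin Λ {j⁻¹}) F) π ∈ 𝔫 →
      (∃ a : ↥(integralClosure (Algebra.adjoin Λ {j⁻¹}) F), (a : F) = j⁻¹ ∧ a ∈ 𝔫) →
      ∀ 𝔔 ∈ absThrough (absIncl Λ K j⁻¹) 𝔫, 𝔔.valuation F u ≠ 1 →
      ∃ φ : ↥(integralClosure (Algebra.adjoin Λ {j⁻¹}) F) →ₐ[Λ] Λ,
        𝔫 = Ideal.comap (φ : ↥(integralClosure (Algebra.adjoin Λ {j⁻¹}) F) →+* Λ)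
          (Ideal.span {π}) ∧
        ∀ b : ↥(integralClosure (Algebra.adjoin Λ {j⁻¹}) F),
          absIncl Λ K j⁻¹ b ∈ 𝔔.asIdeal ↔ φ b = 0 :=
  fun 𝔫 h𝔫 hπ𝔫 _ 𝔔 h𝔔 h𝔔u => s35f1_hdict π hπ j⁻¹ u hres 𝔫 h𝔫 hπ𝔫 𝔔 h𝔔 h𝔔u

end

end Fermat.Agent.S35
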