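import Mathlib
import Fermat.Agent.S34.AbsLP
import Fermat.Agent.S34.AbsHR
import Fermat.Agent.S34.AbsPlaceComp
set_option autoImplicit false
namespace Fermat.Agent.S35
open IsDedekindDomain
open Fermat.Agent.S34

section Abs

variable {Bη F : Type*} [CommRing Bη] [IsDedekindDomain Bη] [Field F] [Algebra Bη F]
  [IsFractionRing Bη F]

/-- (F1-F) transport of the local datum by `s2`. -/
theorem s35f1_point {B : Type*} [CommRing B] [Algebra B F]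
    (ι : B →+* Bη) (hι : ∀ b : B, algebraMap Bη F (ι b) = algebraMap B F b)
    (𝔪 𝔪' : Ideal B) (s2 : F ≃+* F)
    (hη : ∀ y : Bη, ∃ y' : Bη, algebraMap Bη F y' = s2 (algebraMap Bη F y))
    (hηs : ∀ y : Bη, ∃ y' : Bη, algebraMap Bη F y' = s2.symm (algebraMap Bη F y))
    (hs𝔪 : ∀ b : B, ∃ b' : B, algebraMap B F b' = s2 (algebraMap B F b) ∧ (b' ∈ 𝔪 → b ∈ 𝔪'))
    (m Q : ℕ) (u g g' : F) (hu : u ≠ 0) (hg : g ≠ 0) (hg' : g' ≠ 0)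
    (h1 : ∀ 𝔔 ∈ absThrough ι 𝔪, 𝔔.valuation F (u / g ^ m) = 1)
    (h2 : ∀ 𝔔 ∈ absThrough ι 𝔪', 𝔔.valuation F (u / g' ^ m) = 1) :
    ∀ 𝔔 ∈ absThrough ι 𝔪, 𝔔.valuation F ((s2 u / u ^ Q) / (s2 g' / g ^ Q) ^ m) = 1 := by
  intro 𝔔 h𝔔
  obtain ⟨𝔔', h𝔔'⟩ := abs_place_comp s2 hη hηs 𝔔
  have hmem : 𝔔' ∈ absThrough ι 𝔪' := by
    intro b hb
    obtain ⟨b', hb', hmem⟩ := hs𝔪 b
    apply hmem
    apply h𝔔
    show ι b' ∈ 𝔔.asIdeal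
    have hb2 : 𝔔'.valuation F (algebraMap Bη F (ι b)) < 1 :=
      (HeightOneSpectrum.valuation_lt_one_iff_mem 𝔔' (ι b)).mpr hb
    have hb3 : 𝔔.valuation F (algebraMap Bη F (ι b')) < 1 := by
      rw [hι, hb', ← hι, ← h𝔔']
      exact hb2
    exact (HeightOneSpectrum.valuation_lt_one_iff_mem 𝔔 (ι b')).mp hb3
  have hsg' : s2 g' ≠ 0 := (map_ne_zero s2).2 hg'
  have hu' : u ^ Q ≠ 0 := pow_ne_zero _ hu
  have hgQ : g ^ Q ≠ 0 := pow_ne_zero _ hg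
  have e : (s2 u / u ^ Q) / (s2 g' / g ^ Q) ^ m = s2 (u / g' ^ m) / (u / g ^ m) ^ Q := by
    rw [map_div₀, map_pow, div_pow, div_pow]
    have hgm : (g ^ m) ^ Q = (g ^ Q) ^ m := by rw [← pow_mul, ← pow_mul, mul_comm]
    rw [hgm]
    have hgm' : (g ^ Q) ^ m ≠ 0 := pow_ne_zero _ hgQ
    have hsgm : s2 g' ^ m ≠ 0 := pow_ne_zero _ hsg'
    field_simp
  rw [e, map_div₀, map_pow, h1 𝔔 h𝔔, one_pow, div_one, ← h𝔔', h2 𝔔' hmem]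

end Abs

end Fermat.Agent.S35
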