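import Mathlib
import Fermat.Agent.S34.AbsLP
import Fermat.Agent.S34.AbsHR
import Fermat.Agent.S34.AbsPlaceComp
set_option autoImplicit false
namespace Fermat.Agent.S35
open IsDedekindDomain
open Fermat.Agent.S34

section Abs

variable {Bη F : Type*} [CommRing Bη] [IsDedekindDomain Bη] [Field F] [Algebra Bη F]
  [IsFractionRing Bη F]

theorem s35f1b_pred_pow {F : Type*} [Field F] (Q : F → Prop)
    (hQ1 : Q 1) (hQmul : ∀ a b : F, Q a → Q b → Q (a * b)) (a : F) (ha : Q a) (n : ℕ) :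
    Q (a ^ n) := by
  induction n with
  | zero => rw [pow_zero]; exact hQ1
  | succ k ih => rw [pow_succ]; exact hQmul _ _ ih ha

theorem s35f1b_pred_zpow {F : Type*} [Field F] (Q : F → Prop)
    (hQ1 : Q 1) (hQmul : ∀ a b : F, Q a → Q b → Q (a * b)) (hQinv : ∀ a : F, Q a → Q a⁻¹)
    (a : F) (ha : Q a) (n : ℤ) : Q (a ^ n) := by
  obtain ⟨k, rfl | rfl⟩ := Int.eq_nat_or_neg n
  · rw [zpow_natCast]; exact s35f1b_pred_pow Q hQ1 hQmul a ha k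
  · rw [zpow_neg, zpow_natCast]; exact hQinv _ (s35f1b_pred_pow Q hQ1 hQmul a ha k)

theorem s35f1b_pred_prod {F : Type*} [Field F] (Q : F → Prop)
    (hQ1 : Q 1) (hQmul : ∀ a b : F, Q a → Q b → Q (a * b))
    {α : Type*} (T : Finset α) (f : α → F) (hf : ∀ i ∈ T, Q (f i)) :
    Q (∏ i ∈ T, f i) := by
  classical
  induction T using Finset.induction_on with
  | empty => rw [Finset.prod_empty]; exact hQ1
  | insert a s has ih =>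
    rw [Finset.prod_insert has]
    exact hQmul _ _ (hf a (Finset.mem_insert_self a s))
      (ih (fun i hi => hf i (Finset.mem_insert_of_mem hi)))

/-- (F1-B, file `S35/F1Prod.lean`) `abs_lp_of_places` with a multiplicative predicate, no
exceptional places. -/
theorem s35f1_lp_pred (S : Set (HeightOneSpectrum Bη)) (Q : F → Prop)
    (hQ1 : Q 1) (hQmul : ∀ a b : F, Q a → Q b → Q (a * b)) (hQinv : ∀ a : F, Q a → Q a⁻¹)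
    (m : ℕ) (u : F) (hu : u ≠ 0)
    (hdiv : ∀ 𝔔 ∈ S, ∃ n : ℤ, 𝔔.valuation F u = WithZero.exp ((m : ℤ) * n))
    (hlp : ∀ 𝔔 ∈ S, 𝔔.valuation F u ≠ 1 →
      ∃ h : F, Q h ∧ 𝔔.valuation F h = WithZero.exp (-1 : ℤ) ∧
        ∀ 𝔔' ∈ S, 𝔔' ≠ 𝔔 → 𝔔'.valuation F h = 1) :
    ∃ h0 : F, h0 ≠ 0 ∧ Q h0 ∧ ∀ 𝔔 ∈ S, 𝔔.valuation F (u / h0 ^ m) = 1 := by
  classical
  have hfin : {𝔔 : HeightOneSpectrum Bη | 𝔔 ∈ S ∧ 𝔔.valuation F u ≠ 1}.Finite :=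
    (abs_finite_support (Bη := Bη) hu).subset (fun 𝔔 h => h.2)
  set T : Finset (HeightOneSpectrum Bη) := hfin.toFinset with hT
  have hTmem : ∀ 𝔔, 𝔔 ∈ T ↔ 𝔔 ∈ S ∧ 𝔔.valuation F u ≠ 1 := fun 𝔔 => by
    rw [hT, Set.Finite.mem_toFinset]; rfl
  have hch : ∀ 𝔔 : HeightOneSpectrum Bη, ∃ (h : F) (n : ℤ), 𝔔 ∈ T →
      (Q h ∧ 𝔔.valuation F h = WithZero.exp (-1 : ℤ) ∧
        (∀ 𝔔' ∈ S, 𝔔' ≠ 𝔔 → 𝔔'.valuation F h = 1) ∧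
        𝔔.valuation F u = WithZero.exp ((m : ℤ) * n)) := by
    intro 𝔔
    by_cases h𝔔 : 𝔔 ∈ T
    · obtain ⟨hS, hne⟩ := (hTmem 𝔔).mp h𝔔
      obtain ⟨h, hQh, hh1, hh2⟩ := hlp 𝔔 hS hne
      obtain ⟨n, hn⟩ := hdiv 𝔔 hS
      exact ⟨h, n, fun _ => ⟨hQh, hh1, hh2, hn⟩⟩
    · exact ⟨1, 0, fun h => absurd h h𝔔⟩
  choose hf nf hspec using hch
  have hne : ∀ 𝔔 ∈ T, hf 𝔔 ≠ 0 := by
    intro 𝔔 h𝔔 h0
    have := (hspec 𝔔 h𝔔).2.1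
    rw [h0, map_zero] at this
    exact WithZero.exp_ne_zero this.symm
  refine ⟨∏ 𝔔 ∈ T, hf 𝔔 ^ (- nf 𝔔), ?_, ?_, ?_⟩
  · exact Finset.prod_ne_zero_iff.mpr (fun 𝔔 h𝔔 => zpow_ne_zero _ (hne 𝔔 h𝔔))
  · exact s35f1b_pred_prod Q hQ1 hQmul T _
      (fun 𝔔 h𝔔 => s35f1b_pred_zpow Q hQ1 hQmul hQinv _ (hspec 𝔔 h𝔔).1 _)
  · intro 𝔔 h𝔔S
    have hv0 : 𝔔.valuation F (∏ 𝔔' ∈ T, hf 𝔔' ^ (- nf 𝔔')) =
        if 𝔔 ∈ T then WithZero.exp (nf 𝔔) else 1 := by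
      rw [map_prod]
      by_cases h𝔔T : 𝔔 ∈ T
      · rw [if_pos h𝔔T, Finset.prod_eq_single_of_mem 𝔔 h𝔔T]
        · rw [map_zpow₀, (hspec 𝔔 h𝔔T).2.1, ← WithZero.exp_zsmul]
          congr 1
          simp
        · intro 𝔔' h𝔔'T hne'
          rw [map_zpow₀, (hspec 𝔔' h𝔔'T).2.2.1 𝔔 h𝔔S (Ne.symm hne'), one_zpow]
      · rw [if_neg h𝔔T]
        refine Finset.prod_eq_one (fun 𝔔' h𝔔'T => ?_)
        have hne' : 𝔔 ≠ 𝔔' := fun h => h𝔔T (h ▸ h𝔔'T)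
        rw [map_zpow₀, (hspec 𝔔' h𝔔'T).2.2.1 𝔔 h𝔔S hne', one_zpow]
    by_cases h𝔔T : 𝔔 ∈ T
    · rw [map_div₀, map_pow, hv0, if_pos h𝔔T, (hspec 𝔔 h𝔔T).2.2.2, ← WithZero.exp_nsmul,
        nsmul_eq_mul]
      exact div_self WithZero.exp_ne_zero
    · have hval' : 𝔔.valuation F u = 1 := by
        by_contra h1
        exact h𝔔T ((hTmem 𝔔).mpr ⟨h𝔔S, h1⟩)
      rw [map_div₀, map_pow, hv0, if_neg h𝔔T, one_pow, div_one, hval']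

end Abs

end Fermat.Agent.S35
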