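import Mathlib
import Fermat.Agent.S34.AbsLP
import Fermat.Agent.S34.AbsHR
import Fermat.Agent.S34.AbsPlaceComp
import Fermat.Agent.S35.F1Prod
set_option autoImplicit false
namespace Fermat.Agent.S35
open IsDedekindDomain
open Fermat.Agent.S34

theorem s35f1d_eq_of_sub_lt {F Γ : Type*} [Field F] [LinearOrderedCommGroupWithZero Γ]
    (w : Valuation F Γ) {y z : F} (h : w (y - z) < w z) : w y = w z := by
  have h2 : w (z + (y - z)) = w z := Valuation.map_add_eq_of_lt_left w h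
  rwa [add_sub_cancel] at h2

theorem s35f1d_pos_of_lt {F Γ : Type*} [Field F] [LinearOrderedCommGroupWithZero Γ]
    (w : Valuation F Γ) {y z : F} (h : w y < w z) : 0 < w z :=
  lt_of_le_of_lt zero_le h

theorem s35f1d_w_mul {F Γ : Type*} [Field F] [LinearOrderedCommGroupWithZero Γ]
    (w : Valuation F Γ) {f f' A A' B B' : F}
    (h : w (f * A' - A) < w A) (h' : w (f' * B' - B) < w B) :
    w (f * f' * (A' * B') - A * B) < w (A * B) := by
  have hA : 0 < w A := s35f1d_pos_of_lt w h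
  have hB : 0 < w B := s35f1d_pos_of_lt w h'
  have e : f * f' * (A' * B') - A * B = (f * A' - A) * (f' * B') + A * (f' * B' - B) := by ring
  rw [e, map_mul w A B]
  apply Valuation.map_add_lt
  · rw [map_mul, s35f1d_eq_of_sub_lt w h']
    exact mul_lt_mul_of_pos_right h hB
  · rw [map_mul]
    exact mul_lt_mul_of_pos_left h' hA

theorem s35f1d_w_inv {F Γ : Type*} [Field F] [LinearOrderedCommGroupWithZero Γ]
    (w : Valuation F Γ) {f A A' : F}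
    (h : w (f * A' - A) < w A) :
    w (f⁻¹ * A - A') < w A' := by
  have hA : 0 < w A := s35f1d_pos_of_lt w h
  have hfA : w f * w A' = w A := by rw [← map_mul]; exact s35f1d_eq_of_sub_lt w h
  have hf0 : w f ≠ 0 := by
    intro h0; rw [h0, zero_mul] at hfA; exact hA.ne hfA
  have hf : f ≠ 0 := (Valuation.ne_zero_iff w).1 hf0
  have e : f⁻¹ * A - A' = -((f * A' - A) * f⁻¹) := by field_simp; ring
  rw [e, Valuation.map_neg, map_mul, map_inv₀]
  have h3 : w A' = w A * (w f)⁻¹ := by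
    rw [← hfA, mul_comm (w f), mul_assoc, mul_inv_cancel₀ hf0, mul_one]
  rw [h3]
  exact mul_lt_mul_of_pos_right h (by rw [zero_lt_iff]; exact inv_ne_zero hf0)

theorem s35f1d_one_mul {F Γ : Type*} [Field F] [LinearOrderedCommGroupWithZero Γ]
    (w : Valuation F Γ) {f f' X X' : F} (hX : w X = 1) (hX' : w X' = 1)
    (h : w (f - X) < 1) (h' : w (f' - X') < 1) :
    w (f * f' - X * X') < 1 := by
  have hf' : w f' = 1 := by rw [← hX']; exact s35f1d_eq_of_sub_lt w (by rw [hX']; exact h')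
  have e : f * f' - X * X' = (f - X) * f' + X * (f' - X') := by ring
  rw [e]
  apply Valuation.map_add_lt
  · rw [map_mul, hf', mul_one]; exact h
  · rw [map_mul, hX, one_mul]; exact h'

theorem s35f1d_one_inv {F Γ : Type*} [Field F] [LinearOrderedCommGroupWithZero Γ]
    (w : Valuation F Γ) {f X : F} (hX : w X = 1)
    (h : w (f - X) < 1) :
    w (f⁻¹ - X⁻¹) < 1 := by
  have hf1 : w f = 1 := by rw [← hX]; exact s35f1d_eq_of_sub_lt w (by rw [hX]; exact h)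
  have hf : f ≠ 0 := (Valuation.ne_zero_iff w).1 (by rw [hf1]; exact one_ne_zero)
  have hX0 : X ≠ 0 := (Valuation.ne_zero_iff w).1 (by rw [hX]; exact one_ne_zero)
  have e : f⁻¹ - X⁻¹ = -((f - X) * (f⁻¹ * X⁻¹)) := by field_simp; ring
  rw [e, Valuation.map_neg, map_mul, map_mul, map_inv₀, map_inv₀, hf1, hX, inv_one, mul_one,
    mul_one]
  exact h

section Abs

variable {Bη F : Type*} [CommRing Bη] [IsDedekindDomain Bη] [Field F] [Algebra Bη F]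
  [IsFractionRing Bη F]

section Cross

variable {Λ B : Type*} [CommRing Λ] [IsDomain Λ] [IsDiscreteValuationRing Λ] [Algebra Λ F]
  [CommRing B] [Algebra B F] [Algebra Λ B] [IsScalarTower Λ B F]
  {Γ₁ Γ₂ : Type*} [LinearOrderedCommGroupWithZero Γ₁] [LinearOrderedCommGroupWithZero Γ₂]

/-- (F1-D1, file `S35/F1CrossProd.lean`) crossing point, product step. -/
theorem s35f1_cross_prod
    (ι : B →+* Bη) (𝔪 : Ideal B) (w₁ : Valuation F Γ₁) (w₂ : Valuation F Γ₂)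
    (m : ℕ) {u : F} (hu : u ≠ 0)
    (hdiv : ∀ 𝔔 ∈ absThrough ι 𝔪, ∃ n : ℤ, 𝔔.valuation F u = WithZero.exp ((m : ℤ) * n))
    (x : B) (hx₂ : w₂ (algebraMap B F x) = 1)
    (hlp : ∀ 𝔔 ∈ absThrough ι 𝔪, 𝔔.valuation F u ≠ 1 →
      ∃ (h : F) (a : Λ), a ≠ 0 ∧ w₁ (h - algebraMap Λ F a) < w₁ (algebraMap Λ F a) ∧
        w₂ (h - algebraMap B F x) < 1 ∧
        𝔔.valuation F h = WithZero.exp (-1 : ℤ) ∧
        ∀ 𝔔' ∈ absThrough ι 𝔪, 𝔔' ≠ 𝔔 → 𝔔'.valuation F h = 1) :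
    ∃ (g : F) (a a' : Λ) (N : ℤ), g ≠ 0 ∧ a ≠ 0 ∧ a' ≠ 0 ∧
      w₁ (g * algebraMap Λ F a' - algebraMap Λ F a) < w₁ (algebraMap Λ F a) ∧
      w₂ (g - algebraMap B F x ^ N) < 1 ∧
      ∀ 𝔔 ∈ absThrough ι 𝔪, 𝔔.valuation F (u / g ^ m) = 1 := by
  have hx0 : algebraMap B F x ≠ 0 :=
    (Valuation.ne_zero_iff w₂).1 (by rw [hx₂]; exact one_ne_zero)
  have hxN : ∀ N : ℤ, w₂ (algebraMap B F x ^ N) = 1 := fun N => by
    rw [map_zpow₀, hx₂, one_zpow]
  let Q : F → Prop := fun f =>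
    (∃ a a' : Λ, a ≠ 0 ∧ a' ≠ 0 ∧
      w₁ (f * algebraMap Λ F a' - algebraMap Λ F a) < w₁ (algebraMap Λ F a)) ∧
    ∃ N : ℤ, w₂ (f - algebraMap B F x ^ N) < 1
  have hQ1 : Q 1 := by
    refine ⟨⟨1, 1, one_ne_zero, one_ne_zero, ?_⟩, 0, ?_⟩
    · rw [map_one, mul_one, sub_self, map_zero, map_one]; exact zero_lt_one
    · rw [zpow_zero, sub_self, map_zero]; exact zero_lt_one
  have hQmul : ∀ a b : F, Q a → Q b → Q (a * b) := by
    rintro f f' ⟨⟨a, a', ha, ha', h1⟩, N, h2⟩ ⟨⟨b, b', hb, hb', h1'⟩, N', h2'⟩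
    refine ⟨⟨a * b, a' * b', mul_ne_zero ha hb, mul_ne_zero ha' hb', ?_⟩, N + N', ?_⟩
    · rw [map_mul, map_mul]
      exact s35f1d_w_mul w₁ h1 h1'
    · rw [zpow_add₀ hx0]
      exact s35f1d_one_mul w₂ (hxN N) (hxN N') h2 h2'
  have hQinv : ∀ a : F, Q a → Q a⁻¹ := by
    rintro f ⟨⟨a, a', ha, ha', h1⟩, N, h2⟩
    refine ⟨⟨a', a, ha', ha, s35f1d_w_inv w₁ h1⟩, -N, ?_⟩
    rw [zpow_neg]
    exact s35f1d_one_inv w₂ (hxN N) h2
  obtain ⟨h0, hh0, ⟨⟨a, a', ha, ha', h1⟩, N, h2⟩, hval⟩ :=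
    s35f1_lp_pred (absThrough ι 𝔪) Q hQ1 hQmul hQinv m u hu hdiv (by
      intro 𝔔 h𝔔 hne
      obtain ⟨h, a, ha, h1, h2, h3, h4⟩ := hlp 𝔔 h𝔔 hne
      refine ⟨h, ⟨⟨a, 1, ha, one_ne_zero, ?_⟩, 1, ?_⟩, h3, h4⟩
      · rw [map_one, mul_one]; exact h1
      · rw [zpow_one]; exact h2)
  exact ⟨h0, a, a', N, hh0, ha, ha', h1, h2, hval⟩

end Cross

end Abs

end Fermat.Agent.S35
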