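import Mathlib
import Fermat.Agent.S34.AbsLP
import Fermat.Agent.S34.AbsHR
import Fermat.Agent.S34.AbsPlaceComp
set_option autoImplicit false
namespace Fermat.Agent.S35
open IsDedekindDomain
open Fermat.Agent.S34

section Abs

variable {Bη F : Type*} [CommRing Bη] [IsDedekindDomain Bη] [Field F] [Algebra Bη F]
  [IsFractionRing Bη F]

/-- (F1-A) c-trick + Lemma K. -/
theorem s35f1_ctrick {B : Type*} [CommRing B] [Algebra B F]
    (ι : B →+* Bη) (hι : ∀ b : B, algebraMap Bη F (ι b) = algebraMap B F b)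
    (𝔪 : Ideal B) [𝔪.IsPrime] (V : Subring F)
    (hBV : ∀ b : B, IsIntegral V (algebraMap B F b))
    (hK : ∀ y : Bη, IsIntegral V (algebraMap Bη F y) →
      ∃ b : B, algebraMap B F b = algebraMap Bη F y)
    (f : F) (hfV : IsIntegral V f)
    (hval : ∀ 𝔔 ∈ absThrough ι 𝔪, 𝔔.valuation F f ≤ 1) :
    ∃ c : B, c ∉ 𝔪 ∧ ∃ b : B, algebraMap B F b = algebraMap B F c * f := by
  obtain ⟨d, hd, y, hy⟩ := abs_hr_of_no_pole ι 𝔪 f hval
  rw [hι] at hy
  obtain ⟨b, hb⟩ := hK y (by rw [hy]; exact (hBV d).mul hfV)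
  exact ⟨d, hd, b, by rw [hb, hy]⟩

end Abs

end Fermat.Agent.S35
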