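import Mathlib
import Fermat.Agent.S34.AbsLP
import Fermat.Agent.S34.AbsHR
import Fermat.Agent.S34.AbsPlaceComp
import Fermat.Agent.S35.F1Ctrick
set_option autoImplicit false
namespace Fermat.Agent.S35
open IsDedekindDomain
open Fermat.Agent.S34

section OU

variable {F Γ : Type*} [Field F] [LinearOrderedCommGroupWithZero Γ]

theorem s35f1d2_mul_lt_one {a b : Γ} (ha : a ≤ 1) (hb : b < 1) : a * b < 1 := by
  calc a * b ≤ 1 * b := mul_le_mul' ha le_rfl
    _ = b := one_mul b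
    _ < 1 := hb

theorem s35f1d2_eq_one_of_mul {a b : Γ} (ha : a ≤ 1) (hb : b ≤ 1) (h : a * b = 1) : a = 1 := by
  refine le_antisymm ha ?_
  calc (1 : Γ) = a * b := h.symm
    _ ≤ a * 1 := mul_le_mul' le_rfl hb
    _ = a := mul_one a

theorem s35f1d2_ou_val (w : Valuation F Γ) {f : F} (h : w (f - 1) < 1) : w f = 1 := by
  have : w ((f - 1) + 1) = w 1 := Valuation.map_add_eq_of_lt_right w (by rwa [map_one])
  rwa [sub_add_cancel, map_one] at this

theorem s35f1d2_ou_ne (w : Valuation F Γ) {f : F} (h : w (f - 1) < 1) : f ≠ 0 := by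
  intro h0
  have := s35f1d2_ou_val w h
  rw [h0, map_zero] at this
  exact zero_ne_one this

theorem s35f1d2_ou_mul (w : Valuation F Γ) {f g : F} (hf : w (f - 1) < 1) (hg : w (g - 1) < 1) :
    w (f * g - 1) < 1 := by
  have e : f * g - 1 = (f - 1) * g + (g - 1) := by ring
  rw [e]
  refine lt_of_le_of_lt (Valuation.map_add _ _ _) (max_lt ?_ hg)
  rw [map_mul, s35f1d2_ou_val w hg, mul_one]
  exact hf

theorem s35f1d2_ou_inv (w : Valuation F Γ) {f : F} (hf : w (f - 1) < 1) : w (f⁻¹ - 1) < 1 := by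
  have h0 := s35f1d2_ou_ne w hf
  have e : f⁻¹ - 1 = -(f - 1) * f⁻¹ := by field_simp; ring
  rw [e, map_mul, Valuation.map_neg, map_inv₀, s35f1d2_ou_val w hf, inv_one, mul_one]
  exact hf

theorem s35f1d2_ou_pow (w : Valuation F Γ) {f : F} (hf : w (f - 1) < 1) (m : ℕ) :
    w (f ^ m - 1) < 1 := by
  induction m with
  | zero => simp
  | succ k ih => rw [pow_succ]; exact s35f1d2_ou_mul w ih hf

end OU

theorem s35f1d2_dvr_tri {Λ : Type*} [CommRing Λ] [IsDomain Λ] [IsDiscreteValuationRing Λ]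
    (π : Λ) (hπ : Irreducible π) (a a' : Λ) (ha : a ≠ 0) (ha' : a' ≠ 0) :
    (∃ c : Λ, IsUnit c ∧ a = c * a') ∨ (∃ e : Λ, a = e * π * a') ∨ (∃ e : Λ, a' = e * π * a) := by
  obtain ⟨k, v, rfl⟩ := IsDiscreteValuationRing.eq_unit_mul_pow_irreducible ha hπ
  obtain ⟨k', v', rfl⟩ := IsDiscreteValuationRing.eq_unit_mul_pow_irreducible ha' hπ
  have h1 : ((v' * v⁻¹ : Λˣ) : Λ) * (v : Λ) = v' := by rw [← Units.val_mul]; simp
  have h2 : ((v * v'⁻¹ : Λˣ) : Λ) * (v' : Λ) = v := by rw [← Units.val_mul]; simp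
  rcases lt_trichotomy k k' with h | h | h
  · right; right
    obtain ⟨j, rfl⟩ := Nat.exists_eq_add_of_lt h
    refine ⟨((v' * v⁻¹ : Λˣ) : Λ) * π ^ j, ?_⟩
    rw [← h1]; ring
  · left; subst h
    refine ⟨((v * v'⁻¹ : Λˣ) : Λ), Units.isUnit _, ?_⟩
    rw [← mul_assoc, h2]
  · right; left
    obtain ⟨j, rfl⟩ := Nat.exists_eq_add_of_lt h
    refine ⟨((v * v'⁻¹ : Λˣ) : Λ) * π ^ j, ?_⟩
    rw [← h2]; ring

section Abs

variable {Bη F : Type*} [CommRing Bη] [IsDedekindDomain Bη] [Field F] [Algebra Bη F]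
  [IsFractionRing Bη F]

theorem s35f1d2_val_unit (y : Bη) (hy : IsUnit y) (𝔔 : HeightOneSpectrum Bη) :
    𝔔.valuation F (algebraMap Bη F y) = 1 := by
  rw [HeightOneSpectrum.valuation_of_algebraMap, HeightOneSpectrum.intValuation_eq_one_iff]
  intro hmem
  exact 𝔔.isPrime.ne_top (Ideal.eq_top_of_isUnit_mem _ hmem hy)

theorem s35f1d2_M {B : Type*} [CommRing B] [Algebra B F]
    {Γ₁ Γ₂ : Type*} [LinearOrderedCommGroupWithZero Γ₁] [LinearOrderedCommGroupWithZero Γ₂]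
    (ι : B →+* Bη) (hι : ∀ b : B, algebraMap Bη F (ι b) = algebraMap B F b)
    (𝔪 : Ideal B) [𝔪.IsPrime] (V : Subring F)
    (hBV : ∀ b : B, IsIntegral V (algebraMap B F b))
    (hK : ∀ y : Bη, IsIntegral V (algebraMap Bη F y) →
      ∃ b : B, algebraMap B F b = algebraMap Bη F y)
    (w₁ : Valuation F Γ₁) (w₂ : Valuation F Γ₂)
    (hVw : ∀ f : F, IsIntegral V f ↔ w₁ f ≤ 1 ∧ w₂ f ≤ 1)
    (h𝔪₁ : ∀ b : B, w₁ (algebraMap B F b) < 1 → b ∈ 𝔪)
    (h𝔪₂ : ∀ b : B, w₂ (algebraMap B F b) < 1 → b ∈ 𝔪)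
    (f : F) (hf₁ : w₁ (f - 1) < 1)
    (hval : ∀ 𝔔 ∈ absThrough ι 𝔪, 𝔔.valuation F f ≤ 1)
    (y : B) (hy : y ∈ 𝔪) (hf₂ : w₂ (f - algebraMap B F y) < 1) : False := by
  have hyV := (hVw _).1 (hBV y)
  have hfV : IsIntegral V f := by
    rw [hVw]
    refine ⟨(s35f1d2_ou_val w₁ hf₁).le, ?_⟩
    have : f = (f - algebraMap B F y) + algebraMap B F y := by ring
    rw [this]
    exact (Valuation.map_add _ _ _).trans (max_le hf₂.le hyV.2)
  obtain ⟨d, hd, b, hb⟩ := s35f1_ctrick ι hι 𝔪 V hBV hK f hfV hval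
  have hdV := (hVw _).1 (hBV d)
  have h1 : b - d * y ∈ 𝔪 := by
    apply h𝔪₂
    have : algebraMap B F (b - d * y) = algebraMap B F d * (f - algebraMap B F y) := by
      rw [map_sub, map_mul, hb]; ring
    rw [this, map_mul]
    exact s35f1d2_mul_lt_one hdV.2 hf₂
  have h2 : b - d ∈ 𝔪 := by
    apply h𝔪₁
    have : algebraMap B F (b - d) = algebraMap B F d * (f - 1) := by
      rw [map_sub, hb]; ring
    rw [this, map_mul]
    exact s35f1d2_mul_lt_one hdV.1 hf₁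
  have h3 : b ∈ 𝔪 := by
    have := 𝔪.add_mem h1 (𝔪.mul_mem_left d hy)
    rwa [sub_add_cancel] at this
  have h4 : d ∈ 𝔪 := by
    have := 𝔪.sub_mem h3 h2
    rwa [sub_sub_cancel] at this
  exact hd h4

section Cross

variable {Λ B : Type*} [CommRing Λ] [IsDomain Λ] [IsDiscreteValuationRing Λ] [Algebra Λ F]
  [CommRing B] [Algebra B F] [Algebra Λ B] [IsScalarTower Λ B F]
  {Γ₁ Γ₂ : Type*} [LinearOrderedCommGroupWithZero Γ₁] [LinearOrderedCommGroupWithZero Γ₂]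

theorem s35f1_cross_vert
    (ι : B →+* Bη) (hι : ∀ b : B, algebraMap Bη F (ι b) = algebraMap B F b)
    (𝔪 : Ideal B) [𝔪.IsPrime] (π : Λ) (hπ : Irreducible π)
    (hπu : IsUnit (ι (algebraMap Λ B π))) (V : Subring F)
    (hBV : ∀ b : B, IsIntegral V (algebraMap B F b))
    (hK : ∀ y : Bη, IsIntegral V (algebraMap Bη F y) →
      ∃ b : B, algebraMap B F b = algebraMap Bη F y)
    (w₁ : Valuation F Γ₁) (w₂ : Valuation F Γ₂)
    (hVw : ∀ f : F, IsIntegral V f ↔ w₁ f ≤ 1 ∧ w₂ f ≤ 1)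
    (hπ₁ : w₁ (algebraMap Λ F π) < 1) (hπ₂ : w₂ (algebraMap Λ F π) < 1)
    (h𝔪₁ : ∀ b : B, w₁ (algebraMap B F b) < 1 → b ∈ 𝔪)
    (h𝔪₂ : ∀ b : B, w₂ (algebraMap B F b) < 1 → b ∈ 𝔪)
    (m : ℕ) (hm : m ≠ 0) {u : F} (hu : u ≠ 0)
    (hu1 : ∃ δ : F, IsIntegral V δ ∧ u - 1 = π • δ)
    (x : B) (hx𝔪 : x ∈ 𝔪) (hx₂ : w₂ (algebraMap B F x) = 1)
    (g : F) (a a' : Λ) (N : ℤ) (hg : g ≠ 0) (ha : a ≠ 0) (ha' : a' ≠ 0)
    (hg₁ : w₁ (g * algebraMap Λ F a' - algebraMap Λ F a) < w₁ (algebraMap Λ F a))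
    (hg₂ : w₂ (g - algebraMap B F x ^ N) < 1)
    (hval : ∀ 𝔔 ∈ absThrough ι 𝔪, 𝔔.valuation F (u / g ^ m) = 1) :
    ∃ c : Λ, IsUnit c ∧ w₁ (g - algebraMap Λ F c) < 1 ∧ w₂ (g - 1) < 1 := by
  obtain ⟨δ, hδV, hδ⟩ := hu1
  have hΛF : ∀ c : Λ, algebraMap Λ F c = algebraMap B F (algebraMap Λ B c) :=
    fun c => IsScalarTower.algebraMap_apply Λ B F c
  have hΛV : ∀ c : Λ, w₁ (algebraMap Λ F c) ≤ 1 ∧ w₂ (algebraMap Λ F c) ≤ 1 := fun c => by
    rw [hΛF]; exact (hVw _).1 (hBV _)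
  have hΛu : ∀ c : Λ, IsUnit c → w₁ (algebraMap Λ F c) = 1 ∧ w₂ (algebraMap Λ F c) = 1 := by
    intro c hc
    obtain ⟨c', hc'⟩ := hc.exists_right_inv
    have e : algebraMap Λ F c * algebraMap Λ F c' = 1 := by rw [← map_mul, hc', map_one]
    have e1 : w₁ (algebraMap Λ F c) * w₁ (algebraMap Λ F c') = 1 := by
      rw [← map_mul, e, map_one]
    have e2 : w₂ (algebraMap Λ F c) * w₂ (algebraMap Λ F c') = 1 := by
      rw [← map_mul, e, map_one]
    exact ⟨s35f1d2_eq_one_of_mul (hΛV c).1 (hΛV c').1 e1,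
      s35f1d2_eq_one_of_mul (hΛV c).2 (hΛV c').2 e2⟩
  have hΛQ : ∀ c : Λ, c ≠ 0 → ∀ 𝔔 : HeightOneSpectrum Bη,
      𝔔.valuation F (algebraMap Λ F c) = 1 := by
    intro c hc 𝔔
    obtain ⟨k, v, rfl⟩ := IsDiscreteValuationRing.eq_unit_mul_pow_irreducible hc hπ
    rw [hΛF, ← hι]
    apply s35f1d2_val_unit
    rw [map_mul, map_mul, map_pow, map_pow]
    exact (((Units.isUnit v).map _).map _).mul (hπu.pow k)
  have hu₁ : w₁ (u - 1) < 1 := by
    rw [hδ, Algebra.smul_def, map_mul, mul_comm]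
    exact s35f1d2_mul_lt_one ((hVw δ).1 hδV).1 hπ₁
  have hu₂ : w₂ (u - 1) < 1 := by
    rw [hδ, Algebra.smul_def, map_mul, mul_comm]
    exact s35f1d2_mul_lt_one ((hVw δ).1 hδV).2 hπ₂
  have hA0 : algebraMap Λ F a ≠ 0 := by
    intro h
    rw [h, map_zero] at hg₁
    exact not_lt_zero hg₁
  have hr₁ : w₁ (g * algebraMap Λ F a' / algebraMap Λ F a - 1) < 1 := by
    have e : g * algebraMap Λ F a' / algebraMap Λ F a - 1
        = (g * algebraMap Λ F a' - algebraMap Λ F a) / algebraMap Λ F a := by field_simp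
    rw [e, map_div₀, div_lt_one₀ (zero_lt_iff.2 ((Valuation.ne_zero_iff _).2 hA0))]
    exact hg₁
  have hA'0 : algebraMap Λ F a' ≠ 0 := by
    intro h
    have := s35f1d2_ou_ne w₁ hr₁
    rw [h, mul_zero, zero_div] at this
    exact this rfl
  have hgw₂ : w₂ g = 1 := by
    have h1 : w₂ (algebraMap B F x ^ N) = 1 := by rw [map_zpow₀, hx₂, one_zpow]
    have : w₂ ((g - algebraMap B F x ^ N) + algebraMap B F x ^ N) = w₂ (algebraMap B F x ^ N) :=
      Valuation.map_add_eq_of_lt_right w₂ (by rwa [h1])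
    rwa [sub_add_cancel, h1] at this
  have hX0 : algebraMap B F x ≠ 0 := by
    intro h
    rw [h, map_zero] at hx₂
    exact zero_ne_one hx₂
  rcases s35f1d2_dvr_tri π hπ a a' ha ha' with ⟨c, hc, hac⟩ | ⟨e, hae⟩ | ⟨e, hae⟩
  · have hAc : algebraMap Λ F a = algebraMap Λ F c * algebraMap Λ F a' := by
      rw [hac, map_mul]
    have hC := hΛu c hc
    have hC0 : algebraMap Λ F c ≠ 0 := by
      intro h
      have := hC.1
      rw [h, map_zero] at this
      exact zero_ne_one this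
    have hgC : g * algebraMap Λ F a' / algebraMap Λ F a = g / algebraMap Λ F c := by
      rw [hAc]; field_simp
    rw [hgC] at hr₁
    have hgc₁ : w₁ (g - algebraMap Λ F c) < 1 := by
      have e : g - algebraMap Λ F c = (g / algebraMap Λ F c - 1) * algebraMap Λ F c := by
        field_simp
      rw [e, map_mul, hC.1, mul_one]
      exact hr₁
    refine ⟨c, hc, hgc₁, ?_⟩
    rcases lt_trichotomy N 0 with hN | hN | hN
    · exfalso
      obtain ⟨n, rfl⟩ : ∃ n : ℕ, N = -(n : ℤ) := ⟨(-N).toNat, by omega⟩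
      have hn : n ≠ 0 := by omega
      rw [zpow_neg, zpow_natCast] at hg₂
      have h1 : w₂ (g * algebraMap B F x ^ n - 1) < 1 := by
        have e : g * algebraMap B F x ^ n - 1
            = (g - (algebraMap B F x ^ n)⁻¹) * algebraMap B F x ^ n := by field_simp
        rw [e, map_mul, map_pow, hx₂, one_pow, mul_one]
        exact hg₂
      refine s35f1d2_M ι hι 𝔪 V hBV hK w₁ w₂ hVw h𝔪₁ h𝔪₂
        (u * ((g / algebraMap Λ F c)⁻¹) ^ m) ?_ ?_ ((algebraMap Λ B c) ^ m * x ^ (n * m))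
        (𝔪.mul_mem_left _ (𝔪.pow_mem_of_mem hx𝔪 _
          (Nat.pos_of_ne_zero (Nat.mul_ne_zero hn hm)))) ?_
      · exact s35f1d2_ou_mul w₁ hu₁ (s35f1d2_ou_pow w₁ (s35f1d2_ou_inv w₁ hr₁) m)
      · intro 𝔔 h𝔔
        have e1 : u * ((g / algebraMap Λ F c)⁻¹) ^ m = (u / g ^ m) * algebraMap Λ F c ^ m := by
          simp only [inv_div, div_pow, inv_pow, mul_pow, one_div]
          field_simp
        rw [e1, map_mul, hval 𝔔 h𝔔, map_pow, hΛQ c hc.ne_zero, one_pow, one_mul]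
      · have e : u * ((g / algebraMap Λ F c)⁻¹) ^ m
              - algebraMap B F ((algebraMap Λ B c) ^ m * x ^ (n * m))
            = (u * ((g * algebraMap B F x ^ n)⁻¹) ^ m - 1)
              * (algebraMap Λ F c ^ m * (algebraMap B F x ^ n) ^ m) := by
          rw [map_mul, map_pow, map_pow, ← hΛF, pow_mul]
          simp only [inv_div, div_pow, inv_pow, mul_pow, one_div]
          field_simp
        rw [e, map_mul, map_mul, map_pow, map_pow, map_pow, hC.2, hx₂, one_pow, one_pow, one_pow,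
          mul_one, mul_one]
        exact s35f1d2_ou_mul w₂ hu₂ (s35f1d2_ou_pow w₂ (s35f1d2_ou_inv w₂ h1) m)
    · subst hN
      simpa using hg₂
    · exfalso
      obtain ⟨n, rfl⟩ : ∃ n : ℕ, N = (n : ℤ) := ⟨N.toNat, by omega⟩
      have hn : n ≠ 0 := by omega
      rw [zpow_natCast] at hg₂
      have h1 : w₂ (g / algebraMap B F x ^ n - 1) < 1 := by
        have e : g / algebraMap B F x ^ n - 1
            = (g - algebraMap B F x ^ n) / algebraMap B F x ^ n := by field_simp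
        rw [e, map_div₀, map_pow, hx₂, one_pow, div_one]
        exact hg₂
      obtain ⟨c', hc'⟩ := hc.exists_right_inv
      have hCC' : algebraMap Λ F c * algebraMap Λ F c' = 1 := by rw [← map_mul, hc', map_one]
      have hC'eq : algebraMap Λ F c' = (algebraMap Λ F c)⁻¹ := eq_inv_of_mul_eq_one_right hCC'
      refine s35f1d2_M ι hι 𝔪 V hBV hK w₁ w₂ hVw h𝔪₁ h𝔪₂
        (u⁻¹ * (g / algebraMap Λ F c) ^ m) ?_ ?_ ((algebraMap Λ B c') ^ m * x ^ (n * m))
        (𝔪.mul_mem_left _ (𝔪.pow_mem_of_mem hx𝔪 _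
          (Nat.pos_of_ne_zero (Nat.mul_ne_zero hn hm)))) ?_
      · exact s35f1d2_ou_mul w₁ (s35f1d2_ou_inv w₁ hu₁) (s35f1d2_ou_pow w₁ hr₁ m)
      · intro 𝔔 h𝔔
        have e1 : u⁻¹ * (g / algebraMap Λ F c) ^ m
            = (u / g ^ m)⁻¹ * ((algebraMap Λ F c)⁻¹) ^ m := by
          simp only [inv_div, div_pow, inv_pow, mul_pow, one_div]
          field_simp
        rw [e1, map_mul, map_inv₀, hval 𝔔 h𝔔, map_pow, map_inv₀, hΛQ c hc.ne_zero, inv_one,
          one_pow, one_mul]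
      · have e : u⁻¹ * (g / algebraMap Λ F c) ^ m
              - algebraMap B F ((algebraMap Λ B c') ^ m * x ^ (n * m))
            = (u⁻¹ * (g / algebraMap B F x ^ n) ^ m - 1)
              * (((algebraMap Λ F c)⁻¹) ^ m * (algebraMap B F x ^ n) ^ m) := by
          rw [map_mul, map_pow, map_pow, ← hΛF, pow_mul, hC'eq]
          simp only [inv_div, div_pow, inv_pow, mul_pow, one_div]
          field_simp
        rw [e, map_mul, map_mul, map_pow, map_pow, map_pow, map_inv₀, hC.2, hx₂, inv_one, one_pow,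
          one_pow, one_pow, mul_one, mul_one]
        exact s35f1d2_ou_mul w₂ (s35f1d2_ou_inv w₂ hu₂) (s35f1d2_ou_pow w₂ h1 m)
  · exfalso
    have hAe : algebraMap Λ F a
        = algebraMap Λ F e * algebraMap Λ F π * algebraMap Λ F a' := by
      rw [hae, map_mul, map_mul]
    have key : (g * algebraMap Λ F a' / algebraMap Λ F a)⁻¹
        = algebraMap Λ F e * algebraMap Λ F π / g := by
      have hne : algebraMap Λ F e * algebraMap Λ F π ≠ 0 := by
        intro h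
        rw [hAe, h, zero_mul] at hA0
        exact hA0 rfl
      rw [hAe]; field_simp
    refine s35f1d2_M ι hι 𝔪 V hBV hK w₁ w₂ hVw h𝔪₁ h𝔪₂
      (u * ((g * algebraMap Λ F a' / algebraMap Λ F a)⁻¹) ^ m) ?_ ?_ 0 𝔪.zero_mem ?_
    · exact s35f1d2_ou_mul w₁ hu₁ (s35f1d2_ou_pow w₁ (s35f1d2_ou_inv w₁ hr₁) m)
    · intro 𝔔 h𝔔
      have e1 : u * ((g * algebraMap Λ F a' / algebraMap Λ F a)⁻¹) ^ m
          = (u / g ^ m) * (algebraMap Λ F a / algebraMap Λ F a') ^ m := by simp only [inv_div, div_pow, inv_pow, mul_pow, one_div]; field_simp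
      rw [e1, map_mul, hval 𝔔 h𝔔, map_pow, map_div₀, hΛQ a ha, hΛQ a' ha', div_one, one_pow,
        one_mul]
    · rw [map_zero, sub_zero, map_mul, s35f1d2_ou_val w₂ hu₂, one_mul, key, map_pow, map_div₀,
        map_mul, hgw₂, div_one]
      exact pow_lt_one₀ zero_le (s35f1d2_mul_lt_one (hΛV e).2 hπ₂) hm
  · exfalso
    have hAe : algebraMap Λ F a'
        = algebraMap Λ F e * algebraMap Λ F π * algebraMap Λ F a := by
      rw [hae, map_mul, map_mul]
    have key : g * algebraMap Λ F a' / algebraMap Λ F a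
        = g * (algebraMap Λ F e * algebraMap Λ F π) := by
      rw [hAe]; field_simp
    refine s35f1d2_M ι hι 𝔪 V hBV hK w₁ w₂ hVw h𝔪₁ h𝔪₂
      (u⁻¹ * (g * algebraMap Λ F a' / algebraMap Λ F a) ^ m) ?_ ?_ 0 𝔪.zero_mem ?_
    · exact s35f1d2_ou_mul w₁ (s35f1d2_ou_inv w₁ hu₁) (s35f1d2_ou_pow w₁ hr₁ m)
    · intro 𝔔 h𝔔
      have e1 : u⁻¹ * (g * algebraMap Λ F a' / algebraMap Λ F a) ^ m
          = (u / g ^ m)⁻¹ * (algebraMap Λ F a' / algebraMap Λ F a) ^ m := by simp only [inv_div, div_pow, inv_pow, mul_pow, one_div]; field_simp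
      rw [e1, map_mul, map_inv₀, hval 𝔔 h𝔔, map_pow, map_div₀, hΛQ a ha, hΛQ a' ha', div_one,
        one_pow, inv_one, one_mul]
    · rw [map_zero, sub_zero, map_mul, s35f1d2_ou_val w₂ (s35f1d2_ou_inv w₂ hu₂), one_mul, key,
        map_pow, map_mul, map_mul, hgw₂, one_mul]
      exact pow_lt_one₀ zero_le (s35f1d2_mul_lt_one (hΛV e).2 hπ₂) hm

end Cross

end Abs

end Fermat.Agent.S35
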