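import Mathlib
import Fermat.Agent.S34.AbsLP
import Fermat.Agent.S34.ModelDefs
import Fermat.Agent.S35.F1CrossProd
import Fermat.Agent.S35.F1CrossVert
import Fermat.Agent.S35.F1NodeLP

/-!
P20 (S35), block F1, leaf F1-PTC (note 919): crossing point of the special fibre all of whose
integral points are of `X`-type.  The local `m`-th root datum `g` of `u ≡ 1` at the point can be
chosen `≡ c` (a unit constant) at `w₁` and `≡ 1` at `w₂`.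

* `s35f1ptc_algebraMap_ne_zero` : nonzero constants of `Λ` are nonzero in `F`.
* `s35f1ptc_lp` : the per-place datum `h = (X - a σ) / σ`, constant `-a` (hypothesis `hlp` of
  F1-D1), from a `Λ`-point of `X`-type through the crossing point.
* `s35f1_pt_cross` : F1-D1 and F1-D2 combined.
-/

set_option autoImplicit false
set_option linter.unusedVariables false
set_option linter.unusedSectionVars false

namespace Fermat.Agent.S35

open IsDedekindDomain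
open Fermat.Agent.S34

section PT

variable {Bη F : Type*} [CommRing Bη] [IsDedekindDomain Bη] [Field F] [Algebra Bη F]
  [IsFractionRing Bη F]
  {Λ B : Type*} [CommRing Λ] [IsDomain Λ] [IsDiscreteValuationRing Λ] [Algebra Λ F]
  [CommRing B] [IsNoetherianRing B] [Algebra B F] [Algebra Λ B] [IsScalarTower Λ B F]


/-- Nonzero constants of `Λ` are nonzero in `F` (`π` is a unit of the generic fibre). -/
theorem s35f1ptc_algebraMap_ne_zero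
    (ι : B →+* Bη) (hι : ∀ b : B, algebraMap Bη F (ι b) = algebraMap B F b)
    (π : Λ) (hπ : Irreducible π) (hπu : IsUnit (ι (algebraMap Λ B π)))
    {a : Λ} (ha : a ≠ 0) : algebraMap Λ F a ≠ 0 := by
  have hπF : algebraMap Λ F π ≠ 0 := by
    have h1 : IsUnit (algebraMap Bη F (ι (algebraMap Λ B π))) := hπu.map _
    rw [hι, ← IsScalarTower.algebraMap_apply Λ B F] at h1
    exact h1.ne_zero
  obtain ⟨n, v, rfl⟩ := IsDiscreteValuationRing.eq_unit_mul_pow_irreducible ha hπ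
  rw [map_mul, map_pow]
  exact mul_ne_zero ((v.isUnit.map (algebraMap Λ F)).ne_zero) (pow_ne_zero n hπF)

/-- The per-place datum at a crossing point, from a `Λ`-point of `X`-type. -/
theorem s35f1ptc_lp
    {Γ₁ Γ₂ : Type*} [LinearOrderedCommGroupWithZero Γ₁] [LinearOrderedCommGroupWithZero Γ₂]
    (ι : B →+* Bη) (hι : ∀ b : B, algebraMap Bη F (ι b) = algebraMap B F b)
    (π : Λ) (hπ : Irreducible π)
    (hπu : IsUnit (ι (algebraMap Λ B π)))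
    (hloc : ∀ y : Bη, ∃ (n : ℕ) (b : B), ι (algebraMap Λ B π) ^ n * y = ι b)
    (𝔪 : Ideal B) (V : Subring F)
    (hBV : ∀ b : B, IsIntegral V (algebraMap B F b))
    (w₁ : Valuation F Γ₁) (w₂ : Valuation F Γ₂)
    (hVw : ∀ f : F, IsIntegral V f ↔ w₁ f ≤ 1 ∧ w₂ f ≤ 1)
    (hπ₁ : w₁ (algebraMap Λ F π) < 1) (hπ₂ : w₂ (algebraMap Λ F π) < 1)
    (h𝔪₁ : ∀ b : B, w₁ (algebraMap B F b) < 1 → b ∈ 𝔪)
    (h𝔪₂ : ∀ b : B, w₂ (algebraMap B F b) < 1 → b ∈ 𝔪)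
    (x y : B) (hx𝔪 : x ∈ 𝔪) (hy𝔪 : y ∈ 𝔪) (hy₁ : w₁ (algebraMap B F y) = 1)
    (hgen : ∀ z ∈ 𝔪, ∃ a : B, a ∉ 𝔪 ∧ a * z ∈ Ideal.span {algebraMap Λ B π, x, y})
    (𝔔 : HeightOneSpectrum Bη) (φ : B →ₐ[Λ] Λ)
    (h𝔪 : 𝔪 = Ideal.comap (φ : B →+* Λ) (Ideal.span {π}))
    (hφ : ∀ b : B, ι b ∈ 𝔔.asIdeal ↔ φ b = 0)
    (X Y H σ : B) (d Q : Λ) (hσ : ¬ π ∣ φ σ)
    (hX : X - σ * x ∈ Ideal.span {algebraMap Λ B π})
    (hY : Y - σ * y ∈ Ideal.span {algebraMap Λ B π})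
    (hXY : X * Y = σ ^ 2 * algebraMap Λ B d + algebraMap Λ B Q * H) (hQ : ¬ Q ∣ φ X) :
    ∃ (h : F) (a : Λ), a ≠ 0 ∧ w₁ (h - algebraMap Λ F a) < w₁ (algebraMap Λ F a) ∧
      w₂ (h - algebraMap B F x) < 1 ∧
      𝔔.valuation F h = WithZero.exp (-1 : ℤ) ∧
      ∀ 𝔔' ∈ absThrough ι 𝔪, 𝔔' ≠ 𝔔 → 𝔔'.valuation F h = 1 := by
  -- membership in `𝔪`
  have hmem : ∀ b : B, b ∈ 𝔪 ↔ π ∣ φ b := by
    intro b
    rw [h𝔪, Ideal.mem_comap, Ideal.mem_span_singleton]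
    rfl
  have hσ𝔪 : σ ∉ 𝔪 := fun h => hσ ((hmem σ).mp h)
  have hφσ : φ σ ≠ 0 := fun h => hσ (h ▸ dvd_zero π)
  -- the local equation of the place and the vertical relation
  obtain ⟨a, haσ, ha0, hπa, ⟨k, s, hs, hdvd⟩, ⟨s', ν, hs', hrel⟩⟩ :=
    s35f1_lp_node π hπ φ x y X Y H σ d Q hσ hX hY hXY ((hmem x).mp hx𝔪) ((hmem y).mp hy𝔪)
      (fun z hz => by
        obtain ⟨c, hc, hcz⟩ := hgen z ((hmem z).mpr hz)
        exact ⟨c, fun h => hc ((hmem c).mpr h), hcz⟩) hQ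
  have hs'𝔪 : s' ∉ 𝔪 := fun h => hs' ((hmem s').mp h)
  -- valuations on `B`
  have hB₁ : ∀ b : B, w₁ (algebraMap B F b) ≤ 1 := fun b => ((hVw _).1 (hBV b)).1
  have hB₂ : ∀ b : B, w₂ (algebraMap B F b) ≤ 1 := fun b => ((hVw _).1 (hBV b)).2
  have hΛ₂ : ∀ c : Λ, w₂ (algebraMap Λ F c) ≤ 1 := fun c => by
    rw [IsScalarTower.algebraMap_apply Λ B F]; exact hB₂ _
  have hσ₁ : w₁ (algebraMap B F σ) = 1 :=
    le_antisymm (hB₁ σ) (not_lt.mp fun h => hσ𝔪 (h𝔪₁ σ h))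
  have hσ₂ : w₂ (algebraMap B F σ) = 1 :=
    le_antisymm (hB₂ σ) (not_lt.mp fun h => hσ𝔪 (h𝔪₂ σ h))
  have hs'₁ : w₁ (algebraMap B F s') = 1 :=
    le_antisymm (hB₁ s') (not_lt.mp fun h => hs'𝔪 (h𝔪₁ s' h))
  have hσ0 : algebraMap B F σ ≠ 0 := by
    intro h
    rw [h, map_zero] at hσ₁
    exact zero_ne_one hσ₁
  have haF : algebraMap Λ F a ≠ 0 := s35f1ptc_algebraMap_ne_zero ι hι π hπ hπu ha0
  have hπB : algebraMap B F (algebraMap Λ B π) = algebraMap Λ F π :=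
    (IsScalarTower.algebraMap_apply Λ B F π).symm
  have haB : algebraMap B F (algebraMap Λ B a) = algebraMap Λ F a :=
    (IsScalarTower.algebraMap_apply Λ B F a).symm
  -- `w₁ Y = 1`
  have hY₁ : w₁ (algebraMap B F Y) = 1 := by
    obtain ⟨e, he⟩ := Ideal.mem_span_singleton'.mp hY
    have hYe : algebraMap B F Y =
        algebraMap B F σ * algebraMap B F y + algebraMap B F e * algebraMap Λ F π := by
      rw [← hπB, ← map_mul, ← map_mul, ← map_add, he]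
      congr 1
      ring
    have h1 : w₁ (algebraMap B F σ * algebraMap B F y) = 1 := by
      rw [map_mul, hσ₁, hy₁, one_mul]
    have h2 : w₁ (algebraMap B F e * algebraMap Λ F π) < 1 := by
      rw [map_mul]
      exact s35f1d2_mul_lt_one (hB₁ e) hπ₁
    rw [hYe, Valuation.map_add_eq_of_lt_left w₁ (by rw [h1]; exact h2), h1]
  -- the place datum
  have hh : φ (X - algebraMap Λ B a * σ) = 0 := by
    rw [map_sub, map_mul, AlgHom.commutes, Algebra.algebraMap_self, RingHom.id_apply, haσ,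
      sub_self]
  obtain ⟨h1, h2⟩ := abs_lp_place (F := F) ι π hπu hloc φ 𝔔 hφ
    (X - algebraMap Λ B a * σ) hh k s hs hdvd
  rw [hι] at h1
  refine ⟨algebraMap B F (X - algebraMap Λ B a * σ) / algebraMap B F σ, -a,
    neg_ne_zero.mpr ha0, ?_, ?_, ?_, ?_⟩
  · -- `w₁`: `h + a = X / σ` and `s' X Y = a π ν`
    have e1 : algebraMap B F (X - algebraMap Λ B a * σ) / algebraMap B F σ -
        algebraMap Λ F (-a) = algebraMap B F X / algebraMap B F σ := by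
      rw [map_sub, map_mul, haB, map_neg]
      field_simp
      ring
    rw [e1, map_div₀, hσ₁, div_one, map_neg, Valuation.map_neg]
    have h3 := congrArg (fun z => w₁ (algebraMap B F z)) hrel
    simp only [map_mul, hs'₁, hY₁, haB, hπB, one_mul, mul_one] at h3
    rw [h3]
    refine mul_lt_of_lt_one_right (zero_lt_iff.mpr ((map_ne_zero w₁).mpr haF)) ?_
    rw [mul_comm]
    exact s35f1d2_mul_lt_one (hB₁ ν) hπ₁
  · -- `w₂`: `h - x = π e' / σ - a`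
    obtain ⟨e', he'⟩ := Ideal.mem_span_singleton'.mp hX
    have hXe : algebraMap B F X =
        algebraMap B F σ * algebraMap B F x + algebraMap B F e' * algebraMap Λ F π := by
      rw [← hπB, ← map_mul, ← map_mul, ← map_add, he']
      congr 1
      ring
    have e2 : algebraMap B F (X - algebraMap Λ B a * σ) / algebraMap B F σ - algebraMap B F x =
        algebraMap B F e' * algebraMap Λ F π / algebraMap B F σ - algebraMap Λ F a := by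
      rw [map_sub, map_mul, haB, hXe]
      field_simp
      ring
    rw [e2]
    refine lt_of_le_of_lt (Valuation.map_sub _ _ _) (max_lt ?_ ?_)
    · rw [map_div₀, hσ₂, div_one, map_mul]
      exact s35f1d2_mul_lt_one (hB₂ e') hπ₂
    · obtain ⟨a'', ha''⟩ := hπa
      rw [ha'', map_mul, map_mul, mul_comm]
      exact s35f1d2_mul_lt_one (hΛ₂ a'') hπ₂
  · -- the place `𝔔`
    have hσ𝔔 : 𝔔.valuation F (algebraMap B F σ) = 1 := by
      rw [← hι, HeightOneSpectrum.valuation_of_algebraMap,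
        HeightOneSpectrum.intValuation_eq_one_iff]
      exact fun hm => hφσ ((hφ σ).mp hm)
    rw [map_div₀, h1, hσ𝔔, div_one]
  · -- the other places through `𝔪`
    intro 𝔔' h𝔔' hne
    have hσ𝔔' : 𝔔'.valuation F (algebraMap B F σ) = 1 := by
      rw [← hι, HeightOneSpectrum.valuation_of_algebraMap,
        HeightOneSpectrum.intValuation_eq_one_iff]
      exact fun hm => hσ𝔪 (mem_absThrough.mp h𝔔' σ hm)
    have h4 := h2 𝔔' hne (h𝔪 ▸ h𝔔')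
    rw [hι] at h4
    rw [map_div₀, h4, hσ𝔔', div_one]

/-- (F1-PTC, file `S35/F1PtCross.lean`) crossing point, all integral points of `X`-type. -/
theorem s35f1_pt_cross
    {Γ₁ Γ₂ : Type*} [LinearOrderedCommGroupWithZero Γ₁] [LinearOrderedCommGroupWithZero Γ₂]
    (ι : B →+* Bη) (hι : ∀ b : B, algebraMap Bη F (ι b) = algebraMap B F b)
    (hinj : Function.Injective (algebraMap B F))
    (π : Λ) (hπ : Irreducible π)
    (hπu : IsUnit (ι (algebraMap Λ B π)))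
    (hloc : ∀ y : Bη, ∃ (n : ℕ) (b : B), ι (algebraMap Λ B π) ^ n * y = ι b)
    (𝔪 : Ideal B) [𝔪.IsPrime] (hπ𝔪 : algebraMap Λ B π ∈ 𝔪)
    (V : Subring F)
    (hBV : ∀ b : B, IsIntegral V (algebraMap B F b))
    (hK : ∀ y : Bη, IsIntegral V (algebraMap Bη F y) →
      ∃ b : B, algebraMap B F b = algebraMap Bη F y)
    (w₁ : Valuation F Γ₁) (w₂ : Valuation F Γ₂)
    (hVw : ∀ f : F, IsIntegral V f ↔ w₁ f ≤ 1 ∧ w₂ f ≤ 1)
    (hπ₁ : w₁ (algebraMap Λ F π) < 1) (hπ₂ : w₂ (algebraMap Λ F π) < 1)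
    (h𝔪₁ : ∀ b : B, w₁ (algebraMap B F b) < 1 → b ∈ 𝔪)
    (h𝔪₂ : ∀ b : B, w₂ (algebraMap B F b) < 1 → b ∈ 𝔪)
    (m : ℕ) (hm : m ≠ 0) {u : F} (hu : u ≠ 0)
    (hu1 : ∃ δ : F, IsIntegral V δ ∧ u - 1 = π • δ)
    (hdiv : ∀ 𝔔 ∈ absThrough ι 𝔪, ∃ n : ℤ, 𝔔.valuation F u = WithZero.exp ((m : ℤ) * n))
    (x y : B) (hx𝔪 : x ∈ 𝔪) (hy𝔪 : y ∈ 𝔪)
    (hx₂ : w₂ (algebraMap B F x) = 1) (hy₁ : w₁ (algebraMap B F y) = 1)
    (hgen : ∀ z ∈ 𝔪, ∃ a : B, a ∉ 𝔪 ∧ a * z ∈ Ideal.span {algebraMap Λ B π, x, y})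
    (hpoint : ∀ 𝔔 ∈ absThrough ι 𝔪, 𝔔.valuation F u ≠ 1 →
      ∃ φ : B →ₐ[Λ] Λ, 𝔪 = Ideal.comap (φ : B →+* Λ) (Ideal.span {π}) ∧
        ∀ b : B, ι b ∈ 𝔔.asIdeal ↔ φ b = 0)
    (hXtype : ∀ φ : B →ₐ[Λ] Λ, 𝔪 = Ideal.comap (φ : B →+* Λ) (Ideal.span {π}) →
      ∃ (X Y H σ : B) (d Q : Λ), ¬ π ∣ φ σ ∧
        X - σ * x ∈ Ideal.span {algebraMap Λ B π} ∧
        Y - σ * y ∈ Ideal.span {algebraMap Λ B π} ∧
        X * Y = σ ^ 2 * algebraMap Λ B d + algebraMap Λ B Q * H ∧ ¬ Q ∣ φ X) :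
    ∃ (g : F) (c : Λ), g ≠ 0 ∧ IsUnit c ∧ w₁ (g - algebraMap Λ F c) < 1 ∧ w₂ (g - 1) < 1 ∧
      ∀ 𝔔 ∈ absThrough ι 𝔪, 𝔔.valuation F (u / g ^ m) = 1 := by
  have hlp : ∀ 𝔔 ∈ absThrough ι 𝔪, 𝔔.valuation F u ≠ 1 →
      ∃ (h : F) (a : Λ), a ≠ 0 ∧ w₁ (h - algebraMap Λ F a) < w₁ (algebraMap Λ F a) ∧
        w₂ (h - algebraMap B F x) < 1 ∧
        𝔔.valuation F h = WithZero.exp (-1 : ℤ) ∧
        ∀ 𝔔' ∈ absThrough ι 𝔪, 𝔔' ≠ 𝔔 → 𝔔'.valuation F h = 1 := by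
    intro 𝔔 h𝔔 hne
    obtain ⟨φ, h𝔪, hφ⟩ := hpoint 𝔔 h𝔔 hne
    obtain ⟨X, Y, H, σ, d, Q, hσ, hX, hY, hXY, hQ⟩ := hXtype φ h𝔪
    exact s35f1ptc_lp ι hι π hπ hπu hloc 𝔪 V hBV w₁ w₂ hVw hπ₁ hπ₂ h𝔪₁ h𝔪₂ x y hx𝔪 hy𝔪 hy₁
      hgen 𝔔 φ h𝔪 hφ X Y H σ d Q hσ hX hY hXY hQ
  obtain ⟨g, a, a', N, hg, ha, ha', hg₁, hg₂, hval⟩ :=
    s35f1_cross_prod ι 𝔪 w₁ w₂ m hu hdiv x hx₂ hlp
  obtain ⟨c, hc, h1, h2⟩ := s35f1_cross_vert ι hι 𝔪 π hπ hπu V hBV hK w₁ w₂ hVw hπ₁ hπ₂ h𝔪₁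
    h𝔪₂ m hm hu hu1 x hx𝔪 hx₂ g a a' N hg ha ha' hg₁ hg₂ hval
  exact ⟨g, c, hg, hc, h1, h2, hval⟩

end PT

end Fermat.Agent.S35
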