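import Mathlib
import Fermat.Agent.S34.AbsLP
import Fermat.Agent.S34.AbsHR
import Fermat.Agent.S34.AbsPlaceComp
import Fermat.Agent.S35.F1Ctrick
import Fermat.Agent.S35.F1Prod
set_option autoImplicit false
namespace Fermat.Agent.S35
open IsDedekindDomain
open Fermat.Agent.S34

section Abs

variable {Bη F : Type*} [CommRing Bη] [IsDedekindDomain Bη] [Field F] [Algebra Bη F]
  [IsFractionRing Bη F]

/-- one-units modulo `P`. -/
def s35f1c_O {F : Type*} [Field F] (V : Subring F) (P : F) (f : F) : Prop :=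
  ∃ δ : F, IsIntegral V δ ∧ f = 1 + P * δ

theorem s35f1c_O_one {F : Type*} [Field F] (V : Subring F) (P : F) : s35f1c_O V P 1 :=
  ⟨0, isIntegral_zero, by ring⟩

theorem s35f1c_O_mul {F : Type*} [Field F] (V : Subring F) (P : F) (hP : IsIntegral V P)
    {a b : F} (ha : s35f1c_O V P a) (hb : s35f1c_O V P b) : s35f1c_O V P (a * b) := by
  obtain ⟨δ, hδ, rfl⟩ := ha
  obtain ⟨δ', hδ', rfl⟩ := hb
  exact ⟨δ + δ' + P * δ * δ', (hδ.add hδ').add ((hP.mul hδ).mul hδ'), by ring⟩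

theorem s35f1c_O_pow {F : Type*} [Field F] (V : Subring F) (P : F) (hP : IsIntegral V P)
    {a : F} (ha : s35f1c_O V P a) (k : ℕ) : s35f1c_O V P (a ^ k) := by
  induction k with
  | zero => rw [pow_zero]; exact s35f1c_O_one V P
  | succ k ih => rw [pow_succ]; exact s35f1c_O_mul V P hP ih ha

theorem s35f1c_O_inv {F : Type*} [Field F] (V : Subring F) (P : F)
    (hU : ∀ δ : F, IsIntegral V δ → IsIntegral V (1 + P * δ)⁻¹)
    {a : F} (ha0 : a ≠ 0) (ha : s35f1c_O V P a) : s35f1c_O V P a⁻¹ := by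
  obtain ⟨δ, hδ, rfl⟩ := ha
  refine ⟨-δ * (1 + P * δ)⁻¹, hδ.neg.mul (hU δ hδ), ?_⟩
  field_simp
  ring

theorem s35f1c_O_int {F : Type*} [Field F] (V : Subring F) (P : F) (hP : IsIntegral V P)
    {a : F} (ha : s35f1c_O V P a) : IsIntegral V a := by
  obtain ⟨δ, hδ, rfl⟩ := ha
  exact isIntegral_one.add (hP.mul hδ)

theorem s35f1c_O_inv_int {F : Type*} [Field F] (V : Subring F) (P : F)
    (hU : ∀ δ : F, IsIntegral V δ → IsIntegral V (1 + P * δ)⁻¹)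
    {a : F} (ha : s35f1c_O V P a) : IsIntegral V a⁻¹ := by
  obtain ⟨δ, hδ, rfl⟩ := ha
  exact hU δ hδ

theorem s35f1c_no_pole {Λ B : Type*} [CommRing Λ] [Algebra Λ F] [CommRing B] [Algebra B F]
    [Algebra Λ B] [IsScalarTower Λ B F]
    (ι : B →+* Bη) (hι : ∀ b : B, algebraMap Bη F (ι b) = algebraMap B F b)
    (hinj : Function.Injective (algebraMap B F))
    (𝔪 : Ideal B) [𝔪.IsPrime] (π : Λ) (hπ𝔪 : algebraMap Λ B π ∈ 𝔪)
    (hπu : IsUnit (ι (algebraMap Λ B π))) (V : Subring F)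
    (hBV : ∀ b : B, IsIntegral V (algebraMap B F b))
    (hK : ∀ y : Bη, IsIntegral V (algebraMap Bη F y) →
      ∃ b : B, algebraMap B F b = algebraMap Bη F y)
    (t : B) (ht𝔪 : t ∈ 𝔪) (ht0 : algebraMap B F t ≠ 0) (htV : IsIntegral V (algebraMap B F t)⁻¹)
    (e : F) (he : s35f1c_O V (algebraMap Λ F π) e) (k : ℕ) (hk : k ≠ 0)
    (hval : ∀ 𝔔 ∈ absThrough ι 𝔪, 𝔔.valuation F (e * ((algebraMap B F t)⁻¹) ^ k) ≤ 1) :
    False := by
  have hP : algebraMap Λ F π = algebraMap B F (algebraMap Λ B π) :=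
    IsScalarTower.algebraMap_apply Λ B F π
  have hPint : IsIntegral V (algebraMap Λ F π) := hP ▸ hBV _
  have hfV : IsIntegral V (e * ((algebraMap B F t)⁻¹) ^ k) :=
    (s35f1c_O_int V _ hPint he).mul (htV.pow k)
  obtain ⟨c, hc, b, hb⟩ := s35f1_ctrick ι hι 𝔪 V hBV hK _ hfV hval
  obtain ⟨δ, hδ, rfl⟩ := he
  have h1 : algebraMap B F (b * t ^ k - c) = algebraMap Λ F π * (algebraMap B F c * δ) := by
    have hTk : ((algebraMap B F t)⁻¹) ^ k * (algebraMap B F t) ^ k = 1 := by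
      rw [← mul_pow, inv_mul_cancel₀ ht0, one_pow]
    rw [map_sub, map_mul, map_pow, hb]
    linear_combination (algebraMap B F c * (1 + algebraMap Λ F π * δ)) * hTk
  obtain ⟨x, hx⟩ := hπu.exists_right_inv
  have hPx : algebraMap Λ F π * algebraMap Bη F x = 1 := by
    rw [hP, ← hι, ← map_mul, hx, map_one]
  have hy : algebraMap Bη F (x * ι (b * t ^ k - c)) = algebraMap B F c * δ := by
    rw [map_mul, hι, h1, ← mul_assoc, mul_comm _ (algebraMap Λ F π), hPx, one_mul]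
  obtain ⟨b', hb'⟩ := hK (x * ι (b * t ^ k - c)) (by rw [hy]; exact (hBV c).mul hδ)
  have h2 : b * t ^ k - c = algebraMap Λ B π * b' :=
    hinj (by rw [h1, map_mul, hb', hy, hP])
  have h3 : b * t ^ k - c ∈ 𝔪 := h2 ▸ 𝔪.mul_mem_right _ hπ𝔪
  have h4 : b * t ^ k ∈ 𝔪 :=
    𝔪.mul_mem_left _ (𝔪.pow_mem_of_mem ht𝔪 k (Nat.pos_of_ne_zero hk))
  exact hc (by have := 𝔪.sub_mem h4 h3; simpa using this)

/-- (F1-C, file `S35/F1Smooth.lean`) smooth closed point: the local `m`-th root datum of `u ≡ 1`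
can be chosen `≡ 1` modulo `π`. -/
theorem s35f1_smooth {Λ B : Type*} [CommRing Λ] [Algebra Λ F] [CommRing B] [Algebra B F]
    [Algebra Λ B] [IsScalarTower Λ B F]
    (ι : B →+* Bη) (hι : ∀ b : B, algebraMap Bη F (ι b) = algebraMap B F b)
    (hinj : Function.Injective (algebraMap B F))
    (𝔪 : Ideal B) [𝔪.IsPrime] (π : Λ) (hπ𝔪 : algebraMap Λ B π ∈ 𝔪)
    (hπu : IsUnit (ι (algebraMap Λ B π))) (V : Subring F)
    (hBV : ∀ b : B, IsIntegral V (algebraMap B F b))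
    (hK : ∀ y : Bη, IsIntegral V (algebraMap Bη F y) →
      ∃ b : B, algebraMap B F b = algebraMap Bη F y)
    (hU : ∀ δ : F, IsIntegral V δ → IsIntegral V (1 + π • δ)⁻¹)
    (m : ℕ) (hm : m ≠ 0) {u : F} (hu : u ≠ 0)
    (hu1 : ∃ δ : F, IsIntegral V δ ∧ u - 1 = π • δ)
    (hdiv : ∀ 𝔔 ∈ absThrough ι 𝔪, ∃ n : ℤ, 𝔔.valuation F u = WithZero.exp ((m : ℤ) * n))
    (t : B) (ht𝔪 : t ∈ 𝔪) (ht0 : algebraMap B F t ≠ 0) (htV : IsIntegral V (algebraMap B F t)⁻¹)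
    (hlp : ∀ 𝔔 ∈ absThrough ι 𝔪, 𝔔.valuation F u ≠ 1 →
      ∃ a : Λ, π ∣ a ∧
        𝔔.valuation F (algebraMap B F t - algebraMap Λ F a) = WithZero.exp (-1 : ℤ) ∧
        ∀ 𝔔' ∈ absThrough ι 𝔪, 𝔔' ≠ 𝔔 →
          𝔔'.valuation F (algebraMap B F t - algebraMap Λ F a) = 1) :
    ∃ g : F, g ≠ 0 ∧ IsIntegral V g⁻¹ ∧ (∃ δ : F, IsIntegral V δ ∧ g - 1 = π • δ) ∧
      ∀ 𝔔 ∈ absThrough ι 𝔪, 𝔔.valuation F (u / g ^ m) = 1 := by
  set P : F := algebraMap Λ F π with hPdef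
  set T : F := algebraMap B F t with hTdef
  have hsm : ∀ δ : F, π • δ = P * δ := fun δ => Algebra.smul_def π δ
  have hΛV : ∀ a : Λ, IsIntegral V (algebraMap Λ F a) := fun a => by
    rw [IsScalarTower.algebraMap_apply Λ B F a]; exact hBV _
  have hPint : IsIntegral V P := hΛV π
  have hU' : ∀ δ : F, IsIntegral V δ → IsIntegral V (1 + P * δ)⁻¹ := fun δ hδ => by
    rw [← hsm]; exact hU δ hδ
  have huO : s35f1c_O V P u := by
    obtain ⟨δ, hδ, hδu⟩ := hu1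
    exact ⟨δ, hδ, by rw [← hsm, ← hδu]; ring⟩
  -- the predicate
  let Q : F → Prop := fun f => ∃ (N : ℤ) (e : F), s35f1c_O V P e ∧ f = T ^ N * e
  have hQ1 : Q 1 := ⟨0, 1, s35f1c_O_one V P, by simp⟩
  have hQmul : ∀ a b : F, Q a → Q b → Q (a * b) := by
    rintro a b ⟨N, e, he, rfl⟩ ⟨N', e', he', rfl⟩
    exact ⟨N + N', e * e', s35f1c_O_mul V P hPint he he', by rw [zpow_add₀ ht0]; ring⟩
  have hQinv : ∀ a : F, Q a → Q a⁻¹ := by
    rintro a ⟨N, e, he, rfl⟩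
    by_cases he0 : e = 0
    · exact ⟨N, e, he, by rw [he0]; simp⟩
    · exact ⟨-N, e⁻¹, s35f1c_O_inv V P hU' he0 he, by rw [mul_inv, zpow_neg]⟩
  have hlp' : ∀ 𝔔 ∈ absThrough ι 𝔪, 𝔔.valuation F u ≠ 1 →
      ∃ h : F, Q h ∧ 𝔔.valuation F h = WithZero.exp (-1 : ℤ) ∧
        ∀ 𝔔' ∈ absThrough ι 𝔪, 𝔔' ≠ 𝔔 → 𝔔'.valuation F h = 1 := by
    intro 𝔔 h𝔔 hne
    obtain ⟨a, ⟨a', rfl⟩, h1, h2⟩ := hlp 𝔔 h𝔔 hne
    refine ⟨T - algebraMap Λ F (π * a'), ?_, h1, h2⟩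
    refine ⟨1, 1 + P * (-(algebraMap Λ F a') * T⁻¹),
      ⟨_, (hΛV a').neg.mul htV, rfl⟩, ?_⟩
    rw [map_mul, zpow_one]
    field_simp
    ring
  obtain ⟨h0, hh0, ⟨N, E, hE, rfl⟩, hval⟩ :=
    s35f1_lp_pred (absThrough ι 𝔪) Q hQ1 hQmul hQinv m u hu hdiv hlp'
  have hE0 : E ≠ 0 := fun h => hh0 (by rw [h, mul_zero])
  have hN : N = 0 := by
    by_contra hN0
    rcases lt_or_gt_of_ne hN0 with hlt | hgt
    · -- N < 0
      obtain ⟨n, rfl⟩ : ∃ n : ℕ, N = -(n : ℤ) := ⟨(-N).toNat, by omega⟩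
      have hn : n ≠ 0 := by omega
      have hEinv : s35f1c_O V P (E ^ m * u⁻¹) :=
        s35f1c_O_mul V P hPint (s35f1c_O_pow V P hPint hE m) (s35f1c_O_inv V P hU' hu huO)
      refine s35f1c_no_pole ι hι hinj 𝔪 π hπ𝔪 hπu V hBV hK t ht𝔪 ht0 htV _ hEinv (n * m)
        (Nat.mul_ne_zero hn hm) (fun 𝔔 h𝔔 => le_of_eq ?_)
      have h1 := hval 𝔔 h𝔔
      have e1 : E ^ m * u⁻¹ * ((algebraMap B F t)⁻¹) ^ (n * m)
          = (u / (T ^ (-(n : ℤ)) * E) ^ m)⁻¹ := by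
        rw [zpow_neg, zpow_natCast, ← hTdef]
        simp only [inv_pow, mul_pow, div_eq_mul_inv, mul_inv, inv_inv, pow_mul]
        ring
      rw [e1, map_inv₀, h1, inv_one]
    · obtain ⟨n, rfl⟩ : ∃ n : ℕ, N = (n : ℤ) := ⟨N.toNat, by omega⟩
      have hn : n ≠ 0 := by omega
      have hEinv : s35f1c_O V P (u * (E⁻¹) ^ m) :=
        s35f1c_O_mul V P hPint huO (s35f1c_O_pow V P hPint (s35f1c_O_inv V P hU' hE0 hE) m)
      refine s35f1c_no_pole ι hι hinj 𝔪 π hπ𝔪 hπu V hBV hK t ht𝔪 ht0 htV _ hEinv (n * m)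
        (Nat.mul_ne_zero hn hm) (fun 𝔔 h𝔔 => le_of_eq ?_)
      have h1 := hval 𝔔 h𝔔
      have e1 : u * (E⁻¹) ^ m * ((algebraMap B F t)⁻¹) ^ (n * m)
          = u / (T ^ (n : ℤ) * E) ^ m := by
        rw [zpow_natCast, ← hTdef]
        simp only [inv_pow, mul_pow, div_eq_mul_inv, mul_inv, pow_mul]
        ring
      rw [e1, h1]
  subst hN
  rw [zpow_zero, one_mul] at hval hh0
  obtain ⟨δ, hδ, rfl⟩ := hE
  refine ⟨1 + P * δ, hE0, hU' δ hδ, ⟨δ, hδ, by rw [hsm]; ring⟩, ?_⟩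
  exact hval

end Abs

end Fermat.Agent.S35
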