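import Mathlib
import Fermat.Agent.S34.ModelDefs
import Fermat.Agent.S34.NodeGlobalSmooth

set_option autoImplicit false

namespace Fermat.Agent.S35

open Fermat.Agent.S34

open IsLocalRing

/-- (F1-SLP, file `S35/F1SmoothLP.lean`) `S34.node_lp_global_smooth` with the witness exposed. -/
theorem s35f1_lp_smooth {Λ B : Type*} [CommRing Λ] [IsDomain Λ]
    [IsDiscreteValuationRing Λ] [CommRing B] [IsNoetherianRing B] [Algebra Λ B]
    (π : Λ) (hπ : Irreducible π) (φ : B →ₐ[Λ] Λ) (t : B)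
    (ht : ModelLocGen (Ideal.span {algebraMap Λ B π})
      (Ideal.comap (φ : B →+* Λ) (Ideal.span {π})) t) :
    ∃ s : B, ¬ π ∣ φ s ∧ ∀ b : B, φ b = 0 → (t - algebraMap Λ B (φ t)) ∣ s * b := by
  have hπp : Prime π := hπ.prime
  have h𝔪 : (Ideal.comap (φ : B →+* Λ) (Ideal.span {π})).IsPrime := by
    have : (Ideal.span {π} : Ideal Λ).IsPrime := (Ideal.span_singleton_prime hπ.ne_zero).mpr hπp
    exact Ideal.comap_isPrime _ _
  have hmem : ∀ z : B, z ∈ Ideal.comap (φ : B →+* Λ) (Ideal.span {π}) ↔ π ∣ φ z := fun z => by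
    rw [Ideal.mem_comap, Ideal.mem_span_singleton]
    rfl
  generalize Ideal.comap (φ : B →+* Λ) (Ideal.span {π}) = 𝔪 at ht h𝔪 hmem
  obtain ⟨ev, hev, hπm, hres⟩ := ngs_exists_ev π hπ φ 𝔪 hmem
  have hm : maximalIdeal (Localization.AtPrime 𝔪) ≤
      Ideal.span {algebraMap Λ (Localization.AtPrime 𝔪) π,
        algebraMap B (Localization.AtPrime 𝔪) t} := by
    rw [← IsLocalization.AtPrime.map_eq_maximalIdeal 𝔪 (Localization.AtPrime 𝔪),
      Ideal.map_le_iff_le_comap]
    intro z hz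
    obtain ⟨a, ha, haz⟩ := ht.2 z hz
    rw [Ideal.mem_comap]
    have h1 := Ideal.mem_map_of_mem (algebraMap B (Localization.AtPrime 𝔪)) haz
    rw [Ideal.map_sup, Ideal.map_span, Ideal.map_span, Set.image_singleton, Set.image_singleton,
      ← Ideal.span_union, Set.singleton_union, ← IsScalarTower.algebraMap_apply, map_mul] at h1
    have hu : IsUnit (algebraMap B (Localization.AtPrime 𝔪) a) :=
      (IsLocalization.AtPrime.isUnit_to_map_iff _ 𝔪 a).mpr ha
    exact (Ideal.unit_mul_mem_iff_mem _ hu).mp h1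
  have hker := node_ker_eval_single ev π hπm (algebraMap B (Localization.AtPrime 𝔪) t) hm hres
    (by rw [hev]; exact (hmem t).mp ht.1)
  rw [hev] at hker
  have hloc : ∀ b : B, φ b = 0 → ∃ s : B, s ∉ 𝔪 ∧ (t - algebraMap Λ B (φ t)) ∣ s * b := by
    intro b hb
    have hbk : algebraMap B (Localization.AtPrime 𝔪) b ∈
        RingHom.ker (ev : Localization.AtPrime 𝔪 →+* Λ) := by
      rw [RingHom.mem_ker]
      exact (hev b).trans hb
    rw [hker, Ideal.mem_span_singleton'] at hbk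
    obtain ⟨y, hy⟩ := hbk
    obtain ⟨⟨r, s⟩, rfl⟩ := IsLocalization.mk'_surjective 𝔪.primeCompl y
    have h1 : algebraMap B (Localization.AtPrime 𝔪) (s * b) =
        algebraMap B (Localization.AtPrime 𝔪) (r * (t - algebraMap Λ B (φ t))) := by
      rw [map_mul, map_mul, ← hy, map_sub, ← IsScalarTower.algebraMap_apply,
        ← IsLocalization.mk'_spec (Localization.AtPrime 𝔪) r s]
      ring
    obtain ⟨c, hc⟩ := (IsLocalization.eq_iff_exists 𝔪.primeCompl (Localization.AtPrime 𝔪)).mp h1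
    refine ⟨c * s, (c * s).2, ?_⟩
    rw [mul_assoc, hc, ← mul_assoc]
    exact Dvd.intro_left _ rfl
  obtain ⟨S, hS⟩ := (isNoetherianRing_iff_ideal_fg B).mp inferInstance
    (RingHom.ker (φ : B →+* Λ))
  obtain ⟨s, hs, hsb⟩ := ngs_uniform 𝔪 (t - algebraMap Λ B (φ t)) S (fun a ha => hloc a (by
    have h2 : a ∈ RingHom.ker (φ : B →+* Λ) := hS ▸ Ideal.subset_span ha
    exact h2))
  refine ⟨s, fun hd => hs ((hmem s).mpr hd), fun b hb => hsb b ?_⟩
  rw [hS]
  exact hb

end Fermat.Agent.S35
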