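import Mathlib
import Fermat.Agent.S34.AbsLP
import Fermat.Agent.S34.ModelDefs
import Fermat.Agent.S35.F1Smooth
import Fermat.Agent.S35.F1SmoothLP
set_option autoImplicit false
namespace Fermat.Agent.S35
open IsDedekindDomain
open Fermat.Agent.S34

section PT

variable {Bη F : Type*} [CommRing Bη] [IsDedekindDomain Bη] [Field F] [Algebra Bη F]
  [IsFractionRing Bη F]
  {Λ B : Type*} [CommRing Λ] [IsDomain Λ] [IsDiscreteValuationRing Λ] [Algebra Λ F]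
  [CommRing B] [IsNoetherianRing B] [Algebra B F] [Algebra Λ B] [IsScalarTower Λ B F]

/-- (F1-PTS, file `S35/F1PtSmooth.lean`) smooth closed point, from the closed-point datum and the
dictionary. -/
theorem s35f1_pt_smooth
    (ι : B →+* Bη) (hι : ∀ b : B, algebraMap Bη F (ι b) = algebraMap B F b)
    (hinj : Function.Injective (algebraMap B F))
    (π : Λ) (hπ : Irreducible π)
    (hπu : IsUnit (ι (algebraMap Λ B π)))
    (hloc : ∀ y : Bη, ∃ (n : ℕ) (b : B), ι (algebraMap Λ B π) ^ n * y = ι b)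
    (𝔪 : Ideal B) [𝔪.IsPrime] (hπ𝔪 : algebraMap Λ B π ∈ 𝔪)
    (V : Subring F)
    (hBV : ∀ b : B, IsIntegral V (algebraMap B F b))
    (hK : ∀ y : Bη, IsIntegral V (algebraMap Bη F y) →
      ∃ b : B, algebraMap B F b = algebraMap Bη F y)
    (hU : ∀ δ : F, IsIntegral V δ → IsIntegral V (1 + π • δ)⁻¹)
    (m : ℕ) (hm : m ≠ 0) {u : F} (hu : u ≠ 0)
    (hu1 : ∃ δ : F, IsIntegral V δ ∧ u - 1 = π • δ)
    (hdiv : ∀ 𝔔 ∈ absThrough ι 𝔪, ∃ n : ℤ, 𝔔.valuation F u = WithZero.exp ((m : ℤ) * n))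
    (t : B) (ht : ModelLocGen (Ideal.span {algebraMap Λ B π}) 𝔪 t)
    (ht0 : algebraMap B F t ≠ 0) (htV : IsIntegral V (algebraMap B F t)⁻¹)
    (hpoint : ∀ 𝔔 ∈ absThrough ι 𝔪, 𝔔.valuation F u ≠ 1 →
      ∃ φ : B →ₐ[Λ] Λ, 𝔪 = Ideal.comap (φ : B →+* Λ) (Ideal.span {π}) ∧
        ∀ b : B, ι b ∈ 𝔔.asIdeal ↔ φ b = 0) :
    ∃ g : F, g ≠ 0 ∧ IsIntegral V g⁻¹ ∧ (∃ δ : F, IsIntegral V δ ∧ g - 1 = π • δ) ∧
      ∀ 𝔔 ∈ absThrough ι 𝔪, 𝔔.valuation F (u / g ^ m) = 1 := by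
  refine s35f1_smooth ι hι hinj 𝔪 π hπ𝔪 hπu V hBV hK hU m hm hu hu1 hdiv t ht.1 ht0 htV ?_
  intro 𝔔 h𝔔 hne
  obtain ⟨φ, h𝔪, hφ⟩ := hpoint 𝔔 h𝔔 hne
  have ht' : ModelLocGen (Ideal.span {algebraMap Λ B π})
      (Ideal.comap (φ : B →+* Λ) (Ideal.span {π})) t := h𝔪 ▸ ht
  obtain ⟨s, hs, hd⟩ := s35f1_lp_smooth π hπ φ t ht'
  have hh : φ (t - algebraMap Λ B (φ t)) = 0 := by
    rw [map_sub, AlgHom.commutes]
    exact sub_self _
  have hd' : ∀ b : B, φ b = 0 →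
      (t - algebraMap Λ B (φ t)) ∣ algebraMap Λ B (π ^ 0) * (s * b) := fun b hb => by
    rw [pow_zero, map_one, one_mul]; exact hd b hb
  obtain ⟨h1, h2⟩ := abs_lp_place (F := F) ι π hπu hloc φ 𝔔 hφ
    (t - algebraMap Λ B (φ t)) hh 0 s hs hd'
  have he : algebraMap Bη F (ι (t - algebraMap Λ B (φ t))) =
      algebraMap B F t - algebraMap Λ F (φ t) := by
    rw [hι, map_sub, ← IsScalarTower.algebraMap_apply Λ B F]
  rw [he] at h1 h2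
  have hdvd : π ∣ φ t := by
    have h3 : t ∈ Ideal.comap (φ : B →+* Λ) (Ideal.span {π}) := ht'.1
    rw [Ideal.mem_comap, Ideal.mem_span_singleton] at h3
    exact h3
  exact ⟨φ t, hdvd, h1, fun 𝔔' h𝔔' hne' => h2 𝔔' hne' (h𝔪 ▸ h𝔔')⟩

end PT

end Fermat.Agent.S35
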