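import Mathlib
import Fermat.Agent.S34.AbsLP
import Fermat.Agent.S34.AbsHR
import Fermat.Agent.S34.AbsPlaceComp
set_option autoImplicit false
namespace Fermat.Agent.S35
open IsDedekindDomain
open Fermat.Agent.S34

theorem s35f1g_pow_sub {F Γ : Type*} [Field F] [LinearOrderedCommGroupWithZero Γ]
    (w : Valuation F Γ) (a b : F) (ha : w a ≤ 1) (hb : w b ≤ 1) (h : w (a - b) < 1) (Q : ℕ) :
    w (a ^ Q - b ^ Q) < 1 := by
  induction Q with
  | zero => simp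
  | succ k ih =>
    have h1 : a ^ (k + 1) - b ^ (k + 1) = a ^ k * (a - b) + (a ^ k - b ^ k) * b := by ring
    rw [h1]
    apply w.map_add_lt
    · rw [map_mul, map_pow]
      calc w a ^ k * w (a - b) ≤ 1 * w (a - b) := mul_le_mul' (pow_le_one' ha k) le_rfl
        _ < 1 := by rw [one_mul]; exact h
    · rw [map_mul]
      calc w (a ^ k - b ^ k) * w b ≤ w (a ^ k - b ^ k) * 1 := mul_le_mul' le_rfl hb
        _ < 1 := by rw [mul_one]; exact ih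

theorem s35f1g_div {F Γ : Type*} [Field F] [LinearOrderedCommGroupWithZero Γ]
    (w : Valuation F Γ) (A B : F) (hB : w B = 1) (h : w (A - B) < 1) :
    w (A / B - 1) < 1 ∧ w (A / B) = 1 := by
  have hB0 : B ≠ 0 := by
    intro h0; rw [h0, map_zero] at hB; exact zero_ne_one hB
  have h1 : A / B - 1 = (A - B) / B := by field_simp
  have h2 : w (A / B - 1) < 1 := by
    rw [h1, map_div₀, hB, div_one]; exact h
  refine ⟨h2, ?_⟩
  have h3 : A / B = (A / B - 1) + 1 := by ring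
  rw [h3, w.map_add_eq_of_lt_right (by rw [map_one]; exact h2), map_one]

theorem s35f1g_core {F Γ : Type*} [Field F] [LinearOrderedCommGroupWithZero Γ]
    (w : Valuation F Γ) (A g c0 : F) (Q : ℕ) (hc0 : w c0 = 1) (hg : w (g - c0) < 1)
    (hA : w (A - c0 ^ Q) < 1) :
    w (A / g ^ Q - 1) < 1 ∧ w (A / g ^ Q) = 1 := by
  have hg1 : w g = 1 := by
    have h3 : g = (g - c0) + c0 := by ring
    rw [h3, w.map_add_eq_of_lt_right (by rw [hc0]; exact hg), hc0]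
  apply s35f1g_div
  · rw [map_pow, hg1, one_pow]
  · have h1 : A - g ^ Q = (A - c0 ^ Q) - (g ^ Q - c0 ^ Q) := by ring
    rw [h1]
    exact w.map_sub_lt hA (s35f1g_pow_sub w g c0 hg1.le hc0.le hg Q)

section Abs

variable {Bη F : Type*} [CommRing Bη] [IsDedekindDomain Bη] [Field F] [Algebra Bη F]
  [IsFractionRing Bη F]

section Cross

variable {Λ B : Type*} [CommRing Λ] [IsDomain Λ] [IsDiscreteValuationRing Λ] [Algebra Λ F]
  [CommRing B] [Algebra B F] [Algebra Λ B] [IsScalarTower Λ B F]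
  {Γ₁ Γ₂ : Type*} [LinearOrderedCommGroupWithZero Γ₁] [LinearOrderedCommGroupWithZero Γ₂]

/-- (F1-G, file `S35/F1Vert.lean`) the datum for `z = s2 u / u ^ Q` is `≡ 1` modulo `π`. -/
theorem s35f1_vert (π : Λ) (V : Subring F)
    (w₁ : Valuation F Γ₁) (w₂ : Valuation F Γ₂)
    (hVw : ∀ f : F, IsIntegral V f ↔ w₁ f ≤ 1 ∧ w₂ f ≤ 1)
    (hπw : ∀ f : F, w₁ f < 1 → w₂ f < 1 → ∃ δ : F, IsIntegral V δ ∧ f = π • δ)
    (s2 : F ≃+* F) (hs₁ : ∀ f : F, w₁ (s2 f) = w₁ f) (hs₂ : ∀ f : F, w₂ (s2 f) = w₂ f)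
    (Q : ℕ) (hfrob : ∀ c : Λ, w₁ (s2 (algebraMap Λ F c) - algebraMap Λ F c ^ Q) < 1)
    (hΛ₁ : ∀ c : Λ, IsUnit c → w₁ (algebraMap Λ F c) = 1)
    (g g' : F) (c : Λ) (hc : IsUnit c)
    (hg₁ : w₁ (g - algebraMap Λ F c) < 1) (hg'₁ : w₁ (g' - algebraMap Λ F c) < 1)
    (hg₂ : w₂ (g - 1) < 1) (hg'₂ : w₂ (g' - 1) < 1) :
    s2 g' / g ^ Q ≠ 0 ∧ IsIntegral V (s2 g' / g ^ Q)⁻¹ ∧
      ∃ δ : F, IsIntegral V δ ∧ s2 g' / g ^ Q - 1 = π • δ := by
  have hA₁ : w₁ (s2 g' - algebraMap Λ F c ^ Q) < 1 := by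
    have h1 : s2 g' - algebraMap Λ F c ^ Q =
        s2 (g' - algebraMap Λ F c) + (s2 (algebraMap Λ F c) - algebraMap Λ F c ^ Q) := by
      rw [map_sub]; ring
    rw [h1]
    exact w₁.map_add_lt (by rw [hs₁]; exact hg'₁) (hfrob c)
  have hA₂ : w₂ (s2 g' - 1 ^ Q) < 1 := by
    have h1 : s2 g' - 1 ^ Q = s2 (g' - 1) := by rw [map_sub, map_one, one_pow]
    rw [h1, hs₂]; exact hg'₂
  obtain ⟨h1a, h1b⟩ := s35f1g_core w₁ (s2 g') g (algebraMap Λ F c) Q (hΛ₁ c hc) hg₁ hA₁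
  obtain ⟨h2a, h2b⟩ := s35f1g_core w₂ (s2 g') g 1 Q (map_one _) hg₂ hA₂
  refine ⟨?_, ?_, hπw _ h1a h2a⟩
  · intro h0; rw [h0, map_zero] at h1b; exact zero_ne_one h1b
  · rw [hVw, map_inv₀, map_inv₀, h1b, h2b]; simp

end Cross

end Abs

end Fermat.Agent.S35
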