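import Mathlib
import Fermat.Agent.S34.AbsMain
import Fermat.Agent.S34.AbsTau
import Fermat.Agent.S34.AbsLPInst
import Fermat.Agent.S34.ModelDefs
import Fermat.Agent.S35.F1PtSmooth
import Fermat.Agent.S35.F1PtCross
import Fermat.Agent.S35.F1Vert
import Fermat.Agent.S35.F1Point

/-!
# P20 (S35), F1: one chart of the Kummer descent for `z = s2 u / u ^ Q`

`s35f1_chart`: at a maximal ideal `𝔪 ∋ π` of the chart ring `B = ` integral closure of `Λ[t]`,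
with `𝔪' ⊇ s2⁻¹ 𝔪` a second maximal ideal, from the closed-point data at `𝔪` and `𝔪'`
(both one-component points with a local parameter which is a unit at both Gauss valuations, or
`𝔪' = 𝔪` a crossing point all of whose `Λ`-points are of `X`-type) and the dictionary at both
points: a function `G ≡ 1` modulo `π` such that `z / G ^ m` has no horizontal order through `𝔪`.
-/

set_option autoImplicit false

namespace Fermat.Agent.S35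

open IsDedekindDomain
open Fermat.Agent.S34

section Defs

variable {Λ B F : Type*} [CommRing Λ] [CommRing B] [Algebra Λ B] [Field F] [Algebra B F]
  {Γ₁ Γ₂ : Type*} [LinearOrderedCommGroupWithZero Γ₁] [LinearOrderedCommGroupWithZero Γ₂]

/-- A one-component closed point `𝔫` of the special fibre: a local parameter `t₀` of the special
fibre at `𝔫` which is a unit at both vertical valuations. -/
def S35F1One (π : Λ) (w₁ : Valuation F Γ₁) (w₂ : Valuation F Γ₂) (𝔫 : Ideal B) : Prop :=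
  ∃ t₀ : B, ModelLocGen (Ideal.span {algebraMap Λ B π}) 𝔫 t₀ ∧
    w₁ (algebraMap B F t₀) = 1 ∧ w₂ (algebraMap B F t₀) = 1

/-- A crossing point `𝔫` of the two components of the special fibre, all of whose integral
points are of `X`-type. -/
def S35F1Cross (π : Λ) (w₁ : Valuation F Γ₁) (w₂ : Valuation F Γ₂) (𝔫 : Ideal B) : Prop :=
  ∃ x y : B, x ∈ 𝔫 ∧ y ∈ 𝔫 ∧ w₂ (algebraMap B F x) = 1 ∧ w₁ (algebraMap B F y) = 1 ∧
    (∀ z ∈ 𝔫, ∃ a : B, a ∉ 𝔫 ∧ a * z ∈ Ideal.span {algebraMap Λ B π, x, y}) ∧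
    (∀ b : B, w₁ (algebraMap B F b) < 1 → b ∈ 𝔫) ∧
    (∀ b : B, w₂ (algebraMap B F b) < 1 → b ∈ 𝔫) ∧
    ∀ φ : B →ₐ[Λ] Λ, 𝔫 = Ideal.comap (φ : B →+* Λ) (Ideal.span {π}) →
      ∃ (X Y H σ : B) (d Q : Λ), ¬ π ∣ φ σ ∧
        X - σ * x ∈ Ideal.span {algebraMap Λ B π} ∧
        Y - σ * y ∈ Ideal.span {algebraMap Λ B π} ∧
        X * Y = σ ^ 2 * algebraMap Λ B d + algebraMap Λ B Q * H ∧ ¬ Q ∣ φ X

end Defs

section Chart

variable {Λ K F : Type*} [CommRing Λ] [IsDomain Λ] [IsDiscreteValuationRing Λ] [Field K]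
  [Algebra Λ K] [IsFractionRing Λ K] [Field F] [Algebra K F] [Algebra Λ F] [IsScalarTower Λ K F]
  {Γ₁ Γ₂ : Type*} [LinearOrderedCommGroupWithZero Γ₁] [LinearOrderedCommGroupWithZero Γ₂]

omit [IsDomain Λ] [IsDiscreteValuationRing Λ] in
/-- `w (π • δ) < 1` for `w π < 1`, `w δ ≤ 1`. -/
theorem s35f1ch_smul_lt {Γ : Type*} [LinearOrderedCommGroupWithZero Γ] (w : Valuation F Γ)
    (π : Λ) (hπw : w (algebraMap Λ F π) < 1) {δ : F} (hδ : w δ ≤ 1) : w (π • δ) < 1 := by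
  rw [Algebra.smul_def, map_mul]
  calc w (algebraMap Λ F π) * w δ ≤ w (algebraMap Λ F π) * 1 := mul_le_mul' le_rfl hδ
    _ < 1 := by rw [mul_one]; exact hπw

/-- **F1, one chart.** -/
theorem s35f1_chart (π : Λ) (hπ : Irreducible π) {t : F} (ht : Transcendental K t)
    [IsDedekindDomain ↥(integralClosure (Algebra.adjoin K {t}) F)]
    [IsFractionRing ↥(integralClosure (Algebra.adjoin K {t}) F) F]
    [IsNoetherianRing ↥(integralClosure (Algebra.adjoin Λ {t}) F)]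
    (w₁ : Valuation F Γ₁) (w₂ : Valuation F Γ₂)
    (hVw : ∀ f : F, IsIntegral (S18.gaussSub π hπ.prime t) f ↔ w₁ f ≤ 1 ∧ w₂ f ≤ 1)
    (hπw : ∀ f : F, w₁ f < 1 → w₂ f < 1 →
      ∃ δ : F, IsIntegral (S18.gaussSub π hπ.prime t) δ ∧ f = π • δ)
    (hπ₁ : w₁ (algebraMap Λ F π) < 1) (hπ₂ : w₂ (algebraMap Λ F π) < 1)
    (hΛ₁ : ∀ c : Λ, IsUnit c → w₁ (algebraMap Λ F c) = 1)
    (s2 : F ≃+* F) (hs2t : s2 t = t)
    (hs2Λ : ∀ c : Λ, ∃ c' : Λ, s2 (algebraMap Λ F c) = algebraMap Λ F c')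
    (hs2Λs : ∀ c : Λ, ∃ c' : Λ, s2.symm (algebraMap Λ F c) = algebraMap Λ F c')
    (hs₁ : ∀ f : F, w₁ (s2 f) = w₁ f) (hs₂ : ∀ f : F, w₂ (s2 f) = w₂ f)
    (Q : ℕ) (hfrob : ∀ c : Λ, w₁ (s2 (algebraMap Λ F c) - algebraMap Λ F c ^ Q) < 1)
    (m : ℕ) (hm : m ≠ 0) {u : F} (hu : u ≠ 0)
    (hu1 : ∃ δ : F, IsIntegral (S18.gaussSub π hπ.prime t) δ ∧ u - 1 = π • δ)
    (hdiv : ∀ 𝔔 : HeightOneSpectrum ↥(integralClosure (Algebra.adjoin K {t}) F),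
      ∃ n : ℤ, 𝔔.valuation F u = WithZero.exp ((m : ℤ) * n))
    (𝔪 𝔪' : Ideal ↥(integralClosure (Algebra.adjoin Λ {t}) F)) (h𝔪 : 𝔪.IsMaximal)
    (h𝔪' : 𝔪'.IsMaximal)
    (hπ𝔪 : algebraMap Λ ↥(integralClosure (Algebra.adjoin Λ {t}) F) π ∈ 𝔪)
    (hπ𝔪' : algebraMap Λ ↥(integralClosure (Algebra.adjoin Λ {t}) F) π ∈ 𝔪')
    (hs𝔪 : ∀ b b' : ↥(integralClosure (Algebra.adjoin Λ {t}) F),
      (b' : F) = s2 (b : F) → b' ∈ 𝔪 → b ∈ 𝔪')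
    (hpoint : ∀ 𝔔 ∈ absThrough (absIncl Λ K t) 𝔪, 𝔔.valuation F u ≠ 1 →
      ∃ φ : ↥(integralClosure (Algebra.adjoin Λ {t}) F) →ₐ[Λ] Λ,
        𝔪 = Ideal.comap (φ : ↥(integralClosure (Algebra.adjoin Λ {t}) F) →+* Λ)
          (Ideal.span {π}) ∧
        ∀ b : ↥(integralClosure (Algebra.adjoin Λ {t}) F),
          absIncl Λ K t b ∈ 𝔔.asIdeal ↔ φ b = 0)
    (hpoint' : ∀ 𝔔 ∈ absThrough (absIncl Λ K t) 𝔪', 𝔔.valuation F u ≠ 1 →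
      ∃ φ : ↥(integralClosure (Algebra.adjoin Λ {t}) F) →ₐ[Λ] Λ,
        𝔪' = Ideal.comap (φ : ↥(integralClosure (Algebra.adjoin Λ {t}) F) →+* Λ)
          (Ideal.span {π}) ∧
        ∀ b : ↥(integralClosure (Algebra.adjoin Λ {t}) F),
          absIncl Λ K t b ∈ 𝔔.asIdeal ↔ φ b = 0)
    (hcl :
      (((∀ 𝔔 ∈ absThrough (absIncl Λ K t) 𝔪, 𝔔.valuation F u = 1) ∨ S35F1One π w₁ w₂ 𝔪) ∧
        ((∀ 𝔔 ∈ absThrough (absIncl Λ K t) 𝔪', 𝔔.valuation F u = 1) ∨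
          S35F1One π w₁ w₂ 𝔪')) ∨
      (𝔪' = 𝔪 ∧ ∃ (g : F) (c : Λ), g ≠ 0 ∧ IsUnit c ∧ w₁ (g - algebraMap Λ F c) < 1 ∧
        w₂ (g - 1) < 1 ∧ ∀ 𝔔 ∈ absThrough (absIncl Λ K t) 𝔪, 𝔔.valuation F (u / g ^ m) = 1)) :
    ∃ G : F, G ≠ 0 ∧ IsIntegral (S18.gaussSub π hπ.prime t) G⁻¹ ∧
      (∃ δ : F, IsIntegral (S18.gaussSub π hπ.prime t) δ ∧ G - 1 = π • δ) ∧
      ∀ 𝔔 ∈ absThrough (absIncl Λ K t) 𝔪, 𝔔.valuation F ((s2 u / u ^ Q) / G ^ m) ≤ 1 := by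
  have h𝔪p : 𝔪.IsPrime := h𝔪.isPrime
  have h𝔪'p : 𝔪'.IsPrime := h𝔪'.isPrime
  have htΛ : Transcendental Λ t := S18.GaussLineK.transcendental_of_fraction ht
  have hinj : Function.Injective (algebraMap ↥(integralClosure (Algebra.adjoin Λ {t}) F) F) :=
    Subtype.val_injective
  have hBV : ∀ b : ↥(integralClosure (Algebra.adjoin Λ {t}) F),
      IsIntegral (S18.gaussSub π hπ.prime t)
        (algebraMap ↥(integralClosure (Algebra.adjoin Λ {t}) F) F b) := fun b =>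
    S18.GaussLineK.isIntegral_of_isIntegral_adjoin π hπ.prime htΛ (s := {t}) (by simp) b.2
  have hK : ∀ y : ↥(integralClosure (Algebra.adjoin K {t}) F),
      IsIntegral (S18.gaussSub π hπ.prime t)
        (algebraMap ↥(integralClosure (Algebra.adjoin K {t}) F) F y) →
      ∃ b : ↥(integralClosure (Algebra.adjoin Λ {t}) F),
        algebraMap ↥(integralClosure (Algebra.adjoin Λ {t}) F) F b =
          algebraMap ↥(integralClosure (Algebra.adjoin K {t}) F) F y := fun y hy =>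
    ⟨⟨(y : F), abs_isIntegral_of_gauss π hπ ht y.2 hy⟩, rfl⟩
  have hU : ∀ δ : F, IsIntegral (S18.gaussSub π hπ.prime t) δ →
      IsIntegral (S18.gaussSub π hπ.prime t) (1 + π • δ)⁻¹ := by
    intro δ hδ
    obtain ⟨hδ1, hδ2⟩ := (hVw δ).mp hδ
    have e1 : w₁ (1 + π • δ) = 1 := by
      rw [w₁.map_add_eq_of_lt_left (by rw [map_one]; exact s35f1ch_smul_lt w₁ π hπ₁ hδ1),
        map_one]
    have e2 : w₂ (1 + π • δ) = 1 := by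
      rw [w₂.map_add_eq_of_lt_left (by rw [map_one]; exact s35f1ch_smul_lt w₂ π hπ₂ hδ2),
        map_one]
    rw [hVw, map_inv₀, map_inv₀, e1, e2]
    simp
  -- congruences of `δ`-form to valuation form
  have hcong : ∀ g : F, (∃ δ : F, IsIntegral (S18.gaussSub π hπ.prime t) δ ∧ g - 1 = π • δ) →
      w₁ (g - 1) < 1 ∧ w₂ (g - 1) < 1 := by
    rintro g ⟨δ, hδ, hg⟩
    obtain ⟨hδ1, hδ2⟩ := (hVw δ).mp hδ
    rw [hg]
    exact ⟨s35f1ch_smul_lt w₁ π hπ₁ hδ1, s35f1ch_smul_lt w₂ π hπ₂ hδ2⟩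
  have hs2st : s2.symm t = t := abs_symm_fix s2 hs2t
  have hη := abs_tau_eta (K := K) s2 hs2t hs2Λ
  have hηs := abs_tau_eta (K := K) s2.symm hs2st hs2Λs
  have hs𝔪' : ∀ b : ↥(integralClosure (Algebra.adjoin Λ {t}) F),
      ∃ b' : ↥(integralClosure (Algebra.adjoin Λ {t}) F),
        algebraMap ↥(integralClosure (Algebra.adjoin Λ {t}) F) F b' =
          s2 (algebraMap ↥(integralClosure (Algebra.adjoin Λ {t}) F) F b) ∧
        (b' ∈ 𝔪 → b ∈ 𝔪') := by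
    intro b
    obtain ⟨b', hb'⟩ := abs_tau_fin s2 hs2t hs2Λ b
    exact ⟨b', hb', hs𝔪 b b' hb'⟩
  have hdiv𝔪 : ∀ 𝔫 : Ideal ↥(integralClosure (Algebra.adjoin Λ {t}) F),
      ∀ 𝔔 ∈ absThrough (absIncl Λ K t) 𝔫,
        ∃ n : ℤ, 𝔔.valuation F u = WithZero.exp ((m : ℤ) * n) := fun _ 𝔔 _ => hdiv 𝔔
  -- the local data `g` at `𝔪`, `g'` at `𝔪'`
  obtain ⟨g, g', c, hg0, hg'0, hc, hg₁, hg'₁, hg₂, hg'₂, hval, hval'⟩ :
      ∃ (g g' : F) (c : Λ), g ≠ 0 ∧ g' ≠ 0 ∧ IsUnit c ∧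
        w₁ (g - algebraMap Λ F c) < 1 ∧ w₁ (g' - algebraMap Λ F c) < 1 ∧
        w₂ (g - 1) < 1 ∧ w₂ (g' - 1) < 1 ∧
        (∀ 𝔔 ∈ absThrough (absIncl Λ K t) 𝔪, 𝔔.valuation F (u / g ^ m) = 1) ∧
        (∀ 𝔔 ∈ absThrough (absIncl Λ K t) 𝔪', 𝔔.valuation F (u / g' ^ m) = 1) := by
    have hsm : ∀ 𝔫 : Ideal ↥(integralClosure (Algebra.adjoin Λ {t}) F), 𝔫.IsPrime →
        algebraMap Λ ↥(integralClosure (Algebra.adjoin Λ {t}) F) π ∈ 𝔫 →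
        (∀ 𝔔 ∈ absThrough (absIncl Λ K t) 𝔫, 𝔔.valuation F u ≠ 1 →
          ∃ φ : ↥(integralClosure (Algebra.adjoin Λ {t}) F) →ₐ[Λ] Λ,
            𝔫 = Ideal.comap (φ : ↥(integralClosure (Algebra.adjoin Λ {t}) F) →+* Λ)
              (Ideal.span {π}) ∧
            ∀ b : ↥(integralClosure (Algebra.adjoin Λ {t}) F),
              absIncl Λ K t b ∈ 𝔔.asIdeal ↔ φ b = 0) →
        ((∀ 𝔔 ∈ absThrough (absIncl Λ K t) 𝔫, 𝔔.valuation F u = 1) ∨ S35F1One π w₁ w₂ 𝔫) →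
        ∃ g : F, g ≠ 0 ∧ w₁ (g - 1) < 1 ∧ w₂ (g - 1) < 1 ∧
          ∀ 𝔔 ∈ absThrough (absIncl Λ K t) 𝔫, 𝔔.valuation F (u / g ^ m) = 1 := by
      intro 𝔫 h𝔫p hπ𝔫 hpt𝔫 h
      rcases h with htriv | ⟨t₀, ht₀, ht₀1, ht₀2⟩
      · refine ⟨1, one_ne_zero, ?_, ?_, fun 𝔔 h𝔔 => ?_⟩
        · rw [sub_self, map_zero]; exact zero_lt_one
        · rw [sub_self, map_zero]; exact zero_lt_one
        · rw [one_pow, div_one]; exact htriv 𝔔 h𝔔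
      · have hne : algebraMap ↥(integralClosure (Algebra.adjoin Λ {t}) F) F t₀ ≠ 0 := by
          intro h0
          rw [h0, map_zero] at ht₀1
          exact zero_ne_one ht₀1
        have hinv : IsIntegral (S18.gaussSub π hπ.prime t)
            (algebraMap ↥(integralClosure (Algebra.adjoin Λ {t}) F) F t₀)⁻¹ := by
          rw [hVw, map_inv₀, map_inv₀, ht₀1, ht₀2]
          simp
        obtain ⟨g, hg0, -, hg1, hval⟩ := s35f1_pt_smooth (absIncl Λ K t)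
          (algebraMap_absIncl Λ K t)
          hinj π hπ (abs_isUnit_incl Λ K t π hπ.ne_zero) (abs_incl_loc Λ K t π hπ) 𝔫 hπ𝔫
          (S18.gaussSub π hπ.prime t) hBV hK hU m hm hu hu1 (hdiv𝔪 𝔫) t₀ ht₀ hne hinv hpt𝔫
        exact ⟨g, hg0, (hcong g hg1).1, (hcong g hg1).2, hval⟩
    rcases hcl with ⟨h1, h2⟩ | ⟨rfl, g, c, hg0, hc, hg₁, hg₂, hval⟩
    · obtain ⟨g, hg0, hg₁, hg₂, hval⟩ := hsm 𝔪 h𝔪p hπ𝔪 hpoint h1
      obtain ⟨g', hg'0, hg'₁, hg'₂, hval'⟩ := hsm 𝔪' h𝔪'p hπ𝔪' hpoint' h2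
      refine ⟨g, g', 1, hg0, hg'0, isUnit_one, ?_, ?_, hg₂, hg'₂, hval, hval'⟩
      · rw [map_one]; exact hg₁
      · rw [map_one]; exact hg'₁
    · exact ⟨g, g, c, hg0, hg0, hc, hg₁, hg₁, hg₂, hg₂, hval, hval⟩
  obtain ⟨hG0, hGi, hG1⟩ := s35f1_vert π
    (S18.gaussSub π hπ.prime t) w₁ w₂ hVw hπw s2 hs₁ hs₂ Q hfrob hΛ₁ g g' c hc hg₁ hg'₁ hg₂ hg'₂
  refine ⟨s2 g' / g ^ Q, hG0, hGi, hG1, fun 𝔔 h𝔔 => le_of_eq ?_⟩
  exact s35f1_point (absIncl Λ K t) (algebraMap_absIncl Λ K t) 𝔪 𝔪' s2 hη hηs hs𝔪' m Q u g g'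
    hu hg0 hg'0 hval hval' 𝔔 h𝔔

end Chart

end Fermat.Agent.S35
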