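import Mathlib
import Fermat.Agent.S34.AbsLP
import Fermat.Agent.S34.AbsHR
import Fermat.Agent.S34.AbsPlaceComp
import Fermat.Agent.S34.ModelDefs
import Fermat.Agent.S34.NodeGlobalBadB
import Fermat.Agent.S35.F1Ctrick
import Fermat.Agent.S35.F1CrossProd
import Fermat.Agent.S35.F1CrossVert

set_option autoImplicit false

/-!
# S35, NOFT crossing package, leaf NE (second team)

Node relations of every level at a crossing point, in global form, from `S34.ngbB_base_aux`.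
-/

namespace Fermat.Agent.S35

open IsDedekindDomain
open Fermat.Agent.S34

section PT

variable {Bη F : Type*} [CommRing Bη] [IsDedekindDomain Bη] [Field F] [Algebra Bη F]
  [IsFractionRing Bη F]
  {Λ B : Type*} [CommRing Λ] [IsDomain Λ] [IsDiscreteValuationRing Λ] [Algebra Λ F]
  [CommRing B] [IsNoetherianRing B] [Algebra B F] [Algebra Λ B] [IsScalarTower Λ B F]

/-- (NE, second team) node relations of every level at a crossing point, in global form (from
`S34.ngbB_base_aux`). -/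
theorem s35f1n_node_B (hinj : Function.Injective (algebraMap B F))
    (π : Λ) (hπ : Irreducible π) (𝔪 : Ideal B) [𝔪.IsPrime] (x y G : B)
    (hxy : x * y = algebraMap Λ B π * G)
    (hgen : ∀ z ∈ 𝔪, ∃ a : B, a ∉ 𝔪 ∧ a * z ∈ Ideal.span {algebraMap Λ B π, x, y})
    (φ : B →ₐ[Λ] Λ) (h𝔪 : 𝔪 = Ideal.comap (φ : B →+* Λ) (Ideal.span {π})) (K : ℕ) :
    ∃ (X Y H σ : B) (c : Λ), σ ∉ 𝔪 ∧
      X - σ * x ∈ Ideal.span {algebraMap Λ B π} ∧
      Y - σ * y ∈ Ideal.span {algebraMap Λ B π} ∧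
      X * Y = σ ^ 2 * algebraMap Λ B (π * c) + algebraMap Λ B (π ^ (K + 1)) * H := by
  have hdom : IsDomain B := Function.Injective.isDomain (algebraMap B F) hinj
  have hmem : ∀ z : B, z ∈ 𝔪 ↔ π ∣ (φ : B →+* Λ) z := fun z => by
    rw [h𝔪, Ideal.mem_comap, Ideal.mem_span_singleton]
  have hgen_b : ∀ z : B, π ∣ (φ : B →+* Λ) z → ∃ a : B, ¬ π ∣ (φ : B →+* Λ) a ∧
      a * z ∈ Ideal.span {algebraMap Λ B π, x, y} := by
    intro z hz
    obtain ⟨a, ha, haz⟩ := hgen z ((hmem z).mpr hz)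
    exact ⟨a, fun h => ha ((hmem a).mpr h), haz⟩
  have hres_b : ∀ r s : B, ¬ π ∣ (φ : B →+* Λ) s →
      ∃ c : Λ, π ∣ (φ : B →+* Λ) (r - algebraMap Λ B c * s) := by
    intro r s hs
    have hsu : IsUnit ((φ : B →+* Λ) s) := by
      by_contra hnu
      have hmem' : (φ : B →+* Λ) s ∈ IsLocalRing.maximalIdeal Λ := by
        rwa [IsLocalRing.mem_maximalIdeal, mem_nonunits_iff]
      rw [hπ.maximalIdeal_eq] at hmem'
      exact hs (Ideal.mem_span_singleton.mp hmem')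
    obtain ⟨v, hv⟩ := hsu
    refine ⟨(φ : B →+* Λ) r * (↑v⁻¹ : Λ), ?_⟩
    have h0 : (φ : B →+* Λ) (r - algebraMap Λ B ((φ : B →+* Λ) r * (↑v⁻¹ : Λ)) * s) = 0 := by
      have hc : ∀ c : Λ, (φ : B →+* Λ) (algebraMap Λ B c) = c := fun c => φ.commutes c
      rw [map_sub, map_mul, hc, ← hv, mul_assoc, Units.inv_mul, mul_one, sub_self]
    rw [h0]
    exact dvd_zero π
  obtain ⟨X, Y, H, σ, c, hσ, hX, hY, hXY⟩ :=
    ngbB_base_aux π π x y G hxy (φ : B →+* Λ) 𝔪 hmem (Localization.AtPrime 𝔪) hgen_b hres_b K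
  exact ⟨X, Y, H, σ, c, fun h => hσ ((hmem σ).mp h), hX, hY, hXY⟩

end PT

end Fermat.Agent.S35
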