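import Mathlib
import Fermat.Agent.S34.AbsLP
import Fermat.Agent.S34.AbsHR
import Fermat.Agent.S34.AbsPlaceComp
import Fermat.Agent.S34.ModelDefs
import Fermat.Agent.S35.F1Ctrick
import Fermat.Agent.S35.F1CrossProd
import Fermat.Agent.S35.F1CrossVert

/-!
# P20 (S35), block F1, NOFT leaf NB (third team)

`s35f1n_cross_prod_C`: crossing point, product step with places of both types (copy of
`S35/F1CrossProd.lean` with a symmetric multiplicative predicate).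
-/

set_option autoImplicit false
set_option linter.unusedSectionVars false

namespace Fermat.Agent.S35

open IsDedekindDomain
open Fermat.Agent.S34

/-- Product of two approximations `f A' ≈ A Y ^ N`. -/
theorem s35f1nbC_mul {F Γ : Type*} [Field F] [LinearOrderedCommGroupWithZero Γ]
    (w : Valuation F Γ) {f f' A A' B B' Yv : F} (N N' : ℤ) (hY0 : Yv ≠ 0)
    (h : w (f * A' - A * Yv ^ N) < w (A * Yv ^ N))
    (h' : w (f' * B' - B * Yv ^ N') < w (B * Yv ^ N')) :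
    w (f * f' * (A' * B') - A * B * Yv ^ (N + N')) < w (A * B * Yv ^ (N + N')) := by
  have e : A * B * Yv ^ (N + N') = (A * Yv ^ N) * (B * Yv ^ N') := by
    rw [zpow_add₀ hY0]
    ring
  rw [e]
  exact s35f1d_w_mul w h h'

/-- Inverse of an approximation `f A' ≈ A Y ^ N` (`Y` a unit for `w`). -/
theorem s35f1nbC_inv {F Γ : Type*} [Field F] [LinearOrderedCommGroupWithZero Γ]
    (w : Valuation F Γ) {f A A' Yv : F} (N : ℤ) (hY : w Yv = 1)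
    (h : w (f * A' - A * Yv ^ N) < w (A * Yv ^ N)) :
    w (f⁻¹ * A - A' * Yv ^ (-N)) < w (A' * Yv ^ (-N)) := by
  have hY0 : Yv ≠ 0 := (Valuation.ne_zero_iff w).1 (by rw [hY]; exact one_ne_zero)
  have hYN : Yv ^ N ≠ 0 := zpow_ne_zero N hY0
  have h1 := s35f1d_w_inv w h
  have e : f⁻¹ * A - A' * Yv ^ (-N) = (f⁻¹ * (A * Yv ^ N) - A') * Yv ^ (-N) := by
    rw [zpow_neg]
    field_simp
  rw [e, map_mul, map_mul w A', map_zpow₀, hY, one_zpow, mul_one, mul_one]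
  exact h1

section PT

variable {Bη F : Type*} [CommRing Bη] [IsDedekindDomain Bη] [Field F] [Algebra Bη F]
  [IsFractionRing Bη F]
  {Λ B : Type*} [CommRing Λ] [IsDomain Λ] [IsDiscreteValuationRing Λ] [Algebra Λ F]
  [CommRing B] [IsNoetherianRing B] [Algebra B F] [Algebra Λ B] [IsScalarTower Λ B F]

/-- (NB = GD1, third team) crossing point, product step with places of both types. -/
theorem s35f1n_cross_prod_C
    {Γ₁ Γ₂ : Type*} [LinearOrderedCommGroupWithZero Γ₁] [LinearOrderedCommGroupWithZero Γ₂]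
    (ι : B →+* Bη) (𝔪 : Ideal B) (w₁ : Valuation F Γ₁) (w₂ : Valuation F Γ₂)
    (m : ℕ) {u : F} (hu : u ≠ 0)
    (hdiv : ∀ 𝔔 ∈ absThrough ι 𝔪, ∃ n : ℤ, 𝔔.valuation F u = WithZero.exp ((m : ℤ) * n))
    (x y : B) (hx₂ : w₂ (algebraMap B F x) = 1) (hy₁ : w₁ (algebraMap B F y) = 1)
    (hlp : ∀ 𝔔 ∈ absThrough ι 𝔪, 𝔔.valuation F u ≠ 1 →
      (∃ (h : F) (a : Λ), a ≠ 0 ∧ w₁ (h - algebraMap Λ F a) < w₁ (algebraMap Λ F a) ∧
        w₂ (h - algebraMap B F x) < 1 ∧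
        𝔔.valuation F h = WithZero.exp (-1 : ℤ) ∧
        ∀ 𝔔' ∈ absThrough ι 𝔪, 𝔔' ≠ 𝔔 → 𝔔'.valuation F h = 1) ∨
      (∃ (h : F) (b : Λ), b ≠ 0 ∧ w₂ (h - algebraMap Λ F b) < w₂ (algebraMap Λ F b) ∧
        w₁ (h - algebraMap B F y) < 1 ∧
        𝔔.valuation F h = WithZero.exp (-1 : ℤ) ∧
        ∀ 𝔔' ∈ absThrough ι 𝔪, 𝔔' ≠ 𝔔 → 𝔔'.valuation F h = 1)) :
    ∃ (g : F) (a a' b b' : Λ) (N₁ N₂ : ℤ), g ≠ 0 ∧ a ≠ 0 ∧ a' ≠ 0 ∧ b ≠ 0 ∧ b' ≠ 0 ∧
      w₁ (g * algebraMap Λ F a' - algebraMap Λ F a * algebraMap B F y ^ N₁)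
        < w₁ (algebraMap Λ F a) ∧
      w₂ (g * algebraMap Λ F b' - algebraMap Λ F b * algebraMap B F x ^ N₂)
        < w₂ (algebraMap Λ F b) ∧
      ∀ 𝔔 ∈ absThrough ι 𝔪, 𝔔.valuation F (u / g ^ m) = 1 := by
  have hx0 : algebraMap B F x ≠ 0 :=
    (Valuation.ne_zero_iff w₂).1 (by rw [hx₂]; exact one_ne_zero)
  have hy0 : algebraMap B F y ≠ 0 :=
    (Valuation.ne_zero_iff w₁).1 (by rw [hy₁]; exact one_ne_zero)
  let Q : F → Prop := fun f =>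
    (∃ (a a' : Λ) (N₁ : ℤ), a ≠ 0 ∧ a' ≠ 0 ∧
      w₁ (f * algebraMap Λ F a' - algebraMap Λ F a * algebraMap B F y ^ N₁)
        < w₁ (algebraMap Λ F a * algebraMap B F y ^ N₁)) ∧
    ∃ (b b' : Λ) (N₂ : ℤ), b ≠ 0 ∧ b' ≠ 0 ∧
      w₂ (f * algebraMap Λ F b' - algebraMap Λ F b * algebraMap B F x ^ N₂)
        < w₂ (algebraMap Λ F b * algebraMap B F x ^ N₂)
  have hQ1 : Q 1 := by
    refine ⟨⟨1, 1, 0, one_ne_zero, one_ne_zero, ?_⟩, 1, 1, 0, one_ne_zero, one_ne_zero, ?_⟩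
    · rw [map_one, mul_one, zpow_zero, mul_one, sub_self, map_zero, map_one]
      exact zero_lt_one
    · rw [map_one, mul_one, zpow_zero, mul_one, sub_self, map_zero, map_one]
      exact zero_lt_one
  have hQmul : ∀ f f' : F, Q f → Q f' → Q (f * f') := by
    rintro f f' ⟨⟨a, a', N, ha, ha', h1⟩, b, b', M, hb, hb', h2⟩
      ⟨⟨c, c', N', hc, hc', h1'⟩, d, d', M', hd, hd', h2'⟩
    refine ⟨⟨a * c, a' * c', N + N', mul_ne_zero ha hc, mul_ne_zero ha' hc', ?_⟩,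
      b * d, b' * d', M + M', mul_ne_zero hb hd, mul_ne_zero hb' hd', ?_⟩
    · rw [map_mul (algebraMap Λ F) a' c', map_mul (algebraMap Λ F) a c]
      exact s35f1nbC_mul w₁ N N' hy0 h1 h1'
    · rw [map_mul (algebraMap Λ F) b' d', map_mul (algebraMap Λ F) b d]
      exact s35f1nbC_mul w₂ M M' hx0 h2 h2'
  have hQinv : ∀ f : F, Q f → Q f⁻¹ := by
    rintro f ⟨⟨a, a', N, ha, ha', h1⟩, b, b', M, hb, hb', h2⟩
    exact ⟨⟨a', a, -N, ha', ha, s35f1nbC_inv w₁ N hy₁ h1⟩,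
      b', b, -M, hb', hb, s35f1nbC_inv w₂ M hx₂ h2⟩
  obtain ⟨h0, hh0, ⟨⟨a, a', N₁, ha, ha', h1⟩, b, b', N₂, hb, hb', h2⟩, hval⟩ :=
    s35f1_lp_pred (absThrough ι 𝔪) Q hQ1 hQmul hQinv m u hu hdiv (by
      intro 𝔔 h𝔔 hne
      rcases hlp 𝔔 h𝔔 hne with ⟨h, a, ha, h1, h2, h3, h4⟩ | ⟨h, b, hb, h1, h2, h3, h4⟩
      · refine ⟨h, ⟨⟨a, 1, 0, ha, one_ne_zero, ?_⟩, 1, 1, 1, one_ne_zero, one_ne_zero, ?_⟩,
          h3, h4⟩
        · rw [map_one, mul_one, zpow_zero, mul_one]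
          exact h1
        · rw [map_one, mul_one, one_mul, zpow_one, hx₂]
          exact h2
      · refine ⟨h, ⟨⟨1, 1, 1, one_ne_zero, one_ne_zero, ?_⟩, b, 1, 0, hb, one_ne_zero, ?_⟩,
          h3, h4⟩
        · rw [map_one, mul_one, one_mul, zpow_one, hy₁]
          exact h2
        · rw [map_one, mul_one, zpow_zero, mul_one]
          exact h1)
  have e1 : w₁ (algebraMap Λ F a * algebraMap B F y ^ N₁) = w₁ (algebraMap Λ F a) := by
    rw [map_mul, map_zpow₀, hy₁, one_zpow, mul_one]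
  have e2 : w₂ (algebraMap Λ F b * algebraMap B F x ^ N₂) = w₂ (algebraMap Λ F b) := by
    rw [map_mul, map_zpow₀, hx₂, one_zpow, mul_one]
  rw [e1] at h1
  rw [e2] at h2
  exact ⟨h0, a, a', b, b', N₁, N₂, hh0, ha, ha', hb, hb', h1, h2, hval⟩

end PT

end Fermat.Agent.S35
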