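import Mathlib
import Fermat.Agent.S34.AbsLP
import Fermat.Agent.S34.AbsHR
import Fermat.Agent.S34.AbsPlaceComp
import Fermat.Agent.S34.ModelDefs
import Fermat.Agent.S35.F1Ctrick
import Fermat.Agent.S35.F1CrossProd
import Fermat.Agent.S35.F1CrossVert

/-!
# P20 (S35), block F1, NOFT leaf NC2 (second team): the balanced case

If the normalised mixed product `g₁` is congruent to `c₁ y ^ N₁` at `w₁` and to `c₂ x ^ N₂` at
`w₂` (`c₁`, `c₂` units of `Λ`), then both exponents vanish and `g₁ / c₂` has the shape of the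
output of F1-D2.
-/

set_option autoImplicit false

namespace Fermat.Agent.S35

open IsDedekindDomain
open Fermat.Agent.S34

section Aux

variable {F Γ B : Type*} [Field F] [LinearOrderedCommGroupWithZero Γ] [CommRing B] [Algebra B F]

/-- If `d f = e` with `d ∉ 𝔪` and `f z ≡ 1` at `w` for some `z ∈ 𝔪`, contradiction. -/
theorem s35f1nbB_excl (𝔪 : Ideal B) (w : Valuation F Γ)
    (hwB : ∀ b : B, w (algebraMap B F b) ≤ 1)
    (h𝔪 : ∀ b : B, w (algebraMap B F b) < 1 → b ∈ 𝔪)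
    (f : F) (d e : B) (hd : d ∉ 𝔪) (he : algebraMap B F e = algebraMap B F d * f)
    (z : B) (hz : z ∈ 𝔪) (hfz : w (f * algebraMap B F z - 1) < 1) : False := by
  have h1 : e * z - d ∈ 𝔪 := by
    apply h𝔪
    have e1 : algebraMap B F (e * z - d) = algebraMap B F d * (f * algebraMap B F z - 1) := by
      rw [map_sub, map_mul, he]
      ring
    rw [e1, map_mul]
    exact s35f1d2_mul_lt_one (hwB d) hfz
  have h2 : d ∈ 𝔪 := by
    have h3 := 𝔪.sub_mem (𝔪.mul_mem_left e hz) h1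
    rwa [sub_sub_cancel] at h3
  exact hd h2

/-- The exponent at one vertical valuation vanishes. -/
theorem s35f1nbB_exp_zero (𝔪 : Ideal B) (w : Valuation F Γ)
    (hwB : ∀ b : B, w (algebraMap B F b) ≤ 1)
    (h𝔪 : ∀ b : B, w (algebraMap B F b) < 1 → b ∈ 𝔪)
    (m : ℕ) (hm : m ≠ 0) {u : F} (hu : w (u - 1) < 1)
    (t : B) (ht𝔪 : t ∈ 𝔪) (ht : w (algebraMap B F t) = 1)
    (c c' : B) (hcc' : c * c' = 1)
    (g₁ : F) (N : ℤ) (hg₁0 : g₁ ≠ 0)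
    (h : w (g₁ - algebraMap B F c * algebraMap B F t ^ N) < 1)
    (d e : B) (hd : d ∉ 𝔪) (he : algebraMap B F e = algebraMap B F d * (u / g₁ ^ m))
    (d' e' : B) (hd' : d' ∉ 𝔪)
    (he' : algebraMap B F e' = algebraMap B F d' * (u / g₁ ^ m)⁻¹) :
    N = 0 := by
  have hCC' : algebraMap B F c * algebraMap B F c' = 1 := by rw [← map_mul, hcc', map_one]
  have hC : w (algebraMap B F c) = 1 :=
    s35f1d2_eq_one_of_mul (hwB c) (hwB c') (by rw [← map_mul, hCC', map_one])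
  have hC0 : algebraMap B F c ≠ 0 := by
    intro h0
    rw [h0, map_zero] at hC
    exact zero_ne_one hC
  have hT0 : algebraMap B F t ≠ 0 := by
    intro h0
    rw [h0, map_zero] at ht
    exact zero_ne_one ht
  have hu0 : u ≠ 0 := s35f1d2_ou_ne w hu
  have hC'eq : algebraMap B F c' = (algebraMap B F c)⁻¹ := eq_inv_of_mul_eq_one_right hCC'
  by_contra hN
  rcases lt_or_gt_of_ne hN with hlt | hgt
  · obtain ⟨n, rfl⟩ : ∃ n : ℕ, N = -(n : ℤ) := ⟨(-N).toNat, by omega⟩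
    have hn : n ≠ 0 := by omega
    rw [zpow_neg, zpow_natCast] at h
    have hr : w (g₁ * algebraMap B F t ^ n / algebraMap B F c - 1) < 1 := by
      have e1 : g₁ * algebraMap B F t ^ n / algebraMap B F c - 1
          = (g₁ - algebraMap B F c * (algebraMap B F t ^ n)⁻¹)
            * (algebraMap B F t ^ n / algebraMap B F c) := by
        field_simp
      rw [e1, map_mul, map_div₀, map_pow, ht, one_pow, hC, div_one, mul_one]
      exact h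
    refine s35f1nbB_excl 𝔪 w hwB h𝔪 ((u / g₁ ^ m)⁻¹) d' e' hd' he' (c' ^ m * t ^ (n * m))
      (𝔪.mul_mem_left _ (𝔪.pow_mem_of_mem ht𝔪 _
        (Nat.pos_of_ne_zero (Nat.mul_ne_zero hn hm)))) ?_
    have e2 : (u / g₁ ^ m)⁻¹ * algebraMap B F (c' ^ m * t ^ (n * m)) - 1
        = u⁻¹ * (g₁ * algebraMap B F t ^ n / algebraMap B F c) ^ m - 1 := by
      rw [map_mul, map_pow, map_pow, hC'eq, pow_mul]
      simp only [inv_div, div_pow, inv_pow, mul_pow]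
      field_simp
    rw [e2]
    exact s35f1d2_ou_mul w (s35f1d2_ou_inv w hu) (s35f1d2_ou_pow w hr m)
  · obtain ⟨n, rfl⟩ : ∃ n : ℕ, N = (n : ℤ) := ⟨N.toNat, by omega⟩
    have hn : n ≠ 0 := by omega
    rw [zpow_natCast] at h
    have hr : w (g₁ / (algebraMap B F c * algebraMap B F t ^ n) - 1) < 1 := by
      have e1 : g₁ / (algebraMap B F c * algebraMap B F t ^ n) - 1
          = (g₁ - algebraMap B F c * algebraMap B F t ^ n)
            / (algebraMap B F c * algebraMap B F t ^ n) := by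
        field_simp
      rw [e1, map_div₀, map_mul, map_pow, ht, one_pow, hC, mul_one, div_one]
      exact h
    refine s35f1nbB_excl 𝔪 w hwB h𝔪 (u / g₁ ^ m) d e hd he (c ^ m * t ^ (n * m))
      (𝔪.mul_mem_left _ (𝔪.pow_mem_of_mem ht𝔪 _
        (Nat.pos_of_ne_zero (Nat.mul_ne_zero hn hm)))) ?_
    have e2 : u / g₁ ^ m * algebraMap B F (c ^ m * t ^ (n * m)) - 1
        = u * ((g₁ / (algebraMap B F c * algebraMap B F t ^ n))⁻¹) ^ m - 1 := by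
      rw [map_mul, map_pow, map_pow, pow_mul]
      simp only [inv_div, div_pow, mul_pow]
      field_simp
    rw [e2]
    exact s35f1d2_ou_mul w hu (s35f1d2_ou_pow w (s35f1d2_ou_inv w hr) m)

end Aux

section PT

variable {Bη F : Type*} [CommRing Bη] [IsDedekindDomain Bη] [Field F] [Algebra Bη F]
  [IsFractionRing Bη F]
  {Λ B : Type*} [CommRing Λ] [IsDomain Λ] [IsDiscreteValuationRing Λ] [Algebra Λ F]
  [CommRing B] [IsNoetherianRing B] [Algebra B F] [Algebra Λ B] [IsScalarTower Λ B F]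

/-- (NC2) the balanced case: both exponents vanish and the datum has the shape of the output of
F1-D2. -/
theorem s35f1n_balanced_B
    {Γ₁ Γ₂ : Type*} [LinearOrderedCommGroupWithZero Γ₁] [LinearOrderedCommGroupWithZero Γ₂]
    (ι : B →+* Bη) (hι : ∀ b : B, algebraMap Bη F (ι b) = algebraMap B F b)
    (𝔪 : Ideal B) [𝔪.IsPrime] (π : Λ) (hπ : Irreducible π)
    (hπu : IsUnit (ι (algebraMap Λ B π))) (V : Subring F)
    (hBV : ∀ b : B, IsIntegral V (algebraMap B F b))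
    (hK : ∀ y : Bη, IsIntegral V (algebraMap Bη F y) →
      ∃ b : B, algebraMap B F b = algebraMap Bη F y)
    (w₁ : Valuation F Γ₁) (w₂ : Valuation F Γ₂)
    (hVw : ∀ f : F, IsIntegral V f ↔ w₁ f ≤ 1 ∧ w₂ f ≤ 1)
    (hπ₁ : w₁ (algebraMap Λ F π) < 1) (hπ₂ : w₂ (algebraMap Λ F π) < 1)
    (h𝔪₁ : ∀ b : B, w₁ (algebraMap B F b) < 1 → b ∈ 𝔪)
    (h𝔪₂ : ∀ b : B, w₂ (algebraMap B F b) < 1 → b ∈ 𝔪)
    (m : ℕ) (hm : m ≠ 0) {u : F} (hu : u ≠ 0)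
    (hu1 : ∃ δ : F, IsIntegral V δ ∧ u - 1 = π • δ)
    (x y : B) (hx𝔪 : x ∈ 𝔪) (hy𝔪 : y ∈ 𝔪)
    (hx₂ : w₂ (algebraMap B F x) = 1) (hy₁ : w₁ (algebraMap B F y) = 1)
    (g₁ : F) (c₁ c₂ : Λ) (N₁ N₂ : ℤ) (hg₁0 : g₁ ≠ 0) (hc₁ : IsUnit c₁) (hc₂ : IsUnit c₂)
    (h₁ : w₁ (g₁ - algebraMap Λ F c₁ * algebraMap B F y ^ N₁) < 1)
    (h₂ : w₂ (g₁ - algebraMap Λ F c₂ * algebraMap B F x ^ N₂) < 1)
    (hval : ∀ 𝔔 ∈ absThrough ι 𝔪, 𝔔.valuation F (u / g₁ ^ m) = 1) :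
    ∃ (g' : F) (c : Λ), g' ≠ 0 ∧ IsUnit c ∧ w₁ (g' - algebraMap Λ F c) < 1 ∧
      w₂ (g' - 1) < 1 ∧ ∀ 𝔔 ∈ absThrough ι 𝔪, 𝔔.valuation F (u / g' ^ m) = 1 := by
  obtain ⟨δ, hδV, hδ⟩ := hu1
  have hΛF : ∀ c : Λ, algebraMap Λ F c = algebraMap B F (algebraMap Λ B c) :=
    fun c => IsScalarTower.algebraMap_apply Λ B F c
  have hB : ∀ b : B, w₁ (algebraMap B F b) ≤ 1 ∧ w₂ (algebraMap B F b) ≤ 1 :=
    fun b => (hVw _).1 (hBV b)
  have hu₁ : w₁ (u - 1) < 1 := by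
    rw [hδ, Algebra.smul_def, map_mul, mul_comm]
    exact s35f1d2_mul_lt_one ((hVw δ).1 hδV).1 hπ₁
  have hu₂ : w₂ (u - 1) < 1 := by
    rw [hδ, Algebra.smul_def, map_mul, mul_comm]
    exact s35f1d2_mul_lt_one ((hVw δ).1 hδV).2 hπ₂
  obtain ⟨v₁, rfl⟩ := hc₁
  obtain ⟨v₂, rfl⟩ := hc₂
  have hv₁ : (v₁ : Λ) * ((v₁⁻¹ : Λˣ) : Λ) = 1 := Units.mul_inv v₁
  have hv₂ : (v₂ : Λ) * ((v₂⁻¹ : Λˣ) : Λ) = 1 := Units.mul_inv v₂
  have hΛu : ∀ v : Λˣ, w₁ (algebraMap Λ F (v : Λ)) = 1 ∧ w₂ (algebraMap Λ F (v : Λ)) = 1 := by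
    intro v
    have e : algebraMap Λ F (v : Λ) * algebraMap Λ F ((v⁻¹ : Λˣ) : Λ) = 1 := by
      rw [← map_mul, Units.mul_inv, map_one]
    have e1 : w₁ (algebraMap Λ F (v : Λ)) * w₁ (algebraMap Λ F ((v⁻¹ : Λˣ) : Λ)) = 1 := by
      rw [← map_mul, e, map_one]
    have e2 : w₂ (algebraMap Λ F (v : Λ)) * w₂ (algebraMap Λ F ((v⁻¹ : Λˣ) : Λ)) = 1 := by
      rw [← map_mul, e, map_one]
    refine ⟨s35f1d2_eq_one_of_mul ?_ ?_ e1, s35f1d2_eq_one_of_mul ?_ ?_ e2⟩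
    · rw [hΛF]; exact (hB _).1
    · rw [hΛF]; exact (hB _).1
    · rw [hΛF]; exact (hB _).2
    · rw [hΛF]; exact (hB _).2
  -- the vertical valuations of `g₁`
  have hgw₁ : w₁ g₁ = 1 := by
    have e : w₁ (algebraMap Λ F (v₁ : Λ) * algebraMap B F y ^ N₁) = 1 := by
      rw [map_mul, map_zpow₀, hy₁, one_zpow, mul_one, (hΛu v₁).1]
    rw [← e]
    exact s35f1d_eq_of_sub_lt w₁ (by rw [e]; exact h₁)
  have hgw₂ : w₂ g₁ = 1 := by
    have e : w₂ (algebraMap Λ F (v₂ : Λ) * algebraMap B F x ^ N₂) = 1 := by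
      rw [map_mul, map_zpow₀, hx₂, one_zpow, mul_one, (hΛu v₂).2]
    rw [← e]
    exact s35f1d_eq_of_sub_lt w₂ (by rw [e]; exact h₂)
  -- `E = u / g₁ ^ m` and its inverse are integral without horizontal order
  have hEw₁ : w₁ (u / g₁ ^ m) = 1 := by
    rw [map_div₀, map_pow, hgw₁, one_pow, div_one, s35f1d2_ou_val w₁ hu₁]
  have hEw₂ : w₂ (u / g₁ ^ m) = 1 := by
    rw [map_div₀, map_pow, hgw₂, one_pow, div_one, s35f1d2_ou_val w₂ hu₂]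
  have hEV : IsIntegral V (u / g₁ ^ m) := (hVw _).2 ⟨hEw₁.le, hEw₂.le⟩
  have hEV' : IsIntegral V (u / g₁ ^ m)⁻¹ :=
    (hVw _).2 ⟨by rw [map_inv₀, hEw₁, inv_one], by rw [map_inv₀, hEw₂, inv_one]⟩
  obtain ⟨d, hd, e, he⟩ := s35f1_ctrick ι hι 𝔪 V hBV hK (u / g₁ ^ m) hEV
    (fun 𝔔 h𝔔 => (hval 𝔔 h𝔔).le)
  obtain ⟨d', hd', e', he'⟩ := s35f1_ctrick ι hι 𝔪 V hBV hK (u / g₁ ^ m)⁻¹ hEV'
    (fun 𝔔 h𝔔 => by rw [map_inv₀, hval 𝔔 h𝔔, inv_one])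
  -- both exponents vanish
  have hN₁ : N₁ = 0 :=
    s35f1nbB_exp_zero 𝔪 w₁ (fun b => (hB b).1) h𝔪₁ m hm hu₁ y hy𝔪 hy₁
      (algebraMap Λ B (v₁ : Λ)) (algebraMap Λ B ((v₁⁻¹ : Λˣ) : Λ))
      (by rw [← map_mul, hv₁, map_one]) g₁ N₁ hg₁0 (by rw [← hΛF]; exact h₁)
      d e hd he d' e' hd' he'
  have hN₂ : N₂ = 0 :=
    s35f1nbB_exp_zero 𝔪 w₂ (fun b => (hB b).2) h𝔪₂ m hm hu₂ x hx𝔪 hx₂
      (algebraMap Λ B (v₂ : Λ)) (algebraMap Λ B ((v₂⁻¹ : Λˣ) : Λ))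
      (by rw [← map_mul, hv₂, map_one]) g₁ N₂ hg₁0 (by rw [← hΛF]; exact h₂)
      d e hd he d' e' hd' he'
  subst hN₁
  subst hN₂
  rw [zpow_zero, mul_one] at h₁ h₂
  have hC₂0 : algebraMap Λ F (v₂ : Λ) ≠ 0 := by
    intro h0
    have h3 := (hΛu v₂).1
    rw [h0, map_zero] at h3
    exact zero_ne_one h3
  refine ⟨g₁ / algebraMap Λ F (v₂ : Λ), (v₁ : Λ) * ((v₂⁻¹ : Λˣ) : Λ),
    div_ne_zero hg₁0 hC₂0, (Units.isUnit v₁).mul (Units.isUnit v₂⁻¹), ?_, ?_, ?_⟩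
  · have hinv : algebraMap Λ F ((v₂⁻¹ : Λˣ) : Λ) = (algebraMap Λ F (v₂ : Λ))⁻¹ :=
      eq_inv_of_mul_eq_one_right (by rw [← map_mul, hv₂, map_one])
    have e1 : g₁ / algebraMap Λ F (v₂ : Λ) - algebraMap Λ F ((v₁ : Λ) * ((v₂⁻¹ : Λˣ) : Λ))
        = (g₁ - algebraMap Λ F (v₁ : Λ)) / algebraMap Λ F (v₂ : Λ) := by
      rw [map_mul, hinv]
      field_simp
    rw [e1, map_div₀, (hΛu v₂).1, div_one]
    exact h₁
  · have e1 : g₁ / algebraMap Λ F (v₂ : Λ) - 1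
        = (g₁ - algebraMap Λ F (v₂ : Λ)) / algebraMap Λ F (v₂ : Λ) := by
      field_simp
    rw [e1, map_div₀, (hΛu v₂).2, div_one]
    exact h₂
  · intro 𝔔 h𝔔
    have hQ : 𝔔.valuation F (algebraMap Λ F (v₂ : Λ)) = 1 := by
      rw [hΛF, ← hι]
      exact s35f1d2_val_unit _ (((Units.isUnit v₂).map _).map _) 𝔔
    have e1 : u / (g₁ / algebraMap Λ F (v₂ : Λ)) ^ m
        = (u / g₁ ^ m) * algebraMap Λ F (v₂ : Λ) ^ m := by
      rw [div_pow]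
      field_simp
    rw [e1, map_mul, hval 𝔔 h𝔔, map_pow, hQ, one_pow, one_mul]

end PT

end Fermat.Agent.S35
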