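import Mathlib
import Fermat.Agent.S34.AbsLP
import Fermat.Agent.S34.AbsHR
import Fermat.Agent.S34.AbsPlaceComp
import Fermat.Agent.S34.ModelDefs
import Fermat.Agent.S35.F1Ctrick
import Fermat.Agent.S35.F1CrossProd
import Fermat.Agent.S35.F1CrossVert

set_option autoImplicit false

/-!
P20 (S35), block F1, NOFT crossing package, leaf NC3: in the unbalanced case `u` yields a
thickness certificate `φ₀` (unit at `w₁`, order `n > 0` at `w₂`, no horizontal order at `𝔪`).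
-/

namespace Fermat.Agent.S35

open IsDedekindDomain
open Fermat.Agent.S34

/-- A one-unit has valuation `1`. -/
theorem s35f1nc3_one_unit {F Γ : Type*} [Field F] [LinearOrderedCommGroupWithZero Γ]
    (w : Valuation F Γ) {u : F} (h : w (u - 1) < 1) : w u = 1 := by
  have h1 := Valuation.map_one_add_of_lt (v := w) h
  rwa [add_sub_cancel] at h1

section PT

set_option linter.unusedSectionVars false

variable {Bη F : Type*} [CommRing Bη] [IsDedekindDomain Bη] [Field F] [Algebra Bη F]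
  [IsFractionRing Bη F]
  {Λ B : Type*} [CommRing Λ] [IsDomain Λ] [IsDiscreteValuationRing Λ] [Algebra Λ F]
  [CommRing B] [IsNoetherianRing B] [Algebra B F] [Algebra Λ B] [IsScalarTower Λ B F]

/-- (NC3, file `S35/F1nCert.lean`) the unbalanced case: `u` yields a thickness certificate. -/
theorem s35f1n_cert
    {Γ₁ Γ₂ : Type*} [LinearOrderedCommGroupWithZero Γ₁] [LinearOrderedCommGroupWithZero Γ₂]
    (ι : B →+* Bη) (𝔪 : Ideal B) (π : Λ)
    (w₁ : Valuation F Γ₁) (w₂ : Valuation F Γ₂)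
    (m : ℕ) (hm : m ≠ 0) {u : F} (hu₁ : w₁ (u - 1) < 1) (hu₂ : w₂ (u - 1) < 1)
    (g₁ : F) (p : ℤ) (hp : p ≠ 0) (hw₁ : w₁ g₁ = 1)
    (hw₂ : w₂ g₁ = w₂ (algebraMap Λ F π) ^ p)
    (hval : ∀ 𝔔 ∈ absThrough ι 𝔪, 𝔔.valuation F (u / g₁ ^ m) = 1) :
    ∃ (φ₀ : F) (n : ℕ), 0 < n ∧ w₁ φ₀ = 1 ∧ w₂ φ₀ = w₂ (algebraMap Λ F π) ^ n ∧
      ∀ 𝔔 ∈ absThrough ι 𝔪, 𝔔.valuation F φ₀ = 1 := by
  have h1 : w₁ u = 1 := s35f1nc3_one_unit w₁ hu₁
  have h2 : w₂ u = 1 := s35f1nc3_one_unit w₂ hu₂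
  have hm0 : 0 < m := Nat.pos_of_ne_zero hm
  rcases lt_or_gt_of_ne hp with hneg | hpos
  · -- `p < 0`
    obtain ⟨k, hk⟩ := Int.eq_ofNat_of_zero_le (neg_nonneg.mpr hneg.le)
    have hk0 : 0 < k := by omega
    have hpk : p = -(k : ℤ) := by omega
    refine ⟨u / g₁ ^ m, k * m, Nat.mul_pos hk0 hm0, ?_, ?_, hval⟩
    · rw [map_div₀, map_pow, h1, hw₁, one_pow, div_one]
    · rw [map_div₀, map_pow, h2, hw₂, hpk, zpow_neg, zpow_natCast, inv_pow, one_div, inv_inv,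
        pow_mul]
  · -- `0 < p`
    obtain ⟨k, hk⟩ := Int.eq_ofNat_of_zero_le hpos.le
    have hk0 : 0 < k := by omega
    refine ⟨g₁ ^ m / u, k * m, Nat.mul_pos hk0 hm0, ?_, ?_, ?_⟩
    · rw [map_div₀, map_pow, h1, hw₁, one_pow, div_one]
    · rw [map_div₀, map_pow, h2, hw₂, hk, zpow_natCast, div_one, pow_mul]
    · intro 𝔔 h𝔔
      have h3 := hval 𝔔 h𝔔
      rw [← inv_div, map_inv₀, h3, inv_one]

end PT

end Fermat.Agent.S35
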