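import Mathlib
import Fermat.Agent.S34.AbsLP
import Fermat.Agent.S34.AbsHR
import Fermat.Agent.S34.AbsPlaceComp
import Fermat.Agent.S34.ModelDefs
import Fermat.Agent.S35.F1Ctrick
import Fermat.Agent.S35.F1CrossProd
import Fermat.Agent.S35.F1CrossVert

/-!
P20 (S35), NOFT crossing package, leaf NC1: normalisation of the mixed product by a power of
the uniformiser `π`.
-/

set_option autoImplicit false
set_option linter.unusedSectionVars false
set_option linter.unusedVariables false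

namespace Fermat.Agent.S35

open IsDedekindDomain
open Fermat.Agent.S34

/-- One vertical valuation: dividing `g a' - a t` (`a = v π ^ k`, `a' = v' π ^ k'`) by `a'` and
multiplying by `π ^ e`. -/
theorem s35f1nc1_scale {F : Type*} [Field F] {Γ : Type*} [LinearOrderedCommGroupWithZero Γ]
    (w : Valuation F Γ)
    (P A A' g t : F) (k k' : ℕ) (e : ℤ) (hP : P ≠ 0) (hA : w A = 1) (hA' : w A' = 1)
    (h : w (g * (A' * P ^ k') - (A * P ^ k) * t) < w (A * P ^ k)) :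
    w (g * P ^ e - (A * A'⁻¹) * P ^ (((k : ℤ) - k') + e) * t) < w P ^ (((k : ℤ) - k') + e) := by
  have hA'0 : A' ≠ 0 := fun h0 => by rw [h0, map_zero] at hA'; exact zero_ne_one hA'
  have hwP : w P ≠ 0 := (Valuation.ne_zero_iff w).mpr hP
  have hpos : 0 < (w P ^ k')⁻¹ * w P ^ e :=
    zero_lt_iff.mpr (mul_ne_zero (inv_ne_zero (pow_ne_zero _ hwP)) (zpow_ne_zero _ hwP))
  have e1 : g * P ^ e - (A * A'⁻¹) * P ^ (((k : ℤ) - k') + e) * t =
      (g * (A' * P ^ k') - (A * P ^ k) * t) * ((A' * P ^ k')⁻¹ * P ^ e) := by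
    rw [zpow_add₀ hP, zpow_sub₀ hP, zpow_natCast, zpow_natCast]
    field_simp
  have e2 : w (A * P ^ k) * ((w P ^ k')⁻¹ * w P ^ e) = w P ^ (((k : ℤ) - k') + e) := by
    rw [map_mul, hA, one_mul, map_pow, zpow_add₀ hwP, zpow_sub₀ hwP, zpow_natCast, zpow_natCast,
      div_eq_mul_inv, mul_assoc]
  rw [e1, map_mul, map_mul, map_inv₀, map_mul, hA', one_mul, map_pow, map_zpow₀, ← e2]
  exact mul_lt_mul_of_pos_right h hpos

section PT

variable {Bη F : Type*} [CommRing Bη] [IsDedekindDomain Bη] [Field F] [Algebra Bη F]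
  [IsFractionRing Bη F]
  {Λ B : Type*} [CommRing Λ] [IsDomain Λ] [IsDiscreteValuationRing Λ] [Algebra Λ F]
  [CommRing B] [IsNoetherianRing B] [Algebra B F] [Algebra Λ B] [IsScalarTower Λ B F]

/-- (NC1, file `S35/F1nNorm.lean`) normalisation of the mixed product by a power of `π`. -/
theorem s35f1n_normalise
    {Γ₁ Γ₂ : Type*} [LinearOrderedCommGroupWithZero Γ₁] [LinearOrderedCommGroupWithZero Γ₂]
    (ι : B →+* Bη) (hι : ∀ b : B, algebraMap Bη F (ι b) = algebraMap B F b)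
    (𝔪 : Ideal B) (π : Λ) (hπ : Irreducible π)
    (hπu : IsUnit (ι (algebraMap Λ B π))) (V : Subring F)
    (hBV : ∀ b : B, IsIntegral V (algebraMap B F b))
    (w₁ : Valuation F Γ₁) (w₂ : Valuation F Γ₂)
    (hVw : ∀ f : F, IsIntegral V f ↔ w₁ f ≤ 1 ∧ w₂ f ≤ 1)
    (m : ℕ) {u : F}
    (x y : B) (hx₂ : w₂ (algebraMap B F x) = 1) (hy₁ : w₁ (algebraMap B F y) = 1)
    (g : F) (a a' b b' : Λ) (N₁ N₂ : ℤ) (hg : g ≠ 0) (ha : a ≠ 0) (ha' : a' ≠ 0)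
    (hb : b ≠ 0) (hb' : b' ≠ 0)
    (hg₁ : w₁ (g * algebraMap Λ F a' - algebraMap Λ F a * algebraMap B F y ^ N₁)
      < w₁ (algebraMap Λ F a))
    (hg₂ : w₂ (g * algebraMap Λ F b' - algebraMap Λ F b * algebraMap B F x ^ N₂)
      < w₂ (algebraMap Λ F b))
    (hval : ∀ 𝔔 ∈ absThrough ι 𝔪, 𝔔.valuation F (u / g ^ m) = 1) :
    ∃ (g₁ : F) (c₁ c₂ : Λ) (p : ℤ), g₁ ≠ 0 ∧ IsUnit c₁ ∧ IsUnit c₂ ∧
      w₁ (g₁ - algebraMap Λ F c₁ * algebraMap B F y ^ N₁) < 1 ∧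
      w₂ (g₁ - algebraMap Λ F c₂ * algebraMap Λ F π ^ p * algebraMap B F x ^ N₂)
        < w₂ (algebraMap Λ F π) ^ p ∧
      ∀ 𝔔 ∈ absThrough ι 𝔪, 𝔔.valuation F (u / g₁ ^ m) = 1 := by
  have hΛF : ∀ c : Λ, algebraMap Λ F c = algebraMap B F (algebraMap Λ B c) :=
    fun c => IsScalarTower.algebraMap_apply Λ B F c
  have hΛV : ∀ c : Λ, w₁ (algebraMap Λ F c) ≤ 1 ∧ w₂ (algebraMap Λ F c) ≤ 1 := fun c => by
    rw [hΛF]; exact (hVw _).1 (hBV _)
  have hΛu : ∀ c : Λ, IsUnit c → w₁ (algebraMap Λ F c) = 1 ∧ w₂ (algebraMap Λ F c) = 1 := by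
    intro c hc
    obtain ⟨c', hc'⟩ := hc.exists_right_inv
    have e : algebraMap Λ F c * algebraMap Λ F c' = 1 := by rw [← map_mul, hc', map_one]
    have e1 : w₁ (algebraMap Λ F c) * w₁ (algebraMap Λ F c') = 1 := by
      rw [← map_mul, e, map_one]
    have e2 : w₂ (algebraMap Λ F c) * w₂ (algebraMap Λ F c') = 1 := by
      rw [← map_mul, e, map_one]
    exact ⟨s35f1d2_eq_one_of_mul (hΛV c).1 (hΛV c').1 e1,
      s35f1d2_eq_one_of_mul (hΛV c).2 (hΛV c').2 e2⟩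
  -- `π` in `F`
  have hP : algebraMap Λ F π = algebraMap Bη F (ι (algebraMap Λ B π)) := by rw [hι, ← hΛF]
  have hP0 : algebraMap Λ F π ≠ 0 := by
    rw [hP]
    exact (hπu.map (algebraMap Bη F)).ne_zero
  have hPQ : ∀ 𝔔 : HeightOneSpectrum Bη, 𝔔.valuation F (algebraMap Λ F π) = 1 := fun 𝔔 => by
    rw [hP]
    exact s35f1d2_val_unit _ hπu 𝔔
  -- the four constants
  obtain ⟨ka, va, rfl⟩ := IsDiscreteValuationRing.eq_unit_mul_pow_irreducible ha hπ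
  obtain ⟨ka', va', rfl⟩ := IsDiscreteValuationRing.eq_unit_mul_pow_irreducible ha' hπ
  obtain ⟨kb, vb, rfl⟩ := IsDiscreteValuationRing.eq_unit_mul_pow_irreducible hb hπ
  obtain ⟨kb', vb', rfl⟩ := IsDiscreteValuationRing.eq_unit_mul_pow_irreducible hb' hπ
  have hinv : ∀ v v' : Λˣ, algebraMap Λ F ((v * v'⁻¹ : Λˣ) : Λ) =
      algebraMap Λ F (v : Λ) * (algebraMap Λ F (v' : Λ))⁻¹ := by
    intro v v'
    have h0 : algebraMap Λ F (v' : Λ) ≠ 0 := fun h0 => by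
      have := (hΛu (v' : Λ) v'.isUnit).1
      rw [h0, map_zero] at this
      exact zero_ne_one this
    rw [eq_mul_inv_iff_mul_eq₀ h0, ← map_mul, ← Units.val_mul, inv_mul_cancel_right]
  simp only [RingHom.map_mul, RingHom.map_pow] at hg₁ hg₂
  have h1 := s35f1nc1_scale w₁ (algebraMap Λ F π) (algebraMap Λ F (va : Λ))
    (algebraMap Λ F (va' : Λ)) g (algebraMap B F y ^ N₁) ka ka' ((ka' : ℤ) - ka) hP0
    (hΛu _ va.isUnit).1 (hΛu _ va'.isUnit).1 hg₁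
  have h2 := s35f1nc1_scale w₂ (algebraMap Λ F π) (algebraMap Λ F (vb : Λ))
    (algebraMap Λ F (vb' : Λ)) g (algebraMap B F x ^ N₂) kb kb' ((ka' : ℤ) - ka) hP0
    (hΛu _ vb.isUnit).2 (hΛu _ vb'.isUnit).2 hg₂
  have hz : ((ka : ℤ) - ka') + ((ka' : ℤ) - ka) = 0 := by ring
  rw [hz, zpow_zero, mul_one, zpow_zero] at h1
  have hp : ((kb : ℤ) - kb') + ((ka' : ℤ) - ka) = ((kb : ℤ) - kb') - ((ka : ℤ) - ka') := by ring
  rw [hp] at h2
  refine ⟨g * algebraMap Λ F π ^ ((ka' : ℤ) - ka), ((va * va'⁻¹ : Λˣ) : Λ),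
    ((vb * vb'⁻¹ : Λˣ) : Λ), ((kb : ℤ) - kb') - ((ka : ℤ) - ka'),
    mul_ne_zero hg (zpow_ne_zero _ hP0), Units.isUnit _, Units.isUnit _, ?_, ?_, ?_⟩
  · rw [hinv]
    exact h1
  · rw [hinv]
    exact h2
  · intro 𝔔 h𝔔
    rw [map_div₀, map_pow, map_mul, map_zpow₀, hPQ, one_zpow, mul_one, ← map_pow, ← map_div₀]
    exact hval 𝔔 h𝔔

end PT

end Fermat.Agent.S35
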