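import Mathlib
import Fermat.Agent.S34.AbsLP
import Fermat.Agent.S34.AbsHR
import Fermat.Agent.S34.AbsPlaceComp
import Fermat.Agent.S34.ModelDefs
import Fermat.Agent.S35.F1Ctrick
import Fermat.Agent.S35.F1CrossProd
import Fermat.Agent.S35.F1CrossVert
import Fermat.Agent.S35.F1nNorm
import Fermat.Agent.S35.F1nBalB
import Fermat.Agent.S35.F1nCert

/-!
# P20 (S35), block F1, NOFT package: vertical step for a mixed product

`s35f1n_cross_vert`: at a crossing point, a mixed product datum either normalises to the output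
shape of F1-D2 (balanced case) or the function `u` yields a thickness certificate (unbalanced
case).  Assembly of the leaves NC1 (`s35f1n_normalise`), NC2 (`s35f1n_balanced_B`) and NC3
(`s35f1n_cert`).
-/

set_option autoImplicit false

namespace Fermat.Agent.S35

open IsDedekindDomain
open Fermat.Agent.S34

section PT

variable {Bη F : Type*} [CommRing Bη] [IsDedekindDomain Bη] [Field F] [Algebra Bη F]
  [IsFractionRing Bη F]
  {Λ B : Type*} [CommRing Λ] [IsDomain Λ] [IsDiscreteValuationRing Λ] [Algebra Λ F]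
  [CommRing B] [IsNoetherianRing B] [Algebra B F] [Algebra Λ B] [IsScalarTower Λ B F]

/-- (NC = GD2 + CERT-U, file `S35/F1nVert.lean`) crossing point, vertical step for a mixed
product: either the datum can be normalised to the output of F1-D2, or `u` yields a thickness
certificate `φ₀` (no horizontal order at `𝔪`, unit at `w₁`, order `n > 0` at `w₂`). -/
theorem s35f1n_cross_vert
    {Γ₁ Γ₂ : Type*} [LinearOrderedCommGroupWithZero Γ₁] [LinearOrderedCommGroupWithZero Γ₂]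
    (ι : B →+* Bη) (hι : ∀ b : B, algebraMap Bη F (ι b) = algebraMap B F b)
    (𝔪 : Ideal B) [𝔪.IsPrime] (π : Λ) (hπ : Irreducible π)
    (hπu : IsUnit (ι (algebraMap Λ B π))) (V : Subring F)
    (hBV : ∀ b : B, IsIntegral V (algebraMap B F b))
    (hK : ∀ y : Bη, IsIntegral V (algebraMap Bη F y) →
      ∃ b : B, algebraMap B F b = algebraMap Bη F y)
    (w₁ : Valuation F Γ₁) (w₂ : Valuation F Γ₂)
    (hVw : ∀ f : F, IsIntegral V f ↔ w₁ f ≤ 1 ∧ w₂ f ≤ 1)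
    (hπ₁ : w₁ (algebraMap Λ F π) < 1) (hπ₂ : w₂ (algebraMap Λ F π) < 1)
    (h𝔪₁ : ∀ b : B, w₁ (algebraMap B F b) < 1 → b ∈ 𝔪)
    (h𝔪₂ : ∀ b : B, w₂ (algebraMap B F b) < 1 → b ∈ 𝔪)
    (m : ℕ) (hm : m ≠ 0) {u : F} (hu : u ≠ 0)
    (hu1 : ∃ δ : F, IsIntegral V δ ∧ u - 1 = π • δ)
    (x y : B) (hx𝔪 : x ∈ 𝔪) (hy𝔪 : y ∈ 𝔪)
    (hx₂ : w₂ (algebraMap B F x) = 1) (hy₁ : w₁ (algebraMap B F y) = 1)
    (g : F) (a a' b b' : Λ) (N₁ N₂ : ℤ) (hg : g ≠ 0) (ha : a ≠ 0) (ha' : a' ≠ 0)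
    (hb : b ≠ 0) (hb' : b' ≠ 0)
    (hg₁ : w₁ (g * algebraMap Λ F a' - algebraMap Λ F a * algebraMap B F y ^ N₁)
      < w₁ (algebraMap Λ F a))
    (hg₂ : w₂ (g * algebraMap Λ F b' - algebraMap Λ F b * algebraMap B F x ^ N₂)
      < w₂ (algebraMap Λ F b))
    (hval : ∀ 𝔔 ∈ absThrough ι 𝔪, 𝔔.valuation F (u / g ^ m) = 1) :
    (∃ (g' : F) (c : Λ), g' ≠ 0 ∧ IsUnit c ∧ w₁ (g' - algebraMap Λ F c) < 1 ∧
      w₂ (g' - 1) < 1 ∧ ∀ 𝔔 ∈ absThrough ι 𝔪, 𝔔.valuation F (u / g' ^ m) = 1) ∨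
    (∃ (φ₀ : F) (n : ℕ), 0 < n ∧ w₁ φ₀ = 1 ∧ w₂ φ₀ = w₂ (algebraMap Λ F π) ^ n ∧
      ∀ 𝔔 ∈ absThrough ι 𝔪, 𝔔.valuation F φ₀ = 1) := by
  obtain ⟨g₁, c₁, c₂, p, hg₁0, hc₁, hc₂, h₁, h₂, hval₁⟩ :=
    s35f1n_normalise ι hι 𝔪 π hπ hπu V hBV w₁ w₂ hVw m x y hx₂ hy₁ g a a' b b' N₁ N₂ hg ha ha'
      hb hb' hg₁ hg₂ hval
  have hΛF : ∀ c : Λ, algebraMap Λ F c = algebraMap B F (algebraMap Λ B c) :=
    fun c => IsScalarTower.algebraMap_apply Λ B F c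
  have hΛV : ∀ c : Λ, w₁ (algebraMap Λ F c) ≤ 1 ∧ w₂ (algebraMap Λ F c) ≤ 1 := fun c => by
    rw [hΛF]; exact (hVw _).1 (hBV _)
  have hΛu : ∀ c : Λ, IsUnit c → w₁ (algebraMap Λ F c) = 1 ∧ w₂ (algebraMap Λ F c) = 1 := by
    intro c hc
    obtain ⟨c', hc'⟩ := hc.exists_right_inv
    have e : algebraMap Λ F c * algebraMap Λ F c' = 1 := by rw [← map_mul, hc', map_one]
    have e1 : w₁ (algebraMap Λ F c) * w₁ (algebraMap Λ F c') = 1 := by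
      rw [← map_mul, e, map_one]
    have e2 : w₂ (algebraMap Λ F c) * w₂ (algebraMap Λ F c') = 1 := by
      rw [← map_mul, e, map_one]
    exact ⟨s35f1d2_eq_one_of_mul (hΛV c).1 (hΛV c').1 e1,
      s35f1d2_eq_one_of_mul (hΛV c).2 (hΛV c').2 e2⟩
  by_cases hp : p = 0
  · subst hp
    left
    rw [zpow_zero, mul_one, zpow_zero] at h₂
    exact s35f1n_balanced_B ι hι 𝔪 π hπ hπu V hBV hK w₁ w₂ hVw hπ₁ hπ₂ h𝔪₁ h𝔪₂ m hm hu hu1 x y
      hx𝔪 hy𝔪 hx₂ hy₁ g₁ c₁ c₂ N₁ N₂ hg₁0 hc₁ hc₂ h₁ h₂ hval₁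
  · right
    obtain ⟨δ, hδV, hδ⟩ := hu1
    have hu₁ : w₁ (u - 1) < 1 := by
      rw [hδ, Algebra.smul_def, map_mul, mul_comm]
      exact s35f1d2_mul_lt_one ((hVw δ).1 hδV).1 hπ₁
    have hu₂ : w₂ (u - 1) < 1 := by
      rw [hδ, Algebra.smul_def, map_mul, mul_comm]
      exact s35f1d2_mul_lt_one ((hVw δ).1 hδV).2 hπ₂
    have hw₁ : w₁ g₁ = 1 := by
      have e : w₁ (algebraMap Λ F c₁ * algebraMap B F y ^ N₁) = 1 := by
        rw [map_mul, map_zpow₀, hy₁, one_zpow, mul_one, (hΛu c₁ hc₁).1]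
      rw [← e]
      exact s35f1d_eq_of_sub_lt w₁ (by rw [e]; exact h₁)
    have hw₂ : w₂ g₁ = w₂ (algebraMap Λ F π) ^ p := by
      have e : w₂ (algebraMap Λ F c₂ * algebraMap Λ F π ^ p * algebraMap B F x ^ N₂)
          = w₂ (algebraMap Λ F π) ^ p := by
        rw [map_mul, map_mul, map_zpow₀, map_zpow₀, hx₂, one_zpow, mul_one, (hΛu c₂ hc₂).2,
          one_mul]
      rw [← e]
      exact s35f1d_eq_of_sub_lt w₂ (by rw [e]; exact h₂)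
    exact s35f1n_cert ι 𝔪 π w₁ w₂ m hm hu₁ hu₂ g₁ p hp hw₁ hw₂ hval₁

end PT

end Fermat.Agent.S35
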