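import Mathlib
import Fermat.Agent.S34.AbsLP
import Fermat.Agent.S34.AbsHR
import Fermat.Agent.S34.AbsPlaceComp
import Fermat.Agent.S34.ModelDefs
import Fermat.Agent.S34.NodeGlobalDefs
import Fermat.Agent.S35.F1Ctrick
import Fermat.Agent.S35.F1CrossProd
import Fermat.Agent.S35.F1CrossVert
import Fermat.Agent.S35.F1PtCross
import Fermat.Agent.S35.F1nProdC
import Fermat.Agent.S35.F1nVert
import Fermat.Agent.S35.F1nThick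
import Fermat.Agent.S35.F1nNodeB

/-!
# P20 (S35), block F1, NOFT package: crossing points without thickness input

`s35f1n_pt_cross`: the statement of F1-PTC (`s35f1_pt_cross`) with the hypothesis "every integral
point through the crossing point is of `X`-type" weakened to "of `X`-type or of `Y`-type", which
is the unfolded negation of `S34.NodeBadG`.  `s35f1n_pt_cross_of_not_bad` is the same statement
with the hypothesis in the form `¬ S34.NodeBadG`.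

Proof: per place a datum of one of the two types (`s35f1ptc_lp`, used with the two branches
exchanged), the mixed product (NB), its vertical analysis (NC); in the unbalanced case the function
`u` certifies finite thickness (ND) for the node relation of a suitable level (NE), so that every
integral point is of `X`-type and F1-PTC applies.
-/

set_option autoImplicit false

namespace Fermat.Agent.S35

open IsDedekindDomain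
open Fermat.Agent.S34

section PT

variable {Bη F : Type*} [CommRing Bη] [IsDedekindDomain Bη] [Field F] [Algebra Bη F]
  [IsFractionRing Bη F]
  {Λ B : Type*} [CommRing Λ] [IsDomain Λ] [IsDiscreteValuationRing Λ] [Algebra Λ F]
  [CommRing B] [IsNoetherianRing B] [Algebra B F] [Algebra Λ B] [IsScalarTower Λ B F]

/-- (NF, file `S35/F1nPtCross.lean`) **crossing point without thickness input**: F1-PTC with
`hXtype` weakened to "every integral point through `𝔪` is of `X`-type or of `Y`-type". -/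
theorem s35f1n_pt_cross
    {Γ₁ Γ₂ : Type*} [LinearOrderedCommGroupWithZero Γ₁] [LinearOrderedCommGroupWithZero Γ₂]
    (ι : B →+* Bη) (hι : ∀ b : B, algebraMap Bη F (ι b) = algebraMap B F b)
    (hinj : Function.Injective (algebraMap B F))
    (π : Λ) (hπ : Irreducible π)
    (hπu : IsUnit (ι (algebraMap Λ B π)))
    (hloc : ∀ y : Bη, ∃ (n : ℕ) (b : B), ι (algebraMap Λ B π) ^ n * y = ι b)
    (𝔪 : Ideal B) [𝔪.IsPrime] (hπ𝔪 : algebraMap Λ B π ∈ 𝔪)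
    (V : Subring F)
    (hBV : ∀ b : B, IsIntegral V (algebraMap B F b))
    (hK : ∀ y : Bη, IsIntegral V (algebraMap Bη F y) →
      ∃ b : B, algebraMap B F b = algebraMap Bη F y)
    (w₁ : Valuation F Γ₁) (w₂ : Valuation F Γ₂)
    (hVw : ∀ f : F, IsIntegral V f ↔ w₁ f ≤ 1 ∧ w₂ f ≤ 1)
    (hπ₁ : w₁ (algebraMap Λ F π) < 1) (hπ₂ : w₂ (algebraMap Λ F π) < 1)
    (h𝔪₁ : ∀ b : B, w₁ (algebraMap B F b) < 1 → b ∈ 𝔪)
    (h𝔪₂ : ∀ b : B, w₂ (algebraMap B F b) < 1 → b ∈ 𝔪)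
    (m : ℕ) (hm : m ≠ 0) {u : F} (hu : u ≠ 0)
    (hu1 : ∃ δ : F, IsIntegral V δ ∧ u - 1 = π • δ)
    (hdiv : ∀ 𝔔 ∈ absThrough ι 𝔪, ∃ n : ℤ, 𝔔.valuation F u = WithZero.exp ((m : ℤ) * n))
    (x y G : B) (hx𝔪 : x ∈ 𝔪) (hy𝔪 : y ∈ 𝔪) (hxy : x * y = algebraMap Λ B π * G)
    (hx₂ : w₂ (algebraMap B F x) = 1) (hy₁ : w₁ (algebraMap B F y) = 1)
    (hgen : ∀ z ∈ 𝔪, ∃ a : B, a ∉ 𝔪 ∧ a * z ∈ Ideal.span {algebraMap Λ B π, x, y})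
    (hpoint : ∀ 𝔔 ∈ absThrough ι 𝔪, 𝔔.valuation F u ≠ 1 →
      ∃ φ : B →ₐ[Λ] Λ, 𝔪 = Ideal.comap (φ : B →+* Λ) (Ideal.span {π}) ∧
        ∀ b : B, ι b ∈ 𝔔.asIdeal ↔ φ b = 0)
    (hXYtype : ∀ φ : B →ₐ[Λ] Λ, 𝔪 = Ideal.comap (φ : B →+* Λ) (Ideal.span {π}) →
      ∃ (X Y H σ : B) (d Q : Λ), ¬ π ∣ φ σ ∧
        X - σ * x ∈ Ideal.span {algebraMap Λ B π} ∧
        Y - σ * y ∈ Ideal.span {algebraMap Λ B π} ∧
        X * Y = σ ^ 2 * algebraMap Λ B d + algebraMap Λ B Q * H ∧ (¬ Q ∣ φ X ∨ ¬ Q ∣ φ Y)) :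
    ∃ (g : F) (c : Λ), g ≠ 0 ∧ IsUnit c ∧ w₁ (g - algebraMap Λ F c) < 1 ∧ w₂ (g - 1) < 1 ∧
      ∀ 𝔔 ∈ absThrough ι 𝔪, 𝔔.valuation F (u / g ^ m) = 1 := by
  have h𝔪p : 𝔪.IsPrime := inferInstance
  -- elements of `B` have valuations `≤ 1`; elements outside `𝔪` have valuations `= 1`
  have hB : ∀ b : B, w₁ (algebraMap B F b) ≤ 1 ∧ w₂ (algebraMap B F b) ≤ 1 :=
    fun b => (hVw _).1 (hBV b)
  have hΛF : ∀ c : Λ, algebraMap Λ F c = algebraMap B F (algebraMap Λ B c) :=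
    fun c => IsScalarTower.algebraMap_apply Λ B F c
  have hout₁ : ∀ b : B, b ∉ 𝔪 → w₁ (algebraMap B F b) = 1 := fun b hb =>
    le_antisymm (hB b).1 (not_lt.mp fun h => hb (h𝔪₁ b h))
  have hout₂ : ∀ b : B, b ∉ 𝔪 → w₂ (algebraMap B F b) = 1 := fun b hb =>
    le_antisymm (hB b).2 (not_lt.mp fun h => hb (h𝔪₂ b h))
  have hπspan₁ : ∀ b : B, b ∈ Ideal.span {algebraMap Λ B π} → w₁ (algebraMap B F b) < 1 := by
    intro b hb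
    obtain ⟨r, rfl⟩ := Ideal.mem_span_singleton'.mp hb
    rw [map_mul, map_mul, ← hΛF]
    exact s35f1d2_mul_lt_one (hB r).1 hπ₁
  have hπspan₂ : ∀ b : B, b ∈ Ideal.span {algebraMap Λ B π} → w₂ (algebraMap B F b) < 1 := by
    intro b hb
    obtain ⟨r, rfl⟩ := Ideal.mem_span_singleton'.mp hb
    rw [map_mul, map_mul, ← hΛF]
    exact s35f1d2_mul_lt_one (hB r).2 hπ₂
  -- `x` is in the first vertical prime
  have hx₁ : w₁ (algebraMap B F x) < 1 := by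
    have h1 : w₁ (algebraMap B F (x * y)) < 1 :=
      hπspan₁ _ (Ideal.mem_span_singleton'.mpr ⟨G, by rw [hxy, mul_comm]⟩)
    rwa [map_mul, map_mul, hy₁, mul_one] at h1
  -- `y` is a local generator of `𝔪` modulo the first vertical prime
  have hyloc : ∀ z ∈ 𝔪, ∃ s r : B, s ∉ 𝔪 ∧ w₁ (algebraMap B F (s * z - r * y)) < 1 := by
    intro z hz
    obtain ⟨a, ha, haz⟩ := hgen z hz
    obtain ⟨r₀, z₁, hz₁, e₁⟩ := Ideal.mem_span_insert.mp haz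
    obtain ⟨r₁, z₂, hz₂, e₂⟩ := Ideal.mem_span_insert.mp hz₁
    obtain ⟨r₂, e₃⟩ := Ideal.mem_span_singleton'.mp hz₂
    refine ⟨a, r₂, ha, ?_⟩
    have e : a * z - r₂ * y = r₀ * algebraMap Λ B π + r₁ * x := by
      rw [e₁, e₂, ← e₃]; ring
    rw [e, map_add]
    apply Valuation.map_add_lt
    · exact hπspan₁ _ (Ideal.mem_span_singleton'.mpr ⟨r₀, rfl⟩)
    · rw [map_mul, map_mul]
      exact s35f1d2_mul_lt_one (hB r₁).1 hx₁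
  -- the hypotheses with the two branches exchanged
  have hVw' : ∀ f : F, IsIntegral V f ↔ w₂ f ≤ 1 ∧ w₁ f ≤ 1 := fun f => (hVw f).trans and_comm
  have hgen' : ∀ z ∈ 𝔪, ∃ a : B, a ∉ 𝔪 ∧ a * z ∈ Ideal.span {algebraMap Λ B π, y, x} := by
    intro z hz
    obtain ⟨a, ha, haz⟩ := hgen z hz
    refine ⟨a, ha, ?_⟩
    rw [Set.pair_comm y x]
    exact haz
  -- the mixed local data
  have hlp : ∀ 𝔔 ∈ absThrough ι 𝔪, 𝔔.valuation F u ≠ 1 →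
      (∃ (h : F) (a : Λ), a ≠ 0 ∧ w₁ (h - algebraMap Λ F a) < w₁ (algebraMap Λ F a) ∧
        w₂ (h - algebraMap B F x) < 1 ∧
        𝔔.valuation F h = WithZero.exp (-1 : ℤ) ∧
        ∀ 𝔔' ∈ absThrough ι 𝔪, 𝔔' ≠ 𝔔 → 𝔔'.valuation F h = 1) ∨
      (∃ (h : F) (b : Λ), b ≠ 0 ∧ w₂ (h - algebraMap Λ F b) < w₂ (algebraMap Λ F b) ∧
        w₁ (h - algebraMap B F y) < 1 ∧
        𝔔.valuation F h = WithZero.exp (-1 : ℤ) ∧
        ∀ 𝔔' ∈ absThrough ι 𝔪, 𝔔' ≠ 𝔔 → 𝔔'.valuation F h = 1) := by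
    intro 𝔔 h𝔔 hne
    obtain ⟨φ, h𝔪φ, hφ𝔔⟩ := hpoint 𝔔 h𝔔 hne
    obtain ⟨X, Y, H, σ, d, Q, hσ, hX, hY, hXY, hQ⟩ := hXYtype φ h𝔪φ
    rcases hQ with hQ | hQ
    · exact Or.inl (s35f1ptc_lp ι hι π hπ hπu hloc 𝔪 V hBV w₁ w₂ hVw hπ₁ hπ₂ h𝔪₁ h𝔪₂ x y
        hx𝔪 hy𝔪 hy₁ hgen 𝔔 φ h𝔪φ hφ𝔔 X Y H σ d Q hσ hX hY hXY hQ)
    · exact Or.inr (s35f1ptc_lp ι hι π hπ hπu hloc 𝔪 V hBV w₂ w₁ hVw' hπ₂ hπ₁ h𝔪₂ h𝔪₁ y x
        hy𝔪 hx𝔪 hx₂ hgen' 𝔔 φ h𝔪φ hφ𝔔 Y X H σ d Q hσ hY hX (by rw [mul_comm]; exact hXY) hQ)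
  -- the mixed product and its vertical analysis
  obtain ⟨g, a, a', b, b', N₁, N₂, hg, ha, ha', hb, hb', hg₁, hg₂, hval⟩ :=
    s35f1n_cross_prod_C ι 𝔪 w₁ w₂ m hu hdiv x y hx₂ hy₁ hlp
  rcases s35f1n_cross_vert ι hι 𝔪 π hπ hπu V hBV hK w₁ w₂ hVw hπ₁ hπ₂ h𝔪₁ h𝔪₂ m hm hu hu1 x y
    hx𝔪 hy𝔪 hx₂ hy₁ g a a' b b' N₁ N₂ hg ha ha' hb hb' hg₁ hg₂ hval with hbal | hcert
  · exact hbal
  -- unbalanced: `u` certifies finite thickness, hence all points are of `X`-type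
  obtain ⟨φ₀, n, hn, hφ₁, hφ₂, hφQ⟩ := hcert
  by_cases hex : ∃ 𝔔 ∈ absThrough ι 𝔪, 𝔔.valuation F u ≠ 1
  swap
  · -- no place to handle
    push Not at hex
    refine ⟨1, 1, one_ne_zero, isUnit_one, ?_, ?_, ?_⟩
    · rw [map_one, sub_self, map_zero]; exact zero_lt_one
    · rw [sub_self, map_zero]; exact zero_lt_one
    · intro 𝔔 h𝔔
      rw [one_pow, div_one]
      exact hex 𝔔 h𝔔
  obtain ⟨𝔔₀, h𝔔₀, hne₀⟩ := hex
  obtain ⟨φ', h𝔪φ', -⟩ := hpoint 𝔔₀ h𝔔₀ hne₀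
  obtain ⟨K, hK2⟩ : ∃ K : ℕ, K + 1 = 2 * n := ⟨2 * n - 1, by omega⟩
  obtain ⟨X, Y, H, σ, c, hσ, hX, hY, hXY⟩ := s35f1n_node_B hinj π hπ 𝔪 x y G hxy hgen φ' h𝔪φ' K
  have hσx₂ : w₂ (algebraMap B F (σ * x)) = 1 := by
    rw [map_mul, map_mul, hout₂ σ hσ, hx₂, one_mul]
  have hX₂ : w₂ (algebraMap B F X) = 1 := by
    have h1 : w₂ (algebraMap B F X - algebraMap B F (σ * x)) < w₂ (algebraMap B F (σ * x)) := by
      rw [← map_sub, hσx₂]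
      exact hπspan₂ _ hX
    rw [s35f1d_eq_of_sub_lt w₂ h1, hσx₂]
  have hY₁ : w₁ (algebraMap B F (Y - σ * y)) < 1 := hπspan₁ _ hY
  have hc : ¬ π ^ K ∣ c :=
    s35f1n_thick ι hι 𝔪 π V hBV hK w₁ w₂ hVw hπ₂ h𝔪₁ h𝔪₂ y hy𝔪 hy₁ hyloc φ₀ n hn hφ₁ hφ₂ hφQ
      X Y H σ c K hσ hX₂ hY₁ hXY hK2.ge
  refine s35f1_pt_cross ι hι hinj π hπ hπu hloc 𝔪 hπ𝔪 V hBV hK w₁ w₂ hVw hπ₁ hπ₂ h𝔪₁ h𝔪₂ m hm hu
    hu1 hdiv x y hx𝔪 hy𝔪 hx₂ hy₁ hgen hpoint ?_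
  intro φ h𝔪φ
  have hmem : ∀ z : B, z ∈ 𝔪 ↔ π ∣ φ z := fun z => by
    rw [h𝔪φ, Ideal.mem_comap, Ideal.mem_span_singleton]
    rfl
  have hσφ : ¬ π ∣ φ σ := fun h => hσ ((hmem σ).mpr h)
  refine ⟨X, Y, H, σ, π * c, π ^ (K + 1), hσφ, hX, hY, hXY, ?_⟩
  intro hdvd
  apply hc
  -- evaluate the node relation
  have hev : φ X * φ Y = φ σ ^ 2 * (π * c) + π ^ (K + 1) * φ H := by
    have := congrArg φ hXY
    simpa only [map_mul, map_add, map_pow, AlgHom.commutes, Algebra.algebraMap_self,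
      RingHom.id_apply] using this
  have h1 : π ^ (K + 1) ∣ φ σ ^ 2 * (π * c) := by
    have h2 : φ σ ^ 2 * (π * c) = φ X * φ Y - π ^ (K + 1) * φ H := by rw [hev]; ring
    rw [h2]
    exact dvd_sub (Dvd.dvd.mul_right hdvd _) (dvd_mul_right _ _)
  have hσu : IsUnit (φ σ) := by
    by_contra hnu
    have hmem' : φ σ ∈ IsLocalRing.maximalIdeal Λ := by
      rwa [IsLocalRing.mem_maximalIdeal, mem_nonunits_iff]
    rw [hπ.maximalIdeal_eq] at hmem'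
    exact hσφ (Ideal.mem_span_singleton.mp hmem')
  have h3 : π ^ (K + 1) ∣ π * c := by
    obtain ⟨t, ht⟩ := h1
    obtain ⟨v, hv⟩ := hσu.pow 2
    refine ⟨(↑v⁻¹ : Λ) * t, ?_⟩
    have : π * c = (↑v⁻¹ : Λ) * (φ σ ^ 2 * (π * c)) := by
      rw [← hv, ← mul_assoc, Units.inv_mul, one_mul]
    rw [this, ht]
    ring
  rw [pow_succ, mul_comm] at h3
  exact (mul_dvd_mul_iff_left hπ.ne_zero).mp h3

/-- **Crossing point without thickness input**, with the hypothesis on the integral points in the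
form `¬ S34.NodeBadG` (the output of (L1)). -/
theorem s35f1n_pt_cross_of_not_bad
    {Γ₁ Γ₂ : Type*} [LinearOrderedCommGroupWithZero Γ₁] [LinearOrderedCommGroupWithZero Γ₂]
    (ι : B →+* Bη) (hι : ∀ b : B, algebraMap Bη F (ι b) = algebraMap B F b)
    (hinj : Function.Injective (algebraMap B F))
    (π : Λ) (hπ : Irreducible π)
    (hπu : IsUnit (ι (algebraMap Λ B π)))
    (hloc : ∀ y : Bη, ∃ (n : ℕ) (b : B), ι (algebraMap Λ B π) ^ n * y = ι b)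
    (𝔪 : Ideal B) [𝔪.IsPrime] (hπ𝔪 : algebraMap Λ B π ∈ 𝔪)
    (V : Subring F)
    (hBV : ∀ b : B, IsIntegral V (algebraMap B F b))
    (hK : ∀ y : Bη, IsIntegral V (algebraMap Bη F y) →
      ∃ b : B, algebraMap B F b = algebraMap Bη F y)
    (w₁ : Valuation F Γ₁) (w₂ : Valuation F Γ₂)
    (hVw : ∀ f : F, IsIntegral V f ↔ w₁ f ≤ 1 ∧ w₂ f ≤ 1)
    (hπ₁ : w₁ (algebraMap Λ F π) < 1) (hπ₂ : w₂ (algebraMap Λ F π) < 1)
    (h𝔪₁ : ∀ b : B, w₁ (algebraMap B F b) < 1 → b ∈ 𝔪)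
    (h𝔪₂ : ∀ b : B, w₂ (algebraMap B F b) < 1 → b ∈ 𝔪)
    (m : ℕ) (hm : m ≠ 0) {u : F} (hu : u ≠ 0)
    (hu1 : ∃ δ : F, IsIntegral V δ ∧ u - 1 = π • δ)
    (hdiv : ∀ 𝔔 ∈ absThrough ι 𝔪, ∃ n : ℤ, 𝔔.valuation F u = WithZero.exp ((m : ℤ) * n))
    (x y G : B) (hx𝔪 : x ∈ 𝔪) (hy𝔪 : y ∈ 𝔪) (hxy : x * y = algebraMap Λ B π * G)
    (hx₂ : w₂ (algebraMap B F x) = 1) (hy₁ : w₁ (algebraMap B F y) = 1)
    (hgen : ∀ z ∈ 𝔪, ∃ a : B, a ∉ 𝔪 ∧ a * z ∈ Ideal.span {algebraMap Λ B π, x, y})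
    (hpoint : ∀ 𝔔 ∈ absThrough ι 𝔪, 𝔔.valuation F u ≠ 1 →
      ∃ φ : B →ₐ[Λ] Λ, 𝔪 = Ideal.comap (φ : B →+* Λ) (Ideal.span {π}) ∧
        ∀ b : B, ι b ∈ 𝔔.asIdeal ↔ φ b = 0)
    (hnb : ∀ φ : B →ₐ[Λ] Λ, 𝔪 = Ideal.comap (φ : B →+* Λ) (Ideal.span {π}) →
      ¬ S34.NodeBadG π π x y (RingHom.id B) φ) :
    ∃ (g : F) (c : Λ), g ≠ 0 ∧ IsUnit c ∧ w₁ (g - algebraMap Λ F c) < 1 ∧ w₂ (g - 1) < 1 ∧
      ∀ 𝔔 ∈ absThrough ι 𝔪, 𝔔.valuation F (u / g ^ m) = 1 := by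
  refine s35f1n_pt_cross ι hι hinj π hπ hπu hloc 𝔪 hπ𝔪 V hBV hK w₁ w₂ hVw hπ₁ hπ₂ h𝔪₁ h𝔪₂ m hm hu
    hu1 hdiv x y G hx𝔪 hy𝔪 hxy hx₂ hy₁ hgen hpoint ?_
  intro φ h𝔪φ
  have h := hnb φ h𝔪φ
  unfold S34.NodeBadG at h
  simp only [not_forall] at h
  obtain ⟨K, X, Y, H, σ, c, hσ, hX, hY, hXY, hQ⟩ := h
  simp only [RingHom.id_apply, Algebra.algebraMap_self] at hσ hQ
  exact ⟨X, Y, H, σ, π * c, π ^ (K + 1), hσ, hX, hY, hXY, not_and_or.mp hQ⟩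

end PT

end Fermat.Agent.S35
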