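import Mathlib
import Fermat.Agent.S35.F1Chart
import Fermat.Agent.S35.F1nPtCross

/-!
# P20 (S35), F1: one chart, closed-point case analysis

`s35f1_chart_pt`: the chart step `s35f1_chart` with the closed-point data in "provider form":

* `hdict` : the horizontal primes through a closed point in the support of `u` are primes of
  `Λ`-points;
* `hinst` : the closed point of a `Λ`-point is a one-component point (`S35F1One`) or a crossing
  point (`S35F1Cross`: all integral points of `X`-type; `S35F1CrossN`: no bad integral point);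
* `hsig`  : a closed point containing both vertical primes is stable under `s2`.

The closed points considered are those containing a fixed `s2`-invariant element `a₀` of the
chart ring (`a₀ = 0` for the chart `j`, `a₀ = j⁻¹` for the chart `j⁻¹`).
-/

set_option autoImplicit false

namespace Fermat.Agent.S35

open IsDedekindDomain
open Fermat.Agent.S34

section Defs

variable {Λ B F : Type*} [CommRing Λ] [CommRing B] [Algebra Λ B] [Field F] [Algebra B F]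
  {Γ₁ Γ₂ : Type*} [LinearOrderedCommGroupWithZero Γ₁] [LinearOrderedCommGroupWithZero Γ₂]

/-- A crossing point `𝔫` of the two components of the special fibre without bad integral
points. -/
def S35F1CrossN (π : Λ) (w₁ : Valuation F Γ₁) (w₂ : Valuation F Γ₂) (𝔫 : Ideal B) : Prop :=
  ∃ x y G : B, x * y = algebraMap Λ B π * G ∧ x ∈ 𝔫 ∧ y ∈ 𝔫 ∧
    w₂ (algebraMap B F x) = 1 ∧ w₁ (algebraMap B F y) = 1 ∧
    (∀ z ∈ 𝔫, ∃ a : B, a ∉ 𝔫 ∧ a * z ∈ Ideal.span {algebraMap Λ B π, x, y}) ∧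
    (∀ b : B, w₁ (algebraMap B F b) < 1 → b ∈ 𝔫) ∧
    (∀ b : B, w₂ (algebraMap B F b) < 1 → b ∈ 𝔫) ∧
    ∀ φ : B →ₐ[Λ] Λ, 𝔫 = Ideal.comap (φ : B →+* Λ) (Ideal.span {π}) →
      ¬ S34.NodeBadG π π x y (RingHom.id B) φ

end Defs

section Chart

variable {Λ K F : Type*} [CommRing Λ] [IsDomain Λ] [IsDiscreteValuationRing Λ] [Field K]
  [Algebra Λ K] [IsFractionRing Λ K] [Field F] [Algebra K F] [Algebra Λ F] [IsScalarTower Λ K F]
  {Γ₁ Γ₂ : Type*} [LinearOrderedCommGroupWithZero Γ₁] [LinearOrderedCommGroupWithZero Γ₂]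

/-- **F1, one chart, provider form.** -/
theorem s35f1_chart_pt (π : Λ) (hπ : Irreducible π) {t : F} (ht : Transcendental K t)
    [IsDedekindDomain ↥(integralClosure (Algebra.adjoin K {t}) F)]
    [IsFractionRing ↥(integralClosure (Algebra.adjoin K {t}) F) F]
    [IsNoetherianRing ↥(integralClosure (Algebra.adjoin Λ {t}) F)]
    (w₁ : Valuation F Γ₁) (w₂ : Valuation F Γ₂)
    (hVw : ∀ f : F, IsIntegral (S18.gaussSub π hπ.prime t) f ↔ w₁ f ≤ 1 ∧ w₂ f ≤ 1)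
    (hπw : ∀ f : F, w₁ f < 1 → w₂ f < 1 →
      ∃ δ : F, IsIntegral (S18.gaussSub π hπ.prime t) δ ∧ f = π • δ)
    (hπ₁ : w₁ (algebraMap Λ F π) < 1) (hπ₂ : w₂ (algebraMap Λ F π) < 1)
    (hΛ₁ : ∀ c : Λ, IsUnit c → w₁ (algebraMap Λ F c) = 1)
    (s2 : F ≃+* F) (hs2t : s2 t = t)
    (hs2Λ : ∀ c : Λ, ∃ c' : Λ, s2 (algebraMap Λ F c) = algebraMap Λ F c')
    (hs2Λs : ∀ c : Λ, ∃ c' : Λ, s2.symm (algebraMap Λ F c) = algebraMap Λ F c')
    (hs₁ : ∀ f : F, w₁ (s2 f) = w₁ f) (hs₂ : ∀ f : F, w₂ (s2 f) = w₂ f)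
    (Q : ℕ) (hfrob : ∀ c : Λ, w₁ (s2 (algebraMap Λ F c) - algebraMap Λ F c ^ Q) < 1)
    (m : ℕ) (hm : m ≠ 0) {u : F} (hu : u ≠ 0)
    (hu1 : ∃ δ : F, IsIntegral (S18.gaussSub π hπ.prime t) δ ∧ u - 1 = π • δ)
    (hdiv : ∀ 𝔔 : HeightOneSpectrum ↥(integralClosure (Algebra.adjoin K {t}) F),
      ∃ n : ℤ, 𝔔.valuation F u = WithZero.exp ((m : ℤ) * n))
    (a₀ : ↥(integralClosure (Algebra.adjoin Λ {t}) F)) (ha₀ : s2 (a₀ : F) = (a₀ : F))
    (hdict : ∀ 𝔫 : Ideal ↥(integralClosure (Algebra.adjoin Λ {t}) F), 𝔫.IsMaximal →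
      algebraMap Λ ↥(integralClosure (Algebra.adjoin Λ {t}) F) π ∈ 𝔫 → a₀ ∈ 𝔫 →
      ∀ 𝔔 ∈ absThrough (absIncl Λ K t) 𝔫, 𝔔.valuation F u ≠ 1 →
      ∃ φ : ↥(integralClosure (Algebra.adjoin Λ {t}) F) →ₐ[Λ] Λ,
        𝔫 = Ideal.comap (φ : ↥(integralClosure (Algebra.adjoin Λ {t}) F) →+* Λ)
          (Ideal.span {π}) ∧
        ∀ b : ↥(integralClosure (Algebra.adjoin Λ {t}) F),
          absIncl Λ K t b ∈ 𝔔.asIdeal ↔ φ b = 0)
    (hinst : ∀ φ : ↥(integralClosure (Algebra.adjoin Λ {t}) F) →ₐ[Λ] Λ, π ∣ φ a₀ →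
      S35F1One π w₁ w₂
        (Ideal.comap (φ : ↥(integralClosure (Algebra.adjoin Λ {t}) F) →+* Λ) (Ideal.span {π})) ∨
      S35F1Cross π w₁ w₂
        (Ideal.comap (φ : ↥(integralClosure (Algebra.adjoin Λ {t}) F) →+* Λ) (Ideal.span {π})) ∨
      S35F1CrossN π w₁ w₂
        (Ideal.comap (φ : ↥(integralClosure (Algebra.adjoin Λ {t}) F) →+* Λ) (Ideal.span {π})))
    (hsig : ∀ 𝔫 : Ideal ↥(integralClosure (Algebra.adjoin Λ {t}) F), 𝔫.IsMaximal →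
      algebraMap Λ ↥(integralClosure (Algebra.adjoin Λ {t}) F) π ∈ 𝔫 → a₀ ∈ 𝔫 →
      (∀ b : ↥(integralClosure (Algebra.adjoin Λ {t}) F), w₁ (b : F) < 1 → b ∈ 𝔫) →
      (∀ b : ↥(integralClosure (Algebra.adjoin Λ {t}) F), w₂ (b : F) < 1 → b ∈ 𝔫) →
      ∀ b b' : ↥(integralClosure (Algebra.adjoin Λ {t}) F),
        (b' : F) = s2 (b : F) → b ∈ 𝔫 → b' ∈ 𝔫)
    (𝔪 : Ideal ↥(integralClosure (Algebra.adjoin Λ {t}) F)) (h𝔪 : 𝔪.IsMaximal)
    (hπ𝔪 : algebraMap Λ ↥(integralClosure (Algebra.adjoin Λ {t}) F) π ∈ 𝔪)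
    (ha₀𝔪 : a₀ ∈ 𝔪) :
    ∃ G : F, G ≠ 0 ∧ IsIntegral (S18.gaussSub π hπ.prime t) G⁻¹ ∧
      (∃ δ : F, IsIntegral (S18.gaussSub π hπ.prime t) δ ∧ G - 1 = π • δ) ∧
      ∀ 𝔔 ∈ absThrough (absIncl Λ K t) 𝔪, 𝔔.valuation F ((s2 u / u ^ Q) / G ^ m) ≤ 1 := by
  have h𝔪p : 𝔪.IsPrime := h𝔪.isPrime
  have htΛ : Transcendental Λ t := S18.GaussLineK.transcendental_of_fraction ht
  have hs2st : s2.symm t = t := abs_symm_fix s2 hs2t
  -- the restriction of `s2` to the chart ring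
  let sB : ↥(integralClosure (Algebra.adjoin Λ {t}) F) →+*
      ↥(integralClosure (Algebra.adjoin Λ {t}) F) :=
    ((s2 : F →+* F).comp (algebraMap ↥(integralClosure (Algebra.adjoin Λ {t}) F) F)).codRestrict
      (integralClosure (Algebra.adjoin Λ {t}) F)
      (fun b => abs_isIntegral_map_adjoin (s2 : F →+* F) hs2t hs2Λ b.2)
  have hsB : ∀ b : ↥(integralClosure (Algebra.adjoin Λ {t}) F), ((sB b : _) : F) = s2 (b : F) :=
    fun _ => rfl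
  have hsBsurj : Function.Surjective sB := by
    intro b
    refine ⟨⟨s2.symm (b : F), abs_isIntegral_map_adjoin (s2.symm : F →+* F) hs2st hs2Λs b.2⟩, ?_⟩
    apply Subtype.ext
    rw [hsB]
    exact s2.apply_symm_apply _
  -- the second closed point
  have h𝔪' : (Ideal.comap sB 𝔪).IsMaximal := Ideal.comap_isMaximal_of_surjective sB hsBsurj
  have hmem' : ∀ b : ↥(integralClosure (Algebra.adjoin Λ {t}) F),
      b ∈ Ideal.comap sB 𝔪 ↔ sB b ∈ 𝔪 := fun _ => Iff.rfl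
  have hπ𝔪' : algebraMap Λ ↥(integralClosure (Algebra.adjoin Λ {t}) F) π ∈ Ideal.comap sB 𝔪 := by
    rw [hmem']
    obtain ⟨c', hc'⟩ := hs2Λ π
    have hc'1 : w₁ (algebraMap Λ F c') < 1 := by rw [← hc', hs₁]; exact hπ₁
    have hnu : ¬ IsUnit c' := fun h => absurd (hΛ₁ c' h) (ne_of_lt hc'1)
    have hdvd : π ∣ c' := by
      have h1 : c' ∈ IsLocalRing.maximalIdeal Λ := hnu
      rw [(IsDiscreteValuationRing.irreducible_iff_uniformizer π).mp hπ,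
        Ideal.mem_span_singleton] at h1
      exact h1
    obtain ⟨d, rfl⟩ := hdvd
    have e : sB (algebraMap Λ ↥(integralClosure (Algebra.adjoin Λ {t}) F) π) =
        algebraMap Λ ↥(integralClosure (Algebra.adjoin Λ {t}) F) π *
          algebraMap Λ ↥(integralClosure (Algebra.adjoin Λ {t}) F) d := by
      apply Subtype.ext
      rw [hsB, ← map_mul]
      exact hc'
    rw [e]
    exact 𝔪.mul_mem_right _ hπ𝔪
  have ha₀𝔪' : a₀ ∈ Ideal.comap sB 𝔪 := by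
    rw [hmem']
    have e : sB a₀ = a₀ := Subtype.ext (by rw [hsB]; exact ha₀)
    rw [e]
    exact ha₀𝔪
  have hs𝔪 : ∀ b b' : ↥(integralClosure (Algebra.adjoin Λ {t}) F),
      (b' : F) = s2 (b : F) → b' ∈ 𝔪 → b ∈ Ideal.comap sB 𝔪 := by
    intro b b' hbb' hb'
    rw [hmem']
    have e : sB b = b' := Subtype.ext (by rw [hsB]; exact hbb'.symm)
    rw [e]
    exact hb'
  -- the trivial-or-one-component alternative at a closed point not containing both vertical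
  -- primes
  have hone : ∀ 𝔫 : Ideal ↥(integralClosure (Algebra.adjoin Λ {t}) F), 𝔫.IsMaximal →
      algebraMap Λ ↥(integralClosure (Algebra.adjoin Λ {t}) F) π ∈ 𝔫 → a₀ ∈ 𝔫 →
      ¬ ((∀ b : ↥(integralClosure (Algebra.adjoin Λ {t}) F), w₁ (b : F) < 1 → b ∈ 𝔫) ∧
        (∀ b : ↥(integralClosure (Algebra.adjoin Λ {t}) F), w₂ (b : F) < 1 → b ∈ 𝔫)) →
      ((∀ 𝔔 ∈ absThrough (absIncl Λ K t) 𝔫, 𝔔.valuation F u = 1) ∨ S35F1One π w₁ w₂ 𝔫) := by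
    intro 𝔫 h𝔫 hπ𝔫 ha₀𝔫 hnot
    by_cases htriv : ∀ 𝔔 ∈ absThrough (absIncl Λ K t) 𝔫, 𝔔.valuation F u = 1
    · exact Or.inl htriv
    · right
      simp only [not_forall] at htriv
      obtain ⟨𝔔, h𝔔, h𝔔u⟩ := htriv
      obtain ⟨φ, h𝔫φ, -⟩ := hdict 𝔫 h𝔫 hπ𝔫 ha₀𝔫 𝔔 h𝔔 h𝔔u
      have hφa₀ : π ∣ φ a₀ := by
        rw [h𝔫φ, Ideal.mem_comap, Ideal.mem_span_singleton] at ha₀𝔫
        exact ha₀𝔫
      rcases hinst φ hφa₀ with h | h | h
      · rw [h𝔫φ]; exact h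
      · exfalso
        rw [← h𝔫φ] at h
        obtain ⟨x, y, -, -, -, -, -, h1, h2, -⟩ := h
        exact hnot ⟨h1, h2⟩
      · exfalso
        rw [← h𝔫φ] at h
        obtain ⟨x, y, G, -, -, -, -, -, -, h1, h2, -⟩ := h
        exact hnot ⟨h1, h2⟩
  -- chart facts needed for the crossing lemmas
  have hinj : Function.Injective (algebraMap ↥(integralClosure (Algebra.adjoin Λ {t}) F) F) :=
    Subtype.val_injective
  have hBV : ∀ b : ↥(integralClosure (Algebra.adjoin Λ {t}) F),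
      IsIntegral (S18.gaussSub π hπ.prime t)
        (algebraMap ↥(integralClosure (Algebra.adjoin Λ {t}) F) F b) := fun b =>
    S18.GaussLineK.isIntegral_of_isIntegral_adjoin π hπ.prime htΛ (s := {t}) (by simp) b.2
  have hK : ∀ y : ↥(integralClosure (Algebra.adjoin K {t}) F),
      IsIntegral (S18.gaussSub π hπ.prime t)
        (algebraMap ↥(integralClosure (Algebra.adjoin K {t}) F) F y) →
      ∃ b : ↥(integralClosure (Algebra.adjoin Λ {t}) F),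
        algebraMap ↥(integralClosure (Algebra.adjoin Λ {t}) F) F b =
          algebraMap ↥(integralClosure (Algebra.adjoin K {t}) F) F y := fun y hy =>
    ⟨⟨(y : F), abs_isIntegral_of_gauss π hπ ht y.2 hy⟩, rfl⟩
  have hdiv𝔪 : ∀ 𝔔 ∈ absThrough (absIncl Λ K t) 𝔪,
      ∃ n : ℤ, 𝔔.valuation F u = WithZero.exp ((m : ℤ) * n) := fun 𝔔 _ => hdiv 𝔔
  have hpoint := hdict 𝔪 h𝔪 hπ𝔪 ha₀𝔪
  have hpoint' := hdict _ h𝔪' hπ𝔪' ha₀𝔪'
  -- the closed-point alternative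
  have hcl : (((∀ 𝔔 ∈ absThrough (absIncl Λ K t) 𝔪, 𝔔.valuation F u = 1) ∨
        S35F1One π w₁ w₂ 𝔪) ∧
      ((∀ 𝔔 ∈ absThrough (absIncl Λ K t) (Ideal.comap sB 𝔪), 𝔔.valuation F u = 1) ∨
        S35F1One π w₁ w₂ (Ideal.comap sB 𝔪))) ∨
      (Ideal.comap sB 𝔪 = 𝔪 ∧ ∃ (g : F) (c : Λ), g ≠ 0 ∧ IsUnit c ∧
        w₁ (g - algebraMap Λ F c) < 1 ∧ w₂ (g - 1) < 1 ∧
        ∀ 𝔔 ∈ absThrough (absIncl Λ K t) 𝔪, 𝔔.valuation F (u / g ^ m) = 1) := by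
    by_cases hboth : (∀ b : ↥(integralClosure (Algebra.adjoin Λ {t}) F), w₁ (b : F) < 1 → b ∈ 𝔪) ∧
        (∀ b : ↥(integralClosure (Algebra.adjoin Λ {t}) F), w₂ (b : F) < 1 → b ∈ 𝔪)
    · -- both vertical primes through `𝔪`: `𝔪` is `s2`-stable
      have hle : 𝔪 ≤ Ideal.comap sB 𝔪 := by
        intro b hb
        rw [hmem']
        exact hsig 𝔪 h𝔪 hπ𝔪 ha₀𝔪 hboth.1 hboth.2 b (sB b) (hsB b) hb
      have heq : Ideal.comap sB 𝔪 = 𝔪 := (h𝔪.eq_of_le h𝔪'.ne_top hle).symm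
      by_cases htriv : ∀ 𝔔 ∈ absThrough (absIncl Λ K t) 𝔪, 𝔔.valuation F u = 1
      · left
        refine ⟨Or.inl htriv, Or.inl ?_⟩
        rw [heq]
        exact htriv
      · simp only [not_forall] at htriv
        obtain ⟨𝔔, h𝔔, h𝔔u⟩ := htriv
        obtain ⟨φ, h𝔪φ, -⟩ := hpoint 𝔔 h𝔔 h𝔔u
        have hφa₀ : π ∣ φ a₀ := by
          have h := ha₀𝔪
          rw [h𝔪φ, Ideal.mem_comap, Ideal.mem_span_singleton] at h
          exact h
        rcases hinst φ hφa₀ with h | h | h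
        · left
          rw [← h𝔪φ] at h
          refine ⟨Or.inr h, Or.inr ?_⟩
          rw [heq]
          exact h
        · right
          rw [← h𝔪φ] at h
          obtain ⟨x, y, hx𝔪, hy𝔪, hx₂, hy₁, hgen, h𝔪₁, h𝔪₂, hXtype⟩ := h
          exact ⟨heq, s35f1_pt_cross (absIncl Λ K t) (algebraMap_absIncl Λ K t)
            hinj π hπ (abs_isUnit_incl Λ K t π hπ.ne_zero) (abs_incl_loc Λ K t π hπ) 𝔪 hπ𝔪
            (S18.gaussSub π hπ.prime t) hBV hK w₁ w₂ hVw hπ₁ hπ₂ h𝔪₁ h𝔪₂ m hm hu hu1 hdiv𝔪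
            x y hx𝔪 hy𝔪 hx₂ hy₁ hgen hpoint hXtype⟩
        · right
          rw [← h𝔪φ] at h
          obtain ⟨x, y, G, hxy, hx𝔪, hy𝔪, hx₂, hy₁, hgen, h𝔪₁, h𝔪₂, hnb⟩ := h
          exact ⟨heq, s35f1n_pt_cross_of_not_bad (absIncl Λ K t) (algebraMap_absIncl Λ K t)
            hinj π hπ (abs_isUnit_incl Λ K t π hπ.ne_zero) (abs_incl_loc Λ K t π hπ) 𝔪 hπ𝔪
            (S18.gaussSub π hπ.prime t) hBV hK w₁ w₂ hVw hπ₁ hπ₂ h𝔪₁ h𝔪₂ m hm hu hu1 hdiv𝔪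
            x y G hx𝔪 hy𝔪 hxy hx₂ hy₁ hgen hpoint hnb⟩
    · left
      refine ⟨hone 𝔪 h𝔪 hπ𝔪 ha₀𝔪 hboth, hone _ h𝔪' hπ𝔪' ha₀𝔪' ?_⟩
      rintro ⟨h1, h2⟩
      apply hboth
      constructor
      · intro b hb
        obtain ⟨c, rfl⟩ := hsBsurj b
        have hc : w₁ ((c : _) : F) < 1 := by
          have : w₁ ((sB c : _) : F) < 1 := hb
          rwa [hsB, hs₁] at this
        exact (hmem' c).mp (h1 c hc)
      · intro b hb
        obtain ⟨c, rfl⟩ := hsBsurj b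
        have hc : w₂ ((c : _) : F) < 1 := by
          have : w₂ ((sB c : _) : F) < 1 := hb
          rwa [hsB, hs₂] at this
        exact (hmem' c).mp (h2 c hc)
  exact s35f1_chart π hπ ht w₁ w₂ hVw hπw hπ₁ hπ₂ hΛ₁ s2 hs2t hs2Λ hs2Λs hs₁ hs₂ Q hfrob m hm hu
    hu1 hdiv 𝔪 (Ideal.comap sB 𝔪) h𝔪 h𝔪' hπ𝔪 hπ𝔪' hs𝔪 hpoint hpoint' hcl

end Chart

end Fermat.Agent.S35
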