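import Mathlib

/-!
P20 (S35), block F1, NOFT companion (L1): the kernel of a `Λ`-point of the chart ring `B` is
locally principal at its generic point, because the generic fibre `Bη = B[1/π]` is a Dedekind
domain.

`s35f1_dvr_of_dedekind` : `ker φ = B ∩ 𝔔` for a height-one prime `𝔔` of `Bη`; then there are
`ϖ ∈ ker φ` and `s₀ ∉ ker φ` with `s₀ · ker φ ⊆ ϖ · B`.
-/

set_option autoImplicit false

namespace Fermat.Agent.S35

open IsDedekindDomain

theorem s35f1_dvr_of_dedekind {Λ B Bη F : Type*} [CommRing Λ] [IsDomain Λ]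
    [IsDiscreteValuationRing Λ] [CommRing B] [IsDomain B] [IsNoetherianRing B] [Algebra Λ B]
    [CommRing Bη] [IsDedekindDomain Bη] [Field F] [Algebra Bη F] [IsFractionRing Bη F]
    [Algebra B F]
    (hBF : Function.Injective (algebraMap B F)) (ι : B →+* Bη)
    (hι : ∀ b : B, algebraMap Bη F (ι b) = algebraMap B F b)
    (π : Λ) (hπu : IsUnit (ι (algebraMap Λ B π)))
    (hloc : ∀ y : Bη, ∃ (n : ℕ) (b : B), ι (algebraMap Λ B π) ^ n * y = ι b)
    (φ : B →ₐ[Λ] Λ) (𝔔 : HeightOneSpectrum Bη)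
    (h𝔔 : ∀ b : B, ι b ∈ 𝔔.asIdeal ↔ φ b = 0) :
    ∃ ϖ s₀ : B, φ ϖ = 0 ∧ φ s₀ ≠ 0 ∧ ∀ z : B, φ z = 0 → ϖ ∣ s₀ * z := by
  classical
  -- `ι` is injective
  have hιinj : Function.Injective ι := by
    intro a b hab
    apply hBF
    rw [← hι, ← hι, hab]
  -- `π ≠ 0` and multiplication by powers of `π` does not change membership in `𝔔`
  have hπ0 : π ≠ 0 := by
    rintro rfl
    rw [map_zero, map_zero] at hπu
    exact not_isUnit_zero hπu
  have hnot𝔔 : ∀ (n : ℕ) (y : Bη), ι (algebraMap Λ B π) ^ n * y ∈ 𝔔.asIdeal →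
      y ∈ 𝔔.asIdeal := by
    intro n y hy
    obtain ⟨u, hu⟩ := hπu.pow n
    have h1 : y = ((u⁻¹ : Bηˣ) : Bη) * (ι (algebraMap Λ B π) ^ n * y) := by
      rw [← hu, ← mul_assoc, Units.inv_mul, one_mul]
    rw [h1]
    exact 𝔔.asIdeal.mul_mem_left _ hy
  -- a uniformiser of `𝔔` and a uniform denominator
  obtain ⟨ϖ₀, hϖ₀⟩ := 𝔔.intValuation_exists_uniformizer
  have hϖ₀mem : ϖ₀ ∈ 𝔔.asIdeal := by
    rw [← 𝔔.intValuation_lt_one_iff_mem, hϖ₀, ← WithZero.exp_zero, WithZero.exp_lt_exp]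
    norm_num
  have hϖ₀sq : ϖ₀ ∉ 𝔔.asIdeal ^ 2 := by
    intro h
    have h2 := (𝔔.intValuation_le_pow_iff_mem ϖ₀ 2).mpr h
    rw [hϖ₀, WithZero.exp_le_exp] at h2
    norm_num at h2
  have hle : Ideal.span {ϖ₀} ≤ 𝔔.asIdeal := (Ideal.span_singleton_le_iff_mem _).mpr hϖ₀mem
  obtain ⟨J, hJ⟩ := Ideal.dvd_iff_le.mpr hle
  have hJ𝔔 : ¬ J ≤ 𝔔.asIdeal := by
    intro h
    apply hϖ₀sq
    have h2 : Ideal.span {ϖ₀} ≤ 𝔔.asIdeal ^ 2 := by
      rw [hJ, sq]
      exact Ideal.mul_mono_right h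
    exact h2 (Ideal.mem_span_singleton_self ϖ₀)
  obtain ⟨s₁, hs₁J, hs₁𝔔⟩ := SetLike.not_le_iff_exists.mp hJ𝔔
  have key : ∀ z' ∈ 𝔔.asIdeal, ϖ₀ ∣ s₁ * z' := by
    intro z' hz'
    have h2 : z' * s₁ ∈ Ideal.span {ϖ₀} := by
      rw [hJ]
      exact Ideal.mul_mem_mul hz' hs₁J
    rw [mul_comm]
    exact Ideal.mem_span_singleton.mp h2
  -- move `ϖ₀`, `s₁` into `B`
  obtain ⟨n₀, ϖ, hϖ⟩ := hloc ϖ₀
  obtain ⟨n₁, s', hs'⟩ := hloc s₁
  have hφϖ : φ ϖ = 0 := (h𝔔 ϖ).mp (by rw [← hϖ]; exact 𝔔.asIdeal.mul_mem_left _ hϖ₀mem)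
  have hφs' : φ s' ≠ 0 := fun h =>
    hs₁𝔔 (hnot𝔔 n₁ s₁ (by rw [hs']; exact (h𝔔 s').mpr h))
  -- each element of `ker φ` is divisible by `ϖ` after multiplication by `π ^ n * s'`
  have hstep : ∀ z : B, ∃ n : ℕ, φ z = 0 → ϖ ∣ algebraMap Λ B π ^ n * (s' * z) := by
    intro z
    by_cases hz : φ z = 0
    · obtain ⟨a, ha⟩ := key (ι z) ((h𝔔 z).mpr hz)
      obtain ⟨n₂, b, hb⟩ := hloc a
      refine ⟨n₀ + n₂, fun _ => ⟨algebraMap Λ B π ^ n₁ * b, ?_⟩⟩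
      apply hιinj
      rw [map_mul, map_mul, map_mul, map_mul, map_pow, map_pow, ← hϖ, ← hb, ← hs', pow_add]
      linear_combination (ι (algebraMap Λ B π) ^ n₀ * ι (algebraMap Λ B π) ^ n₂ *
        ι (algebraMap Λ B π) ^ n₁) * ha
    · exact ⟨0, fun h => absurd h hz⟩
  choose n hn using hstep
  -- finite generation of `ker φ`
  obtain ⟨S, hS⟩ := (isNoetherianRing_iff_ideal_fg B).mp inferInstance
    (RingHom.ker (φ : B →+* Λ))
  refine ⟨ϖ, algebraMap Λ B π ^ S.sup n * s', hφϖ, ?_, ?_⟩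
  · rw [map_mul, map_pow, AlgHom.commutes]
    exact mul_ne_zero (pow_ne_zero _ hπ0) hφs'
  · have hgen : ∀ g ∈ (S : Set B), ϖ ∣ algebraMap Λ B π ^ S.sup n * s' * g := by
      intro g hg
      have hgk : φ g = 0 := by
        have h2 : g ∈ RingHom.ker (φ : B →+* Λ) := by
          rw [← hS]
          exact Ideal.subset_span hg
        exact (RingHom.mem_ker (f := (φ : B →+* Λ))).mp h2
      obtain ⟨k, hk⟩ := Nat.exists_eq_add_of_le (Finset.le_sup (f := n) (Finset.mem_coe.mp hg))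
      obtain ⟨c, hc⟩ := hn g hgk
      refine ⟨algebraMap Λ B π ^ k * c, ?_⟩
      rw [hk, pow_add]
      linear_combination (algebraMap Λ B π ^ k) * hc
    have hall : ∀ z ∈ Ideal.span (S : Set B), ϖ ∣ algebraMap Λ B π ^ S.sup n * s' * z := by
      intro z hzS
      induction hzS using Submodule.span_induction with
      | mem g hg => exact hgen g hg
      | zero => rw [mul_zero]; exact dvd_zero ϖ
      | add a b _ _ ha hb => rw [mul_add]; exact dvd_add ha hb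
      | smul r a _ ha =>
        rw [smul_eq_mul, mul_left_comm]
        exact Dvd.dvd.mul_left ha r
    intro z hz
    apply hall
    rw [hS]
    exact (RingHom.mem_ker (f := (φ : B →+* Λ))).mpr hz

end Fermat.Agent.S35
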