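import Mathlib

/-!
# P20 (S35), block F1: provider of `hP1` (F1-THICK / F1-XT) from the weak crossing datum

At a crossing point `𝔪` with `𝔪 = (ϖ, x, y)` locally, `ϖ, x ∈ 𝔭₁`, `y ∈ 𝔪 ∖ 𝔭₁` (`𝔭₁` prime,
`𝔭₁ ≤ 𝔪`, `B` noetherian): `𝔭₁ = (ϖ, x)` locally at `𝔪`, i.e. there is `a ∉ 𝔪` with
`a • 𝔭₁ ⊆ (ϖ, x)`.

* `s35f1_inst_hP1` : ideal form (Nakayama in the localisation at `𝔪`);
* `s35f1_inst_hP1_swap` : the same for `𝔭₂ = (ϖ, y)`;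
* `s35f1_inst_hP1_val` : valuation form, `𝔭₁ = {b | w₁ b < 1}`;
* `s35f1_inst_hP1_xt`, `s35f1_inst_hP1_xt'` : the exact `hP1` text of `s35f1_xtype_of_cert`;
* `s35f1_inst_hP1_thick` : the exact `hP1` text of `s35f1_thick`.
-/

set_option autoImplicit false

namespace Fermat.Agent.S35

/-- For `f ∈ 𝔭₁`: `a f ∈ (ϖ, x) + y 𝔭₁` for some `a ∉ 𝔪`. -/
theorem s35f1p1_step {B : Type*} [CommRing B] (ϖ : B) (𝔪 : Ideal B)
    (𝔭₁ : Ideal B) [𝔭₁.IsPrime] (hϖ₁ : ϖ ∈ 𝔭₁) (x y : B) (hx₁ : x ∈ 𝔭₁)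
    (hy₁ : y ∉ 𝔭₁)
    (hgen : ∀ z ∈ 𝔪, ∃ a : B, a ∉ 𝔪 ∧ a * z ∈ Ideal.span {ϖ, x, y}) (h1 : 𝔭₁ ≤ 𝔪)
    (f : B) (hf : f ∈ 𝔭₁) :
    ∃ a : B, a ∉ 𝔪 ∧ ∃ i ∈ Ideal.span {ϖ, x}, ∃ e ∈ 𝔭₁, a * f = i + y * e := by
  obtain ⟨a, ha, haf⟩ := hgen f (h1 hf)
  rw [Ideal.mem_span_insert] at haf
  obtain ⟨r, z, hz, hafz⟩ := haf
  rw [Ideal.mem_span_pair] at hz
  obtain ⟨d, e, rfl⟩ := hz
  refine ⟨a, ha, r * ϖ + d * x, ?_, e, ?_, ?_⟩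
  · exact Ideal.add_mem _ (Ideal.mul_mem_left _ _ (Ideal.subset_span (by simp)))
      (Ideal.mul_mem_left _ _ (Ideal.subset_span (by simp)))
  · have h2 : e * y ∈ 𝔭₁ := by
      have h3 : e * y = a * f - (r * ϖ + d * x) := by rw [hafz]; ring
      rw [h3]
      exact 𝔭₁.sub_mem (𝔭₁.mul_mem_left _ hf)
        (𝔭₁.add_mem (𝔭₁.mul_mem_left _ hϖ₁) (𝔭₁.mul_mem_left _ hx₁))
    exact (Ideal.IsPrime.mem_or_mem inferInstance h2).resolve_right hy₁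
  · rw [hafz]; ring

/-- **`hP1`, ideal form.**  Locally at `𝔪`, `𝔭₁ = (ϖ, x)`. -/
theorem s35f1_inst_hP1 {B : Type*} [CommRing B] [IsNoetherianRing B] (ϖ : B) (𝔪 : Ideal B)
    [𝔪.IsPrime] (𝔭₁ : Ideal B) [𝔭₁.IsPrime] (hϖ₁ : ϖ ∈ 𝔭₁) (x y : B) (hx₁ : x ∈ 𝔭₁)
    (hy𝔪 : y ∈ 𝔪) (hy₁ : y ∉ 𝔭₁)
    (hgen : ∀ z ∈ 𝔪, ∃ a : B, a ∉ 𝔪 ∧ a * z ∈ Ideal.span {ϖ, x, y}) (h1 : 𝔭₁ ≤ 𝔪) :
    ∃ a : B, a ∉ 𝔪 ∧ ∀ f ∈ 𝔭₁, ∃ r d : B, a * f = ϖ * r + x * d := by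
  classical
  have hJ : IsLocalRing.maximalIdeal (Localization.AtPrime 𝔪) ≤
      Ideal.jacobson (⊥ : Ideal (Localization.AtPrime 𝔪)) := by
    rw [IsLocalRing.jacobson_eq_maximalIdeal ⊥ bot_ne_top]
  -- Nakayama in the localisation
  have hNak : 𝔭₁.map (algebraMap B (Localization.AtPrime 𝔪)) ≤
      (Ideal.span {ϖ, x}).map (algebraMap B (Localization.AtPrime 𝔪)) := by
    refine Submodule.le_of_le_smul_of_le_jacobson_bot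
      (I := IsLocalRing.maximalIdeal (Localization.AtPrime 𝔪)) ?_ hJ ?_
    · exact Ideal.FG.map (IsNoetherian.noetherian 𝔭₁) _
    · rw [Ideal.map, Ideal.span_le]
      rintro _ ⟨f, hf, rfl⟩
      obtain ⟨a, ha, i, hi, e, he, hafe⟩ := s35f1p1_step ϖ 𝔪 𝔭₁ hϖ₁ x y hx₁ hy₁ hgen h1 f hf
      obtain ⟨u, hu⟩ : IsUnit (algebraMap B (Localization.AtPrime 𝔪) a) :=
        IsLocalization.map_units (Localization.AtPrime 𝔪) (⟨a, ha⟩ : 𝔪.primeCompl)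
      have h2 := congrArg (algebraMap B (Localization.AtPrime 𝔪)) hafe
      rw [map_mul, map_add, map_mul, ← hu] at h2
      have h3 : algebraMap B (Localization.AtPrime 𝔪) f =
          ((u⁻¹ : (Localization.AtPrime 𝔪)ˣ) : Localization.AtPrime 𝔪) *
              algebraMap B (Localization.AtPrime 𝔪) i +
            (((u⁻¹ : (Localization.AtPrime 𝔪)ˣ) : Localization.AtPrime 𝔪) *
              algebraMap B (Localization.AtPrime 𝔪) y) •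
              algebraMap B (Localization.AtPrime 𝔪) e := by
        rw [smul_eq_mul]
        calc algebraMap B (Localization.AtPrime 𝔪) f
            = ((u⁻¹ : (Localization.AtPrime 𝔪)ˣ) : Localization.AtPrime 𝔪) *
                ((u : Localization.AtPrime 𝔪) * algebraMap B (Localization.AtPrime 𝔪) f) := by
              rw [← mul_assoc, Units.inv_mul, one_mul]
          _ = _ := by rw [h2]; ring
      rw [SetLike.mem_coe, h3]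
      refine Submodule.add_mem _ (Submodule.mem_sup_left ?_) (Submodule.mem_sup_right ?_)
      · exact Ideal.mul_mem_left _ _ (Ideal.mem_map_of_mem _ hi)
      · refine Submodule.smul_mem_smul (Ideal.mul_mem_left _ _ ?_) (Ideal.mem_map_of_mem _ he)
        rw [← Localization.AtPrime.map_eq_maximalIdeal]
        exact Ideal.mem_map_of_mem _ hy𝔪
  have hloc : ∀ f ∈ 𝔭₁, ∃ s : B, s ∉ 𝔪 ∧ s * f ∈ Ideal.span {ϖ, x} := by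
    intro f hf
    have h2 := hNak (Ideal.mem_map_of_mem _ hf)
    rw [IsLocalization.algebraMap_mem_map_algebraMap_iff 𝔪.primeCompl] at h2
    obtain ⟨s, hs, hsf⟩ := h2
    exact ⟨s, hs, hsf⟩
  obtain ⟨T, hT⟩ := (IsNoetherian.noetherian 𝔭₁ : 𝔭₁.FG)
  choose! s hs hsI using hloc
  have hTmem : ∀ t ∈ T, t ∈ 𝔭₁ := fun t ht => hT ▸ Ideal.subset_span ht
  refine ⟨∏ t ∈ T, s t, ?_, ?_⟩
  · intro hprod
    obtain ⟨t, ht, hst⟩ := (Ideal.IsPrime.prod_mem_iff (p := 𝔪)).mp hprod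
    exact hs t (hTmem t ht) hst
  · intro f hf
    have h2 : (∏ t ∈ T, s t) * f ∈ Ideal.span {ϖ, x} := by
      rw [← hT] at hf
      refine Submodule.span_induction ?_ ?_ ?_ ?_ hf
      · intro t ht
        obtain ⟨c, hc⟩ := Finset.dvd_prod_of_mem s ht
        rw [hc, mul_comm (s t) c, mul_assoc]
        exact Ideal.mul_mem_left _ _ (hsI t (hTmem t ht))
      · rw [mul_zero]
        exact Ideal.zero_mem _
      · intro u v _ _ hu hv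
        rw [mul_add]
        exact Ideal.add_mem _ hu hv
      · intro c u _ hu
        rw [smul_eq_mul, mul_left_comm]
        exact Ideal.mul_mem_left _ _ hu
    rw [Ideal.mem_span_pair] at h2
    obtain ⟨r, d, hrd⟩ := h2
    exact ⟨r, d, by rw [← hrd]; ring⟩

/-- Symmetric form: locally at `𝔪`, `𝔭₂ = (ϖ, y)` (with the same `hgen`). -/
theorem s35f1_inst_hP1_swap {B : Type*} [CommRing B] [IsNoetherianRing B] (ϖ : B)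
    (𝔪 : Ideal B) [𝔪.IsPrime] (𝔭₂ : Ideal B) [𝔭₂.IsPrime] (hϖ₂ : ϖ ∈ 𝔭₂) (x y : B)
    (hy₂ : y ∈ 𝔭₂) (hx𝔪 : x ∈ 𝔪) (hx₂ : x ∉ 𝔭₂)
    (hgen : ∀ z ∈ 𝔪, ∃ a : B, a ∉ 𝔪 ∧ a * z ∈ Ideal.span {ϖ, x, y}) (h2 : 𝔭₂ ≤ 𝔪) :
    ∃ a : B, a ∉ 𝔪 ∧ ∀ f ∈ 𝔭₂, ∃ r d : B, a * f = ϖ * r + y * d := by
  have hset : ({ϖ, x, y} : Set B) = {ϖ, y, x} := by rw [Set.pair_comm x y]
  exact s35f1_inst_hP1 ϖ 𝔪 𝔭₂ hϖ₂ y x hy₂ hx𝔪 hx₂ (by rw [← hset]; exact hgen) h2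

section Val

variable {B F Γ₁ : Type*} [CommRing B] [Field F] [Algebra B F]
  [LinearOrderedCommGroupWithZero Γ₁]

/-- The centre on `B` of a valuation of `F` that is `≤ 1` on `B`. -/
def s35f1p1Centre (w₁ : Valuation F Γ₁) (hw₁B : ∀ b : B, w₁ (algebraMap B F b) ≤ 1) :
    Ideal B where
  carrier := {b | w₁ (algebraMap B F b) < 1}
  add_mem' := by
    intro a b ha hb
    show w₁ (algebraMap B F (a + b)) < 1
    rw [map_add]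
    exact lt_of_le_of_lt (w₁.map_add _ _) (max_lt ha hb)
  zero_mem' := by
    show w₁ (algebraMap B F 0) < 1
    rw [map_zero, map_zero]
    exact zero_lt_one
  smul_mem' := by
    intro c b hb
    show w₁ (algebraMap B F (c • b)) < 1
    rw [smul_eq_mul, map_mul, map_mul]
    exact lt_of_le_of_lt (mul_le_of_le_one_left' (hw₁B c)) hb

theorem s35f1p1_mem_centre (w₁ : Valuation F Γ₁) (hw₁B : ∀ b : B, w₁ (algebraMap B F b) ≤ 1)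
    (b : B) : b ∈ s35f1p1Centre w₁ hw₁B ↔ w₁ (algebraMap B F b) < 1 := Iff.rfl

theorem s35f1p1Centre_isPrime (w₁ : Valuation F Γ₁)
    (hw₁B : ∀ b : B, w₁ (algebraMap B F b) ≤ 1) : (s35f1p1Centre w₁ hw₁B).IsPrime := by
  refine ⟨?_, ?_⟩
  · intro h
    have h1 : (1 : B) ∈ s35f1p1Centre w₁ hw₁B := h ▸ Submodule.mem_top
    rw [s35f1p1_mem_centre, map_one, map_one] at h1
    exact lt_irrefl _ h1
  · intro a b hab
    rw [s35f1p1_mem_centre, map_mul, map_mul] at hab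
    by_contra hcon
    rw [not_or, s35f1p1_mem_centre, s35f1p1_mem_centre] at hcon
    have ha : w₁ (algebraMap B F a) = 1 := le_antisymm (hw₁B a) (not_lt.mp hcon.1)
    have hb : w₁ (algebraMap B F b) = 1 := le_antisymm (hw₁B b) (not_lt.mp hcon.2)
    rw [ha, hb, one_mul] at hab
    exact lt_irrefl _ hab

/-- **`hP1`, valuation form** (uniform multiplier `a`). -/
theorem s35f1_inst_hP1_val [IsNoetherianRing B] (ϖ : B) (𝔪 : Ideal B) [𝔪.IsPrime]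
    (w₁ : Valuation F Γ₁)
    (hw₁B : ∀ b : B, w₁ (algebraMap B F b) ≤ 1)
    (hϖ₁ : w₁ (algebraMap B F ϖ) < 1)
    (h𝔪₁ : ∀ b : B, w₁ (algebraMap B F b) < 1 → b ∈ 𝔪)
    (x y : B) (hx₁ : w₁ (algebraMap B F x) < 1) (hy𝔪 : y ∈ 𝔪)
    (hy₁ : w₁ (algebraMap B F y) = 1)
    (hgen : ∀ z ∈ 𝔪, ∃ a : B, a ∉ 𝔪 ∧ a * z ∈ Ideal.span {ϖ, x, y}) :
    ∃ a : B, a ∉ 𝔪 ∧
      ∀ f : B, w₁ (algebraMap B F f) < 1 → ∃ r d : B, a * f = ϖ * r + x * d := by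
  have := s35f1p1Centre_isPrime w₁ hw₁B
  have hy' : y ∉ s35f1p1Centre w₁ hw₁B := by
    rw [s35f1p1_mem_centre, hy₁]
    exact lt_irrefl _
  obtain ⟨a, ha, h⟩ := s35f1_inst_hP1 ϖ 𝔪 (s35f1p1Centre w₁ hw₁B) hϖ₁ x y hx₁ hy𝔪 hy' hgen
    (fun b hb => h𝔪₁ b hb)
  exact ⟨a, ha, fun f hf => h f hf⟩

variable {Λ : Type*} [CommRing Λ] [Algebra Λ B] [Algebra Λ F] [IsScalarTower Λ B F]

/-- **`hP1`**, the exact text of `s35f1_xtype_of_cert` (note 919). -/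
theorem s35f1_inst_hP1_xt [IsNoetherianRing B] (π : Λ) (𝔪 : Ideal B) [𝔪.IsPrime]
    (w₁ : Valuation F Γ₁)
    (hw₁B : ∀ b : B, w₁ (algebraMap B F b) ≤ 1)
    (hπ₁ : w₁ (algebraMap Λ F π) < 1)
    (h𝔪₁ : ∀ b : B, w₁ (algebraMap B F b) < 1 → b ∈ 𝔪)
    (x y : B) (hx₁ : w₁ (algebraMap B F x) < 1) (hy𝔪 : y ∈ 𝔪)
    (hy₁ : w₁ (algebraMap B F y) = 1)
    (hgen : ∀ z ∈ 𝔪, ∃ a : B, a ∉ 𝔪 ∧ a * z ∈ Ideal.span {algebraMap Λ B π, x, y}) :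
    ∀ f : B, w₁ (algebraMap B F f) < 1 →
      ∃ a r d : B, a ∉ 𝔪 ∧ a * f = algebraMap Λ B π * r + x * d := by
  have hϖ₁ : w₁ (algebraMap B F (algebraMap Λ B π)) < 1 := by
    rw [← IsScalarTower.algebraMap_apply]
    exact hπ₁
  obtain ⟨a, ha, h⟩ := s35f1_inst_hP1_val (algebraMap Λ B π) 𝔪 w₁ hw₁B hϖ₁ h𝔪₁ x y hx₁ hy𝔪 hy₁
    hgen
  intro f hf
  obtain ⟨r, d, hrd⟩ := h f hf
  exact ⟨a, r, d, ha, hrd⟩

/-- Variant of `s35f1_inst_hP1_xt` with `w₁ x < 1` deduced from `x * y = π * G`. -/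
theorem s35f1_inst_hP1_xt' [IsNoetherianRing B] (π : Λ) (𝔪 : Ideal B) [𝔪.IsPrime]
    (w₁ : Valuation F Γ₁)
    (hw₁B : ∀ b : B, w₁ (algebraMap B F b) ≤ 1)
    (hπ₁ : w₁ (algebraMap Λ F π) < 1)
    (h𝔪₁ : ∀ b : B, w₁ (algebraMap B F b) < 1 → b ∈ 𝔪)
    (x y G : B) (hxy : x * y = algebraMap Λ B π * G) (hy𝔪 : y ∈ 𝔪)
    (hy₁ : w₁ (algebraMap B F y) = 1)
    (hgen : ∀ z ∈ 𝔪, ∃ a : B, a ∉ 𝔪 ∧ a * z ∈ Ideal.span {algebraMap Λ B π, x, y}) :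
    ∀ f : B, w₁ (algebraMap B F f) < 1 →
      ∃ a r d : B, a ∉ 𝔪 ∧ a * f = algebraMap Λ B π * r + x * d := by
  have hx₁ : w₁ (algebraMap B F x) < 1 := by
    have h1 := congrArg (fun b => w₁ (algebraMap B F b)) hxy
    simp only [map_mul, hy₁, mul_one] at h1
    rw [h1, ← IsScalarTower.algebraMap_apply]
    exact lt_of_le_of_lt (mul_le_of_le_one_right' (hw₁B G)) hπ₁
  exact s35f1_inst_hP1_xt π 𝔪 w₁ hw₁B hπ₁ h𝔪₁ x y hx₁ hy𝔪 hy₁ hgen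

/-- **`hP1`**, the exact text of `s35f1_thick` (note 919), at `𝔪 = φ⁻¹(π)`. -/
theorem s35f1_inst_hP1_thick [IsNoetherianRing B] (π : Λ) (φ : B →ₐ[Λ] Λ) (𝔪 : Ideal B)
    [𝔪.IsPrime] (h𝔪 : 𝔪 = Ideal.comap (φ : B →+* Λ) (Ideal.span {π}))
    (w₁ : Valuation F Γ₁)
    (hw₁B : ∀ b : B, w₁ (algebraMap B F b) ≤ 1)
    (hπ₁ : w₁ (algebraMap Λ F π) < 1)
    (h𝔪₁ : ∀ b : B, w₁ (algebraMap B F b) < 1 → b ∈ 𝔪)
    (x y : B) (hx₁ : w₁ (algebraMap B F x) < 1) (hy𝔪 : y ∈ 𝔪)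
    (hy₁ : w₁ (algebraMap B F y) = 1)
    (hgen : ∀ z ∈ 𝔪, ∃ a : B, a ∉ 𝔪 ∧ a * z ∈ Ideal.span {algebraMap Λ B π, x, y}) :
    ∀ f : B, w₁ (algebraMap B F f) < 1 →
      ∃ a r d : B, ¬ π ∣ φ a ∧ a * f = algebraMap Λ B π * r + x * d := by
  intro f hf
  obtain ⟨a, r, d, ha, hrd⟩ := s35f1_inst_hP1_xt π 𝔪 w₁ hw₁B hπ₁ h𝔪₁ x y hx₁ hy𝔪 hy₁ hgen f hf
  refine ⟨a, r, d, fun hdvd => ha ?_, hrd⟩
  rw [h𝔪, Ideal.mem_comap, Ideal.mem_span_singleton]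
  exact hdvd

end Val

end Fermat.Agent.S35
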