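import Mathlib

/-!
# P20 (S35), block F1 / NOFT: the induction lemma at a crossing point

`π`, `X`, `Y` in a domain `B`, `S` a multiplicative set (the complement of the maximal ideal of
the crossing point).  If `Y` is a non-zero-divisor modulo `(π, X)` up to `S` and
`X h ∈ (π) → h ∈ (π, Y)` up to `S`, then for every `N`: `X Y ∈ (π ^ N)` and
`a Y ∈ (π ^ N, X)` imply `a ∈ (π ^ N, X)` up to `S`.
-/

set_option autoImplicit false

namespace Fermat.Agent.S35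

/-- membership in a two-generator ideal, unfolded. -/
theorem s35f1i_mem_pair {B : Type*} [CommRing B] {a u v : B} :
    a ∈ Ideal.span {u, v} ↔ ∃ c d : B, a = u * c + v * d := by
  rw [Ideal.mem_span_pair]
  constructor
  · rintro ⟨c, d, h⟩
    exact ⟨c, d, by rw [← h]; ring⟩
  · rintro ⟨c, d, h⟩
    exact ⟨c, d, by rw [h]; ring⟩

/-- **The induction lemma at a crossing point** (multiplier form). -/
theorem s35f1_node_induct {B : Type*} [CommRing B] [IsDomain B] (S : Submonoid B)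
    (π X Y : B) (hπ : π ≠ 0)
    (h1 : ∀ a : B, a * Y ∈ Ideal.span {π, X} → ∃ b ∈ S, b * a ∈ Ideal.span {π, X})
    (h2 : ∀ h : B, X * h ∈ Ideal.span {π} → ∃ b ∈ S, b * h ∈ Ideal.span {π, Y})
    (N : ℕ) (hXY : X * Y ∈ Ideal.span {π ^ N}) (a : B)
    (ha : a * Y ∈ Ideal.span {π ^ N, X}) :
    ∃ b ∈ S, b * a ∈ Ideal.span {π ^ N, X} := by
  induction N generalizing a with
  | zero =>
    refine ⟨1, S.one_mem, ?_⟩
    rw [pow_zero]
    exact Ideal.mem_span_pair.mpr ⟨1 * a, 0, by ring⟩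
  | succ N ih =>
    obtain ⟨e, he⟩ := Ideal.mem_span_singleton'.mp hXY
    have hXY' : X * Y ∈ Ideal.span {π ^ N} :=
      Ideal.mem_span_singleton'.mpr ⟨e * π, by rw [← he]; ring⟩
    -- `a Y ∈ (π, X)`
    obtain ⟨c₀, d₀, h0⟩ := s35f1i_mem_pair.mp ha
    have ha1 : a * Y ∈ Ideal.span {π, X} :=
      s35f1i_mem_pair.mpr ⟨π ^ N * c₀, d₀, by rw [h0]; ring⟩
    obtain ⟨b₁, hb₁, hb1a⟩ := h1 a ha1
    obtain ⟨a₁, r, har⟩ := s35f1i_mem_pair.mp hb1a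
    -- `π a₁ Y ∈ (π ^ (N + 1), X)`
    have h3 : X * (b₁ * d₀ - r * Y) = π * (a₁ * Y - π ^ N * (b₁ * c₀)) := by
      have : b₁ * a * Y = b₁ * (π ^ (N + 1) * c₀ + X * d₀) := by rw [mul_assoc, h0]
      rw [har] at this
      linear_combination (-1 : B) * this
    obtain ⟨b₂, hb₂, hb2h⟩ := h2 (b₁ * d₀ - r * Y)
      (Ideal.mem_span_singleton'.mpr ⟨a₁ * Y - π ^ N * (b₁ * c₀), by rw [h3]; ring⟩)
    obtain ⟨h₁, h₂, hh⟩ := s35f1i_mem_pair.mp hb2h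
    -- cancel `π`
    have h4 : π * (b₂ * a₁ * Y) = π * (π ^ N * (b₂ * (b₁ * c₀) + e * h₂) + X * h₁) := by
      have e1 : X * (b₂ * (b₁ * d₀ - r * Y)) = X * (π * h₁ + Y * h₂) := by rw [hh]
      linear_combination (-b₂) * h3 + e1 + (-h₂) * he
    have h5 : b₂ * a₁ * Y = π ^ N * (b₂ * (b₁ * c₀) + e * h₂) + X * h₁ :=
      mul_left_cancel₀ hπ h4
    obtain ⟨b₃, hb₃, hb3⟩ := ih hXY' (b₂ * a₁) (s35f1i_mem_pair.mpr ⟨_, _, h5⟩)
    obtain ⟨c', r', hcr⟩ := s35f1i_mem_pair.mp hb3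
    refine ⟨b₃ * b₂ * b₁, S.mul_mem (S.mul_mem hb₃ hb₂) hb₁,
      s35f1i_mem_pair.mpr ⟨c', π * r' + b₃ * b₂ * r, ?_⟩⟩
    linear_combination (b₃ * b₂) * har + π * hcr

end Fermat.Agent.S35
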