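import Mathlib
import Fermat.Agent.S34.NodeGlobalDefs
import Fermat.Agent.S34.NodeAlg
import Fermat.Agent.S34.NodeGlobalSmooth
import Fermat.Agent.S34.NodeGlobalCrossB
import Fermat.Agent.S34.NodeGlobalBadB
import Fermat.Agent.S35.F1NodeInduct
import Fermat.Agent.S35.F1InstP1

set_option autoImplicit false

/-!
P20 (S35), block F1 / NOFT (L1), third team: no bad integral point at a crossing point.

* `s35f1nbC_ker`: the kernel of an integral point through a crossing point is generated, locally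
  at the centre, by `X - φ X` and `Y - φ Y`.
* `s35f1nbC_level`: one level `K` of the argument, `π ^ (K + 1) ∣ φ s₀`.
* `s35f1_no_bad_C`: the main statement.
-/

namespace Fermat.Agent.S35

open Fermat.Agent.S34

/-- The kernel of an integral point through a crossing point is generated, locally at the
centre, by `X - φ X` and `Y - φ Y`. -/
theorem s35f1nbC_ker {Λ B : Type*} [CommRing Λ] [IsDomain Λ] [IsDiscreteValuationRing Λ]
    [CommRing B] [IsNoetherianRing B] [Algebra Λ B] (π : Λ) (hπ : Irreducible π)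
    (φ : B →ₐ[Λ] Λ) (x y X Y σ : B) (hσ : ¬ π ∣ φ σ)
    (hX : X - σ * x ∈ Ideal.span {algebraMap Λ B π})
    (hY : Y - σ * y ∈ Ideal.span {algebraMap Λ B π})
    (hx : π ∣ φ x) (hy : π ∣ φ y)
    (hgen : ∀ z : B, π ∣ φ z → ∃ a : B, ¬ π ∣ φ a ∧
      a * z ∈ Ideal.span {algebraMap Λ B π, x, y})
    (z : B) (hz : φ z = 0) :
    ∃ t e f : B, ¬ π ∣ φ t ∧
      t * z = e * (X - algebraMap Λ B (φ X)) + f * (Y - algebraMap Λ B (φ Y)) := by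
  have h𝔪 : (Ideal.comap (φ : B →+* Λ) (Ideal.span {π})).IsPrime := by
    have : (Ideal.span {π} : Ideal Λ).IsPrime :=
      (Ideal.span_singleton_prime hπ.ne_zero).mpr hπ.prime
    exact Ideal.comap_isPrime _ _
  have hmem : ∀ z : B, z ∈ Ideal.comap (φ : B →+* Λ) (Ideal.span {π}) ↔ π ∣ φ z := fun z => by
    rw [Ideal.mem_comap, Ideal.mem_span_singleton]
    rfl
  generalize Ideal.comap (φ : B →+* Λ) (Ideal.span {π}) = 𝔪 at h𝔪 hmem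
  obtain ⟨ev, hev, hπm, hres⟩ := ngs_exists_ev π hπ φ 𝔪 hmem
  set ι := algebraMap B (Localization.AtPrime 𝔪) with hι
  have htower : ∀ c : Λ, algebraMap Λ (Localization.AtPrime 𝔪) c = ι (algebraMap Λ B c) :=
    fun c => IsScalarTower.algebraMap_apply Λ B (Localization.AtPrime 𝔪) c
  have hσu : IsUnit (ι σ) :=
    IsLocalization.map_units (Localization.AtPrime 𝔪)
      (⟨σ, fun h => hσ ((hmem σ).mp h)⟩ : 𝔪.primeCompl)
  obtain ⟨rX, hrX⟩ := Ideal.mem_span_singleton'.mp hX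
  obtain ⟨rY, hrY⟩ := Ideal.mem_span_singleton'.mp hY
  have hφπ : φ (algebraMap Λ B π) = π := by rw [AlgHom.commutes]; rfl
  have hφX : π ∣ φ X := by
    have h1 : X = σ * x + rX * algebraMap Λ B π := by linear_combination -hrX
    rw [h1, map_add, map_mul, map_mul, hφπ]
    exact dvd_add (Dvd.dvd.mul_left hx _) (Dvd.intro_left _ rfl)
  have hφY : π ∣ φ Y := by
    have h1 : Y = σ * y + rY * algebraMap Λ B π := by linear_combination -hrY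
    rw [h1, map_add, map_mul, map_mul, hφπ]
    exact dvd_add (Dvd.dvd.mul_left hy _) (Dvd.intro_left _ rfl)
  -- the maximal ideal is generated by `π`, `X`, `Y`
  have hm0 := ngcB_maximal_le π φ 𝔪 hmem x y hgen
  have hm : IsLocalRing.maximalIdeal (Localization.AtPrime 𝔪) ≤
      Ideal.span {algebraMap Λ (Localization.AtPrime 𝔪) π, ι X, ι Y} := by
    refine hm0.trans ?_
    rw [Ideal.span_le]
    have hπmem : algebraMap Λ (Localization.AtPrime 𝔪) π ∈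
        Ideal.span {algebraMap Λ (Localization.AtPrime 𝔪) π, ι X, ι Y} :=
      Ideal.subset_span (by simp)
    have hXmem : ι X ∈ Ideal.span {algebraMap Λ (Localization.AtPrime 𝔪) π, ι X, ι Y} :=
      Ideal.subset_span (by simp)
    have hYmem : ι Y ∈ Ideal.span {algebraMap Λ (Localization.AtPrime 𝔪) π, ι X, ι Y} :=
      Ideal.subset_span (by simp)
    intro r hr
    simp only [Set.mem_insert_iff, Set.mem_singleton_iff] at hr
    rcases hr with rfl | rfl | rfl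
    · exact hπmem
    · rw [SetLike.mem_coe, ← Ideal.unit_mul_mem_iff_mem _ hσu]
      have h1 : ι σ * ι x = ι X - ι rX * algebraMap Λ (Localization.AtPrime 𝔪) π := by
        rw [htower, ← map_mul, ← map_mul, ← map_sub]
        congr 1
        linear_combination hrX
      rw [h1]
      exact Ideal.sub_mem _ hXmem (Ideal.mul_mem_left _ _ hπmem)
    · rw [SetLike.mem_coe, ← Ideal.unit_mul_mem_iff_mem _ hσu]
      have h1 : ι σ * ι y = ι Y - ι rY * algebraMap Λ (Localization.AtPrime 𝔪) π := by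
        rw [htower, ← map_mul, ← map_mul, ← map_sub]
        congr 1
        linear_combination hrY
      rw [h1]
      exact Ideal.sub_mem _ hYmem (Ideal.mul_mem_left _ _ hπmem)
  have hker := node_ker_eval_pair ev π hπm (ι X) (ι Y) hm hres
    (by rw [hev]; exact hφX) (by rw [hev]; exact hφY)
  rw [hev, hev, htower, htower, ← map_sub, ← map_sub] at hker
  have hzk : ι z ∈ RingHom.ker (ev : Localization.AtPrime 𝔪 →+* Λ) := by
    rw [RingHom.mem_ker]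
    exact (hev z).trans hz
  rw [hker] at hzk
  obtain ⟨e', f', hef⟩ := Ideal.mem_span_pair.mp hzk
  obtain ⟨e₀, s₁, rfl⟩ := IsLocalization.exists_mk'_eq 𝔪.primeCompl e'
  obtain ⟨f₀, s₂, rfl⟩ := IsLocalization.exists_mk'_eq 𝔪.primeCompl f'
  have h1 : ι ((s₁ : B) * (s₂ : B) * z) =
      ι ((s₂ : B) * e₀ * (X - algebraMap Λ B (φ X)) +
        (s₁ : B) * f₀ * (Y - algebraMap Λ B (φ Y))) := by
    have he : IsLocalization.mk' (Localization.AtPrime 𝔪) e₀ s₁ * ι (s₁ : B) = ι e₀ :=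
      IsLocalization.mk'_spec (Localization.AtPrime 𝔪) e₀ s₁
    have hf : IsLocalization.mk' (Localization.AtPrime 𝔪) f₀ s₂ * ι (s₂ : B) = ι f₀ :=
      IsLocalization.mk'_spec (Localization.AtPrime 𝔪) f₀ s₂
    simp only [map_mul, map_add]
    rw [← hef]
    linear_combination (ι (s₂ : B) * ι (X - algebraMap Λ B (φ X))) * he +
      (ι (s₁ : B) * ι (Y - algebraMap Λ B (φ Y))) * hf
  obtain ⟨c, hc⟩ := (IsLocalization.eq_iff_exists 𝔪.primeCompl (Localization.AtPrime 𝔪)).mp h1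
  refine ⟨c * s₁ * s₂, c * s₂ * e₀, c * s₁ * f₀, fun hd => (c * s₁ * s₂).2 ((hmem _).mpr hd), ?_⟩
  linear_combination hc

/-- One level of the argument: if the point is bad at level `K` then `π ^ (K + 1) ∣ φ s₀`. -/
theorem s35f1nbC_level {Λ B : Type*} [CommRing Λ] [IsDomain Λ] [IsDiscreteValuationRing Λ]
    [CommRing B] [IsDomain B] [IsNoetherianRing B] [Algebra Λ B]
    (π : Λ) (hπ : Irreducible π) (φ : B →ₐ[Λ] Λ)
    (𝔪 : Ideal B) [𝔪.IsPrime] (hmem : ∀ z : B, z ∈ 𝔪 ↔ π ∣ φ z)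
    (𝔭₁ 𝔭₂ : Ideal B) [𝔭₁.IsPrime] [𝔭₂.IsPrime] (h1 : 𝔭₁ ≤ 𝔪) (h2 : 𝔭₂ ≤ 𝔪)
    (hπ1 : algebraMap Λ B π ∈ 𝔭₁) (hπ2 : algebraMap Λ B π ∈ 𝔭₂)
    (x y : B)
    (hx1 : x ∈ 𝔭₁) (hy2 : y ∈ 𝔭₂) (hx2 : x ∉ 𝔭₂) (hy1 : y ∉ 𝔭₁)
    (hgen : ∀ z ∈ 𝔪, ∃ a : B, a ∉ 𝔪 ∧ a * z ∈ Ideal.span {algebraMap Λ B π, x, y})
    (ϖ s₀ : B) (hϖ : φ ϖ = 0) (hs₀ : φ s₀ ≠ 0) (hd : ∀ z : B, φ z = 0 → ϖ ∣ s₀ * z)
    (K : ℕ) (X Y H σ : B) (c : Λ) (hσ : ¬ π ∣ φ σ)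
    (hX : X - σ * x ∈ Ideal.span {algebraMap Λ B π})
    (hY : Y - σ * y ∈ Ideal.span {algebraMap Λ B π})
    (hXY : X * Y = σ ^ 2 * algebraMap Λ B (π * c) + algebraMap Λ B (π ^ (K + 1)) * H)
    (hbX : π ^ (K + 1) ∣ φ X) (hbY : π ^ (K + 1) ∣ φ Y) :
    π ^ (K + 1) ∣ φ s₀ := by
  have hπ0 : π ≠ 0 := hπ.ne_zero
  have hφc : ∀ a : Λ, φ (algebraMap Λ B a) = a := fun a => by rw [AlgHom.commutes]; rfl
  set P : B := algebraMap Λ B π with hP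
  have hφP : φ P = π := hφc π
  have hP0 : P ≠ 0 := by
    intro h
    rw [h, map_zero] at hφP
    exact hπ0 hφP.symm
  have hunit : ∀ s : B, s ∉ 𝔪 → IsUnit (φ s) := fun s hs =>
    ngs_isUnit_of_not_dvd hπ (fun h => hs ((hmem s).mpr h))
  have hσ𝔪 : σ ∉ 𝔪 := fun h => hσ ((hmem σ).mp h)
  have hs₀0 : s₀ ≠ 0 := fun h => hs₀ (by rw [h, map_zero])
  obtain ⟨rX, hrX⟩ := Ideal.mem_span_singleton'.mp hX
  obtain ⟨rY, hrY⟩ := Ideal.mem_span_singleton'.mp hY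
  have hXeq : X = σ * x + rX * P := by linear_combination -hrX
  have hYeq : Y = σ * y + rY * P := by linear_combination -hrY
  have hX1 : X ∈ 𝔭₁ := by
    rw [hXeq]
    exact 𝔭₁.add_mem (𝔭₁.mul_mem_left _ hx1) (𝔭₁.mul_mem_left _ hπ1)
  have hY2 : Y ∈ 𝔭₂ := by
    rw [hYeq]
    exact 𝔭₂.add_mem (𝔭₂.mul_mem_left _ hy2) (𝔭₂.mul_mem_left _ hπ2)
  have hσ1 : σ ∉ 𝔭₁ := fun h => hσ𝔪 (h1 h)
  have hσ2 : σ ∉ 𝔭₂ := fun h => hσ𝔪 (h2 h)
  have hX2 : X ∉ 𝔭₂ := by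
    intro h
    have h3 : σ * x ∈ 𝔭₂ := by
      have h4 : σ * x = X - rX * P := by rw [hXeq]; ring
      rw [h4]
      exact 𝔭₂.sub_mem h (𝔭₂.mul_mem_left _ hπ2)
    rcases Ideal.IsPrime.mem_or_mem inferInstance h3 with h4 | h4
    · exact hσ2 h4
    · exact hx2 h4
  have hY1 : Y ∉ 𝔭₁ := by
    intro h
    have h3 : σ * y ∈ 𝔭₁ := by
      have h4 : σ * y = Y - rY * P := by rw [hYeq]; ring
      rw [h4]
      exact 𝔭₁.sub_mem h (𝔭₁.mul_mem_left _ hπ1)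
    rcases Ideal.IsPrime.mem_or_mem inferInstance h3 with h4 | h4
    · exact hσ1 h4
    · exact hy1 h4
  -- the two vertical primes are `(π, X)`, `(π, Y)` locally at `𝔪`
  obtain ⟨a₁, ha₁, hgen1⟩ := s35f1_inst_hP1 P 𝔪 𝔭₁ hπ1 x y hx1 (h2 hy2) hy1 hgen h1
  obtain ⟨a₂, ha₂, hgen2⟩ := s35f1_inst_hP1_swap P 𝔪 𝔭₂ hπ2 x y hy2 (h1 hx1) hx2 hgen h2
  have L1 : ∀ f ∈ 𝔭₁, ∃ s ∈ 𝔪.primeCompl, s * f ∈ Ideal.span {P, X} := by
    intro f hf
    obtain ⟨r, d, hrd⟩ := hgen1 f hf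
    refine ⟨σ * a₁, 𝔪.primeCompl.mul_mem hσ𝔪 ha₁,
      Ideal.mem_span_pair.mpr ⟨σ * r - rX * d, d, ?_⟩⟩
    rw [hXeq]
    linear_combination (-σ) * hrd
  have L2 : ∀ f ∈ 𝔭₂, ∃ s ∈ 𝔪.primeCompl, s * f ∈ Ideal.span {P, Y} := by
    intro f hf
    obtain ⟨r, d, hrd⟩ := hgen2 f hf
    refine ⟨σ * a₂, 𝔪.primeCompl.mul_mem hσ𝔪 ha₂,
      Ideal.mem_span_pair.mpr ⟨σ * r - rY * d, d, ?_⟩⟩
    rw [hYeq]
    linear_combination (-σ) * hrd
  have hPX1 : Ideal.span {P, X} ≤ 𝔭₁ := by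
    rw [Ideal.span_le]
    rintro _ (rfl | rfl)
    · exact hπ1
    · exact hX1
  have hPY2 : Ideal.span {P, Y} ≤ 𝔭₂ := by
    rw [Ideal.span_le]
    rintro _ (rfl | rfl)
    · exact hπ2
    · exact hY2
  have hP1 : Ideal.span {P} ≤ 𝔭₁ := (Ideal.span_singleton_le_iff_mem _).mpr hπ1
  have hP2 : Ideal.span {P} ≤ 𝔭₂ := (Ideal.span_singleton_le_iff_mem _).mpr hπ2
  have c1 : ∀ a : B, a * Y ∈ Ideal.span {P, X} →
      ∃ b ∈ 𝔪.primeCompl, b * a ∈ Ideal.span {P, X} := fun a ha =>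
    L1 a ((Ideal.IsPrime.mem_or_mem inferInstance (hPX1 ha)).resolve_right hY1)
  have c2 : ∀ h : B, X * h ∈ Ideal.span {P} →
      ∃ b ∈ 𝔪.primeCompl, b * h ∈ Ideal.span {P, Y} := fun h hh =>
    L2 h ((Ideal.IsPrime.mem_or_mem inferInstance (hP2 hh)).resolve_left hX2)
  have c1' : ∀ a : B, a * X ∈ Ideal.span {P, Y} →
      ∃ b ∈ 𝔪.primeCompl, b * a ∈ Ideal.span {P, Y} := fun a ha =>
    L2 a ((Ideal.IsPrime.mem_or_mem inferInstance (hPY2 ha)).resolve_right hX2)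
  have c2' : ∀ h : B, Y * h ∈ Ideal.span {P} →
      ∃ b ∈ 𝔪.primeCompl, b * h ∈ Ideal.span {P, X} := fun h hh =>
    L1 h ((Ideal.IsPrime.mem_or_mem inferInstance (hP1 hh)).resolve_left hY1)
  -- the algebra
  obtain ⟨A', hA'⟩ := hbX
  obtain ⟨B', hB'⟩ := hbY
  obtain ⟨vi, hvi⟩ := isUnit_iff_exists_inv.mp (hunit σ hσ𝔪)
  have hev : φ X * φ Y = φ σ ^ 2 * (π * c) + π ^ (K + 1) * φ H := by
    have h3 := congrArg φ hXY
    simpa only [map_mul, map_add, map_pow, hφc, hφP] using h3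
  set c₁ : Λ := vi ^ 2 * (π ^ (K + 1) * A' * B' - φ H) with hc₁
  have hc : π * c = π ^ (K + 1) * c₁ := by
    rw [hA', hB'] at hev
    rw [hc₁]
    linear_combination (-(vi ^ 2)) * hev - (π * c) * (φ σ * vi + 1) * hvi
  have hXY' : X * Y = P ^ (K + 1) * (σ ^ 2 * algebraMap Λ B c₁ + H) := by
    rw [hXY, hc, map_mul, map_pow]
    ring
  set xK : B := X - algebraMap Λ B (φ X) with hxK
  set yK : B := Y - algebraMap Λ B (φ Y) with hyK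
  have hevx : φ xK = 0 := by rw [hxK, map_sub, hφc, sub_self]
  have hevy : φ yK = 0 := by rw [hyK, map_sub, hφc, sub_self]
  have hAR : algebraMap Λ B (φ X) = P ^ (K + 1) * algebraMap Λ B A' := by
    rw [hA', map_mul, map_pow]
  have hBR : algebraMap Λ B (φ Y) = P ^ (K + 1) * algebraMap Λ B B' := by
    rw [hB', map_mul, map_pow]
  set w : B := σ ^ 2 * algebraMap Λ B c₁ + H - algebraMap Λ B A' * Y -
    algebraMap Λ B B' * X + P ^ (K + 1) * (algebraMap Λ B A' * algebraMap Λ B B') with hw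
  have hxyK : xK * yK = P ^ (K + 1) * w := by
    rw [hxK, hyK, hAR, hBR, hw]
    linear_combination hXY'
  have hevw : φ w = 0 := by
    have h3 : φ (xK * yK) = 0 := by rw [map_mul, hevx, zero_mul]
    rw [hxyK, map_mul, map_pow, hφP] at h3
    rcases mul_eq_zero.mp h3 with h | h
    · exact absurd (pow_eq_zero_iff (Nat.succ_ne_zero K) |>.mp h) hπ0
    · exact h
  obtain ⟨a, ha⟩ := hd xK hevx
  obtain ⟨b, hb⟩ := hd yK hevy
  obtain ⟨c', hc'⟩ := hd w hevw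
  have hϖ0 : ϖ ≠ 0 := by
    intro h0
    rw [h0, zero_mul] at ha
    have hxK0 : xK = 0 := (mul_eq_zero.mp ha).resolve_left hs₀0
    apply hX2
    have h3 : X = P ^ (K + 1) * algebraMap Λ B A' := by
      rw [← hAR]
      exact sub_eq_zero.mp hxK0
    rw [h3]
    exact 𝔭₂.mul_mem_right _ (𝔭₂.pow_mem_of_mem hπ2 _ (Nat.succ_pos K))
  have hab : ϖ * (a * b) = s₀ * (P ^ (K + 1) * c') := by
    apply mul_left_cancel₀ hϖ0
    linear_combination (-ϖ * b) * ha + (-s₀ * xK) * hb + s₀ ^ 2 * hxyK +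
      (s₀ * P ^ (K + 1)) * hc'
  have hay : a * yK = P ^ (K + 1) * c' := by
    apply mul_left_cancel₀ hs₀0
    linear_combination a * hb + hab
  have hbx : b * xK = P ^ (K + 1) * c' := by
    apply mul_left_cancel₀ hs₀0
    linear_combination b * ha + hab
  have haY : a * Y ∈ Ideal.span {P ^ (K + 1), X} :=
    Ideal.mem_span_pair.mpr ⟨c' + a * algebraMap Λ B B', 0, by
      have h3 : Y = yK + algebraMap Λ B (φ Y) := by rw [hyK]; ring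
      rw [h3, hBR]
      linear_combination (-1 : B) * hay⟩
  have hbX' : b * X ∈ Ideal.span {P ^ (K + 1), Y} :=
    Ideal.mem_span_pair.mpr ⟨c' + b * algebraMap Λ B A', 0, by
      have h3 : X = xK + algebraMap Λ B (φ X) := by rw [hxK]; ring
      rw [h3, hAR]
      linear_combination (-1 : B) * hbx⟩
  have hXYmem : X * Y ∈ Ideal.span {P ^ (K + 1)} :=
    Ideal.mem_span_singleton'.mpr ⟨σ ^ 2 * algebraMap Λ B c₁ + H, by rw [hXY']; ring⟩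
  have hYXmem : Y * X ∈ Ideal.span {P ^ (K + 1)} := by rwa [mul_comm]
  obtain ⟨t₁, ht₁, hta⟩ := s35f1_node_induct 𝔪.primeCompl P X Y hP0 c1 c2 (K + 1) hXYmem a haY
  obtain ⟨t₂, ht₂, htb⟩ := s35f1_node_induct 𝔪.primeCompl P Y X hP0 c1' c2' (K + 1) hYXmem b hbX'
  obtain ⟨a₃, a₄, ha34⟩ := Ideal.mem_span_pair.mp hta
  obtain ⟨b₃, b₄, hb34⟩ := Ideal.mem_span_pair.mp htb
  have heva : π ^ (K + 1) ∣ φ a := by
    have h3 : π ^ (K + 1) ∣ φ t₁ * φ a := by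
      refine ⟨φ a₃ + A' * φ a₄, ?_⟩
      rw [← map_mul, ← ha34, map_add, map_mul, map_mul, map_pow, hφP, hA']
      ring
    exact ((hunit t₁ ht₁).dvd_mul_left).mp h3
  have hevb : π ^ (K + 1) ∣ φ b := by
    have h3 : π ^ (K + 1) ∣ φ t₂ * φ b := by
      refine ⟨φ b₃ + B' * φ b₄, ?_⟩
      rw [← map_mul, ← hb34, map_add, map_mul, map_mul, map_pow, hφP, hB']
      ring
    exact ((hunit t₂ ht₂).dvd_mul_left).mp h3
  -- the kernel lemma at `ϖ`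
  have hgen_b : ∀ z : B, π ∣ φ z → ∃ a : B, ¬ π ∣ φ a ∧
      a * z ∈ Ideal.span {algebraMap Λ B π, x, y} := fun z hz => by
    obtain ⟨a, ha, haz⟩ := hgen z ((hmem z).mpr hz)
    exact ⟨a, fun h => ha ((hmem a).mpr h), haz⟩
  obtain ⟨t, e, f, ht, htef⟩ := s35f1nbC_ker π hπ φ x y X Y σ hσ hX hY
    ((hmem x).mp (h1 hx1)) ((hmem y).mp (h2 hy2)) hgen_b ϖ hϖ
  have hts : t * s₀ = e * a + f * b := by
    apply mul_left_cancel₀ hϖ0
    linear_combination s₀ * htef + e * ha + f * hb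
  have h3 : π ^ (K + 1) ∣ φ t * φ s₀ := by
    rw [← map_mul, hts, map_add, map_mul, map_mul]
    exact dvd_add (Dvd.dvd.mul_left heva _) (Dvd.dvd.mul_left hevb _)
  exact ((ngs_isUnit_of_not_dvd hπ ht).dvd_mul_left).mp h3

/-- (NOFT L1, third team) **no bad integral point at a crossing point**: if the
kernel of the integral point `φ` is principal up to a denominator `s₀ ∉ ker φ` (`hdvr`; the
generic fibre is Dedekind, `s35f1_dvr_of_dedekind`), then `φ` is not bad.  `𝔪` is the centre of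
`φ`, `(x, y, G, hgen)` the weak crossing datum, `𝔭₁ ∋ x`, `𝔭₂ ∋ y` the two vertical primes. -/
theorem s35f1_no_bad_C {Λ B : Type*} [CommRing Λ] [IsDomain Λ] [IsDiscreteValuationRing Λ]
    [CommRing B] [IsDomain B] [IsNoetherianRing B] [Algebra Λ B]
    (π : Λ) (hπ : Irreducible π) (φ : B →ₐ[Λ] Λ)
    (𝔪 : Ideal B) (h𝔪 : 𝔪 = Ideal.comap (φ : B →+* Λ) (Ideal.span {π}))
    (𝔭₁ 𝔭₂ : Ideal B) [𝔭₁.IsPrime] [𝔭₂.IsPrime] (h1 : 𝔭₁ ≤ 𝔪) (h2 : 𝔭₂ ≤ 𝔪)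
    (hπ1 : algebraMap Λ B π ∈ 𝔭₁) (hπ2 : algebraMap Λ B π ∈ 𝔭₂)
    (x y G : B) (hxy : x * y = algebraMap Λ B π * G)
    (hx1 : x ∈ 𝔭₁) (hy2 : y ∈ 𝔭₂) (hx2 : x ∉ 𝔭₂) (hy1 : y ∉ 𝔭₁)
    (hgen : ∀ z ∈ 𝔪, ∃ a : B, a ∉ 𝔪 ∧ a * z ∈ Ideal.span {algebraMap Λ B π, x, y})
    (hdvr : ∃ ϖ s₀ : B, φ ϖ = 0 ∧ φ s₀ ≠ 0 ∧ ∀ z : B, φ z = 0 → ϖ ∣ s₀ * z) :
    ¬ NodeBadG π π x y (RingHom.id B) φ := by
  intro hbad
  have hmem : ∀ z : B, z ∈ 𝔪 ↔ π ∣ φ z := fun z => by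
    rw [h𝔪, Ideal.mem_comap, Ideal.mem_span_singleton]
    rfl
  have h𝔪p : 𝔪.IsPrime := by
    rw [h𝔪]
    have : (Ideal.span {π} : Ideal Λ).IsPrime :=
      (Ideal.span_singleton_prime hπ.ne_zero).mpr hπ.prime
    exact Ideal.comap_isPrime _ _
  obtain ⟨ϖ, s₀, hϖ, hs₀, hd⟩ := hdvr
  apply hs₀
  refine ngbB_krull hπ dvd_rfl (φ s₀) (fun K => ?_)
  have hgen_b : ∀ z : B, π ∣ φ z → ∃ a : B, ¬ π ∣ φ a ∧
      a * z ∈ Ideal.span {algebraMap Λ B π, x, y} := fun z hz => by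
    obtain ⟨a, ha, haz⟩ := hgen z ((hmem z).mpr hz)
    exact ⟨a, fun h => ha ((hmem a).mpr h), haz⟩
  have hres_b : ∀ r s : B, ¬ π ∣ φ s → ∃ c : Λ, π ∣ φ (r - algebraMap Λ B c * s) := by
    intro r s hs
    obtain ⟨vi, hvi⟩ := isUnit_iff_exists_inv.mp (ngs_isUnit_of_not_dvd hπ hs)
    refine ⟨φ r * vi, ?_⟩
    have h3 : φ (r - algebraMap Λ B (φ r * vi) * s) = 0 := by
      rw [map_sub, map_mul, AlgHom.commutes]
      show φ r - φ r * vi * φ s = 0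
      linear_combination (-φ r) * hvi
    rw [h3]
    exact dvd_zero π
  obtain ⟨X, Y, H, σ, c, hσ, hX, hY, hXY⟩ := ngbB_base_aux π π x y G hxy (φ : B →+* Λ) 𝔪 hmem
    (Localization.AtPrime 𝔪) hgen_b hres_b K
  obtain ⟨hbX, hbY⟩ := hbad K X Y H σ c hσ hX hY hXY
  exact s35f1nbC_level π hπ φ 𝔪 hmem 𝔭₁ 𝔭₂ h1 h2 hπ1 hπ2 x y hx1 hy2 hx2 hy1 hgen ϖ s₀ hϖ hs₀ hd
    K X Y H σ c hσ hX hY hXY hbX hbY

/-- (NOFT L1, unfolded form, third team) at some level `K` the point is `X`-type or `Y`-type. -/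
theorem s35f1_no_bad_exists_C {Λ B : Type*} [CommRing Λ] [IsDomain Λ] [IsDiscreteValuationRing Λ]
    [CommRing B] [IsDomain B] [IsNoetherianRing B] [Algebra Λ B]
    (π : Λ) (hπ : Irreducible π) (φ : B →ₐ[Λ] Λ)
    (𝔪 : Ideal B) (h𝔪 : 𝔪 = Ideal.comap (φ : B →+* Λ) (Ideal.span {π}))
    (𝔭₁ 𝔭₂ : Ideal B) [𝔭₁.IsPrime] [𝔭₂.IsPrime] (h1 : 𝔭₁ ≤ 𝔪) (h2 : 𝔭₂ ≤ 𝔪)
    (hπ1 : algebraMap Λ B π ∈ 𝔭₁) (hπ2 : algebraMap Λ B π ∈ 𝔭₂)
    (x y G : B) (hxy : x * y = algebraMap Λ B π * G)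
    (hx1 : x ∈ 𝔭₁) (hy2 : y ∈ 𝔭₂) (hx2 : x ∉ 𝔭₂) (hy1 : y ∉ 𝔭₁)
    (hgen : ∀ z ∈ 𝔪, ∃ a : B, a ∉ 𝔪 ∧ a * z ∈ Ideal.span {algebraMap Λ B π, x, y})
    (hdvr : ∃ ϖ s₀ : B, φ ϖ = 0 ∧ φ s₀ ≠ 0 ∧ ∀ z : B, φ z = 0 → ϖ ∣ s₀ * z) :
    ∃ (K : ℕ) (X Y H σ : B) (c : Λ), ¬ π ∣ φ σ ∧
      X - σ * x ∈ Ideal.span {algebraMap Λ B π} ∧
      Y - σ * y ∈ Ideal.span {algebraMap Λ B π} ∧
      X * Y = σ ^ 2 * algebraMap Λ B (π * c) + algebraMap Λ B (π ^ (K + 1)) * H ∧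
      (¬ π ^ (K + 1) ∣ φ X ∨ ¬ π ^ (K + 1) ∣ φ Y) := by
  have h := s35f1_no_bad_C π hπ φ 𝔪 h𝔪 𝔭₁ 𝔭₂ h1 h2 hπ1 hπ2 x y G hxy hx1 hy2 hx2 hy1 hgen hdvr
  unfold NodeBadG at h
  push Not at h
  obtain ⟨K, X, Y, H, σ, c, hσ, hX, hY, hXY, hd⟩ := h
  refine ⟨K, X, Y, H, σ, c, hσ, hX, hY, hXY, ?_⟩
  by_cases hdX : π ^ (K + 1) ∣ φ X
  · exact Or.inr (hd hdX)
  · exact Or.inl hdX

end Fermat.Agent.S35
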