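import Mathlib
import Fermat.Agent.S34.AbsLP
import Fermat.Agent.S34.AbsHR
import Fermat.Agent.S34.AbsPlaceComp
import Fermat.Agent.S34.ModelDefs
import Fermat.Agent.S35.F1Ctrick
import Fermat.Agent.S35.F1CrossProd
import Fermat.Agent.S35.F1CrossVert

/-!
P20 (S35), block F1, NOFT crossing package, leaf ND (note 932): finite thickness from a
certificate in the valuation framework.  If `φ₀ ∈ F` has no horizontal order at the crossing
point `𝔪`, is a unit at `w₁` and has order `n > 0` at `w₂`, then a node relation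
`X Y = σ² π c + π ^ (K + 1) H` of level `K + 1 ≥ 2 n` has `π ^ K ∤ c`.
-/

set_option autoImplicit false
set_option linter.unusedVariables false
set_option linter.unusedSectionVars false

namespace Fermat.Agent.S35

open IsDedekindDomain
open Fermat.Agent.S34

section PT

variable {Bη F : Type*} [CommRing Bη] [IsDedekindDomain Bη] [Field F] [Algebra Bη F]
  [IsFractionRing Bη F]
  {Λ B : Type*} [CommRing Λ] [IsDomain Λ] [IsDiscreteValuationRing Λ] [Algebra Λ F]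
  [CommRing B] [IsNoetherianRing B] [Algebra B F] [Algebra Λ B] [IsScalarTower Λ B F]

/-- (ND, file `S35/F1nThick.lean`) finite thickness from a certificate in the valuation
framework: if `φ₀` has no horizontal order at `𝔪`, is a unit at `w₁` and has order `n` at `w₂`,
then a node relation `X Y = σ² π c + π ^ (K + 1) H` of level `K + 1 ≥ 2 n` has `π ^ K ∤ c`. -/
theorem s35f1n_thick
    {Γ₁ Γ₂ : Type*} [LinearOrderedCommGroupWithZero Γ₁] [LinearOrderedCommGroupWithZero Γ₂]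
    (ι : B →+* Bη) (hι : ∀ b : B, algebraMap Bη F (ι b) = algebraMap B F b)
    (𝔪 : Ideal B) [𝔪.IsPrime] (π : Λ) (V : Subring F)
    (hBV : ∀ b : B, IsIntegral V (algebraMap B F b))
    (hK : ∀ y : Bη, IsIntegral V (algebraMap Bη F y) →
      ∃ b : B, algebraMap B F b = algebraMap Bη F y)
    (w₁ : Valuation F Γ₁) (w₂ : Valuation F Γ₂)
    (hVw : ∀ f : F, IsIntegral V f ↔ w₁ f ≤ 1 ∧ w₂ f ≤ 1)
    (hπ₂ : w₂ (algebraMap Λ F π) < 1)
    (h𝔪₁ : ∀ b : B, w₁ (algebraMap B F b) < 1 → b ∈ 𝔪)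
    (h𝔪₂ : ∀ b : B, w₂ (algebraMap B F b) < 1 → b ∈ 𝔪)
    (y : B) (hy𝔪 : y ∈ 𝔪) (hy₁ : w₁ (algebraMap B F y) = 1)
    (hyloc : ∀ z ∈ 𝔪, ∃ s r : B, s ∉ 𝔪 ∧ w₁ (algebraMap B F (s * z - r * y)) < 1)
    (φ₀ : F) (n : ℕ) (hn : 0 < n) (hφ₁ : w₁ φ₀ = 1)
    (hφ₂ : w₂ φ₀ = w₂ (algebraMap Λ F π) ^ n)
    (hφQ : ∀ 𝔔 ∈ absThrough ι 𝔪, 𝔔.valuation F φ₀ = 1)
    (X Y H σ : B) (c : Λ) (K : ℕ) (hσ : σ ∉ 𝔪)
    (hX₂ : w₂ (algebraMap B F X) = 1)
    (hY₁ : w₁ (algebraMap B F (Y - σ * y)) < 1)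
    (hXY : X * Y = σ ^ 2 * algebraMap Λ B (π * c) + algebraMap Λ B (π ^ (K + 1)) * H)
    (hKn : 2 * n ≤ K + 1) :
    ¬ π ^ K ∣ c := by
  rintro ⟨c', rfl⟩
  have h𝔪p : 𝔪.IsPrime := inferInstance
  have hB : ∀ b : B, w₁ (algebraMap B F b) ≤ 1 ∧ w₂ (algebraMap B F b) ≤ 1 :=
    fun b => (hVw _).1 (hBV b)
  have hΛF : ∀ c : Λ, algebraMap Λ F c = algebraMap B F (algebraMap Λ B c) :=
    fun c => IsScalarTower.algebraMap_apply Λ B F c
  have hφ0 : φ₀ ≠ 0 := (Valuation.ne_zero_iff w₁).1 (by rw [hφ₁]; exact one_ne_zero)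
  have hφ₂0 : w₂ φ₀ ≠ 0 := (Valuation.ne_zero_iff w₂).2 hφ0
  -- `w₂ Y ≤ w₂(π)^(K+1) ≤ w₂(φ₀)^2`
  have hXY' : X * Y = algebraMap Λ B (π ^ (K + 1)) * (σ ^ 2 * algebraMap Λ B c' + H) := by
    rw [hXY, show π * (π ^ K * c') = π ^ (K + 1) * c' by ring, map_mul]
    ring
  have hY₂ : w₂ (algebraMap B F Y) ≤ w₂ (algebraMap Λ F π) ^ (K + 1) := by
    have h : w₂ (algebraMap B F X) * w₂ (algebraMap B F Y) =
        w₂ (algebraMap Λ F π) ^ (K + 1) *
          w₂ (algebraMap B F (σ ^ 2 * algebraMap Λ B c' + H)) := by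
      rw [← map_mul, ← map_mul, hXY', map_mul, map_mul, ← hΛF, map_pow, map_pow]
    rw [hX₂, one_mul] at h
    rw [h]
    exact mul_le_of_le_one_right' (hB _).2
  have hY₂' : w₂ (algebraMap B F Y) ≤ w₂ φ₀ ^ 2 := by
    rw [hφ₂, ← pow_mul, mul_comm n 2]
    exact hY₂.trans (pow_le_pow_right_of_le_one' hπ₂.le hKn)
  -- `f = Y / φ₀²` is `V`-integral without horizontal poles at `𝔪`
  have hfV : IsIntegral V (algebraMap B F Y / φ₀ ^ 2) := by
    rw [hVw]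
    constructor
    · rw [map_div₀, map_pow, hφ₁, one_pow, div_one]
      exact (hB Y).1
    · rw [map_div₀, map_pow]
      exact (div_le_one₀ (zero_lt_iff.mpr (pow_ne_zero 2 hφ₂0))).mpr hY₂'
  have hfQ : ∀ 𝔔 ∈ absThrough ι 𝔪, 𝔔.valuation F (algebraMap B F Y / φ₀ ^ 2) ≤ 1 := by
    intro 𝔔 h𝔔
    rw [map_div₀, map_pow, hφQ 𝔔 h𝔔, one_pow, div_one, ← hι,
      HeightOneSpectrum.valuation_of_algebraMap]
    exact HeightOneSpectrum.intValuation_le_one 𝔔 (ι Y)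
  obtain ⟨d, hd, e, he⟩ := s35f1_ctrick ι hι 𝔪 V hBV hK _ hfV hfQ
  -- `φ₀` itself
  have hφV : IsIntegral V φ₀ := by
    rw [hVw, hφ₁, hφ₂]
    exact ⟨le_rfl, pow_le_one' hπ₂.le n⟩
  obtain ⟨d', hd', e', he'⟩ :=
    s35f1_ctrick ι hι 𝔪 V hBV hK φ₀ hφV (fun 𝔔 h𝔔 => (hφQ 𝔔 h𝔔).le)
  have he'𝔪 : e' ∈ 𝔪 := by
    apply h𝔪₂
    rw [he', map_mul, hφ₂]
    exact s35f1d2_mul_lt_one (hB d').2 (pow_lt_one' hπ₂ hn.ne')
  -- `y` generates `𝔪` modulo the first vertical prime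
  obtain ⟨s, r, hs, hsr⟩ := hyloc e' he'𝔪
  have h1 : algebraMap B F e * algebraMap B F e' ^ 2 =
      algebraMap B F d * algebraMap B F d' ^ 2 * algebraMap B F Y := by
    rw [he, he']
    field_simp
  have key : algebraMap B F y * algebraMap B F (s ^ 2 * d * d' ^ 2 * σ - e * r ^ 2 * y) =
      algebraMap B F e * (algebraMap B F (s * e' - r * y) * algebraMap B F (s * e' + r * y)) -
        algebraMap B F (s ^ 2 * d * d' ^ 2) * algebraMap B F (Y - σ * y) := by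
    simp only [map_sub, map_mul, map_add, map_pow]
    linear_combination (-(algebraMap B F s) ^ 2) * h1
  have hz : w₁ (algebraMap B F (s ^ 2 * d * d' ^ 2 * σ - e * r ^ 2 * y)) < 1 := by
    have h2 : w₁ (algebraMap B F y *
        algebraMap B F (s ^ 2 * d * d' ^ 2 * σ - e * r ^ 2 * y)) < 1 := by
      rw [key]
      refine lt_of_le_of_lt (Valuation.map_sub _ _ _) (max_lt ?_ ?_)
      · rw [map_mul, map_mul]
        refine s35f1d2_mul_lt_one (hB e).1 ?_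
        rw [mul_comm]
        exact s35f1d2_mul_lt_one (hB _).1 hsr
      · rw [map_mul]
        exact s35f1d2_mul_lt_one (hB _).1 hY₁
    rwa [map_mul, hy₁, one_mul] at h2
  have hz𝔪 := h𝔪₁ _ hz
  have h3 : s ^ 2 * d * d' ^ 2 * σ ∈ 𝔪 := by
    have := 𝔪.add_mem hz𝔪 (𝔪.mul_mem_left (e * r ^ 2) hy𝔪)
    rwa [sub_add_cancel] at this
  rcases h𝔪p.mem_or_mem h3 with h4 | h4
  · rcases h𝔪p.mem_or_mem h4 with h5 | h5
    · rcases h𝔪p.mem_or_mem h5 with h6 | h6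
      · exact hs (h𝔪p.mem_of_pow_mem 2 h6)
      · exact hd h6
    · exact hd' (h𝔪p.mem_of_pow_mem 2 h5)
  · exact hσ h4

end PT

end Fermat.Agent.S35
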