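import Mathlib
import Fermat.Agent.S34.AbsLP
import Fermat.Agent.S34.AbsHR
import Fermat.Agent.S34.AbsPlaceComp
import Fermat.Agent.S34.ModelDefs
import Fermat.Agent.S34.NodeGlobalDefs
import Fermat.Agent.S35.F1Ctrick
import Fermat.Agent.S35.F1CrossProd
import Fermat.Agent.S35.F1CrossVert
import Fermat.Agent.S35.F1PtCross
import Fermat.Agent.S35.F1nProdC
import Fermat.Agent.S35.F1nVert
import Fermat.Agent.S35.F1nThick
import Fermat.Agent.S35.F1nNodeB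
import Fermat.Agent.S35.F1Dvr
import Fermat.Agent.S35.F1NoBadC

/-!
# P20 (S35), block F1, NOFT package: crossing points from the weak datum alone

* `s35f1n_pt_cross_places`: `s35f1n_pt_cross` with the hypothesis on the integral points required
  only for the integral points attached to a horizontal prime through the crossing point.
* `s35f1n_pt_cross_weak`: the crossing point theorem with NO hypothesis on the integral points: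
  the weak crossing datum (`x`, `y`, `G`, `x y = π G`, local generation of `𝔪` by `π`, `x`, `y`,
  `w₂ x = 1`, `w₁ y = 1`) and the integral points of `hpoint` suffice.  The hypothesis "not bad"
  is supplied by (L1) (`s35f1_no_bad_C`) and `s35f1_dvr_of_dedekind`.
-/

set_option autoImplicit false

namespace Fermat.Agent.S35

open IsDedekindDomain
open Fermat.Agent.S34

/-- The vertical prime of a valuation which is `≤ 1` on `B`. -/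
def s35f1nw_vprime {B F Γ : Type*} [CommRing B] [Field F] [Algebra B F]
    [LinearOrderedCommGroupWithZero Γ] (w : Valuation F Γ)
    (hB : ∀ b : B, w (algebraMap B F b) ≤ 1) : Ideal B where
  carrier := {b | w (algebraMap B F b) < 1}
  add_mem' := fun {a b} ha hb => by
    show w (algebraMap B F (a + b)) < 1
    rw [map_add]
    exact Valuation.map_add_lt _ ha hb
  zero_mem' := by
    show w (algebraMap B F 0) < 1
    rw [map_zero, map_zero]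
    exact zero_lt_one
  smul_mem' := fun c b hb => by
    show w (algebraMap B F (c • b)) < 1
    rw [smul_eq_mul, map_mul, map_mul]
    calc w (algebraMap B F c) * w (algebraMap B F b) ≤ 1 * w (algebraMap B F b) :=
          mul_le_mul_left (hB c) _
      _ = w (algebraMap B F b) := one_mul _
      _ < 1 := hb

theorem s35f1nw_mem_vprime {B F Γ : Type*} [CommRing B] [Field F] [Algebra B F]
    [LinearOrderedCommGroupWithZero Γ] (w : Valuation F Γ)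
    (hB : ∀ b : B, w (algebraMap B F b) ≤ 1) (b : B) :
    b ∈ s35f1nw_vprime w hB ↔ w (algebraMap B F b) < 1 := Iff.rfl

theorem s35f1nw_vprime_isPrime {B F Γ : Type*} [CommRing B] [Field F] [Algebra B F]
    [LinearOrderedCommGroupWithZero Γ] (w : Valuation F Γ)
    (hB : ∀ b : B, w (algebraMap B F b) ≤ 1) : (s35f1nw_vprime w hB).IsPrime := by
  refine ⟨?_, ?_⟩
  · intro h
    have h1 : (1 : B) ∈ s35f1nw_vprime w hB := by rw [h]; exact Submodule.mem_top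
    rw [s35f1nw_mem_vprime, map_one, map_one] at h1
    exact lt_irrefl _ h1
  · intro a b hab
    rw [s35f1nw_mem_vprime, map_mul, map_mul] at hab
    by_contra hcon
    push Not at hcon
    have ha : w (algebraMap B F a) = 1 :=
      le_antisymm (hB a) (not_lt.mp fun h => hcon.1 ((s35f1nw_mem_vprime w hB a).mpr h))
    have hb : w (algebraMap B F b) = 1 :=
      le_antisymm (hB b) (not_lt.mp fun h => hcon.2 ((s35f1nw_mem_vprime w hB b).mpr h))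
    rw [ha, hb, one_mul] at hab
    exact lt_irrefl _ hab

section PT

variable {Bη F : Type*} [CommRing Bη] [IsDedekindDomain Bη] [Field F] [Algebra Bη F]
  [IsFractionRing Bη F]
  {Λ B : Type*} [CommRing Λ] [IsDomain Λ] [IsDiscreteValuationRing Λ] [Algebra Λ F]
  [CommRing B] [IsNoetherianRing B] [Algebra B F] [Algebra Λ B] [IsScalarTower Λ B F]

/-- **Crossing point without thickness input**, the hypothesis on the integral points being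
required only for the integral points attached to a horizontal prime through `𝔪`. -/
theorem s35f1n_pt_cross_places
    {Γ₁ Γ₂ : Type*} [LinearOrderedCommGroupWithZero Γ₁] [LinearOrderedCommGroupWithZero Γ₂]
    (ι : B →+* Bη) (hι : ∀ b : B, algebraMap Bη F (ι b) = algebraMap B F b)
    (hinj : Function.Injective (algebraMap B F))
    (π : Λ) (hπ : Irreducible π)
    (hπu : IsUnit (ι (algebraMap Λ B π)))
    (hloc : ∀ y : Bη, ∃ (n : ℕ) (b : B), ι (algebraMap Λ B π) ^ n * y = ι b)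
    (𝔪 : Ideal B) [𝔪.IsPrime] (hπ𝔪 : algebraMap Λ B π ∈ 𝔪)
    (V : Subring F)
    (hBV : ∀ b : B, IsIntegral V (algebraMap B F b))
    (hK : ∀ y : Bη, IsIntegral V (algebraMap Bη F y) →
      ∃ b : B, algebraMap B F b = algebraMap Bη F y)
    (w₁ : Valuation F Γ₁) (w₂ : Valuation F Γ₂)
    (hVw : ∀ f : F, IsIntegral V f ↔ w₁ f ≤ 1 ∧ w₂ f ≤ 1)
    (hπ₁ : w₁ (algebraMap Λ F π) < 1) (hπ₂ : w₂ (algebraMap Λ F π) < 1)
    (h𝔪₁ : ∀ b : B, w₁ (algebraMap B F b) < 1 → b ∈ 𝔪)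
    (h𝔪₂ : ∀ b : B, w₂ (algebraMap B F b) < 1 → b ∈ 𝔪)
    (m : ℕ) (hm : m ≠ 0) {u : F} (hu : u ≠ 0)
    (hu1 : ∃ δ : F, IsIntegral V δ ∧ u - 1 = π • δ)
    (hdiv : ∀ 𝔔 ∈ absThrough ι 𝔪, ∃ n : ℤ, 𝔔.valuation F u = WithZero.exp ((m : ℤ) * n))
    (x y G : B) (hx𝔪 : x ∈ 𝔪) (hy𝔪 : y ∈ 𝔪) (hxy : x * y = algebraMap Λ B π * G)
    (hx₂ : w₂ (algebraMap B F x) = 1) (hy₁ : w₁ (algebraMap B F y) = 1)
    (hgen : ∀ z ∈ 𝔪, ∃ a : B, a ∉ 𝔪 ∧ a * z ∈ Ideal.span {algebraMap Λ B π, x, y})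
    (hpoint : ∀ 𝔔 ∈ absThrough ι 𝔪, 𝔔.valuation F u ≠ 1 →
      ∃ φ : B →ₐ[Λ] Λ, 𝔪 = Ideal.comap (φ : B →+* Λ) (Ideal.span {π}) ∧
        ∀ b : B, ι b ∈ 𝔔.asIdeal ↔ φ b = 0)
    (hXYtype : ∀ 𝔔 ∈ absThrough ι 𝔪, ∀ φ : B →ₐ[Λ] Λ,
      𝔪 = Ideal.comap (φ : B →+* Λ) (Ideal.span {π}) →
      (∀ b : B, ι b ∈ 𝔔.asIdeal ↔ φ b = 0) →
      ∃ (X Y H σ : B) (d Q : Λ), ¬ π ∣ φ σ ∧
        X - σ * x ∈ Ideal.span {algebraMap Λ B π} ∧
        Y - σ * y ∈ Ideal.span {algebraMap Λ B π} ∧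
        X * Y = σ ^ 2 * algebraMap Λ B d + algebraMap Λ B Q * H ∧ (¬ Q ∣ φ X ∨ ¬ Q ∣ φ Y)) :
    ∃ (g : F) (c : Λ), g ≠ 0 ∧ IsUnit c ∧ w₁ (g - algebraMap Λ F c) < 1 ∧ w₂ (g - 1) < 1 ∧
      ∀ 𝔔 ∈ absThrough ι 𝔪, 𝔔.valuation F (u / g ^ m) = 1 := by
  have h𝔪p : 𝔪.IsPrime := inferInstance
  -- elements of `B` have valuations `≤ 1`; elements outside `𝔪` have valuations `= 1`
  have hB : ∀ b : B, w₁ (algebraMap B F b) ≤ 1 ∧ w₂ (algebraMap B F b) ≤ 1 :=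
    fun b => (hVw _).1 (hBV b)
  have hΛF : ∀ c : Λ, algebraMap Λ F c = algebraMap B F (algebraMap Λ B c) :=
    fun c => IsScalarTower.algebraMap_apply Λ B F c
  have hout₁ : ∀ b : B, b ∉ 𝔪 → w₁ (algebraMap B F b) = 1 := fun b hb =>
    le_antisymm (hB b).1 (not_lt.mp fun h => hb (h𝔪₁ b h))
  have hout₂ : ∀ b : B, b ∉ 𝔪 → w₂ (algebraMap B F b) = 1 := fun b hb =>
    le_antisymm (hB b).2 (not_lt.mp fun h => hb (h𝔪₂ b h))
  have hπspan₁ : ∀ b : B, b ∈ Ideal.span {algebraMap Λ B π} → w₁ (algebraMap B F b) < 1 := by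
    intro b hb
    obtain ⟨r, rfl⟩ := Ideal.mem_span_singleton'.mp hb
    rw [map_mul, map_mul, ← hΛF]
    exact s35f1d2_mul_lt_one (hB r).1 hπ₁
  have hπspan₂ : ∀ b : B, b ∈ Ideal.span {algebraMap Λ B π} → w₂ (algebraMap B F b) < 1 := by
    intro b hb
    obtain ⟨r, rfl⟩ := Ideal.mem_span_singleton'.mp hb
    rw [map_mul, map_mul, ← hΛF]
    exact s35f1d2_mul_lt_one (hB r).2 hπ₂
  -- `x` is in the first vertical prime
  have hx₁ : w₁ (algebraMap B F x) < 1 := by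
    have h1 : w₁ (algebraMap B F (x * y)) < 1 :=
      hπspan₁ _ (Ideal.mem_span_singleton'.mpr ⟨G, by rw [hxy, mul_comm]⟩)
    rwa [map_mul, map_mul, hy₁, mul_one] at h1
  -- `y` is a local generator of `𝔪` modulo the first vertical prime
  have hyloc : ∀ z ∈ 𝔪, ∃ s r : B, s ∉ 𝔪 ∧ w₁ (algebraMap B F (s * z - r * y)) < 1 := by
    intro z hz
    obtain ⟨a, ha, haz⟩ := hgen z hz
    obtain ⟨r₀, z₁, hz₁, e₁⟩ := Ideal.mem_span_insert.mp haz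
    obtain ⟨r₁, z₂, hz₂, e₂⟩ := Ideal.mem_span_insert.mp hz₁
    obtain ⟨r₂, e₃⟩ := Ideal.mem_span_singleton'.mp hz₂
    refine ⟨a, r₂, ha, ?_⟩
    have e : a * z - r₂ * y = r₀ * algebraMap Λ B π + r₁ * x := by
      rw [e₁, e₂, ← e₃]; ring
    rw [e, map_add]
    apply Valuation.map_add_lt
    · exact hπspan₁ _ (Ideal.mem_span_singleton'.mpr ⟨r₀, rfl⟩)
    · rw [map_mul, map_mul]
      exact s35f1d2_mul_lt_one (hB r₁).1 hx₁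
  -- the hypotheses with the two branches exchanged
  have hVw' : ∀ f : F, IsIntegral V f ↔ w₂ f ≤ 1 ∧ w₁ f ≤ 1 := fun f => (hVw f).trans and_comm
  have hgen' : ∀ z ∈ 𝔪, ∃ a : B, a ∉ 𝔪 ∧ a * z ∈ Ideal.span {algebraMap Λ B π, y, x} := by
    intro z hz
    obtain ⟨a, ha, haz⟩ := hgen z hz
    refine ⟨a, ha, ?_⟩
    rw [Set.pair_comm y x]
    exact haz
  -- the mixed local data
  have hlp : ∀ 𝔔 ∈ absThrough ι 𝔪, 𝔔.valuation F u ≠ 1 →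
      (∃ (h : F) (a : Λ), a ≠ 0 ∧ w₁ (h - algebraMap Λ F a) < w₁ (algebraMap Λ F a) ∧
        w₂ (h - algebraMap B F x) < 1 ∧
        𝔔.valuation F h = WithZero.exp (-1 : ℤ) ∧
        ∀ 𝔔' ∈ absThrough ι 𝔪, 𝔔' ≠ 𝔔 → 𝔔'.valuation F h = 1) ∨
      (∃ (h : F) (b : Λ), b ≠ 0 ∧ w₂ (h - algebraMap Λ F b) < w₂ (algebraMap Λ F b) ∧
        w₁ (h - algebraMap B F y) < 1 ∧
        𝔔.valuation F h = WithZero.exp (-1 : ℤ) ∧
        ∀ 𝔔' ∈ absThrough ι 𝔪, 𝔔' ≠ 𝔔 → 𝔔'.valuation F h = 1) := by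
    intro 𝔔 h𝔔 hne
    obtain ⟨φ, h𝔪φ, hφ𝔔⟩ := hpoint 𝔔 h𝔔 hne
    obtain ⟨X, Y, H, σ, d, Q, hσ, hX, hY, hXY, hQ⟩ := hXYtype 𝔔 h𝔔 φ h𝔪φ hφ𝔔
    rcases hQ with hQ | hQ
    · exact Or.inl (s35f1ptc_lp ι hι π hπ hπu hloc 𝔪 V hBV w₁ w₂ hVw hπ₁ hπ₂ h𝔪₁ h𝔪₂ x y
        hx𝔪 hy𝔪 hy₁ hgen 𝔔 φ h𝔪φ hφ𝔔 X Y H σ d Q hσ hX hY hXY hQ)
    · exact Or.inr (s35f1ptc_lp ι hι π hπ hπu hloc 𝔪 V hBV w₂ w₁ hVw' hπ₂ hπ₁ h𝔪₂ h𝔪₁ y x
        hy𝔪 hx𝔪 hx₂ hgen' 𝔔 φ h𝔪φ hφ𝔔 Y X H σ d Q hσ hY hX (by rw [mul_comm]; exact hXY) hQ)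
  -- the mixed product and its vertical analysis
  obtain ⟨g, a, a', b, b', N₁, N₂, hg, ha, ha', hb, hb', hg₁, hg₂, hval⟩ :=
    s35f1n_cross_prod_C ι 𝔪 w₁ w₂ m hu hdiv x y hx₂ hy₁ hlp
  rcases s35f1n_cross_vert ι hι 𝔪 π hπ hπu V hBV hK w₁ w₂ hVw hπ₁ hπ₂ h𝔪₁ h𝔪₂ m hm hu hu1 x y
    hx𝔪 hy𝔪 hx₂ hy₁ g a a' b b' N₁ N₂ hg ha ha' hb hb' hg₁ hg₂ hval with hbal | hcert
  · exact hbal
  -- unbalanced: `u` certifies finite thickness, hence all points are of `X`-type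
  obtain ⟨φ₀, n, hn, hφ₁, hφ₂, hφQ⟩ := hcert
  by_cases hex : ∃ 𝔔 ∈ absThrough ι 𝔪, 𝔔.valuation F u ≠ 1
  swap
  · -- no place to handle
    push Not at hex
    refine ⟨1, 1, one_ne_zero, isUnit_one, ?_, ?_, ?_⟩
    · rw [map_one, sub_self, map_zero]; exact zero_lt_one
    · rw [sub_self, map_zero]; exact zero_lt_one
    · intro 𝔔 h𝔔
      rw [one_pow, div_one]
      exact hex 𝔔 h𝔔
  obtain ⟨𝔔₀, h𝔔₀, hne₀⟩ := hex
  obtain ⟨φ', h𝔪φ', -⟩ := hpoint 𝔔₀ h𝔔₀ hne₀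
  obtain ⟨K, hK2⟩ : ∃ K : ℕ, K + 1 = 2 * n := ⟨2 * n - 1, by omega⟩
  obtain ⟨X, Y, H, σ, c, hσ, hX, hY, hXY⟩ := s35f1n_node_B hinj π hπ 𝔪 x y G hxy hgen φ' h𝔪φ' K
  have hσx₂ : w₂ (algebraMap B F (σ * x)) = 1 := by
    rw [map_mul, map_mul, hout₂ σ hσ, hx₂, one_mul]
  have hX₂ : w₂ (algebraMap B F X) = 1 := by
    have h1 : w₂ (algebraMap B F X - algebraMap B F (σ * x)) < w₂ (algebraMap B F (σ * x)) := by
      rw [← map_sub, hσx₂]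
      exact hπspan₂ _ hX
    rw [s35f1d_eq_of_sub_lt w₂ h1, hσx₂]
  have hY₁ : w₁ (algebraMap B F (Y - σ * y)) < 1 := hπspan₁ _ hY
  have hc : ¬ π ^ K ∣ c :=
    s35f1n_thick ι hι 𝔪 π V hBV hK w₁ w₂ hVw hπ₂ h𝔪₁ h𝔪₂ y hy𝔪 hy₁ hyloc φ₀ n hn hφ₁ hφ₂ hφQ
      X Y H σ c K hσ hX₂ hY₁ hXY hK2.ge
  -- all integral points attached to places are of `X`-type for this node relation
  have hlpX : ∀ 𝔔 ∈ absThrough ι 𝔪, 𝔔.valuation F u ≠ 1 →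
      ∃ (h : F) (a : Λ), a ≠ 0 ∧ w₁ (h - algebraMap Λ F a) < w₁ (algebraMap Λ F a) ∧
        w₂ (h - algebraMap B F x) < 1 ∧
        𝔔.valuation F h = WithZero.exp (-1 : ℤ) ∧
        ∀ 𝔔' ∈ absThrough ι 𝔪, 𝔔' ≠ 𝔔 → 𝔔'.valuation F h = 1 := by
    intro 𝔔 h𝔔 hne
    obtain ⟨φ, h𝔪φ, hφ𝔔⟩ := hpoint 𝔔 h𝔔 hne
    have hmem : ∀ z : B, z ∈ 𝔪 ↔ π ∣ φ z := fun z => by
      rw [h𝔪φ, Ideal.mem_comap, Ideal.mem_span_singleton]
      rfl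
    have hσφ : ¬ π ∣ φ σ := fun h => hσ ((hmem σ).mpr h)
    have hQ : ¬ π ^ (K + 1) ∣ φ X := by
      intro hdvd
      apply hc
      -- evaluate the node relation
      have hev : φ X * φ Y = φ σ ^ 2 * (π * c) + π ^ (K + 1) * φ H := by
        have := congrArg φ hXY
        simpa only [map_mul, map_add, map_pow, AlgHom.commutes, Algebra.algebraMap_self,
          RingHom.id_apply] using this
      have h1 : π ^ (K + 1) ∣ φ σ ^ 2 * (π * c) := by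
        have h2 : φ σ ^ 2 * (π * c) = φ X * φ Y - π ^ (K + 1) * φ H := by rw [hev]; ring
        rw [h2]
        exact dvd_sub (Dvd.dvd.mul_right hdvd _) (dvd_mul_right _ _)
      have hσu : IsUnit (φ σ) := by
        by_contra hnu
        have hmem' : φ σ ∈ IsLocalRing.maximalIdeal Λ := by
          rwa [IsLocalRing.mem_maximalIdeal, mem_nonunits_iff]
        rw [hπ.maximalIdeal_eq] at hmem'
        exact hσφ (Ideal.mem_span_singleton.mp hmem')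
      have h3 : π ^ (K + 1) ∣ π * c := by
        obtain ⟨t, ht⟩ := h1
        obtain ⟨v, hv⟩ := hσu.pow 2
        refine ⟨(↑v⁻¹ : Λ) * t, ?_⟩
        have : π * c = (↑v⁻¹ : Λ) * (φ σ ^ 2 * (π * c)) := by
          rw [← hv, ← mul_assoc, Units.inv_mul, one_mul]
        rw [this, ht]
        ring
      rw [pow_succ, mul_comm] at h3
      exact (mul_dvd_mul_iff_left hπ.ne_zero).mp h3
    exact s35f1ptc_lp ι hι π hπ hπu hloc 𝔪 V hBV w₁ w₂ hVw hπ₁ hπ₂ h𝔪₁ h𝔪₂ x y hx𝔪 hy𝔪 hy₁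
      hgen 𝔔 φ h𝔪φ hφ𝔔 X Y H σ (π * c) (π ^ (K + 1)) hσφ hX hY hXY hQ
  obtain ⟨g', a₀, a₀', N, hg', ha₀, ha₀', hg'₁, hg'₂, hval'⟩ :=
    s35f1_cross_prod ι 𝔪 w₁ w₂ m hu hdiv x hx₂ hlpX
  obtain ⟨c', hc', h1, h2⟩ := s35f1_cross_vert ι hι 𝔪 π hπ hπu V hBV hK w₁ w₂ hVw hπ₁ hπ₂ h𝔪₁
    h𝔪₂ m hm hu hu1 x hx𝔪 hx₂ g' a₀ a₀' N hg' ha₀ ha₀' hg'₁ hg'₂ hval'
  exact ⟨g', c', hg', hc', h1, h2, hval'⟩

/-- **Crossing point from the weak datum alone**: no hypothesis on the integral points beyond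
`hpoint` (the places where `u` has a zero or a pole are cut out by integral points). -/
theorem s35f1n_pt_cross_weak
    {Γ₁ Γ₂ : Type*} [LinearOrderedCommGroupWithZero Γ₁] [LinearOrderedCommGroupWithZero Γ₂]
    (ι : B →+* Bη) (hι : ∀ b : B, algebraMap Bη F (ι b) = algebraMap B F b)
    (hinj : Function.Injective (algebraMap B F))
    (π : Λ) (hπ : Irreducible π)
    (hπu : IsUnit (ι (algebraMap Λ B π)))
    (hloc : ∀ y : Bη, ∃ (n : ℕ) (b : B), ι (algebraMap Λ B π) ^ n * y = ι b)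
    (𝔪 : Ideal B) [𝔪.IsPrime] (hπ𝔪 : algebraMap Λ B π ∈ 𝔪)
    (V : Subring F)
    (hBV : ∀ b : B, IsIntegral V (algebraMap B F b))
    (hK : ∀ y : Bη, IsIntegral V (algebraMap Bη F y) →
      ∃ b : B, algebraMap B F b = algebraMap Bη F y)
    (w₁ : Valuation F Γ₁) (w₂ : Valuation F Γ₂)
    (hVw : ∀ f : F, IsIntegral V f ↔ w₁ f ≤ 1 ∧ w₂ f ≤ 1)
    (hπ₁ : w₁ (algebraMap Λ F π) < 1) (hπ₂ : w₂ (algebraMap Λ F π) < 1)
    (h𝔪₁ : ∀ b : B, w₁ (algebraMap B F b) < 1 → b ∈ 𝔪)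
    (h𝔪₂ : ∀ b : B, w₂ (algebraMap B F b) < 1 → b ∈ 𝔪)
    (m : ℕ) (hm : m ≠ 0) {u : F} (hu : u ≠ 0)
    (hu1 : ∃ δ : F, IsIntegral V δ ∧ u - 1 = π • δ)
    (hdiv : ∀ 𝔔 ∈ absThrough ι 𝔪, ∃ n : ℤ, 𝔔.valuation F u = WithZero.exp ((m : ℤ) * n))
    (x y G : B) (hx𝔪 : x ∈ 𝔪) (hy𝔪 : y ∈ 𝔪) (hxy : x * y = algebraMap Λ B π * G)
    (hx₂ : w₂ (algebraMap B F x) = 1) (hy₁ : w₁ (algebraMap B F y) = 1)
    (hgen : ∀ z ∈ 𝔪, ∃ a : B, a ∉ 𝔪 ∧ a * z ∈ Ideal.span {algebraMap Λ B π, x, y})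
    (hpoint : ∀ 𝔔 ∈ absThrough ι 𝔪, 𝔔.valuation F u ≠ 1 →
      ∃ φ : B →ₐ[Λ] Λ, 𝔪 = Ideal.comap (φ : B →+* Λ) (Ideal.span {π}) ∧
        ∀ b : B, ι b ∈ 𝔔.asIdeal ↔ φ b = 0) :
    ∃ (g : F) (c : Λ), g ≠ 0 ∧ IsUnit c ∧ w₁ (g - algebraMap Λ F c) < 1 ∧ w₂ (g - 1) < 1 ∧
      ∀ 𝔔 ∈ absThrough ι 𝔪, 𝔔.valuation F (u / g ^ m) = 1 := by
  have hdom : IsDomain B := hinj.isDomain (algebraMap B F)
  have hB : ∀ b : B, w₁ (algebraMap B F b) ≤ 1 ∧ w₂ (algebraMap B F b) ≤ 1 :=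
    fun b => (hVw _).1 (hBV b)
  have hΛF : ∀ c : Λ, algebraMap Λ F c = algebraMap B F (algebraMap Λ B c) :=
    fun c => IsScalarTower.algebraMap_apply Λ B F c
  have hB₁ : ∀ b : B, w₁ (algebraMap B F b) ≤ 1 := fun b => (hB b).1
  have hB₂ : ∀ b : B, w₂ (algebraMap B F b) ≤ 1 := fun b => (hB b).2
  have hp₁ : (s35f1nw_vprime w₁ hB₁).IsPrime := s35f1nw_vprime_isPrime w₁ hB₁
  have hp₂ : (s35f1nw_vprime w₂ hB₂).IsPrime := s35f1nw_vprime_isPrime w₂ hB₂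
  have hπB₁ : w₁ (algebraMap B F (algebraMap Λ B π)) < 1 := by rw [← hΛF]; exact hπ₁
  have hπB₂ : w₂ (algebraMap B F (algebraMap Λ B π)) < 1 := by rw [← hΛF]; exact hπ₂
  have hxyF₁ : w₁ (algebraMap B F (x * y)) < 1 := by
    rw [hxy, map_mul, map_mul, mul_comm]
    exact s35f1d2_mul_lt_one (hB₁ G) hπB₁
  have hxyF₂ : w₂ (algebraMap B F (x * y)) < 1 := by
    rw [hxy, map_mul, map_mul, mul_comm]
    exact s35f1d2_mul_lt_one (hB₂ G) hπB₂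
  have hx₁ : w₁ (algebraMap B F x) < 1 := by
    rwa [map_mul, map_mul, hy₁, mul_one] at hxyF₁
  have hy₂ : w₂ (algebraMap B F y) < 1 := by
    rwa [map_mul, map_mul, hx₂, one_mul] at hxyF₂
  refine s35f1n_pt_cross_places ι hι hinj π hπ hπu hloc 𝔪 hπ𝔪 V hBV hK w₁ w₂ hVw hπ₁ hπ₂ h𝔪₁ h𝔪₂
    m hm hu hu1 hdiv x y G hx𝔪 hy𝔪 hxy hx₂ hy₁ hgen hpoint ?_
  intro 𝔔 _ φ h𝔪φ hφ𝔔
  have hdvr := s35f1_dvr_of_dedekind hinj ι hι π hπu hloc φ 𝔔 hφ𝔔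
  have hnb : ¬ S34.NodeBadG π π x y (RingHom.id B) φ :=
    s35f1_no_bad_C π hπ φ 𝔪 h𝔪φ (s35f1nw_vprime w₁ hB₁) (s35f1nw_vprime w₂ hB₂)
      (fun b hb => h𝔪₁ b hb) (fun b hb => h𝔪₂ b hb) hπB₁ hπB₂ x y G hxy hx₁ hy₂
      (fun h => absurd hx₂ (ne_of_lt h)) (fun h => absurd hy₁ (ne_of_lt h)) hgen hdvr
  unfold S34.NodeBadG at hnb
  simp only [not_forall] at hnb
  obtain ⟨K, X, Y, H, σ, c, hσ, hX, hY, hXY, hQ⟩ := hnb
  simp only [RingHom.id_apply, Algebra.algebraMap_self] at hσ hQ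
  exact ⟨X, Y, H, σ, π * c, π ^ (K + 1), hσ, hX, hY, hXY, not_and_or.mp hQ⟩

end PT

end Fermat.Agent.S35
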