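import Mathlib
import Fermat.Agent.S34.ModelDefs

/-!
# P20 (S35), block F1, INST adapters: normal form of the closed-point datum

The closed-point theorems of INST (`S34.kron_inst_fin`, `S34.kron_inst_inf`) export, at a closed
point `𝔪` of a chart ring `B` of the special fibre,

  `(∃ t, ModelLocGen (ϖ) 𝔪 t) ∨ (∃ x y G, x * y = ϖ * G ∧ x ∈ 𝔪 ∧ y ∈ 𝔪 ∧ 𝔪 = (ϖ, x, y) locally)`.

Here this is put in normal form with respect to the two vertical primes `𝔭₁`, `𝔭₂`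
(`𝔭₁ ∩ 𝔭₂ = (ϖ)`, neither maximal, neither contained in the other): either a local generator
`t` outside both vertical primes, or `𝔪` lies on both components and `x ∈ 𝔭₁ ∖ 𝔭₂`,
`y ∈ 𝔭₂ ∖ 𝔭₁`.
-/

set_option autoImplicit false

namespace Fermat.Agent.S35

open Fermat.Agent.S34

section NF

variable {B : Type*} [CommRing B]

/-- A local generator of `𝔪` modulo `ϖ` lies outside every prime `𝔭 ∋ ϖ`, `𝔭 ⊊ 𝔪`. -/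
theorem s35f1nf_not_mem {ϖ : B} {𝔪 : Ideal B} (𝔭 : Ideal B) [𝔭.IsPrime]
    (hϖ : ϖ ∈ 𝔭) (h𝔭𝔪 : 𝔭 ≤ 𝔪) (h𝔪𝔭 : ¬ 𝔪 ≤ 𝔭) {t : B}
    (ht : ModelLocGen (Ideal.span {ϖ}) 𝔪 t) : t ∉ 𝔭 := by
  intro htp
  apply h𝔪𝔭
  intro z hz
  obtain ⟨a, ha, haz⟩ := ht.2 z hz
  have hle : Ideal.span {ϖ} ⊔ Ideal.span {t} ≤ 𝔭 :=
    sup_le ((Ideal.span_singleton_le_iff_mem 𝔭).mpr hϖ)
      ((Ideal.span_singleton_le_iff_mem 𝔭).mpr htp)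
  rcases Ideal.IsPrime.mem_or_mem inferInstance (hle haz) with h | h
  · exact absurd (h𝔭𝔪 h) ha
  · exact h

/-- One-component point: the local generator can be moved off the other vertical prime. -/
theorem s35f1nf_smooth_aux (ϖ : B) (𝔪 : Ideal B) [𝔪.IsMaximal]
    (𝔭₁ 𝔭₂ : Ideal B) [𝔭₁.IsPrime] [𝔭₂.IsPrime] (hϖ₁ : ϖ ∈ 𝔭₁)
    (hint : 𝔭₁ ⊓ 𝔭₂ ≤ Ideal.span {ϖ}) (h𝔪₁ : ¬ 𝔪 ≤ 𝔭₁)
    (he₁ : ∃ e, e ∈ 𝔭₁ ∧ e ∉ 𝔭₂) (h1 : 𝔭₁ ≤ 𝔪) (h2 : ¬ 𝔭₂ ≤ 𝔪)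
    {t : B} (ht : ModelLocGen (Ideal.span {ϖ}) 𝔪 t) :
    ∃ t' : B, ModelLocGen (Ideal.span {ϖ}) 𝔪 t' ∧ t' ∉ 𝔭₁ ∧ t' ∉ 𝔭₂ := by
  have h𝔪p : 𝔪.IsPrime := Ideal.IsMaximal.isPrime inferInstance
  have ht1 : t ∉ 𝔭₁ := s35f1nf_not_mem 𝔭₁ hϖ₁ h1 h𝔪₁ ht
  by_cases ht2 : t ∈ 𝔭₂
  swap
  · exact ⟨t, ht, ht1, ht2⟩
  obtain ⟨e, he1, he2⟩ := he₁
  obtain ⟨s, hs2, hsm⟩ := Set.not_subset.mp h2
  obtain ⟨w, hw⟩ := Ideal.mem_span_singleton'.mp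
    (hint ⟨𝔭₁.mul_mem_left s he1, 𝔭₂.mul_mem_right e hs2⟩)
  refine ⟨t + e, modelLocGen_of_exists_eq (𝔪.add_mem ht.1 (h1 he1)) fun z hz => ?_, ?_, ?_⟩
  · obtain ⟨a, c, d, ha, hc, hacd⟩ := ht.exists_eq hz
    refine ⟨s * a, s * c - w * ϖ * d, s * d, fun h => ?_, ?_, ?_⟩
    · rcases h𝔪p.mem_or_mem h with h | h
      · exact hsm h
      · exact ha h
    · exact Ideal.sub_mem _ (Ideal.mul_mem_left _ _ hc)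
        (Ideal.mul_mem_right _ _ (Ideal.mul_mem_left _ _ (Ideal.subset_span rfl)))
    · rw [mul_assoc, hacd, hw]
      ring
  · intro h
    exact ht1 (by simpa using 𝔭₁.sub_mem h he1)
  · intro h
    exact he2 (by simpa using 𝔭₂.sub_mem h ht2)

/-- Normalisation of a local generator with respect to both vertical primes. -/
theorem s35f1nf_smooth (ϖ : B) (𝔪 : Ideal B) [𝔪.IsMaximal] (hϖ𝔪 : ϖ ∈ 𝔪)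
    (𝔭₁ 𝔭₂ : Ideal B) [𝔭₁.IsPrime] [𝔭₂.IsPrime] (hϖ₁ : ϖ ∈ 𝔭₁) (hϖ₂ : ϖ ∈ 𝔭₂)
    (hint : 𝔭₁ ⊓ 𝔭₂ ≤ Ideal.span {ϖ}) (h𝔪₁ : ¬ 𝔪 ≤ 𝔭₁) (h𝔪₂ : ¬ 𝔪 ≤ 𝔭₂)
    (he₁ : ∃ e, e ∈ 𝔭₁ ∧ e ∉ 𝔭₂) (he₂ : ∃ e, e ∈ 𝔭₂ ∧ e ∉ 𝔭₁)
    {t : B} (ht : ModelLocGen (Ideal.span {ϖ}) 𝔪 t) :
    ∃ t' : B, ModelLocGen (Ideal.span {ϖ}) 𝔪 t' ∧ t' ∉ 𝔭₁ ∧ t' ∉ 𝔭₂ := by
  have h𝔪p : 𝔪.IsPrime := Ideal.IsMaximal.isPrime inferInstance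
  have hor : 𝔭₁ ≤ 𝔪 ∨ 𝔭₂ ≤ 𝔪 :=
    h𝔪p.inf_le.mp (hint.trans ((Ideal.span_singleton_le_iff_mem 𝔪).mpr hϖ𝔪))
  by_cases h1 : 𝔭₁ ≤ 𝔪
  · by_cases h2 : 𝔭₂ ≤ 𝔪
    · exact ⟨t, ht, s35f1nf_not_mem 𝔭₁ hϖ₁ h1 h𝔪₁ ht, s35f1nf_not_mem 𝔭₂ hϖ₂ h2 h𝔪₂ ht⟩
    · exact s35f1nf_smooth_aux ϖ 𝔪 𝔭₁ 𝔭₂ hϖ₁ hint h𝔪₁ he₁ h1 h2 ht
  · have h2 : 𝔭₂ ≤ 𝔪 := hor.resolve_left h1
    obtain ⟨t', ht', h2', h1'⟩ := s35f1nf_smooth_aux ϖ 𝔪 𝔭₂ 𝔭₁ hϖ₂ (by rwa [inf_comm]) h𝔪₂ he₂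
      h2 h1 ht
    exact ⟨t', ht', h1', h2'⟩

/-- If `x` is locally in `(ϖ)`, a datum `𝔪 = (ϖ, x, y)` (locally) makes `y` a local generator. -/
theorem s35f1nf_locGen_of_mul_mem {ϖ x y : B} {𝔪 : Ideal B} [𝔪.IsPrime] (hy𝔪 : y ∈ 𝔪)
    (hgen : ∀ z ∈ 𝔪, ∃ a : B, a ∉ 𝔪 ∧ a * z ∈ Ideal.span {ϖ, x, y})
    {s : B} (hs : s ∉ 𝔪) (hsx : s * x ∈ Ideal.span {ϖ}) :
    ModelLocGen (Ideal.span {ϖ}) 𝔪 y := by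
  refine ⟨hy𝔪, fun z hz => ?_⟩
  obtain ⟨a, ha, haz⟩ := hgen z hz
  refine ⟨s * a, fun h => ?_, ?_⟩
  · rcases Ideal.IsPrime.mem_or_mem inferInstance h with h | h
    · exact hs h
    · exact ha h
  · rw [Ideal.span_insert] at haz
    obtain ⟨c₁, hc₁, r, hr, hcr⟩ := Submodule.mem_sup.mp haz
    obtain ⟨c, d, hcd⟩ := Ideal.mem_span_pair.mp hr
    have e : s * a * z = (s * c₁ + c * (s * x)) + (s * d) * y := by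
      rw [mul_assoc, ← hcr, ← hcd]
      ring
    rw [e]
    exact Submodule.add_mem_sup
      (Ideal.add_mem _ (Ideal.mul_mem_left _ _ hc₁) (Ideal.mul_mem_left _ _ hsx))
      (Ideal.mul_mem_left _ _ (Ideal.subset_span rfl))

/-- the same with the roles of `x` and `y` exchanged. -/
theorem s35f1nf_locGen_of_mul_mem' {ϖ x y : B} {𝔪 : Ideal B} [𝔪.IsPrime] (hx𝔪 : x ∈ 𝔪)
    (hgen : ∀ z ∈ 𝔪, ∃ a : B, a ∉ 𝔪 ∧ a * z ∈ Ideal.span {ϖ, x, y})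
    {s : B} (hs : s ∉ 𝔪) (hsy : s * y ∈ Ideal.span {ϖ}) :
    ModelLocGen (Ideal.span {ϖ}) 𝔪 x := by
  refine s35f1nf_locGen_of_mul_mem (x := y) hx𝔪 (fun z hz => ?_) hs hsy
  obtain ⟨a, ha, haz⟩ := hgen z hz
  refine ⟨a, ha, ?_⟩
  have : ({ϖ, y, x} : Set B) = {ϖ, x, y} := by
    ext u
    simp only [Set.mem_insert_iff, Set.mem_singleton_iff]
    tauto
  rw [this]
  exact haz

/-- **Normal form of the INST closed-point datum** with respect to the vertical primes. -/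
theorem s35f1_inst_nf (ϖ : B) (𝔪 : Ideal B) [𝔪.IsMaximal] (hϖ𝔪 : ϖ ∈ 𝔪)
    (𝔭₁ 𝔭₂ : Ideal B) [𝔭₁.IsPrime] [𝔭₂.IsPrime] (hϖ₁ : ϖ ∈ 𝔭₁) (hϖ₂ : ϖ ∈ 𝔭₂)
    (hint : 𝔭₁ ⊓ 𝔭₂ ≤ Ideal.span {ϖ}) (h𝔪₁ : ¬ 𝔪 ≤ 𝔭₁) (h𝔪₂ : ¬ 𝔪 ≤ 𝔭₂)
    (he₁ : ∃ e, e ∈ 𝔭₁ ∧ e ∉ 𝔭₂) (he₂ : ∃ e, e ∈ 𝔭₂ ∧ e ∉ 𝔭₁)
    (h : (∃ t : B, ModelLocGen (Ideal.span {ϖ}) 𝔪 t) ∨
      (∃ x y G : B, x * y = ϖ * G ∧ x ∈ 𝔪 ∧ y ∈ 𝔪 ∧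
        ∀ z ∈ 𝔪, ∃ a : B, a ∉ 𝔪 ∧ a * z ∈ Ideal.span {ϖ, x, y})) :
    (∃ t : B, ModelLocGen (Ideal.span {ϖ}) 𝔪 t ∧ t ∉ 𝔭₁ ∧ t ∉ 𝔭₂) ∨
    (𝔭₁ ≤ 𝔪 ∧ 𝔭₂ ≤ 𝔪 ∧ ∃ x y G : B, x * y = ϖ * G ∧ x ∈ 𝔪 ∧ y ∈ 𝔪 ∧
      x ∈ 𝔭₁ ∧ x ∉ 𝔭₂ ∧ y ∈ 𝔭₂ ∧ y ∉ 𝔭₁ ∧
      ∀ z ∈ 𝔪, ∃ a : B, a ∉ 𝔪 ∧ a * z ∈ Ideal.span {ϖ, x, y}) := by
  have h𝔪p : 𝔪.IsPrime := Ideal.IsMaximal.isPrime inferInstance
  have hsm : ∀ t : B, ModelLocGen (Ideal.span {ϖ}) 𝔪 t →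
      ∃ t' : B, ModelLocGen (Ideal.span {ϖ}) 𝔪 t' ∧ t' ∉ 𝔭₁ ∧ t' ∉ 𝔭₂ := fun t ht =>
    s35f1nf_smooth ϖ 𝔪 hϖ𝔪 𝔭₁ 𝔭₂ hϖ₁ hϖ₂ hint h𝔪₁ h𝔪₂ he₁ he₂ ht
  rcases h with ⟨t, ht⟩ | ⟨x, y, G, hxy, hx𝔪, hy𝔪, hgen⟩
  · exact Or.inl (hsm t ht)
  have hor : 𝔭₁ ≤ 𝔪 ∨ 𝔭₂ ≤ 𝔪 :=
    h𝔪p.inf_le.mp (hint.trans ((Ideal.span_singleton_le_iff_mem 𝔪).mpr hϖ𝔪))
  have hxy1 : x ∈ 𝔭₁ ∨ y ∈ 𝔭₁ :=
    Ideal.IsPrime.mem_or_mem inferInstance (by rw [hxy]; exact 𝔭₁.mul_mem_right _ hϖ₁)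
  have hxy2 : x ∈ 𝔭₂ ∨ y ∈ 𝔭₂ :=
    Ideal.IsPrime.mem_or_mem inferInstance (by rw [hxy]; exact 𝔭₂.mul_mem_right _ hϖ₂)
  have h1m : (1 : B) ∉ 𝔪 := (Ideal.ne_top_iff_one 𝔪).mp h𝔪p.ne_top
  by_cases h1 : 𝔭₁ ≤ 𝔪
  · by_cases h2 : 𝔭₂ ≤ 𝔪
    · -- a point on both components
      by_cases hx12 : x ∈ 𝔭₁ ∧ x ∈ 𝔭₂
      · exact Or.inl (hsm y (s35f1nf_locGen_of_mul_mem hy𝔪 hgen h1m
          (by rw [one_mul]; exact hint hx12)))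
      by_cases hy12 : y ∈ 𝔭₁ ∧ y ∈ 𝔭₂
      · exact Or.inl (hsm x (s35f1nf_locGen_of_mul_mem' hx𝔪 hgen h1m
          (by rw [one_mul]; exact hint hy12)))
      right
      refine ⟨h1, h2, ?_⟩
      by_cases hx1 : x ∈ 𝔭₁
      · have hx2 : x ∉ 𝔭₂ := fun h => hx12 ⟨hx1, h⟩
        have hy2 : y ∈ 𝔭₂ := hxy2.resolve_left hx2
        have hy1 : y ∉ 𝔭₁ := fun h => hy12 ⟨h, hy2⟩
        exact ⟨x, y, G, hxy, hx𝔪, hy𝔪, hx1, hx2, hy2, hy1, hgen⟩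
      · have hy1 : y ∈ 𝔭₁ := hxy1.resolve_left hx1
        have hy2 : y ∉ 𝔭₂ := fun h => hy12 ⟨hy1, h⟩
        have hx2 : x ∈ 𝔭₂ := hxy2.resolve_right hy2
        refine ⟨y, x, G, by rw [mul_comm, hxy], hy𝔪, hx𝔪, hy1, hy2, hx2, hx1, fun z hz => ?_⟩
        obtain ⟨a, ha, haz⟩ := hgen z hz
        refine ⟨a, ha, ?_⟩
        have : ({ϖ, y, x} : Set B) = {ϖ, x, y} := by
          ext u
          simp only [Set.mem_insert_iff, Set.mem_singleton_iff]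
          tauto
        rw [this]
        exact haz
    · -- only on the first component
      obtain ⟨s, hs2, hsm'⟩ := Set.not_subset.mp h2
      rcases hxy1 with hx1 | hy1
      · exact Or.inl (hsm y (s35f1nf_locGen_of_mul_mem hy𝔪 hgen hsm'
          (hint ⟨𝔭₁.mul_mem_left s hx1, 𝔭₂.mul_mem_right x hs2⟩)))
      · exact Or.inl (hsm x (s35f1nf_locGen_of_mul_mem' hx𝔪 hgen hsm'
          (hint ⟨𝔭₁.mul_mem_left s hy1, 𝔭₂.mul_mem_right y hs2⟩)))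
  · -- only on the second component
    obtain ⟨s, hs1, hsm'⟩ := Set.not_subset.mp h1
    rcases hxy2 with hx2 | hy2
    · exact Or.inl (hsm y (s35f1nf_locGen_of_mul_mem hy𝔪 hgen hsm'
        (hint ⟨𝔭₁.mul_mem_right x hs1, 𝔭₂.mul_mem_left s hx2⟩)))
    · exact Or.inl (hsm x (s35f1nf_locGen_of_mul_mem' hx𝔪 hgen hsm'
        (hint ⟨𝔭₁.mul_mem_right y hs1, 𝔭₂.mul_mem_left s hy2⟩)))

end NF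

section Val

variable {B F : Type*} [CommRing B] [Field F] [Algebra B F]
  {Γ : Type*} [LinearOrderedCommGroupWithZero Γ]

/-- The vertical prime of a valuation `w ≤ 1` on `B`: the elements of `B` with `w < 1`. -/
def s35f1nfIdeal (w : Valuation F Γ) (hB : ∀ b : B, w (algebraMap B F b) ≤ 1) : Ideal B where
  carrier := {b | w (algebraMap B F b) < 1}
  add_mem' := by
    intro a b ha hb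
    show w (algebraMap B F (a + b)) < 1
    rw [map_add]
    exact lt_of_le_of_lt (w.map_add _ _) (max_lt ha hb)
  zero_mem' := by
    show w (algebraMap B F 0) < 1
    rw [map_zero, map_zero]
    exact zero_lt_one
  smul_mem' := by
    intro c b hb
    show w (algebraMap B F (c • b)) < 1
    rw [smul_eq_mul, map_mul, map_mul]
    exact lt_of_le_of_lt (mul_le_of_le_one_left' (hB c)) hb

theorem mem_s35f1nfIdeal (w : Valuation F Γ) (hB : ∀ b : B, w (algebraMap B F b) ≤ 1) (b : B) :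
    b ∈ s35f1nfIdeal w hB ↔ w (algebraMap B F b) < 1 := Iff.rfl

theorem not_mem_s35f1nfIdeal (w : Valuation F Γ) (hB : ∀ b : B, w (algebraMap B F b) ≤ 1)
    (b : B) : b ∉ s35f1nfIdeal w hB ↔ w (algebraMap B F b) = 1 := by
  rw [mem_s35f1nfIdeal, not_lt]
  exact ⟨fun h => le_antisymm (hB b) h, fun h => h.ge⟩

theorem s35f1nfIdeal_isPrime (w : Valuation F Γ) (hB : ∀ b : B, w (algebraMap B F b) ≤ 1) :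
    (s35f1nfIdeal w hB).IsPrime := by
  refine ⟨?_, ?_⟩
  · rw [Ideal.ne_top_iff_one, not_mem_s35f1nfIdeal, map_one, map_one]
  · intro a b hab
    by_contra hcon
    rw [not_or, not_mem_s35f1nfIdeal, not_mem_s35f1nfIdeal] at hcon
    rw [mem_s35f1nfIdeal, map_mul, map_mul, hcon.1, hcon.2, one_mul] at hab
    exact lt_irrefl _ hab

end Val

section ValNF

variable {B F : Type*} [CommRing B] [Field F] [Algebra B F]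
  {Γ₁ Γ₂ : Type*} [LinearOrderedCommGroupWithZero Γ₁] [LinearOrderedCommGroupWithZero Γ₂]

/-- **Normal form of the INST closed-point datum, valuation form**: the hypotheses of F1-PTS
(`t` with `t⁻¹` integral over `V`) or those of F1-PTC (`𝔪` on both components, `w₂ x = 1`,
`w₁ y = 1`). -/
theorem s35f1_inst_nf_val (w₁ : Valuation F Γ₁) (w₂ : Valuation F Γ₂)
    (hw₁B : ∀ b : B, w₁ (algebraMap B F b) ≤ 1) (hw₂B : ∀ b : B, w₂ (algebraMap B F b) ≤ 1)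
    (V : Subring F) (hVw : ∀ f : F, IsIntegral V f ↔ w₁ f ≤ 1 ∧ w₂ f ≤ 1)
    (ϖ : B) (𝔪 : Ideal B) [𝔪.IsMaximal] (hϖ𝔪 : ϖ ∈ 𝔪)
    (hϖ₁ : w₁ (algebraMap B F ϖ) < 1) (hϖ₂ : w₂ (algebraMap B F ϖ) < 1)
    (hint : ∀ b : B, w₁ (algebraMap B F b) < 1 → w₂ (algebraMap B F b) < 1 →
      b ∈ Ideal.span {ϖ})
    (h𝔪₁ : ∃ b ∈ 𝔪, w₁ (algebraMap B F b) = 1) (h𝔪₂ : ∃ b ∈ 𝔪, w₂ (algebraMap B F b) = 1)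
    (he₁ : ∃ e : B, w₁ (algebraMap B F e) < 1 ∧ w₂ (algebraMap B F e) = 1)
    (he₂ : ∃ e : B, w₂ (algebraMap B F e) < 1 ∧ w₁ (algebraMap B F e) = 1)
    (h : (∃ t : B, ModelLocGen (Ideal.span {ϖ}) 𝔪 t) ∨
      (∃ x y G : B, x * y = ϖ * G ∧ x ∈ 𝔪 ∧ y ∈ 𝔪 ∧
        ∀ z ∈ 𝔪, ∃ a : B, a ∉ 𝔪 ∧ a * z ∈ Ideal.span {ϖ, x, y})) :
    (∃ t : B, ModelLocGen (Ideal.span {ϖ}) 𝔪 t ∧ algebraMap B F t ≠ 0 ∧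
      w₁ (algebraMap B F t) = 1 ∧ w₂ (algebraMap B F t) = 1 ∧
      IsIntegral V (algebraMap B F t)⁻¹) ∨
    ((∀ b : B, w₁ (algebraMap B F b) < 1 → b ∈ 𝔪) ∧
      (∀ b : B, w₂ (algebraMap B F b) < 1 → b ∈ 𝔪) ∧
      ∃ x y G : B, x * y = ϖ * G ∧ x ∈ 𝔪 ∧ y ∈ 𝔪 ∧
        w₁ (algebraMap B F x) < 1 ∧ w₂ (algebraMap B F x) = 1 ∧
        w₂ (algebraMap B F y) < 1 ∧ w₁ (algebraMap B F y) = 1 ∧
        ∀ z ∈ 𝔪, ∃ a : B, a ∉ 𝔪 ∧ a * z ∈ Ideal.span {ϖ, x, y}) := by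
  have hp1 := s35f1nfIdeal_isPrime w₁ hw₁B
  have hp2 := s35f1nfIdeal_isPrime w₂ hw₂B
  have key := s35f1_inst_nf ϖ 𝔪 hϖ𝔪 (s35f1nfIdeal w₁ hw₁B) (s35f1nfIdeal w₂ hw₂B) hϖ₁ hϖ₂
    (fun b hb => hint b hb.1 hb.2)
    (by
      obtain ⟨b, hb, hb1⟩ := h𝔪₁
      exact fun hle => (not_mem_s35f1nfIdeal w₁ hw₁B b).mpr hb1 (hle hb))
    (by
      obtain ⟨b, hb, hb1⟩ := h𝔪₂
      exact fun hle => (not_mem_s35f1nfIdeal w₂ hw₂B b).mpr hb1 (hle hb))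
    (by
      obtain ⟨e, he, he'⟩ := he₁
      exact ⟨e, he, (not_mem_s35f1nfIdeal w₂ hw₂B e).mpr he'⟩)
    (by
      obtain ⟨e, he, he'⟩ := he₂
      exact ⟨e, he, (not_mem_s35f1nfIdeal w₁ hw₁B e).mpr he'⟩) h
  rcases key with ⟨t, ht, ht1, ht2⟩ | ⟨h1, h2, x, y, G, hxy, hx𝔪, hy𝔪, hx1, hx2, hy2, hy1, hgen⟩
  · left
    have e1 := (not_mem_s35f1nfIdeal w₁ hw₁B t).mp ht1
    have e2 := (not_mem_s35f1nfIdeal w₂ hw₂B t).mp ht2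
    have ht0 : algebraMap B F t ≠ 0 := by
      intro h0
      rw [h0, map_zero] at e1
      exact zero_ne_one e1
    refine ⟨t, ht, ht0, e1, e2, (hVw _).mpr ⟨?_, ?_⟩⟩
    · rw [map_inv₀, e1, inv_one]
    · rw [map_inv₀, e2, inv_one]
  · right
    exact ⟨fun b hb => h1 hb, fun b hb => h2 hb, x, y, G, hxy, hx𝔪, hy𝔪, hx1,
      (not_mem_s35f1nfIdeal w₂ hw₂B x).mp hx2, hy2, (not_mem_s35f1nfIdeal w₁ hw₁B y).mp hy1, hgen⟩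

end ValNF

end Fermat.Agent.S35
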