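import Mathlib
import Fermat.Agent.S34.KronDefs
import Fermat.Agent.S34.KronBasic
import Fermat.Agent.S34.InstChartN
import Fermat.Agent.S35.F1InstNF
import Fermat.Agent.S35.F1InstP1

/-!
# P20 (S35), block F1, INST adapters: the full closed-point datum (generic core)

`B` a noetherian ring presented inside `F_{Mq}` by `iB` with image in `𝒪 = V_∞ ∩ V_0`
(`hBO`), `π`-saturated in `𝒪` (`hsat`); `R∞ = s35f1RInf`, `R0 = s35f1RZero` the two Gauss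
reductions on `B`; `ψ` a `Λ`-point of `B`.  From the WEAK closed-point datum exported by INST
(`S34.kron_inst_fin`, `S34.kron_inst_inf`) we get the FULL datum with respect to the two vertical
primes `ker R∞`, `ker R0`:

* smooth: a local generator `t` with `R∞ t ≠ 0`, `R0 t ≠ 0`;
* crossing: both vertical primes pass through the point, `x ∈ ker R∞ ∖ ker R0`,
  `y ∈ ker R0 ∖ ker R∞`, `ker R∞ = (π, x)` and `ker R0 = (π, y)` locally.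
-/

set_option autoImplicit false

namespace Fermat.Agent.S35

open ModularCurve AlgebraicCurve
open Fermat.Agent.S18 Fermat.Agent.S28 Fermat.Agent.S28.FreeBasisAbs Fermat.Agent.S34

variable {L k : Type*} [Field L] [Algebra ℚ L] [Field k] {Λ : Subring L} {π : L}
  {res : ↥Λ →+* k} (ι : L →+* ℂ) (M q : ℕ) [NeZero M] [NeZero q] (hcop : Nat.Coprime M q)

section Defs

variable {B : Type*} [CommRing B]
  (iB : B →+* ↥(laurentBaseChange L (modularFunctionFieldFull (M * q))))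
  (hBO : ∀ b, iB b ∈ kronO Λ res ι M q hcop)

/-- The reduction at `w_∞` on a ring presented inside `𝒪`. -/
noncomputable def s35f1RInf : B →+* LaurentSeries k :=
  (kronRedInf Λ res ι M q hcop).comp (iB.codRestrict (kronO Λ res ι M q hcop) hBO)

/-- The reduction at `w_0` on a ring presented inside `𝒪`. -/
noncomputable def s35f1RZero : B →+* LaurentSeries k :=
  (kronRedZero Λ res ι M q hcop).comp (iB.codRestrict (kronO Λ res ι M q hcop) hBO)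

theorem s35f1RInf_apply (b : B) :
    s35f1RInf ι M q hcop iB hBO b = kronRedInf Λ res ι M q hcop ⟨iB b, hBO b⟩ := rfl

theorem s35f1RZero_apply (b : B) :
    s35f1RZero ι M q hcop iB hBO b = kronRedZero Λ res ι M q hcop ⟨iB b, hBO b⟩ := rfl

/-- `R∞ b = 0` for `b` with `iB b = π`. -/
theorem s35f1RInf_pi (hΛ : IsGaussRing Λ π res) {b : B} (hb : iB b = algebraMap L _ π) :
    s35f1RInf ι M q hcop iB hBO b = 0 := by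
  rw [s35f1RInf_apply, kronRedInf_apply]
  have h := GaussL.gaussRed_algebraMap_pi
    (laurentBaseChange L (modularFunctionFieldFull (M * q))) hΛ
  rw [← h]
  congr 1
  exact Subtype.ext hb

/-- `R0 b = 0` for `b` with `iB b = π`. -/
theorem s35f1RZero_pi (hΛ : IsGaussRing Λ π res) {b : B} (hb : iB b = algebraMap L _ π) :
    s35f1RZero ι M q hcop iB hBO b = 0 := by
  rw [s35f1RZero_apply, kronRedZero_apply]
  have h := GaussL.gaussRed_algebraMap_pi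
    (laurentBaseChange L (modularFunctionFieldFull (M * q))) hΛ
  rw [← h]
  congr 1
  refine Subtype.ext ?_
  show kronW L ι M q hcop (iB b) = algebraMap L _ π
  rw [hb, AlgEquiv.commutes]

end Defs

section Core

variable {B : Type*} [CommRing B] [Algebra ↥Λ B]
  (iB : B →+* ↥(laurentBaseChange L (modularFunctionFieldFull (M * q))))
  (hBO : ∀ b, iB b ∈ kronO Λ res ι M q hcop)

/-- `ker R∞ ∩ ker R0 = π B` for a `π`-saturated ring. -/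
theorem s35f1core_inter (hΛ : IsGaussRing Λ π res) (hiB : Function.Injective iB)
    (hiBΛ : ∀ c : ↥Λ, iB (algebraMap ↥Λ B c) = algebraMap L _ (c : L))
    (hsat : ∀ (b : B) (δ : ↥(laurentBaseChange L (modularFunctionFieldFull (M * q)))),
      δ ∈ kronO Λ res ι M q hcop → iB b = algebraMap L _ π * δ → ∃ b' : B, iB b' = δ)
    {b : B} (h1 : s35f1RInf ι M q hcop iB hBO b = 0)
    (h2 : s35f1RZero ι M q hcop iB hBO b = 0) :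
    b ∈ Ideal.span {algebraMap ↥Λ B (GaussL.piL hΛ)} := by
  obtain ⟨y, hy⟩ := kronO_exists_eq_pi_mul ι M q hcop hΛ ⟨iB b, hBO b⟩ h1 h2
  obtain ⟨b', hb'⟩ := hsat b y y.2 hy
  refine Ideal.mem_span_singleton'.mpr ⟨b', hiB ?_⟩
  rw [map_mul, hiBΛ, hb']
  exact (hy.trans (mul_comm _ _)).symm

/-- **The full closed-point datum** from the weak one (generic core). -/
theorem s35f1_inst_full (hΛ : IsGaussRing Λ π res) [IsNoetherianRing B]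
    (hiB : Function.Injective iB)
    (hiBΛ : ∀ c : ↥Λ, iB (algebraMap ↥Λ B c) = algebraMap L _ (c : L))
    (hsat : ∀ (b : B) (δ : ↥(laurentBaseChange L (modularFunctionFieldFull (M * q)))),
      δ ∈ kronO Λ res ι M q hcop → iB b = algebraMap L _ π * δ → ∃ b' : B, iB b' = δ)
    (ψ : B →ₐ[↥Λ] ↥Λ)
    (hne₁ : ∃ b : B, GaussL.piL hΛ ∣ ψ b ∧ s35f1RInf ι M q hcop iB hBO b ≠ 0)
    (hne₂ : ∃ b : B, GaussL.piL hΛ ∣ ψ b ∧ s35f1RZero ι M q hcop iB hBO b ≠ 0)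
    (he₁ : ∃ e : B, s35f1RInf ι M q hcop iB hBO e = 0 ∧ s35f1RZero ι M q hcop iB hBO e ≠ 0)
    (he₂ : ∃ e : B, s35f1RZero ι M q hcop iB hBO e = 0 ∧ s35f1RInf ι M q hcop iB hBO e ≠ 0)
    (h : (∃ t : B, ModelLocGen (Ideal.span {algebraMap ↥Λ B (GaussL.piL hΛ)})
        (Ideal.comap (ψ : B →+* ↥Λ) (Ideal.span {GaussL.piL hΛ})) t) ∨
      (∃ x y G : B, x * y = algebraMap ↥Λ B (GaussL.piL hΛ) * G ∧
        GaussL.piL hΛ ∣ ψ x ∧ GaussL.piL hΛ ∣ ψ y ∧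
        ∀ z : B, GaussL.piL hΛ ∣ ψ z → ∃ a : B, ¬ GaussL.piL hΛ ∣ ψ a ∧
          a * z ∈ Ideal.span {algebraMap ↥Λ B (GaussL.piL hΛ), x, y})) :
    (∃ t : B, ModelLocGen (Ideal.span {algebraMap ↥Λ B (GaussL.piL hΛ)})
        (Ideal.comap (ψ : B →+* ↥Λ) (Ideal.span {GaussL.piL hΛ})) t ∧
      s35f1RInf ι M q hcop iB hBO t ≠ 0 ∧ s35f1RZero ι M q hcop iB hBO t ≠ 0) ∨
    ((∀ z : B, s35f1RInf ι M q hcop iB hBO z = 0 → GaussL.piL hΛ ∣ ψ z) ∧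
      (∀ z : B, s35f1RZero ι M q hcop iB hBO z = 0 → GaussL.piL hΛ ∣ ψ z) ∧
      ∃ x y G : B, x * y = algebraMap ↥Λ B (GaussL.piL hΛ) * G ∧
        GaussL.piL hΛ ∣ ψ x ∧ GaussL.piL hΛ ∣ ψ y ∧
        s35f1RInf ι M q hcop iB hBO x = 0 ∧ s35f1RZero ι M q hcop iB hBO x ≠ 0 ∧
        s35f1RZero ι M q hcop iB hBO y = 0 ∧ s35f1RInf ι M q hcop iB hBO y ≠ 0 ∧
        (∀ z : B, GaussL.piL hΛ ∣ ψ z → ∃ a : B, ¬ GaussL.piL hΛ ∣ ψ a ∧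
          a * z ∈ Ideal.span {algebraMap ↥Λ B (GaussL.piL hΛ), x, y}) ∧
        (∃ a : B, ¬ GaussL.piL hΛ ∣ ψ a ∧ ∀ z : B, s35f1RInf ι M q hcop iB hBO z = 0 →
          ∃ r d : B, a * z = algebraMap ↥Λ B (GaussL.piL hΛ) * r + x * d) ∧
        (∃ a : B, ¬ GaussL.piL hΛ ∣ ψ a ∧ ∀ z : B, s35f1RZero ι M q hcop iB hBO z = 0 →
          ∃ r d : B, a * z = algebraMap ↥Λ B (GaussL.piL hΛ) * r + y * d)) := by
  classical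
  -- notation
  obtain ⟨ϖ, hϖdef⟩ : ∃ ϖ : B, ϖ = algebraMap ↥Λ B (GaussL.piL hΛ) := ⟨_, rfl⟩
  obtain ⟨𝔪, h𝔪def⟩ : ∃ 𝔪 : Ideal B,
      𝔪 = Ideal.comap (ψ : B →+* ↥Λ) (Ideal.span {GaussL.piL hΛ}) := ⟨_, rfl⟩
  obtain ⟨𝔭₁, h𝔭₁def⟩ : ∃ 𝔭 : Ideal B, 𝔭 = RingHom.ker (s35f1RInf ι M q hcop iB hBO) :=
    ⟨_, rfl⟩
  obtain ⟨𝔭₂, h𝔭₂def⟩ : ∃ 𝔭 : Ideal B, 𝔭 = RingHom.ker (s35f1RZero ι M q hcop iB hBO) :=
    ⟨_, rfl⟩
  rw [← hϖdef, ← h𝔪def] at h ⊢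
  have hmem𝔪 : ∀ z : B, z ∈ 𝔪 ↔ GaussL.piL hΛ ∣ ψ z := fun z => by
    rw [h𝔪def, Ideal.mem_comap, Ideal.mem_span_singleton]
    rfl
  have hmem₁ : ∀ z : B, z ∈ 𝔭₁ ↔ s35f1RInf ι M q hcop iB hBO z = 0 := fun z => by
    rw [h𝔭₁def, RingHom.mem_ker]
  have hmem₂ : ∀ z : B, z ∈ 𝔭₂ ↔ s35f1RZero ι M q hcop iB hBO z = 0 := fun z => by
    rw [h𝔭₂def, RingHom.mem_ker]
  have hψΛ : ∀ c : ↥Λ, (ψ : B →+* ↥Λ) (algebraMap ↥Λ B c) = c := fun c => ψ.commutes c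
  have hπmax : (Ideal.span {GaussL.piL hΛ}).IsMaximal := inst_isMaximal_span_piL hΛ
  have hmax : 𝔪.IsMaximal := by
    rw [h𝔪def]
    exact Ideal.comap_isMaximal_of_surjective _ (fun c => ⟨algebraMap ↥Λ B c, hψΛ c⟩)
  have hp1 : 𝔭₁.IsPrime := by rw [h𝔭₁def]; exact RingHom.ker_isPrime _
  have hp2 : 𝔭₂.IsPrime := by rw [h𝔭₂def]; exact RingHom.ker_isPrime _
  have hϖ𝔪 : ϖ ∈ 𝔪 := by
    rw [hmem𝔪, hϖdef]
    exact ⟨1, by rw [mul_one]; exact ψ.commutes _⟩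
  have hϖB : iB ϖ = algebraMap L _ π := by rw [hϖdef]; exact hiBΛ _
  have hϖ₁ : ϖ ∈ 𝔭₁ := (hmem₁ ϖ).mpr (s35f1RInf_pi ι M q hcop iB hBO hΛ hϖB)
  have hϖ₂ : ϖ ∈ 𝔭₂ := (hmem₂ ϖ).mpr (s35f1RZero_pi ι M q hcop iB hBO hΛ hϖB)
  have hint : 𝔭₁ ⊓ 𝔭₂ ≤ Ideal.span {ϖ} := by
    rintro b ⟨hb1, hb2⟩
    rw [hϖdef]
    exact s35f1core_inter ι M q hcop iB hBO hΛ hiB hiBΛ hsat ((hmem₁ b).mp hb1)
      ((hmem₂ b).mp hb2)
  have h𝔪₁ : ¬ 𝔪 ≤ 𝔭₁ := by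
    obtain ⟨b, hb, hb1⟩ := hne₁
    exact fun hle => hb1 ((hmem₁ b).mp (hle ((hmem𝔪 b).mpr hb)))
  have h𝔪₂ : ¬ 𝔪 ≤ 𝔭₂ := by
    obtain ⟨b, hb, hb1⟩ := hne₂
    exact fun hle => hb1 ((hmem₂ b).mp (hle ((hmem𝔪 b).mpr hb)))
  have he₁' : ∃ e, e ∈ 𝔭₁ ∧ e ∉ 𝔭₂ := by
    obtain ⟨e, he, he'⟩ := he₁
    exact ⟨e, (hmem₁ e).mpr he, fun h => he' ((hmem₂ e).mp h)⟩
  have he₂' : ∃ e, e ∈ 𝔭₂ ∧ e ∉ 𝔭₁ := by
    obtain ⟨e, he, he'⟩ := he₂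
    exact ⟨e, (hmem₂ e).mpr he, fun h => he' ((hmem₁ e).mp h)⟩
  have hweak : (∃ t : B, ModelLocGen (Ideal.span {ϖ}) 𝔪 t) ∨
      (∃ x y G : B, x * y = ϖ * G ∧ x ∈ 𝔪 ∧ y ∈ 𝔪 ∧
        ∀ z ∈ 𝔪, ∃ a : B, a ∉ 𝔪 ∧ a * z ∈ Ideal.span {ϖ, x, y}) := by
    rcases h with h | ⟨x, y, G, hxy, hx, hy, hgen⟩
    · exact Or.inl h
    · refine Or.inr ⟨x, y, G, hxy, (hmem𝔪 x).mpr hx, (hmem𝔪 y).mpr hy, fun z hz => ?_⟩
      obtain ⟨a, ha, haz⟩ := hgen z ((hmem𝔪 z).mp hz)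
      exact ⟨a, fun h => ha ((hmem𝔪 a).mp h), haz⟩
  rcases s35f1_inst_nf ϖ 𝔪 hϖ𝔪 𝔭₁ 𝔭₂ hϖ₁ hϖ₂ hint h𝔪₁ h𝔪₂ he₁' he₂' hweak with
    ⟨t, ht, ht1, ht2⟩ | ⟨h1, h2, x, y, G, hxy, hx𝔪, hy𝔪, hx1, hx2, hy2, hy1, hgen⟩
  · exact Or.inl ⟨t, ht, fun h => ht1 ((hmem₁ t).mpr h), fun h => ht2 ((hmem₂ t).mpr h)⟩
  · right
    have h𝔪p : 𝔪.IsPrime := hmax.isPrime
    obtain ⟨a₁, ha₁, hgen₁⟩ := s35f1_inst_hP1 ϖ 𝔪 𝔭₁ hϖ₁ x y hx1 hy𝔪 hy1 hgen h1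
    have hgen' : ∀ z ∈ 𝔪, ∃ a : B, a ∉ 𝔪 ∧ a * z ∈ Ideal.span {ϖ, y, x} := by
      intro z hz
      obtain ⟨a, ha, haz⟩ := hgen z hz
      refine ⟨a, ha, ?_⟩
      rw [Set.pair_comm y x]
      exact haz
    obtain ⟨a₂, ha₂, hgen₂⟩ := s35f1_inst_hP1 ϖ 𝔪 𝔭₂ hϖ₂ y x hy2 hx𝔪 hx2 hgen' h2
    refine ⟨fun z hz => (hmem𝔪 z).mp (h1 ((hmem₁ z).mpr hz)),
      fun z hz => (hmem𝔪 z).mp (h2 ((hmem₂ z).mpr hz)), x, y, G, hxy, (hmem𝔪 x).mp hx𝔪,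
      (hmem𝔪 y).mp hy𝔪, (hmem₁ x).mp hx1, fun h => hx2 ((hmem₂ x).mpr h), (hmem₂ y).mp hy2,
      fun h => hy1 ((hmem₁ y).mpr h), fun z hz => ?_, ⟨a₁, fun h => ha₁ ((hmem𝔪 a₁).mpr h),
        fun z hz => hgen₁ z ((hmem₁ z).mpr hz)⟩, ⟨a₂, fun h => ha₂ ((hmem𝔪 a₂).mpr h),
        fun z hz => hgen₂ z ((hmem₂ z).mpr hz)⟩⟩
    obtain ⟨a, ha, haz⟩ := hgen z ((hmem𝔪 z).mpr hz)
    exact ⟨a, fun h => ha ((hmem𝔪 a).mpr h), haz⟩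

end Core

end Fermat.Agent.S35
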