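import Mathlib
import Fermat.Agent.S34.KronInt

/-!
# P20 (S35), block FT, leaf K6 — part 1: integrality of `ρ = j(qz) / j^q` over `Λ[1/j]`

Series level: if `Φ(X, x) = ∏_{r ∈ m} (X - r)` with `Φ ∈ A[Y][X]`, `x` a pole with leading
coefficient `1`, and every `r · x^{-e}` is a power series, then every `r · x^{-e}` is integral over
`A[1/x]` (the coefficients of the scaled polynomial are polynomials in `1/x` by a degree count).

Applied to the modular equation: `j(q^{ℓ²}) / j(q^ℓ)^ℓ` is integral over `A[1/j(q^ℓ)]`, hence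
(pulling back along `q ↦ q^ℓ`) `s35k6_isIntegral_rho` : `β(j) · (1/j)^q` is integral over `Λ[1/j]`
in the function field of level `M * q`.
-/

set_option autoImplicit false

namespace Fermat.Agent.S35

open Polynomial ModularCurve
open Fermat.Agent.S24 Fermat.Agent.S28 Fermat.Agent.S37.KronModEq

section Series

variable {K : Type*} [Field K]

/-- Scaling the roots of a product of linear factors. -/
theorem s35k6_scaleRoots_prod {R : Type*} [CommRing R] [IsDomain R] (m : Multiset R) (s : R) :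
    ((m.map (fun r => X - C r)).prod).scaleRoots s =
      ((m.map (fun r => r * s)).map (fun r => X - C r)).prod := by
  induction m using Multiset.induction_on with
  | empty => simp
  | cons a m ih =>
    rw [Multiset.map_cons, Multiset.prod_cons, Polynomial.mul_scaleRoots_of_noZeroDivisors, ih,
      Polynomial.X_sub_C_scaleRoots, Multiset.map_cons, Multiset.map_cons, Multiset.prod_cons]

/-- **Scaled chart at a pole.** -/
theorem s35k6_isIntegral_scaled (A : Subring K) (x : LaurentSeries K) (hord : x.order < 0)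
    (hlead : x.leadingCoeff = 1) (Φ : Polynomial (Polynomial K))
    (hΦA : ∀ i j, (Φ.coeff i).coeff j ∈ A) (m : Multiset (LaurentSeries K))
    (hΦ : Φ.map (Polynomial.aeval x).toRingHom = (m.map (fun r => X - C r)).prod)
    (e : ℕ) (hm : ∀ r ∈ m, 0 ≤ (r * x⁻¹ ^ e).order) (r : LaurentSeries K) (hr : r ∈ m) :
    IsIntegral (serRing A x⁻¹ 1) (r * x⁻¹ ^ e) := by
  have hx0 : x ≠ 0 := ne_zero_of_order_neg hord
  have hPm : ((m.map (fun r => X - C r)).prod).Monic :=
    Polynomial.monic_multiset_prod_of_monic m _ (fun r _ => Polynomial.monic_X_sub_C _)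
  have hs0 : x⁻¹ ^ e ≠ 0 := pow_ne_zero _ (inv_ne_zero hx0)
  have hGc : ∀ i, ((m.map (fun r => X - C r)).prod).coeff i
      = Polynomial.aeval x (Φ.coeff i) := by
    intro i
    rw [← hΦ, Polynomial.coeff_map]
    rfl
  have hsc := s35k6_scaleRoots_prod m (x⁻¹ ^ e)
  -- the coefficients of the scaled polynomial are power series
  have hps : ∀ i, 0 ≤ ((((m.map (fun r => X - C r)).prod).scaleRoots (x⁻¹ ^ e)).coeff i).order := by
    intro i
    rw [hsc]
    refine coeff_prod_X_sub_C_mem (psRing K) _ (fun r' hr' => ?_) i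
    obtain ⟨r0, hr0, rfl⟩ := Multiset.mem_map.mp hr'
    exact hm r0 hr0
  -- degree bound
  have hdeg : ∀ i, (Φ.coeff i).natDegree ≤
      e * (((m.map (fun r => X - C r)).prod).natDegree - i) := by
    intro i
    rcases eq_or_ne (Φ.coeff i) 0 with h | h
    · rw [h, Polynomial.natDegree_zero]
      exact Nat.zero_le _
    · have hne : Polynomial.aeval x (Φ.coeff i) ≠ 0 := aeval_ne_zero x hord hlead _ h
      have h1 := hps i
      rw [Polynomial.coeff_scaleRoots, hGc,
        HahnSeries.order_mul hne (pow_ne_zero _ hs0), order_aeval x hord hlead _ h,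
        HahnSeries.order_pow, HahnSeries.order_pow, laurent_order_inv] at h1
      simp only [nsmul_eq_mul] at h1
      by_contra hcon
      have h4 : ((e * (((m.map (fun r => X - C r)).prod).natDegree - i) : ℕ) : ℤ) <
          (Φ.coeff i).natDegree := by exact_mod_cast not_le.mp hcon
      rw [Nat.cast_mul] at h4
      nlinarith
  have hcoeff : ∀ i, (((m.map (fun r => X - C r)).prod).scaleRoots (x⁻¹ ^ e)).coeff i ∈
      serRing A x⁻¹ 1 := by
    intro i
    rw [Polynomial.coeff_scaleRoots, hGc]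
    have hrefl : Polynomial.aeval x⁻¹
          (reflect (e * (((m.map (fun r => X - C r)).prod).natDegree - i)) (Φ.coeff i)) *
        x ^ (e * (((m.map (fun r => X - C r)).prod).natDegree - i))
        = Polynomial.aeval x (Φ.coeff i) := by
      let _ : Invertible x := invertibleOfNonzero hx0
      have h := Polynomial.eval₂_reflect_mul_pow (algebraMap K (LaurentSeries K)) x _ (Φ.coeff i)
        (hdeg i)
      rw [invOf_eq_inv] at h
      rw [Polynomial.aeval_def, Polynomial.aeval_def]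
      exact h
    have e1 : Polynomial.aeval x (Φ.coeff i) *
        (x⁻¹ ^ e) ^ (((m.map (fun r => X - C r)).prod).natDegree - i) =
        Polynomial.aeval x⁻¹
          (reflect (e * (((m.map (fun r => X - C r)).prod).natDegree - i)) (Φ.coeff i)) := by
      rw [← hrefl, ← pow_mul, mul_assoc, ← mul_pow, mul_inv_cancel₀ hx0, one_pow, mul_one]
    rw [e1]
    refine aeval_mem_serRing A _ _ _ (fun j => ?_)
    rw [Polynomial.coeff_reflect]
    exact hΦA i _
  refine isIntegral_of_monic_of_coeff_mem _ (((m.map (fun r => X - C r)).prod).scaleRoots (x⁻¹ ^ e))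
    ((Polynomial.monic_scaleRoots_iff _).mpr hPm) hcoeff _ ?_
  rw [hsc]
  exact eval_prod_X_sub_C_eq_zero _ _ (Multiset.mem_map.mpr ⟨r, hr, rfl⟩)

variable (ℓ : ℕ) [Fact ℓ.Prime] (A : Subring K) (ζ : Kˣ)

/-- `j(q^{ℓ²}) / j(q^ℓ)^ℓ` is integral over `A[1/j(q^ℓ)]`. -/
theorem s35k6_isIntegral_inf_scaled (hζ : IsPrimitiveRoot ζ ℓ) (hζA : (ζ : K) ∈ A) :
    IsIntegral (serRing A (qExpand K ℓ (jqModC K))⁻¹ 1)
      (qExpand K (ℓ * ℓ) (jqModC K) * (qExpand K ℓ (jqModC K))⁻¹ ^ ℓ) := by
  obtain ⟨Φ, -, -, hΦ⟩ := exists_modEq K ℓ ζ hζ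
  have hΦ' : Φ.map (Polynomial.aeval (qExpand K ℓ (jqModC K))).toRingHom
      = ModEqDescent.rhs K ℓ ζ := hΦ
  refine s35k6_isIntegral_scaled A (qExpand K ℓ (jqModC K)) (order_qExpand_jqModC_neg ℓ)
    (leadingCoeff_qExpand_jqModC ℓ) Φ (coeff_mem_of_modEq ℓ A ζ hζ hζA Φ hΦ') (conjRoots ℓ ζ)
    (hΦ'.trans (rhs_eq_prod ℓ ζ)) ℓ ?_ _ (inf_mem_conj ℓ ζ)
  intro r hr
  have hℓ : (0 : ℤ) < ℓ := by exact_mod_cast (Fact.out : ℓ.Prime).pos
  have hx0 : qExpand K ℓ (jqModC K) ≠ 0 := ne_zero_of_order_neg (order_qExpand_jqModC_neg ℓ)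
  have hr0 : r ≠ 0 := ne_zero_of_order_neg (order_neg_of_mem_conj ℓ ζ r hr)
  rw [HahnSeries.order_mul hr0 (pow_ne_zero _ (inv_ne_zero hx0)), HahnSeries.order_pow,
    laurent_order_inv, order_qExpand_jqModC]
  rcases Multiset.mem_cons.mp hr with rfl | hr'
  · rw [order_qExpand_jqModC]
    simp only [nsmul_eq_mul, neg_neg]
    push_cast
    linarith
  · obtain ⟨b, -, rfl⟩ := Multiset.mem_map.mp hr'
    rw [order_laurentRot_jqModC]
    simp only [nsmul_eq_mul, neg_neg]
    nlinarith

end Series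

section Kron

variable {L k : Type*} [Field L] [Algebra ℚ L] [Field k] {Λ : Subring L} {π : L}
  {res : ↥Λ →+* k} (M q : ℕ) [NeZero M] [NeZero q]

open Fermat.Agent.S34 in
/-- `ρ = β(j) · (1/j)^q` is integral over `Λ[1/j]`. -/
theorem s35k6_isIntegral_rho (hq : q.Prime)
    (ζ : Lˣ) (hζ : IsPrimitiveRoot ζ q) (hζΛ : (ζ : L) ∈ Λ) :
    IsIntegral (Algebra.adjoin ↥Λ {(Fermat.Agent.S24.jL L (M * q))⁻¹})
      (heckeBetaBar L M q (Fermat.Agent.S24.jL L M) *
        (Fermat.Agent.S24.jL L (M * q))⁻¹ ^ q) := by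
  have : Fact q.Prime := ⟨hq⟩
  have h0 := s35k6_isIntegral_inf_scaled q Λ ζ hζ hζΛ
  have h1 : IsIntegral (serRing Λ (jqModC L)⁻¹ 1)
      (qExpand L q (jqModC L) * (jqModC L)⁻¹ ^ q) := by
    refine KronInt.isIntegral_subring_of_map_le (qExpand L q) (qExpand_injective q) _
      (serRing Λ (qExpand L q (jqModC L))⁻¹ 1) ?_ _ ?_
    · intro y hy
      have hS : serRing Λ (qExpand L q (jqModC L))⁻¹ 1 =
          serRing Λ (qExpand L q (jqModC L)⁻¹) (qExpand L q 1) := by
        rw [map_inv₀, map_one]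
      rw [hS] at hy
      exact KronInt.exists_mem_serRing_of_mem_map Λ (qExpand L q) (fun a => qExpand_C q a) _ _ y hy
    · rw [map_mul, map_pow, map_inv₀, qExpand_qExpand]
      exact h0
  refine KronInt.isIntegral_adjoin_of_serRing' Λ _ _ _ (jqModC L)⁻¹
    (qExpand L q (jqModC L) * (jqModC L)⁻¹ ^ q) ?_ ?_ h1
  · rw [IntermediateField.coe_inv, KronInt.coe_jL_eq]
  · rw [IntermediateField.coe_mul, IntermediateField.coe_pow, IntermediateField.coe_inv,
      KronInt.coe_jL_eq, KronInt.coe_beta_jL_eq]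

end Kron

end Fermat.Agent.S35
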