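import Mathlib
import Fermat.Agent.S35.FtK6Int
import Fermat.Agent.S34.KronBasic
import Fermat.Agent.S37.Kronecker

/-!
# P20 (S35), block FT, leaf K6: no closed point at the cusp lies on both components

KRON setting (level `N = M * q`, `q ∤ M`, Gauss ring `Λ ⊆ L`, residue characteristic `q`), chart at
infinity `B_inf = integralClosure Λ[1/j] F_N`.

* `s35k6_core` : the element `ρ = β(j) · (1/j)^q ∈ 𝒪` and `u = 1/j ∈ 𝒪` satisfy
  - `ρ` is integral over `Λ[1/j]` (so `ρ ∈ B_inf`),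
  - `red_∞ (ρ - 1) = 0`,
  - `red_0 (ρ ^ q - u ^ (q² - 1)) = 0`.
* `s35_ft_k6` : a prime ideal `𝔪` of `B_inf` with `1/j ∈ 𝔪` cannot contain both
  `ker red_∞ ∩ B_inf` and `ker red_0 ∩ B_inf`.
  (`ρ ≡ 1` and `ρ^q ≡ u^(q²-1) ≡ 0` modulo `𝔪` would give `1 ∈ 𝔪`.)
-/

set_option autoImplicit false
set_option synthInstance.maxHeartbeats 400000

namespace Fermat.Agent.S35

open ModularCurve AlgebraicCurve Polynomial
open Fermat.Agent.S18 Fermat.Agent.S28 Fermat.Agent.S34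

section Kron

variable {L k : Type*} [Field L] [Algebra ℚ L] [Field k] {Λ : Subring L} {π : L}
  {res : ↥Λ →+* k} (ι : L →+* ℂ) (M q : ℕ) [NeZero M] [NeZero q] (hcop : Nat.Coprime M q)

/-- `j` lies in the Gauss ring. -/
theorem s35k6_jL_mem_gaussV (N : ℕ) [NeZero N] :
    Fermat.Agent.S24.jL L N ∈
      GaussL.gaussV Λ res (laurentBaseChange L (modularFunctionFieldFull N)) :=
  GaussL.mem_gaussV_of_coeffMap _ (jqModC ↥Λ)
    (by rw [coeffMap_jqModC]; exact (KronInt.coe_jL_eq L N).symm)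

/-- The reduction of `j` is `j`. -/
theorem s35k6_gaussRed_jL (N : ℕ) [NeZero N] :
    GaussL.gaussRed Λ res (laurentBaseChange L (modularFunctionFieldFull N))
      ⟨Fermat.Agent.S24.jL L N, s35k6_jL_mem_gaussV N⟩ = jqModC k :=
  (GaussL.gaussRed_of_coeffMap _ (jqModC ↥Λ)
    (by rw [coeffMap_jqModC]; exact (KronInt.coe_jL_eq L N).symm)).trans (coeffMap_jqModC _)

theorem s35k6_jqModC_ne_zero (R : Type*) [Field R] : jqModC R ≠ 0 :=
  Fermat.Agent.S37.KronModEq.ne_zero_of_order_neg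
    (by rw [Fermat.Agent.S37.KronModEq.order_jqModC']; norm_num)

theorem s35k6_jL_ne_zero (N : ℕ) [NeZero N] : Fermat.Agent.S24.jL L N ≠ 0 := by
  intro h
  have h1 := KronInt.coe_jL_eq L N
  rw [h] at h1
  exact s35k6_jqModC_ne_zero L h1.symm

/-- In a prime ideal: `a ∈ 𝔪`, `ρ ≡ 1`, `ρ^q ≡ a^n` (`n ≠ 0`) is absurd. -/
theorem s35k6_ideal_aux {B : Type*} [CommRing B] (𝔪 : Ideal B) (h𝔪 : 𝔪.IsPrime) (ρ a : B)
    (q n : ℕ) (hn : n ≠ 0) (ha : a ∈ 𝔪) (h1 : ρ - 1 ∈ 𝔪) (h2 : ρ ^ q - a ^ n ∈ 𝔪) : False := by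
  have ha' : a ^ n ∈ 𝔪 := Ideal.pow_mem_of_mem 𝔪 ha _ (Nat.pos_of_ne_zero hn)
  have hρq := (Submodule.sub_mem_iff_left 𝔪 ha').mp h2
  have hρ := h𝔪.mem_of_pow_mem q hρq
  have h1𝔪 := (Submodule.sub_mem_iff_right 𝔪 hρ).mp h1
  exact h𝔪.ne_top ((Ideal.eq_top_iff_one 𝔪).mpr h1𝔪)

/-- **K6, element form.**  `ρ = β(j)·(1/j)^q` and `u = 1/j`. -/
theorem s35k6_core (hq : q.Prime) [CharP k q]
    (ζ : Lˣ) (hζ : IsPrimitiveRoot ζ q) (hζΛ : (ζ : L) ∈ Λ) :
    ∃ ρ u : ↥(kronO Λ res ι M q hcop),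
      ((u : ↥(kronO Λ res ι M q hcop)) :
          ↥(laurentBaseChange L (modularFunctionFieldFull (M * q)))) =
        (Fermat.Agent.S24.jL L (M * q))⁻¹ ∧
      IsIntegral (Algebra.adjoin ↥Λ {(Fermat.Agent.S24.jL L (M * q))⁻¹})
        ((ρ : ↥(kronO Λ res ι M q hcop)) :
          ↥(laurentBaseChange L (modularFunctionFieldFull (M * q)))) ∧
      kronRedInf Λ res ι M q hcop (ρ - 1) = 0 ∧
      kronRedZero Λ res ι M q hcop (ρ ^ q - u ^ (q * q - 1)) = 0 := by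
  have : Fact q.Prime := ⟨hq⟩
  have hc : Fermat.Agent.S24.jL L M ∈
      GaussL.gaussV Λ res (laurentBaseChange L (modularFunctionFieldFull M)) :=
    s35k6_jL_mem_gaussV M
  have hred : GaussL.gaussRed Λ res (laurentBaseChange L (modularFunctionFieldFull M))
      ⟨Fermat.Agent.S24.jL L M, hc⟩ = jqModC k := s35k6_gaussRed_jL M
  have hJ0 : jqModC k ≠ 0 := s35k6_jqModC_ne_zero k
  have hfrob : qExpand k q (jqModC k) = jqModC k ^ q := by
    rw [Fermat.Agent.S37.Kronecker.pow_char q, coeffMap_jqModC]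
  have h1 : kronRedInf Λ res ι M q hcop ⟨_, kron_alpha_mem_kronO ι M q hcop hc⟩ = jqModC k :=
    (kronRedInf_alpha ι M q hcop hc).trans hred
  have h2 : kronRedZero Λ res ι M q hcop ⟨_, kron_alpha_mem_kronO ι M q hcop hc⟩ =
      jqModC k ^ q := by
    rw [kronRedZero_alpha ι M q hcop hc, hred, hfrob]
  have h3 : kronRedInf Λ res ι M q hcop ⟨_, kron_beta_mem_kronO ι M q hcop hc⟩ =
      jqModC k ^ q := by
    rw [kronRedInf_beta ι M q hcop hc, hred, hfrob]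
  have h4 : kronRedZero Λ res ι M q hcop ⟨_, kron_beta_mem_kronO ι M q hcop hc⟩ = jqModC k :=
    (kronRedZero_beta ι M q hcop hc).trans hred
  have hαj : heckeAlphaBar L M q (Fermat.Agent.S24.jL L M) = Fermat.Agent.S24.jL L (M * q) :=
    Subtype.ext (by rw [coe_heckeAlphaBar]; rfl)
  have hu : (Fermat.Agent.S24.jL L (M * q))⁻¹ ∈ kronO Λ res ι M q hcop := by
    rw [← hαj, mem_kronO_iff, map_inv₀, kronW_alpha]
    refine ⟨GaussL.inv_mem_gaussV _ (kron_alpha_mem_gaussV M q hc) ?_,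
      GaussL.inv_mem_gaussV _ (kron_beta_mem_gaussV M q hc) ?_⟩
    · rw [kron_gaussRed_alpha M q hc, hred]
      exact hJ0
    · rw [kron_gaussRed_beta M q hc, hred, hfrob]
      exact pow_ne_zero _ hJ0
  have hmul : (⟨_, hu⟩ : ↥(kronO Λ res ι M q hcop)) *
      ⟨_, kron_alpha_mem_kronO ι M q hcop hc⟩ = 1 :=
    Subtype.ext (by
      show (Fermat.Agent.S24.jL L (M * q))⁻¹ * heckeAlphaBar L M q (Fermat.Agent.S24.jL L M) = 1
      rw [hαj]
      exact inv_mul_cancel₀ (s35k6_jL_ne_zero (M * q)))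
  have h5 : kronRedInf Λ res ι M q hcop ⟨_, hu⟩ = (jqModC k)⁻¹ :=
    eq_inv_of_mul_eq_one_left (by rw [← h1, ← map_mul, hmul, map_one])
  have h6 : kronRedZero Λ res ι M q hcop ⟨_, hu⟩ = (jqModC k ^ q)⁻¹ :=
    eq_inv_of_mul_eq_one_left (by rw [← h2, ← map_mul, hmul, map_one])
  refine ⟨⟨_, kron_beta_mem_kronO ι M q hcop hc⟩ * ⟨_, hu⟩ ^ q, ⟨_, hu⟩, rfl, ?_, ?_, ?_⟩
  · exact s35k6_isIntegral_rho M q hq ζ hζ hζΛ
  · rw [map_sub, map_mul, map_pow, h3, h5, map_one, ← mul_pow, mul_inv_cancel₀ hJ0, one_pow,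
      sub_self]
  · rw [map_sub, map_pow, map_mul, map_pow, map_pow, h4, h6, sub_eq_zero]
    have hY : jqModC k ^ q ≠ 0 := pow_ne_zero _ hJ0
    have hqq : q * q - 1 + 1 = q * q := Nat.sub_add_cancel (Nat.mul_pos hq.pos hq.pos)
    calc (jqModC k * ((jqModC k ^ q)⁻¹) ^ q) ^ q
        = jqModC k ^ q * ((jqModC k ^ q)⁻¹) ^ (q * q - 1 + 1) := by
          rw [mul_pow, ← pow_mul, hqq]
      _ = ((jqModC k ^ q)⁻¹) ^ (q * q - 1) := by
          rw [pow_succ, mul_comm, mul_assoc, inv_mul_cancel₀ hY, mul_one]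

/-- **K6.**  No prime of the chart at infinity through the cusp (`1/j ∈ 𝔪`) lies on both
components: it cannot contain both `ker red_∞ ∩ B_inf` and `ker red_0 ∩ B_inf`. -/
theorem s35_ft_k6 (hq : q.Prime) [CharP k q]
    (ζ : Lˣ) (hζ : IsPrimitiveRoot ζ q) (hζΛ : (ζ : L) ∈ Λ)
    (𝔪 : Ideal ↥(integralClosure ↥(Algebra.adjoin ↥Λ {(Fermat.Agent.S24.jL L (M * q))⁻¹})
      ↥(laurentBaseChange L (modularFunctionFieldFull (M * q)))))
    (h𝔪 : 𝔪.IsPrime)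
    (hu : ∃ a : ↥(integralClosure ↥(Algebra.adjoin ↥Λ {(Fermat.Agent.S24.jL L (M * q))⁻¹})
        ↥(laurentBaseChange L (modularFunctionFieldFull (M * q)))),
      (a : ↥(laurentBaseChange L (modularFunctionFieldFull (M * q)))) =
        (Fermat.Agent.S24.jL L (M * q))⁻¹ ∧ a ∈ 𝔪)
    (hinf : ∀ (b : ↥(integralClosure ↥(Algebra.adjoin ↥Λ {(Fermat.Agent.S24.jL L (M * q))⁻¹})
        ↥(laurentBaseChange L (modularFunctionFieldFull (M * q)))))
      (hb : (b : ↥(laurentBaseChange L (modularFunctionFieldFull (M * q)))) ∈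
        kronO Λ res ι M q hcop),
      kronRedInf Λ res ι M q hcop ⟨_, hb⟩ = 0 → b ∈ 𝔪)
    (hzero : ∀ (b : ↥(integralClosure ↥(Algebra.adjoin ↥Λ {(Fermat.Agent.S24.jL L (M * q))⁻¹})
        ↥(laurentBaseChange L (modularFunctionFieldFull (M * q)))))
      (hb : (b : ↥(laurentBaseChange L (modularFunctionFieldFull (M * q)))) ∈
        kronO Λ res ι M q hcop),
      kronRedZero Λ res ι M q hcop ⟨_, hb⟩ = 0 → b ∈ 𝔪) : False := by
  obtain ⟨ρ, u, hu_coe, hint, h1, h2⟩ := s35k6_core (Λ := Λ) (res := res) ι M q hcop hq ζ hζ hζΛ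
  obtain ⟨a, ha, ha𝔪⟩ := hu
  have hint' : ((ρ : ↥(kronO Λ res ι M q hcop)) :
      ↥(laurentBaseChange L (modularFunctionFieldFull (M * q)))) ∈
      integralClosure ↥(Algebra.adjoin ↥Λ {(Fermat.Agent.S24.jL L (M * q))⁻¹})
        ↥(laurentBaseChange L (modularFunctionFieldFull (M * q))) := hint
  have hb1 : (⟨_, hint'⟩ : ↥(integralClosure ↥(Algebra.adjoin ↥Λ
      {(Fermat.Agent.S24.jL L (M * q))⁻¹})
      ↥(laurentBaseChange L (modularFunctionFieldFull (M * q))))) - 1 ∈ 𝔪 :=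
    hinf _ (ρ - 1).2 h1
  have hb2 : (⟨_, hint'⟩ : ↥(integralClosure ↥(Algebra.adjoin ↥Λ
      {(Fermat.Agent.S24.jL L (M * q))⁻¹})
      ↥(laurentBaseChange L (modularFunctionFieldFull (M * q))))) ^ q - a ^ (q * q - 1) ∈ 𝔪 := by
    have hmem : ((ρ : ↥(kronO Λ res ι M q hcop)) :
        ↥(laurentBaseChange L (modularFunctionFieldFull (M * q)))) ^ q -
        (a : ↥(laurentBaseChange L (modularFunctionFieldFull (M * q)))) ^ (q * q - 1) ∈
        kronO Λ res ι M q hcop := by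
      rw [ha, ← hu_coe]
      exact (ρ ^ q - u ^ (q * q - 1)).2
    have he : (⟨_, hmem⟩ : ↥(kronO Λ res ι M q hcop)) = ρ ^ q - u ^ (q * q - 1) := by
      apply Subtype.ext
      show ((ρ : ↥(kronO Λ res ι M q hcop)) :
        ↥(laurentBaseChange L (modularFunctionFieldFull (M * q)))) ^ q -
        (a : ↥(laurentBaseChange L (modularFunctionFieldFull (M * q)))) ^ (q * q - 1) = _
      rw [ha, ← hu_coe]
      rfl
    exact hzero _ hmem ((congrArg (kronRedZero Λ res ι M q hcop) he).trans h2)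
  have hpos : q * q - 1 ≠ 0 := by
    have h2q := hq.two_le
    have h4 : 2 * 2 ≤ q * q := Nat.mul_le_mul h2q h2q
    omega
  exact s35k6_ideal_aux 𝔪 h𝔪 _ a q (q * q - 1) hpos ha𝔪 hb1 hb2

end Kron

end Fermat.Agent.S35
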