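import Mathlib
import Fermat.Agent.S34.KronDefs
import Fermat.Agent.S34.KronBasic
import Fermat.Agent.S34.InstChartFrac
import Fermat.Agent.S35.F1InstCore
import Fermat.Agent.S35.FtK6

/-!
# P20 (S35), block F1, INST adapters: elements of the chart rings (chart-independent part)

KRON setting, level `M q`.  Tools to produce the inputs `hne₁ hne₂ he₁ he₂` of
`s35f1_inst_full` for a chart ring `B` (elements integral over `Λ[t]`, `t = j` or `j⁻¹`):

* `s35f1i_red_j` : the four reductions of `α j = j_{Mq}` and `β j`;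
* `s35f1i_exists_c₁`, `s35f1i_exists_c₂` : `c₁ = (α j)^q - β j ∈ 𝔭_∞ ∖ 𝔭_0`,
  `c₂ = α j - (β j)^q ∈ 𝔭_0 ∖ 𝔭_∞` in `𝒪`;
* `s35f1i_red_aeval` : reductions of `b(t)`, `b ∈ Λ[X]`, `t ∈ 𝒪`;
* `s35f1i_exists_e` : for `t ∈ 𝒪` with transcendental reductions and `c ∈ 𝒪` integral over the
  Gauss ring of `Λ(t)`, an element `e = b(t) c` integral over `Λ[t]` with the same vanishing of
  both reductions as `c`;
* `s35f1i_hne_inf`, `s35f1i_hne_zero` : the vertical primes do not contain the centre of a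
  `Λ`-point (`t_B - ψ(t_B)`).
-/

set_option autoImplicit false
set_option synthInstance.maxHeartbeats 400000
set_option linter.unusedSectionVars false

namespace Fermat.Agent.S35

open ModularCurve AlgebraicCurve Polynomial
open Fermat.Agent.S18 Fermat.Agent.S28 Fermat.Agent.S28.FreeBasisAbs Fermat.Agent.S34

variable {L k : Type*} [Field L] [Algebra ℚ L] [Field k] {Λ : Subring L} {π : L}
  {res : ↥Λ →+* k} (ι : L →+* ℂ) (M q : ℕ) [NeZero M] [NeZero q] (hcop : Nat.Coprime M q)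

section J

theorem s35f1i_frob_jqModC (hq : q.Prime) [CharP k q] :
    qExpand k q (jqModC k) = jqModC k ^ q := by
  have : Fact q.Prime := ⟨hq⟩
  rw [Fermat.Agent.S37.Kronecker.pow_char q, coeffMap_jqModC]

/-- The four reductions of `α j = j_{Mq}` and `β j`. -/
theorem s35f1i_red_j (hq : q.Prime) [CharP k q] :
    kronRedInf Λ res ι M q hcop
        ⟨_, kron_alpha_mem_kronO ι M q hcop (s35k6_jL_mem_gaussV M)⟩ = jqModC k ∧
    kronRedZero Λ res ι M q hcop
        ⟨_, kron_alpha_mem_kronO ι M q hcop (s35k6_jL_mem_gaussV M)⟩ = jqModC k ^ q ∧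
    kronRedInf Λ res ι M q hcop
        ⟨_, kron_beta_mem_kronO ι M q hcop (s35k6_jL_mem_gaussV M)⟩ = jqModC k ^ q ∧
    kronRedZero Λ res ι M q hcop
        ⟨_, kron_beta_mem_kronO ι M q hcop (s35k6_jL_mem_gaussV M)⟩ = jqModC k := by
  have hc : Fermat.Agent.S24.jL L M ∈
      GaussL.gaussV Λ res (laurentBaseChange L (modularFunctionFieldFull M)) :=
    s35k6_jL_mem_gaussV M
  have hred : GaussL.gaussRed Λ res (laurentBaseChange L (modularFunctionFieldFull M))
      ⟨Fermat.Agent.S24.jL L M, hc⟩ = jqModC k := s35k6_gaussRed_jL M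
  have hfrob := s35f1i_frob_jqModC (k := k) q hq
  refine ⟨(kronRedInf_alpha ι M q hcop hc).trans hred, ?_, ?_,
    (kronRedZero_beta ι M q hcop hc).trans hred⟩
  · rw [kronRedZero_alpha ι M q hcop hc, hred, hfrob]
  · rw [kronRedInf_beta ι M q hcop hc, hred, hfrob]

theorem s35f1i_pow_ne (hq : q.Prime) : jqModC k ^ (q * q) ≠ jqModC k := by
  intro h
  have h1 : 1 < q * q := by nlinarith [hq.two_le]
  refine FiniteField.X_pow_card_sub_X_ne_zero k h1
    (transcendental_iff.mp (s34icf_transcendental_jqModC k) _ ?_)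
  rw [map_sub, map_pow, aeval_X, h, sub_self]

/-- `c₁ = (α j)^q - β j ∈ 𝒪` reduces to `0` at `w_∞` and not at `w_0`. -/
theorem s35f1i_exists_c₁ (hq : q.Prime) [CharP k q] :
    ∃ c : ↥(kronO Λ res ι M q hcop),
      kronRedInf Λ res ι M q hcop c = 0 ∧ kronRedZero Λ res ι M q hcop c ≠ 0 := by
  obtain ⟨h1, h2, h3, h4⟩ := s35f1i_red_j (Λ := Λ) (res := res) ι M q hcop hq
  refine ⟨⟨_, kron_alpha_mem_kronO ι M q hcop (s35k6_jL_mem_gaussV M)⟩ ^ q -
    ⟨_, kron_beta_mem_kronO ι M q hcop (s35k6_jL_mem_gaussV M)⟩, ?_, ?_⟩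
  · rw [map_sub, map_pow, h1, h3, sub_self]
  · rw [map_sub, map_pow, h2, h4, ← pow_mul]
    exact sub_ne_zero.mpr (s35f1i_pow_ne q hq)

/-- `c₂ = α j - (β j)^q ∈ 𝒪` reduces to `0` at `w_0` and not at `w_∞`. -/
theorem s35f1i_exists_c₂ (hq : q.Prime) [CharP k q] :
    ∃ c : ↥(kronO Λ res ι M q hcop),
      kronRedZero Λ res ι M q hcop c = 0 ∧ kronRedInf Λ res ι M q hcop c ≠ 0 := by
  obtain ⟨h1, h2, h3, h4⟩ := s35f1i_red_j (Λ := Λ) (res := res) ι M q hcop hq
  refine ⟨⟨_, kron_alpha_mem_kronO ι M q hcop (s35k6_jL_mem_gaussV M)⟩ -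
    ⟨_, kron_beta_mem_kronO ι M q hcop (s35k6_jL_mem_gaussV M)⟩ ^ q, ?_, ?_⟩
  · rw [map_sub, map_pow, h2, h4, sub_self]
  · rw [map_sub, map_pow, h1, h3, ← pow_mul]
    exact sub_ne_zero.mpr (s35f1i_pow_ne q hq).symm

end J

section Const

/-- Constants of `Λ` lie in `𝒪`. -/
theorem s35f1i_algebraMap_mem_kronO (c : ↥Λ) :
    algebraMap L ↥(laurentBaseChange L (modularFunctionFieldFull (M * q))) (c : L) ∈
      kronO Λ res ι M q hcop := by
  have h : algebraMap L ↥(laurentBaseChange L (modularFunctionFieldFull (M * q))) (c : L) ∈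
      GaussL.gaussV Λ res (laurentBaseChange L (modularFunctionFieldFull (M * q))) :=
    (GaussL.gaussV Λ res (laurentBaseChange L (modularFunctionFieldFull (M * q)))).algebraMap_mem c
  rw [mem_kronO_iff, AlgEquiv.commutes]
  exact ⟨h, h⟩

theorem s35f1i_kronRedInf_algebraMap (c : ↥Λ) :
    kronRedInf Λ res ι M q hcop ⟨_, s35f1i_algebraMap_mem_kronO ι M q hcop c⟩ =
      HahnSeries.C (res c) := by
  rw [kronRedInf_apply, ← GaussL.gaussRed_algebraMap
    (laurentBaseChange L (modularFunctionFieldFull (M * q))) c]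
  rfl

theorem s35f1i_kronRedZero_algebraMap (c : ↥Λ) :
    kronRedZero Λ res ι M q hcop ⟨_, s35f1i_algebraMap_mem_kronO ι M q hcop c⟩ =
      HahnSeries.C (res c) := by
  rw [kronRedZero_apply, ← GaussL.gaussRed_algebraMap
    (laurentBaseChange L (modularFunctionFieldFull (M * q))) c]
  congr 1
  exact Subtype.ext (AlgEquiv.commutes _ _)

end Const

section Aeval

/-- The structure map `Λ → 𝒪`. -/
noncomputable def s35f1iCΛ : ↥Λ →+* ↥(kronO Λ res ι M q hcop) :=
  RingHom.codRestrict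
    ((algebraMap L ↥(laurentBaseChange L (modularFunctionFieldFull (M * q)))).comp Λ.subtype)
    (kronO Λ res ι M q hcop) (fun c => s35f1i_algebraMap_mem_kronO ι M q hcop c)

theorem s35f1i_kronRedInf_comp :
    (kronRedInf Λ res ι M q hcop).comp (s35f1iCΛ ι M q hcop) =
      (algebraMap k (LaurentSeries k)).comp res := by
  ext c : 1
  rw [RingHom.comp_apply, RingHom.comp_apply, GaussL.algebraMap_eq_C (res c)]
  exact s35f1i_kronRedInf_algebraMap ι M q hcop c

theorem s35f1i_kronRedZero_comp :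
    (kronRedZero Λ res ι M q hcop).comp (s35f1iCΛ ι M q hcop) =
      (algebraMap k (LaurentSeries k)).comp res := by
  ext c : 1
  rw [RingHom.comp_apply, RingHom.comp_apply, GaussL.algebraMap_eq_C (res c)]
  exact s35f1i_kronRedZero_algebraMap ι M q hcop c

/-- Reductions of `b(t)`, `b ∈ Λ[X]`, `t ∈ 𝒪`. -/
theorem s35f1i_red_aeval (t : ↥(kronO Λ res ι M q hcop)) (b : (↥Λ)[X]) :
    ∃ h : aeval (t : ↥(laurentBaseChange L (modularFunctionFieldFull (M * q)))) b ∈
        kronO Λ res ι M q hcop,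
      kronRedInf Λ res ι M q hcop ⟨_, h⟩ =
        aeval (kronRedInf Λ res ι M q hcop t) (b.map res) ∧
      kronRedZero Λ res ι M q hcop ⟨_, h⟩ =
        aeval (kronRedZero Λ res ι M q hcop t) (b.map res) := by
  have hcoe : ((eval₂ (s35f1iCΛ ι M q hcop) t b : ↥(kronO Λ res ι M q hcop)) :
      ↥(laurentBaseChange L (modularFunctionFieldFull (M * q)))) =
      aeval (t : ↥(laurentBaseChange L (modularFunctionFieldFull (M * q)))) b := by
    rw [← Subring.coe_subtype, hom_eval₂, aeval_def]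
    rfl
  have hmem : aeval (t : ↥(laurentBaseChange L (modularFunctionFieldFull (M * q)))) b ∈
      kronO Λ res ι M q hcop := by
    rw [← hcoe]
    exact (eval₂ (s35f1iCΛ ι M q hcop) t b).2
  have e : (⟨_, hmem⟩ : ↥(kronO Λ res ι M q hcop)) = eval₂ (s35f1iCΛ ι M q hcop) t b :=
    Subtype.ext hcoe.symm
  refine ⟨hmem, ?_, ?_⟩
  · rw [e, hom_eval₂, s35f1i_kronRedInf_comp, aeval_def, eval₂_map]
  · rw [e, hom_eval₂, s35f1i_kronRedZero_comp, aeval_def, eval₂_map]

/-- For `t ∈ 𝒪` with transcendental reductions and `c ∈ 𝒪` integral over the Gauss ring of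
`Λ(t)`: an element `e = b(t) c ∈ 𝒪`, integral over `Λ[t]`, with the same vanishing of both
reductions as `c`. -/
theorem s35f1i_exists_e (hΛ : IsGaussRing Λ π res) (t : ↥(kronO Λ res ι M q hcop))
    (htr₁ : Transcendental k (kronRedInf Λ res ι M q hcop t))
    (htr₂ : Transcendental k (kronRedZero Λ res ι M q hcop t))
    (c : ↥(kronO Λ res ι M q hcop))
    (hc : IsIntegral (gaussSub (GaussL.piL hΛ) (GaussL.prime_piL hΛ)
      (t : ↥(laurentBaseChange L (modularFunctionFieldFull (M * q)))))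
      (c : ↥(laurentBaseChange L (modularFunctionFieldFull (M * q))))) :
    ∃ e : ↥(kronO Λ res ι M q hcop),
      IsIntegral (Algebra.adjoin ↥Λ
        {(t : ↥(laurentBaseChange L (modularFunctionFieldFull (M * q))))})
        (e : ↥(laurentBaseChange L (modularFunctionFieldFull (M * q)))) ∧
      (kronRedInf Λ res ι M q hcop e = 0 ↔ kronRedInf Λ res ι M q hcop c = 0) ∧
      (kronRedZero Λ res ι M q hcop e = 0 ↔ kronRedZero Λ res ι M q hcop c = 0) := by
  obtain ⟨b, hb, hint⟩ := s34icf_exists_mul_isIntegral (GaussL.piL hΛ) (GaussL.prime_piL hΛ)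
    (t : ↥(laurentBaseChange L (modularFunctionFieldFull (M * q))))
    (c : ↥(laurentBaseChange L (modularFunctionFieldFull (M * q)))) hc
  have hb' : b.map res ≠ 0 := fun h0 => hb ((GaussL.C_piL_dvd_iff hΛ b).2 h0)
  obtain ⟨hmem, h1, h2⟩ := s35f1i_red_aeval ι M q hcop t b
  have hne₁ : kronRedInf Λ res ι M q hcop ⟨_, hmem⟩ ≠ 0 := by
    rw [h1]
    exact fun h0 => hb' (transcendental_iff.mp htr₁ _ h0)
  have hne₂ : kronRedZero Λ res ι M q hcop ⟨_, hmem⟩ ≠ 0 := by
    rw [h2]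
    exact fun h0 => hb' (transcendental_iff.mp htr₂ _ h0)
  refine ⟨⟨_, hmem⟩ * c, ?_, ?_, ?_⟩
  · rw [Subring.coe_mul]
    exact hint
  · rw [map_mul, mul_eq_zero]
    exact ⟨fun h => h.resolve_left hne₁, Or.inr⟩
  · rw [map_mul, mul_eq_zero]
    exact ⟨fun h => h.resolve_left hne₂, Or.inr⟩

end Aeval

section Hne

variable {B : Type*} [CommRing B] [Algebra ↥Λ B]
  (iB : B →+* ↥(laurentBaseChange L (modularFunctionFieldFull (M * q))))
  (hBO : ∀ b, iB b ∈ kronO Λ res ι M q hcop)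

theorem s35f1RInf_algebraMap
    (hiBΛ : ∀ c : ↥Λ, iB (algebraMap ↥Λ B c) = algebraMap L _ (c : L)) (c : ↥Λ) :
    s35f1RInf ι M q hcop iB hBO (algebraMap ↥Λ B c) = HahnSeries.C (res c) := by
  rw [s35f1RInf_apply, ← s35f1i_kronRedInf_algebraMap ι M q hcop c]
  congr 1
  exact Subtype.ext (hiBΛ c)

theorem s35f1RZero_algebraMap
    (hiBΛ : ∀ c : ↥Λ, iB (algebraMap ↥Λ B c) = algebraMap L _ (c : L)) (c : ↥Λ) :
    s35f1RZero ι M q hcop iB hBO (algebraMap ↥Λ B c) = HahnSeries.C (res c) := by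
  rw [s35f1RZero_apply, ← s35f1i_kronRedZero_algebraMap ι M q hcop c]
  congr 1
  exact Subtype.ext (hiBΛ c)

/-- `𝔭_∞` does not contain the centre of a `Λ`-point, as soon as some element of `B` has
non-constant reduction at `w_∞`. -/
theorem s35f1i_hne_inf (hΛ : IsGaussRing Λ π res)
    (hiBΛ : ∀ c : ↥Λ, iB (algebraMap ↥Λ B c) = algebraMap L _ (c : L))
    (ψ : B →ₐ[↥Λ] ↥Λ) (tB : B)
    (h : ∀ a : k, s35f1RInf ι M q hcop iB hBO tB ≠ HahnSeries.C a) :
    ∃ b : B, GaussL.piL hΛ ∣ ψ b ∧ s35f1RInf ι M q hcop iB hBO b ≠ 0 := by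
  refine ⟨tB - algebraMap ↥Λ B (ψ tB), ?_, ?_⟩
  · rw [map_sub, AlgHom.commutes, Algebra.algebraMap_self, RingHom.id_apply, sub_self]
    exact dvd_zero _
  · rw [map_sub, s35f1RInf_algebraMap ι M q hcop iB hBO hiBΛ, sub_ne_zero]
    exact h _

theorem s35f1i_hne_zero (hΛ : IsGaussRing Λ π res)
    (hiBΛ : ∀ c : ↥Λ, iB (algebraMap ↥Λ B c) = algebraMap L _ (c : L))
    (ψ : B →ₐ[↥Λ] ↥Λ) (tB : B)
    (h : ∀ a : k, s35f1RZero ι M q hcop iB hBO tB ≠ HahnSeries.C a) :
    ∃ b : B, GaussL.piL hΛ ∣ ψ b ∧ s35f1RZero ι M q hcop iB hBO b ≠ 0 := by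
  refine ⟨tB - algebraMap ↥Λ B (ψ tB), ?_, ?_⟩
  · rw [map_sub, AlgHom.commutes, Algebra.algebraMap_self, RingHom.id_apply, sub_self]
    exact dvd_zero _
  · rw [map_sub, s35f1RZero_algebraMap ι M q hcop iB hBO hiBΛ, sub_ne_zero]
    exact h _

/-- A transcendental Laurent series is not a constant. -/
theorem s35f1i_ne_C_of_transcendental {f : LaurentSeries k} (hf : Transcendental k f) (a : k) :
    f ≠ HahnSeries.C a := by
  intro h
  refine hf ⟨X - C a, X_sub_C_ne_zero a, ?_⟩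
  rw [map_sub, aeval_X, aeval_C, h, GaussL.algebraMap_eq_C a, sub_self]

end Hne

end Fermat.Agent.S35
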