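import Mathlib
import Fermat.Agent.S35.F1InstCore
import Fermat.Agent.S35.F1Val

/-!
# P20 (S35), block F1, INST adapters: the full closed-point datum in valuation form

`B` a ring presented inside `𝒪 = V_∞ ∩ V_0 ⊆ F_{Mq}` by `iB` (`hBO`), `R∞ = s35f1RInf`,
`R0 = s35f1RZero` its two Gauss reductions, `w₁ = s35valW₁ hΛ (M * q)`,
`w₂ = s35valW₂ hΛ ι M q hcop` the two vertical valuations.

* `s35f1val_RInf_eq_zero_iff`, `s35f1val_RZero_eq_zero_iff` : `R b = 0 ↔ w (iB b) < 1`;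
* `s35f1val_RInf_ne_zero_iff`, `s35f1val_RZero_ne_zero_iff` : `R b ≠ 0 ↔ w (iB b) = 1`;
* `s35f1_inst_val` : the conclusion of `s35f1_inst_full` translated into the hypothesis shapes
  of F1-PTS (`t` with `iB t ≠ 0`, `(iB t)⁻¹` integral over the Gauss ring `V` of the `j`-line) and
  of F1-PTC / F1-XT / F1-THICK (`h𝔪₁`, `h𝔪₂`, `hx₂`, `hy₁`, `hgen`, `hP1`);
* `s35f1_inst_full_val` : the same directly from the weak datum (composition with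
  `s35f1_inst_full`).
-/

set_option autoImplicit false

namespace Fermat.Agent.S35

open ModularCurve AlgebraicCurve
open Fermat.Agent.S18 Fermat.Agent.S28 Fermat.Agent.S28.FreeBasisAbs Fermat.Agent.S34

variable {L k : Type*} [Field L] [Algebra ℚ L] [Field k] {Λ : Subring L} {π : L}
  {res : ↥Λ →+* k} (ι : L →+* ℂ) (M q : ℕ) [NeZero M] [NeZero q] (hcop : Nat.Coprime M q)

section Iff

variable (hΛ : IsGaussRing Λ π res) {B : Type*} [CommRing B]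
  (iB : B →+* ↥(laurentBaseChange L (modularFunctionFieldFull (M * q))))
  (hBO : ∀ b, iB b ∈ kronO Λ res ι M q hcop)

include hBO in
theorem s35f1val_w₁_le_one (b : B) : s35valW₁ hΛ (M * q) (iB b) ≤ 1 :=
  ((s35val_mem_kronO_iff hΛ ι M q hcop (iB b)).mp (hBO b)).1

include hBO in
theorem s35f1val_w₂_le_one (b : B) : s35valW₂ hΛ ι M q hcop (iB b) ≤ 1 :=
  ((s35val_mem_kronO_iff hΛ ι M q hcop (iB b)).mp (hBO b)).2

theorem s35f1val_RInf_eq_zero_iff (b : B) :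
    s35f1RInf ι M q hcop iB hBO b = 0 ↔ s35valW₁ hΛ (M * q) (iB b) < 1 := by
  rw [s35f1RInf_apply]
  exact (s35val_w₁_lt_one_iff_redInf hΛ ι M q hcop ⟨iB b, hBO b⟩).symm

theorem s35f1val_RZero_eq_zero_iff (b : B) :
    s35f1RZero ι M q hcop iB hBO b = 0 ↔ s35valW₂ hΛ ι M q hcop (iB b) < 1 := by
  rw [s35f1RZero_apply]
  exact (s35val_w₂_lt_one_iff_redZero hΛ ι M q hcop ⟨iB b, hBO b⟩).symm

theorem s35f1val_RInf_ne_zero_iff (b : B) :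
    s35f1RInf ι M q hcop iB hBO b ≠ 0 ↔ s35valW₁ hΛ (M * q) (iB b) = 1 := by
  rw [Ne, s35f1val_RInf_eq_zero_iff ι M q hcop hΛ iB hBO b, not_lt]
  exact ⟨fun h => le_antisymm (s35f1val_w₁_le_one ι M q hcop hΛ iB hBO b) h, fun h => h.ge⟩

theorem s35f1val_RZero_ne_zero_iff (b : B) :
    s35f1RZero ι M q hcop iB hBO b ≠ 0 ↔ s35valW₂ hΛ ι M q hcop (iB b) = 1 := by
  rw [Ne, s35f1val_RZero_eq_zero_iff ι M q hcop hΛ iB hBO b, not_lt]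
  exact ⟨fun h => le_antisymm (s35f1val_w₂_le_one ι M q hcop hΛ iB hBO b) h, fun h => h.ge⟩

end Iff

section Full

variable {B : Type*} [CommRing B] [Algebra ↥Λ B]
  (iB : B →+* ↥(laurentBaseChange L (modularFunctionFieldFull (M * q))))
  (hBO : ∀ b, iB b ∈ kronO Λ res ι M q hcop)

set_option synthInstance.maxHeartbeats 400000 in
/-- **The full closed-point datum, valuation form** (translation of the conclusion of
`s35f1_inst_full`; `𝔪` the centre of the `Λ`-point `ψ`). -/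
theorem s35f1_inst_val [CharZero L] (hΛ : IsGaussRing Λ π res) (hq : q.Prime) [CharP k q]
    (ψ : B →ₐ[↥Λ] ↥Λ) (𝔪 : Ideal B)
    (h𝔪 : 𝔪 = Ideal.comap (ψ : B →+* ↥Λ) (Ideal.span {GaussL.piL hΛ}))
    (h : (∃ t : B, ModelLocGen (Ideal.span {algebraMap ↥Λ B (GaussL.piL hΛ)})
        (Ideal.comap (ψ : B →+* ↥Λ) (Ideal.span {GaussL.piL hΛ})) t ∧
      s35f1RInf ι M q hcop iB hBO t ≠ 0 ∧ s35f1RZero ι M q hcop iB hBO t ≠ 0) ∨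
    ((∀ z : B, s35f1RInf ι M q hcop iB hBO z = 0 → GaussL.piL hΛ ∣ ψ z) ∧
      (∀ z : B, s35f1RZero ι M q hcop iB hBO z = 0 → GaussL.piL hΛ ∣ ψ z) ∧
      ∃ x y G : B, x * y = algebraMap ↥Λ B (GaussL.piL hΛ) * G ∧
        GaussL.piL hΛ ∣ ψ x ∧ GaussL.piL hΛ ∣ ψ y ∧
        s35f1RInf ι M q hcop iB hBO x = 0 ∧ s35f1RZero ι M q hcop iB hBO x ≠ 0 ∧
        s35f1RZero ι M q hcop iB hBO y = 0 ∧ s35f1RInf ι M q hcop iB hBO y ≠ 0 ∧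
        (∀ z : B, GaussL.piL hΛ ∣ ψ z → ∃ a : B, ¬ GaussL.piL hΛ ∣ ψ a ∧
          a * z ∈ Ideal.span {algebraMap ↥Λ B (GaussL.piL hΛ), x, y}) ∧
        (∃ a : B, ¬ GaussL.piL hΛ ∣ ψ a ∧ ∀ z : B, s35f1RInf ι M q hcop iB hBO z = 0 →
          ∃ r d : B, a * z = algebraMap ↥Λ B (GaussL.piL hΛ) * r + x * d) ∧
        (∃ a : B, ¬ GaussL.piL hΛ ∣ ψ a ∧ ∀ z : B, s35f1RZero ι M q hcop iB hBO z = 0 →
          ∃ r d : B, a * z = algebraMap ↥Λ B (GaussL.piL hΛ) * r + y * d))) :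
    (∃ t : B, ModelLocGen (Ideal.span {algebraMap ↥Λ B (GaussL.piL hΛ)}) 𝔪 t ∧
      iB t ≠ 0 ∧ s35valW₁ hΛ (M * q) (iB t) = 1 ∧ s35valW₂ hΛ ι M q hcop (iB t) = 1 ∧
      IsIntegral (gaussSub (GaussL.piL hΛ) (GaussL.prime_piL hΛ)
        (Fermat.Agent.S24.jL L (M * q))) (iB t)⁻¹) ∨
    ((∀ b : B, s35valW₁ hΛ (M * q) (iB b) < 1 → b ∈ 𝔪) ∧
      (∀ b : B, s35valW₂ hΛ ι M q hcop (iB b) < 1 → b ∈ 𝔪) ∧
      ∃ x y G : B, x * y = algebraMap ↥Λ B (GaussL.piL hΛ) * G ∧ x ∈ 𝔪 ∧ y ∈ 𝔪 ∧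
        s35valW₁ hΛ (M * q) (iB x) < 1 ∧ s35valW₂ hΛ ι M q hcop (iB x) = 1 ∧
        s35valW₂ hΛ ι M q hcop (iB y) < 1 ∧ s35valW₁ hΛ (M * q) (iB y) = 1 ∧
        (∀ z ∈ 𝔪, ∃ a : B, a ∉ 𝔪 ∧
          a * z ∈ Ideal.span {algebraMap ↥Λ B (GaussL.piL hΛ), x, y}) ∧
        (∃ a : B, a ∉ 𝔪 ∧ ∀ z : B, s35valW₁ hΛ (M * q) (iB z) < 1 →
          ∃ r d : B, a * z = algebraMap ↥Λ B (GaussL.piL hΛ) * r + x * d) ∧
        (∃ a : B, a ∉ 𝔪 ∧ ∀ z : B, s35valW₂ hΛ ι M q hcop (iB z) < 1 →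
          ∃ r d : B, a * z = algebraMap ↥Λ B (GaussL.piL hΛ) * r + y * d)) := by
  subst h𝔪
  have hmem : ∀ z : B, z ∈ Ideal.comap (ψ : B →+* ↥Λ) (Ideal.span {GaussL.piL hΛ}) ↔
      GaussL.piL hΛ ∣ ψ z := fun z => by
    rw [Ideal.mem_comap, Ideal.mem_span_singleton]
    rfl
  have e1 := s35f1val_RInf_eq_zero_iff ι M q hcop hΛ iB hBO
  have e2 := s35f1val_RZero_eq_zero_iff ι M q hcop hΛ iB hBO
  have n1 := s35f1val_RInf_ne_zero_iff ι M q hcop hΛ iB hBO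
  have n2 := s35f1val_RZero_ne_zero_iff ι M q hcop hΛ iB hBO
  rcases h with ⟨t, ht, ht1, ht2⟩ |
    ⟨h1, h2, x, y, G, hxy, hx, hy, hx1, hx2, hy2, hy1, hgen, ⟨a₁, ha₁, hP1⟩, ⟨a₂, ha₂, hP2⟩⟩
  · left
    have w1 := (n1 t).mp ht1
    have w2 := (n2 t).mp ht2
    have ht0 : iB t ≠ 0 := by
      intro h0
      rw [h0, map_zero] at w1
      exact zero_ne_one w1
    refine ⟨t, ht, ht0, w1, w2, (s35val_isIntegral_iff hΛ ι M q hcop hq _).mpr ⟨?_, ?_⟩⟩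
    · rw [map_inv₀, w1, inv_one]
    · rw [map_inv₀, w2, inv_one]
  · right
    refine ⟨fun b hb => (hmem b).mpr (h1 b ((e1 b).mpr hb)),
      fun b hb => (hmem b).mpr (h2 b ((e2 b).mpr hb)), x, y, G, hxy, (hmem x).mpr hx,
      (hmem y).mpr hy, (e1 x).mp hx1, (n2 x).mp hx2, (e2 y).mp hy2, (n1 y).mp hy1,
      fun z hz => ?_, ⟨a₁, fun h => ha₁ ((hmem a₁).mp h), fun z hz => hP1 z ((e1 z).mpr hz)⟩,
      ⟨a₂, fun h => ha₂ ((hmem a₂).mp h), fun z hz => hP2 z ((e2 z).mpr hz)⟩⟩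
    obtain ⟨a, ha, haz⟩ := hgen z ((hmem z).mp hz)
    exact ⟨a, fun h => ha ((hmem a).mp h), haz⟩

set_option synthInstance.maxHeartbeats 400000 in
/-- **The full closed-point datum, valuation form, from the weak datum** exported by INST
(`S34.kron_inst_fin` / `S34.kron_inst_inf`): composition of `s35f1_inst_full` and
`s35f1_inst_val`. -/
theorem s35f1_inst_full_val [CharZero L] (hΛ : IsGaussRing Λ π res) (hq : q.Prime) [CharP k q]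
    [IsNoetherianRing B] (hiB : Function.Injective iB)
    (hiBΛ : ∀ c : ↥Λ, iB (algebraMap ↥Λ B c) = algebraMap L _ (c : L))
    (hsat : ∀ (b : B) (δ : ↥(laurentBaseChange L (modularFunctionFieldFull (M * q)))),
      δ ∈ kronO Λ res ι M q hcop → iB b = algebraMap L _ π * δ → ∃ b' : B, iB b' = δ)
    (ψ : B →ₐ[↥Λ] ↥Λ) (𝔪 : Ideal B)
    (h𝔪 : 𝔪 = Ideal.comap (ψ : B →+* ↥Λ) (Ideal.span {GaussL.piL hΛ}))
    (hne₁ : ∃ b : B, GaussL.piL hΛ ∣ ψ b ∧ s35f1RInf ι M q hcop iB hBO b ≠ 0)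
    (hne₂ : ∃ b : B, GaussL.piL hΛ ∣ ψ b ∧ s35f1RZero ι M q hcop iB hBO b ≠ 0)
    (he₁ : ∃ e : B, s35f1RInf ι M q hcop iB hBO e = 0 ∧ s35f1RZero ι M q hcop iB hBO e ≠ 0)
    (he₂ : ∃ e : B, s35f1RZero ι M q hcop iB hBO e = 0 ∧ s35f1RInf ι M q hcop iB hBO e ≠ 0)
    (h : (∃ t : B, ModelLocGen (Ideal.span {algebraMap ↥Λ B (GaussL.piL hΛ)})
        (Ideal.comap (ψ : B →+* ↥Λ) (Ideal.span {GaussL.piL hΛ})) t) ∨
      (∃ x y G : B, x * y = algebraMap ↥Λ B (GaussL.piL hΛ) * G ∧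
        GaussL.piL hΛ ∣ ψ x ∧ GaussL.piL hΛ ∣ ψ y ∧
        ∀ z : B, GaussL.piL hΛ ∣ ψ z → ∃ a : B, ¬ GaussL.piL hΛ ∣ ψ a ∧
          a * z ∈ Ideal.span {algebraMap ↥Λ B (GaussL.piL hΛ), x, y})) :
    (∃ t : B, ModelLocGen (Ideal.span {algebraMap ↥Λ B (GaussL.piL hΛ)}) 𝔪 t ∧
      iB t ≠ 0 ∧ s35valW₁ hΛ (M * q) (iB t) = 1 ∧ s35valW₂ hΛ ι M q hcop (iB t) = 1 ∧
      IsIntegral (gaussSub (GaussL.piL hΛ) (GaussL.prime_piL hΛ)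
        (Fermat.Agent.S24.jL L (M * q))) (iB t)⁻¹) ∨
    ((∀ b : B, s35valW₁ hΛ (M * q) (iB b) < 1 → b ∈ 𝔪) ∧
      (∀ b : B, s35valW₂ hΛ ι M q hcop (iB b) < 1 → b ∈ 𝔪) ∧
      ∃ x y G : B, x * y = algebraMap ↥Λ B (GaussL.piL hΛ) * G ∧ x ∈ 𝔪 ∧ y ∈ 𝔪 ∧
        s35valW₁ hΛ (M * q) (iB x) < 1 ∧ s35valW₂ hΛ ι M q hcop (iB x) = 1 ∧
        s35valW₂ hΛ ι M q hcop (iB y) < 1 ∧ s35valW₁ hΛ (M * q) (iB y) = 1 ∧
        (∀ z ∈ 𝔪, ∃ a : B, a ∉ 𝔪 ∧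
          a * z ∈ Ideal.span {algebraMap ↥Λ B (GaussL.piL hΛ), x, y}) ∧
        (∃ a : B, a ∉ 𝔪 ∧ ∀ z : B, s35valW₁ hΛ (M * q) (iB z) < 1 →
          ∃ r d : B, a * z = algebraMap ↥Λ B (GaussL.piL hΛ) * r + x * d) ∧
        (∃ a : B, a ∉ 𝔪 ∧ ∀ z : B, s35valW₂ hΛ ι M q hcop (iB z) < 1 →
          ∃ r d : B, a * z = algebraMap ↥Λ B (GaussL.piL hΛ) * r + y * d)) :=
  s35f1_inst_val ι M q hcop iB hBO hΛ hq ψ 𝔪 h𝔪
    (s35f1_inst_full ι M q hcop iB hBO hΛ hiB hiBΛ hsat ψ hne₁ hne₂ he₁ he₂ h)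

end Full

end Fermat.Agent.S35
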