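import Mathlib
import Fermat.Agent.S34.InstFin
import Fermat.Agent.S35.F1InstElts
import Fermat.Agent.S35.F1InstVal

/-!
# P20 (S35), block F1, INST adapters: the full closed-point datum on the chart `j`

`kron_inst_fin_nf` : under the hypotheses of `S34.kron_inst_fin` (abstract presentation `iA, iB` of
the integral closures of `Λ[j_M]`, `Λ[j_{Mq}]`), for every `Λ`-point `ψ` of `B` the conclusion of
`s35f1_inst_full` (closed-point datum in normal form, with the two reductions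
`s35f1RInf`, `s35f1RZero`).  `kron_inst_fin_val` : the same in valuation form
(`s35f1_inst_val`).
-/

set_option autoImplicit false
set_option synthInstance.maxHeartbeats 400000
set_option linter.unusedSectionVars false

namespace Fermat.Agent.S35

open ModularCurve AlgebraicCurve Polynomial
open Fermat.Agent.S18 Fermat.Agent.S28 Fermat.Agent.S28.FreeBasisAbs Fermat.Agent.S34

variable {L k : Type*} [Field L] [Algebra ℚ L] [Field k] {Λ : Subring L} {π : L}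
  {res : ↥Λ →+* k} (ι : L →+* ℂ) (M q : ℕ) [NeZero M] [NeZero q] (hcop : Nat.Coprime M q)

section Inputs

variable {B : Type*} [CommRing B] [Algebra ↥Λ B]
  (iB : B →+* ↥(laurentBaseChange L (modularFunctionFieldFull (M * q))))
  (hBO : ∀ b, iB b ∈ kronO Λ res ι M q hcop)

/-- the two reductions of a lift of `j_{Mq}`. -/
theorem s35f1fin_red_tB (hq : q.Prime) [CharP k q] {tB : B}
    (htB : iB tB = Fermat.Agent.S24.jL L (M * q)) :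
    s35f1RInf ι M q hcop iB hBO tB = jqModC k ∧
      s35f1RZero ι M q hcop iB hBO tB = jqModC k ^ q := by
  obtain ⟨h1, h2, -, -⟩ := s35f1i_red_j (Λ := Λ) (res := res) ι M q hcop hq
  have e : (⟨iB tB, hBO tB⟩ : ↥(kronO Λ res ι M q hcop)) =
      ⟨_, kron_alpha_mem_kronO ι M q hcop (s35k6_jL_mem_gaussV M)⟩ :=
    Subtype.ext (htB.trans (inst_alpha_jL M q).symm)
  rw [s35f1RInf_apply, s35f1RZero_apply, e]
  exact ⟨h1, h2⟩

/-- the four inputs `hne₁ hne₂ he₁ he₂` of `s35f1_inst_full` on the chart `j`. -/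
theorem s35f1fin_inputs [CharZero L] (hΛ : IsGaussRing Λ π res) (hq : q.Prime) [CharP k q]
    (hiBΛ : ∀ c : ↥Λ, iB (algebraMap ↥Λ B c) = algebraMap L _ (c : L))
    (hB : ∀ z, (∃ b, iB b = z) ↔
      IsIntegral (Algebra.adjoin ↥Λ {Fermat.Agent.S24.jL L (M * q)}) z)
    (ψ : B →ₐ[↥Λ] ↥Λ) :
    (∃ b : B, GaussL.piL hΛ ∣ ψ b ∧ s35f1RInf ι M q hcop iB hBO b ≠ 0) ∧
    (∃ b : B, GaussL.piL hΛ ∣ ψ b ∧ s35f1RZero ι M q hcop iB hBO b ≠ 0) ∧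
    (∃ e : B, s35f1RInf ι M q hcop iB hBO e = 0 ∧ s35f1RZero ι M q hcop iB hBO e ≠ 0) ∧
    (∃ e : B, s35f1RZero ι M q hcop iB hBO e = 0 ∧ s35f1RInf ι M q hcop iB hBO e ≠ 0) := by
  obtain ⟨tB, htB⟩ := (hB (Fermat.Agent.S24.jL L (M * q))).mpr
    (isIntegral_algebraMap (x := (⟨_, Algebra.self_mem_adjoin_singleton ↥Λ _⟩ :
      ↥(Algebra.adjoin ↥Λ {Fermat.Agent.S24.jL L (M * q)}))))
  obtain ⟨hr1, hr2⟩ := s35f1fin_red_tB ι M q hcop iB hBO hq htB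
  have htr₁ : Transcendental k (s35f1RInf ι M q hcop iB hBO tB) := by
    rw [hr1]; exact s34icf_transcendental_jqModC k
  have htr₂ : Transcendental k (s35f1RZero ι M q hcop iB hBO tB) := by
    rw [hr2]; exact (s34icf_transcendental_jqModC k).pow hq.pos
  -- the elements `e`
  have key : ∀ c : ↥(kronO Λ res ι M q hcop), ∃ e : B,
      (s35f1RInf ι M q hcop iB hBO e = 0 ↔ kronRedInf Λ res ι M q hcop c = 0) ∧
      (s35f1RZero ι M q hcop iB hBO e = 0 ↔ kronRedZero Λ res ι M q hcop c = 0) := by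
    intro c
    obtain ⟨t, ht, htr₁', htr₂'⟩ : ∃ t : ↥(kronO Λ res ι M q hcop),
        (t : ↥(laurentBaseChange L (modularFunctionFieldFull (M * q)))) =
          Fermat.Agent.S24.jL L (M * q) ∧
        Transcendental k (kronRedInf Λ res ι M q hcop t) ∧
        Transcendental k (kronRedZero Λ res ι M q hcop t) :=
      ⟨⟨iB tB, hBO tB⟩, htB, htr₁, htr₂⟩
    have hc : IsIntegral (gaussSub (GaussL.piL hΛ) (GaussL.prime_piL hΛ)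
        (t : ↥(laurentBaseChange L (modularFunctionFieldFull (M * q)))))
        (c : ↥(laurentBaseChange L (modularFunctionFieldFull (M * q)))) := by
      rw [ht]
      exact kronO_isIntegral ι M q hcop hΛ hq c.2
    obtain ⟨e, heint, he1, he2⟩ := s35f1i_exists_e ι M q hcop hΛ t htr₁' htr₂' c hc
    rw [ht] at heint
    obtain ⟨eB, heB⟩ := (hB _).mpr heint
    have ee : (⟨iB eB, hBO eB⟩ : ↥(kronO Λ res ι M q hcop)) = e := Subtype.ext heB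
    refine ⟨eB, ?_, ?_⟩
    · rw [s35f1RInf_apply, ee]; exact he1
    · rw [s35f1RZero_apply, ee]; exact he2
  refine ⟨?_, ?_, ?_, ?_⟩
  · exact s35f1i_hne_inf ι M q hcop iB hBO hΛ hiBΛ ψ tB
      (s35f1i_ne_C_of_transcendental htr₁)
  · exact s35f1i_hne_zero ι M q hcop iB hBO hΛ hiBΛ ψ tB
      (s35f1i_ne_C_of_transcendental htr₂)
  · obtain ⟨c, hc1, hc2⟩ := s35f1i_exists_c₁ (Λ := Λ) (res := res) ι M q hcop hq
    obtain ⟨e, he1, he2⟩ := key c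
    exact ⟨e, he1.mpr hc1, fun h => hc2 (he2.mp h)⟩
  · obtain ⟨c, hc1, hc2⟩ := s35f1i_exists_c₂ (Λ := Λ) (res := res) ι M q hcop hq
    obtain ⟨e, he1, he2⟩ := key c
    exact ⟨e, he2.mpr hc1, fun h => hc2 (he1.mp h)⟩

end Inputs

section Main

/-- **INST on the chart `j`, normal form**: the full closed-point datum at every `Λ`-point. -/
theorem kron_inst_fin_nf [CharZero L] (hΛ : IsGaussRing Λ π res) (hq : q.Prime) [CharP k q]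
    (ζ : Lˣ) (hζ : IsPrimitiveRoot ζ q) (hζΛ : (ζ : L) ∈ Λ)
    (φ : L ≃ₐ[ℚ] L) (hφΛ : ∀ a ∈ Λ, φ.symm a ∈ Λ)
    (hφ : ∀ a : ↥Λ, res ⟨φ.symm a, hφΛ a a.2⟩ ^ q = res a)
    {A B : Type*} [CommRing A] [CommRing B] [Algebra ↥Λ A] [Algebra ↥Λ B]
    (iA : A →+* ↥(laurentBaseChange L (modularFunctionFieldFull M)))
    (iB : B →+* ↥(laurentBaseChange L (modularFunctionFieldFull (M * q))))
    (hiA : Function.Injective iA) (hiB : Function.Injective iB)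
    (hiAΛ : ∀ c : ↥Λ, iA (algebraMap ↥Λ A c) = algebraMap L _ (c : L))
    (hiBΛ : ∀ c : ↥Λ, iB (algebraMap ↥Λ B c) = algebraMap L _ (c : L))
    (hA : ∀ z, (∃ a, iA a = z) ↔ IsIntegral (Algebra.adjoin ↥Λ {Fermat.Agent.S24.jL L M}) z)
    (hB : ∀ z, (∃ b, iB b = z) ↔
      IsIntegral (Algebra.adjoin ↥Λ {Fermat.Agent.S24.jL L (M * q)}) z)
    (hU : ∀ 𝔐 : Ideal A, 𝔐.IsMaximal → algebraMap ↥Λ A (GaussL.piL hΛ) ∈ 𝔐 →
      ∃ u, ModelLocGen (Ideal.span {algebraMap ↥Λ A (GaussL.piL hΛ)}) 𝔐 u)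
    (hBO : ∀ b, iB b ∈ kronO Λ res ι M q hcop)
    (ψ : B →ₐ[↥Λ] ↥Λ) :
    (∃ t : B, ModelLocGen (Ideal.span {algebraMap ↥Λ B (GaussL.piL hΛ)})
        (Ideal.comap (ψ : B →+* ↥Λ) (Ideal.span {GaussL.piL hΛ})) t ∧
      s35f1RInf ι M q hcop iB hBO t ≠ 0 ∧ s35f1RZero ι M q hcop iB hBO t ≠ 0) ∨
    ((∀ z : B, s35f1RInf ι M q hcop iB hBO z = 0 → GaussL.piL hΛ ∣ ψ z) ∧
      (∀ z : B, s35f1RZero ι M q hcop iB hBO z = 0 → GaussL.piL hΛ ∣ ψ z) ∧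
      ∃ x y G : B, x * y = algebraMap ↥Λ B (GaussL.piL hΛ) * G ∧
        GaussL.piL hΛ ∣ ψ x ∧ GaussL.piL hΛ ∣ ψ y ∧
        s35f1RInf ι M q hcop iB hBO x = 0 ∧ s35f1RZero ι M q hcop iB hBO x ≠ 0 ∧
        s35f1RZero ι M q hcop iB hBO y = 0 ∧ s35f1RInf ι M q hcop iB hBO y ≠ 0 ∧
        (∀ z : B, GaussL.piL hΛ ∣ ψ z → ∃ a : B, ¬ GaussL.piL hΛ ∣ ψ a ∧
          a * z ∈ Ideal.span {algebraMap ↥Λ B (GaussL.piL hΛ), x, y}) ∧
        (∃ a : B, ¬ GaussL.piL hΛ ∣ ψ a ∧ ∀ z : B, s35f1RInf ι M q hcop iB hBO z = 0 →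
          ∃ r d : B, a * z = algebraMap ↥Λ B (GaussL.piL hΛ) * r + x * d) ∧
        (∃ a : B, ¬ GaussL.piL hΛ ∣ ψ a ∧ ∀ z : B, s35f1RZero ι M q hcop iB hBO z = 0 →
          ∃ r d : B, a * z = algebraMap ↥Λ B (GaussL.piL hΛ) * r + y * d)) := by
  have hnoeth : IsNoetherianRing B :=
    inst_isNoetherianRing_of_chart hΛ (M * q) (Fermat.Agent.S24.jL L (M * q)) (Or.inl rfl)
      iB hiB hB
  have hsat : ∀ (b : B) (δ : ↥(laurentBaseChange L (modularFunctionFieldFull (M * q)))),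
      δ ∈ kronO Λ res ι M q hcop → iB b = algebraMap L _ π * δ → ∃ b' : B, iB b' = δ :=
    fun b δ hδ h => (hB _).mpr (inst_sat_fin ι M q hcop hΛ hq ((hB _).mp ⟨b, rfl⟩) hδ h)
  obtain ⟨hne₁, hne₂, he₁, he₂⟩ := s35f1fin_inputs ι M q hcop iB hBO hΛ hq hiBΛ hB ψ
  exact s35f1_inst_full ι M q hcop iB hBO hΛ hiB hiBΛ hsat ψ hne₁ hne₂ he₁ he₂
    (kron_inst_fin ι M q hcop hΛ hq ζ hζ hζΛ φ hφΛ hφ iA iB hiA hiB hiAΛ hiBΛ hA hB hU ψ)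

/-- **INST on the chart `j`, valuation form** (the hypothesis shapes of F1-PTS / F1-PTC). -/
theorem kron_inst_fin_val [CharZero L] (hΛ : IsGaussRing Λ π res) (hq : q.Prime) [CharP k q]
    (ζ : Lˣ) (hζ : IsPrimitiveRoot ζ q) (hζΛ : (ζ : L) ∈ Λ)
    (φ : L ≃ₐ[ℚ] L) (hφΛ : ∀ a ∈ Λ, φ.symm a ∈ Λ)
    (hφ : ∀ a : ↥Λ, res ⟨φ.symm a, hφΛ a a.2⟩ ^ q = res a)
    {A B : Type*} [CommRing A] [CommRing B] [Algebra ↥Λ A] [Algebra ↥Λ B]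
    (iA : A →+* ↥(laurentBaseChange L (modularFunctionFieldFull M)))
    (iB : B →+* ↥(laurentBaseChange L (modularFunctionFieldFull (M * q))))
    (hiA : Function.Injective iA) (hiB : Function.Injective iB)
    (hiAΛ : ∀ c : ↥Λ, iA (algebraMap ↥Λ A c) = algebraMap L _ (c : L))
    (hiBΛ : ∀ c : ↥Λ, iB (algebraMap ↥Λ B c) = algebraMap L _ (c : L))
    (hA : ∀ z, (∃ a, iA a = z) ↔ IsIntegral (Algebra.adjoin ↥Λ {Fermat.Agent.S24.jL L M}) z)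
    (hB : ∀ z, (∃ b, iB b = z) ↔
      IsIntegral (Algebra.adjoin ↥Λ {Fermat.Agent.S24.jL L (M * q)}) z)
    (hU : ∀ 𝔐 : Ideal A, 𝔐.IsMaximal → algebraMap ↥Λ A (GaussL.piL hΛ) ∈ 𝔐 →
      ∃ u, ModelLocGen (Ideal.span {algebraMap ↥Λ A (GaussL.piL hΛ)}) 𝔐 u)
    (ψ : B →ₐ[↥Λ] ↥Λ) (𝔪 : Ideal B)
    (h𝔪 : 𝔪 = Ideal.comap (ψ : B →+* ↥Λ) (Ideal.span {GaussL.piL hΛ})) :
    (∃ t : B, ModelLocGen (Ideal.span {algebraMap ↥Λ B (GaussL.piL hΛ)}) 𝔪 t ∧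
      iB t ≠ 0 ∧ s35valW₁ hΛ (M * q) (iB t) = 1 ∧ s35valW₂ hΛ ι M q hcop (iB t) = 1 ∧
      IsIntegral (gaussSub (GaussL.piL hΛ) (GaussL.prime_piL hΛ)
        (Fermat.Agent.S24.jL L (M * q))) (iB t)⁻¹) ∨
    ((∀ b : B, s35valW₁ hΛ (M * q) (iB b) < 1 → b ∈ 𝔪) ∧
      (∀ b : B, s35valW₂ hΛ ι M q hcop (iB b) < 1 → b ∈ 𝔪) ∧
      ∃ x y G : B, x * y = algebraMap ↥Λ B (GaussL.piL hΛ) * G ∧ x ∈ 𝔪 ∧ y ∈ 𝔪 ∧
        s35valW₁ hΛ (M * q) (iB x) < 1 ∧ s35valW₂ hΛ ι M q hcop (iB x) = 1 ∧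
        s35valW₂ hΛ ι M q hcop (iB y) < 1 ∧ s35valW₁ hΛ (M * q) (iB y) = 1 ∧
        (∀ z ∈ 𝔪, ∃ a : B, a ∉ 𝔪 ∧
          a * z ∈ Ideal.span {algebraMap ↥Λ B (GaussL.piL hΛ), x, y}) ∧
        (∃ a : B, a ∉ 𝔪 ∧ ∀ z : B, s35valW₁ hΛ (M * q) (iB z) < 1 →
          ∃ r d : B, a * z = algebraMap ↥Λ B (GaussL.piL hΛ) * r + x * d) ∧
        (∃ a : B, a ∉ 𝔪 ∧ ∀ z : B, s35valW₂ hΛ ι M q hcop (iB z) < 1 →
          ∃ r d : B, a * z = algebraMap ↥Λ B (GaussL.piL hΛ) * r + y * d)) := by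
  have hBO : ∀ b, iB b ∈ kronO Λ res ι M q hcop := fun b =>
    inst_mem_kronO_of_isIntegral ι M q hcop hΛ hq ((hB _).mp ⟨b, rfl⟩)
  exact s35f1_inst_val ι M q hcop iB hBO hΛ hq ψ 𝔪 h𝔪
    (kron_inst_fin_nf ι M q hcop hΛ hq ζ hζ hζΛ φ hφΛ hφ iA iB hiA hiB hiAΛ hiBΛ hA hB hU
      hBO ψ)

end Main

end Fermat.Agent.S35
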