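import Mathlib
import Fermat.Agent.S34.InstChartN
import Fermat.Agent.S34.InstInfO
import Fermat.Agent.S34.InstInfS
import Fermat.Agent.S34.SlocDefs

/-!
# P20 (S35), block F1, INST adapters: the two inputs `hBO`, `hsat` for the cusp chart

Level `M q`, `F = laurentBaseChange L (modularFunctionFieldFull (M * q))`, chart ring
`B_∞ =` integral closure of `Λ[j⁻¹]` in `F` (elementwise form):

* `inst_mem_kronO_of_isIntegral_inv` : elements integral over `Λ[j⁻¹]` lie in `kronO`;
* `inst_sat_inv` : the integral closure of `Λ[j⁻¹]` is `π`-saturated in `kronO`.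

(The analogues for the chart `j` are `S34.inst_mem_kronO_of_isIntegral`, `S34.inst_sat_fin`.)
-/

set_option autoImplicit false

namespace Fermat.Agent.S35

open ModularCurve AlgebraicCurve Polynomial
open Fermat.Agent.S18 Fermat.Agent.S28 Fermat.Agent.S28.FreeBasisAbs Fermat.Agent.S34

variable {L k : Type*} [Field L] [Algebra ℚ L] [Field k] {Λ : Subring L} {π : L}
  {res : ↥Λ →+* k} (ι : L →+* ℂ) (M q : ℕ) [NeZero M] [NeZero q] (hcop : Nat.Coprime M q)

/-- `hBO` for the cusp chart: elements integral over `Λ[j⁻¹]` lie in `𝒪`. -/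
theorem inst_mem_kronO_of_isIntegral_inv [CharZero L] (hΛ : IsGaussRing Λ π res) (hq : q.Prime)
    [CharP k q] {b : ↥(laurentBaseChange L (modularFunctionFieldFull (M * q)))}
    (h : IsIntegral (Algebra.adjoin ↥Λ {(Fermat.Agent.S24.jL L (M * q))⁻¹}) b) :
    b ∈ kronO Λ res ι M q hcop :=
  instinf_mem_kronO ι M q hcop hΛ hq (mem_s34Sloc_of_isIntegral h)

set_option synthInstance.maxHeartbeats 400000 in
/-- `hsat` for the cusp chart: the integral closure of `Λ[j⁻¹]` is `π`-saturated in `𝒪`. -/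
theorem inst_sat_inv [CharZero L] (hΛ : IsGaussRing Λ π res) (hq : q.Prime) [CharP k q]
    {b δ : ↥(laurentBaseChange L (modularFunctionFieldFull (M * q)))}
    (hb : IsIntegral (Algebra.adjoin ↥Λ {(Fermat.Agent.S24.jL L (M * q))⁻¹}) b)
    (hδ : δ ∈ kronO Λ res ι M q hcop) (h : b = algebraMap L _ π * δ) :
    IsIntegral (Algebra.adjoin ↥Λ {(Fermat.Agent.S24.jL L (M * q))⁻¹}) δ := by
  have hdvr : IsDiscreteValuationRing ↥Λ := s34icn_isDiscreteValuationRing hΛ
  have ht : Transcendental ↥Λ (Fermat.Agent.S24.jL L (M * q)) :=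
    instinfO_transcendental_jL (M * q) Λ
  have hδ' := kronO_isIntegral ι M q hcop hΛ hq hδ
  refine GaussLineK.lemmaK_inv (GaussL.piL hΛ) (GaussL.prime_piL hΛ) ht hb hδ' ?_
  rw [h, Algebra.smul_def]
  rfl

end Fermat.Agent.S35
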