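import Mathlib
import Fermat.Agent.S34.InstInf
import Fermat.Agent.S35.F1InstCore
import Fermat.Agent.S35.F1InstElts
import Fermat.Agent.S35.F1InstVertA
import Fermat.Agent.S35.F1InstVal
import Fermat.Agent.S35.FtK6

/-!
# P20 (S35), block F1, INST adapters: the full closed-point datum on the cusp chart

KRON setting, level `M q`, cusp chart ring `B` (elements of `F_{Mq}` integral over `Λ[j⁻¹]`, in
abstract presentation), `ψ` a `Λ`-point of `B` centred on the cusp divisor.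

* `s35f1ii_elts` : the elements `u = j⁻¹`, `ρ = β(j) u^q` of `𝒪` with their four reductions;
* `s35f1ii_four` : `u`, `e₁ = ρ - 1 ∈ 𝔭_∞ ∖ 𝔭_0`, `e₂ = ρ^q - u^(q²-1) ∈ 𝔭_0 ∖ 𝔭_∞`, all integral
  over `Λ[j⁻¹]`, `u` outside both vertical primes;
* `kron_inst_inf_nf` : `S34.kron_inst_inf` upgraded by `s35f1_inst_full` to the full datum with
  respect to the two vertical primes `ker R∞`, `ker R0`;
* `kron_inst_inf_val` : the same in valuation form (`s35f1_inst_val`).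
-/

set_option autoImplicit false
set_option synthInstance.maxHeartbeats 400000

namespace Fermat.Agent.S35

open ModularCurve AlgebraicCurve Polynomial
open Fermat.Agent.S18 Fermat.Agent.S28 Fermat.Agent.S28.FreeBasisAbs Fermat.Agent.S34

variable {L k : Type*} [Field L] [Algebra ℚ L] [Field k] {Λ : Subring L} {π : L}
  {res : ↥Λ →+* k} (ι : L →+* ℂ) (M q : ℕ) [NeZero M] [NeZero q] (hcop : Nat.Coprime M q)

/-- The elements `u = j⁻¹` and `ρ = β(j) u^q` of `𝒪` and their reductions. -/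
theorem s35f1ii_elts (hq : q.Prime) [CharP k q]
    (ζ : Lˣ) (hζ : IsPrimitiveRoot ζ q) (hζΛ : (ζ : L) ∈ Λ) :
    ∃ ρ u : ↥(kronO Λ res ι M q hcop),
      ((u : ↥(kronO Λ res ι M q hcop)) :
          ↥(laurentBaseChange L (modularFunctionFieldFull (M * q)))) =
        (Fermat.Agent.S24.jL L (M * q))⁻¹ ∧
      IsIntegral (Algebra.adjoin ↥Λ {(Fermat.Agent.S24.jL L (M * q))⁻¹})
        ((ρ : ↥(kronO Λ res ι M q hcop)) :
          ↥(laurentBaseChange L (modularFunctionFieldFull (M * q)))) ∧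
      kronRedInf Λ res ι M q hcop u = (jqModC k)⁻¹ ∧
      kronRedZero Λ res ι M q hcop u = (jqModC k ^ q)⁻¹ ∧
      kronRedInf Λ res ι M q hcop ρ = 1 ∧
      kronRedZero Λ res ι M q hcop ρ = jqModC k * ((jqModC k ^ q)⁻¹) ^ q := by
  have hc : Fermat.Agent.S24.jL L M ∈
      GaussL.gaussV Λ res (laurentBaseChange L (modularFunctionFieldFull M)) :=
    s35k6_jL_mem_gaussV M
  have hred : GaussL.gaussRed Λ res (laurentBaseChange L (modularFunctionFieldFull M))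
      ⟨Fermat.Agent.S24.jL L M, hc⟩ = jqModC k := s35k6_gaussRed_jL M
  have hJ0 : jqModC k ≠ 0 := s35k6_jqModC_ne_zero k
  have hfrob : qExpand k q (jqModC k) = jqModC k ^ q := s35f1i_frob_jqModC q hq
  obtain ⟨h1, h2, h3, h4⟩ := s35f1i_red_j (Λ := Λ) (res := res) ι M q hcop hq
  have hαj : heckeAlphaBar L M q (Fermat.Agent.S24.jL L M) = Fermat.Agent.S24.jL L (M * q) :=
    Subtype.ext (by rw [coe_heckeAlphaBar]; rfl)
  have hu : (Fermat.Agent.S24.jL L (M * q))⁻¹ ∈ kronO Λ res ι M q hcop := by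
    rw [← hαj, mem_kronO_iff, map_inv₀, kronW_alpha]
    refine ⟨GaussL.inv_mem_gaussV _ (kron_alpha_mem_gaussV M q hc) ?_,
      GaussL.inv_mem_gaussV _ (kron_beta_mem_gaussV M q hc) ?_⟩
    · rw [kron_gaussRed_alpha M q hc, hred]
      exact hJ0
    · rw [kron_gaussRed_beta M q hc, hred, hfrob]
      exact pow_ne_zero _ hJ0
  have hmul : (⟨_, hu⟩ : ↥(kronO Λ res ι M q hcop)) *
      ⟨_, kron_alpha_mem_kronO ι M q hcop hc⟩ = 1 :=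
    Subtype.ext (by
      show (Fermat.Agent.S24.jL L (M * q))⁻¹ * heckeAlphaBar L M q (Fermat.Agent.S24.jL L M) = 1
      rw [hαj]
      exact inv_mul_cancel₀ (s35k6_jL_ne_zero (M * q)))
  have h5 : kronRedInf Λ res ι M q hcop ⟨_, hu⟩ = (jqModC k)⁻¹ :=
    eq_inv_of_mul_eq_one_left (by rw [← h1, ← map_mul, hmul, map_one])
  have h6 : kronRedZero Λ res ι M q hcop ⟨_, hu⟩ = (jqModC k ^ q)⁻¹ :=
    eq_inv_of_mul_eq_one_left (by rw [← h2, ← map_mul, hmul, map_one])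
  refine ⟨⟨_, kron_beta_mem_kronO ι M q hcop hc⟩ * ⟨_, hu⟩ ^ q, ⟨_, hu⟩, rfl, ?_, h5, h6, ?_, ?_⟩
  · exact s35k6_isIntegral_rho M q hq ζ hζ hζΛ
  · rw [map_mul, map_pow, h3, h5, ← mul_pow, mul_inv_cancel₀ hJ0, one_pow]
  · rw [map_mul, map_pow, h4, h6]

/-- The four elements of the cusp chart: `u = j⁻¹` outside both vertical primes,
`e₁ ∈ 𝔭_∞ ∖ 𝔭_0`, `e₂ ∈ 𝔭_0 ∖ 𝔭_∞`, integral over `Λ[j⁻¹]`. -/
theorem s35f1ii_four (hq : q.Prime) [CharP k q]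
    (ζ : Lˣ) (hζ : IsPrimitiveRoot ζ q) (hζΛ : (ζ : L) ∈ Λ) :
    ∃ u e₁ e₂ : ↥(kronO Λ res ι M q hcop),
      ((u : ↥(kronO Λ res ι M q hcop)) :
          ↥(laurentBaseChange L (modularFunctionFieldFull (M * q)))) =
        (Fermat.Agent.S24.jL L (M * q))⁻¹ ∧
      IsIntegral (Algebra.adjoin ↥Λ {(Fermat.Agent.S24.jL L (M * q))⁻¹})
        ((e₁ : ↥(kronO Λ res ι M q hcop)) :
          ↥(laurentBaseChange L (modularFunctionFieldFull (M * q)))) ∧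
      IsIntegral (Algebra.adjoin ↥Λ {(Fermat.Agent.S24.jL L (M * q))⁻¹})
        ((e₂ : ↥(kronO Λ res ι M q hcop)) :
          ↥(laurentBaseChange L (modularFunctionFieldFull (M * q)))) ∧
      kronRedInf Λ res ι M q hcop u ≠ 0 ∧ kronRedZero Λ res ι M q hcop u ≠ 0 ∧
      kronRedInf Λ res ι M q hcop e₁ = 0 ∧ kronRedZero Λ res ι M q hcop e₁ ≠ 0 ∧
      kronRedZero Λ res ι M q hcop e₂ = 0 ∧ kronRedInf Λ res ι M q hcop e₂ ≠ 0 := by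
  obtain ⟨ρ, u, hu, hρ, hu1, hu2, hρ1, hρ2⟩ :=
    s35f1ii_elts (Λ := Λ) (res := res) ι M q hcop hq ζ hζ hζΛ
  have hJ0 : jqModC k ≠ 0 := s35k6_jqModC_ne_zero k
  have hY : jqModC k ^ q ≠ 0 := pow_ne_zero _ hJ0
  have hne : jqModC k ^ (q * q) ≠ jqModC k := s35f1i_pow_ne q hq
  have hqq : q * q - 1 + 1 = q * q := Nat.sub_add_cancel (Nat.mul_pos hq.pos hq.pos)
  have huint : IsIntegral (Algebra.adjoin ↥Λ {(Fermat.Agent.S24.jL L (M * q))⁻¹})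
      ((u : ↥(kronO Λ res ι M q hcop)) :
        ↥(laurentBaseChange L (modularFunctionFieldFull (M * q)))) := by
    rw [hu]
    exact isIntegral_algebraMap
      (x := (⟨_, Algebra.subset_adjoin (Set.mem_singleton _)⟩ :
        ↥(Algebra.adjoin ↥Λ {(Fermat.Agent.S24.jL L (M * q))⁻¹})))
  refine ⟨u, ρ - 1, ρ ^ q - u ^ (q * q - 1), hu, ?_, ?_, ?_, ?_, ?_, ?_, ?_, ?_⟩
  · exact IsIntegral.sub hρ isIntegral_one
  · exact IsIntegral.sub (IsIntegral.pow hρ q) (IsIntegral.pow huint _)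
  · rw [hu1]
    exact inv_ne_zero hJ0
  · rw [hu2]
    exact inv_ne_zero hY
  · rw [map_sub, hρ1, map_one, sub_self]
  · rw [map_sub, hρ2, map_one, sub_ne_zero, inv_pow, ← pow_mul]
    intro h
    exact hne ((mul_inv_eq_one₀ (pow_ne_zero _ hJ0)).mp h).symm
  · rw [map_sub, map_pow, map_pow, hρ2, hu2, sub_eq_zero]
    calc (jqModC k * ((jqModC k ^ q)⁻¹) ^ q) ^ q
        = jqModC k ^ q * ((jqModC k ^ q)⁻¹) ^ (q * q - 1 + 1) := by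
          rw [mul_pow, ← pow_mul, hqq]
      _ = ((jqModC k ^ q)⁻¹) ^ (q * q - 1) := by
          rw [pow_succ, mul_comm, mul_assoc, inv_mul_cancel₀ hY, mul_one]
  · rw [map_sub, map_pow, map_pow, hρ1, hu1, one_pow, sub_ne_zero, inv_pow]
    intro h
    have h1 : jqModC k ^ (q * q - 1) = 1 := by
      have h2 := congrArg (fun z => z * jqModC k ^ (q * q - 1)) h
      simp only [one_mul] at h2
      rw [inv_mul_cancel₀ (pow_ne_zero _ hJ0)] at h2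
      exact h2
    apply hne
    rw [← hqq, pow_succ, h1, one_mul]

set_option maxHeartbeats 1000000 in
/-- **INST-INF, full datum**: the closed-point theorem on the cusp chart of level `M q` with
respect to the two vertical primes `ker R∞`, `ker R0` (`S34.kron_inst_inf` upgraded by
`s35f1_inst_full`). -/
theorem kron_inst_inf_nf [CharZero L] (hΛ : IsGaussRing Λ π res)
    (hq : q.Prime) [CharP k q]
    (ζ : Lˣ) (hζ : IsPrimitiveRoot ζ q) (hζΛ : (ζ : L) ∈ Λ)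
    (φ : L ≃ₐ[ℚ] L) (hφΛ : ∀ a ∈ Λ, φ.symm a ∈ Λ)
    (hφ : ∀ a : ↥Λ, res ⟨φ.symm a, hφΛ a a.2⟩ ^ q = res a)
    {A B : Type*} [CommRing A] [CommRing B] [Algebra ↥Λ A] [Algebra ↥Λ B]
    (iA : A →+* ↥(laurentBaseChange L (modularFunctionFieldFull M)))
    (iB : B →+* ↥(laurentBaseChange L (modularFunctionFieldFull (M * q))))
    (hiA : Function.Injective iA) (hiB : Function.Injective iB)
    (hiAΛ : ∀ c : ↥Λ, iA (algebraMap ↥Λ A c) = algebraMap L _ (c : L))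
    (hiBΛ : ∀ c : ↥Λ, iB (algebraMap ↥Λ B c) = algebraMap L _ (c : L))
    (hA : ∀ z, (∃ a, iA a = z) ↔
      IsIntegral (Algebra.adjoin ↥Λ {(Fermat.Agent.S24.jL L M)⁻¹}) z)
    (hB : ∀ z, (∃ b, iB b = z) ↔
      IsIntegral (Algebra.adjoin ↥Λ {(Fermat.Agent.S24.jL L (M * q))⁻¹}) z)
    (hU : ∀ 𝔐 : Ideal A, 𝔐.IsMaximal → algebraMap ↥Λ A (GaussL.piL hΛ) ∈ 𝔐 →
      ∃ u, ModelLocGen (Ideal.span {algebraMap ↥Λ A (GaussL.piL hΛ)}) 𝔐 u)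
    (hBO : ∀ b, iB b ∈ kronO Λ res ι M q hcop)
    (ψ : B →ₐ[↥Λ] ↥Λ)
    (hcusp : ∀ b₀ : B, iB b₀ = (Fermat.Agent.S24.jL L (M * q))⁻¹ → GaussL.piL hΛ ∣ ψ b₀) :
    (∃ t : B, ModelLocGen (Ideal.span {algebraMap ↥Λ B (GaussL.piL hΛ)})
        (Ideal.comap (ψ : B →+* ↥Λ) (Ideal.span {GaussL.piL hΛ})) t ∧
      s35f1RInf ι M q hcop iB hBO t ≠ 0 ∧ s35f1RZero ι M q hcop iB hBO t ≠ 0) ∨
    ((∀ z : B, s35f1RInf ι M q hcop iB hBO z = 0 → GaussL.piL hΛ ∣ ψ z) ∧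
      (∀ z : B, s35f1RZero ι M q hcop iB hBO z = 0 → GaussL.piL hΛ ∣ ψ z) ∧
      ∃ x y G : B, x * y = algebraMap ↥Λ B (GaussL.piL hΛ) * G ∧
        GaussL.piL hΛ ∣ ψ x ∧ GaussL.piL hΛ ∣ ψ y ∧
        s35f1RInf ι M q hcop iB hBO x = 0 ∧ s35f1RZero ι M q hcop iB hBO x ≠ 0 ∧
        s35f1RZero ι M q hcop iB hBO y = 0 ∧ s35f1RInf ι M q hcop iB hBO y ≠ 0 ∧
        (∀ z : B, GaussL.piL hΛ ∣ ψ z → ∃ a : B, ¬ GaussL.piL hΛ ∣ ψ a ∧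
          a * z ∈ Ideal.span {algebraMap ↥Λ B (GaussL.piL hΛ), x, y}) ∧
        (∃ a : B, ¬ GaussL.piL hΛ ∣ ψ a ∧ ∀ z : B, s35f1RInf ι M q hcop iB hBO z = 0 →
          ∃ r d : B, a * z = algebraMap ↥Λ B (GaussL.piL hΛ) * r + x * d) ∧
        (∃ a : B, ¬ GaussL.piL hΛ ∣ ψ a ∧ ∀ z : B, s35f1RZero ι M q hcop iB hBO z = 0 →
          ∃ r d : B, a * z = algebraMap ↥Λ B (GaussL.piL hΛ) * r + y * d)) := by
  have hnoeth : IsNoetherianRing B :=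
    inst_isNoetherianRing_of_chart hΛ (M * q) _ (Or.inr rfl) iB hiB hB
  have hsat : ∀ (b : B) (δ : ↥(laurentBaseChange L (modularFunctionFieldFull (M * q)))),
      δ ∈ kronO Λ res ι M q hcop → iB b = algebraMap L _ π * δ → ∃ b' : B, iB b' = δ :=
    fun b δ hδ h =>
      (hB δ).mpr (inst_sat_inv ι M q hcop hΛ hq ((hB _).mp ⟨b, rfl⟩) hδ h)
  obtain ⟨u, e₁, e₂, hu, he₁, he₂, hu1, hu2, h11, h12, h22, h21⟩ :=
    s35f1ii_four (Λ := Λ) (res := res) ι M q hcop hq ζ hζ hζΛ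
  -- lifts to `B`
  obtain ⟨b₀, hb₀⟩ : ∃ b₀ : B, iB b₀ = (Fermat.Agent.S24.jL L (M * q))⁻¹ :=
    (hB _).mpr (isIntegral_algebraMap
      (x := (⟨_, Algebra.subset_adjoin (Set.mem_singleton _)⟩ :
        ↥(Algebra.adjoin ↥Λ {(Fermat.Agent.S24.jL L (M * q))⁻¹}))))
  obtain ⟨b₁, hb₁⟩ := (hB _).mpr he₁
  obtain ⟨b₂, hb₂⟩ := (hB _).mpr he₂
  have key : ∀ (b : B) (z : ↥(kronO Λ res ι M q hcop)),
      iB b = (z : ↥(laurentBaseChange L (modularFunctionFieldFull (M * q)))) →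
      s35f1RInf ι M q hcop iB hBO b = kronRedInf Λ res ι M q hcop z ∧
      s35f1RZero ι M q hcop iB hBO b = kronRedZero Λ res ι M q hcop z := by
    intro b z hbz
    have hz : (⟨iB b, hBO b⟩ : ↥(kronO Λ res ι M q hcop)) = z := Subtype.ext hbz
    rw [s35f1RInf_apply, s35f1RZero_apply, hz]
    exact ⟨rfl, rfl⟩
  have k0 := key b₀ u (hb₀.trans hu.symm)
  have k1 := key b₁ e₁ hb₁
  have k2 := key b₂ e₂ hb₂
  refine s35f1_inst_full ι M q hcop iB hBO hΛ hiB hiBΛ hsat ψ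
    ⟨b₀, hcusp b₀ hb₀, by rw [k0.1]; exact hu1⟩
    ⟨b₀, hcusp b₀ hb₀, by rw [k0.2]; exact hu2⟩
    ⟨b₁, by rw [k1.1]; exact h11, by rw [k1.2]; exact h12⟩
    ⟨b₂, by rw [k2.2]; exact h22, by rw [k2.1]; exact h21⟩
    (kron_inst_inf ι M q hcop hΛ hq ζ hζ hζΛ φ hφΛ hφ iA iB hiA hiB hiAΛ hiBΛ hA hB hU ψ hcusp)

set_option maxHeartbeats 1000000 in
/-- **INST-INF, full datum in valuation form** (`kron_inst_inf_nf` through `s35f1_inst_val`):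
the hypothesis shapes of F1-PTS / F1-PTC / F1-XT at a `Λ`-point of the cusp chart centred on the
cusp divisor. -/
theorem kron_inst_inf_val [CharZero L] (hΛ : IsGaussRing Λ π res)
    (hq : q.Prime) [CharP k q]
    (ζ : Lˣ) (hζ : IsPrimitiveRoot ζ q) (hζΛ : (ζ : L) ∈ Λ)
    (φ : L ≃ₐ[ℚ] L) (hφΛ : ∀ a ∈ Λ, φ.symm a ∈ Λ)
    (hφ : ∀ a : ↥Λ, res ⟨φ.symm a, hφΛ a a.2⟩ ^ q = res a)
    {A B : Type*} [CommRing A] [CommRing B] [Algebra ↥Λ A] [Algebra ↥Λ B]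
    (iA : A →+* ↥(laurentBaseChange L (modularFunctionFieldFull M)))
    (iB : B →+* ↥(laurentBaseChange L (modularFunctionFieldFull (M * q))))
    (hiA : Function.Injective iA) (hiB : Function.Injective iB)
    (hiAΛ : ∀ c : ↥Λ, iA (algebraMap ↥Λ A c) = algebraMap L _ (c : L))
    (hiBΛ : ∀ c : ↥Λ, iB (algebraMap ↥Λ B c) = algebraMap L _ (c : L))
    (hA : ∀ z, (∃ a, iA a = z) ↔
      IsIntegral (Algebra.adjoin ↥Λ {(Fermat.Agent.S24.jL L M)⁻¹}) z)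
    (hB : ∀ z, (∃ b, iB b = z) ↔
      IsIntegral (Algebra.adjoin ↥Λ {(Fermat.Agent.S24.jL L (M * q))⁻¹}) z)
    (hU : ∀ 𝔐 : Ideal A, 𝔐.IsMaximal → algebraMap ↥Λ A (GaussL.piL hΛ) ∈ 𝔐 →
      ∃ u, ModelLocGen (Ideal.span {algebraMap ↥Λ A (GaussL.piL hΛ)}) 𝔐 u)
    (hBO : ∀ b, iB b ∈ kronO Λ res ι M q hcop)
    (ψ : B →ₐ[↥Λ] ↥Λ)
    (hcusp : ∀ b₀ : B, iB b₀ = (Fermat.Agent.S24.jL L (M * q))⁻¹ → GaussL.piL hΛ ∣ ψ b₀)
    (𝔪 : Ideal B)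
    (h𝔪 : 𝔪 = Ideal.comap (ψ : B →+* ↥Λ) (Ideal.span {GaussL.piL hΛ})) :
    (∃ t : B, ModelLocGen (Ideal.span {algebraMap ↥Λ B (GaussL.piL hΛ)}) 𝔪 t ∧
      iB t ≠ 0 ∧ s35valW₁ hΛ (M * q) (iB t) = 1 ∧ s35valW₂ hΛ ι M q hcop (iB t) = 1 ∧
      IsIntegral (gaussSub (GaussL.piL hΛ) (GaussL.prime_piL hΛ)
        (Fermat.Agent.S24.jL L (M * q))) (iB t)⁻¹) ∨
    ((∀ b : B, s35valW₁ hΛ (M * q) (iB b) < 1 → b ∈ 𝔪) ∧
      (∀ b : B, s35valW₂ hΛ ι M q hcop (iB b) < 1 → b ∈ 𝔪) ∧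
      ∃ x y G : B, x * y = algebraMap ↥Λ B (GaussL.piL hΛ) * G ∧ x ∈ 𝔪 ∧ y ∈ 𝔪 ∧
        s35valW₁ hΛ (M * q) (iB x) < 1 ∧ s35valW₂ hΛ ι M q hcop (iB x) = 1 ∧
        s35valW₂ hΛ ι M q hcop (iB y) < 1 ∧ s35valW₁ hΛ (M * q) (iB y) = 1 ∧
        (∀ z ∈ 𝔪, ∃ a : B, a ∉ 𝔪 ∧
          a * z ∈ Ideal.span {algebraMap ↥Λ B (GaussL.piL hΛ), x, y}) ∧
        (∃ a : B, a ∉ 𝔪 ∧ ∀ z : B, s35valW₁ hΛ (M * q) (iB z) < 1 →
          ∃ r d : B, a * z = algebraMap ↥Λ B (GaussL.piL hΛ) * r + x * d) ∧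
        (∃ a : B, a ∉ 𝔪 ∧ ∀ z : B, s35valW₂ hΛ ι M q hcop (iB z) < 1 →
          ∃ r d : B, a * z = algebraMap ↥Λ B (GaussL.piL hΛ) * r + y * d)) :=
  s35f1_inst_val ι M q hcop iB hBO hΛ hq ψ 𝔪 h𝔪
    (kron_inst_inf_nf ι M q hcop hΛ hq ζ hζ hζΛ φ hφΛ hφ iA iB hiA hiB hiAΛ hiBΛ hA hB hU hBO ψ
      hcusp)

set_option maxHeartbeats 1000000 in
/-- `kron_inst_inf_val` with `hBO` derived from the presentation `hB` (the binders of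
`S34.kron_inst_inf` followed by `𝔪`, `h𝔪`; mirror of `kron_inst_fin_val`). -/
theorem kron_inst_inf_val' [CharZero L] (hΛ : IsGaussRing Λ π res)
    (hq : q.Prime) [CharP k q]
    (ζ : Lˣ) (hζ : IsPrimitiveRoot ζ q) (hζΛ : (ζ : L) ∈ Λ)
    (φ : L ≃ₐ[ℚ] L) (hφΛ : ∀ a ∈ Λ, φ.symm a ∈ Λ)
    (hφ : ∀ a : ↥Λ, res ⟨φ.symm a, hφΛ a a.2⟩ ^ q = res a)
    {A B : Type*} [CommRing A] [CommRing B] [Algebra ↥Λ A] [Algebra ↥Λ B]
    (iA : A →+* ↥(laurentBaseChange L (modularFunctionFieldFull M)))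
    (iB : B →+* ↥(laurentBaseChange L (modularFunctionFieldFull (M * q))))
    (hiA : Function.Injective iA) (hiB : Function.Injective iB)
    (hiAΛ : ∀ c : ↥Λ, iA (algebraMap ↥Λ A c) = algebraMap L _ (c : L))
    (hiBΛ : ∀ c : ↥Λ, iB (algebraMap ↥Λ B c) = algebraMap L _ (c : L))
    (hA : ∀ z, (∃ a, iA a = z) ↔
      IsIntegral (Algebra.adjoin ↥Λ {(Fermat.Agent.S24.jL L M)⁻¹}) z)
    (hB : ∀ z, (∃ b, iB b = z) ↔
      IsIntegral (Algebra.adjoin ↥Λ {(Fermat.Agent.S24.jL L (M * q))⁻¹}) z)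
    (hU : ∀ 𝔐 : Ideal A, 𝔐.IsMaximal → algebraMap ↥Λ A (GaussL.piL hΛ) ∈ 𝔐 →
      ∃ u, ModelLocGen (Ideal.span {algebraMap ↥Λ A (GaussL.piL hΛ)}) 𝔐 u)
    (ψ : B →ₐ[↥Λ] ↥Λ)
    (hcusp : ∀ b₀ : B, iB b₀ = (Fermat.Agent.S24.jL L (M * q))⁻¹ → GaussL.piL hΛ ∣ ψ b₀)
    (𝔪 : Ideal B)
    (h𝔪 : 𝔪 = Ideal.comap (ψ : B →+* ↥Λ) (Ideal.span {GaussL.piL hΛ})) :
    (∃ t : B, ModelLocGen (Ideal.span {algebraMap ↥Λ B (GaussL.piL hΛ)}) 𝔪 t ∧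
      iB t ≠ 0 ∧ s35valW₁ hΛ (M * q) (iB t) = 1 ∧ s35valW₂ hΛ ι M q hcop (iB t) = 1 ∧
      IsIntegral (gaussSub (GaussL.piL hΛ) (GaussL.prime_piL hΛ)
        (Fermat.Agent.S24.jL L (M * q))) (iB t)⁻¹) ∨
    ((∀ b : B, s35valW₁ hΛ (M * q) (iB b) < 1 → b ∈ 𝔪) ∧
      (∀ b : B, s35valW₂ hΛ ι M q hcop (iB b) < 1 → b ∈ 𝔪) ∧
      ∃ x y G : B, x * y = algebraMap ↥Λ B (GaussL.piL hΛ) * G ∧ x ∈ 𝔪 ∧ y ∈ 𝔪 ∧
        s35valW₁ hΛ (M * q) (iB x) < 1 ∧ s35valW₂ hΛ ι M q hcop (iB x) = 1 ∧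
        s35valW₂ hΛ ι M q hcop (iB y) < 1 ∧ s35valW₁ hΛ (M * q) (iB y) = 1 ∧
        (∀ z ∈ 𝔪, ∃ a : B, a ∉ 𝔪 ∧
          a * z ∈ Ideal.span {algebraMap ↥Λ B (GaussL.piL hΛ), x, y}) ∧
        (∃ a : B, a ∉ 𝔪 ∧ ∀ z : B, s35valW₁ hΛ (M * q) (iB z) < 1 →
          ∃ r d : B, a * z = algebraMap ↥Λ B (GaussL.piL hΛ) * r + x * d) ∧
        (∃ a : B, a ∉ 𝔪 ∧ ∀ z : B, s35valW₂ hΛ ι M q hcop (iB z) < 1 →
          ∃ r d : B, a * z = algebraMap ↥Λ B (GaussL.piL hΛ) * r + y * d)) :=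
  kron_inst_inf_val ι M q hcop hΛ hq ζ hζ hζΛ φ hφΛ hφ iA iB hiA hiB hiAΛ hiBΛ hA hB hU
    (fun b => inst_mem_kronO_of_isIntegral_inv ι M q hcop hΛ hq ((hB _).mp ⟨b, rfl⟩)) ψ hcusp
    𝔪 h𝔪

end Fermat.Agent.S35
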