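import Mathlib
import Fermat.Agent.S34.GeoPT
import Fermat.Agent.S35.F1InstFin
import Fermat.Agent.S35.F1InstInf
import Fermat.Agent.S35.F1ChartPt3

/-!
# P20 (S35), F1: the providers `hinst_fin`, `hinst_inf` of `s35f1_kummer_laurent3`

Generic (KRON) convention of `S34/GeoPT.lean`: `L` a field of characteristic `0`, `Λ : Subring L`
a Gauss ring, `F = F_{Mq}(L) = laurentBaseChange L (modularFunctionFieldFull (M * q))`,
`j = jL L (M * q)`, `π = GaussL.piL hΛ`, `w₁ = s35valW₁ hΛ (M * q)`,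
`w₂ = s35valW₂ hΛ ι M q hcop`.

For a `Λ`-point `ψ` of the chart ring `integralClosure Λ[t] F` (`t = j`, or `t = j⁻¹` with
`π ∣ ψ(j⁻¹)`), its closed point `ψ⁻¹(π)` is a one-component point (`S35F1One`) or a crossing
point with the weak datum (`S35F1CrossW`).  Inputs: `kron_inst_fin_val` / `kron_inst_inf_val`
at `A, B :=` the chart rings of levels `M`, `M q`, and (M*) at level `M` (`S34MstarAt`).
-/

set_option autoImplicit false

namespace Fermat.Agent.S35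

open ModularCurve AlgebraicCurve Polynomial IsDedekindDomain
open Fermat.Agent.S18 Fermat.Agent.S28 Fermat.Agent.S28.FreeBasisAbs Fermat.Agent.S34

variable {L k : Type*} [Field L] [Algebra ℚ L] [Field k] {Λ : Subring L} {π : L}
  {res : ↥Λ →+* k}

set_option maxHeartbeats 1000000 in
set_option synthInstance.maxHeartbeats 400000 in
/-- **`hinst_fin`** (chart `j`): the closed point of a `Λ`-point is a one-component point or a
crossing point. -/
theorem s35f1_hinst_fin [CharZero L]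
    (ι : L →+* ℂ) (M q : ℕ) [NeZero M] [NeZero q] (hcop : Nat.Coprime M q)
    (hΛ : IsGaussRing Λ π res) (hq : q.Prime) [CharP k q]
    (ζ : Lˣ) (hζ : IsPrimitiveRoot ζ q) (hζΛ : (ζ : L) ∈ Λ)
    (φ : L ≃ₐ[ℚ] L) (hφΛ : ∀ a ∈ Λ, φ.symm a ∈ Λ)
    (hφ : ∀ a : ↥Λ, res ⟨φ.symm a, hφΛ a a.2⟩ ^ q = res a)
    (hM : S34MstarAt Λ M (GaussL.piL hΛ))
    (ψ : ↥(integralClosure (Algebra.adjoin ↥Λ {Fermat.Agent.S24.jL L (M * q)})
      ↥(laurentBaseChange L (modularFunctionFieldFull (M * q)))) →ₐ[↥Λ] ↥Λ) :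
    S35F1One (B := ↥(integralClosure (Algebra.adjoin ↥Λ {Fermat.Agent.S24.jL L (M * q)})
        ↥(laurentBaseChange L (modularFunctionFieldFull (M * q)))))
      (GaussL.piL hΛ) (s35valW₁ hΛ (M * q)) (s35valW₂ hΛ ι M q hcop)
      (Ideal.comap (ψ : ↥(integralClosure (Algebra.adjoin ↥Λ {Fermat.Agent.S24.jL L (M * q)})
        ↥(laurentBaseChange L (modularFunctionFieldFull (M * q)))) →+* ↥Λ)
        (Ideal.span {GaussL.piL hΛ}) :
        Ideal ↥(integralClosure (Algebra.adjoin ↥Λ {Fermat.Agent.S24.jL L (M * q)})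
          ↥(laurentBaseChange L (modularFunctionFieldFull (M * q))))) ∨
    S35F1CrossW (B := ↥(integralClosure (Algebra.adjoin ↥Λ {Fermat.Agent.S24.jL L (M * q)})
        ↥(laurentBaseChange L (modularFunctionFieldFull (M * q)))))
      (GaussL.piL hΛ) (s35valW₁ hΛ (M * q)) (s35valW₂ hΛ ι M q hcop)
      (Ideal.comap (ψ : ↥(integralClosure (Algebra.adjoin ↥Λ {Fermat.Agent.S24.jL L (M * q)})
        ↥(laurentBaseChange L (modularFunctionFieldFull (M * q)))) →+* ↥Λ)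
        (Ideal.span {GaussL.piL hΛ}) :
        Ideal ↥(integralClosure (Algebra.adjoin ↥Λ {Fermat.Agent.S24.jL L (M * q)})
          ↥(laurentBaseChange L (modularFunctionFieldFull (M * q))))) := by
  have h := kron_inst_fin_val ι M q hcop hΛ hq ζ hζ hζΛ φ hφΛ hφ
    (A := ↥(integralClosure (Algebra.adjoin ↥Λ {Fermat.Agent.S24.jL L M})
      ↥(laurentBaseChange L (modularFunctionFieldFull M))))
    (B := ↥(integralClosure (Algebra.adjoin ↥Λ {Fermat.Agent.S24.jL L (M * q)})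
      ↥(laurentBaseChange L (modularFunctionFieldFull (M * q)))))
    (algebraMap _ _) (algebraMap _ _) Subtype.val_injective Subtype.val_injective
    (fun c => rfl) (fun c => rfl)
    (fun z => ⟨fun ⟨a, ha⟩ => ha ▸ a.2, fun hz => ⟨⟨z, hz⟩, rfl⟩⟩)
    (fun z => ⟨fun ⟨a, ha⟩ => ha ▸ a.2, fun hz => ⟨⟨z, hz⟩, rfl⟩⟩)
    (fun 𝔐 h𝔐 hπ => hM.1 𝔐 h𝔐 hπ) ψ _ rfl
  rcases h with ⟨t, ht, -, h1, h2, -⟩ |
    ⟨h𝔪₁, h𝔪₂, x, y, G, hxy, hx𝔪, hy𝔪, -, hx2, -, hy1, hgen, -, -⟩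
  · exact Or.inl ⟨t, ht, h1, h2⟩
  · exact Or.inr ⟨x, y, G, hxy, hx𝔪, hy𝔪, hx2, hy1, hgen, h𝔪₁, h𝔪₂⟩

set_option maxHeartbeats 1000000 in
set_option synthInstance.maxHeartbeats 400000 in
/-- **`hinst_inf`** (chart `j⁻¹`, `Λ`-points through `j⁻¹ = 0`): the closed point of a `Λ`-point
is a one-component point or a crossing point. -/
theorem s35f1_hinst_inf [CharZero L]
    (ι : L →+* ℂ) (M q : ℕ) [NeZero M] [NeZero q] (hcop : Nat.Coprime M q)
    (hΛ : IsGaussRing Λ π res) (hq : q.Prime) [CharP k q]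
    (ζ : Lˣ) (hζ : IsPrimitiveRoot ζ q) (hζΛ : (ζ : L) ∈ Λ)
    (φ : L ≃ₐ[ℚ] L) (hφΛ : ∀ a ∈ Λ, φ.symm a ∈ Λ)
    (hφ : ∀ a : ↥Λ, res ⟨φ.symm a, hφΛ a a.2⟩ ^ q = res a)
    (hM : S34MstarAt Λ M (GaussL.piL hΛ))
    (ψ : ↥(integralClosure (Algebra.adjoin ↥Λ {(Fermat.Agent.S24.jL L (M * q))⁻¹})
      ↥(laurentBaseChange L (modularFunctionFieldFull (M * q)))) →ₐ[↥Λ] ↥Λ)
    (hcusp : ∃ a : ↥(integralClosure (Algebra.adjoin ↥Λ {(Fermat.Agent.S24.jL L (M * q))⁻¹})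
      ↥(laurentBaseChange L (modularFunctionFieldFull (M * q)))),
      (a : ↥(laurentBaseChange L (modularFunctionFieldFull (M * q)))) =
        (Fermat.Agent.S24.jL L (M * q))⁻¹ ∧ GaussL.piL hΛ ∣ ψ a) :
    S35F1One (B := ↥(integralClosure (Algebra.adjoin ↥Λ {(Fermat.Agent.S24.jL L (M * q))⁻¹})
        ↥(laurentBaseChange L (modularFunctionFieldFull (M * q)))))
      (GaussL.piL hΛ) (s35valW₁ hΛ (M * q)) (s35valW₂ hΛ ι M q hcop)
      (Ideal.comap (ψ : ↥(integralClosure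
        (Algebra.adjoin ↥Λ {(Fermat.Agent.S24.jL L (M * q))⁻¹})
        ↥(laurentBaseChange L (modularFunctionFieldFull (M * q)))) →+* ↥Λ)
        (Ideal.span {GaussL.piL hΛ}) :
        Ideal ↥(integralClosure (Algebra.adjoin ↥Λ {(Fermat.Agent.S24.jL L (M * q))⁻¹})
          ↥(laurentBaseChange L (modularFunctionFieldFull (M * q))))) ∨
    S35F1CrossW (B := ↥(integralClosure (Algebra.adjoin ↥Λ {(Fermat.Agent.S24.jL L (M * q))⁻¹})
        ↥(laurentBaseChange L (modularFunctionFieldFull (M * q)))))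
      (GaussL.piL hΛ) (s35valW₁ hΛ (M * q)) (s35valW₂ hΛ ι M q hcop)
      (Ideal.comap (ψ : ↥(integralClosure
        (Algebra.adjoin ↥Λ {(Fermat.Agent.S24.jL L (M * q))⁻¹})
        ↥(laurentBaseChange L (modularFunctionFieldFull (M * q)))) →+* ↥Λ)
        (Ideal.span {GaussL.piL hΛ}) :
        Ideal ↥(integralClosure (Algebra.adjoin ↥Λ {(Fermat.Agent.S24.jL L (M * q))⁻¹})
          ↥(laurentBaseChange L (modularFunctionFieldFull (M * q))))) := by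
  have hB : ∀ z : ↥(laurentBaseChange L (modularFunctionFieldFull (M * q))),
      (∃ b : ↥(integralClosure (Algebra.adjoin ↥Λ {(Fermat.Agent.S24.jL L (M * q))⁻¹})
        ↥(laurentBaseChange L (modularFunctionFieldFull (M * q)))),
        algebraMap _ ↥(laurentBaseChange L (modularFunctionFieldFull (M * q))) b = z) ↔
      IsIntegral (Algebra.adjoin ↥Λ {(Fermat.Agent.S24.jL L (M * q))⁻¹}) z :=
    fun z => ⟨fun ⟨a, ha⟩ => ha ▸ a.2, fun hz => ⟨⟨z, hz⟩, rfl⟩⟩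
  have h := kron_inst_inf_val ι M q hcop hΛ hq ζ hζ hζΛ φ hφΛ hφ
    (A := ↥(integralClosure (Algebra.adjoin ↥Λ {(Fermat.Agent.S24.jL L M)⁻¹})
      ↥(laurentBaseChange L (modularFunctionFieldFull M))))
    (B := ↥(integralClosure (Algebra.adjoin ↥Λ {(Fermat.Agent.S24.jL L (M * q))⁻¹})
      ↥(laurentBaseChange L (modularFunctionFieldFull (M * q)))))
    (algebraMap _ _) (algebraMap _ _) Subtype.val_injective Subtype.val_injective
    (fun c => rfl) (fun c => rfl)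
    (fun z => ⟨fun ⟨a, ha⟩ => ha ▸ a.2, fun hz => ⟨⟨z, hz⟩, rfl⟩⟩)
    hB
    (fun 𝔐 h𝔐 hπ => hM.2 𝔐 h𝔐 hπ)
    (fun b => inst_mem_kronO_of_isIntegral_inv ι M q hcop hΛ hq ((hB _).mp ⟨b, rfl⟩))
    ψ
    (by
      intro b₀ hb₀
      obtain ⟨a, ha, haψ⟩ := hcusp
      have hab : b₀ = a := Subtype.ext (hb₀.trans ha.symm)
      rw [hab]
      exact haψ)
    _ rfl
  rcases h with ⟨t, ht, -, h1, h2, -⟩ |
    ⟨h𝔪₁, h𝔪₂, x, y, G, hxy, hx𝔪, hy𝔪, -, hx2, -, hy1, hgen, -, -⟩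
  · exact Or.inl ⟨t, ht, h1, h2⟩
  · exact Or.inr ⟨x, y, G, hxy, hx𝔪, hy𝔪, hx2, hy1, hgen, h𝔪₁, h𝔪₂⟩

end Fermat.Agent.S35
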