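import Mathlib
import Fermat.Agent.S34.AbsLP
import Fermat.Agent.S34.AbsHR
import Fermat.Agent.S34.AbsPlaceComp
import Fermat.Agent.S34.AbsMain
import Fermat.Agent.S35.F1Ctrick
set_option autoImplicit false
namespace Fermat.Agent.S35
open IsDedekindDomain
open Fermat.Agent.S34

section Chart

variable {Λ K F : Type*} [CommRing Λ] [IsDomain Λ] [IsDiscreteValuationRing Λ] [Field K]
  [Algebra Λ K] [IsFractionRing Λ K] [Field F] [Algebra K F] [Algebra Λ F] [IsScalarTower Λ K F]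

theorem s35f1e_chart (π : Λ) (hπ : Irreducible π) {t : F} (ht : Transcendental K t)
    [IsDedekindDomain ↥(integralClosure (Algebra.adjoin K {t}) F)]
    [IsFractionRing ↥(integralClosure (Algebra.adjoin K {t}) F) F]
    (m : ℕ) (z G : F) (hz : IsIntegral (S18.gaussSub π hπ.prime t) z)
    (hG : IsIntegral (S18.gaussSub π hπ.prime t) G⁻¹)
    (𝔪 : Ideal ↥(integralClosure (Algebra.adjoin Λ {t}) F)) (h𝔪 : 𝔪.IsMaximal)
    (hval : ∀ 𝔔 ∈ absThrough (absIncl Λ K t) 𝔪, 𝔔.valuation F (z / G ^ m) ≤ 1) :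
    ∃ c : ↥(integralClosure (Algebra.adjoin Λ {t}) F), c ∉ 𝔪 ∧
      IsIntegral (Algebra.adjoin Λ {t}) ((c : F) * z * (G ^ m)⁻¹) := by
  have : 𝔪.IsPrime := h𝔪.isPrime
  have htΛ : Transcendental Λ t := S18.GaussLineK.transcendental_of_fraction ht
  have hfV : IsIntegral (S18.gaussSub π hπ.prime t) (z / G ^ m) := by
    rw [div_eq_mul_inv, ← inv_pow]
    exact hz.mul (hG.pow m)
  obtain ⟨c, hc, b, hb⟩ :=
    s35f1_ctrick (absIncl Λ K t) (algebraMap_absIncl Λ K t) 𝔪 (S18.gaussSub π hπ.prime t)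
      (fun b => S18.GaussLineK.isIntegral_of_isIntegral_adjoin π hπ.prime htΛ (s := {t})
        (by simp) b.2)
      (fun y hy => ⟨⟨(y : F), abs_isIntegral_of_gauss π hπ ht y.2 hy⟩, rfl⟩)
      (z / G ^ m) hfV hval
  refine ⟨c, hc, ?_⟩
  have h := b.2
  have hb2 : (b : F) = (c : F) * z * (G ^ m)⁻¹ := by
    rw [mul_assoc, ← div_eq_mul_inv]; exact hb
  rw [← hb2]
  exact h

end Chart

section Engine

open IntermediateField

/-- (F1-E) the Kummer engine with the local data given by valuations. -/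
theorem s35f1_engine
    {Λ K F 𝔽 : Type*} [CommRing Λ] [IsDomain Λ] [IsDiscreteValuationRing Λ]
    [Field K] [CharZero K] [Algebra Λ K] [IsFractionRing Λ K]
    [Field F] [Algebra K F] [Algebra Λ F] [IsScalarTower Λ K F]
    [Field 𝔽] [Algebra K 𝔽] [Algebra Λ 𝔽] [IsScalarTower Λ K 𝔽]
    [Algebra F 𝔽] [IsScalarTower K F 𝔽] [IsScalarTower Λ F 𝔽]
    (π : Λ) (hπ : Irreducible π) (j : F) (hj : Transcendental K j)
    [FiniteDimensional K⟮algebraMap F 𝔽 j⟯ 𝔽]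
    (hclosed : ∀ y : 𝔽, IsAlgebraic K y → y ∈ (algebraMap K 𝔽).range)
    (m : ℕ) (hm : IsUnit (m : Λ)) (ζ : Λ) (hζ : IsPrimitiveRoot ζ m)
    [IsDedekindDomain ↥(integralClosure (Algebra.adjoin K {j}) F)]
    [IsFractionRing ↥(integralClosure (Algebra.adjoin K {j}) F) F]
    [IsDedekindDomain ↥(integralClosure (Algebra.adjoin K {j⁻¹}) F)]
    [IsFractionRing ↥(integralClosure (Algebra.adjoin K {j⁻¹}) F) F]
    (z : F) (w : 𝔽) (hw : w ^ m = algebraMap F 𝔽 z)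
    (hz : IsIntegral (S18.gaussSub π hπ.prime j) z)
    (hz' : IsIntegral (S18.gaussSub π hπ.prime j) z⁻¹)
    (hz1 : ∃ δ : F, IsIntegral (S18.gaussSub π hπ.prime j) δ ∧ z - 1 = π • δ)
    (hfin : ∀ 𝔪 : Ideal ↥(integralClosure (Algebra.adjoin Λ {j}) F), 𝔪.IsMaximal →
      algebraMap Λ ↥(integralClosure (Algebra.adjoin Λ {j}) F) π ∈ 𝔪 →
      ∃ G : F, G ≠ 0 ∧ IsIntegral (S18.gaussSub π hπ.prime j) G⁻¹ ∧
        (∃ δ : F, IsIntegral (S18.gaussSub π hπ.prime j) δ ∧ G - 1 = π • δ) ∧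
        ∀ 𝔔 ∈ absThrough (absIncl Λ K j) 𝔪, 𝔔.valuation F (z / G ^ m) ≤ 1)
    (hinf : ∀ 𝔪 : Ideal ↥(integralClosure (Algebra.adjoin Λ {j⁻¹}) F), 𝔪.IsMaximal →
      algebraMap Λ ↥(integralClosure (Algebra.adjoin Λ {j⁻¹}) F) π ∈ 𝔪 →
      (∃ a : ↥(integralClosure (Algebra.adjoin Λ {j⁻¹}) F), (a : F) = j⁻¹ ∧ a ∈ 𝔪) →
      ∃ G : F, G ≠ 0 ∧ IsIntegral (S18.gaussSub π hπ.prime j) G⁻¹ ∧
        (∃ δ : F, IsIntegral (S18.gaussSub π hπ.prime j) δ ∧ G - 1 = π • δ) ∧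
        ∀ 𝔔 ∈ absThrough (absIncl Λ K j⁻¹) 𝔪, 𝔔.valuation F (z / G ^ m) ≤ 1) :
    ∃ y : F, algebraMap F 𝔽 y = w := by
  have hjΛ : Transcendental Λ j := S18.GaussLineK.transcendental_of_fraction hj
  have hji : Transcendental K j⁻¹ := by
    intro h
    exact hj (by simpa using h.inv)
  have hV : S18.gaussSub π hπ.prime j⁻¹ = S18.gaussSub π hπ.prime j :=
    S18.GaussLineK.gaussSub_inv π hπ.prime hjΛ
  refine s34_kummer_engine_cusp π hπ j hj hclosed m hm ζ hζ z w hw hz hz' hz1 ?_ ?_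
  · intro 𝔪 h𝔪 hπ𝔪
    obtain ⟨G, hG0, hGi, hG1, hval⟩ := hfin 𝔪 h𝔪 hπ𝔪
    exact ⟨G, hG0, hGi, hG1, s35f1e_chart π hπ hj m z G hz hGi 𝔪 h𝔪 hval⟩
  · intro 𝔪 h𝔪 hπ𝔪 hcusp
    obtain ⟨G, hG0, hGi, hG1, hval⟩ := hinf 𝔪 h𝔪 hπ𝔪 hcusp
    exact ⟨G, hG0, hGi, hG1, s35f1e_chart π hπ hji m z G (by rw [hV]; exact hz)
      (by rw [hV]; exact hGi) 𝔪 h𝔪 hval⟩

end Engine

end Fermat.Agent.S35
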