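import Mathlib
import Fermat.Agent.S34.ModelDefs
import Fermat.Agent.S34.NodeGlobalSmooth
import Fermat.Agent.S34.NodeGlobalCrossB
import Fermat.Agent.S34.GalGeo

/-!
# P20 (S35), block F1, leaf F1-SIG: a crossing point is fixed by the square of a Frobenius lift

`α, β : A → B` the two degeneracy maps, `sA`, `sB` compatible endomorphisms (Frobenius lifts) with
the Kronecker congruences `β ∘ sA ≡ α ^ q (mod 𝔭₁)`, `α ∘ sA ≡ β ^ q (mod 𝔭₂)`.  At a crossing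
point `𝔪 ⊇ 𝔭₁, 𝔭₂` where `B ⧸ 𝔭₂` is locally the image of `β`, we get
`β (sA (sA a)) ≡ (β a) ^ (q * q) (mod 𝔪)`, hence `sB (sB 𝔪) ⊆ 𝔪`.
-/

set_option autoImplicit false

namespace Fermat.Agent.S35

open Fermat.Agent.S34

/-- `x ^ q - y ^ q ∈ I` if `x - y ∈ I`. -/
theorem s35f1sig_pow_sub_pow_mem {B : Type*} [CommRing B] (I : Ideal B) {x y : B}
    (h : x - y ∈ I) (q : ℕ) : x ^ q - y ^ q ∈ I := by
  obtain ⟨c, hc⟩ := sub_dvd_pow_sub_pow x y q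
  rw [hc]
  exact I.mul_mem_right c h

/-- `β (sA (sA a)) ≡ (β a) ^ (q * q)` modulo a crossing point. -/
theorem s35f1sig_congr {A B : Type*} [CommRing A] [CommRing B] (α β : A →+* B)
    (sA : A →+* A) (𝔭₁ 𝔭₂ 𝔪 : Ideal B) (h1 : 𝔭₁ ≤ 𝔪) (h2 : 𝔭₂ ≤ 𝔪) (q : ℕ)
    (hkron : ∀ a : A, β (sA a) - α a ^ q ∈ 𝔭₁ ∧ α (sA a) - β a ^ q ∈ 𝔭₂) (a : A) :
    β (sA (sA a)) - β a ^ (q * q) ∈ 𝔪 := by
  have e1 : β (sA (sA a)) - α (sA a) ^ q ∈ 𝔪 := h1 (hkron (sA a)).1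
  have e2 : α (sA a) ^ q - (β a ^ q) ^ q ∈ 𝔪 :=
    s35f1sig_pow_sub_pow_mem 𝔪 (h2 (hkron a).2) q
  have e3 : β (sA (sA a)) - β a ^ (q * q) =
      (β (sA (sA a)) - α (sA a) ^ q) + (α (sA a) ^ q - (β a ^ q) ^ q) := by
    rw [pow_mul]
    ring
  rw [e3]
  exact 𝔪.add_mem e1 e2

set_option linter.unusedVariables false in
/-- (F1-SIG, file `S35/F1Sigma.lean`) a crossing point is fixed by the square of a Frobenius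
lift. -/
theorem s35f1_cross_fixed {A B : Type*} [CommRing A] [CommRing B] (α β : A →+* B)
    (sA : A →+* A) (sB : B →+* B)
    (hα : ∀ a : A, sB (α a) = α (sA a)) (hβ : ∀ a : A, sB (β a) = β (sA a))
    (𝔭₁ 𝔭₂ 𝔪 : Ideal B) [𝔪.IsPrime] (h1 : 𝔭₁ ≤ 𝔪) (h2 : 𝔭₂ ≤ 𝔪)
    (hs2 : ∀ b ∈ 𝔭₂, sB b ∈ 𝔭₂) (q : ℕ) (hq : q ≠ 0)
    (hkron : ∀ a : A, β (sA a) - α a ^ q ∈ 𝔭₁ ∧ α (sA a) - β a ^ q ∈ 𝔭₂)
    (hsurj : ∀ b : B, ∃ a a' : A, β a' ∉ 𝔪 ∧ β a' * b - β a ∈ 𝔭₂)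
    (b : B) (hb : b ∈ 𝔪) : sB (sB b) ∈ 𝔪 := by
  have hcong := s35f1sig_congr α β sA 𝔭₁ 𝔭₂ 𝔪 h1 h2 q hkron
  have hqq : 0 < q * q := Nat.mul_pos (Nat.pos_of_ne_zero hq) (Nat.pos_of_ne_zero hq)
  -- `β a ∈ 𝔪 → β (sA (sA a)) ∈ 𝔪`
  have hfwd : ∀ a : A, β a ∈ 𝔪 → β (sA (sA a)) ∈ 𝔪 := by
    intro a ha
    have h3 : β (sA (sA a)) = (β (sA (sA a)) - β a ^ (q * q)) + β a ^ (q * q) := by ring
    rw [h3]
    exact 𝔪.add_mem (hcong a) (Ideal.pow_mem_of_mem 𝔪 ha _ hqq)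
  -- `β (sA (sA a)) ∈ 𝔪 → β a ∈ 𝔪`
  have hbwd : ∀ a : A, β (sA (sA a)) ∈ 𝔪 → β a ∈ 𝔪 := by
    intro a ha
    have h3 : β a ^ (q * q) = β (sA (sA a)) - (β (sA (sA a)) - β a ^ (q * q)) := by ring
    have h4 : β a ^ (q * q) ∈ 𝔪 := by
      rw [h3]
      exact 𝔪.sub_mem ha (hcong a)
    exact Ideal.IsPrime.mem_of_pow_mem inferInstance _ h4
  obtain ⟨a, a', ha', hrel⟩ := hsurj b
  have hβa : β a ∈ 𝔪 := by
    have h3 : β a = β a' * b - (β a' * b - β a) := by ring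
    rw [h3]
    exact 𝔪.sub_mem (𝔪.mul_mem_left _ hb) (h2 hrel)
  have hβssa : β (sA (sA a)) ∈ 𝔪 := hfwd a hβa
  have hβssa' : β (sA (sA a')) ∉ 𝔪 := fun h => ha' (hbwd a' h)
  have hrel2 : sB (sB (β a' * b - β a)) ∈ 𝔭₂ := hs2 _ (hs2 _ hrel)
  have h5 : sB (sB (β a' * b - β a)) = β (sA (sA a')) * sB (sB b) - β (sA (sA a)) := by
    rw [map_sub, map_sub, map_mul, map_mul, hβ, hβ, hβ, hβ]
  rw [h5] at hrel2
  have h6 : β (sA (sA a')) * sB (sB b) ∈ 𝔪 := by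
    have h7 : β (sA (sA a')) * sB (sB b) =
        (β (sA (sA a')) * sB (sB b) - β (sA (sA a))) + β (sA (sA a)) := by ring
    rw [h7]
    exact 𝔪.add_mem (h2 hrel2) hβssa
  exact (Ideal.IsPrime.mem_or_mem inferInstance h6).resolve_left hβssa'

end Fermat.Agent.S35
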