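import Mathlib
import Fermat.Agent.S34.KronInstGen
import Fermat.Agent.S34.KronGalO
import Fermat.Agent.S34.KronWGal
import Fermat.Agent.S34.ModelVal
import Fermat.Agent.S35.F1Sigma

/-!
# P20 (S35), block F1-CONC, leaf L3: crossing points are fixed by the square of Frobenius

Generic presentation of `S34.kron_inst_gen` (rings `A`, `B` with embeddings `iA`, `iB` into
`F_M`, `F_{Mq}`, lifts `αA`, `βA` of `α`, `β`), plus lifts `sA`, `sB` of the coefficientwise
automorphism `T = arithmeticRingAut _ φ` for a Frobenius lift `φ` (`res (φ a) = res a ^ q`).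
If the maximal ideal `𝔪` of `B` contains both vertical primes (the kernels of the two
reductions `kronRedInf`, `kronRedZero`), then `sB (sB b) ∈ 𝔪 ↔ b ∈ 𝔪`.

Proof: Kronecker twice (`kron_kronecker`) + local surjectivity of `β` modulo the vertical prime
at `0` (`model_frac_local`), assembled by `s35f1_cross_fixed`; the converse by maximality.
-/

set_option autoImplicit false

namespace Fermat.Agent.S35

open ModularCurve AlgebraicCurve
open Fermat.Agent.S18 Fermat.Agent.S28 Fermat.Agent.S28.FreeBasisAbs Fermat.Agent.S34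

variable {L k : Type*} [Field L] [Algebra ℚ L] [Field k] {Λ : Subring L} {π : L}
  {res : ↥Λ →+* k} (ι : L →+* ℂ) (M q : ℕ) [NeZero M] [NeZero q] (hcop : Nat.Coprime M q)

theorem s35f1c_cross_stable_gen [CharZero L] (hΛ : IsGaussRing Λ π res) (hq : q.Prime)
    [CharP k q]
    (φ : L ≃ₐ[ℚ] L) (hφΛ : ∀ a ∈ Λ, φ a ∈ Λ) (hφΛs : ∀ a ∈ Λ, φ.symm a ∈ Λ)
    (hφ : ∀ a : ↥Λ, res ⟨φ a, hφΛ a a.2⟩ = res a ^ q)
    {A B : Type*} [CommRing A] [IsNoetherianRing A] [CommRing B]
    (iA : A →+* ↥(laurentBaseChange L (modularFunctionFieldFull M)))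
    (iB : B →+* ↥(laurentBaseChange L (modularFunctionFieldFull (M * q))))
    (hiB : Function.Injective iB)
    (αA βA : A →+* B)
    (hαA : ∀ a, iB (αA a) = heckeAlphaBar L M q (iA a))
    (hβA : ∀ a, iB (βA a) = heckeBetaBar L M q (iA a))
    (πA : A) (hπA : iA πA = algebraMap L _ π)
    (hAV : ∀ a, iA a ∈ GaussL.gaussV Λ res (laurentBaseChange L (modularFunctionFieldFull M)))
    (hBO : ∀ b, iB b ∈ kronO Λ res ι M q hcop)
    (hfrac : ∀ (c : ↥(laurentBaseChange L (modularFunctionFieldFull M)))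
      (_ : c ∈ GaussL.gaussV Λ res (laurentBaseChange L (modularFunctionFieldFull M))),
      ∃ a' a : A, iA a = iA a' * c ∧
        ∃ ha' : iA a' ∈ GaussL.gaussV Λ res (laurentBaseChange L (modularFunctionFieldFull M)),
          GaussL.gaussRed Λ res (laurentBaseChange L (modularFunctionFieldFull M))
            ⟨iA a', ha'⟩ ≠ 0)
    (sA : A →+* A)
    (hsA : ∀ a, iA (sA a) = arithmeticRingAut (modularFunctionFieldFull M) φ (iA a))
    (sB : B →+* B)
    (hsB : ∀ b, iB (sB b) = arithmeticRingAut (modularFunctionFieldFull (M * q)) φ (iB b))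
    (𝔪 : Ideal B) [𝔪.IsMaximal]
    (h1 : ∀ b : B, kronRedInf Λ res ι M q hcop ⟨iB b, hBO b⟩ = 0 → b ∈ 𝔪)
    (h2 : ∀ b : B, kronRedZero Λ res ι M q hcop ⟨iB b, hBO b⟩ = 0 → b ∈ 𝔪)
    (hmaxβ : (𝔪.comap βA).IsMaximal)
    (hUβ : ∃ u : A, ModelLocGen (Ideal.span {πA}) (𝔪.comap βA) u)
    (b : B) : sB (sB b) ∈ 𝔪 ↔ b ∈ 𝔪 := by
  classical
  have h𝔪 : 𝔪.IsPrime := Ideal.IsMaximal.isPrime inferInstance
  have : Fact q.Prime := ⟨hq⟩
  -- the two reductions on `B`
  let iO : B →+* ↥(kronO Λ res ι M q hcop) := iB.codRestrict (kronO Λ res ι M q hcop) hBO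
  let r₁ : B →+* LaurentSeries k := (kronRedInf Λ res ι M q hcop).comp iO
  let r₂ : B →+* LaurentSeries k := (kronRedZero Λ res ι M q hcop).comp iO
  have hiOβ : ∀ a : A, iO (βA a) =
      ⟨heckeBetaBar L M q (iA a), kron_beta_mem_kronO ι M q hcop (hAV a)⟩ :=
    fun a => Subtype.ext (hβA a)
  have hr₂β : ∀ a : A, r₂ (βA a) =
      GaussL.gaussRed Λ res (laurentBaseChange L (modularFunctionFieldFull M))
        ⟨iA a, hAV a⟩ := by
    intro a
    show kronRedZero Λ res ι M q hcop (iO (βA a)) = _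
    rw [hiOβ]
    exact kronRedZero_beta ι M q hcop (hAV a)
  have hredπ : ∀ a : A, iA a = algebraMap L _ π →
      GaussL.gaussRed Λ res (laurentBaseChange L (modularFunctionFieldFull M))
        ⟨iA a, hAV a⟩ = 0 := by
    intro a ha
    have e : (⟨iA a, hAV a⟩ :
        ↥(GaussL.gaussV Λ res (laurentBaseChange L (modularFunctionFieldFull M)))) =
        ⟨algebraMap L _ π, GaussL.algebraMap_pi_mem_gaussV _ hΛ⟩ := Subtype.ext ha
    rw [e]
    exact GaussL.gaussRed_algebraMap_pi _ hΛ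
  have h𝔞₂ : Ideal.span {πA} ≤ (RingHom.ker r₂).comap βA := by
    rw [Ideal.span_singleton_le_iff_mem, Ideal.mem_comap, RingHom.mem_ker, hr₂β]
    exact hredπ πA hπA
  have hfrac₂ : ∀ b : B, ∃ a a' : A, βA a' ∉ RingHom.ker r₂ ∧
      βA a' * b - βA a ∈ RingHom.ker r₂ := by
    intro b
    obtain ⟨c, hc⟩ := kron_exists_gaussRed_eq ι M q hcop hΛ hq
      ⟨kronW L ι M q hcop (iB b), (hBO b).2⟩
    obtain ⟨a', a, hmul, ha'V, hne⟩ := hfrac c.1 c.2
    refine ⟨a, a', ?_, ?_⟩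
    · rw [RingHom.mem_ker, hr₂β]; exact hne
    · rw [RingHom.mem_ker, map_sub, map_mul, hr₂β, hr₂β]
      have hb : r₂ b = GaussL.gaussRed Λ res _ c := hc
      rw [hb, ← map_mul, sub_eq_zero]
      exact congrArg _ (Subtype.ext hmul.symm)
  -- the hypotheses of `kron_kronecker`
  have hφ' : ∀ a : ↥Λ, res ⟨φ.symm a, hφΛs a a.2⟩ ^ q = res a := by
    intro a
    have h := hφ ⟨φ.symm a, hφΛs a a.2⟩
    rw [← h]
    exact congrArg res (Subtype.ext (φ.apply_symm_apply (a : L)))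
  have hsym : ∀ a : A, arithmeticRingAut (modularFunctionFieldFull M) φ.symm (iA (sA a)) = iA a := by
    intro a
    rw [hsA]
    exact (arithmeticRingAut (modularFunctionFieldFull M) φ).symm_apply_apply (iA a)
  have hkron : ∀ a : A, βA (sA a) - αA a ^ q ∈ RingHom.ker r₁ ∧
      αA (sA a) - βA a ^ q ∈ RingHom.ker r₂ := by
    intro a
    obtain ⟨h₁, h₂, e₁, e₂⟩ := kron_kronecker (Λ := Λ) (res := res) ι M q hcop hq φ hφΛs hφ'
      (hAV (sA a))
    constructor
    · rw [RingHom.mem_ker]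
      have e : iO (αA a ^ q - βA (sA a)) = ⟨_, h₁⟩ :=
        Subtype.ext (by
          show iB (αA a ^ q - βA (sA a)) =
            heckeAlphaBar L M q (arithmeticRingAut (modularFunctionFieldFull M) φ.symm
              (iA (sA a))) ^ q - heckeBetaBar L M q (iA (sA a))
          rw [hsym, map_sub, map_pow, hαA, hβA])
      have h0 : r₁ (αA a ^ q - βA (sA a)) = 0 := by
        show kronRedInf Λ res ι M q hcop (iO (αA a ^ q - βA (sA a))) = 0
        rw [e]; exact e₁
      have h3 : βA (sA a) - αA a ^ q = -(αA a ^ q - βA (sA a)) := by ring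
      rw [h3, map_neg, h0, neg_zero]
    · rw [RingHom.mem_ker]
      have e : iO (αA (sA a) - βA a ^ q) = ⟨_, h₂⟩ :=
        Subtype.ext (by
          show iB (αA (sA a) - βA a ^ q) =
            heckeAlphaBar L M q (iA (sA a)) -
              heckeBetaBar L M q (arithmeticRingAut (modularFunctionFieldFull M) φ.symm
                (iA (sA a))) ^ q
          rw [hsym, map_sub, map_pow, hαA, hβA])
      show kronRedZero Λ res ι M q hcop (iO (αA (sA a) - βA a ^ q)) = 0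
      rw [e]; exact e₂
  have hp₂ : (RingHom.ker r₂).IsPrime := RingHom.ker_isPrime r₂
  have h1' : RingHom.ker r₁ ≤ 𝔪 := fun b hb => h1 b (RingHom.mem_ker.mp hb)
  have h2' : RingHom.ker r₂ ≤ 𝔪 := fun b hb => h2 b (RingHom.mem_ker.mp hb)
  obtain ⟨u, hu⟩ := hUβ
  have hsurj : ∀ b : B, ∃ a a' : A, βA a' ∉ 𝔪 ∧ βA a' * b - βA a ∈ RingHom.ker r₂ := fun b =>
    model_frac_local βA (Ideal.span {πA}) (RingHom.ker r₂) 𝔪 h2' h𝔞₂ hmaxβ hu b (hfrac₂ b)
  -- `sB` commutes with `α`, `β`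
  have hα : ∀ a : A, sB (αA a) = αA (sA a) := by
    intro a
    apply hiB
    rw [hsB, hαA, hαA, hsA, kron_alpha_ringAut]
  have hβ : ∀ a : A, sB (βA a) = βA (sA a) := by
    intro a
    apply hiB
    rw [hsB, hβA, hβA, hsA, kron_beta_ringAut]
  -- `sB` preserves `ker r₂`
  have hσbar : ∀ a : ↥Λ, res ⟨φ a, hφΛ a a.2⟩ = frobenius k q (res a) := fun a => by
    rw [hφ a, frobenius_def]
  have hs2 : ∀ b ∈ RingHom.ker r₂, sB b ∈ RingHom.ker r₂ := by
    intro b hb
    rw [RingHom.mem_ker] at hb ⊢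
    have h := kronRedZero_ringAut ι M q hcop hq φ hφΛ (frobenius k q) hσbar (hBO b)
    have e : iO (sB b) = ⟨_, kronO_ringAut_mem ι M q hcop hq φ hφΛ (frobenius k q) hσbar (hBO b)⟩ :=
      Subtype.ext (hsB b)
    show kronRedZero Λ res ι M q hcop (iO (sB b)) = 0
    rw [e, h]
    have hb' : kronRedZero Λ res ι M q hcop ⟨iB b, hBO b⟩ = 0 := hb
    rw [hb', map_zero]
  have hfix : ∀ b : B, b ∈ 𝔪 → sB (sB b) ∈ 𝔪 := fun b hb =>
    s35f1_cross_fixed αA βA sA sB hα hβ (RingHom.ker r₁) (RingHom.ker r₂) 𝔪 h1' h2' hs2 q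
      hq.ne_zero hkron hsurj b hb
  constructor
  · intro hb
    -- `𝔪 ≤ comap (sB ∘ sB) 𝔪`, a proper ideal
    have hle : 𝔪 ≤ 𝔪.comap (sB.comp sB) := fun x hx => hfix x hx
    have hne : 𝔪.comap (sB.comp sB) ≠ ⊤ := (Ideal.comap_isPrime (sB.comp sB) 𝔪).ne_top
    have heq : 𝔪 = 𝔪.comap (sB.comp sB) :=
      (Ideal.IsMaximal.eq_of_le inferInstance hne hle)
    rw [heq]
    exact hb
  · exact hfix b

end Fermat.Agent.S35
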