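import Mathlib
import Fermat.Agent.S34.InstFin
import Fermat.Agent.S35.F1cSigGen

/-!
# P20 (S35), block F1-CONC, leaf L4: crossing points of the fin chart are fixed by Frobenius²

Abstract presentation of the two chart rings as in `S34.kron_inst_fin` (`A`, `B` with embeddings
`iA`, `iB` into `F_M`, `F_{Mq}` whose images are the integral closures of `Λ[j]`).  For a
`Λ`-point `ψ` of the level-`Mq` chart lying on both vertical components (`h1`, `h2`), the closed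
point `ψ⁻¹(π)` is stable under the square of the coefficientwise Frobenius lift.
Assembly of `s35f1c_cross_stable_gen` (leaf L3) with the INST leaves V, T, FRAC, N of `S34`.
-/

set_option autoImplicit false

namespace Fermat.Agent.S35

open ModularCurve AlgebraicCurve IntermediateField
open Fermat.Agent.S18 Fermat.Agent.S28 Fermat.Agent.S28.FreeBasisAbs Fermat.Agent.S34

section L45

variable {L k : Type*} [Field L] [Algebra ℚ L] [Field k] {Λ : Subring L} {π : L}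
  {res : ↥Λ →+* k} (ι : L →+* ℂ) (M q : ℕ) [NeZero M] [NeZero q] (hcop : Nat.Coprime M q)

theorem s35f1c_cross_stable_fin [CharZero L] (hΛ : IsGaussRing Λ π res) (hq : q.Prime)
    [CharP k q]
    (ζ : Lˣ) (hζ : IsPrimitiveRoot ζ q) (hζΛ : (ζ : L) ∈ Λ)
    (φ : L ≃ₐ[ℚ] L) (hφΛ : ∀ a ∈ Λ, φ a ∈ Λ) (hφΛs : ∀ a ∈ Λ, φ.symm a ∈ Λ)
    (hφ : ∀ a : ↥Λ, res ⟨φ a, hφΛ a a.2⟩ = res a ^ q)
    {A B : Type*} [CommRing A] [CommRing B] [Algebra ↥Λ A] [Algebra ↥Λ B]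
    (iA : A →+* ↥(laurentBaseChange L (modularFunctionFieldFull M)))
    (iB : B →+* ↥(laurentBaseChange L (modularFunctionFieldFull (M * q))))
    (hiA : Function.Injective iA) (hiB : Function.Injective iB)
    (hiAΛ : ∀ c : ↥Λ, iA (algebraMap ↥Λ A c) = algebraMap L _ (c : L))
    (hiBΛ : ∀ c : ↥Λ, iB (algebraMap ↥Λ B c) = algebraMap L _ (c : L))
    (hA : ∀ z, (∃ a, iA a = z) ↔ IsIntegral (Algebra.adjoin ↥Λ {Fermat.Agent.S24.jL L M}) z)
    (hB : ∀ z, (∃ b, iB b = z) ↔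
      IsIntegral (Algebra.adjoin ↥Λ {Fermat.Agent.S24.jL L (M * q)}) z)
    (hU : ∀ 𝔐 : Ideal A, 𝔐.IsMaximal → algebraMap ↥Λ A (GaussL.piL hΛ) ∈ 𝔐 →
      ∃ u, ModelLocGen (Ideal.span {algebraMap ↥Λ A (GaussL.piL hΛ)}) 𝔐 u)
    (ψ : B →ₐ[↥Λ] ↥Λ)
    (h1 : ∀ b : B, (∃ h : iB b ∈ kronO Λ res ι M q hcop,
      kronRedInf Λ res ι M q hcop ⟨iB b, h⟩ = 0) → GaussL.piL hΛ ∣ ψ b)
    (h2 : ∀ b : B, (∃ h : iB b ∈ kronO Λ res ι M q hcop,
      kronRedZero Λ res ι M q hcop ⟨iB b, h⟩ = 0) → GaussL.piL hΛ ∣ ψ b)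
    (b b' : B)
    (hb : iB b' = arithmeticRingAut (modularFunctionFieldFull (M * q)) φ
      (arithmeticRingAut (modularFunctionFieldFull (M * q)) φ (iB b))) :
    GaussL.piL hΛ ∣ ψ b' ↔ GaussL.piL hΛ ∣ ψ b := by
  classical
  have : IsNoetherianRing A :=
    inst_isNoetherianRing_of_chart hΛ M (Fermat.Agent.S24.jL L M) (Or.inl rfl) iA hiA hA
  have hπmax : (Ideal.span {GaussL.piL hΛ}).IsMaximal := inst_isMaximal_span_piL hΛ
  -- the lifts of `α`, `β`
  obtain ⟨αA, hαA⟩ := s34db_exists_lift iB hiB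
    ((heckeAlphaBar L M q : ↥(laurentBaseChange L (modularFunctionFieldFull M)) →+*
      ↥(laurentBaseChange L (modularFunctionFieldFull (M * q)))).comp iA)
    (fun a => (hB _).mpr (inst_alpha_fin M q ((hA _).mp ⟨a, rfl⟩)))
  obtain ⟨βA, hβA⟩ := s34db_exists_lift iB hiB
    ((heckeBetaBar L M q : ↥(laurentBaseChange L (modularFunctionFieldFull M)) →+*
      ↥(laurentBaseChange L (modularFunctionFieldFull (M * q)))).comp iA)
    (fun a => (hB _).mpr (inst_beta_fin M q hΛ hq ζ hζ hζΛ ((hA _).mp ⟨a, rfl⟩)))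
  -- the lifts of the coefficientwise automorphism
  obtain ⟨sA, hsA⟩ := s34db_exists_lift iA hiA
    ((arithmeticRingAut (modularFunctionFieldFull M) φ :
      ↥(laurentBaseChange L (modularFunctionFieldFull M)) →+*
        ↥(laurentBaseChange L (modularFunctionFieldFull M))).comp iA)
    (fun a => (hA _).mpr (inst_ringAut_fin M φ hφΛ ((hA _).mp ⟨a, rfl⟩)))
  obtain ⟨sB, hsB⟩ := s34db_exists_lift iB hiB
    ((arithmeticRingAut (modularFunctionFieldFull (M * q)) φ :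
      ↥(laurentBaseChange L (modularFunctionFieldFull (M * q))) →+*
        ↥(laurentBaseChange L (modularFunctionFieldFull (M * q)))).comp iB)
    (fun b => (hB _).mpr (inst_ringAut_fin (M * q) φ hφΛ ((hB _).mp ⟨b, rfl⟩)))
  have hαA' : ∀ a, iB (αA a) = heckeAlphaBar L M q (iA a) := hαA
  have hβA' : ∀ a, iB (βA a) = heckeBetaBar L M q (iA a) := hβA
  have hsA' : ∀ a, iA (sA a) = arithmeticRingAut (modularFunctionFieldFull M) φ (iA a) := hsA
  have hsB' : ∀ b, iB (sB b) =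
      arithmeticRingAut (modularFunctionFieldFull (M * q)) φ (iB b) := hsB
  have hπA : iA (algebraMap ↥Λ A (GaussL.piL hΛ)) = algebraMap L _ π := hiAΛ _
  have hAV : ∀ a, iA a ∈
      GaussL.gaussV Λ res (laurentBaseChange L (modularFunctionFieldFull M)) := fun a =>
    inst_mem_gaussV_of_isIntegral hΛ M ((hA _).mp ⟨a, rfl⟩)
  have hBO : ∀ b, iB b ∈ kronO Λ res ι M q hcop := fun b =>
    inst_mem_kronO_of_isIntegral ι M q hcop hΛ hq ((hB _).mp ⟨b, rfl⟩)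
  have hfrac : ∀ (c : ↥(laurentBaseChange L (modularFunctionFieldFull M)))
      (_ : c ∈ GaussL.gaussV Λ res (laurentBaseChange L (modularFunctionFieldFull M))),
      ∃ a' a : A, iA a = iA a' * c ∧
        ∃ ha' : iA a' ∈ GaussL.gaussV Λ res (laurentBaseChange L (modularFunctionFieldFull M)),
          GaussL.gaussRed Λ res (laurentBaseChange L (modularFunctionFieldFull M))
            ⟨iA a', ha'⟩ ≠ 0 := by
    intro c hc
    obtain ⟨a', ha', ha'c, ha'V, hred⟩ := inst_frac_fin M q hΛ hq hcop hc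
    obtain ⟨a'₀, rfl⟩ := (hA _).mpr ha'
    obtain ⟨a₀, ha₀⟩ := (hA _).mpr ha'c
    exact ⟨a'₀, a₀, ha₀, ha'V, hred⟩
  -- the point
  have hψΛ : ∀ c : ↥Λ, (ψ : B →+* ↥Λ) (algebraMap ↥Λ B c) = c := fun c => ψ.commutes c
  have hβΛ : ∀ c : ↥Λ, βA (algebraMap ↥Λ A c) = algebraMap ↥Λ B c := fun c =>
    hiB (by rw [hβA', hiAΛ, hiBΛ, AlgHom.commutes])
  have hψπ : (ψ : B →+* ↥Λ) (algebraMap ↥Λ B (GaussL.piL hΛ)) ∈
      Ideal.span {GaussL.piL hΛ} := by
    rw [hψΛ]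
    exact Ideal.mem_span_singleton_self _
  have hmax : (Ideal.comap (ψ : B →+* ↥Λ) (Ideal.span {GaussL.piL hΛ})).IsMaximal :=
    Ideal.comap_isMaximal_of_surjective _ (fun c => ⟨algebraMap ↥Λ B c, hψΛ c⟩)
  have hmaxβ : ((Ideal.comap (ψ : B →+* ↥Λ) (Ideal.span {GaussL.piL hΛ})).comap βA).IsMaximal := by
    rw [Ideal.comap_comap]
    exact Ideal.comap_isMaximal_of_surjective _ (fun c => ⟨algebraMap ↥Λ A c, by
      rw [RingHom.comp_apply, hβΛ, hψΛ]⟩)
  have hUβ := hU _ hmaxβ (by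
    rw [Ideal.mem_comap, Ideal.mem_comap, hβΛ]
    exact hψπ)
  have hmem : ∀ x : B, x ∈ Ideal.comap (ψ : B →+* ↥Λ) (Ideal.span {GaussL.piL hΛ}) ↔
      GaussL.piL hΛ ∣ ψ x := fun x => by
    rw [Ideal.mem_comap, Ideal.mem_span_singleton]
    rfl
  have key := s35f1c_cross_stable_gen ι M q hcop hΛ hq φ hφΛ hφΛs hφ iA iB hiB αA βA hαA' hβA'
    (algebraMap ↥Λ A (GaussL.piL hΛ)) hπA hAV hBO hfrac sA hsA' sB hsB'
    (Ideal.comap (ψ : B →+* ↥Λ) (Ideal.span {GaussL.piL hΛ}))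
    (fun x hx => (hmem x).mpr (h1 x ⟨hBO x, hx⟩))
    (fun x hx => (hmem x).mpr (h2 x ⟨hBO x, hx⟩)) hmaxβ hUβ b
  have hb' : b' = sB (sB b) := hiB (by rw [hb, hsB', hsB'])
  rw [hb', ← hmem, ← hmem]
  exact key

end L45

end Fermat.Agent.S35
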