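import Mathlib
import Fermat.Agent.S34.InstInf
import Fermat.Agent.S34.DictBad
import Fermat.Agent.S35.F1cSigGen

/-!
# P20 (S35), block F1-CONC, leaf L5: crossing points of the cusp chart are fixed by Frobenius²

`s35f1c_cross_stable_inf` (statement = note 950, L5): in the abstract presentation of
`kron_inst_inf` (`A`, `B` the cusp chart rings of levels `M`, `M q`, i.e. the elements integral
over `Λ[j⁻¹]`; `ψ` a `Λ`-point of `B` centred on the cusps), if both vertical primes of `B`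
(the kernels of the two reductions) lie in the centre `ψ⁻¹(π)`, then the centre is stable under
the square of the coefficientwise Frobenius lift `T = arithmeticRingAut φ`:
`π ∣ ψ b' ↔ π ∣ ψ b` for `b' = T (T b)`.

Route (as in `S34/InstInf.lean`): apply the generic statement `s35f1c_cross_stable_gen` with
`A` the cusp chart ring of level `M` and the semilocal ring `s34Sloc Λ j⁻¹` of level `M q`
(with the extended point, `S34.s34Sloc_pres`), where `T` restricts to the semilocal ring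
(`T` fixes `j⁻¹` and preserves `Λ`); the hypotheses on the vertical primes pass to the semilocal
ring by clearing the denominator `a(j⁻¹)`, `a(0) = 1`, which the extended point maps to a unit.
-/

set_option autoImplicit false

namespace Fermat.Agent.S35

open ModularCurve AlgebraicCurve IntermediateField
open Fermat.Agent.S18 Fermat.Agent.S28 Fermat.Agent.S28.FreeBasisAbs Fermat.Agent.S34

/-! ### Abstract lemmas on the semilocal ring -/
section Abstract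

/-- A ring endomorphism semilinear over `σΛ` maps `a(u)` to `(σΛ a)(T u)`. -/
theorem s35f1ci_map_aeval {Λ F : Type*} [CommRing Λ] [CommRing F] [Algebra Λ F]
    (T : F →+* F) (σΛ : Λ →+* Λ) (hT : ∀ c : Λ, T (algebraMap Λ F c) = algebraMap Λ F (σΛ c))
    (u : F) (a : Polynomial Λ) :
    T (Polynomial.aeval u a) = Polynomial.aeval (T u) (a.map σΛ) := by
  have hcomp : T.comp (algebraMap Λ F) = (algebraMap Λ F).comp σΛ := RingHom.ext hT
  rw [Polynomial.aeval_def, Polynomial.hom_eval₂, Polynomial.aeval_def, Polynomial.eval₂_map,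
    hcomp]

/-- A semilinear ring endomorphism fixing `u` and preserving integrality over `Λ[u]` preserves
the semilocal ring at `u = 0`. -/
theorem s35f1ci_map_mem_sloc {Λ F : Type*} [CommRing Λ] [Field F] [Algebra Λ F]
    (T : F →+* F) (σΛ : Λ →+* Λ) (hT : ∀ c : Λ, T (algebraMap Λ F c) = algebraMap Λ F (σΛ c))
    (u : F) (hu : T u = u)
    (hint : ∀ z : F, IsIntegral (Algebra.adjoin Λ {u}) z →
      IsIntegral (Algebra.adjoin Λ {u}) (T z))
    {z : F} (hz : z ∈ s34Sloc Λ u) : T z ∈ s34Sloc Λ u := by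
  obtain ⟨a, ha, h⟩ := hz
  refine ⟨a.map σΛ, by rw [Polynomial.coeff_map, ha, map_one], ?_⟩
  have h2 := hint _ h
  rw [map_mul, s35f1ci_map_aeval T σΛ hT, hu] at h2
  exact h2

/-- Clearing the denominator of an element of the semilocal ring: `s = b₀ / a(u)` with `b₀` in
the chart ring, and the extended point `ψ` vanishes mod `π` at `s` as soon as the point `φ`
vanishes mod `π` at `b₀`. -/
theorem s35f1ci_exists_clear {Λ F : Type*} [CommRing Λ] [Field F] [Algebra Λ F] (π : Λ)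
    (hloc : ∀ c : Λ, π ∣ c - 1 → IsUnit c) (u : F)
    {B : Type*} [CommRing B] [Algebra Λ B] (iB : B →+* F)
    (hiBΛ : ∀ c : Λ, iB (algebraMap Λ B c) = algebraMap Λ F c)
    (hB : ∀ z, (∃ b, iB b = z) ↔ IsIntegral (Algebra.adjoin Λ {u}) z)
    (φ : B →ₐ[Λ] Λ) (hu : ∀ b₀ : B, iB b₀ = u → π ∣ φ b₀)
    (ψ : ↥(s34Sloc Λ u) →+* Λ)
    (hψ : ∀ (b : B) (hb : iB b ∈ s34Sloc Λ u), ψ ⟨iB b, hb⟩ = φ b)
    (s : ↥(s34Sloc Λ u)) :
    ∃ (a : Polynomial Λ) (b₀ : B), iB b₀ = Polynomial.aeval u a * (s : F) ∧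
      (π ∣ φ b₀ → π ∣ ψ s) := by
  obtain ⟨a, ha, hint⟩ := s.2
  obtain ⟨b₀, hb₀⟩ := (hB _).mpr hint
  obtain ⟨bu, hbu⟩ := (hB u).mpr (isIntegral_algebraMap (R := Algebra.adjoin Λ {u})
    (x := ⟨u, Algebra.self_mem_adjoin_singleton Λ u⟩))
  refine ⟨a, b₀, hb₀, fun hdvd => ?_⟩
  let iB' : B →ₐ[Λ] F := { iB with commutes' := hiBΛ }
  have h1 : iB (Polynomial.aeval bu a) = Polynomial.aeval u a := by
    have h := Polynomial.aeval_algHom_apply iB' bu a
    rw [← hbu]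
    exact h.symm
  have hmemS : iB (Polynomial.aeval bu a) ∈ s34Sloc Λ u := by
    rw [h1]; exact aeval_mem_s34Sloc u a
  have hmem0 : iB b₀ ∈ s34Sloc Λ u := by
    rw [hb₀]; exact Subring.mul_mem _ (aeval_mem_s34Sloc u a) s.2
  have h2 : (⟨iB b₀, hmem0⟩ : ↥(s34Sloc Λ u)) = ⟨iB (Polynomial.aeval bu a), hmemS⟩ * s := by
    apply Subtype.ext
    show iB b₀ = iB (Polynomial.aeval bu a) * (s : F)
    rw [hb₀, h1]
  have h3 : φ b₀ = φ (Polynomial.aeval bu a) * ψ s := by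
    rw [← hψ b₀ hmem0, h2, map_mul, hψ]
  have h4 : φ (Polynomial.aeval bu a) = Polynomial.aeval (φ bu) a :=
    (Polynomial.aeval_algHom_apply φ bu a).symm
  have hunit : IsUnit (Polynomial.aeval (φ bu) a) := s34spt_isUnit π hloc _ (hu bu hbu) a ha
  rw [h3, h4] at hdvd
  exact (hunit.dvd_mul_left).mp hdvd

end Abstract

/-! ### L5: the cusp chart -/
section L45

variable {L k : Type*} [Field L] [Algebra ℚ L] [Field k] {Λ : Subring L} {π : L}
  {res : ↥Λ →+* k} (ι : L →+* ℂ) (M q : ℕ) [NeZero M] [NeZero q] (hcop : Nat.Coprime M q)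

set_option synthInstance.maxHeartbeats 400000 in
set_option maxHeartbeats 1000000 in
theorem s35f1c_cross_stable_inf [CharZero L] (hΛ : IsGaussRing Λ π res) (hq : q.Prime)
    [CharP k q]
    (ζ : Lˣ) (hζ : IsPrimitiveRoot ζ q) (hζΛ : (ζ : L) ∈ Λ)
    (φ : L ≃ₐ[ℚ] L) (hφΛ : ∀ a ∈ Λ, φ a ∈ Λ) (hφΛs : ∀ a ∈ Λ, φ.symm a ∈ Λ)
    (hφ : ∀ a : ↥Λ, res ⟨φ a, hφΛ a a.2⟩ = res a ^ q)
    {A B : Type*} [CommRing A] [CommRing B] [Algebra ↥Λ A] [Algebra ↥Λ B]
    (iA : A →+* ↥(laurentBaseChange L (modularFunctionFieldFull M)))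
    (iB : B →+* ↥(laurentBaseChange L (modularFunctionFieldFull (M * q))))
    (hiA : Function.Injective iA) (hiB : Function.Injective iB)
    (hiAΛ : ∀ c : ↥Λ, iA (algebraMap ↥Λ A c) = algebraMap L _ (c : L))
    (hiBΛ : ∀ c : ↥Λ, iB (algebraMap ↥Λ B c) = algebraMap L _ (c : L))
    (hA : ∀ z, (∃ a, iA a = z) ↔
      IsIntegral (Algebra.adjoin ↥Λ {(Fermat.Agent.S24.jL L M)⁻¹}) z)
    (hB : ∀ z, (∃ b, iB b = z) ↔
      IsIntegral (Algebra.adjoin ↥Λ {(Fermat.Agent.S24.jL L (M * q))⁻¹}) z)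
    (hU : ∀ 𝔐 : Ideal A, 𝔐.IsMaximal → algebraMap ↥Λ A (GaussL.piL hΛ) ∈ 𝔐 →
      ∃ u, ModelLocGen (Ideal.span {algebraMap ↥Λ A (GaussL.piL hΛ)}) 𝔐 u)
    (ψ : B →ₐ[↥Λ] ↥Λ)
    (hcusp : ∀ b₀ : B, iB b₀ = (Fermat.Agent.S24.jL L (M * q))⁻¹ → GaussL.piL hΛ ∣ ψ b₀)
    (h1 : ∀ b : B, (∃ h : iB b ∈ kronO Λ res ι M q hcop,
      kronRedInf Λ res ι M q hcop ⟨iB b, h⟩ = 0) → GaussL.piL hΛ ∣ ψ b)
    (h2 : ∀ b : B, (∃ h : iB b ∈ kronO Λ res ι M q hcop,
      kronRedZero Λ res ι M q hcop ⟨iB b, h⟩ = 0) → GaussL.piL hΛ ∣ ψ b)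
    (b b' : B)
    (hb : iB b' = arithmeticRingAut (modularFunctionFieldFull (M * q)) φ
      (arithmeticRingAut (modularFunctionFieldFull (M * q)) φ (iB b))) :
    GaussL.piL hΛ ∣ ψ b' ↔ GaussL.piL hΛ ∣ ψ b := by
  classical
  have hdvr : IsDiscreteValuationRing ↥Λ := s34icn_isDiscreteValuationRing hΛ
  have hπmax : (Ideal.span {GaussL.piL hΛ}).IsMaximal := inst_isMaximal_span_piL hΛ
  have hπmem : GaussL.piL hΛ ∈ IsLocalRing.maximalIdeal ↥Λ :=
    (IsLocalRing.mem_maximalIdeal _).mpr (GaussL.prime_piL hΛ).not_isUnit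
  have hloc : ∀ c : ↥Λ, GaussL.piL hΛ ∣ c - 1 → IsUnit c := by
    intro c hc
    by_contra hcu
    have h1 : c ∈ IsLocalRing.maximalIdeal ↥Λ := (IsLocalRing.mem_maximalIdeal _).mpr hcu
    have h2 : c - 1 ∈ IsLocalRing.maximalIdeal ↥Λ := by
      obtain ⟨d, hd⟩ := hc
      rw [hd]
      exact Ideal.mul_mem_right _ _ hπmem
    have h3 : (1 : ↥Λ) ∈ IsLocalRing.maximalIdeal ↥Λ := by
      have h4 := Ideal.sub_mem _ h1 h2
      rwa [sub_sub_cancel] at h4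
    exact (IsLocalRing.maximalIdeal.isMaximal ↥Λ).ne_top ((Ideal.eq_top_iff_one _).mpr h3)
  obtain ⟨ψ', hψ', -⟩ := s34Sloc_pres (GaussL.piL hΛ) hloc
    (Fermat.Agent.S24.jL L (M * q))⁻¹ iB hiB (fun c => hiBΛ c) hB ψ hcusp
  -- `Λ` inside the semilocal ring
  have hΛmem : ∀ c : ↥Λ,
      algebraMap L ↥(laurentBaseChange L (modularFunctionFieldFull (M * q))) (c : L) ∈
        s34Sloc ↥Λ (Fermat.Agent.S24.jL L (M * q))⁻¹ := fun c =>
    algebraMap_mem_s34Sloc (Fermat.Agent.S24.jL L (M * q))⁻¹ c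
  have hψ'Λ : ∀ c : ↥Λ, ψ' ⟨_, hΛmem c⟩ = c := by
    intro c
    have h1 := hψ' (algebraMap ↥Λ B c) (by rw [hiBΛ]; exact hΛmem c)
    rw [AlgHom.commutes] at h1
    have h2 : (⟨iB (algebraMap ↥Λ B c), by rw [hiBΛ]; exact hΛmem c⟩ :
        ↥(s34Sloc ↥Λ (Fermat.Agent.S24.jL L (M * q))⁻¹)) = ⟨_, hΛmem c⟩ :=
      Subtype.ext (hiBΛ c)
    rw [← h2, h1]
    rfl
  have hsurj : Function.Surjective ψ' := fun c => ⟨_, hψ'Λ c⟩
  -- the two degeneracy maps
  let αA : A →+* ↥(s34Sloc ↥Λ (Fermat.Agent.S24.jL L (M * q))⁻¹) :=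
    RingHom.codRestrict
      ((heckeAlphaBar L M q : ↥(laurentBaseChange L (modularFunctionFieldFull M)) →+*
        ↥(laurentBaseChange L (modularFunctionFieldFull (M * q)))).comp iA) _
      (fun a => instinf_alpha_mem M q ((hA _).mp ⟨a, rfl⟩))
  let βA : A →+* ↥(s34Sloc ↥Λ (Fermat.Agent.S24.jL L (M * q))⁻¹) :=
    RingHom.codRestrict
      ((heckeBetaBar L M q : ↥(laurentBaseChange L (modularFunctionFieldFull M)) →+*
        ↥(laurentBaseChange L (modularFunctionFieldFull (M * q)))).comp iA) _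
      (fun a => instinf_beta_mem M q hΛ hq ζ hζ hζΛ ((hA _).mp ⟨a, rfl⟩))
  have hβΛ : ∀ c : ↥Λ, βA (algebraMap ↥Λ A c) = ⟨_, hΛmem c⟩ := fun c =>
    Subtype.ext (by
      show heckeBetaBar L M q (iA (algebraMap ↥Λ A c)) = _
      rw [hiAΛ, AlgHom.commutes])
  have hsurjβ : Function.Surjective (ψ'.comp βA) := fun c =>
    ⟨algebraMap ↥Λ A c, by rw [RingHom.comp_apply, hβΛ, hψ'Λ]⟩
  have hmax : (Ideal.comap ψ' (Ideal.span {GaussL.piL hΛ})).IsMaximal :=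
    Ideal.comap_isMaximal_of_surjective ψ' hsurj
  have hmaxβ : ((Ideal.comap ψ' (Ideal.span {GaussL.piL hΛ})).comap βA).IsMaximal := by
    rw [Ideal.comap_comap]
    exact Ideal.comap_isMaximal_of_surjective _ hsurjβ
  have : IsNoetherianRing A :=
    inst_isNoetherianRing_of_chart hΛ M _ (Or.inr rfl) iA hiA hA
  -- the Frobenius lifts
  obtain ⟨sA, hsA⟩ := s34db_exists_lift iA hiA
    ((arithmeticRingAut (modularFunctionFieldFull M) φ :
      ↥(laurentBaseChange L (modularFunctionFieldFull M)) →+*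
        ↥(laurentBaseChange L (modularFunctionFieldFull M))).comp iA)
    (fun a => (hA _).mpr (inst_ringAut_inv M φ hφΛ ((hA _).mp ⟨a, rfl⟩)))
  let φΛ : ↥Λ →+* ↥Λ :=
    ((φ : L →+* L).comp Λ.subtype).codRestrict Λ (fun a => hφΛ a a.2)
  have hTS : ∀ z : ↥(laurentBaseChange L (modularFunctionFieldFull (M * q))),
      z ∈ s34Sloc ↥Λ (Fermat.Agent.S24.jL L (M * q))⁻¹ →
      arithmeticRingAut (modularFunctionFieldFull (M * q)) φ z ∈
        s34Sloc ↥Λ (Fermat.Agent.S24.jL L (M * q))⁻¹ := by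
    intro z hz
    exact s35f1ci_map_mem_sloc (Λ := ↥Λ)
      (arithmeticRingAut (modularFunctionFieldFull (M * q)) φ :
        ↥(laurentBaseChange L (modularFunctionFieldFull (M * q))) →+*
          ↥(laurentBaseChange L (modularFunctionFieldFull (M * q)))) φΛ
      (fun c => arithmeticRingAut_algebraMap (modularFunctionFieldFull (M * q)) φ (c : L))
      (Fermat.Agent.S24.jL L (M * q))⁻¹
      (by rw [RingHom.coe_coe, map_inv₀, inst_ringAut_jL])
      (fun z hz => inst_ringAut_inv (M * q) φ hφΛ hz) hz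
  let sS : ↥(s34Sloc ↥Λ (Fermat.Agent.S24.jL L (M * q))⁻¹) →+*
      ↥(s34Sloc ↥Λ (Fermat.Agent.S24.jL L (M * q))⁻¹) :=
    RingHom.codRestrict
      ((arithmeticRingAut (modularFunctionFieldFull (M * q)) φ :
        ↥(laurentBaseChange L (modularFunctionFieldFull (M * q))) →+*
          ↥(laurentBaseChange L (modularFunctionFieldFull (M * q)))).comp
        (s34Sloc ↥Λ (Fermat.Agent.S24.jL L (M * q))⁻¹).subtype) _
      (fun s => hTS _ s.2)
  have hSO : ∀ s : ↥(s34Sloc ↥Λ (Fermat.Agent.S24.jL L (M * q))⁻¹),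
      (s34Sloc ↥Λ (Fermat.Agent.S24.jL L (M * q))⁻¹).subtype s ∈ kronO Λ res ι M q hcop :=
    fun s => instinf_mem_kronO ι M q hcop hΛ hq s.2
  -- the two vertical primes lie in the centre of the extended point
  have h1S : ∀ s : ↥(s34Sloc ↥Λ (Fermat.Agent.S24.jL L (M * q))⁻¹),
      kronRedInf Λ res ι M q hcop ⟨_, hSO s⟩ = 0 →
        s ∈ Ideal.comap ψ' (Ideal.span {GaussL.piL hΛ}) := by
    intro s hs
    obtain ⟨a, b₀, hb₀, himp⟩ := s35f1ci_exists_clear (GaussL.piL hΛ) hloc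
      (Fermat.Agent.S24.jL L (M * q))⁻¹ iB (fun c => hiBΛ c) hB ψ hcusp ψ' hψ' s
    have haO : Polynomial.aeval (Fermat.Agent.S24.jL L (M * q))⁻¹ a ∈ kronO Λ res ι M q hcop :=
      instinf_mem_kronO ι M q hcop hΛ hq (aeval_mem_s34Sloc _ a)
    have hb₀O : iB b₀ ∈ kronO Λ res ι M q hcop := by
      rw [hb₀]; exact Subring.mul_mem _ haO (hSO s)
    have hred : kronRedInf Λ res ι M q hcop ⟨iB b₀, hb₀O⟩ = 0 := by
      have e : (⟨iB b₀, hb₀O⟩ : ↥(kronO Λ res ι M q hcop)) = ⟨_, haO⟩ * ⟨_, hSO s⟩ :=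
        Subtype.ext hb₀
      rw [e, map_mul, hs, mul_zero]
    exact Ideal.mem_span_singleton.mpr (himp (h1 b₀ ⟨hb₀O, hred⟩))
  have h2S : ∀ s : ↥(s34Sloc ↥Λ (Fermat.Agent.S24.jL L (M * q))⁻¹),
      kronRedZero Λ res ι M q hcop ⟨_, hSO s⟩ = 0 →
        s ∈ Ideal.comap ψ' (Ideal.span {GaussL.piL hΛ}) := by
    intro s hs
    obtain ⟨a, b₀, hb₀, himp⟩ := s35f1ci_exists_clear (GaussL.piL hΛ) hloc
      (Fermat.Agent.S24.jL L (M * q))⁻¹ iB (fun c => hiBΛ c) hB ψ hcusp ψ' hψ' s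
    have haO : Polynomial.aeval (Fermat.Agent.S24.jL L (M * q))⁻¹ a ∈ kronO Λ res ι M q hcop :=
      instinf_mem_kronO ι M q hcop hΛ hq (aeval_mem_s34Sloc _ a)
    have hb₀O : iB b₀ ∈ kronO Λ res ι M q hcop := by
      rw [hb₀]; exact Subring.mul_mem _ haO (hSO s)
    have hred : kronRedZero Λ res ι M q hcop ⟨iB b₀, hb₀O⟩ = 0 := by
      have e : (⟨iB b₀, hb₀O⟩ : ↥(kronO Λ res ι M q hcop)) = ⟨_, haO⟩ * ⟨_, hSO s⟩ :=
        Subtype.ext hb₀
      rw [e, map_mul, hs, mul_zero]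
    exact Ideal.mem_span_singleton.mpr (himp (h2 b₀ ⟨hb₀O, hred⟩))
  have hbS : iB b ∈ s34Sloc ↥Λ (Fermat.Agent.S24.jL L (M * q))⁻¹ :=
    mem_s34Sloc_of_isIntegral ((hB _).mp ⟨b, rfl⟩)
  have hb'S : iB b' ∈ s34Sloc ↥Λ (Fermat.Agent.S24.jL L (M * q))⁻¹ :=
    mem_s34Sloc_of_isIntegral ((hB _).mp ⟨b', rfl⟩)
  have := hmax
  have key := s35f1c_cross_stable_gen ι M q hcop hΛ hq φ hφΛ hφΛs hφ iA
    (s34Sloc ↥Λ (Fermat.Agent.S24.jL L (M * q))⁻¹).subtype Subtype.val_injective αA βA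
    (fun a => rfl) (fun a => rfl)
    (algebraMap ↥Λ A (GaussL.piL hΛ)) (hiAΛ _)
    (fun a => instinf_mem_gaussV ι M q hcop hΛ hq ((hA _).mp ⟨a, rfl⟩))
    hSO
    (fun c hc => by
      obtain ⟨a', h1, h2, ha', hne⟩ := inst_frac_inv M q hΛ hq hcop hc
      obtain ⟨a₁, rfl⟩ := (hA _).mpr h1
      obtain ⟨a₂, ha₂⟩ := (hA _).mpr h2
      exact ⟨a₁, a₂, ha₂, ha', hne⟩)
    sA hsA sS (fun s => rfl)
    (Ideal.comap ψ' (Ideal.span {GaussL.piL hΛ})) h1S h2S hmaxβ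
    (hU _ hmaxβ (by
      rw [Ideal.mem_comap, Ideal.mem_comap, hβΛ, hψ'Λ]
      exact Ideal.mem_span_singleton_self _))
    ⟨iB b, hbS⟩
  have e1 : sS (sS ⟨iB b, hbS⟩) = ⟨iB b', hb'S⟩ := Subtype.ext hb.symm
  rw [e1, Ideal.mem_comap, Ideal.mem_comap, hψ', hψ', Ideal.mem_span_singleton,
    Ideal.mem_span_singleton] at key
  exact key

end L45

end Fermat.Agent.S35
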