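import Mathlib
import Fermat.Agent.S34.ModelMDefs
import Fermat.Agent.S35.F1Val
import Fermat.Agent.S35.F1cSigFin
import Fermat.Agent.S35.F1cSigInf

/-!
# P20 (S35), block F1, concrete part: `hsig_fin` / `hsig_inf` of `s35f1_kummer_laurent3`

Generic KRON setting (`L` a field of characteristic `0`, `Λ ⊆ L` a Gauss ring), concrete chart
rings `B_t = integralClosure Λ[t]` of `F = F_{Mq}(L)`, `t = j` resp. `t = j⁻¹`; `σ` an automorphism
of `L` stabilising `Λ` and inducing the `q`-th power Frobenius on the residue field,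
`T = arithmeticRingAut σ`, `s2 = T ∘ T`.

* `s35f1c_hsig_fin` : for a `Λ`-point `ψ` of `B_j` whose centre is a crossing point (it contains
  `{w₁ < 1}` and `{w₂ < 1}`), `π ∣ ψ b → π ∣ ψ b'` whenever `b' = s2 b`;
* `s35f1c_hsig_inf` : the same on `B_{j⁻¹}` for a `Λ`-point through the cusp `j⁻¹ = 0`.

These are `s35f1c_cross_stable_fin` / `_inf` at `A, B :=` the chart rings, with the crossing
hypotheses translated to the valuation form (`S35/F1Val.lean`).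
-/

set_option autoImplicit false

namespace Fermat.Agent.S35

open ModularCurve AlgebraicCurve
open Fermat.Agent.S18 Fermat.Agent.S28 Fermat.Agent.S28.FreeBasisAbs Fermat.Agent.S34

variable {L k : Type*} [Field L] [Algebra ℚ L] [Field k] {Λ : Subring L} {π : L}
  {res : ↥Λ →+* k}

set_option synthInstance.maxHeartbeats 400000 in
set_option maxHeartbeats 1000000 in
/-- **`hsig_fin`**: crossing `Λ`-points of the chart `j` are stable under `s2 = T ∘ T`. -/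
theorem s35f1c_hsig_fin [CharZero L]
    (ι : L →+* ℂ) (M q : ℕ) [NeZero M] [NeZero q] (hcop : Nat.Coprime M q)
    (hΛ : IsGaussRing Λ π res) (hq : q.Prime) [CharP k q]
    (ζ : Lˣ) (hζ : IsPrimitiveRoot ζ q) (hζΛ : (ζ : L) ∈ Λ)
    (σ : L ≃ₐ[ℚ] L) (hσΛ : ∀ a ∈ Λ, σ a ∈ Λ) (hσΛs : ∀ a ∈ Λ, σ.symm a ∈ Λ)
    (hσres : ∀ a : ↥Λ, res ⟨σ a, hσΛ a a.2⟩ = res a ^ q)
    (hM : S34MstarAt Λ M (GaussL.piL hΛ))
    (s2 : ↥(laurentBaseChange L (modularFunctionFieldFull (M * q))) ≃+*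
      ↥(laurentBaseChange L (modularFunctionFieldFull (M * q))))
    (hs2 : ∀ f, s2 f = arithmeticRingAut (modularFunctionFieldFull (M * q)) σ
      (arithmeticRingAut (modularFunctionFieldFull (M * q)) σ f))
    (ψ : ↥(integralClosure (Algebra.adjoin ↥Λ {Fermat.Agent.S24.jL L (M * q)})
      ↥(laurentBaseChange L (modularFunctionFieldFull (M * q)))) →ₐ[↥Λ] ↥Λ)
    (h1 : ∀ b : ↥(integralClosure (Algebra.adjoin ↥Λ {Fermat.Agent.S24.jL L (M * q)})
      ↥(laurentBaseChange L (modularFunctionFieldFull (M * q)))),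
      s35valW₁ hΛ (M * q) (b : ↥(laurentBaseChange L (modularFunctionFieldFull (M * q)))) < 1 →
        GaussL.piL hΛ ∣ ψ b)
    (h2 : ∀ b : ↥(integralClosure (Algebra.adjoin ↥Λ {Fermat.Agent.S24.jL L (M * q)})
      ↥(laurentBaseChange L (modularFunctionFieldFull (M * q)))),
      s35valW₂ hΛ ι M q hcop
        (b : ↥(laurentBaseChange L (modularFunctionFieldFull (M * q)))) < 1 →
        GaussL.piL hΛ ∣ ψ b)
    (b b' : ↥(integralClosure (Algebra.adjoin ↥Λ {Fermat.Agent.S24.jL L (M * q)})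
      ↥(laurentBaseChange L (modularFunctionFieldFull (M * q)))))
    (hb : (b' : ↥(laurentBaseChange L (modularFunctionFieldFull (M * q)))) =
      s2 (b : ↥(laurentBaseChange L (modularFunctionFieldFull (M * q)))))
    (hψ : GaussL.piL hΛ ∣ ψ b) : GaussL.piL hΛ ∣ ψ b' := by
  refine (s35f1c_cross_stable_fin ι M q hcop hΛ hq ζ hζ hζΛ σ hσΛ hσΛs hσres
    (A := ↥(integralClosure (Algebra.adjoin ↥Λ {Fermat.Agent.S24.jL L M})
      (Fermat.Agent.S24.FFL L M)))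
    (B := ↥(integralClosure (Algebra.adjoin ↥Λ {Fermat.Agent.S24.jL L (M * q)})
      (Fermat.Agent.S24.FFL L (M * q))))
    (algebraMap _ _) (algebraMap _ _) Subtype.val_injective Subtype.val_injective
    (fun c => rfl) (fun c => rfl)
    (fun z => ⟨fun ⟨a, ha⟩ => ha ▸ a.2, fun hz => ⟨⟨z, hz⟩, rfl⟩⟩)
    (fun z => ⟨fun ⟨a, ha⟩ => ha ▸ a.2, fun hz => ⟨⟨z, hz⟩, rfl⟩⟩)
    (fun 𝔐 h𝔐 hπ => hM.1 𝔐 h𝔐 hπ) ψ ?_ ?_ b b' ?_).mpr hψ
  · rintro c ⟨h, hred⟩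
    exact h1 c ((s35val_w₁_lt_one_iff_redInf hΛ ι M q hcop ⟨_, h⟩).mpr hred)
  · rintro c ⟨h, hred⟩
    exact h2 c ((s35val_w₂_lt_one_iff_redZero hΛ ι M q hcop ⟨_, h⟩).mpr hred)
  · exact hb.trans (hs2 _)

set_option synthInstance.maxHeartbeats 400000 in
set_option maxHeartbeats 1000000 in
/-- **`hsig_inf`**: crossing `Λ`-points of the chart `j⁻¹` through the cusp are stable under
`s2 = T ∘ T`. -/
theorem s35f1c_hsig_inf [CharZero L]
    (ι : L →+* ℂ) (M q : ℕ) [NeZero M] [NeZero q] (hcop : Nat.Coprime M q)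
    (hΛ : IsGaussRing Λ π res) (hq : q.Prime) [CharP k q]
    (ζ : Lˣ) (hζ : IsPrimitiveRoot ζ q) (hζΛ : (ζ : L) ∈ Λ)
    (σ : L ≃ₐ[ℚ] L) (hσΛ : ∀ a ∈ Λ, σ a ∈ Λ) (hσΛs : ∀ a ∈ Λ, σ.symm a ∈ Λ)
    (hσres : ∀ a : ↥Λ, res ⟨σ a, hσΛ a a.2⟩ = res a ^ q)
    (hM : S34MstarAt Λ M (GaussL.piL hΛ))
    (s2 : ↥(laurentBaseChange L (modularFunctionFieldFull (M * q))) ≃+*
      ↥(laurentBaseChange L (modularFunctionFieldFull (M * q))))
    (hs2 : ∀ f, s2 f = arithmeticRingAut (modularFunctionFieldFull (M * q)) σ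
      (arithmeticRingAut (modularFunctionFieldFull (M * q)) σ f))
    (ψ : ↥(integralClosure (Algebra.adjoin ↥Λ {(Fermat.Agent.S24.jL L (M * q))⁻¹})
      ↥(laurentBaseChange L (modularFunctionFieldFull (M * q)))) →ₐ[↥Λ] ↥Λ)
    (hcusp : ∃ a : ↥(integralClosure (Algebra.adjoin ↥Λ {(Fermat.Agent.S24.jL L (M * q))⁻¹})
      ↥(laurentBaseChange L (modularFunctionFieldFull (M * q)))),
      (a : ↥(laurentBaseChange L (modularFunctionFieldFull (M * q)))) =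
        (Fermat.Agent.S24.jL L (M * q))⁻¹ ∧ GaussL.piL hΛ ∣ ψ a)
    (h1 : ∀ b : ↥(integralClosure (Algebra.adjoin ↥Λ {(Fermat.Agent.S24.jL L (M * q))⁻¹})
      ↥(laurentBaseChange L (modularFunctionFieldFull (M * q)))),
      s35valW₁ hΛ (M * q) (b : ↥(laurentBaseChange L (modularFunctionFieldFull (M * q)))) < 1 →
        GaussL.piL hΛ ∣ ψ b)
    (h2 : ∀ b : ↥(integralClosure (Algebra.adjoin ↥Λ {(Fermat.Agent.S24.jL L (M * q))⁻¹})
      ↥(laurentBaseChange L (modularFunctionFieldFull (M * q)))),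
      s35valW₂ hΛ ι M q hcop
        (b : ↥(laurentBaseChange L (modularFunctionFieldFull (M * q)))) < 1 →
        GaussL.piL hΛ ∣ ψ b)
    (b b' : ↥(integralClosure (Algebra.adjoin ↥Λ {(Fermat.Agent.S24.jL L (M * q))⁻¹})
      ↥(laurentBaseChange L (modularFunctionFieldFull (M * q)))))
    (hb : (b' : ↥(laurentBaseChange L (modularFunctionFieldFull (M * q)))) =
      s2 (b : ↥(laurentBaseChange L (modularFunctionFieldFull (M * q)))))
    (hψ : GaussL.piL hΛ ∣ ψ b) : GaussL.piL hΛ ∣ ψ b' := by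
  refine (s35f1c_cross_stable_inf ι M q hcop hΛ hq ζ hζ hζΛ σ hσΛ hσΛs hσres
    (A := ↥(integralClosure (Algebra.adjoin ↥Λ {(Fermat.Agent.S24.jL L M)⁻¹})
      (Fermat.Agent.S24.FFL L M)))
    (B := ↥(integralClosure (Algebra.adjoin ↥Λ {(Fermat.Agent.S24.jL L (M * q))⁻¹})
      (Fermat.Agent.S24.FFL L (M * q))))
    (algebraMap _ _) (algebraMap _ _) Subtype.val_injective Subtype.val_injective
    (fun c => rfl) (fun c => rfl)
    (fun z => ⟨fun ⟨a, ha⟩ => ha ▸ a.2, fun hz => ⟨⟨z, hz⟩, rfl⟩⟩)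
    (fun z => ⟨fun ⟨a, ha⟩ => ha ▸ a.2, fun hz => ⟨⟨z, hz⟩, rfl⟩⟩)
    (fun 𝔐 h𝔐 hπ => hM.2 𝔐 h𝔐 hπ) ψ ?_ ?_ ?_ b b' ?_).mpr hψ
  · intro b₀ hb₀
    obtain ⟨a, ha, haψ⟩ := hcusp
    have hab : b₀ = a := Subtype.ext (hb₀.trans ha.symm)
    rw [hab]
    exact haψ
  · rintro c ⟨h, hred⟩
    exact h1 c ((s35val_w₁_lt_one_iff_redInf hΛ ι M q hcop ⟨_, h⟩).mpr hred)
  · rintro c ⟨h, hred⟩
    exact h2 c ((s35val_w₂_lt_one_iff_redZero hΛ ι M q hcop ⟨_, h⟩).mpr hred)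
  · exact hb.trans (hs2 _)

end Fermat.Agent.S35
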