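import Mathlib
import Fermat.Agent.S34.GeoSetup
import Fermat.Agent.S34.GeoPT
import Fermat.Agent.S34.KronDefs
import Fermat.Agent.S34.KronBasic
import Fermat.Agent.S34.ModelMDefs
import Fermat.Agent.S35.F1Kummer3
import Fermat.Agent.S35.F1ValDefs
import Fermat.Agent.S35.F1CoreValB
import Fermat.Agent.S35.F1DictL
import Fermat.Agent.S35.F1cHSig
import Fermat.Agent.S35.F1HInst
import Fermat.Prelude.Def_ModularCurve_ArithmeticGalois

/-!
# P20 (S35), block F1: assembly of the generic-`L` core (`s35f1_core_L`)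

`s35f1_core_L` (statement = the pinned core of the team note `P20-F1-CORE-PIN`): the binders
of `s35f1_kummer_laurent3` at the instantiation `Λ := ↥Λ`, `K := L`,
`E := laurentBaseChange L (modularFunctionFieldFull (M * q))`, `π := GaussL.piL hΛ`,
`j := S24.jL L (M * q)`, `w₁ := s35valW₁ hΛ (M * q)`, `w₂ := s35valW₂ hΛ ι M q hcop`,
`s2 := (T σ).trans (T σ)`, `Q := q ^ 2`, filled by the landed providers:

* VAL + `s2` glue: `S35/F1CoreValB.lean` (`s35f1coreB_hVw`, ...);
* `hdict_fin`, `hdict_inf`: `S35/F1DictL.lean` (`s35f1_hdict_fin`, `s35f1_hdict_inf`);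
* `hsig_fin`, `hsig_inf`: `S35/F1cHSig.lean` (`s35f1c_hsig_fin`, `s35f1c_hsig_inf`);
* `hinst_fin`, `hinst_inf`: `S35/F1HInst.lean` (`s35f1_hinst_fin`, `s35f1_hinst_inf`), with the
  Kronecker automorphism `φ := σ` (its inverse lifts the inverse Frobenius).
-/

set_option autoImplicit false
set_option linter.style.haveILetI false
set_option linter.unusedVariables false

namespace Fermat.Agent.S35

open ModularCurve AlgebraicCurve IntermediateField IsDedekindDomain
open Fermat.Agent.S18 Fermat.Agent.S28.FreeBasisAbs Fermat.Agent.S34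

set_option maxHeartbeats 1000000 in
set_option synthInstance.maxHeartbeats 400000 in
/-- **The core of F1 over a generic field** (the pinned statement). -/
theorem s35f1_core_L {L k : Type*} [Field L] [Algebra ℚ L] [CharZero L] [Field k]
    {Λ : Subring L} {π : L} {res : ↥Λ →+* k}
    [IsDiscreteValuationRing ↥Λ] [IsFractionRing ↥Λ L]
    (ι : L →+* ℂ) (M q : ℕ) [NeZero M] [NeZero q] (hcop : Nat.Coprime M q)
    (hΛ : IsGaussRing Λ π res) (hq : q.Prime) [CharP k q]
    (ζq : Lˣ) (hζq : IsPrimitiveRoot ζq q) (hζqΛ : (ζq : L) ∈ Λ)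
    (hM : S34MstarAt Λ M (GaussL.piL hΛ))
    [IsDedekindDomain ↥(integralClosure (Algebra.adjoin L {Fermat.Agent.S24.jL L (M * q)})
      ↥(laurentBaseChange L (modularFunctionFieldFull (M * q))))]
    [IsFractionRing ↥(integralClosure (Algebra.adjoin L {Fermat.Agent.S24.jL L (M * q)})
      ↥(laurentBaseChange L (modularFunctionFieldFull (M * q))))
      ↥(laurentBaseChange L (modularFunctionFieldFull (M * q)))]
    [IsDedekindDomain ↥(integralClosure (Algebra.adjoin L {(Fermat.Agent.S24.jL L (M * q))⁻¹})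
      ↥(laurentBaseChange L (modularFunctionFieldFull (M * q))))]
    [IsFractionRing ↥(integralClosure (Algebra.adjoin L {(Fermat.Agent.S24.jL L (M * q))⁻¹})
      ↥(laurentBaseChange L (modularFunctionFieldFull (M * q))))
      ↥(laurentBaseChange L (modularFunctionFieldFull (M * q)))]
    (m : ℕ) (hm : IsUnit (m : ↥Λ)) (ζ : ↥Λ) (hζ : IsPrimitiveRoot ζ m)
    (σ : L ≃ₐ[ℚ] L) (hσΛ : ∀ a ∈ Λ, σ a ∈ Λ) (hσΛs : ∀ a ∈ Λ, σ.symm a ∈ Λ)
    (hσres : ∀ a : ↥Λ, res ⟨σ a, hσΛ a a.2⟩ = res a ^ q)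
    (u : ↥(kronO Λ res ι M q hcop))
    (hu1 : kronRedInf Λ res ι M q hcop u = 1) (hu2 : kronRedZero Λ res ι M q hcop u = 1)
    (W : LaurentSeries L)
    (hW : W ^ m =
      ((arithmeticRingAut (modularFunctionFieldFull (M * q)) σ
          (arithmeticRingAut (modularFunctionFieldFull (M * q)) σ
            (u : ↥(laurentBaseChange L (modularFunctionFieldFull (M * q))))) /
        (u : ↥(laurentBaseChange L (modularFunctionFieldFull (M * q)))) ^ (q ^ 2) :
        ↥(laurentBaseChange L (modularFunctionFieldFull (M * q)))) : LaurentSeries L))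
    (hdiv_fin : ∀ 𝔔 : HeightOneSpectrum ↥(integralClosure
        (Algebra.adjoin L {Fermat.Agent.S24.jL L (M * q)})
        ↥(laurentBaseChange L (modularFunctionFieldFull (M * q)))),
      ∃ n : ℤ, 𝔔.valuation ↥(laurentBaseChange L (modularFunctionFieldFull (M * q)))
        (u : ↥(laurentBaseChange L (modularFunctionFieldFull (M * q)))) =
        WithZero.exp ((m : ℤ) * n))
    (hdiv_inf : ∀ 𝔔 : HeightOneSpectrum ↥(integralClosure
        (Algebra.adjoin L {(Fermat.Agent.S24.jL L (M * q))⁻¹})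
        ↥(laurentBaseChange L (modularFunctionFieldFull (M * q)))),
      ∃ n : ℤ, 𝔔.valuation ↥(laurentBaseChange L (modularFunctionFieldFull (M * q)))
        (u : ↥(laurentBaseChange L (modularFunctionFieldFull (M * q)))) =
        WithZero.exp ((m : ℤ) * n))
    (hres_fin : ∀ 𝔔 : HeightOneSpectrum ↥(integralClosure
        (Algebra.adjoin L {Fermat.Agent.S24.jL L (M * q)})
        ↥(laurentBaseChange L (modularFunctionFieldFull (M * q)))),
      𝔔.valuation ↥(laurentBaseChange L (modularFunctionFieldFull (M * q)))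
        (u : ↥(laurentBaseChange L (modularFunctionFieldFull (M * q)))) ≠ 1 →
      ∀ y : ↥(integralClosure (Algebra.adjoin L {Fermat.Agent.S24.jL L (M * q)})
          ↥(laurentBaseChange L (modularFunctionFieldFull (M * q)))),
        ∃ c : L, y - algebraMap L _ c ∈ 𝔔.asIdeal)
    (hres_inf : ∀ 𝔔 : HeightOneSpectrum ↥(integralClosure
        (Algebra.adjoin L {(Fermat.Agent.S24.jL L (M * q))⁻¹})
        ↥(laurentBaseChange L (modularFunctionFieldFull (M * q)))),
      𝔔.valuation ↥(laurentBaseChange L (modularFunctionFieldFull (M * q)))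
        (u : ↥(laurentBaseChange L (modularFunctionFieldFull (M * q)))) ≠ 1 →
      ∀ y : ↥(integralClosure (Algebra.adjoin L {(Fermat.Agent.S24.jL L (M * q))⁻¹})
          ↥(laurentBaseChange L (modularFunctionFieldFull (M * q)))),
        ∃ c : L, y - algebraMap L _ c ∈ 𝔔.asIdeal) :
    ∃ y : ↥(laurentBaseChange L (modularFunctionFieldFull (M * q))), y ^ m =
      arithmeticRingAut (modularFunctionFieldFull (M * q)) σ
          (arithmeticRingAut (modularFunctionFieldFull (M * q)) σ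
            (u : ↥(laurentBaseChange L (modularFunctionFieldFull (M * q))))) /
        (u : ↥(laurentBaseChange L (modularFunctionFieldFull (M * q)))) ^ (q ^ 2) := by
  have hϖ : Irreducible (GaussL.piL hΛ) := (GaussL.prime_piL hΛ).irreducible
  haveI : IsScalarTower ↥Λ L (Fermat.Agent.S24.FFL L (M * q)) := s34geo_tower_L Λ (M * q)
  haveI := s34geo_finiteDimensional_jL L (M * q)
  have hj := Fermat.Agent.S24.transcendental_jL (M * q) L
  have hφ : ∀ a : ↥Λ, res ⟨σ.symm a, hσΛs a a.2⟩ ^ q = res a := by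
    intro a
    rw [← hσres ⟨σ.symm a, hσΛs a a.2⟩]
    congr 1
    exact Subtype.ext (σ.apply_symm_apply a)
  refine s35f1_kummer_laurent3 (laurentBaseChange L (modularFunctionFieldFull (M * q)))
    (GaussL.piL hΛ) hϖ (Fermat.Agent.S24.jL L (M * q)) hj m hm ζ hζ
    (s35valW₁ hΛ (M * q)) (s35valW₂ hΛ ι M q hcop) ?_ ?_ ?_ ?_ ?_
    ((arithmeticRingAut (modularFunctionFieldFull (M * q)) σ).trans
      (arithmeticRingAut (modularFunctionFieldFull (M * q)) σ)) ?_ ?_ ?_ ?_ ?_ (q ^ 2) ?_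
    (u : ↥(laurentBaseChange L (modularFunctionFieldFull (M * q)))) ?_ ?_ W hW hdiv_fin hdiv_inf
    ?_ ?_ ?_ ?_ ?_ ?_
  · exact s35f1coreB_hVw hΛ ι M q hcop hq
  · exact s35f1coreB_hπw hΛ ι M q hcop hq
  · exact s35f1coreB_hπ₁ hΛ M q
  · exact s35f1coreB_hπ₂ hΛ ι M q hcop
  · exact s35f1coreB_hΛ₁ hΛ M q
  · exact s35f1coreB_hs2j (M * q) σ
  · exact s35f1coreB_hs2Λ (M * q) σ hσΛ
  · exact s35f1coreB_hs2Λs (M * q) σ hσΛs
  · exact s35f1coreB_hs₁ (M * q) σ hΛ hσΛ hσΛs
  · exact s35f1coreB_hs₂ hΛ ι M q hcop hq σ hσΛ hσΛs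
  · exact s35f1coreB_hfrob (M * q) σ hΛ q hσΛ hσres
  · exact s35f1coreB_hu ι M q hcop u hu1
  · exact s35f1coreB_hu1 hΛ ι M q hcop hq u hu1 hu2
  · exact s35f1_hdict_fin (GaussL.piL hΛ) hϖ (Fermat.Agent.S24.jL L (M * q)) _ hres_fin
  · exact fun ψ => s35f1_hinst_fin ι M q hcop hΛ hq ζq hζq hζqΛ σ hσΛs hφ hM ψ
  · exact s35f1c_hsig_fin ι M q hcop hΛ hq ζq hζq hζqΛ σ hσΛ hσΛs hσres hM _ (fun _ => rfl)
  · exact s35f1_hdict_inf (GaussL.piL hΛ) hϖ (Fermat.Agent.S24.jL L (M * q)) _ hres_inf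
  · exact fun ψ hc => s35f1_hinst_inf ι M q hcop hΛ hq ζq hζq hζqΛ σ hσΛs hφ hM ψ hc
  · exact s35f1c_hsig_inf ι M q hcop hΛ hq ζq hζq hζqΛ σ hσΛ hσΛs hσres hM _ (fun _ => rfl)

end Fermat.Agent.S35
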