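import Mathlib
import Fermat.Agent.S34.ModelDefs
import Fermat.Agent.S34.NodeGlobalSmooth
import Fermat.Agent.S34.NodeGlobalCrossB
import Fermat.Agent.S34.GalGeo

/-!
# P20 (S35), block F1, leaf GEO: `σ² x = Q x` from an `m`-th root of `σ²(u) / u ^ Q`

Bookkeeping in the frozen `Pic⁰` formalism, in the style of `S34/GalPic.lean`, `S34/GalGeo.lean`.
Let `g` be a semilinear automorphism of a function field `F / K` and `D` a divisor of degree zero
with `m • D = div u`.  The function `g • g • u / u ^ Q` has divisor `m • (g • g • D - Q • D)`;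
hence if it is an `m`-th power `w ^ m`, then `g • g • D - Q • D = div w` and
`g • g • x = Q • x` for the class `x = [D]`.

`s35f1_geo_of_pow_field` is the instance for `J₀(N)`, the arithmetic Galois action of
`σ ∈ Gal(ℚ̄ / ℚ)` and a Kummer generator `u` defined over a normal number field `K`.
-/

set_option autoImplicit false

namespace Fermat.Agent.S35

open Fermat.Agent.S34

section Abstract

open AlgebraicCurve

variable {K F : Type*} [Field K] [Field F] [Algebra K F]

/-- Orders of `g • g • u / u ^ Q` for a function `u` with divisor `E`. -/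
theorem s35f1geo_ord_quot (g : SemilinearAut K F) (Q : ℕ) {u : F} (hu : u ≠ 0)
    (E : Divisor K F) (hE : ∀ v : Place K F, E v = v.ord u) (v : Place K F) :
    v.ord (g • g • u / u ^ Q) = (g • g • E - (Q : ℤ) • E) v := by
  have h1 : g • u ≠ 0 := s34gal_smul_ne_zero g hu
  have h2 : g • g • u ≠ 0 := s34gal_smul_ne_zero g h1
  rw [s34gal_ord_div v h2 (pow_ne_zero Q hu), s34gal_ord_smul g v, s34gal_ord_smul g (g⁻¹ • v),
    ← zpow_natCast, v.ord_zpow]
  simp only [Finsupp.sub_apply, Finsupp.smul_apply, SemilinearAut.divisor_smul_apply, hE,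
    smul_eq_mul]

/-- If `g • g • u / u ^ Q` is an `m`-th power for a Kummer generator `u` of `[D]`
(`m • D = div u`), then `g • g • [D] = Q • [D]`. -/
theorem s35f1geo_class_eq (g : SemilinearAut K F) {m : ℕ} (hm : m ≠ 0) (Q : ℕ)
    (D : Divisor.degZero (K := K) (F := F)) {u : F} (hu : u ≠ 0)
    (hD : ∀ v : Place K F, (m • (D : Divisor K F)) v = v.ord u)
    {w : F} (hz : w ^ m = g • g • u / u ^ Q) :
    g • g • Pic0.mk D = (Q : ℤ) • Pic0.mk D := by
  have hz0 : g • g • u / u ^ Q ≠ 0 :=
    div_ne_zero (s34gal_smul_ne_zero g (s34gal_smul_ne_zero g hu)) (pow_ne_zero Q hu)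
  have hw : w ≠ 0 := fun h => by
    rw [← hz, h, zero_pow hm] at hz0
    exact hz0 rfl
  have hm' : (m : ℤ) ≠ 0 := by exact_mod_cast hm
  have hcls : g • g • Pic0.mk D - (Q : ℤ) • Pic0.mk D =
      Pic0.mk (SemilinearAut.degZeroSMulHom g (SemilinearAut.degZeroSMulHom g D) -
        (Q : ℤ) • D) := by
    rw [SemilinearAut.pic0_smul_mk, SemilinearAut.pic0_smul_mk]
    rfl
  rw [← sub_eq_zero, hcls]
  refine (QuotientAddGroup.eq_zero_iff _).mpr ?_
  rw [AddSubgroup.mem_addSubgroupOf]
  refine ⟨w, hw, fun v => ?_⟩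
  have h1 := s35f1geo_ord_quot g Q hu (m • (D : Divisor K F)) hD v
  rw [← hz, ← zpow_natCast, v.ord_zpow] at h1
  have h2 : (g • g • (m • (D : Divisor K F)) - (Q : ℤ) • (m • (D : Divisor K F))) v =
      (m : ℤ) * (g • g • (D : Divisor K F) - (Q : ℤ) • (D : Divisor K F)) v := by
    simp only [Finsupp.sub_apply, Finsupp.smul_apply, SemilinearAut.divisor_smul_apply,
      nsmul_eq_mul, smul_eq_mul]
    ring
  rw [h2] at h1
  have h3 := mul_left_cancel₀ hm' h1
  simpa using h3.symm

end Abstract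

section Generic

open AlgebraicCurve ModularCurve IntermediateField

variable (F₀ : IntermediateField ℚ (LaurentSeries ℚ))

/-- The embedding of `σ(σ(u)) / u ^ Q` into the function field over `ℚ̄`. -/
theorem s35f1geo_emb_quot (K : IntermediateField ℚ (AlgebraicClosure ℚ)) [Normal ℚ ↥K]
    (σ : AlgebraicClosure ℚ ≃ₐ[ℚ] AlgebraicClosure ℚ) (Q : ℕ)
    (u : ↥(laurentBaseChange (↥K) F₀)) :
    s34galEmb F₀ K (arithmeticRingAut F₀ (σ.restrictNormal ↥K)
        (arithmeticRingAut F₀ (σ.restrictNormal ↥K) u) / u ^ Q) =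
      arithmeticGalois F₀ σ • arithmeticGalois F₀ σ • s34galEmb F₀ K u /
        s34galEmb F₀ K u ^ Q := by
  rw [map_div₀, map_pow, s34galEmb_arithmeticRingAut, s34galEmb_arithmeticRingAut]

end Generic

open AlgebraicCurve ModularCurve IntermediateField in
/-- (F1-GEO, file `S35/F1Geo.lean`) analogue of `S34.s34gal_geo_of_pow_field` for
`σ²(u) / u ^ Q`. -/
theorem s35f1_geo_of_pow_field (N : ℕ) {m : ℕ} (hm : m ≠ 0) (Q : ℕ)
    (σ : AlgebraicClosure ℚ ≃ₐ[ℚ] AlgebraicClosure ℚ)
    (x : JZero N) (K : IntermediateField ℚ (AlgebraicClosure ℚ)) [Normal ℚ ↥K]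
    (D : Divisor.degZero (K := AlgebraicClosure ℚ) (F := modularFunctionFieldBar N))
    (u y : ↥(laurentBaseChange (↥K) (modularFunctionFieldFull N)))
    (hD : Pic0.mk D = x) (hu : u ≠ 0)
    (hdiv : ∀ v : Place (AlgebraicClosure ℚ) (modularFunctionFieldBar N),
      (m • (D : Divisor (AlgebraicClosure ℚ) (modularFunctionFieldBar N))) v =
        v.ord (s34galEmb (modularFunctionFieldFull N) K u))
    (hy : y ^ m =
      arithmeticRingAut (modularFunctionFieldFull N) (σ.restrictNormal ↥K)
          (arithmeticRingAut (modularFunctionFieldFull N) (σ.restrictNormal ↥K) u) / u ^ Q) :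
    σ • σ • x = (Q : ℤ) • x := by
  rw [← hD]
  refine s35f1geo_class_eq (arithmeticGalois (modularFunctionFieldFull N) σ) hm Q D
    (u := s34galEmb (modularFunctionFieldFull N) K u) ?_ hdiv
    (w := s34galEmb (modularFunctionFieldFull N) K y) ?_
  · exact fun h => hu (s34galEmb_injective _ K (by rw [h, map_zero]))
  · rw [← s35f1geo_emb_quot, ← hy, map_pow]

end Fermat.Agent.S35
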