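import Mathlib
import Fermat.Agent.S34.KronFrobEx

/-!
# P20 (S35), block F1-CONC, leaf L1: a Frobenius element restricted to a normal number field

For a valuation subring `A` of `ℚ̄`, a Frobenius element `σ ∈ Gal(ℚ̄/ℚ)` at `A` (exponent `q`)
and a normal `K ⊆ ℚ̄`, the restriction `φ = σ|K` and its inverse preserve `Λ = A ∩ K`, and
`φ` acts as `x ↦ x ^ q` on residues (in the residue field of `Λ` and in that of `A`).

The proofs mirror `S34.kron_exists_frob`.
-/

set_option autoImplicit false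

namespace Fermat.Agent.S35

open IntermediateField
open Fermat.Agent.S18 Fermat.Agent.S34

local notation "Qb" => AlgebraicClosure ℚ

section L1
open Fermat.Agent.S18.NumField
variable (A : ValuationSubring Qb) (K : IntermediateField ℚ Qb) [Normal ℚ ↥K] {q : ℕ}

/-- The restriction of `σ` to `K` commutes with the inclusion `K ⊆ ℚ̄`. -/
theorem s35f1ck_coe_restrict (σ : Qb ≃ₐ[ℚ] Qb) (a : ↥K) :
    ((σ.restrictNormal ↥K a : ↥K) : Qb) = σ (a : Qb) :=
  AlgEquiv.restrictNormal_commutes σ ↥K a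

/-- The inverse of the restriction of `σ` to `K` is the restriction of `σ⁻¹`. -/
theorem s35f1ck_coe_restrict_symm (σ : Qb ≃ₐ[ℚ] Qb) (a : ↥K) :
    (((σ.restrictNormal ↥K).symm a : ↥K) : Qb) = σ.symm (a : Qb) := by
  have h := AlgEquiv.restrictNormal_commutes σ ↥K ((σ.restrictNormal ↥K).symm a)
  rw [AlgEquiv.apply_symm_apply] at h
  exact (σ.symm_apply_eq.mpr h).symm

theorem s35f1c_restrict_mem_lam {σ : Qb ≃ₐ[ℚ] Qb} (hσ : A.IsFrobeniusAt σ q)
    (a : ↥K) (ha : a ∈ (lam A K).toSubring) : σ.restrictNormal ↥K a ∈ (lam A K).toSubring := by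
  have ha' : (a : Qb) ∈ A := mem_lam_iff.mp ha
  have h1 := Fermat.Agent.S37.apply_mem_of_mem_decomposition hσ.mem_decompositionSubgroup ha'
  show σ.restrictNormal ↥K a ∈ lam A K
  rw [mem_lam_iff, s35f1ck_coe_restrict]
  exact h1

theorem s35f1c_restrict_symm_mem_lam {σ : Qb ≃ₐ[ℚ] Qb} (hσ : A.IsFrobeniusAt σ q)
    (a : ↥K) (ha : a ∈ (lam A K).toSubring) :
    (σ.restrictNormal ↥K).symm a ∈ (lam A K).toSubring := by
  have hdec' : σ⁻¹ ∈ A.decompositionSubgroup ℚ :=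
    (A.decompositionSubgroup ℚ).inv_mem hσ.mem_decompositionSubgroup
  have ha' : (a : Qb) ∈ A := mem_lam_iff.mp ha
  have h1 := Fermat.Agent.S37.apply_mem_of_mem_decomposition hdec' ha'
  show (σ.restrictNormal ↥K).symm a ∈ lam A K
  rw [mem_lam_iff, s35f1ck_coe_restrict_symm]
  exact h1

/-- Frobenius congruence on `Λ = A ∩ K`, residue field of `Λ`. -/
theorem s35f1c_restrict_res {σ : Qb ≃ₐ[ℚ] Qb} (hσ : A.IsFrobeniusAt σ q)
    (a : ↥(lam A K).toSubring) :
    lamRes A K ⟨σ.restrictNormal ↥K (a : ↥K), s35f1c_restrict_mem_lam A K hσ a a.2⟩ =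
      lamRes A K a ^ q := by
  apply lamResMap_injective A K
  rw [map_pow]
  show lamResMap A K (IsLocalRing.residue (lam A K)
      ⟨σ.restrictNormal ↥K (a : ↥K), s35f1c_restrict_mem_lam A K hσ a a.2⟩) =
    lamResMap A K (IsLocalRing.residue (lam A K) a) ^ q
  rw [lamResMap_residue, lamResMap_residue]
  refine Fermat.Agent.S37.residue_eq_pow_of_isFrobeniusAt hσ ?_
  rw [coe_lamIncl, coe_lamIncl]
  exact s35f1ck_coe_restrict K σ a

/-- Frobenius congruence on `Λ = A ∩ K`, residue field of `A`. -/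
theorem s35f1c_restrict_resA {σ : Qb ≃ₐ[ℚ] Qb} (hσ : A.IsFrobeniusAt σ q)
    (a : ↥(lam A K).toSubring) :
    lamResA A K ⟨σ.restrictNormal ↥K (a : ↥K), s35f1c_restrict_mem_lam A K hσ a a.2⟩ =
      lamResA A K a ^ q := by
  rw [← lamResMap_lamRes, ← lamResMap_lamRes, s35f1c_restrict_res A K hσ a, map_pow]

/-- the hypothesis `hφ` of `kron_kronecker` / `kron_inst_fin` for `φ = σ|K`. -/
theorem s35f1c_restrict_symm_res {σ : Qb ≃ₐ[ℚ] Qb} (hσ : A.IsFrobeniusAt σ q)
    (a : ↥(lam A K).toSubring) :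
    lamRes A K ⟨(σ.restrictNormal ↥K).symm (a : ↥K),
      s35f1c_restrict_symm_mem_lam A K hσ a a.2⟩ ^ q = lamRes A K a := by
  rw [← s35f1c_restrict_res A K hσ
    ⟨(σ.restrictNormal ↥K).symm (a : ↥K), s35f1c_restrict_symm_mem_lam A K hσ a a.2⟩]
  congr 1
  exact Subtype.ext ((σ.restrictNormal ↥K).apply_symm_apply (a : ↥K))

theorem s35f1c_restrict_symm_resA {σ : Qb ≃ₐ[ℚ] Qb} (hσ : A.IsFrobeniusAt σ q)
    (a : ↥(lam A K).toSubring) :
    lamResA A K ⟨(σ.restrictNormal ↥K).symm (a : ↥K),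
      s35f1c_restrict_symm_mem_lam A K hσ a a.2⟩ ^ q = lamResA A K a := by
  rw [← s35f1c_restrict_resA A K hσ
    ⟨(σ.restrictNormal ↥K).symm (a : ↥K), s35f1c_restrict_symm_mem_lam A K hσ a a.2⟩]
  congr 1
  exact Subtype.ext ((σ.restrictNormal ↥K).apply_symm_apply (a : ↥K))

end L1

end Fermat.Agent.S35
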