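import Mathlib
import Fermat.Agent.S24.Defs
import Fermat.Agent.S24.LaurentOrder
import Fermat.Agent.S24.Places
import Fermat.Agent.S34.RootSd
import Fermat.Agent.S34.GalField

/-!
# P20 (S35), block F1-CONC, leaf L6: the `m`-th root of `sigma^2(u) / u ^ Q` in `K((q))`

* `s35f1c_exists_pow_eq`: a nonzero Laurent series over a field of characteristic zero whose
  order is divisible by `m` and whose leading coefficient is an `m`-th power is an `m`-th power.
* `s35f1c_exists_root_series`: hence `sigma^2(u) / u ^ Q` is an `m`-th power in `L((q))`.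
* `s35f1c_dvd_order`: the order of the `q`-expansion is a positive multiple of the order at a
  place (the cusp at infinity), so it is divisible by `m` when all place orders are.
* `s35f1c_exists_field_root`: a number field containing an `m`-th root of the leading
  coefficient.
* `s35f1c_exists_root`: the root used by the integrator.
-/

set_option autoImplicit false
set_option linter.unusedVariables false

namespace Fermat.Agent.S35

open ModularCurve AlgebraicCurve IntermediateField
open Fermat.Agent.S34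

local notation "Qb" => AlgebraicClosure ℚ

/-- a nonzero Laurent series whose order is divisible by `m` and whose leading coefficient is an
`m`-th power is an `m`-th power (characteristic `0`). -/
theorem s35f1c_exists_pow_eq {K : Type*} [Field K] [CharZero K] {m : ℕ} (hm : m ≠ 0)
    (u : LaurentSeries K) (hu : u ≠ 0) (hord : (m : ℤ) ∣ u.order)
    (b : K) (hb : b ^ m = u.leadingCoeff) : ∃ U : LaurentSeries K, U ^ m = u := by
  obtain ⟨k, hk⟩ := hord
  have hc : u.leadingCoeff ≠ 0 := HahnSeries.leadingCoeff_ne_zero.mpr hu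
  have hpsp : PowerSeries.constantCoeff u.powerSeriesPart = u.leadingCoeff := by
    have h := LaurentSeries.powerSeriesPart_coeff u 0
    rw [PowerSeries.coeff_zero_eq_constantCoeff_apply] at h
    rw [h, Nat.cast_zero, add_zero, ← HahnSeries.leadingCoeff_eq]
  obtain ⟨w, hw, -⟩ := s34root_exists_pow hm
    (PowerSeries.C (u.leadingCoeff)⁻¹ * u.powerSeriesPart) (by
      rw [map_mul, PowerSeries.constantCoeff_C, hpsp, inv_mul_cancel₀ hc])
  refine ⟨HahnSeries.single k b * HahnSeries.ofPowerSeries ℤ K w, ?_⟩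
  have h1 : (HahnSeries.single k b : LaurentSeries K) ^ m
      = HahnSeries.single u.order (1 : K) * HahnSeries.C u.leadingCoeff := by
    rw [HahnSeries.single_pow, hb, HahnSeries.C_apply, HahnSeries.single_mul_single, add_zero,
      one_mul, hk, nsmul_eq_mul]
  have h3 : (HahnSeries.ofPowerSeries ℤ K w) ^ m
      = HahnSeries.C (u.leadingCoeff)⁻¹ * HahnSeries.ofPowerSeries ℤ K u.powerSeriesPart := by
    rw [← map_pow, hw, map_mul, HahnSeries.ofPowerSeries_C]
  rw [mul_pow, h1, h3]
  have h2 : (HahnSeries.C u.leadingCoeff : LaurentSeries K) * HahnSeries.C (u.leadingCoeff)⁻¹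
      = 1 := by
    rw [← map_mul, mul_inv_cancel₀ hc, map_one]
  calc HahnSeries.single u.order (1 : K) * HahnSeries.C u.leadingCoeff *
        (HahnSeries.C (u.leadingCoeff)⁻¹ * HahnSeries.ofPowerSeries ℤ K u.powerSeriesPart)
      = HahnSeries.single u.order (1 : K) * HahnSeries.ofPowerSeries ℤ K u.powerSeriesPart *
        ((HahnSeries.C u.leadingCoeff : LaurentSeries K) * HahnSeries.C (u.leadingCoeff)⁻¹) := by
        ring
    _ = u := by
        rw [h2, mul_one]
        exact LaurentSeries.single_order_mul_powerSeriesPart u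

theorem s35f1c_exists_root_series (F₀ : IntermediateField ℚ (LaurentSeries ℚ))
    {L : Type*} [Field L] [Algebra ℚ L] [CharZero L] (σ : L ≃ₐ[ℚ] L) {m : ℕ} (hm : m ≠ 0)
    (Q : ℕ) (u : ↥(laurentBaseChange L F₀)) (hu : u ≠ 0)
    (hord : (m : ℤ) ∣ (u : LaurentSeries L).order)
    (b : L) (hb : b ^ m = (u : LaurentSeries L).leadingCoeff) :
    ∃ W : LaurentSeries L,
      W ^ m = ((arithmeticRingAut F₀ σ (arithmeticRingAut F₀ σ u) / u ^ Q :
        ↥(laurentBaseChange L F₀)) : LaurentSeries L) := by
  have hu' : (u : LaurentSeries L) ≠ 0 := fun h => hu (Subtype.ext h)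
  obtain ⟨U, hU⟩ := s35f1c_exists_pow_eq hm (u : LaurentSeries L) hu' hord b hb
  refine ⟨coeffMap (σ : L →+* L) (coeffMap (σ : L →+* L) U) / U ^ Q, ?_⟩
  have h1 : ((arithmeticRingAut F₀ σ (arithmeticRingAut F₀ σ u) / u ^ Q :
        ↥(laurentBaseChange L F₀)) : LaurentSeries L)
      = coeffMap (σ : L →+* L) (coeffMap (σ : L →+* L) (u : LaurentSeries L))
        / (u : LaurentSeries L) ^ Q := rfl
  rw [h1, ← hU, map_pow, map_pow, div_pow, ← pow_mul, ← pow_mul, mul_comm Q m]

/-- the order of the `q`-expansion is a multiple of the order at a place. -/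
theorem s35f1c_dvd_order (N : ℕ) [NeZero N] {m : ℕ}
    (U : ↥(modularFunctionFieldBar N)) (hU : U ≠ 0)
    (hdiv : ∀ P : Place Qb (modularFunctionFieldBar N), (m : ℤ) ∣ P.ord U) :
    (m : ℤ) ∣ (U : LaurentSeries Qb).order := by
  have hne : ∀ f : ↥(modularFunctionFieldBar N), f ≠ 0 → (f : LaurentSeries Qb) ≠ 0 :=
    fun f hf h => hf (Subtype.ext h)
  have hj : ((Fermat.Agent.S24.jL Qb N : ↥(modularFunctionFieldBar N)) : LaurentSeries Qb).order
      = -1 := by
    show (coeffMap (algebraMap ℚ Qb) jq).order = -1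
    rw [Fermat.Agent.S24.order_coeffMap _ (RingHom.injective _), Fermat.Agent.S24.order_jq]
  have hj0 : (Fermat.Agent.S24.jL Qb N : ↥(modularFunctionFieldBar N)) ≠ 0 := by
    intro h
    rw [h] at hj
    have h0 : ((0 : ↥(modularFunctionFieldBar N)) : LaurentSeries Qb).order = 0 :=
      HahnSeries.order_zero
    rw [h0] at hj
    norm_num at hj
  obtain ⟨w, d, -, hw⟩ := Fermat.Agent.S24.exists_place_of_valuation
    (K := Qb) (F := ↥(modularFunctionFieldBar N))
    (fun f => (f : LaurentSeries Qb).order)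
    (fun f g hf hg => HahnSeries.order_mul (hne f hf) (hne g hg))
    (fun f g _ _ hfg => HahnSeries.min_order_le_order_add (hne _ hfg))
    (fun a ha => by
      show (algebraMap Qb (LaurentSeries Qb) a).order = 0
      rw [algebraMap_laurentSeries_eq_single, HahnSeries.order_single ha])
    (y := (Fermat.Agent.S24.jL Qb N)⁻¹) (inv_ne_zero hj0) (by
      show 0 < (((Fermat.Agent.S24.jL Qb N : ↥(modularFunctionFieldBar N)) :
        LaurentSeries Qb)⁻¹).order
      rw [Fermat.Agent.S24.laurent_order_inv, hj]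
      norm_num)
  have h : (U : LaurentSeries Qb).order = (d : ℤ) * w.ord U := hw U hU
  rw [h]
  exact Dvd.dvd.mul_left (hdiv w) _

/-- an injective coefficient map commutes with the leading coefficient -/
theorem s35f1cr_leadingCoeff_coeffMap {R S : Type*} [CommRing R] [CommRing S] (φ : R →+* S)
    (hφ : Function.Injective φ) (x : LaurentSeries R) :
    (coeffMap φ x).leadingCoeff = φ x.leadingCoeff := by
  rw [HahnSeries.leadingCoeff_eq, HahnSeries.leadingCoeff_eq,
    Fermat.Agent.S24.order_coeffMap φ hφ, coeffMap_coeff]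

/-- choice of the number field: an `m`-th root of the leading coefficient. -/
theorem s35f1c_exists_field_root (N : ℕ) [NeZero N] {m : ℕ} (hm : m ≠ 0)
    (U : ↥(modularFunctionFieldBar N)) (hU : U ≠ 0) :
    ∃ K₁ : IntermediateField ℚ Qb, FiniteDimensional ℚ ↥K₁ ∧
      ∀ K : IntermediateField ℚ Qb, K₁ ≤ K →
        ∀ u : ↥(laurentBaseChange ↥K (modularFunctionFieldFull N)),
          s34galEmb (modularFunctionFieldFull N) K u = U →
          ∃ b : ↥K, b ^ m = (u : LaurentSeries ↥K).leadingCoeff := by
  obtain ⟨b₀, hb₀⟩ := IsAlgClosed.exists_pow_nat_eq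
    ((U : LaurentSeries Qb).leadingCoeff) (Nat.pos_of_ne_zero hm)
  have : Algebra.IsAlgebraic ℚ Qb := AlgebraicClosure.isAlgebraic ℚ
  refine ⟨ℚ⟮b₀⟯, IntermediateField.adjoin.finiteDimensional (Algebra.IsIntegral.isIntegral b₀),
    fun K hK u huU => ⟨⟨b₀, hK (mem_adjoin_simple_self ℚ b₀)⟩, ?_⟩⟩
  have h1 : (U : LaurentSeries Qb) = coeffMap (algebraMap ↥K Qb) (u : LaurentSeries ↥K) := by
    rw [← huU]
    rfl
  have h2 : (U : LaurentSeries Qb).leadingCoeff
      = algebraMap ↥K Qb ((u : LaurentSeries ↥K).leadingCoeff) := by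
    rw [h1, s35f1cr_leadingCoeff_coeffMap _ (algebraMap ↥K Qb).injective]
  apply (algebraMap ↥K Qb).injective
  rw [map_pow, ← h2, ← hb₀]
  rfl

/-- **ROOT for F1** (what the integrator uses). -/
theorem s35f1c_exists_root (N : ℕ) [NeZero N] {m : ℕ} (hm : m ≠ 0) (Q : ℕ)
    (K : IntermediateField ℚ Qb) (σK : ↥K ≃ₐ[ℚ] ↥K)
    (u : ↥(laurentBaseChange ↥K (modularFunctionFieldFull N))) (hu : u ≠ 0)
    (hdiv : ∀ P : Place Qb (modularFunctionFieldBar N),
      (m : ℤ) ∣ P.ord (s34galEmb (modularFunctionFieldFull N) K u))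
    (b : ↥K) (hb : b ^ m = (u : LaurentSeries ↥K).leadingCoeff) :
    ∃ W : LaurentSeries ↥K,
      W ^ m = ((arithmeticRingAut (modularFunctionFieldFull N) σK
          (arithmeticRingAut (modularFunctionFieldFull N) σK u) / u ^ Q :
        ↥(laurentBaseChange ↥K (modularFunctionFieldFull N))) : LaurentSeries ↥K) := by
  refine s35f1c_exists_root_series (modularFunctionFieldFull N) σK hm Q u hu ?_ b hb
  have hUne : s34galEmb (modularFunctionFieldFull N) K u ≠ 0 := fun h =>
    hu (s34galEmb_injective _ K (h.trans (map_zero _).symm))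
  have h := s35f1c_dvd_order N (s34galEmb (modularFunctionFieldFull N) K u) hUne hdiv
  rwa [coe_s34galEmb, Fermat.Agent.S24.order_coeffMap _ (algebraMap ↥K Qb).injective] at h

end Fermat.Agent.S35
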