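import Fermat.Agent.S35.N3Descend

/-!
# P20 (S35), block N3: descent of `ker κ` to number fields, generator over `ℚ̄` exposed

`s35_kerKappa_descend_emb` : `s35_kerKappa_descend` with the Kummer generator `U` over `ℚ̄`
exposed: over every large enough number field `K` the generator `u_K ∈ kronO` has image `U`
under `s34galEmb`.
-/

set_option autoImplicit false

namespace Fermat.Agent.S35

open ModularCurve AlgebraicCurve Fermat.Agent.S18 Fermat.Agent.S18.NumField Fermat.Agent.S34
  Fermat.Agent.S37 IntermediateField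

local notation "Qb" => AlgebraicClosure ℚ

/-- **Descent of `ker κ`**, with the generator `U` over `ℚ̄` exposed. -/
theorem s35_kerKappa_descend_emb {N q m : ℕ} [NeZero N] [NeZero q] (hq : q.Prime)
    (hcop : Nat.Coprime N q) (A : ValuationSubring Qb) (hA : A.LiesOverPrime q)
    {y : JZero (N * q)} (hy : s35_kerKappa A N q hcop m y) :
    ∃ (D : Divisor.degZero (K := Qb) (F := modularFunctionFieldBar (N * q)))
      (U : ↥(modularFunctionFieldBar (N * q))) (K₀ : IntermediateField ℚ Qb),
      FiniteDimensional ℚ ↥K₀ ∧ Pic0.mk D = y ∧ U ≠ 0 ∧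
      (∀ v : Place Qb (modularFunctionFieldBar (N * q)),
        (m • (D : Divisor Qb (modularFunctionFieldBar (N * q)))) v = v.ord U) ∧
      ∀ K : IntermediateField ℚ Qb, K₀ ≤ K → FiniteDimensional ℚ ↥K → ∀ ι : ↥K →+* ℂ,
        ∃ u : ↥(kronO (lam A K).toSubring (lamRes A K) ι N q hcop),
          s34galEmb (modularFunctionFieldFull (N * q)) K
            (u : ↥(laurentBaseChange ↥K (modularFunctionFieldFull (N * q)))) = U ∧
          kronRedInf (lam A K).toSubring (lamRes A K) ι N q hcop u = 1 ∧
          kronRedZero (lam A K).toSubring (lamRes A K) ι N q hcop u = 1 ∧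
          (∀ P : Place Qb (modularFunctionFieldBar (N * q)),
            P.ord U ≠ 0 → s34galRational (modularFunctionFieldFull (N * q)) K P) := by
  have hqF : Fact q.Prime := ⟨hq⟩
  obtain ⟨D, U, hD, hdiv, hUi, hU0⟩ := hy
  have hUne : (U : ↥(modularFunctionFieldBar (N * q))) ≠ 0 := by
    intro h
    have h0 : U = 0 := Subtype.ext h
    rw [h0, map_zero] at hUi
    exact zero_ne_one hUi
  obtain ⟨K₁, hK₁, hemb⟩ := s34gal_exists_emb_eq (modularFunctionFieldFull (N * q))
    (U : ↥(modularFunctionFieldBar (N * q)))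
  have hj : Transcendental Qb (S24.jL Qb (N * q)) := S24.transcendental_jL (N * q) Qb
  have : FiniteDimensional Qb⟮S24.jL Qb (N * q)⟯
      ↥(laurentBaseChange Qb (modularFunctionFieldFull (N * q))) :=
    S24.finiteDimensional_jL (N * q) Qb
  have hfin : {P : Place Qb (modularFunctionFieldBar (N * q)) |
      P.ord (U : ↥(modularFunctionFieldBar (N * q))) ≠ 0}.Finite :=
    S24.finite_setOf_ord_ne_zero hj hUne
  obtain ⟨L, hL, -, hrat⟩ :=
    s34gal_exists_rational (modularFunctionFieldFull (N * q)) hj _ hfin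
  refine ⟨D, (U : ↥(modularFunctionFieldBar (N * q))), K₁ ⊔ L,
    IntermediateField.finiteDimensional_sup K₁ L, hD, hUne, hdiv, fun K hK hKfd ι => ?_⟩
  obtain ⟨u, hu⟩ := hemb K (le_trans le_sup_left hK)
  -- membership in the two Gauss rings
  have hu1A : u ∈ GaussL.gaussV (lam A K).toSubring (lamResA A K)
      (laurentBaseChange ↥K (modularFunctionFieldFull (N * q))) := by
    apply s35n3_mem_gaussV_of_emb A K hA
    rw [hu]
    exact U.2.1
  have hWemb := s35n3_emb_W K N q hcop hq ι u
  rw [hu] at hWemb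
  have hu2A : kronW ↥K ι N q hcop u ∈ GaussL.gaussV (lam A K).toSubring (lamResA A K)
      (laurentBaseChange ↥K (modularFunctionFieldFull (N * q))) := by
    apply s35n3_mem_gaussV_of_emb A K hA
    rw [hWemb]
    exact U.2.2
  have hu1 := (s35n3x_mem_gaussV_lamRes_iff A K).mpr hu1A
  have hu2 := (s35n3x_mem_gaussV_lamRes_iff A K).mpr hu2A
  have hmem : u ∈ kronO (lam A K).toSubring (lamRes A K) ι N q hcop :=
    (mem_kronO_iff _ _ _ _ _ _).mpr ⟨hu1, hu2⟩
  have hone : coeffMap (lamResMap A K) (1 : LaurentSeries (IsLocalRing.ResidueField ↥(lam A K)))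
      = 1 := map_one _
  refine ⟨⟨u, hmem⟩, ?_, ?_, ?_, ?_⟩
  · exact hu
  · have e1 := s35n3x_gaussRed_lamResA_eq A K hu1
    have e2 := s35n3_redA_emb A K hu1A
    have h1 : (⟨s34galEmb (modularFunctionFieldFull (N * q)) K u,
        s35n3_emb_mem_gaussA A K hu1A⟩ : ↥(gaussA A (N * q))) =
        ⟨(U : ↥(modularFunctionFieldBar (N * q))), U.2.1⟩ := Subtype.ext hu
    have e3 : redA A (N * q) ⟨s34galEmb (modularFunctionFieldFull (N * q)) K u,
        s35n3_emb_mem_gaussA A K hu1A⟩ = 1 := (congrArg (redA A (N * q)) h1).trans hUi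
    apply coeffMap_lamResMap_injective A K
    exact (e1.symm.trans (e2.symm.trans e3)).trans hone.symm
  · have e1 := s35n3x_gaussRed_lamResA_eq A K hu2
    have e2 := s35n3_redA_emb A K hu2A
    have h1 : (⟨s34galEmb (modularFunctionFieldFull (N * q)) K (kronW ↥K ι N q hcop u),
        s35n3_emb_mem_gaussA A K hu2A⟩ : ↥(gaussA A (N * q))) =
        ⟨s35_W N q hcop (U : ↥(modularFunctionFieldBar (N * q))), U.2.2⟩ := Subtype.ext hWemb
    have e3 : redA A (N * q) ⟨s34galEmb (modularFunctionFieldFull (N * q)) K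
        (kronW ↥K ι N q hcop u), s35n3_emb_mem_gaussA A K hu2A⟩ = 1 :=
      (congrArg (redA A (N * q)) h1).trans hU0
    apply coeffMap_lamResMap_injective A K
    exact (e1.symm.trans (e2.symm.trans e3)).trans hone.symm
  · intro P hP
    exact s34galRational_mono _ (le_trans le_sup_right hK) (hrat P hP)

end Fermat.Agent.S35
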