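import Fermat.Prelude.Def_ModularCurve_ArithmeticGalois
import Fermat.Prelude.Def_FLTPrelim_Ramification
import Fermat.Agent.S35.N3DescendU
import Fermat.Agent.S35.F1cFrobK
import Fermat.Agent.S35.F1Geo
import Fermat.Agent.S34.GeoSetup
import Fermat.Agent.S34.GalDict
import Fermat.Agent.S34.ModelM
import Fermat.Agent.S37.Hecke
import Fermat.Agent.S35.F1Core
import Fermat.Agent.S35.F1cRootSeries

/-!
# P20 (S35), block F1, top half: `hF1` from the generic-`L` core

`s35_f1`: for a Frobenius element `σ` at `A ∣ q` and a class `y ∈ J₀(N q)[m]` lying in `ker κ`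
(`m` prime to `q`), `σ² y = q² y`.

Assembly (mirror of `S34/Geo.lean`): descent of the normalised Kummer generator to a large normal
number field `K` (`s35_kerKappa_descend_emb`), the core `s35f1_core_L` at `L = K`, `Λ = A ∩ K`
(`s35f1_core_K`), and the translation back to the Jacobian (`s35f1_geo_of_pow_field`).
-/

set_option autoImplicit false
set_option linter.style.haveILetI false

namespace Fermat.Agent.S35

open ModularCurve AlgebraicCurve IntermediateField IsDedekindDomain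
open Fermat.Agent.S18 Fermat.Agent.S18.NumField Fermat.Agent.S28.FreeBasisAbs Fermat.Agent.S34

local notation "Qb" => AlgebraicClosure ℚ

set_option maxHeartbeats 4000000 in
set_option synthInstance.maxHeartbeats 400000 in
/-- The core of F1 over a normal number field `K` containing enough roots of unity and over which
(M*) holds. -/
theorem s35f1_core_K (M q : ℕ) [NeZero M] [NeZero q] (hq : q.Prime) (hcop : Nat.Coprime M q)
    (m : ℕ) (hmq : ¬ q ∣ m)
    (A : ValuationSubring Qb) (hA : A.LiesOverPrime q)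
    (σ : Qb ≃ₐ[ℚ] Qb) (hσ : A.IsFrobeniusAt σ q)
    (K : IntermediateField ℚ Qb) [FiniteDimensional ℚ ↥K] [Normal ℚ ↥K] (ι : ↥K →+* ℂ)
    (ζ : ↥(lam A K).toSubring) (hζ : IsPrimitiveRoot ζ m)
    (ζq : (↥K)ˣ) (hζq : IsPrimitiveRoot ζq q) (hζqΛ : (ζq : ↥K) ∈ (lam A K).toSubring)
    (hM : ∀ ϖ : ↥(lam A K).toSubring, Irreducible ϖ → S34MstarAt (lam A K).toSubring M ϖ)
    (u : ↥(kronO (lam A K).toSubring (lamRes A K) ι M q hcop))
    (hu : (u : ↥(laurentBaseChange (↥K) (modularFunctionFieldFull (M * q)))) ≠ 0)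
    (hu1 : kronRedInf (lam A K).toSubring (lamRes A K) ι M q hcop u = 1)
    (hu2 : kronRedZero (lam A K).toSubring (lamRes A K) ι M q hcop u = 1)
    (b : ↥K) (hb : b ^ m =
      ((u : ↥(laurentBaseChange (↥K) (modularFunctionFieldFull (M * q)))) :
        LaurentSeries ↥K).leadingCoeff)
    (hrat : ∀ P : Place Qb (modularFunctionFieldBar (M * q)),
      P.ord (s34galEmb (modularFunctionFieldFull (M * q)) K
        (u : ↥(laurentBaseChange (↥K) (modularFunctionFieldFull (M * q))))) ≠ 0 →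
        s34galRational (modularFunctionFieldFull (M * q)) K P)
    (hdvd : ∀ P : Place Qb (modularFunctionFieldBar (M * q)),
      (m : ℤ) ∣ P.ord (s34galEmb (modularFunctionFieldFull (M * q)) K
        (u : ↥(laurentBaseChange (↥K) (modularFunctionFieldFull (M * q)))))) :
    ∃ y : ↥(laurentBaseChange (↥K) (modularFunctionFieldFull (M * q))), y ^ m =
      arithmeticRingAut (modularFunctionFieldFull (M * q)) (σ.restrictNormal ↥K)
          (arithmeticRingAut (modularFunctionFieldFull (M * q)) (σ.restrictNormal ↥K)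
            (u : ↥(laurentBaseChange (↥K) (modularFunctionFieldFull (M * q))))) /
        (u : ↥(laurentBaseChange (↥K) (modularFunctionFieldFull (M * q)))) ^ (q ^ 2) := by
  haveI : Fact q.Prime := ⟨hq⟩
  have hm0 : m ≠ 0 := by
    rintro rfl
    exact hmq (dvd_zero q)
  haveI := s34geo_isDVR A K hA
  haveI := s34geo_isFractionRing A K
  obtain ⟨ϖ, hϖ⟩ := exists_irreducible_lam (A := A) (K := K) hA
  have hΛ := isGaussRing_lam hA hϖ
  haveI : CharP (IsLocalRing.ResidueField (lam A K)) q := charP_residueField_lam K hA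
  haveI := s34geo_isDedekindDomain_fin ↥K (M * q)
  haveI := s34geo_isFractionRing_fin ↥K (M * q)
  haveI := s34geo_isDedekindDomain_inv ↥K (M * q)
  haveI := s34geo_isFractionRing_inv ↥K (M * q)
  have hFF := Fermat.Agent.S37.isFF_modularFunctionFieldBar (M * q)
  obtain ⟨W, hW⟩ := s35f1c_exists_root (M * q) hm0 (q ^ 2) K (σ.restrictNormal ↥K)
    (u : ↥(laurentBaseChange (↥K) (modularFunctionFieldFull (M * q)))) hu hdvd b hb
  exact s35f1_core_L ι M q hcop hΛ hq ζq hζq hζqΛ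
    (hM (GaussL.piL hΛ) (GaussL.prime_piL hΛ).irreducible)
    m (s34geo_isUnit_natCast A K hA hmq) ζ hζ (σ.restrictNormal ↥K)
    (fun a ha => s35f1c_restrict_mem_lam A K hσ a ha)
    (fun a ha => s35f1c_restrict_symm_mem_lam A K hσ a ha)
    (fun a => s35f1c_restrict_res A K hσ a)
    u hu1 hu2 W hW
    (fun 𝔔 => s34gal_dict_dvd (modularFunctionFieldFull (M * q)) hFF K m _ hu hdvd hrat 𝔔)
    (fun 𝔔 => s34gal_dict_dvd (modularFunctionFieldFull (M * q)) hFF K m _ hu hdvd hrat 𝔔)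
    (fun 𝔔 h𝔔u => s34gal_dict_residue (modularFunctionFieldFull (M * q)) hFF K _ hu hrat 𝔔 h𝔔u)
    (fun 𝔔 h𝔔u => s34gal_dict_residue (modularFunctionFieldFull (M * q)) hFF K _ hu hrat 𝔔 h𝔔u)

/-- **[F1]**: on `ker κ ∩ J₀(N q)[m]` (`q ∤ N`, `m` prime to `q`), the square of a Frobenius
element at `q` acts as multiplication by `q²`. -/
theorem s35_f1 {N q m : ℕ} [NeZero N] [NeZero q] (hq : q.Prime) (hqN : ¬ q ∣ N)
    (hcop : Nat.Coprime N q) (hm : Nat.Coprime m q)
    (A : ValuationSubring Qb) (hA : A.LiesOverPrime q)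
    (σ : Qb ≃ₐ[ℚ] Qb) (hσ : A.IsFrobeniusAt σ q)
    (y : JZero (N * q)) (hker : s35_kerKappa A N q hcop m y) :
    σ • σ • y = ((q ^ 2 : ℕ) : ℤ) • y := by
  haveI : Fact q.Prime := ⟨hq⟩
  have hmq : ¬ q ∣ m := fun h => hq.ne_one (Nat.eq_one_of_dvd_coprimes hm h dvd_rfl)
  have hm0 : m ≠ 0 := by
    rintro rfl
    exact hmq (dvd_zero q)
  -- the normalised Kummer generator
  obtain ⟨D, U, K₁, hK₁, hD, hU, hdiv, hdesc⟩ := s35_kerKappa_descend_emb hq hcop A hA hker
  -- an `m`-th root of the leading coefficient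
  obtain ⟨K₅, hK₅, hrootb⟩ := s35f1c_exists_field_root (N * q) hm0 U hU
  -- roots of unity
  obtain ⟨K₂, hK₂, hroot⟩ := s34geo_exists_primitiveRoot A m hm0
  obtain ⟨K₃, hK₃, hrootq⟩ := s34geo_exists_primitiveRoot_unit A q hq.ne_zero
  -- (M*)
  obtain ⟨K₄, hK₄, hmstar⟩ := s34_mstar N hA hqN
  -- the number field
  haveI : FiniteDimensional ℚ ↥(K₁ ⊔ K₂) := IntermediateField.finiteDimensional_sup K₁ K₂
  haveI : FiniteDimensional ℚ ↥(K₃ ⊔ K₄) := IntermediateField.finiteDimensional_sup K₃ K₄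
  haveI : FiniteDimensional ℚ ↥((K₁ ⊔ K₂) ⊔ (K₃ ⊔ K₄)) :=
    IntermediateField.finiteDimensional_sup _ _
  haveI : FiniteDimensional ℚ ↥(((K₁ ⊔ K₂) ⊔ (K₃ ⊔ K₄)) ⊔ K₅) :=
    IntermediateField.finiteDimensional_sup _ _
  obtain ⟨K, hK, hKn, hKf⟩ := s34geo_exists_normal (((K₁ ⊔ K₂) ⊔ (K₃ ⊔ K₄)) ⊔ K₅)
  have h1 : K₁ ≤ K := le_trans (le_trans (le_trans le_sup_left le_sup_left) le_sup_left) hK
  have h2 : K₂ ≤ K := le_trans (le_trans (le_trans le_sup_right le_sup_left) le_sup_left) hK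
  have h3 : K₃ ≤ K := le_trans (le_trans (le_trans le_sup_left le_sup_right) le_sup_left) hK
  have h4 : K₄ ≤ K := le_trans (le_trans (le_trans le_sup_right le_sup_right) le_sup_left) hK
  have h5 : K₅ ≤ K := le_trans le_sup_right hK
  obtain ⟨ι⟩ := s34geo_nonempty_emb K
  obtain ⟨u, hemb, hu1, hu2, hrat⟩ := hdesc K h1 hKf ι
  obtain ⟨ζ, hζ⟩ := hroot K h2
  obtain ⟨ζq, hζq, hζqΛ⟩ := hrootq K h3
  obtain ⟨b, hb⟩ := hrootb K h5 _ hemb
  have hu : (u : ↥(laurentBaseChange (↥K) (modularFunctionFieldFull (N * q)))) ≠ 0 := by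
    intro h0
    rw [h0, map_zero] at hemb
    exact hU hemb.symm
  have hdvd : ∀ P : Place Qb (modularFunctionFieldBar (N * q)),
      (m : ℤ) ∣ P.ord (s34galEmb (modularFunctionFieldFull (N * q)) K
        (u : ↥(laurentBaseChange (↥K) (modularFunctionFieldFull (N * q))))) := by
    intro P
    rw [hemb, ← hdiv P]
    exact ⟨(D : Divisor Qb (modularFunctionFieldBar (N * q))) P, by
      rw [Finsupp.smul_apply, nsmul_eq_mul]⟩
  obtain ⟨f, hf⟩ := s35f1_core_K N q hq hcop m hmq A hA σ hσ K ι ζ hζ ζq hζq hζqΛ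
    (fun ϖ hϖ => hmstar K h4 ϖ hϖ) u hu hu1 hu2 b hb
    (fun P hP => hrat P (by rwa [hemb] at hP)) hdvd
  exact s35f1_geo_of_pow_field (N * q) hm0 (q ^ 2) σ y K D _ f hD hu
    (fun v => by rw [hemb]; exact hdiv v) hf

end Fermat.Agent.S35
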