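import Fermat.Agent.S35.N3
import Fermat.Agent.S35.F1Top

/-!
# P20 (S35): the relation (★)

`s35_star`: for `x` in the `q`-new part of `J₀(N q)[m]` (`q ∤ N`, `m` prime to `q`) and a
Frobenius element `σ` at `q`: `σ⁴ x − (q² + 1) σ² x + q² x = 0`.

Assembly of [N3] (`s35_star_of_f1`: `σ x + W x ∈ ker κ` and the `W`-algebra) and [F1] (`s35_f1`:
`σ² = q²` on `ker κ`).
-/

set_option autoImplicit false

namespace Fermat.Agent.S35

open ModularCurve AlgebraicCurve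

/-- **(★)** -/
theorem s35_star {N q m : ℕ} [NeZero N] [NeZero q] (hq : q.Prime) (hqN : ¬ q ∣ N)
    (hm : Nat.Coprime m q) {x : JZero (N * q)} (hx : x ∈ s35_newPart N q m)
    (A : ValuationSubring (AlgebraicClosure ℚ)) (hA : A.LiesOverPrime q)
    (σ : AlgebraicClosure ℚ ≃ₐ[ℚ] AlgebraicClosure ℚ) (hσ : A.IsFrobeniusAt σ q) :
    σ • σ • σ • σ • x - ((q ^ 2 + 1 : ℕ) : ℤ) • σ • σ • x + ((q ^ 2 : ℕ) : ℤ) • x = 0 := by
  have hcop : Nat.Coprime N q := ((Nat.Prime.coprime_iff_not_dvd hq).2 hqN).symm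
  have hm0 : m ≠ 0 := by
    rintro rfl
    rw [Nat.coprime_zero_left] at hm
    exact hq.ne_one hm
  exact s35_star_of_f1 hq hcop hm0 hx A hA σ hσ
    (fun y _ hker => s35_f1 hq hqN hcop hm A hA σ hσ y hker)

end Fermat.Agent.S35
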