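import Fermat.Agent.S34.Transfer

/-!
# P20 (S35), block T35: the transfer

`s35_charpoly_of_new`: let `ρ` be a rank-two `lam`-adic Galois representation whose Frobenius
elements at the good primes `ℓ ∉ S` have characteristic polynomial `X² − χ(T_ℓ) X + ℓ`
(`χ : 𝕋 → 𝒪'`).  Let `q ≠ lam` be a prime and `P n` a class of characters
`Γ₀(M) → ℤ / lam ^ n` ("the `q`-new characters") such that

* (LAT) an element `e` of the free algebra on the good primes which kills the characters of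
  `P n` has `χ (evHecke e) ∈ lam ^ (n - c) 𝒪'` (`c` independent of `n`);
* (GEO) every `φ ∈ P n` has a Kummer class `x ∈ J₀(M)[lam ^ n]` on which every Frobenius lift
  `σ` at `q` satisfies `(σ² − q²)(σ² − 1) x = 0`.

Then the characteristic polynomial of `ρ(σ)` is `X² ∓ (q + 1) X + q` for every Frobenius lift
`σ` at `q`.

Proof (pattern of S31 / S34 `Transfer`): modulo `𝔪 ^ n`, `ρ(σ)` agrees with `ρ(σ' ^ j)` for a
Frobenius lift `σ'` at a good prime `ℓ` with `σ' ^ j = σ` on a large finite level; then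
`tr ρ(σ) ≡ χ(lucasE ℓ j)`, `det ρ(σ) ≡ ℓ ^ j ≡ q`, and `e := (lucasE ℓ j)² − (q + 1)²` acts on a
Kummer class `x` as `(σ + q σ⁻¹)² − (q + 1)² = σ⁻²(σ² − q²)(σ² − 1)`, hence kills `P n`.
-/

set_option autoImplicit false
set_option linter.style.haveILetI false

namespace Fermat.Agent.S35

open Fermat.Agent.S42 Fermat.Agent.S30 Fermat.Agent.S31 CongruenceSubgroup ModularCurve Polynomial
open scoped MatrixGroups

/-- The element `(lucasE ℓ j)² − (q + 1)²` of the free algebra on the good primes. -/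
noncomputable def s35E {N : ℕ} {S : Set ℕ} (ℓ : GoodPrime N S) (j q : ℕ) :
    FreeAlgebra ℤ (GoodPrime N S) :=
  lucasE ℓ j * lucasE ℓ j - (((q + 1) ^ 2 : ℕ) : FreeAlgebra ℤ (GoodPrime N S))

theorem s35_smul_zsmul {M : ℕ} [NeZero M] (σ : AlgebraicClosure ℚ ≃ₐ[ℚ] AlgebraicClosure ℚ)
    (n : ℤ) (x : JZero M) : σ • (n • x) = n • (σ • x) :=
  map_zsmul (DistribSMul.toAddMonoidHom (JZero M) σ) n x

/-- If the Lucas element of `T_ℓ` acts on Kummer classes as `σ + q σ⁻¹` and `(σ² − q²)(σ² − 1)`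
kills the Kummer class of `φ`, then `(lucasE ℓ j)² − (q + 1)²` kills `φ`. -/
theorem s35_evChar_E_eq_zero {M m : ℕ} [NeZero M] [NeZero m] (S : Set ℕ) (ℓ : GoodPrime M S)
    (j q : ℕ) (σ : AlgebraicClosure ℚ ≃ₐ[ℚ] AlgebraicClosure ℚ)
    (hl : ∀ (ψ : Additive ↥(Gamma0 M) →+ ZMod m) (y : JZero M), IsKummer M m ψ y →
      lucas (heckeOperatorBar M ⟨ℓ.1, ℓ.2.1⟩) (((ℓ : ℕ) : ℕ) : Module.End ℤ (JZero M)) j y
        = σ • y + (q : ℤ) • σ⁻¹ • y)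
    {φ : Additive ↥(Gamma0 M) →+ ZMod m} {x : JZero M} (hx : IsKummer M m φ x)
    (hgeo : σ • σ • σ • σ • x - ((q ^ 2 + 1 : ℕ) : ℤ) • σ • σ • x + ((q ^ 2 : ℕ) : ℤ) • x = 0) :
    evChar M S (ZMod m) (s35E ℓ j q) φ = 0 := by
  have h1 := isKummer_evChar_lucasE_B S ℓ j hx
  have h2 := isKummer_evChar_lucasE_B S ℓ j h1
  have h3 := GeomKummerB.isKummer_nsmul hx ((q + 1) ^ 2)
  have h4 := GeomKummerB.isKummer_sub h2 h3
  have e1 := hl _ _ hx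
  have e2 := hl _ _ h1
  -- the second difference, moved back by `σ⁻²`
  have hgeo' : σ • σ • x - ((q ^ 2 + 1 : ℕ) : ℤ) • x + ((q ^ 2 : ℕ) : ℤ) • σ⁻¹ • σ⁻¹ • x = 0 := by
    have h5 := congrArg (fun w => σ⁻¹ • σ⁻¹ • w) hgeo
    simp only [smul_add, smul_sub] at h5
    rw [s35_smul_zsmul σ⁻¹ ((q ^ 2 + 1 : ℕ) : ℤ), s35_smul_zsmul σ⁻¹ ((q ^ 2 + 1 : ℕ) : ℤ),
      s35_smul_zsmul σ⁻¹ ((q ^ 2 : ℕ) : ℤ), s35_smul_zsmul σ⁻¹ ((q ^ 2 : ℕ) : ℤ),
      inv_smul_smul, inv_smul_smul, inv_smul_smul, inv_smul_smul] at h5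
    exact h5
  have hzero : lucas (heckeOperatorBar M ⟨ℓ.1, ℓ.2.1⟩) (((ℓ : ℕ) : ℕ) : Module.End ℤ (JZero M)) j
      (lucas (heckeOperatorBar M ⟨ℓ.1, ℓ.2.1⟩) (((ℓ : ℕ) : ℕ) : Module.End ℤ (JZero M)) j x)
      - ((q + 1) ^ 2) • x = 0 := by
    rw [e2, e1]
    have a1 : σ • (σ • x + (q : ℤ) • σ⁻¹ • x) = σ • σ • x + (q : ℤ) • x := by
      rw [smul_add, s35_smul_zsmul σ (q : ℤ), smul_inv_smul]
    have a2 : σ⁻¹ • (σ • x + (q : ℤ) • σ⁻¹ • x) = x + (q : ℤ) • σ⁻¹ • σ⁻¹ • x := by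
      rw [smul_add, s35_smul_zsmul σ⁻¹ (q : ℤ), inv_smul_smul]
    rw [a1, a2, ← natCast_zsmul]
    have key : ∀ y z : JZero M, y + (q : ℤ) • x + (q : ℤ) • (x + (q : ℤ) • z)
        - (((q + 1) ^ 2 : ℕ) : ℤ) • x
        = y - ((q ^ 2 + 1 : ℕ) : ℤ) • x + ((q ^ 2 : ℕ) : ℤ) • z := by
      intro y z
      push_cast
      module
    rw [key, hgeo']
  rw [hzero] at h4
  have h6 := eq_zero_of_isKummer_zero h4
  have h7 : evChar M S (ZMod m) (s35E ℓ j q) φ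
      = evChar M S (ZMod m) (lucasE ℓ j) (evChar M S (ZMod m) (lucasE ℓ j) φ)
        - ((q + 1) ^ 2) • φ := by
    rw [s35E, map_sub, map_mul, map_natCast, LinearMap.sub_apply, Module.End.mul_apply,
      Module.End.natCast_apply]
  rw [h7]
  exact h6

/-- **The Frobenius approximation for S35.**  For a Frobenius lift `σ` at `q ≠ lam`, a finite
level `L` and `n`, there are a good prime `ℓ`, a Frobenius element `σ'` at `ℓ` and an exponent `j`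
with `σ' ^ j = σ` on `L`, `ℓ ^ j ≡ q` modulo `lam ^ n`, such that `(lucasE ℓ j)² − (q + 1)²` kills
every character `Γ₀(M) → ℤ / lam ^ n` on whose Kummer class `(σ² − q²)(σ² − 1)` vanishes. -/
theorem s35_exists_frob (M lam : ℕ) [NeZero M] [Fact lam.Prime] (S : Finset ℕ) (hlamS : lam ∈ S)
    (hMS : ∀ r : ℕ, r.Prime → r ∣ M → r ∈ S)
    (q : ℕ) (hq : q.Prime) (hqlam : q ≠ lam)
    (n : ℕ) (L : IntermediateField ℚ (AlgebraicClosure ℚ)) [FiniteDimensional ℚ L]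
    (A : ValuationSubring (AlgebraicClosure ℚ)) (hA : A.LiesOverPrime q)
    (σ : AlgebraicClosure ℚ ≃ₐ[ℚ] AlgebraicClosure ℚ) (hσ : A.IsFrobeniusAt σ q) :
    ∃ (ℓ : GoodPrime M (↑S : Set ℕ)) (A' : ValuationSubring (AlgebraicClosure ℚ))
      (σ' : AlgebraicClosure ℚ ≃ₐ[ℚ] AlgebraicClosure ℚ) (j : ℕ),
      A'.LiesOverPrime ℓ ∧ A'.IsFrobeniusAt σ' ℓ ∧ (∀ x ∈ L, (σ' ^ j) x = σ x) ∧
      ((ℓ : ℕ) ^ j ≡ q [MOD lam ^ n]) ∧
      ∀ (φ : Additive ↥(Gamma0 M) →+ ZMod (lam ^ n)) (x : JZero M), IsKummer M (lam ^ n) φ x →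
        σ • σ • σ • σ • x - ((q ^ 2 + 1 : ℕ) : ℤ) • σ • σ • x + ((q ^ 2 : ℕ) : ℤ) • x = 0 →
        evChar M (↑S : Set ℕ) (ZMod (lam ^ n)) (s35E ℓ j q) φ = 0 := by
  have hp : lam.Prime := Fact.out
  haveI : NeZero (lam ^ n) := ⟨pow_ne_zero n hp.ne_zero⟩
  obtain ⟨L', hLL', hfd, hgal, ⟨ζ, hζL', hζ⟩, hfix⟩ := exists_galois_level M lam n L
  haveI := hfd
  haveI := hgal
  obtain ⟨ℓ, A', σ', j, hℓ, hℓS, hA', hσ', hσg⟩ := exists_frobenius_pow_eq_on L' σ S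
  have hℓp : ℓ ≠ lam := fun h => hℓS (h ▸ hlamS)
  have hℓM : ¬ ℓ ∣ M := fun h => hℓS (hMS ℓ hℓ h)
  have hℓMm : ¬ ℓ ∣ M * lam ^ n := by
    intro h
    rcases (Nat.Prime.dvd_mul hℓ).mp h with h3 | h3
    · exact hℓM h3
    · exact hℓp ((Nat.prime_dvd_prime_iff_eq hℓ hp).mp (hℓ.dvd_of_dvd_pow h3))
  have hζ1 : ζ ^ lam ^ n = 1 := hζ.pow_eq_one
  have hpn : lam ^ n ≠ 0 := pow_ne_zero _ hp.ne_zero
  -- the cyclotomic congruence
  have hmod : ℓ ^ j ≡ q [MOD lam ^ n] := by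
    have e1 : (σ' ^ j) ζ = ζ ^ ℓ ^ j := GeomCyclo.frobenius_pow_apply hp hℓ hℓp hA' hσ' j hζ1
    have e2 : (σ ^ 1) ζ = ζ ^ q ^ 1 := GeomCyclo.frobenius_pow_apply hp hq hqlam hA hσ 1 hζ1
    rw [pow_one, pow_one] at e2
    have h : ζ ^ ℓ ^ j = ζ ^ q := by rw [← e1, ← e2, hσg ζ hζL']
    rw [(hζ.isOfFinOrder hpn).pow_eq_pow_iff_modEq, ← hζ.eq_orderOf] at h
    exact h
  refine ⟨⟨ℓ, hℓ, hℓM, hℓS⟩, A', σ', j, hA', hσ', fun x hx => hσg x (hLL' hx), hmod, ?_⟩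
  intro φ x hx hgeo
  refine s35_evChar_E_eq_zero (↑S : Set ℕ) ⟨ℓ, hℓ, hℓM, hℓS⟩ j q σ ?_ hx hgeo
  intro ψ y hy
  have hyJ : y ∈ Jp M (lam ^ n) := isKummer_mem_Jp hy
  obtain ⟨e1, e2⟩ := Geom.smul_eq_of_eqOn L' (hfix ψ y hy) hσg
  have hl := lucas_heckeOperatorBar_apply (Main.frobeniusRelation_pow M lam n) hℓ hℓMm A' hA' σ'
    hσ' j y hyJ
  rw [e1, e2] at hl
  have h5 := Geom.zsmul_eq_of_modEq hmod (smul_mem_Jp σ⁻¹ hyJ)
  rw [Nat.cast_pow] at h5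
  rw [hl, h5]

/-- **T35: the transfer.**  See the module docstring. -/
theorem s35_charpoly_of_new {M : ℕ} [NeZero M] (lam : ℕ) [Fact lam.Prime] (S : Finset ℕ)
    (hlamS : lam ∈ S) (hMS : ∀ r : ℕ, r.Prime → r ∣ M → r ∈ S)
    {O' : Type} [CommRing O']
    {O'' : Type} [CommRing O''] [IsDomain O''] [IsLocalRing O''] [IsNoetherianRing O'']
    [Algebra O' O''] (hlamO'' : (lam : O'') ∈ IsLocalRing.maximalIdeal O'')
    (χ : CuspForm.heckeAlgebra M 2 (↑S : Set ℕ) →+* O')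
    (ρ : GaloisRepAdic O'')
    (hρ : ∀ (ℓ : ℕ) (hℓ : ℓ.Prime) (hℓM : ¬ ℓ ∣ M) (hℓS : ℓ ∉ (↑S : Set ℕ)),
      ∀ A : ValuationSubring (AlgebraicClosure ℚ), A.LiesOverPrime ℓ →
        ∀ σ : AlgebraicClosure ℚ ≃ₐ[ℚ] AlgebraicClosure ℚ, A.IsFrobeniusAt σ ℓ →
          LinearMap.charpoly (ρ.ρ σ) =
            X ^ 2 - C (algebraMap O' O'' (χ (CuspForm.heckeAlgebra.T hℓ hℓM hℓS))) * X
              + C ((ℓ : O'')))
    (q : ℕ) (hq : q.Prime) (hqlam : q ≠ lam)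
    (P : ∀ n : ℕ, (Additive ↥(Gamma0 M) →+ ZMod (lam ^ n)) → Prop)
    (hLAT : ∃ c : ℕ, ∀ (n : ℕ) (e : FreeAlgebra ℤ (GoodPrime M (↑S : Set ℕ))),
      (∀ φ : Additive ↥(Gamma0 M) →+ ZMod (lam ^ n), P n φ →
        evChar M (↑S : Set ℕ) (ZMod (lam ^ n)) e φ = 0) →
      ∃ t : O', χ (evHecke M (↑S : Set ℕ) e) = (lam : O') ^ (n - c) * t)
    (hGEO : ∀ (n : ℕ) (φ : Additive ↥(Gamma0 M) →+ ZMod (lam ^ n)), P n φ →
      ∃ x : JZero M, IsKummer M (lam ^ n) φ x ∧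
        ∀ A : ValuationSubring (AlgebraicClosure ℚ), A.LiesOverPrime q →
          ∀ σ : AlgebraicClosure ℚ ≃ₐ[ℚ] AlgebraicClosure ℚ, A.IsFrobeniusAt σ q →
            σ • σ • σ • σ • x - ((q ^ 2 + 1 : ℕ) : ℤ) • σ • σ • x + ((q ^ 2 : ℕ) : ℤ) • x = 0)
    (A : ValuationSubring (AlgebraicClosure ℚ)) (hA : A.LiesOverPrime q)
    (σ : AlgebraicClosure ℚ ≃ₐ[ℚ] AlgebraicClosure ℚ) (hσ : A.IsFrobeniusAt σ q) :
    LinearMap.charpoly (ρ.ρ σ) = X ^ 2 - C ((q : O'') + 1) * X + C ((q : O'')) ∨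
      LinearMap.charpoly (ρ.ρ σ) = X ^ 2 + C ((q : O'') + 1) * X + C ((q : O'')) := by
  obtain ⟨c, hc⟩ := hLAT
  have hbot : (⨅ i : ℕ, IsLocalRing.maximalIdeal O'' ^ i) = ⊥ :=
    Ideal.iInf_pow_eq_bot_of_isLocalRing _ (Ideal.IsMaximal.ne_top inferInstance)
  set tr := LinearMap.trace O'' ρ.V (ρ.ρ σ) with htr_def
  -- the two congruences at every level
  have key : ∀ n : ℕ,
      tr * tr - ((q : O'') + 1) ^ 2 ∈ IsLocalRing.maximalIdeal O'' ^ (n - c) ∧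
      LinearMap.det (ρ.ρ σ) - (q : O'') ∈ IsLocalRing.maximalIdeal O'' ^ n := by
    intro n
    obtain ⟨L, hL, hcont⟩ := ρ.isAdicContinuous n
    haveI := hL
    obtain ⟨ℓ, A', σ', j, hA', hσ', hσg, hmod, hev⟩ :=
      s35_exists_frob M lam S hlamS hMS q hq hqlam n L A hA σ hσ
    have hevP : ∀ φ : Additive ↥(Gamma0 M) →+ ZMod (lam ^ n), P n φ →
        evChar M (↑S : Set ℕ) (ZMod (lam ^ n)) (s35E ℓ j q) φ = 0 := by
      intro φ hφ
      obtain ⟨x, hx, hx'⟩ := hGEO n φ hφ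
      exact hev φ x hx (hx' A hA σ hσ)
    obtain ⟨t, ht⟩ := hc n _ hevP
    have hle : IsLocalRing.maximalIdeal O'' ^ n ≤ IsLocalRing.maximalIdeal O'' ^ (n - c) :=
      Ideal.pow_le_pow_right (Nat.sub_le n c)
    set a := algebraMap O' O'' (χ (evHecke M (↑S : Set ℕ) (lucasE ℓ j))) with ha_def
    have h1 : LinearMap.trace O'' ρ.V (ρ.ρ (σ' ^ j)) = a := by
      rw [map_pow, trace_pow_eq_lucas ρ.finrank_eq (ρ.ρ σ') _ _
        (hρ ℓ.1 ℓ.2.1 ℓ.2.2.1 ℓ.2.2.2 A' hA' σ' hσ') j, ha_def, evHecke_lucasE, map_lucas,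
        map_lucas, map_natCast, map_natCast]
    have h2 : tr - a ∈ IsLocalRing.maximalIdeal O'' ^ (n - c) := by
      rw [← h1]
      exact hle (Main.trace_sub_mem ρ _ L hcont σ (σ' ^ j) hσg)
    have h3 : a * a - ((q : O'') + 1) ^ 2 ∈ IsLocalRing.maximalIdeal O'' ^ (n - c) := by
      have h4 : a * a - ((q : O'') + 1) ^ 2
          = algebraMap O' O'' (χ (evHecke M (↑S : Set ℕ) (s35E ℓ j q))) := by
        rw [s35E, map_sub, map_mul, map_natCast, map_sub, map_mul, map_natCast, map_sub, map_mul,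
          map_natCast]
        push_cast
        rfl
      rw [h4, ht, map_mul, map_pow, map_natCast]
      exact Ideal.mul_mem_right _ _ (Ideal.pow_mem_pow hlamO'' _)
    constructor
    · have h5 : tr * tr - ((q : O'') + 1) ^ 2
          = (tr - a) * (tr + a) + (a * a - ((q : O'') + 1) ^ 2) := by ring
      rw [h5]
      exact Ideal.add_mem _ (Ideal.mul_mem_right _ _ h2) h3
    · have hd1 := S34.Transfer.det_sub_mem ρ _ L hcont σ (σ' ^ j) hσg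
      have hdσ : LinearMap.det (ρ.ρ σ') = ((ℓ : ℕ) : O'') := by
        rw [LinearMap.det_eq_sign_charpoly_coeff, ρ.finrank_eq,
          hρ ℓ.1 ℓ.2.1 ℓ.2.2.1 ℓ.2.2.2 A' hA' σ' hσ']
        simp
      have hd2 : LinearMap.det (ρ.ρ (σ' ^ j)) = (((ℓ : ℕ) ^ j : ℕ) : O'') := by
        rw [map_pow, map_pow, hdσ, Nat.cast_pow]
      have hd3 : (((ℓ : ℕ) ^ j : ℕ) : O'') - (q : O'') ∈ IsLocalRing.maximalIdeal O'' ^ n := by
        obtain ⟨k, hk⟩ := (Nat.modEq_iff_dvd.mp hmod.symm)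
        have h7 : (((ℓ : ℕ) ^ j : ℕ) : O'') - (q : O'') = (lam : O'') ^ n * (k : O'') := by
          have h8 := congrArg (Int.cast : ℤ → O'') hk
          push_cast at h8
          push_cast
          rw [h8]
        rw [h7]
        exact Ideal.mul_mem_right _ _ (Ideal.pow_mem_pow hlamO'' n)
      have h9 : LinearMap.det (ρ.ρ σ) - (q : O'')
          = (LinearMap.det (ρ.ρ σ) - LinearMap.det (ρ.ρ (σ' ^ j)))
            + ((((ℓ : ℕ) ^ j : ℕ) : O'') - (q : O'')) := by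
        rw [hd2]; ring
      rw [h9]
      exact Ideal.add_mem _ hd1 hd3
  -- the trace
  have htr : tr * tr = ((q : O'') + 1) ^ 2 := by
    have hmem : tr * tr - ((q : O'') + 1) ^ 2 ∈ (⨅ i : ℕ, IsLocalRing.maximalIdeal O'' ^ i) := by
      rw [Ideal.mem_iInf]
      intro i
      have := (key (i + c)).1
      rwa [Nat.add_sub_cancel] at this
    rw [hbot, Ideal.mem_bot] at hmem
    exact sub_eq_zero.mp hmem
  -- the determinant
  have hdet : LinearMap.det (ρ.ρ σ) = (q : O'') := by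
    have hmem : LinearMap.det (ρ.ρ σ) - (q : O'') ∈ (⨅ i : ℕ, IsLocalRing.maximalIdeal O'' ^ i) := by
      rw [Ideal.mem_iInf]
      exact fun i => (key i).2
    rw [hbot, Ideal.mem_bot] at hmem
    exact sub_eq_zero.mp hmem
  have hfac : (tr - ((q : O'') + 1)) * (tr + ((q : O'') + 1)) = 0 := by
    have : (tr - ((q : O'') + 1)) * (tr + ((q : O'') + 1)) = tr * tr - ((q : O'') + 1) ^ 2 := by
      ring
    rw [this, htr, sub_self]
  rw [S34.Transfer.charpoly_eq_of_finrank_two ρ.finrank_eq, hdet, ← htr_def]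
  rcases mul_eq_zero.mp hfac with h | h
  · left
    rw [sub_eq_zero.mp h]
  · right
    rw [eq_neg_of_add_eq_zero_left h]
    simp only [map_neg, neg_mul, sub_neg_eq_add]

end Fermat.Agent.S35
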