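import Fermat.Agent.S31.Defs
import Fermat.Agent.S37.Hecke
import Fermat.Agent.S42.TorsionDefs
import Fermat.Agent.S42.ADefs
import Fermat.Agent.S35.LatCores

/-!
# P20 (S35): shared definitions

Level `N * q` with `q` a prime not dividing `N` (in the application `M = N * q`).

* `s35_HB N q` : the subgroup `Γ₀(N) ∩ Γ⁰(q) = diag(q,1) Γ₀(N q) diag(q,1)⁻¹` of `Γ₀(N)`;
* `s35_kappaB N q` : the homomorphism `Γ₀(N) ∩ Γ⁰(q) → Γ₀(N q)`, `(a b; c d) ↦ (a b/q; q c d)`;
* `s35_charB N q φ` : the character `φ ∘ κ_B` of `Γ₀(N) ∩ Γ⁰(q)`;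
* `s35_pushAlong`, `s35_pushA`, `s35_pushB` : the push-forwards `J₀(N q) → J₀(N)` along the two
  degeneracy maps `α` (`heckeAlphaBar`) and `β` (`heckeBetaBar`);
* `s35_newPart N q m` : the `q`-new part `ker α_* ∩ ker β_*` of the `m`-torsion of `J₀(N q)`;
* `s35_evJ M S` : the evaluation of the free algebra on the good primes at the Hecke operators
  of `J₀(M)`;
* `s35NewInt N q S ψ` : the integral character `ψ` of `Γ₀(N q)` is `q`-new: all its Hecke
  transforms (free algebra on the good primes) are cuspidal and killed by both transfers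
  (`S35RightReps.cores` of `LatCores.lean`, for every system of representatives);
* `s35New N q S m φ` : `φ : Γ₀(N q) → ℤ/m` is the reduction of a `q`-new integral character.
-/

set_option autoImplicit false

namespace Fermat.Agent.S35

open CongruenceSubgroup ModularCurve AlgebraicCurve Fermat.Agent.S31 Fermat.Agent.S42
open scoped MatrixGroups

/-! ### The two subgroups of `Γ₀(N)` isomorphic to `Γ₀(N q)` -/

theorem s35_gamma0_mul_le (N q : ℕ) : Gamma0 (N * q) ≤ Gamma0 N := by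
  intro g hg
  rw [Gamma0_mem] at hg ⊢
  rw [ZMod.intCast_zmod_eq_zero_iff_dvd] at hg ⊢
  exact dvd_trans (by push_cast; exact dvd_mul_right _ _) hg

theorem s35_dvd_of_mem_gamma0 {M : ℕ} {g : SL(2, ℤ)} (hg : g ∈ Gamma0 M) : (M : ℤ) ∣ g 1 0 := by
  rw [Gamma0_mem, ZMod.intCast_zmod_eq_zero_iff_dvd] at hg
  exact hg

/-- The `B`-side subgroup `Γ₀(N) ∩ Γ⁰(q) = diag(q, 1) Γ₀(N q) diag(q, 1)⁻¹` of `Γ₀(N)`: the
matrices `(a b; c d)` with `N ∣ c` and `q ∣ b`. -/
def s35_HB (N q : ℕ) : Subgroup SL(2, ℤ) where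
  carrier := {g | g ∈ Gamma0 N ∧ (q : ℤ) ∣ g 0 1}
  one_mem' := ⟨(Gamma0 N).one_mem, by simp⟩
  mul_mem' := by
    rintro g g' ⟨hg, hb⟩ ⟨hg', hb'⟩
    refine ⟨(Gamma0 N).mul_mem hg hg', ?_⟩
    rw [Matrix.SpecialLinearGroup.coe_mul, Matrix.mul_apply, Fin.sum_univ_two]
    exact dvd_add (dvd_mul_of_dvd_right hb' _) (dvd_mul_of_dvd_left hb _)
  inv_mem' := by
    rintro g ⟨hg, hb⟩
    refine ⟨(Gamma0 N).inv_mem hg, ?_⟩
    rw [Matrix.SpecialLinearGroup.coe_inv, Matrix.adjugate_fin_two]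
    simpa using hb

theorem s35_mem_HB {N q : ℕ} {g : SL(2, ℤ)} :
    g ∈ s35_HB N q ↔ g ∈ Gamma0 N ∧ (q : ℤ) ∣ g 0 1 := Iff.rfl

theorem s35_HB_le (N q : ℕ) : s35_HB N q ≤ Gamma0 N := fun _ hg => hg.1

/-- The matrix `(a b / q; q c d)`: conjugation by `diag(q, 1)⁻¹`. -/
def s35_matK (q : ℕ) (g : SL(2, ℤ)) : Matrix (Fin 2) (Fin 2) ℤ :=
  !![g 0 0, g 0 1 / (q : ℤ); (q : ℤ) * g 1 0, g 1 1]

theorem s35_det_matK (q : ℕ) (g : SL(2, ℤ)) (h : (q : ℤ) ∣ g 0 1) : (s35_matK q g).det = 1 := by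
  obtain ⟨b, hb⟩ := h
  have hdet := g.det_coe
  rw [Matrix.det_fin_two] at hdet
  rw [s35_matK, Matrix.det_fin_two_of, hb]
  rcases eq_or_ne (q : ℤ) 0 with hq | hq
  · rw [hq] at hb ⊢
    rw [hb] at hdet
    simp at hdet ⊢
    linarith
  · rw [Int.mul_ediv_cancel_left _ hq]
    rw [hb] at hdet
    linarith

theorem s35_matK_mul (q : ℕ) (g g' : SL(2, ℤ)) (h : (q : ℤ) ∣ g 0 1) (h' : (q : ℤ) ∣ g' 0 1) :
    s35_matK q (g * g') = s35_matK q g * s35_matK q g' := by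
  obtain ⟨b, hb⟩ := h
  obtain ⟨b', hb'⟩ := h'
  rcases eq_or_ne (q : ℤ) 0 with hq | hq
  · rw [hq, zero_mul] at hb hb'
    ext i j
    fin_cases i <;> fin_cases j <;>
      simp [s35_matK, Matrix.mul_apply, Fin.sum_univ_two, hq, hb, hb',
        Matrix.SpecialLinearGroup.coe_mul]
  · have e1 : (g * g') 0 1 = (q : ℤ) * (g 0 0 * b' + b * g' 1 1) := by
      rw [Matrix.SpecialLinearGroup.coe_mul, Matrix.mul_apply, Fin.sum_univ_two, hb, hb']
      ring
    ext i j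
    fin_cases i <;> fin_cases j
    · simp [s35_matK, Matrix.mul_apply, Fin.sum_univ_two, Matrix.SpecialLinearGroup.coe_mul, hb]
      rw [Int.mul_ediv_cancel_left _ hq]
      ring
    · simp only [s35_matK, Matrix.mul_apply, Fin.sum_univ_two, Fin.mk_one, Fin.isValue,
        Fin.zero_eta, Matrix.of_apply, Matrix.cons_val', Matrix.cons_val_zero,
        Matrix.cons_val_one, Matrix.cons_val_fin_one]
      rw [e1, hb, hb', Int.mul_ediv_cancel_left _ hq, Int.mul_ediv_cancel_left _ hq,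
        Int.mul_ediv_cancel_left _ hq]
    · simp [s35_matK, Matrix.mul_apply, Fin.sum_univ_two, Matrix.SpecialLinearGroup.coe_mul]
      ring
    · simp [s35_matK, Matrix.mul_apply, Fin.sum_univ_two, Matrix.SpecialLinearGroup.coe_mul, hb']
      rw [Int.mul_ediv_cancel_left _ hq]
      ring

/-- The isomorphism (here: homomorphism) `Γ₀(N) ∩ Γ⁰(q) → Γ₀(N q)`,
`(a b; c d) ↦ (a b / q; q c d)`: conjugation by `diag(q, 1)⁻¹`. -/
def s35_kappaB (N q : ℕ) : ↥(s35_HB N q) →* ↥(Gamma0 (N * q)) where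
  toFun g :=
    ⟨⟨s35_matK q (g : SL(2, ℤ)), s35_det_matK q _ g.2.2⟩, by
      rw [Gamma0_mem, ZMod.intCast_zmod_eq_zero_iff_dvd]
      show ((N * q : ℕ) : ℤ) ∣ (s35_matK q (g : SL(2, ℤ))) 1 0
      obtain ⟨c, hc⟩ := s35_dvd_of_mem_gamma0 g.2.1
      have e : (s35_matK q (g : SL(2, ℤ))) 1 0 = (q : ℤ) * (g : SL(2, ℤ)) 1 0 := by
        simp [s35_matK]
      rw [e, hc]
      push_cast
      exact ⟨c, by ring⟩⟩
  map_one' := by
    apply Subtype.ext
    apply Subtype.ext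
    show s35_matK q ((1 : ↥(s35_HB N q)) : SL(2, ℤ)) = 1
    ext i j
    fin_cases i <;> fin_cases j <;> simp [s35_matK]
  map_mul' g g' := by
    apply Subtype.ext
    apply Subtype.ext
    exact s35_matK_mul q _ _ g.2.2 g'.2.2

theorem s35_coe_kappaB (N q : ℕ) (g : ↥(s35_HB N q)) :
    (((s35_kappaB N q g : ↥(Gamma0 (N * q))) : SL(2, ℤ)) : Matrix (Fin 2) (Fin 2) ℤ)
      = s35_matK q (g : SL(2, ℤ)) := rfl

/-- Transport of a character of `Γ₀(N q)` to the `B`-side subgroup `Γ₀(N) ∩ Γ⁰(q)`. -/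
def s35_charB (N q : ℕ) {A : Type*} [AddCommGroup A] (φ : Additive ↥(Gamma0 (N * q)) →+ A) :
    Additive ↥(s35_HB N q) →+ A :=
  φ.comp (MonoidHom.toAdditive (s35_kappaB N q))

theorem s35_charB_apply (N q : ℕ) {A : Type*} [AddCommGroup A]
    (φ : Additive ↥(Gamma0 (N * q)) →+ A) (g : ↥(s35_HB N q)) :
    s35_charB N q φ (Additive.ofMul g) = φ (Additive.ofMul (s35_kappaB N q g)) := rfl

theorem s35_charB_comp (N q : ℕ) {A B : Type*} [AddCommGroup A] [AddCommGroup B] (f : A →+ B)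
    (φ : Additive ↥(Gamma0 (N * q)) →+ A) :
    s35_charB N q (f.comp φ) = f.comp (s35_charB N q φ) := rfl

/-! ### Push-forward on `Pic⁰` -/

section Push

variable {K F F' : Type*} [Field K] [Field F] [Field F'] [Algebra K F] [Algebra K F']
  [HasPrincipalDivisors K F']

/-- The push-forward `Pic⁰(F') → Pic⁰(F)` along a finite map `φ : F → F'` of function fields. -/
noncomputable def s35_pushAlong (φ : F →ₐ[K] F') (hφ : φ.toRingHom.IsIntegral)
    (hfin : FiniteAlong K φ) (hN : NormFormulaAlong K φ hfin) : Pic0 K F' →+ Pic0 K F :=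
  QuotientAddGroup.map _ _
    (((Divisor.pushforwardAlong φ hφ).domRestrict (Divisor.degZero (K := K) (F := F'))).codRestrict
      (Divisor.degZero (K := K) (F := F))
      (fun D => Divisor.pushforwardAlong_mem_degZero φ hφ D.2)) (by
    rintro ⟨D, hD0⟩ hD
    simp only [AddSubgroup.mem_addSubgroupOf] at hD ⊢
    exact Divisor.isPrincipal_pushforwardAlong φ hφ hfin hN hD)

omit [HasPrincipalDivisors K F'] in
theorem s35_pushAlong_mk (φ : F →ₐ[K] F') (hφ : φ.toRingHom.IsIntegral)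
    (hfin : FiniteAlong K φ) (hN : NormFormulaAlong K φ hfin)
    (D : Divisor K F') (hD : D ∈ Divisor.degZero (K := K) (F := F')) :
    s35_pushAlong φ hφ hfin hN (Pic0.mk ⟨D, hD⟩) =
      Pic0.mk ⟨Divisor.pushforwardAlong φ hφ D, Divisor.pushforwardAlong_mem_degZero φ hφ hD⟩ :=
  rfl

end Push

/-- `α_* : J₀(N q) → J₀(N)`. -/
noncomputable def s35_pushA (N q : ℕ) [NeZero N] [NeZero q] : JZero (N * q) →+ JZero N :=
  s35_pushAlong (heckeAlphaBar (AlgebraicClosure ℚ) N q)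
    (Fermat.Agent.S37.heckeAlphaBar_isIntegral N q) (Fermat.Agent.S37.heckeAlphaBar_finiteAlong N q)
    (Fermat.Agent.S37.heckeAlphaBar_normFormulaAlong N q)

/-- `β_* : J₀(N q) → J₀(N)`. -/
noncomputable def s35_pushB (N q : ℕ) [NeZero N] [NeZero q] : JZero (N * q) →+ JZero N :=
  s35_pushAlong (heckeBetaBar (AlgebraicClosure ℚ) N q)
    (Fermat.Agent.S37.heckeBetaBar_isIntegral N q) (Fermat.Agent.S37.heckeBetaBar_finiteAlong N q)
    (Fermat.Agent.S37.heckeBetaBar_normFormulaAlong N q)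

/-- The `q`-new part of the `m`-torsion of `J₀(N q)`: `J₀(N q)[m] ∩ ker α_* ∩ ker β_*`. -/
noncomputable def s35_newPart (N q m : ℕ) [NeZero N] [NeZero q] : AddSubgroup (JZero (N * q)) :=
  Jp (N * q) m ⊓ (s35_pushA N q).ker ⊓ (s35_pushB N q).ker

theorem s35_mem_newPart {N q m : ℕ} [NeZero N] [NeZero q] {x : JZero (N * q)} :
    x ∈ s35_newPart N q m ↔ x ∈ Jp (N * q) m ∧ s35_pushA N q x = 0 ∧ s35_pushB N q x = 0 := by
  simp only [s35_newPart, AddSubgroup.mem_inf, AddMonoidHom.mem_ker, and_assoc]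

/-! ### Evaluation of the free algebra on `J₀(M)` -/

/-- Evaluation of the free `ℤ`-algebra on the good primes at the Hecke operators of `J₀(M)`. -/
noncomputable def s35_evJ (M : ℕ) [NeZero M] (S : Set ℕ) :
    FreeAlgebra ℤ (GoodPrime M S) →ₐ[ℤ] Module.End ℤ (JZero M) :=
  FreeAlgebra.lift ℤ (fun ℓ : GoodPrime M S => heckeOperatorBar M ⟨ℓ.1, ℓ.2.1⟩)

@[simp] theorem s35_evJ_ι (M : ℕ) [NeZero M] (S : Set ℕ) (ℓ : GoodPrime M S) :
    s35_evJ M S (FreeAlgebra.ι ℤ ℓ) = heckeOperatorBar M ⟨ℓ.1, ℓ.2.1⟩ := by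
  simp [s35_evJ]

/-! ### The `q`-new characters -/

/-- The integral character `ψ` of `Γ₀(N q)` is `q`-new (with respect to the good primes outside
`S`): every Hecke transform `evChar e ψ` is cuspidal and is killed by the two transfers to
`Γ₀(N)` (for every system of representatives `R`, see `LatCores.lean`): the `A`-side transfer
from `Γ₀(N q)` and the `B`-side transfer from `Γ₀(N) ∩ Γ⁰(q) ≅ Γ₀(N q)`.
These characters form a saturated subgroup, stable under `evChar` by construction. -/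
def s35NewInt (N q : ℕ) (S : Set ℕ) (ψ : Additive ↥(Gamma0 (N * q)) →+ ℤ) : Prop :=
  ∀ e : FreeAlgebra ℤ (GoodPrime (N * q) S),
    IsCuspidalHom (N * q) (evChar (N * q) S ℤ e ψ) ∧
    (∀ R : S35RightReps (Gamma0 (N * q)) (Gamma0 N) (Option (Fin q)),
      R.cores (evChar (N * q) S ℤ e ψ) = 0) ∧
    (∀ R : S35RightReps (s35_HB N q) (Gamma0 N) (Option (Fin q)),
      R.cores (s35_charB N q (evChar (N * q) S ℤ e ψ)) = 0)

/-- `φ : Γ₀(N q) → ℤ/m` is the reduction modulo `m` of a `q`-new integral character. -/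
def s35New (N q : ℕ) (S : Set ℕ) (m : ℕ) (φ : Additive ↥(Gamma0 (N * q)) →+ ZMod m) : Prop :=
  ∃ ψ : Additive ↥(Gamma0 (N * q)) →+ ℤ, s35NewInt N q S ψ ∧
    φ = (Int.castAddHom (ZMod m)).comp ψ

end Fermat.Agent.S35
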