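import Fermat.Agent.S34.GeoSetup
import Fermat.Agent.S34.KronDefs
import Fermat.Agent.S34.KronBasic
import Fermat.Agent.S34.ModelMDefs
import Fermat.Prelude.Def_ModularCurve_ArithmeticGalois
import Fermat.Agent.S35.F1Kummer3
import Fermat.Agent.S35.F1HInst
import Fermat.Agent.S35.F1DictL
import Fermat.Agent.S35.F1cHSig
import Fermat.Agent.S35.F1CoreValB

/-!
# P20 (S35), block F1: the generic-`L` core (third-team assembly of the pinned statement)

`s35f1_core_L_C` = the pinned `s35f1_core_L`: `s35f1_kummer_laurent3` fed with the slot providers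
`F1CoreValB` (VAL + `s2` glue), `F1DictL` (`hdict`), `F1HInst` (`hinst`), `F1cHSig` (`hsig`).
-/

set_option autoImplicit false
set_option linter.style.haveILetI false

namespace Fermat.Agent.S35

open ModularCurve AlgebraicCurve IntermediateField IsDedekindDomain
open Fermat.Agent.S18 Fermat.Agent.S28.FreeBasisAbs Fermat.Agent.S34

set_option maxHeartbeats 1000000 in
set_option synthInstance.maxHeartbeats 400000 in
/-- **The core of F1 over a generic field** (pinned statement). -/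
theorem s35f1_core_L_C {L k : Type*} [Field L] [Algebra ℚ L] [CharZero L] [Field k]
    {Λ : Subring L} {π : L} {res : ↥Λ →+* k}
    [IsDiscreteValuationRing ↥Λ] [IsFractionRing ↥Λ L]
    (ι : L →+* ℂ) (M q : ℕ) [NeZero M] [NeZero q] (hcop : Nat.Coprime M q)
    (hΛ : IsGaussRing Λ π res) (hq : q.Prime) [CharP k q]
    (ζq : Lˣ) (hζq : IsPrimitiveRoot ζq q) (hζqΛ : (ζq : L) ∈ Λ)
    (hM : S34MstarAt Λ M (GaussL.piL hΛ))
    [IsDedekindDomain ↥(integralClosure (Algebra.adjoin L {Fermat.Agent.S24.jL L (M * q)})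
      ↥(laurentBaseChange L (modularFunctionFieldFull (M * q))))]
    [IsFractionRing ↥(integralClosure (Algebra.adjoin L {Fermat.Agent.S24.jL L (M * q)})
      ↥(laurentBaseChange L (modularFunctionFieldFull (M * q))))
      ↥(laurentBaseChange L (modularFunctionFieldFull (M * q)))]
    [IsDedekindDomain ↥(integralClosure (Algebra.adjoin L {(Fermat.Agent.S24.jL L (M * q))⁻¹})
      ↥(laurentBaseChange L (modularFunctionFieldFull (M * q))))]
    [IsFractionRing ↥(integralClosure (Algebra.adjoin L {(Fermat.Agent.S24.jL L (M * q))⁻¹})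
      ↥(laurentBaseChange L (modularFunctionFieldFull (M * q))))
      ↥(laurentBaseChange L (modularFunctionFieldFull (M * q)))]
    (m : ℕ) (hm : IsUnit (m : ↥Λ)) (ζ : ↥Λ) (hζ : IsPrimitiveRoot ζ m)
    (σ : L ≃ₐ[ℚ] L) (hσΛ : ∀ a ∈ Λ, σ a ∈ Λ) (hσΛs : ∀ a ∈ Λ, σ.symm a ∈ Λ)
    (hσres : ∀ a : ↥Λ, res ⟨σ a, hσΛ a a.2⟩ = res a ^ q)
    (u : ↥(kronO Λ res ι M q hcop))
    (hu1 : kronRedInf Λ res ι M q hcop u = 1) (hu2 : kronRedZero Λ res ι M q hcop u = 1)
    (W : LaurentSeries L)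
    (hW : W ^ m =
      ((arithmeticRingAut (modularFunctionFieldFull (M * q)) σ
          (arithmeticRingAut (modularFunctionFieldFull (M * q)) σ
            (u : ↥(laurentBaseChange L (modularFunctionFieldFull (M * q))))) /
        (u : ↥(laurentBaseChange L (modularFunctionFieldFull (M * q)))) ^ (q ^ 2) :
        ↥(laurentBaseChange L (modularFunctionFieldFull (M * q)))) : LaurentSeries L))
    (hdiv_fin : ∀ 𝔔 : HeightOneSpectrum ↥(integralClosure
        (Algebra.adjoin L {Fermat.Agent.S24.jL L (M * q)})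
        ↥(laurentBaseChange L (modularFunctionFieldFull (M * q)))),
      ∃ n : ℤ, 𝔔.valuation ↥(laurentBaseChange L (modularFunctionFieldFull (M * q)))
        (u : ↥(laurentBaseChange L (modularFunctionFieldFull (M * q)))) =
        WithZero.exp ((m : ℤ) * n))
    (hdiv_inf : ∀ 𝔔 : HeightOneSpectrum ↥(integralClosure
        (Algebra.adjoin L {(Fermat.Agent.S24.jL L (M * q))⁻¹})
        ↥(laurentBaseChange L (modularFunctionFieldFull (M * q)))),
      ∃ n : ℤ, 𝔔.valuation ↥(laurentBaseChange L (modularFunctionFieldFull (M * q)))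
        (u : ↥(laurentBaseChange L (modularFunctionFieldFull (M * q)))) =
        WithZero.exp ((m : ℤ) * n))
    (hres_fin : ∀ 𝔔 : HeightOneSpectrum ↥(integralClosure
        (Algebra.adjoin L {Fermat.Agent.S24.jL L (M * q)})
        ↥(laurentBaseChange L (modularFunctionFieldFull (M * q)))),
      𝔔.valuation ↥(laurentBaseChange L (modularFunctionFieldFull (M * q)))
        (u : ↥(laurentBaseChange L (modularFunctionFieldFull (M * q)))) ≠ 1 →
      ∀ y : ↥(integralClosure (Algebra.adjoin L {Fermat.Agent.S24.jL L (M * q)})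
          ↥(laurentBaseChange L (modularFunctionFieldFull (M * q)))),
        ∃ c : L, y - algebraMap L _ c ∈ 𝔔.asIdeal)
    (hres_inf : ∀ 𝔔 : HeightOneSpectrum ↥(integralClosure
        (Algebra.adjoin L {(Fermat.Agent.S24.jL L (M * q))⁻¹})
        ↥(laurentBaseChange L (modularFunctionFieldFull (M * q)))),
      𝔔.valuation ↥(laurentBaseChange L (modularFunctionFieldFull (M * q)))
        (u : ↥(laurentBaseChange L (modularFunctionFieldFull (M * q)))) ≠ 1 →
      ∀ y : ↥(integralClosure (Algebra.adjoin L {(Fermat.Agent.S24.jL L (M * q))⁻¹})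
          ↥(laurentBaseChange L (modularFunctionFieldFull (M * q)))),
        ∃ c : L, y - algebraMap L _ c ∈ 𝔔.asIdeal) :
    ∃ y : ↥(laurentBaseChange L (modularFunctionFieldFull (M * q))), y ^ m =
      arithmeticRingAut (modularFunctionFieldFull (M * q)) σ
          (arithmeticRingAut (modularFunctionFieldFull (M * q)) σ
            (u : ↥(laurentBaseChange L (modularFunctionFieldFull (M * q))))) /
        (u : ↥(laurentBaseChange L (modularFunctionFieldFull (M * q)))) ^ (q ^ 2) := by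
  have hϖ : Irreducible (GaussL.piL hΛ) := (GaussL.prime_piL hΛ).irreducible
  haveI : IsScalarTower ↥Λ L ↥(laurentBaseChange L (modularFunctionFieldFull (M * q))) :=
    IsScalarTower.of_algebraMap_eq (fun _ => rfl)
  haveI := s34geo_finiteDimensional_jL L (M * q)
  have hj := Fermat.Agent.S24.transcendental_jL (M * q) L
  have hφ : ∀ a : ↥Λ, res ⟨σ.symm a, hσΛs a a.2⟩ ^ q = res a := by
    intro a
    rw [← hσres ⟨σ.symm a, hσΛs a a.2⟩]
    congr 1
    exact Subtype.ext (σ.apply_symm_apply _)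
  exact s35f1_kummer_laurent3 (laurentBaseChange L (modularFunctionFieldFull (M * q)))
    (GaussL.piL hΛ) hϖ (Fermat.Agent.S24.jL L (M * q)) hj m hm ζ hζ
    (s35valW₁ hΛ (M * q)) (s35valW₂ hΛ ι M q hcop)
    (s35f1coreB_hVw hΛ ι M q hcop hq) (s35f1coreB_hπw hΛ ι M q hcop hq)
    (s35f1coreB_hπ₁ hΛ M q) (s35f1coreB_hπ₂ hΛ ι M q hcop) (s35f1coreB_hΛ₁ hΛ M q)
    ((arithmeticRingAut (modularFunctionFieldFull (M * q)) σ).trans
      (arithmeticRingAut (modularFunctionFieldFull (M * q)) σ))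
    (s35f1coreB_hs2j (M * q) σ) (s35f1coreB_hs2Λ (M * q) σ hσΛ)
    (s35f1coreB_hs2Λs (M * q) σ hσΛs) (s35f1coreB_hs₁ (M * q) σ hΛ hσΛ hσΛs)
    (s35f1coreB_hs₂ hΛ ι M q hcop hq σ hσΛ hσΛs) (q ^ 2)
    (s35f1coreB_hfrob (M * q) σ hΛ q hσΛ hσres)
    (u : ↥(laurentBaseChange L (modularFunctionFieldFull (M * q))))
    (s35f1coreB_hu ι M q hcop u hu1) (s35f1coreB_hu1 hΛ ι M q hcop hq u hu1 hu2)
    W hW hdiv_fin hdiv_inf
    (s35f1_hdict_fin (GaussL.piL hΛ) hϖ (Fermat.Agent.S24.jL L (M * q))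
      (u : ↥(laurentBaseChange L (modularFunctionFieldFull (M * q)))) hres_fin)
    (fun ψ => s35f1_hinst_fin ι M q hcop hΛ hq ζq hζq hζqΛ σ hσΛs hφ hM ψ)
    (fun ψ h1 h2 b b' hb hψ => s35f1c_hsig_fin ι M q hcop hΛ hq ζq hζq hζqΛ σ hσΛ hσΛs hσres hM
      _ (fun _ => rfl) ψ h1 h2 b b' hb hψ)
    (s35f1_hdict_inf (GaussL.piL hΛ) hϖ (Fermat.Agent.S24.jL L (M * q))
      (u : ↥(laurentBaseChange L (modularFunctionFieldFull (M * q)))) hres_inf)
    (fun ψ hc => s35f1_hinst_inf ι M q hcop hΛ hq ζq hζq hζqΛ σ hσΛs hφ hM ψ hc)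
    (fun ψ hc h1 h2 b b' hb hψ => s35f1c_hsig_inf ι M q hcop hΛ hq ζq hζq hζqΛ σ hσΛ hσΛs
      hσres hM _ (fun _ => rfl) ψ hc h1 h2 b b' hb hψ)

end Fermat.Agent.S35
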