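import Mathlib
import Fermat.Agent.S34.GeoPT
import Fermat.Agent.S35.F1Val
import Fermat.Agent.S35.F1cSigFin

/-!
# P20 (S35), F1 core, slot `hsig_fin` (second team): crossing `Λ`-points of the fin chart are
stable under `s2 = (T σ)²`

`s35f1coreB_sig_fin`: the binder `hsig_fin` of `s35f1_kummer_laurent3` at the instantiation
`Λ := ↥Λ`, `K := L`, `E := laurentBaseChange L (modularFunctionFieldFull (M * q))`,
`π := GaussL.piL hΛ`, `j := S24.jL L (M * q)`, `w₁ := s35valW₁ hΛ (M * q)`,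
`w₂ := s35valW₂ hΛ ι M q hcop`, `s2 := (T σ).trans (T σ)`,
`T σ := arithmeticRingAut (modularFunctionFieldFull (M * q)) σ`.
It is `s35f1c_cross_stable_fin` (leaf L4) on the concrete chart rings, with the two vertical
conditions translated by `s35val_w₁_lt_one_iff_redInf` / `s35val_w₂_lt_one_iff_redZero`.
-/

set_option autoImplicit false

namespace Fermat.Agent.S35

open ModularCurve AlgebraicCurve IntermediateField
open Fermat.Agent.S18 Fermat.Agent.S28 Fermat.Agent.S28.FreeBasisAbs Fermat.Agent.S34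

set_option maxHeartbeats 1000000 in
set_option synthInstance.maxHeartbeats 400000 in
/-- **Slot `hsig_fin` of the F1 core** (second team). -/
theorem s35f1coreB_sig_fin {L k : Type*} [Field L] [Algebra ℚ L] [CharZero L] [Field k]
    {Λ : Subring L} {π : L} {res : ↥Λ →+* k}
    (ι : L →+* ℂ) (M q : ℕ) [NeZero M] [NeZero q] (hcop : Nat.Coprime M q)
    (hΛ : IsGaussRing Λ π res) (hq : q.Prime) [CharP k q]
    (ζq : Lˣ) (hζq : IsPrimitiveRoot ζq q) (hζqΛ : (ζq : L) ∈ Λ)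
    (hM : S34MstarAt Λ M (GaussL.piL hΛ))
    (σ : L ≃ₐ[ℚ] L) (hσΛ : ∀ a ∈ Λ, σ a ∈ Λ) (hσΛs : ∀ a ∈ Λ, σ.symm a ∈ Λ)
    (hσres : ∀ a : ↥Λ, res ⟨σ a, hσΛ a a.2⟩ = res a ^ q) :
    ∀ ψ : ↥(integralClosure (Algebra.adjoin ↥Λ {Fermat.Agent.S24.jL L (M * q)})
        ↥(laurentBaseChange L (modularFunctionFieldFull (M * q)))) →ₐ[↥Λ] ↥Λ,
      (∀ b : ↥(integralClosure (Algebra.adjoin ↥Λ {Fermat.Agent.S24.jL L (M * q)})
          ↥(laurentBaseChange L (modularFunctionFieldFull (M * q)))),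
        s35valW₁ hΛ (M * q) (b : ↥(laurentBaseChange L (modularFunctionFieldFull (M * q)))) < 1 →
          GaussL.piL hΛ ∣ ψ b) →
      (∀ b : ↥(integralClosure (Algebra.adjoin ↥Λ {Fermat.Agent.S24.jL L (M * q)})
          ↥(laurentBaseChange L (modularFunctionFieldFull (M * q)))),
        s35valW₂ hΛ ι M q hcop
            (b : ↥(laurentBaseChange L (modularFunctionFieldFull (M * q)))) < 1 →
          GaussL.piL hΛ ∣ ψ b) →
      ∀ b b' : ↥(integralClosure (Algebra.adjoin ↥Λ {Fermat.Agent.S24.jL L (M * q)})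
          ↥(laurentBaseChange L (modularFunctionFieldFull (M * q)))),
        (b' : ↥(laurentBaseChange L (modularFunctionFieldFull (M * q)))) =
          ((arithmeticRingAut (modularFunctionFieldFull (M * q)) σ).trans
            (arithmeticRingAut (modularFunctionFieldFull (M * q)) σ))
            (b : ↥(laurentBaseChange L (modularFunctionFieldFull (M * q)))) →
        GaussL.piL hΛ ∣ ψ b → GaussL.piL hΛ ∣ ψ b' := by
  intro ψ h1 h2 b b' hb hψb
  refine (s35f1c_cross_stable_fin ι M q hcop hΛ hq ζq hζq hζqΛ σ hσΛ hσΛs hσres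
    (A := ↥(integralClosure (Algebra.adjoin ↥Λ {Fermat.Agent.S24.jL L M})
      ↥(laurentBaseChange L (modularFunctionFieldFull M))))
    (B := ↥(integralClosure (Algebra.adjoin ↥Λ {Fermat.Agent.S24.jL L (M * q)})
      ↥(laurentBaseChange L (modularFunctionFieldFull (M * q)))))
    (algebraMap _ _) (algebraMap _ _) Subtype.val_injective Subtype.val_injective
    (fun c => rfl) (fun c => rfl)
    (fun z => ⟨fun ⟨a, ha⟩ => ha ▸ a.2, fun hz => ⟨⟨z, hz⟩, rfl⟩⟩)
    (fun z => ⟨fun ⟨a, ha⟩ => ha ▸ a.2, fun hz => ⟨⟨z, hz⟩, rfl⟩⟩)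
    (fun 𝔐 h𝔐 hπ => hM.1 𝔐 h𝔐 hπ) ψ ?_ ?_ b b' ?_).mpr hψb
  · rintro x ⟨hx, hr⟩
    exact h1 x ((s35val_w₁_lt_one_iff_redInf hΛ ι M q hcop ⟨_, hx⟩).mpr hr)
  · rintro x ⟨hx, hr⟩
    exact h2 x ((s35val_w₂_lt_one_iff_redZero hΛ ι M q hcop ⟨_, hx⟩).mpr hr)
  · exact hb

end Fermat.Agent.S35
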