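import Mathlib
import Fermat.Agent.S34.GeoPT
import Fermat.Agent.S35.F1Val
import Fermat.Agent.S35.F1cSigInf

/-!
# P20 (S35), F1 core, slot 6 (second team): the provider `hsig_inf` of `s35f1_kummer_laurent3`

Generic (KRON) convention of `S34/GeoPT.lean`: `L` a field of characteristic `0`, `Λ : Subring L`
a Gauss ring, `F = FFL L (M * q)`, cusp chart ring `B = integralClosure Λ[j⁻¹] F`,
`w₁ = s35valW₁ hΛ (M * q)`, `w₂ = s35valW₂ hΛ ι M q hcop`, `s2 = T σ ∘ T σ` with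
`T σ = arithmeticRingAut (modularFunctionFieldFull (M * q)) σ` the coefficientwise action of an
automorphism `σ` of `L` stabilising `Λ` and inducing the `q`-th power map on the residue field.

`s35f1coreB_sig_inf`: for a `Λ`-point `ψ` of the cusp chart centred on the cusps and lying on
both vertical components, the centre `ψ⁻¹(π)` is stable under `s2`.  This is the leaf L5
(`s35f1c_cross_stable_inf`) at the concrete chart rings, with the vertical hypotheses translated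
by `F1Val`.
-/

set_option autoImplicit false

namespace Fermat.Agent.S35

open ModularCurve AlgebraicCurve Polynomial IsDedekindDomain
open Fermat.Agent.S18 Fermat.Agent.S28 Fermat.Agent.S28.FreeBasisAbs Fermat.Agent.S34

variable {L k : Type*} [Field L] [Algebra ℚ L] [Field k] {Λ : Subring L} {π : L}
  {res : ↥Λ →+* k}

set_option synthInstance.maxHeartbeats 400000 in
set_option maxHeartbeats 1000000 in
/-- **`hsig_inf`** (binder shape of `s35f1_kummer_laurent3`, cusp chart). -/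
theorem s35f1coreB_sig_inf [CharZero L]
    (ι : L →+* ℂ) (M q : ℕ) [NeZero M] [NeZero q] (hcop : Nat.Coprime M q)
    (hΛ : IsGaussRing Λ π res) (hq : q.Prime) [CharP k q]
    (ζq : Lˣ) (hζq : IsPrimitiveRoot ζq q) (hζqΛ : (ζq : L) ∈ Λ)
    (hM : S34MstarAt Λ M (GaussL.piL hΛ))
    (σ : L ≃ₐ[ℚ] L) (hσΛ : ∀ a ∈ Λ, σ a ∈ Λ) (hσΛs : ∀ a ∈ Λ, σ.symm a ∈ Λ)
    (hσres : ∀ a : ↥Λ, res ⟨σ a, hσΛ a a.2⟩ = res a ^ q)
    (s2 : Fermat.Agent.S24.FFL L (M * q) ≃+* Fermat.Agent.S24.FFL L (M * q))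
    (hs2 : ∀ f, s2 f = arithmeticRingAut (modularFunctionFieldFull (M * q)) σ
      (arithmeticRingAut (modularFunctionFieldFull (M * q)) σ f)) :
    ∀ ψ : ↥(integralClosure (Algebra.adjoin ↥Λ {(Fermat.Agent.S24.jL L (M * q))⁻¹})
        (Fermat.Agent.S24.FFL L (M * q))) →ₐ[↥Λ] ↥Λ,
      (∃ a : ↥(integralClosure (Algebra.adjoin ↥Λ {(Fermat.Agent.S24.jL L (M * q))⁻¹})
          (Fermat.Agent.S24.FFL L (M * q))),
        (a : Fermat.Agent.S24.FFL L (M * q)) = (Fermat.Agent.S24.jL L (M * q))⁻¹ ∧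
          GaussL.piL hΛ ∣ ψ a) →
      (∀ b : ↥(integralClosure (Algebra.adjoin ↥Λ {(Fermat.Agent.S24.jL L (M * q))⁻¹})
          (Fermat.Agent.S24.FFL L (M * q))),
        s35valW₁ hΛ (M * q) (b : Fermat.Agent.S24.FFL L (M * q)) < 1 → GaussL.piL hΛ ∣ ψ b) →
      (∀ b : ↥(integralClosure (Algebra.adjoin ↥Λ {(Fermat.Agent.S24.jL L (M * q))⁻¹})
          (Fermat.Agent.S24.FFL L (M * q))),
        s35valW₂ hΛ ι M q hcop (b : Fermat.Agent.S24.FFL L (M * q)) < 1 →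
          GaussL.piL hΛ ∣ ψ b) →
      ∀ b b' : ↥(integralClosure (Algebra.adjoin ↥Λ {(Fermat.Agent.S24.jL L (M * q))⁻¹})
          (Fermat.Agent.S24.FFL L (M * q))),
        (b' : Fermat.Agent.S24.FFL L (M * q)) = s2 (b : Fermat.Agent.S24.FFL L (M * q)) →
        GaussL.piL hΛ ∣ ψ b → GaussL.piL hΛ ∣ ψ b' := by
  intro ψ hcusp h1 h2 b b' hbb' hb
  refine (s35f1c_cross_stable_inf ι M q hcop hΛ hq ζq hζq hζqΛ σ hσΛ hσΛs hσres
    (A := ↥(integralClosure (Algebra.adjoin ↥Λ {(Fermat.Agent.S24.jL L M)⁻¹})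
      (Fermat.Agent.S24.FFL L M)))
    (B := ↥(integralClosure (Algebra.adjoin ↥Λ {(Fermat.Agent.S24.jL L (M * q))⁻¹})
      (Fermat.Agent.S24.FFL L (M * q))))
    (algebraMap _ _) (algebraMap _ _) Subtype.val_injective Subtype.val_injective
    (fun c => rfl) (fun c => rfl)
    (fun z => ⟨fun ⟨a, ha⟩ => ha ▸ a.2, fun hz => ⟨⟨z, hz⟩, rfl⟩⟩)
    (fun z => ⟨fun ⟨a, ha⟩ => ha ▸ a.2, fun hz => ⟨⟨z, hz⟩, rfl⟩⟩)
    (fun 𝔐 h𝔐 hπ => hM.2 𝔐 h𝔐 hπ) ψ ?_ ?_ ?_ b b' ?_).mpr hb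
  · intro b₀ hb₀
    obtain ⟨a, ha, haψ⟩ := hcusp
    have hab : b₀ = a := Subtype.ext (hb₀.trans ha.symm)
    rw [hab]
    exact haψ
  · rintro x ⟨hx, hred⟩
    exact h1 x ((s35val_w₁_lt_one_iff_redInf hΛ ι M q hcop ⟨_, hx⟩).mpr hred)
  · rintro x ⟨hx, hred⟩
    exact h2 x ((s35val_w₂_lt_one_iff_redZero hΛ ι M q hcop ⟨_, hx⟩).mpr hred)
  · exact hbb'.trans (hs2 _)

end Fermat.Agent.S35
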