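import Mathlib
import Fermat.Agent.S34.GalGeo
import Fermat.Agent.S34.GalPic

/-!
# P20 (S35), block STAR / F1, leaf F1-GEO (second team)

Bookkeeping in the frozen `Pic⁰` formalism, analogue of `S34.s34gal_geo_of_pow_field` for
`σ²(u) / u ^ Q`: let `g` be a semilinear automorphism of a function field `F / K`, `D` a divisor
of degree zero with `m • D = div U`.  If `g • g • U / U ^ Q` is an `m`-th power `Y ^ m`, then
`g • g • D - Q • D = div Y`, hence `g • g • x = Q • x` for `x = [D]`
(`s35f1geoB_class`).  `s35f1_geo_of_pow_field_B` is the instance for `J₀(N)`, the arithmetic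
Galois action and a root over a normal number field.
-/

set_option autoImplicit false

namespace Fermat.Agent.S35

open Fermat.Agent.S34

section Abstract

open AlgebraicCurve

variable {K F : Type*} [Field K] [Field F] [Algebra K F]

/-- Orders of `g • g • U / U ^ Q` for a function `U` with divisor `E`. -/
theorem s35f1geoB_ord (g : SemilinearAut K F) {U : F} (hU : U ≠ 0) (Q : ℕ)
    (E : Divisor K F) (hE : ∀ v : Place K F, E v = v.ord U) (v : Place K F) :
    v.ord (g • (g • U) / U ^ Q) = (g • g • E - (Q : ℤ) • E) v := by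
  have h1 : g • U ≠ 0 := s34gal_smul_ne_zero g hU
  have h2 : g • (g • U) ≠ 0 := s34gal_smul_ne_zero g h1
  have h3 : U ^ Q ≠ 0 := pow_ne_zero _ hU
  rw [s34gal_ord_div v h2 h3, s34gal_ord_smul g v, s34gal_ord_smul g (g⁻¹ • v), ← zpow_natCast,
    v.ord_zpow]
  simp only [Finsupp.sub_apply, Finsupp.smul_apply, SemilinearAut.divisor_smul_apply, hE,
    smul_eq_mul]

/-- If `g • g • U / U ^ Q` is an `m`-th power, where `m • D = div U`, then `g • g • [D] = Q • [D]`
in `Pic⁰`. -/
theorem s35f1geoB_class (g : SemilinearAut K F) {m : ℕ} (hm : m ≠ 0) (Q : ℕ)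
    (D : Divisor.degZero (K := K) (F := F)) {U : F} (hU : U ≠ 0)
    (hD : ∀ v : Place K F, (m • (D : Divisor K F)) v = v.ord U)
    {Y : F} (hY : Y ^ m = g • (g • U) / U ^ Q) :
    g • g • Pic0.mk D = (Q : ℤ) • Pic0.mk D := by
  have hY0 : Y ≠ 0 := by
    intro h
    rw [h, zero_pow hm] at hY
    exact div_ne_zero (s34gal_smul_ne_zero g (s34gal_smul_ne_zero g hU)) (pow_ne_zero _ hU)
      hY.symm
  rw [← sub_eq_zero]
  show Pic0.mk (SemilinearAut.degZeroSMulHom g (SemilinearAut.degZeroSMulHom g D)
    - (Q : ℤ) • D) = 0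
  refine (QuotientAddGroup.eq_zero_iff _).mpr ?_
  rw [AddSubgroup.mem_addSubgroupOf]
  refine ⟨Y, hY0, fun v => ?_⟩
  have h1 := s35f1geoB_ord g hU Q (m • (D : Divisor K F)) hD v
  rw [← hY, ← zpow_natCast, v.ord_zpow] at h1
  have h2 : (g • g • (m • (D : Divisor K F)) - (Q : ℤ) • (m • (D : Divisor K F))) v
      = (m : ℤ) * (g • g • (D : Divisor K F) - (Q : ℤ) • (D : Divisor K F)) v := by
    simp only [Finsupp.sub_apply, Finsupp.smul_apply, SemilinearAut.divisor_smul_apply,
      nsmul_eq_mul, smul_eq_mul]
    ring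
  rw [h2] at h1
  have hm' : (m : ℤ) ≠ 0 := by exact_mod_cast hm
  have h3 := mul_left_cancel₀ hm' h1
  simpa using h3.symm

end Abstract

open AlgebraicCurve ModularCurve IntermediateField in
/-- (F1-GEO, second team) analogue of `S34.s34gal_geo_of_pow_field` for `σ²(u) / u ^ Q`. -/
theorem s35f1_geo_of_pow_field_B (N : ℕ) {m : ℕ} (hm : m ≠ 0) (Q : ℕ)
    (σ : AlgebraicClosure ℚ ≃ₐ[ℚ] AlgebraicClosure ℚ)
    (x : JZero N) (K : IntermediateField ℚ (AlgebraicClosure ℚ)) [Normal ℚ ↥K]
    (D : Divisor.degZero (K := AlgebraicClosure ℚ) (F := modularFunctionFieldBar N))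
    (u y : ↥(laurentBaseChange (↥K) (modularFunctionFieldFull N)))
    (hD : Pic0.mk D = x) (hu : u ≠ 0)
    (hdiv : ∀ v : Place (AlgebraicClosure ℚ) (modularFunctionFieldBar N),
      (m • (D : Divisor (AlgebraicClosure ℚ) (modularFunctionFieldBar N))) v =
        v.ord (s34galEmb (modularFunctionFieldFull N) K u))
    (hy : y ^ m =
      arithmeticRingAut (modularFunctionFieldFull N) (σ.restrictNormal ↥K)
          (arithmeticRingAut (modularFunctionFieldFull N) (σ.restrictNormal ↥K) u) / u ^ Q) :
    σ • σ • x = (Q : ℤ) • x := by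
  subst hD
  have hU : s34galEmb (modularFunctionFieldFull N) K u ≠ 0 :=
    fun h => hu (s34galEmb_injective _ K (by rw [h, map_zero]))
  have hY : s34galEmb (modularFunctionFieldFull N) K y ^ m =
      arithmeticGalois (modularFunctionFieldFull N) σ •
          (arithmeticGalois (modularFunctionFieldFull N) σ •
            s34galEmb (modularFunctionFieldFull N) K u) /
        s34galEmb (modularFunctionFieldFull N) K u ^ Q := by
    have e1 : s34galEmb (modularFunctionFieldFull N) K
        (arithmeticRingAut (modularFunctionFieldFull N) (σ.restrictNormal ↥K)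
          (arithmeticRingAut (modularFunctionFieldFull N) (σ.restrictNormal ↥K) u)) =
        arithmeticGalois (modularFunctionFieldFull N) σ •
          (arithmeticGalois (modularFunctionFieldFull N) σ •
            s34galEmb (modularFunctionFieldFull N) K u) :=
      (s34galEmb_arithmeticRingAut (modularFunctionFieldFull N) K σ _).trans
        (congrArg (fun t => arithmeticGalois (modularFunctionFieldFull N) σ • t)
          (s34galEmb_arithmeticRingAut (modularFunctionFieldFull N) K σ u))
    have e2 : s34galEmb (modularFunctionFieldFull N) K y ^ m =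
        s34galEmb (modularFunctionFieldFull N) K (y ^ m) :=
      (map_pow (s34galEmb (modularFunctionFieldFull N) K) y m).symm
    have e3 : s34galEmb (modularFunctionFieldFull N) K (u ^ Q) =
        s34galEmb (modularFunctionFieldFull N) K u ^ Q :=
      map_pow (s34galEmb (modularFunctionFieldFull N) K) u Q
    have e4 : ∀ a b : ↥(laurentBaseChange (↥K) (modularFunctionFieldFull N)),
        s34galEmb (modularFunctionFieldFull N) K (a / b) =
          s34galEmb (modularFunctionFieldFull N) K a /
            s34galEmb (modularFunctionFieldFull N) K b :=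
      fun a b => map_div₀ (s34galEmb (modularFunctionFieldFull N) K) a b
    exact (e2.trans (congrArg (s34galEmb (modularFunctionFieldFull N) K) hy)).trans
      ((e4 _ _).trans (congrArg₂ (fun a b => a / b) e1 e3))
  exact s35f1geoB_class (arithmeticGalois (modularFunctionFieldFull N) σ) hm Q D hU hdiv hY

end Fermat.Agent.S35
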