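import Mathlib

/-!
P20 (S35), block F1, NOFT (L3): gluing of two units along `𝔪 = 𝔭₁ + 𝔭₂` (locally at `𝔪`).
-/

set_option autoImplicit false

namespace Fermat.Agent.S35

/-- If `𝔪` is generated by `𝔭₁` and `𝔭₂` locally at `𝔪`, two elements `e₁ ≡ e₂ (mod 𝔪)`
outside `𝔪` can be glued: there are `a, ε ∉ 𝔪` with `ε ≡ a e₁ (mod 𝔭₁)` and
`ε ≡ a e₂ (mod 𝔭₂)`. -/
theorem s35f1_glue_units {B : Type*} [CommRing B] (𝔪 𝔭₁ 𝔭₂ : Ideal B) [𝔪.IsPrime]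
    (h₁ : 𝔭₁ ≤ 𝔪)
    (hgen : ∀ z ∈ 𝔪, ∃ a : B, a ∉ 𝔪 ∧ ∃ p₁ ∈ 𝔭₁, ∃ p₂ ∈ 𝔭₂, a * z = p₁ + p₂)
    (e₁ e₂ : B) (h : e₁ - e₂ ∈ 𝔪) (he₁ : e₁ ∉ 𝔪) :
    ∃ a ε : B, a ∉ 𝔪 ∧ ε ∉ 𝔪 ∧ ε - a * e₁ ∈ 𝔭₁ ∧ ε - a * e₂ ∈ 𝔭₂ := by
  obtain ⟨a, ha, p₁, hp₁, p₂, hp₂, h12⟩ := hgen _ h
  refine ⟨a, a * e₁ - p₁, ha, fun hε => ?_, ?_, ?_⟩
  · have h2 : a * e₁ ∈ 𝔪 := by
      have h3 : a * e₁ = (a * e₁ - p₁) + p₁ := by ring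
      rw [h3]
      exact 𝔪.add_mem hε (h₁ hp₁)
    rcases (Ideal.IsPrime.mem_or_mem ‹𝔪.IsPrime› h2) with h4 | h4
    · exact ha h4
    · exact he₁ h4
  · have h3 : a * e₁ - p₁ - a * e₁ = -p₁ := by ring
    rw [h3]
    exact 𝔭₁.neg_mem hp₁
  · have h3 : a * e₁ - p₁ - a * e₂ = p₂ := by linear_combination h12
    rw [h3]
    exact hp₂

end Fermat.Agent.S35
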