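import Mathlib
import Fermat.Agent.S34.ModelMDefs
import Fermat.Agent.S35.F1InstFin
import Fermat.Agent.S35.F1InstInf
import Fermat.Agent.S35.F1ChartPt3

/-!
# P20 (S35), F1 core, slot `hinst` (third variant): closed points of `Λ`-points on the concrete charts

Generic (KRON) convention: `L` a field of characteristic `0`, `Λ : Subring L` a Gauss ring,
`F_N = FFL L (M * q)`, `j = jL L (M * q)`, chart rings `integralClosure Λ[t] F_N`
(`t = j`, `j⁻¹`).  The centre of a `Λ`-point of a chart ring (through the cusp divisor for the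
chart `j⁻¹`) is a one-component point (`S35F1One`) or a crossing point (`S35F1CrossW`) with
respect to the two vertical valuations `s35valW₁`, `s35valW₂`.

These are the hypotheses `hinst_fin`, `hinst_inf` of `s35f1_kummer_laurent3`, from
`kron_inst_fin_val` / `kron_inst_inf_val'` and `S34MstarAt`.
-/

set_option autoImplicit false

namespace Fermat.Agent.S35

open ModularCurve AlgebraicCurve Polynomial IsDedekindDomain
open Fermat.Agent.S18 Fermat.Agent.S28 Fermat.Agent.S28.FreeBasisAbs Fermat.Agent.S34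

variable {L k : Type*} [Field L] [Algebra ℚ L] [Field k] {Λ : Subring L} {π : L}
  {res : ↥Λ →+* k}

set_option synthInstance.maxHeartbeats 400000 in
set_option maxHeartbeats 1000000 in
/-- **`hinst`, chart `j`** (third variant). -/
theorem s35f1_hinst_fin_C [CharZero L]
    (ι : L →+* ℂ) (M q : ℕ) [NeZero M] [NeZero q] (hcop : Nat.Coprime M q)
    (hΛ : IsGaussRing Λ π res) (hq : q.Prime) [CharP k q]
    (ζ : Lˣ) (hζ : IsPrimitiveRoot ζ q) (hζΛ : (ζ : L) ∈ Λ)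
    (φ : L ≃ₐ[ℚ] L) (hφΛ : ∀ a ∈ Λ, φ.symm a ∈ Λ)
    (hφ : ∀ a : ↥Λ, res ⟨φ.symm a, hφΛ a a.2⟩ ^ q = res a)
    (hM : S34MstarAt Λ M (GaussL.piL hΛ))
    (ψ : ↥(integralClosure (Algebra.adjoin ↥Λ {Fermat.Agent.S24.jL L (M * q)})
      (Fermat.Agent.S24.FFL L (M * q))) →ₐ[↥Λ] ↥Λ) :
    S35F1One (B := ↥(integralClosure (Algebra.adjoin ↥Λ {Fermat.Agent.S24.jL L (M * q)})
          (Fermat.Agent.S24.FFL L (M * q))))
        (GaussL.piL hΛ) (s35valW₁ hΛ (M * q)) (s35valW₂ hΛ ι M q hcop)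
        (Ideal.comap (ψ : ↥(integralClosure (Algebra.adjoin ↥Λ {Fermat.Agent.S24.jL L (M * q)})
          (Fermat.Agent.S24.FFL L (M * q))) →+* ↥Λ) (Ideal.span {GaussL.piL hΛ}) :
          Ideal ↥(integralClosure (Algebra.adjoin ↥Λ {Fermat.Agent.S24.jL L (M * q)})
            (Fermat.Agent.S24.FFL L (M * q)))) ∨
      S35F1CrossW (B := ↥(integralClosure (Algebra.adjoin ↥Λ {Fermat.Agent.S24.jL L (M * q)})
          (Fermat.Agent.S24.FFL L (M * q))))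
        (GaussL.piL hΛ) (s35valW₁ hΛ (M * q)) (s35valW₂ hΛ ι M q hcop)
        (Ideal.comap (ψ : ↥(integralClosure (Algebra.adjoin ↥Λ {Fermat.Agent.S24.jL L (M * q)})
          (Fermat.Agent.S24.FFL L (M * q))) →+* ↥Λ) (Ideal.span {GaussL.piL hΛ}) :
          Ideal ↥(integralClosure (Algebra.adjoin ↥Λ {Fermat.Agent.S24.jL L (M * q)})
            (Fermat.Agent.S24.FFL L (M * q)))) := by
  have h := kron_inst_fin_val ι M q hcop hΛ hq ζ hζ hζΛ φ hφΛ hφ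
    (A := ↥(integralClosure (Algebra.adjoin ↥Λ {Fermat.Agent.S24.jL L M})
      (Fermat.Agent.S24.FFL L M)))
    (B := ↥(integralClosure (Algebra.adjoin ↥Λ {Fermat.Agent.S24.jL L (M * q)})
      (Fermat.Agent.S24.FFL L (M * q))))
    (algebraMap _ _) (algebraMap _ _) Subtype.val_injective Subtype.val_injective
    (fun c => rfl) (fun c => rfl)
    (fun z => ⟨fun ⟨a, ha⟩ => ha ▸ a.2, fun hz => ⟨⟨z, hz⟩, rfl⟩⟩)
    (fun z => ⟨fun ⟨a, ha⟩ => ha ▸ a.2, fun hz => ⟨⟨z, hz⟩, rfl⟩⟩)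
    (fun 𝔐 h𝔐 hπ => hM.1 𝔐 h𝔐 hπ) ψ _ rfl
  rcases h with ⟨t, ht, -, ht1, ht2, -⟩ |
    ⟨h1, h2, x, y, G, hxy, hx, hy, -, hx2, -, hy1, hgen, -, -⟩
  · exact Or.inl ⟨t, ht, ht1, ht2⟩
  · exact Or.inr ⟨x, y, G, hxy, hx, hy, hx2, hy1, hgen, h1, h2⟩

set_option synthInstance.maxHeartbeats 400000 in
set_option maxHeartbeats 1000000 in
/-- **`hinst`, chart `j⁻¹`** at the `Λ`-points through the cusp divisor (third variant). -/
theorem s35f1_hinst_inf_C [CharZero L]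
    (ι : L →+* ℂ) (M q : ℕ) [NeZero M] [NeZero q] (hcop : Nat.Coprime M q)
    (hΛ : IsGaussRing Λ π res) (hq : q.Prime) [CharP k q]
    (ζ : Lˣ) (hζ : IsPrimitiveRoot ζ q) (hζΛ : (ζ : L) ∈ Λ)
    (φ : L ≃ₐ[ℚ] L) (hφΛ : ∀ a ∈ Λ, φ.symm a ∈ Λ)
    (hφ : ∀ a : ↥Λ, res ⟨φ.symm a, hφΛ a a.2⟩ ^ q = res a)
    (hM : S34MstarAt Λ M (GaussL.piL hΛ))
    (ψ : ↥(integralClosure (Algebra.adjoin ↥Λ {(Fermat.Agent.S24.jL L (M * q))⁻¹})
      (Fermat.Agent.S24.FFL L (M * q))) →ₐ[↥Λ] ↥Λ)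
    (hcusp : ∃ a : ↥(integralClosure (Algebra.adjoin ↥Λ {(Fermat.Agent.S24.jL L (M * q))⁻¹})
        (Fermat.Agent.S24.FFL L (M * q))),
      (a : Fermat.Agent.S24.FFL L (M * q)) = (Fermat.Agent.S24.jL L (M * q))⁻¹ ∧
        GaussL.piL hΛ ∣ ψ a) :
    S35F1One (B := ↥(integralClosure (Algebra.adjoin ↥Λ {(Fermat.Agent.S24.jL L (M * q))⁻¹})
          (Fermat.Agent.S24.FFL L (M * q))))
        (GaussL.piL hΛ) (s35valW₁ hΛ (M * q)) (s35valW₂ hΛ ι M q hcop)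
        (Ideal.comap (ψ : ↥(integralClosure (Algebra.adjoin ↥Λ
          {(Fermat.Agent.S24.jL L (M * q))⁻¹})
          (Fermat.Agent.S24.FFL L (M * q))) →+* ↥Λ) (Ideal.span {GaussL.piL hΛ}) :
          Ideal ↥(integralClosure (Algebra.adjoin ↥Λ {(Fermat.Agent.S24.jL L (M * q))⁻¹})
            (Fermat.Agent.S24.FFL L (M * q)))) ∨
      S35F1CrossW (B := ↥(integralClosure (Algebra.adjoin ↥Λ {(Fermat.Agent.S24.jL L (M * q))⁻¹})
          (Fermat.Agent.S24.FFL L (M * q))))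
        (GaussL.piL hΛ) (s35valW₁ hΛ (M * q)) (s35valW₂ hΛ ι M q hcop)
        (Ideal.comap (ψ : ↥(integralClosure (Algebra.adjoin ↥Λ
          {(Fermat.Agent.S24.jL L (M * q))⁻¹})
          (Fermat.Agent.S24.FFL L (M * q))) →+* ↥Λ) (Ideal.span {GaussL.piL hΛ}) :
          Ideal ↥(integralClosure (Algebra.adjoin ↥Λ {(Fermat.Agent.S24.jL L (M * q))⁻¹})
            (Fermat.Agent.S24.FFL L (M * q)))) := by
  have h := kron_inst_inf_val' ι M q hcop hΛ hq ζ hζ hζΛ φ hφΛ hφ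
    (A := ↥(integralClosure (Algebra.adjoin ↥Λ {(Fermat.Agent.S24.jL L M)⁻¹})
      (Fermat.Agent.S24.FFL L M)))
    (B := ↥(integralClosure (Algebra.adjoin ↥Λ {(Fermat.Agent.S24.jL L (M * q))⁻¹})
      (Fermat.Agent.S24.FFL L (M * q))))
    (algebraMap _ _) (algebraMap _ _) Subtype.val_injective Subtype.val_injective
    (fun c => rfl) (fun c => rfl)
    (fun z => ⟨fun ⟨a, ha⟩ => ha ▸ a.2, fun hz => ⟨⟨z, hz⟩, rfl⟩⟩)
    (fun z => ⟨fun ⟨a, ha⟩ => ha ▸ a.2, fun hz => ⟨⟨z, hz⟩, rfl⟩⟩)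
    (fun 𝔐 h𝔐 hπ => hM.2 𝔐 h𝔐 hπ) ψ
    (by
      intro b₀ hb₀
      obtain ⟨a, ha, haψ⟩ := hcusp
      have hab : b₀ = a := Subtype.ext (hb₀.trans ha.symm)
      rw [hab]
      exact haψ) _ rfl
  rcases h with ⟨t, ht, -, ht1, ht2, -⟩ |
    ⟨h1, h2, x, y, G, hxy, hx, hy, -, hx2, -, hy1, hgen, -, -⟩
  · exact Or.inl ⟨t, ht, ht1, ht2⟩
  · exact Or.inr ⟨x, y, G, hxy, hx, hy, hx2, hy1, hgen, h1, h2⟩

end Fermat.Agent.S35
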