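import Mathlib
import Fermat.Agent.S34.AbsMainRoot
import Fermat.Agent.S34.AbsNoeth
import Fermat.Agent.S35.F1Engine
import Fermat.Agent.S35.F1ChartPt

/-!
# P20 (S35), F1: the Kummer descent for `z = s2 u / u ^ Q`, both charts, root in `K((q))`

`s35f1_kummer_laurent`: `F = ↥E` a function field inside `K((q))`, `K = Frac Λ`, `Λ` a discrete
valuation ring, `w₁, w₂` the two vertical valuations (`int V = {w₁ ≤ 1} ∩ {w₂ ≤ 1}`), `s2` an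
automorphism of `F` fixing `j`, preserving `Λ`, `w₁`, `w₂`, and acting as the `Q`-th power on the
residue field of `w₁`.  If `u ≡ 1` modulo `π`, all horizontal orders of `u` are divisible by `m`,
`z = s2 u / u ^ Q` is an `m`-th power in `K((q))`, and the closed points of the two charts
satisfy the provider hypotheses of `s35f1_chart_pt`, then `z` is an `m`-th power in `F`.
-/

set_option autoImplicit false
set_option linter.style.haveILetI false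

open IsDedekindDomain IntermediateField

namespace Fermat.Agent.S35

open Fermat.Agent.S34

set_option maxHeartbeats 1000000 in
/-- **F1, Kummer descent** (root in `K((q))`). -/
theorem s35f1_kummer_laurent
    {Λ K : Type*} [CommRing Λ] [IsDomain Λ] [IsDiscreteValuationRing Λ]
    [Field K] [CharZero K] [Algebra Λ K] [IsFractionRing Λ K]
    (E : IntermediateField K (LaurentSeries K)) [Algebra Λ ↥E] [IsScalarTower Λ K ↥E]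
    (π : Λ) (hπ : Irreducible π) (j : ↥E) (hj : Transcendental K j)
    [FiniteDimensional K⟮j⟯ ↥E]
    (m : ℕ) (hm : IsUnit (m : Λ)) (ζ : Λ) (hζ : IsPrimitiveRoot ζ m)
    [IsDedekindDomain ↥(integralClosure (Algebra.adjoin K {j}) ↥E)]
    [IsFractionRing ↥(integralClosure (Algebra.adjoin K {j}) ↥E) ↥E]
    [IsDedekindDomain ↥(integralClosure (Algebra.adjoin K {j⁻¹}) ↥E)]
    [IsFractionRing ↥(integralClosure (Algebra.adjoin K {j⁻¹}) ↥E) ↥E]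
    {Γ₁ Γ₂ : Type*} [LinearOrderedCommGroupWithZero Γ₁] [LinearOrderedCommGroupWithZero Γ₂]
    (w₁ : Valuation ↥E Γ₁) (w₂ : Valuation ↥E Γ₂)
    (hVw : ∀ f : ↥E, IsIntegral (S18.gaussSub π hπ.prime j) f ↔ w₁ f ≤ 1 ∧ w₂ f ≤ 1)
    (hπw : ∀ f : ↥E, w₁ f < 1 → w₂ f < 1 →
      ∃ δ : ↥E, IsIntegral (S18.gaussSub π hπ.prime j) δ ∧ f = π • δ)
    (hπ₁ : w₁ (algebraMap Λ ↥E π) < 1) (hπ₂ : w₂ (algebraMap Λ ↥E π) < 1)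
    (hΛ₁ : ∀ c : Λ, IsUnit c → w₁ (algebraMap Λ ↥E c) = 1)
    (s2 : ↥E ≃+* ↥E) (hs2j : s2 j = j)
    (hs2Λ : ∀ c : Λ, ∃ c' : Λ, s2 (algebraMap Λ ↥E c) = algebraMap Λ ↥E c')
    (hs2Λs : ∀ c : Λ, ∃ c' : Λ, s2.symm (algebraMap Λ ↥E c) = algebraMap Λ ↥E c')
    (hs₁ : ∀ f : ↥E, w₁ (s2 f) = w₁ f) (hs₂ : ∀ f : ↥E, w₂ (s2 f) = w₂ f)
    (Q : ℕ) (hfrob : ∀ c : Λ, w₁ (s2 (algebraMap Λ ↥E c) - algebraMap Λ ↥E c ^ Q) < 1)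
    (u : ↥E) (hu : u ≠ 0)
    (hu1 : ∃ δ : ↥E, IsIntegral (S18.gaussSub π hπ.prime j) δ ∧ u - 1 = π • δ)
    (W : LaurentSeries K) (hW : W ^ m = ((s2 u / u ^ Q : ↥E) : LaurentSeries K))
    (hdiv_fin : ∀ 𝔔 : HeightOneSpectrum ↥(integralClosure (Algebra.adjoin K {j}) ↥E),
      ∃ n : ℤ, 𝔔.valuation ↥E u = WithZero.exp ((m : ℤ) * n))
    (hdiv_inf : ∀ 𝔔 : HeightOneSpectrum ↥(integralClosure (Algebra.adjoin K {j⁻¹}) ↥E),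
      ∃ n : ℤ, 𝔔.valuation ↥E u = WithZero.exp ((m : ℤ) * n))
    -- chart `j`
    (hdict_fin : ∀ 𝔫 : Ideal ↥(integralClosure (Algebra.adjoin Λ {j}) ↥E), 𝔫.IsMaximal →
      algebraMap Λ ↥(integralClosure (Algebra.adjoin Λ {j}) ↥E) π ∈ 𝔫 →
      ∀ 𝔔 ∈ absThrough (absIncl Λ K j) 𝔫, 𝔔.valuation ↥E u ≠ 1 →
      ∃ φ : ↥(integralClosure (Algebra.adjoin Λ {j}) ↥E) →ₐ[Λ] Λ,
        𝔫 = Ideal.comap (φ : ↥(integralClosure (Algebra.adjoin Λ {j}) ↥E) →+* Λ)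
          (Ideal.span {π}) ∧
        ∀ b : ↥(integralClosure (Algebra.adjoin Λ {j}) ↥E),
          absIncl Λ K j b ∈ 𝔔.asIdeal ↔ φ b = 0)
    (hinst_fin : ∀ φ : ↥(integralClosure (Algebra.adjoin Λ {j}) ↥E) →ₐ[Λ] Λ,
      S35F1One π w₁ w₂
        (Ideal.comap (φ : ↥(integralClosure (Algebra.adjoin Λ {j}) ↥E) →+* Λ) (Ideal.span {π})) ∨
      S35F1Cross π w₁ w₂
        (Ideal.comap (φ : ↥(integralClosure (Algebra.adjoin Λ {j}) ↥E) →+* Λ) (Ideal.span {π})) ∨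
      S35F1CrossN π w₁ w₂
        (Ideal.comap (φ : ↥(integralClosure (Algebra.adjoin Λ {j}) ↥E) →+* Λ) (Ideal.span {π})))
    (hsig_fin : ∀ 𝔫 : Ideal ↥(integralClosure (Algebra.adjoin Λ {j}) ↥E), 𝔫.IsMaximal →
      algebraMap Λ ↥(integralClosure (Algebra.adjoin Λ {j}) ↥E) π ∈ 𝔫 →
      (∀ b : ↥(integralClosure (Algebra.adjoin Λ {j}) ↥E), w₁ (b : ↥E) < 1 → b ∈ 𝔫) →
      (∀ b : ↥(integralClosure (Algebra.adjoin Λ {j}) ↥E), w₂ (b : ↥E) < 1 → b ∈ 𝔫) →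
      ∀ b b' : ↥(integralClosure (Algebra.adjoin Λ {j}) ↥E),
        (b' : ↥E) = s2 (b : ↥E) → b ∈ 𝔫 → b' ∈ 𝔫)
    -- chart `j⁻¹`, closed points with `j⁻¹ = 0`
    (hdict_inf : ∀ 𝔫 : Ideal ↥(integralClosure (Algebra.adjoin Λ {j⁻¹}) ↥E), 𝔫.IsMaximal →
      algebraMap Λ ↥(integralClosure (Algebra.adjoin Λ {j⁻¹}) ↥E) π ∈ 𝔫 →
      (∃ a : ↥(integralClosure (Algebra.adjoin Λ {j⁻¹}) ↥E), (a : ↥E) = j⁻¹ ∧ a ∈ 𝔫) →
      ∀ 𝔔 ∈ absThrough (absIncl Λ K j⁻¹) 𝔫, 𝔔.valuation ↥E u ≠ 1 →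
      ∃ φ : ↥(integralClosure (Algebra.adjoin Λ {j⁻¹}) ↥E) →ₐ[Λ] Λ,
        𝔫 = Ideal.comap (φ : ↥(integralClosure (Algebra.adjoin Λ {j⁻¹}) ↥E) →+* Λ)
          (Ideal.span {π}) ∧
        ∀ b : ↥(integralClosure (Algebra.adjoin Λ {j⁻¹}) ↥E),
          absIncl Λ K j⁻¹ b ∈ 𝔔.asIdeal ↔ φ b = 0)
    (hinst_inf : ∀ φ : ↥(integralClosure (Algebra.adjoin Λ {j⁻¹}) ↥E) →ₐ[Λ] Λ,
      (∃ a : ↥(integralClosure (Algebra.adjoin Λ {j⁻¹}) ↥E), (a : ↥E) = j⁻¹ ∧ π ∣ φ a) →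
      S35F1One π w₁ w₂
        (Ideal.comap (φ : ↥(integralClosure (Algebra.adjoin Λ {j⁻¹}) ↥E) →+* Λ)
          (Ideal.span {π})) ∨
      S35F1Cross π w₁ w₂
        (Ideal.comap (φ : ↥(integralClosure (Algebra.adjoin Λ {j⁻¹}) ↥E) →+* Λ)
          (Ideal.span {π})) ∨
      S35F1CrossN π w₁ w₂
        (Ideal.comap (φ : ↥(integralClosure (Algebra.adjoin Λ {j⁻¹}) ↥E) →+* Λ)
          (Ideal.span {π})))
    (hsig_inf : ∀ 𝔫 : Ideal ↥(integralClosure (Algebra.adjoin Λ {j⁻¹}) ↥E), 𝔫.IsMaximal →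
      algebraMap Λ ↥(integralClosure (Algebra.adjoin Λ {j⁻¹}) ↥E) π ∈ 𝔫 →
      (∃ a : ↥(integralClosure (Algebra.adjoin Λ {j⁻¹}) ↥E), (a : ↥E) = j⁻¹ ∧ a ∈ 𝔫) →
      (∀ b : ↥(integralClosure (Algebra.adjoin Λ {j⁻¹}) ↥E), w₁ (b : ↥E) < 1 → b ∈ 𝔫) →
      (∀ b : ↥(integralClosure (Algebra.adjoin Λ {j⁻¹}) ↥E), w₂ (b : ↥E) < 1 → b ∈ 𝔫) →
      ∀ b b' : ↥(integralClosure (Algebra.adjoin Λ {j⁻¹}) ↥E),
        (b' : ↥E) = s2 (b : ↥E) → b ∈ 𝔫 → b' ∈ 𝔫) :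
    ∃ y : ↥E, y ^ m = s2 u / u ^ Q := by
  have hm0 : 0 < m := by
    rcases Nat.eq_zero_or_pos m with rfl | h
    · rw [Nat.cast_zero] at hm
      exact absurd hm not_isUnit_zero
    · exact h
  have hjΛ : Transcendental Λ j := S18.GaussLineK.transcendental_of_fraction hj
  have hji : Transcendental K j⁻¹ := by
    intro h
    exact hj (by simpa using h.inv)
  have hV : S18.gaussSub π hπ.prime j⁻¹ = S18.gaussSub π hπ.prime j :=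
    S18.GaussLineK.gaussSub_inv π hπ.prime hjΛ
  haveI := abs_isNoetherianRing_chart (Λ := Λ) hj
  haveI := abs_isNoetherianRing_chart_inv (Λ := Λ) hj
  -- `z ≡ 1`
  obtain ⟨δu, hδu, hδu1⟩ := hu1
  obtain ⟨hδ1, hδ2⟩ := (hVw δu).mp hδu
  have hu₁ : w₁ (u - 1) < 1 := by rw [hδu1]; exact s35f1ch_smul_lt w₁ π hπ₁ hδ1
  have hu₂ : w₂ (u - 1) < 1 := by rw [hδu1]; exact s35f1ch_smul_lt w₂ π hπ₂ hδ2
  obtain ⟨hz0, hz', hz1⟩ := s35f1_vert π (S18.gaussSub π hπ.prime j) w₁ w₂ hVw hπw s2 hs₁ hs₂ Q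
    hfrob hΛ₁ u u 1 isUnit_one (by rw [map_one]; exact hu₁) (by rw [map_one]; exact hu₁) hu₂ hu₂
  have hz : IsIntegral (S18.gaussSub π hπ.prime j) (s2 u / u ^ Q) := by
    have h := hz'
    rw [hVw, map_inv₀, map_inv₀] at h
    rw [hVw]
    have hne₁ : w₁ (s2 u / u ^ Q) ≠ 0 := (Valuation.ne_zero_iff _).mpr hz0
    have hne₂ : w₂ (s2 u / u ^ Q) ≠ 0 := (Valuation.ne_zero_iff _).mpr hz0
    obtain ⟨δ, hδ, hδz⟩ := hz1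
    obtain ⟨hd1, hd2⟩ := (hVw δ).mp hδ
    have e : s2 u / u ^ Q = (s2 u / u ^ Q - 1) + 1 := by ring
    constructor
    · rw [e, hδz]
      exact le_trans (w₁.map_add _ _) (max_le (le_of_lt (s35f1ch_smul_lt w₁ π hπ₁ hd1))
        (by rw [map_one]))
    · rw [e, hδz]
      exact le_trans (w₂.map_add _ _) (max_le (le_of_lt (s35f1ch_smul_lt w₂ π hπ₂ hd2))
        (by rw [map_one]))
  -- the two charts
  have hfin : ∀ 𝔪 : Ideal ↥(integralClosure (Algebra.adjoin Λ {j}) ↥E), 𝔪.IsMaximal →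
      algebraMap Λ ↥(integralClosure (Algebra.adjoin Λ {j}) ↥E) π ∈ 𝔪 →
      ∃ G : ↥E, G ≠ 0 ∧ IsIntegral (S18.gaussSub π hπ.prime j) G⁻¹ ∧
        (∃ δ : ↥E, IsIntegral (S18.gaussSub π hπ.prime j) δ ∧ G - 1 = π • δ) ∧
        ∀ 𝔔 ∈ absThrough (absIncl Λ K j) 𝔪, 𝔔.valuation ↥E ((s2 u / u ^ Q) / G ^ m) ≤ 1 := by
    intro 𝔪 h𝔪 hπ𝔪
    exact s35f1_chart_pt π hπ hj w₁ w₂ hVw hπw hπ₁ hπ₂ hΛ₁ s2 hs2j hs2Λ hs2Λs hs₁ hs₂ Q hfrob m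
      hm0.ne' hu ⟨δu, hδu, hδu1⟩ hdiv_fin 0 (by simp)
      (fun 𝔫 h𝔫 hπ𝔫 _ => hdict_fin 𝔫 h𝔫 hπ𝔫) (fun φ _ => hinst_fin φ)
      (fun 𝔫 h𝔫 hπ𝔫 _ => hsig_fin 𝔫 h𝔫 hπ𝔫) 𝔪 h𝔪 hπ𝔪 (Ideal.zero_mem _)
  have hinf : ∀ 𝔪 : Ideal ↥(integralClosure (Algebra.adjoin Λ {j⁻¹}) ↥E), 𝔪.IsMaximal →
      algebraMap Λ ↥(integralClosure (Algebra.adjoin Λ {j⁻¹}) ↥E) π ∈ 𝔪 →
      (∃ a : ↥(integralClosure (Algebra.adjoin Λ {j⁻¹}) ↥E), (a : ↥E) = j⁻¹ ∧ a ∈ 𝔪) →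
      ∃ G : ↥E, G ≠ 0 ∧ IsIntegral (S18.gaussSub π hπ.prime j) G⁻¹ ∧
        (∃ δ : ↥E, IsIntegral (S18.gaussSub π hπ.prime j) δ ∧ G - 1 = π • δ) ∧
        ∀ 𝔔 ∈ absThrough (absIncl Λ K j⁻¹) 𝔪, 𝔔.valuation ↥E ((s2 u / u ^ Q) / G ^ m) ≤ 1 := by
    intro 𝔪 h𝔪 hπ𝔪 hcusp
    have hint : IsIntegral (Algebra.adjoin Λ {j⁻¹}) (j⁻¹ : ↥E) :=
      isIntegral_algebraMap (R := ↥(Algebra.adjoin Λ {j⁻¹})) (A := ↥E)
        (x := ⟨j⁻¹, Algebra.self_mem_adjoin_singleton Λ j⁻¹⟩)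
    have ha₀ : ∀ a : ↥(integralClosure (Algebra.adjoin Λ {j⁻¹}) ↥E), (a : ↥E) = j⁻¹ →
        a = ⟨j⁻¹, hint⟩ := fun a ha => Subtype.ext ha
    have ha₀𝔪 : (⟨j⁻¹, hint⟩ : ↥(integralClosure (Algebra.adjoin Λ {j⁻¹}) ↥E)) ∈ 𝔪 := by
      obtain ⟨a, ha, ha𝔪⟩ := hcusp
      rw [← ha₀ a ha]
      exact ha𝔪
    have h := s35f1_chart_pt π hπ hji w₁ w₂ (by rw [hV]; exact hVw) (by rw [hV]; exact hπw) hπ₁ hπ₂
      hΛ₁ s2 (abs_inv_fix s2 hs2j) hs2Λ hs2Λs hs₁ hs₂ Q hfrob m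
      hm0.ne' hu (by rw [hV]; exact ⟨δu, hδu, hδu1⟩) hdiv_inf ⟨j⁻¹, hint⟩ (abs_inv_fix s2 hs2j)
      (fun 𝔫 h𝔫 hπ𝔫 ha => hdict_inf 𝔫 h𝔫 hπ𝔫 ⟨_, rfl, ha⟩)
      (fun φ ha => hinst_inf φ ⟨_, rfl, ha⟩)
      (fun 𝔫 h𝔫 hπ𝔫 ha => hsig_inf 𝔫 h𝔫 hπ𝔫 ⟨_, rfl, ha⟩) 𝔪 h𝔪 hπ𝔪 ha₀𝔪
    rw [hV] at h
    exact h
  -- the engine over the root field
  letI : Algebra Λ ↥(s34rootField E W) :=
    ((algebraMap K ↥(s34rootField E W)).comp (algebraMap Λ K)).toAlgebra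
  haveI : IsScalarTower Λ K ↥(s34rootField E W) := IsScalarTower.of_algebraMap_eq fun _ => rfl
  letI : Algebra ↥E ↥(s34rootField E W) := (s34rootIncl E W).toRingHom.toAlgebra
  haveI : IsScalarTower K ↥E ↥(s34rootField E W) :=
    IsScalarTower.of_algebraMap_eq fun c => ((s34rootIncl E W).commutes c).symm
  haveI : IsScalarTower Λ ↥E ↥(s34rootField E W) := IsScalarTower.of_algebraMap_eq fun a => by
    show algebraMap K ↥(s34rootField E W) (algebraMap Λ K a) =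
      s34rootIncl E W (algebraMap Λ ↥E a)
    rw [IsScalarTower.algebraMap_apply Λ K ↥E, AlgHom.commutes]
  haveI : FiniteDimensional ↥(K⟮algebraMap ↥E ↥(s34rootField E W) j⟯) ↥(s34rootField E W) :=
    s34root_finiteDimensional E W j hm0 (s2 u / u ^ Q) hW
  obtain ⟨y, hy⟩ := s35f1_engine (𝔽 := ↥(s34rootField E W)) π hπ j hj
    (s34root_closed (fun y hy => s34root_const_of_isAlgebraic y hy) (s34rootField E W)) m hm ζ hζ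
    (s2 u / u ^ Q) ⟨W, s34root_mem E W⟩ (Subtype.ext hW) hz hz' hz1 hfin hinf
  refine ⟨y, Subtype.ext ?_⟩
  have h1 : ((y : ↥E) : LaurentSeries K) = W := congrArg Subtype.val hy
  rw [← hW, ← h1]
  rfl

end Fermat.Agent.S35
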