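import Mathlib
import Fermat.Agent.S34.NodeGlobalCrossB

/-!
# P20 (S35), NOFT (L1-ker): the kernel of an integral point through a crossing point

`s35f1_nobad_ker`: the kernel of an integral point `φ : B →ₐ[Λ] Λ` through a crossing point is
generated, locally at the centre of `φ`, by `X - φ X` and `Y - φ Y` (global form of
`S34.node_ker_eval_pair`).
-/

set_option autoImplicit false

namespace Fermat.Agent.S35

/-- (NOFT L1-ker, file `S35/F1NoBadKer.lean`) the kernel of an integral point through a crossing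
point is generated, locally at the centre, by `X - φ X` and `Y - φ Y`
(global form of `S34.node_ker_eval_pair`). -/
theorem s35f1_nobad_ker {Λ B : Type*} [CommRing Λ] [IsDomain Λ] [IsDiscreteValuationRing Λ]
    [CommRing B] [IsNoetherianRing B] [Algebra Λ B] (π : Λ) (hπ : Irreducible π)
    (φ : B →ₐ[Λ] Λ) (x y X Y σ : B) (hσ : ¬ π ∣ φ σ)
    (hX : X - σ * x ∈ Ideal.span {algebraMap Λ B π})
    (hY : Y - σ * y ∈ Ideal.span {algebraMap Λ B π})
    (hx : π ∣ φ x) (hy : π ∣ φ y)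
    (hgen : ∀ z : B, π ∣ φ z → ∃ a : B, ¬ π ∣ φ a ∧
      a * z ∈ Ideal.span {algebraMap Λ B π, x, y})
    (z : B) (hz : φ z = 0) :
    ∃ t e f : B, ¬ π ∣ φ t ∧
      t * z = e * (X - algebraMap Λ B (φ X)) + f * (Y - algebraMap Λ B (φ Y)) := by
  -- the centre
  have hspan : (Ideal.span {π}).IsPrime :=
    (Ideal.span_singleton_prime hπ.ne_zero).mpr hπ.prime
  set 𝔪 : Ideal B := Ideal.comap (φ : B →+* Λ) (Ideal.span {π}) with h𝔪def
  have h𝔪prime : 𝔪.IsPrime := Ideal.comap_isPrime _ _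
  have h𝔪 : ∀ z : B, z ∈ 𝔪 ↔ π ∣ φ z := fun z => by
    rw [h𝔪def, Ideal.mem_comap, Ideal.mem_span_singleton]
    rfl
  have hnoeth : IsNoetherianRing (Localization.AtPrime 𝔪) :=
    IsLocalization.isNoetherianRing 𝔪.primeCompl _ inferInstance
  obtain ⟨ev, hev⟩ := S34.ngcB_exists_ev π hπ φ 𝔪 h𝔪
  -- abbreviations
  set ι : B →+* Localization.AtPrime 𝔪 := algebraMap B (Localization.AtPrime 𝔪) with hι
  have hιΛ : ∀ c : Λ, ι (algebraMap Λ B c) = algebraMap Λ (Localization.AtPrime 𝔪) c :=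
    fun c => (IsScalarTower.algebraMap_apply Λ B (Localization.AtPrime 𝔪) c).symm
  have hunitι : ∀ a : B, ¬ π ∣ φ a → IsUnit (ι a) := fun a ha =>
    IsLocalization.map_units (Localization.AtPrime 𝔪)
      (⟨a, fun h => ha ((h𝔪 a).mp h)⟩ : 𝔪.primeCompl)
  have hmemmax := S34.ngcB_mem_maximal_iff π hπ φ 𝔪 h𝔪 ev hev
  have hπR : algebraMap Λ (Localization.AtPrime 𝔪) π ∈
      IsLocalRing.maximalIdeal (Localization.AtPrime 𝔪) := by
    rw [hmemmax, AlgHom.commutes]
    exact dvd_refl π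
  have hres : ∀ r : Localization.AtPrime 𝔪, ∃ c : Λ,
      r - algebraMap Λ (Localization.AtPrime 𝔪) c ∈
        IsLocalRing.maximalIdeal (Localization.AtPrime 𝔪) := by
    intro r
    refine ⟨ev r, ?_⟩
    rw [hmemmax, map_sub, AlgHom.commutes, Algebra.algebraMap_self_apply, sub_self]
    exact dvd_zero π
  -- the inverse of `σ`
  obtain ⟨u, hu⟩ := (hunitι σ hσ).exists_right_inv
  obtain ⟨w₁, hw₁⟩ := Ideal.mem_span_singleton'.mp hX
  obtain ⟨w₂, hw₂⟩ := Ideal.mem_span_singleton'.mp hY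
  have E1 : ι w₁ * algebraMap Λ (Localization.AtPrime 𝔪) π = ι X - ι σ * ι x := by
    rw [← hιΛ, ← map_mul, hw₁, map_sub, map_mul]
  have E1' : ι w₂ * algebraMap Λ (Localization.AtPrime 𝔪) π = ι Y - ι σ * ι y := by
    rw [← hιΛ, ← map_mul, hw₂, map_sub, map_mul]
  have hxR : ι x = u * ι X - (u * ι w₁) * algebraMap Λ (Localization.AtPrime 𝔪) π := by
    linear_combination u * E1 - ι x * hu
  have hyR : ι y = u * ι Y - (u * ι w₂) * algebraMap Λ (Localization.AtPrime 𝔪) π := by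
    linear_combination u * E1' - ι y * hu
  have hm : IsLocalRing.maximalIdeal (Localization.AtPrime 𝔪) ≤
      Ideal.span {algebraMap Λ (Localization.AtPrime 𝔪) π, ι X, ι Y} := by
    refine le_trans (S34.ngcB_maximal_le π φ 𝔪 h𝔪 x y hgen) ?_
    rw [Ideal.span_le]
    have hq : algebraMap Λ (Localization.AtPrime 𝔪) π ∈
        Ideal.span {algebraMap Λ (Localization.AtPrime 𝔪) π, ι X, ι Y} :=
      Ideal.subset_span (by simp)
    have hXm : ι X ∈ Ideal.span {algebraMap Λ (Localization.AtPrime 𝔪) π, ι X, ι Y} :=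
      Ideal.subset_span (by simp)
    have hYm : ι Y ∈ Ideal.span {algebraMap Λ (Localization.AtPrime 𝔪) π, ι X, ι Y} :=
      Ideal.subset_span (by simp)
    intro r hr
    simp only [Set.mem_insert_iff, Set.mem_singleton_iff] at hr
    rcases hr with rfl | rfl | rfl
    · exact hq
    · rw [SetLike.mem_coe, ← hι, hxR]
      exact Ideal.sub_mem _ (Ideal.mul_mem_left _ _ hXm) (Ideal.mul_mem_left _ _ hq)
    · rw [SetLike.mem_coe, ← hι, hyR]
      exact Ideal.sub_mem _ (Ideal.mul_mem_left _ _ hYm) (Ideal.mul_mem_left _ _ hq)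
  have hφX : π ∣ φ X := by
    have h1 : X = σ * x + w₁ * algebraMap Λ B π := by rw [hw₁]; ring
    rw [h1, map_add, map_mul, map_mul, AlgHom.commutes]
    exact dvd_add (Dvd.dvd.mul_left hx _) (dvd_mul_left π _)
  have hφY : π ∣ φ Y := by
    have h1 : Y = σ * y + w₂ * algebraMap Λ B π := by rw [hw₂]; ring
    rw [h1, map_add, map_mul, map_mul, AlgHom.commutes]
    exact dvd_add (Dvd.dvd.mul_left hy _) (dvd_mul_left π _)
  have hevX : π ∣ ev (ι X) := by rw [hι, hev]; exact hφX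
  have hevY : π ∣ ev (ι Y) := by rw [hι, hev]; exact hφY
  have hker := S34.node_ker_eval_pair ev π hπR (ι X) (ι Y) hm hres hevX hevY
  have hzR : ι z ∈ RingHom.ker (ev : Localization.AtPrime 𝔪 →+* Λ) := by
    rw [RingHom.mem_ker, RingHom.coe_coe, hι, hev, hz]
  rw [hker, Ideal.mem_span_pair] at hzR
  obtain ⟨a, b, hab⟩ := hzR
  -- back to `B`
  obtain ⟨⟨a₀, s₁⟩, ha₀⟩ := IsLocalization.surj 𝔪.primeCompl a
  obtain ⟨⟨b₀, s₂⟩, hb₀⟩ := IsLocalization.surj 𝔪.primeCompl b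
  dsimp only at ha₀ hb₀
  have hXι : ι X - algebraMap Λ (Localization.AtPrime 𝔪) (ev (ι X)) =
      ι (X - algebraMap Λ B (φ X)) := by
    rw [map_sub, hιΛ, hι, hev]
  have hYι : ι Y - algebraMap Λ (Localization.AtPrime 𝔪) (ev (ι Y)) =
      ι (Y - algebraMap Λ B (φ Y)) := by
    rw [map_sub, hιΛ, hι, hev]
  rw [hXι, hYι] at hab
  have h1 : ι ((s₁ : B) * (s₂ : B) * z) =
      ι (a₀ * s₂ * (X - algebraMap Λ B (φ X)) + b₀ * s₁ * (Y - algebraMap Λ B (φ Y))) := by
    rw [map_add, map_mul, map_mul, map_mul, map_mul, map_mul, map_mul, ← ha₀, ← hb₀, ← hab]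
    ring
  obtain ⟨c, hc⟩ := (IsLocalization.eq_iff_exists 𝔪.primeCompl (Localization.AtPrime 𝔪)).mp h1
  refine ⟨c * s₁ * s₂, c * (a₀ * s₂), c * (b₀ * s₁), ?_, ?_⟩
  · have hmem : ((c * s₁ * s₂ : 𝔪.primeCompl) : B) ∉ 𝔪 := (c * s₁ * s₂).2
    intro hdvd
    apply hmem
    rw [h𝔪]
    simpa using hdvd
  · linear_combination hc

end Fermat.Agent.S35
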