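import Mathlib
import Fermat.Agent.S34.NodeGlobalDefs
import Fermat.Agent.S34.NodeGlobalBadB
import Fermat.Agent.S35.F1NodeInduct
import Fermat.Agent.S35.F1InstP1
import Fermat.Agent.S35.F1NoBadKer

/-!
# P20 (S35), block F1 / NOFT (L1): no bad integral point at a crossing point

`s35f1_no_bad`: at a crossing point of the two-component model (weak crossing datum
`(x, y, G, hgen)`, the two vertical primes `𝔭₁ ∋ x`, `𝔭₂ ∋ y`), an integral point `φ` whose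
kernel is principal up to a denominator outside the kernel (`hdvr`: the generic fibre is
Dedekind) is not bad in the sense of `S34.NodeBadG`.
-/

set_option autoImplicit false

namespace Fermat.Agent.S35

open Fermat.Agent.S34

/-- local generation of a vertical prime with respect to the perturbed generator `X ≡ σ x`. -/
theorem s35f1nb_gen {B : Type*} [CommRing B] (p : B) (𝔪 𝔭 : Ideal B) [𝔪.IsPrime]
    (x X σ : B) (hσ : σ ∉ 𝔪) (hX : X - σ * x ∈ Ideal.span {p})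
    (a : B) (ha : a ∉ 𝔪) (hP : ∀ f ∈ 𝔭, ∃ r d : B, a * f = p * r + x * d)
    (z : B) (hz : z ∈ 𝔭) : ∃ b ∈ 𝔪.primeCompl, b * z ∈ Ideal.span {p, X} := by
  obtain ⟨r, d, hrd⟩ := hP z hz
  obtain ⟨w, hw⟩ := Ideal.mem_span_singleton'.mp hX
  refine ⟨σ * a, 𝔪.primeCompl.mul_mem hσ ha, ?_⟩
  refine s35f1i_mem_pair.mpr ⟨σ * r - w * d, d, ?_⟩
  linear_combination σ * hrd + d * hw

/-- the divisibility step: `X Y ∈ (p ^ N)`, `a Y ∈ (p ^ N)` and `π ^ N ∣ φ X` give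
`π ^ N ∣ φ a`. -/
theorem s35f1nb_dvd {Λ B : Type*} [CommRing Λ] [IsDomain Λ] [IsDiscreteValuationRing Λ]
    [CommRing B] [IsDomain B] [Algebra Λ B]
    (π : Λ) (hπ : Irreducible π) (φ : B →ₐ[Λ] Λ) (𝔪 : Ideal B) [𝔪.IsPrime]
    (hmem : ∀ z : B, z ∈ 𝔪 ↔ π ∣ φ z)
    (𝔭₁ 𝔭₂ : Ideal B) [𝔭₁.IsPrime] [𝔭₂.IsPrime]
    (hπ1 : algebraMap Λ B π ∈ 𝔭₁) (hπ2 : algebraMap Λ B π ∈ 𝔭₂)
    (x y X Y σ : B) (hσ : σ ∉ 𝔪)
    (hX : X - σ * x ∈ Ideal.span {algebraMap Λ B π})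
    (hY : Y - σ * y ∈ Ideal.span {algebraMap Λ B π})
    (hX1 : X ∈ 𝔭₁) (hX2 : X ∉ 𝔭₂) (hY1 : Y ∉ 𝔭₁)
    (a₁ a₂ : B) (ha₁ : a₁ ∉ 𝔪) (ha₂ : a₂ ∉ 𝔪)
    (hP1 : ∀ f ∈ 𝔭₁, ∃ r d : B, a₁ * f = algebraMap Λ B π * r + x * d)
    (hP2 : ∀ f ∈ 𝔭₂, ∃ r d : B, a₂ * f = algebraMap Λ B π * r + y * d)
    (N : ℕ) (h : B) (hXY : X * Y = algebraMap Λ B π ^ N * h) (hφX : π ^ N ∣ φ X)
    (a r : B) (haY : a * Y = algebraMap Λ B π ^ N * r) : π ^ N ∣ φ a := by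
  have hφp : φ (algebraMap Λ B π) = π := by
    rw [AlgHom.commutes]
    rfl
  have hp0 : algebraMap Λ B π ≠ 0 := by
    intro h0
    rw [h0, map_zero] at hφp
    exact hπ.ne_zero hφp.symm
  have hle1 : Ideal.span {algebraMap Λ B π, X} ≤ 𝔭₁ := by
    rw [Ideal.span_le]
    intro z hz
    rcases hz with rfl | rfl
    · exact hπ1
    · exact hX1
  have hle2 : Ideal.span {algebraMap Λ B π} ≤ 𝔭₂ := by
    rw [Ideal.span_le]
    intro z hz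
    rw [Set.mem_singleton_iff.mp hz]
    exact hπ2
  have hstep1 : ∀ a' : B, a' * Y ∈ Ideal.span {algebraMap Λ B π, X} →
      ∃ b ∈ 𝔪.primeCompl, b * a' ∈ Ideal.span {algebraMap Λ B π, X} := by
    intro a' ha'
    have h3 : a' ∈ 𝔭₁ := (Ideal.IsPrime.mem_or_mem inferInstance (hle1 ha')).resolve_right hY1
    exact s35f1nb_gen _ 𝔪 𝔭₁ x X σ hσ hX a₁ ha₁ hP1 a' h3
  have hstep2 : ∀ h' : B, X * h' ∈ Ideal.span {algebraMap Λ B π} →
      ∃ b ∈ 𝔪.primeCompl, b * h' ∈ Ideal.span {algebraMap Λ B π, Y} := by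
    intro h' hh'
    have h3 : h' ∈ 𝔭₂ := (Ideal.IsPrime.mem_or_mem inferInstance (hle2 hh')).resolve_left hX2
    exact s35f1nb_gen _ 𝔪 𝔭₂ y Y σ hσ hY a₂ ha₂ hP2 h' h3
  obtain ⟨t, ht, hta⟩ := s35f1_node_induct 𝔪.primeCompl (algebraMap Λ B π) X Y hp0 hstep1 hstep2 N
    (Ideal.mem_span_singleton'.mpr ⟨h, by rw [hXY]; ring⟩) a
    (s35f1i_mem_pair.mpr ⟨r, 0, by rw [haY]; ring⟩)
  obtain ⟨r', d', hrd⟩ := s35f1i_mem_pair.mp hta
  obtain ⟨A', hA'⟩ := hφX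
  have h4 : φ t * φ a = π ^ N * (φ r' + A' * φ d') := by
    have h5 := congrArg φ hrd
    rw [map_mul, map_add, map_mul, map_mul, map_pow, hφp, hA'] at h5
    linear_combination h5
  have htu : IsUnit (φ t) := ngbB_isUnit_of_not_dvd hπ (fun h6 => ht ((hmem t).mpr h6))
  exact htu.dvd_mul_left.mp (Dvd.intro _ h4.symm)

/-- (NOFT L1, file `S35/F1NoBad.lean`) **no bad integral point at a crossing point**: if the
kernel of the integral point `φ` is principal up to a denominator `s₀ ∉ ker φ` (`hdvr`; the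
generic fibre is Dedekind, `s35f1_dvr_of_dedekind`), then `φ` is not bad.  `𝔪` is the centre of
`φ`, `(x, y, G, hgen)` the weak crossing datum, `𝔭₁ ∋ x`, `𝔭₂ ∋ y` the two vertical primes. -/
theorem s35f1_no_bad {Λ B : Type*} [CommRing Λ] [IsDomain Λ] [IsDiscreteValuationRing Λ]
    [CommRing B] [IsDomain B] [IsNoetherianRing B] [Algebra Λ B]
    (π : Λ) (hπ : Irreducible π) (φ : B →ₐ[Λ] Λ)
    (𝔪 : Ideal B) (h𝔪 : 𝔪 = Ideal.comap (φ : B →+* Λ) (Ideal.span {π}))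
    (𝔭₁ 𝔭₂ : Ideal B) [𝔭₁.IsPrime] [𝔭₂.IsPrime] (h1 : 𝔭₁ ≤ 𝔪) (h2 : 𝔭₂ ≤ 𝔪)
    (hπ1 : algebraMap Λ B π ∈ 𝔭₁) (hπ2 : algebraMap Λ B π ∈ 𝔭₂)
    (x y G : B) (hxy : x * y = algebraMap Λ B π * G)
    (hx1 : x ∈ 𝔭₁) (hy2 : y ∈ 𝔭₂) (hx2 : x ∉ 𝔭₂) (hy1 : y ∉ 𝔭₁)
    (hgen : ∀ z ∈ 𝔪, ∃ a : B, a ∉ 𝔪 ∧ a * z ∈ Ideal.span {algebraMap Λ B π, x, y})
    (hdvr : ∃ ϖ s₀ : B, φ ϖ = 0 ∧ φ s₀ ≠ 0 ∧ ∀ z : B, φ z = 0 → ϖ ∣ s₀ * z) :
    ¬ NodeBadG π π x y (RingHom.id B) φ := by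
  intro hbad
  obtain ⟨ϖ, s₀, hϖ, hs₀, hdiv⟩ := hdvr
  have hspan : (Ideal.span {π}).IsPrime :=
    (Ideal.span_singleton_prime hπ.ne_zero).mpr hπ.prime
  have h𝔪prime : 𝔪.IsPrime := by
    rw [h𝔪]
    exact Ideal.comap_isPrime _ _
  have hmem : ∀ z : B, z ∈ 𝔪 ↔ π ∣ φ z := fun z => by
    rw [h𝔪, Ideal.mem_comap, Ideal.mem_span_singleton]
    rfl
  have hφp : φ (algebraMap Λ B π) = π := by
    rw [AlgHom.commutes]
    rfl
  have hφalg : ∀ c : Λ, φ (algebraMap Λ B c) = c := fun c => by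
    rw [AlgHom.commutes]
    rfl
  have hp0 : algebraMap Λ B π ≠ 0 := by
    intro h0
    rw [h0, map_zero] at hφp
    exact hπ.ne_zero hφp.symm
  have hunit : ∀ t : B, t ∉ 𝔪 → IsUnit (φ t) := fun t ht =>
    ngbB_isUnit_of_not_dvd hπ (fun h => ht ((hmem t).mpr h))
  -- the weak datum in the shape of `S34`
  have hgen' : ∀ z : B, π ∣ φ z → ∃ a : B, ¬ π ∣ φ a ∧
      a * z ∈ Ideal.span {algebraMap Λ B π, x, y} := by
    intro z hz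
    obtain ⟨a, ha, haz⟩ := hgen z ((hmem z).mpr hz)
    exact ⟨a, fun h => ha ((hmem a).mpr h), haz⟩
  have hres : ∀ r s : B, ¬ π ∣ φ s → ∃ c : Λ, π ∣ φ (r - algebraMap Λ B c * s) := by
    intro r s hs
    obtain ⟨u, hu⟩ := (ngbB_isUnit_of_not_dvd hπ hs).exists_right_inv
    refine ⟨φ r * u, ?_⟩
    have h0 : φ (r - algebraMap Λ B (φ r * u) * s) = 0 := by
      rw [map_sub, map_mul, hφalg]
      linear_combination (-φ r) * hu
    rw [h0]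
    exact dvd_zero _
  -- local generation of the two vertical primes
  obtain ⟨a₁, ha₁, hP1⟩ := s35f1_inst_hP1 (algebraMap Λ B π) 𝔪 𝔭₁ hπ1 x y hx1 (h2 hy2) hy1 hgen h1
  have hgen_swap : ∀ z ∈ 𝔪, ∃ a : B, a ∉ 𝔪 ∧ a * z ∈ Ideal.span {algebraMap Λ B π, y, x} := by
    intro z hz
    obtain ⟨a, ha, haz⟩ := hgen z hz
    refine ⟨a, ha, ?_⟩
    rw [Set.pair_comm y x]
    exact haz
  obtain ⟨a₂, ha₂, hP2⟩ := s35f1_inst_hP1 (algebraMap Λ B π) 𝔪 𝔭₂ hπ2 y x hy2 (h1 hx1) hx2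
    hgen_swap h2
  have hx : π ∣ φ x := (hmem x).mp (h1 hx1)
  have hy : π ∣ φ y := (hmem y).mp (h2 hy2)
  have hs₀0 : s₀ ≠ 0 := fun h => hs₀ (by rw [h, map_zero])
  -- the key divisibility
  have key : ∀ K : ℕ, π ^ (K + 1) ∣ φ s₀ := by
    intro K
    obtain ⟨X, Y, H, σ, c, hσ, hX, hY, hXY⟩ := ngbB_base_aux π π x y G hxy (φ : B →+* Λ) 𝔪
      hmem (Localization.AtPrime 𝔪) hgen' hres K
    have hσ𝔪 : σ ∉ 𝔪 := fun h => hσ ((hmem σ).mp h)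
    obtain ⟨hdX, hdY⟩ := hbad K X Y H σ c hσ hX hY hXY
    have hdX' : π ^ (K + 1) ∣ φ X := hdX
    have hdY' : π ^ (K + 1) ∣ φ Y := hdY
    obtain ⟨A', hA'⟩ := hdX'
    obtain ⟨B', hB'⟩ := hdY'
    obtain ⟨w₁, hw₁⟩ := Ideal.mem_span_singleton'.mp hX
    obtain ⟨w₂, hw₂⟩ := Ideal.mem_span_singleton'.mp hY
    have hX1 : X ∈ 𝔭₁ := by
      have e : X = w₁ * algebraMap Λ B π + σ * x := by rw [hw₁]; ring
      rw [e]
      exact 𝔭₁.add_mem (𝔭₁.mul_mem_left _ hπ1) (𝔭₁.mul_mem_left _ hx1)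
    have hY2 : Y ∈ 𝔭₂ := by
      have e : Y = w₂ * algebraMap Λ B π + σ * y := by rw [hw₂]; ring
      rw [e]
      exact 𝔭₂.add_mem (𝔭₂.mul_mem_left _ hπ2) (𝔭₂.mul_mem_left _ hy2)
    have hX2 : X ∉ 𝔭₂ := by
      intro h
      have e : σ * x = X - w₁ * algebraMap Λ B π := by rw [hw₁]; ring
      have h3 : σ * x ∈ 𝔭₂ := by
        rw [e]
        exact 𝔭₂.sub_mem h (𝔭₂.mul_mem_left _ hπ2)
      rcases Ideal.IsPrime.mem_or_mem inferInstance h3 with h4 | h4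
      · exact hσ𝔪 (h2 h4)
      · exact hx2 h4
    have hY1 : Y ∉ 𝔭₁ := by
      intro h
      have e : σ * y = Y - w₂ * algebraMap Λ B π := by rw [hw₂]; ring
      have h3 : σ * y ∈ 𝔭₁ := by
        rw [e]
        exact 𝔭₁.sub_mem h (𝔭₁.mul_mem_left _ hπ1)
      rcases Ideal.IsPrime.mem_or_mem inferInstance h3 with h4 | h4
      · exact hσ𝔪 (h1 h4)
      · exact hy1 h4
    -- `π c = π ^ (K + 1) c'`
    have hev : φ X * φ Y = φ σ ^ 2 * (π * c) + π ^ (K + 1) * φ H := by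
      have h3 := congrArg φ hXY
      simp only [map_mul, map_add, map_pow, hφalg] at h3
      linear_combination h3
    obtain ⟨c', hc'⟩ : π ^ (K + 1) ∣ π * c := by
      have h3 : φ σ ^ 2 * (π * c) = π ^ (K + 1) * (A' * φ Y - φ H) := by
        rw [hA'] at hev
        linear_combination (-1 : Λ) * hev
      exact ((hunit σ hσ𝔪).pow 2).dvd_mul_left.mp (Dvd.intro _ h3.symm)
    have hXY' : X * Y = algebraMap Λ B π ^ (K + 1) * (σ ^ 2 * algebraMap Λ B c' + H) := by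
      rw [hXY, hc', map_mul, map_pow]
      ring
    have hXA : algebraMap Λ B (φ X) = algebraMap Λ B π ^ (K + 1) * algebraMap Λ B A' := by
      rw [hA', map_mul, map_pow]
    have hYB : algebraMap Λ B (φ Y) = algebraMap Λ B π ^ (K + 1) * algebraMap Λ B B' := by
      rw [hB', map_mul, map_pow]
    obtain ⟨xK, hxK⟩ : ∃ xK : B, xK = X - algebraMap Λ B (φ X) := ⟨_, rfl⟩
    obtain ⟨yK, hyK⟩ : ∃ yK : B, yK = Y - algebraMap Λ B (φ Y) := ⟨_, rfl⟩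
    have hφxK : φ xK = 0 := by
      rw [hxK, map_sub, hφalg, sub_self]
    have hφyK : φ yK = 0 := by
      rw [hyK, map_sub, hφalg, sub_self]
    obtain ⟨w, hw⟩ : ∃ w : B, w = σ ^ 2 * algebraMap Λ B c' + H - algebraMap Λ B A' * Y -
        algebraMap Λ B B' * X +
        algebraMap Λ B π ^ (K + 1) * algebraMap Λ B A' * algebraMap Λ B B' := ⟨_, rfl⟩
    have hxyK : xK * yK = algebraMap Λ B π ^ (K + 1) * w := by
      rw [hxK, hyK, hXA, hYB, hw]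
      linear_combination hXY'
    have hφw : φ w = 0 := by
      have h3 : φ (algebraMap Λ B π ^ (K + 1) * w) = 0 := by
        rw [← hxyK, map_mul, hφxK, zero_mul]
      rw [map_mul, map_pow, hφp] at h3
      exact (mul_eq_zero.mp h3).resolve_left (pow_ne_zero _ hπ.ne_zero)
    obtain ⟨a, ha⟩ := hdiv xK hφxK
    obtain ⟨b, hb⟩ := hdiv yK hφyK
    obtain ⟨c'', hc''⟩ := hdiv w hφw
    by_cases hϖ0 : ϖ = 0
    · -- degenerate case: `ker φ = 0`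
      exfalso
      have hxK0 : xK = 0 := by
        rw [hϖ0, zero_mul] at ha
        exact (mul_eq_zero.mp ha).resolve_left hs₀0
      have hσx : σ * x ∈ 𝔭₂ := by
        have e : σ * x = algebraMap Λ B π *
            (algebraMap Λ B π ^ K * algebraMap Λ B A' - w₁) := by
          rw [hxK, hXA] at hxK0
          linear_combination hxK0 + hw₁
        rw [e]
        exact 𝔭₂.mul_mem_right _ hπ2
      rcases Ideal.IsPrime.mem_or_mem inferInstance hσx with h | h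
      · exact hσ𝔪 (h2 h)
      · exact hx2 h
    · -- main case
      have hϖs : ϖ * s₀ ≠ 0 := mul_ne_zero hϖ0 hs₀0
      have hay : a * yK = algebraMap Λ B π ^ (K + 1) * c'' := by
        have h3 : ϖ * s₀ * (a * yK - algebraMap Λ B π ^ (K + 1) * c'') = 0 := by
          linear_combination (-(s₀ * yK)) * ha + s₀ ^ 2 * hxyK +
            (s₀ * algebraMap Λ B π ^ (K + 1)) * hc''
        exact sub_eq_zero.mp ((mul_eq_zero.mp h3).resolve_left hϖs)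
      have hbx : b * xK = algebraMap Λ B π ^ (K + 1) * c'' := by
        have h3 : ϖ * s₀ * (b * xK - algebraMap Λ B π ^ (K + 1) * c'') = 0 := by
          linear_combination (-(s₀ * xK)) * hb + s₀ ^ 2 * hxyK +
            (s₀ * algebraMap Λ B π ^ (K + 1)) * hc''
        exact sub_eq_zero.mp ((mul_eq_zero.mp h3).resolve_left hϖs)
      have haY : a * Y = algebraMap Λ B π ^ (K + 1) * (c'' + a * algebraMap Λ B B') := by
        rw [hyK] at hay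
        linear_combination hay + a * hYB
      have hbX : b * X = algebraMap Λ B π ^ (K + 1) * (c'' + b * algebraMap Λ B A') := by
        rw [hxK] at hbx
        linear_combination hbx + b * hXA
      have hda : π ^ (K + 1) ∣ φ a :=
        s35f1nb_dvd π hπ φ 𝔪 hmem 𝔭₁ 𝔭₂ hπ1 hπ2 x y X Y σ hσ𝔪 hX hY hX1 hX2 hY1 a₁ a₂ ha₁ ha₂
          hP1 hP2 (K + 1) _ hXY' ⟨A', hA'⟩ a _ haY
      have hdb : π ^ (K + 1) ∣ φ b :=
        s35f1nb_dvd π hπ φ 𝔪 hmem 𝔭₂ 𝔭₁ hπ2 hπ1 y x Y X σ hσ𝔪 hY hX hY2 hY1 hX2 a₂ a₁ ha₂ ha₁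
          hP2 hP1 (K + 1) _ (by rw [mul_comm]; exact hXY') ⟨B', hB'⟩ b _ hbX
      obtain ⟨t, e, f, ht, hte⟩ := s35f1_nobad_ker π hπ φ x y X Y σ hσ hX hY hx hy hgen' ϖ hϖ
      rw [← hxK, ← hyK] at hte
      have h3 : ϖ * (t * s₀ - e * a - f * b) = 0 := by
        linear_combination s₀ * hte + e * ha + f * hb
      have h4 : t * s₀ = e * a + f * b := by
        have h5 := (mul_eq_zero.mp h3).resolve_left hϖ0
        linear_combination h5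
      have h6 : π ^ (K + 1) ∣ φ t * φ s₀ := by
        rw [← map_mul, h4, map_add, map_mul, map_mul]
        exact dvd_add (Dvd.dvd.mul_left hda _) (Dvd.dvd.mul_left hdb _)
      exact (ngbB_isUnit_of_not_dvd hπ ht).dvd_mul_left.mp h6
  exact hs₀ (ngbB_krull hπ dvd_rfl _ key)

/-- (NOFT L1, unfolded form) at some level `K` the point is `X`-type or `Y`-type. -/
theorem s35f1_no_bad_exists {Λ B : Type*} [CommRing Λ] [IsDomain Λ] [IsDiscreteValuationRing Λ]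
    [CommRing B] [IsDomain B] [IsNoetherianRing B] [Algebra Λ B]
    (π : Λ) (hπ : Irreducible π) (φ : B →ₐ[Λ] Λ)
    (𝔪 : Ideal B) (h𝔪 : 𝔪 = Ideal.comap (φ : B →+* Λ) (Ideal.span {π}))
    (𝔭₁ 𝔭₂ : Ideal B) [𝔭₁.IsPrime] [𝔭₂.IsPrime] (h1 : 𝔭₁ ≤ 𝔪) (h2 : 𝔭₂ ≤ 𝔪)
    (hπ1 : algebraMap Λ B π ∈ 𝔭₁) (hπ2 : algebraMap Λ B π ∈ 𝔭₂)
    (x y G : B) (hxy : x * y = algebraMap Λ B π * G)
    (hx1 : x ∈ 𝔭₁) (hy2 : y ∈ 𝔭₂) (hx2 : x ∉ 𝔭₂) (hy1 : y ∉ 𝔭₁)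
    (hgen : ∀ z ∈ 𝔪, ∃ a : B, a ∉ 𝔪 ∧ a * z ∈ Ideal.span {algebraMap Λ B π, x, y})
    (hdvr : ∃ ϖ s₀ : B, φ ϖ = 0 ∧ φ s₀ ≠ 0 ∧ ∀ z : B, φ z = 0 → ϖ ∣ s₀ * z) :
    ∃ (K : ℕ) (X Y H σ : B) (c : Λ), ¬ π ∣ φ σ ∧
      X - σ * x ∈ Ideal.span {algebraMap Λ B π} ∧
      Y - σ * y ∈ Ideal.span {algebraMap Λ B π} ∧
      X * Y = σ ^ 2 * algebraMap Λ B (π * c) + algebraMap Λ B (π ^ (K + 1)) * H ∧
      (¬ π ^ (K + 1) ∣ φ X ∨ ¬ π ^ (K + 1) ∣ φ Y) := by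
  have h := s35f1_no_bad π hπ φ 𝔪 h𝔪 𝔭₁ 𝔭₂ h1 h2 hπ1 hπ2 x y G hxy hx1 hy2 hx2 hy1 hgen hdvr
  unfold NodeBadG at h
  push Not at h
  obtain ⟨K, X, Y, H, σ, c, hσ, hX, hY, hXY, hd⟩ := h
  refine ⟨K, X, Y, H, σ, c, hσ, hX, hY, hXY, ?_⟩
  by_cases hdX : π ^ (K + 1) ∣ φ X
  · exact Or.inr (hd hdX)
  · exact Or.inl hdX

end Fermat.Agent.S35
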