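import Mathlib
import Fermat.Agent.S34.NodeAlg
import Fermat.Agent.S35.F1NodeInduct

/-!
# P20 (S35), block F1 / NOFT (L1): no bad integral point — the local core

`R` a noetherian local domain over the discrete valuation ring `Λ`, `ev : R → Λ` an integral
point, `𝔪_R = (π, X, Y)`, `(π, X)` and `(π, Y)` "prime with `Y ∉ (π, X)`, `X ∉ (π, Y)`"
(in the form of the two cancellation properties), `X Y = π c + π ^ (K + 1) H` and both `ev X`,
`ev Y` divisible by `π ^ (K + 1)`.  If the kernel of `ev` is principal up to the multiplier `s₀`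
(`ϖ ∣ s₀ z` for all `z ∈ ker ev`), then `π ^ (K + 1) ∣ ev s₀`.
-/

set_option autoImplicit false

namespace Fermat.Agent.S35

open Fermat.Agent.S34

/-- units as multipliers: the induction lemma in a ring where the multipliers are units. -/
theorem s35f1nb_induct_unit {B : Type*} [CommRing B] [IsDomain B]
    (π X Y : B) (hπ : π ≠ 0)
    (h1 : ∀ a : B, a * Y ∈ Ideal.span {π, X} → a ∈ Ideal.span {π, X})
    (h2 : ∀ h : B, X * h ∈ Ideal.span {π} → h ∈ Ideal.span {π, Y})
    (N : ℕ) (hXY : X * Y ∈ Ideal.span {π ^ N}) (a : B)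
    (ha : a * Y ∈ Ideal.span {π ^ N, X}) : a ∈ Ideal.span {π ^ N, X} := by
  obtain ⟨b, hb, hba⟩ := s35f1_node_induct (IsUnit.submonoid B) π X Y hπ
    (fun a ha => ⟨1, (IsUnit.submonoid B).one_mem, by rw [one_mul]; exact h1 a ha⟩)
    (fun h hh => ⟨1, (IsUnit.submonoid B).one_mem, by rw [one_mul]; exact h2 h hh⟩) N hXY a ha
  exact (Ideal.unit_mul_mem_iff_mem _ hb).mp hba

/-- **(L1), local core.** -/
theorem s35f1nb_local_core {Λ R : Type*} [CommRing Λ] [IsDomain Λ] [IsDiscreteValuationRing Λ]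
    [CommRing R] [IsDomain R] [IsLocalRing R] [IsNoetherianRing R] [Algebra Λ R]
    (ev : R →ₐ[Λ] Λ) (π : Λ) (hπ0 : π ≠ 0)
    (hπm : algebraMap Λ R π ∈ IsLocalRing.maximalIdeal R)
    (hres : ∀ r : R, ∃ c : Λ, r - algebraMap Λ R c ∈ IsLocalRing.maximalIdeal R)
    (K : ℕ) (X Y : R)
    (hm : IsLocalRing.maximalIdeal R ≤ Ideal.span {algebraMap Λ R π, X, Y})
    (h1 : ∀ a : R, a * Y ∈ Ideal.span {algebraMap Λ R π, X} →
      a ∈ Ideal.span {algebraMap Λ R π, X})
    (h2 : ∀ h : R, X * h ∈ Ideal.span {algebraMap Λ R π} →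
      h ∈ Ideal.span {algebraMap Λ R π, Y})
    (h1' : ∀ a : R, a * X ∈ Ideal.span {algebraMap Λ R π, Y} →
      a ∈ Ideal.span {algebraMap Λ R π, Y})
    (h2' : ∀ h : R, Y * h ∈ Ideal.span {algebraMap Λ R π} →
      h ∈ Ideal.span {algebraMap Λ R π, X})
    (c : Λ) (H : R)
    (hXY : X * Y = algebraMap Λ R (π * c) + algebraMap Λ R (π ^ (K + 1)) * H)
    (hbadX : π ^ (K + 1) ∣ ev X) (hbadY : π ^ (K + 1) ∣ ev Y)
    (ϖ s₀ : R) (hϖ : ev ϖ = 0) (hϖ0 : ϖ ≠ 0) (hs₀ : s₀ ≠ 0)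
    (hdvr : ∀ z : R, ev z = 0 → ϖ ∣ s₀ * z) :
    π ^ (K + 1) ∣ ev s₀ := by
  have hπR0 : algebraMap Λ R π ≠ 0 := by
    intro h
    have h1 := congrArg ev h
    rw [AlgHom.commutes, map_zero] at h1
    exact hπ0 h1
  obtain ⟨A', hA'⟩ := hbadX
  obtain ⟨B', hB'⟩ := hbadY
  have hπX : π ∣ ev X := ⟨π ^ K * A', by rw [hA']; ring⟩
  have hπY : π ∣ ev Y := ⟨π ^ K * B', by rw [hB']; ring⟩
  -- the constant term of the node relation
  have hev : ev X * ev Y = π * c + π ^ (K + 1) * ev H := by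
    have := congrArg ev hXY
    simpa only [map_mul, map_add, AlgHom.commutes, Algebra.algebraMap_self, RingHom.id_apply]
      using this
  have hc : π * c = π ^ (K + 1) * (π ^ (K + 1) * A' * B' - ev H) := by
    rw [hA', hB'] at hev
    linear_combination -hev
  set P : R := algebraMap Λ R π with hP
  have hXY' : X * Y = P ^ (K + 1) *
      (algebraMap Λ R (π ^ (K + 1) * A' * B' - ev H) + H) := by
    rw [hXY, hc, map_mul, map_pow]
    ring
  -- the kernel of `ev`
  have hker := node_ker_eval_pair ev π hπm X Y hm hres hπX hπY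
  set xK : R := X - algebraMap Λ R (ev X) with hxK
  set yK : R := Y - algebraMap Λ R (ev Y) with hyK
  have hevx : ev xK = 0 := by
    rw [hxK, map_sub, AlgHom.commutes]; simp
  have hevy : ev yK = 0 := by
    rw [hyK, map_sub, AlgHom.commutes]; simp
  have hAR : algebraMap Λ R (ev X) = P ^ (K + 1) * algebraMap Λ R A' := by
    rw [hA', map_mul, map_pow]
  have hBR : algebraMap Λ R (ev Y) = P ^ (K + 1) * algebraMap Λ R B' := by
    rw [hB', map_mul, map_pow]
  set w : R := algebraMap Λ R (π ^ (K + 1) * A' * B' - ev H) + H - algebraMap Λ R A' * Y -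
    algebraMap Λ R B' * X + P ^ (K + 1) * (algebraMap Λ R A' * algebraMap Λ R B') with hw
  have hxy : xK * yK = P ^ (K + 1) * w := by
    rw [hxK, hyK, hAR, hBR, hw]
    linear_combination hXY'
  have hevw : ev w = 0 := by
    have h3 : ev (xK * yK) = 0 := by rw [map_mul, hevx, zero_mul]
    rw [hxy, map_mul, map_pow, hP, AlgHom.commutes] at h3
    rcases mul_eq_zero.mp h3 with h | h
    · exact absurd (pow_eq_zero_iff (Nat.succ_ne_zero K) |>.mp h) hπ0
    · exact h
  obtain ⟨a, ha⟩ := hdvr xK hevx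
  obtain ⟨b, hb⟩ := hdvr yK hevy
  obtain ⟨c', hc'⟩ := hdvr w hevw
  have hϖmem : ϖ ∈ RingHom.ker (ev : R →+* Λ) := hϖ
  rw [hker] at hϖmem
  obtain ⟨e, f, hef⟩ := Ideal.mem_span_pair.mp hϖmem
  -- `s₀ = a e + b f`
  have hs : s₀ = a * e + b * f := by
    apply mul_left_cancel₀ hϖ0
    linear_combination (-s₀) * hef + e * ha + f * hb
  -- `a yK = P ^ (K + 1) c'`, `b xK = P ^ (K + 1) c'`
  have hab : ϖ * (a * b) = s₀ * (P ^ (K + 1) * c') := by
    apply mul_left_cancel₀ hϖ0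
    linear_combination (-ϖ * b) * ha + (-s₀ * xK) * hb + s₀ ^ 2 * hxy + (s₀ * P ^ (K + 1)) * hc'
  have hay : a * yK = P ^ (K + 1) * c' := by
    apply mul_left_cancel₀ hs₀
    linear_combination a * hb + hab
  have hbx : b * xK = P ^ (K + 1) * c' := by
    apply mul_left_cancel₀ hs₀
    linear_combination b * ha + hab
  have haY : a * Y ∈ Ideal.span {P ^ (K + 1), X} :=
    Ideal.mem_span_pair.mpr ⟨c' + a * algebraMap Λ R B', 0, by
      have : Y = yK + algebraMap Λ R (ev Y) := by rw [hyK]; ring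
      rw [this, hBR]
      linear_combination (-1 : R) * hay⟩
  have hbX : b * X ∈ Ideal.span {P ^ (K + 1), Y} :=
    Ideal.mem_span_pair.mpr ⟨c' + b * algebraMap Λ R A', 0, by
      have : X = xK + algebraMap Λ R (ev X) := by rw [hxK]; ring
      rw [this, hAR]
      linear_combination (-1 : R) * hbx⟩
  have hXYmem : X * Y ∈ Ideal.span {P ^ (K + 1)} :=
    Ideal.mem_span_singleton'.mpr
      ⟨algebraMap Λ R (π ^ (K + 1) * A' * B' - ev H) + H, by rw [hXY']; ring⟩
  have hYXmem : Y * X ∈ Ideal.span {P ^ (K + 1)} := by rwa [mul_comm]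
  have ha' := s35f1nb_induct_unit P X Y hπR0 h1 h2 (K + 1) hXYmem a haY
  have hb' := s35f1nb_induct_unit P Y X hπR0 h1' h2' (K + 1) hYXmem b hbX
  obtain ⟨a₁, a₂, ha12⟩ := Ideal.mem_span_pair.mp ha'
  obtain ⟨b₁, b₂, hb12⟩ := Ideal.mem_span_pair.mp hb'
  have heva : π ^ (K + 1) ∣ ev a := by
    refine ⟨ev a₁ + A' * ev a₂, ?_⟩
    rw [← ha12, map_add, map_mul, map_mul, map_pow, hP, AlgHom.commutes, hA']
    simp only [Algebra.algebraMap_self, RingHom.id_apply]
    ring
  have hevb : π ^ (K + 1) ∣ ev b := by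
    refine ⟨ev b₁ + B' * ev b₂, ?_⟩
    rw [← hb12, map_add, map_mul, map_mul, map_pow, hP, AlgHom.commutes, hB']
    simp only [Algebra.algebraMap_self, RingHom.id_apply]
    ring
  rw [hs, map_add, map_mul, map_mul]
  exact dvd_add (Dvd.dvd.mul_right heva _) (Dvd.dvd.mul_right hevb _)

end Fermat.Agent.S35
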