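import Mathlib
import Fermat.Agent.S34.NodeAlg
import Fermat.Agent.S34.NodeGlobalDefs
import Fermat.Agent.S34.NodeGlobalBadB
import Fermat.Agent.S34.NodeGlobalCrossB
import Fermat.Agent.S35.F1InstP1
import Fermat.Agent.S35.F1NoBadCore

/-!
# P20 (S35), block F1 / NOFT (L1), second team: no bad integral point at a crossing point

Route: localise `B` at the centre `𝔪` of the point, check the hypotheses of the local core
`s35f1nb_local_core` there (the two vertical primes become `(π, x)` and `(π, y)` by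
`s35f1_inst_hP1`), and conclude by the Krull intersection theorem in `Λ`.
-/

set_option autoImplicit false

namespace Fermat.Agent.S35

open Fermat.Agent.S34

theorem s35f1nbB_span_pair {R : Type*} [CommRing R] (q a b : R)
    (h : b - a ∈ Ideal.span {q}) : Ideal.span {q, a} = Ideal.span {q, b} := by
  obtain ⟨c, hc⟩ := Ideal.mem_span_singleton'.mp h
  apply le_antisymm
  · rw [Ideal.span_le]
    intro z hz
    simp only [Set.mem_insert_iff, Set.mem_singleton_iff] at hz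
    rcases hz with rfl | rfl
    · exact Ideal.subset_span (by simp)
    · exact Ideal.mem_span_pair.mpr ⟨-c, 1, by linear_combination -hc⟩
  · rw [Ideal.span_le]
    intro z hz
    simp only [Set.mem_insert_iff, Set.mem_singleton_iff] at hz
    rcases hz with rfl | rfl
    · exact Ideal.subset_span (by simp)
    · exact Ideal.mem_span_pair.mpr ⟨c, 1, by linear_combination hc⟩

/-- the two cancellation properties of the local core, from primality of `(P, x')`, `(P, y')`. -/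
theorem s35f1nbB_cancel {R : Type*} [CommRing R] (P x' y' X Y : R)
    (hQ1 : (Ideal.span {P, x'}).IsPrime) (hQ2 : (Ideal.span {P, y'}).IsPrime)
    (hy : y' ∉ Ideal.span {P, x'}) (hx : x' ∉ Ideal.span {P, y'})
    (hX : X - x' ∈ Ideal.span {P}) (hY : Y - y' ∈ Ideal.span {P}) :
    (∀ a : R, a * Y ∈ Ideal.span {P, X} → a ∈ Ideal.span {P, X}) ∧
    (∀ h : R, X * h ∈ Ideal.span {P} → h ∈ Ideal.span {P, Y}) := by
  have e1 := s35f1nbB_span_pair P x' X hX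
  have e2 := s35f1nbB_span_pair P y' Y hY
  have hP1 : Ideal.span {P} ≤ Ideal.span {P, x'} := Ideal.span_mono (by simp)
  have hP2 : Ideal.span {P} ≤ Ideal.span {P, y'} := Ideal.span_mono (by simp)
  have hYn : Y ∉ Ideal.span {P, x'} := fun hmem => hy (by
    have h3 := Ideal.sub_mem _ hmem (hP1 hY)
    rwa [sub_sub_cancel] at h3)
  have hXn : X ∉ Ideal.span {P, y'} := fun hmem => hx (by
    have h3 := Ideal.sub_mem _ hmem (hP2 hX)
    rwa [sub_sub_cancel] at h3)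
  constructor
  · intro a ha
    rw [← e1] at ha ⊢
    exact (hQ1.mem_or_mem ha).resolve_right hYn
  · intro h hh
    rw [← e2]
    exact (hQ2.mem_or_mem (hP2 hh)).resolve_left hXn

/-- in the local ring at `𝔪`, the vertical prime `𝔭₁` is `(ϖ, x)`. -/
theorem s35f1nbB_map_eq {B : Type*} [CommRing B] [IsNoetherianRing B] (ϖ : B) (𝔪 : Ideal B)
    [𝔪.IsPrime] (𝔭₁ : Ideal B) [𝔭₁.IsPrime] (hϖ₁ : ϖ ∈ 𝔭₁) (x y : B) (hx₁ : x ∈ 𝔭₁)
    (hy𝔪 : y ∈ 𝔪) (hy₁ : y ∉ 𝔭₁)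
    (hgen : ∀ z ∈ 𝔪, ∃ a : B, a ∉ 𝔪 ∧ a * z ∈ Ideal.span {ϖ, x, y}) (h1 : 𝔭₁ ≤ 𝔪) :
    𝔭₁.map (algebraMap B (Localization.AtPrime 𝔪)) =
      Ideal.span {algebraMap B (Localization.AtPrime 𝔪) ϖ,
        algebraMap B (Localization.AtPrime 𝔪) x} := by
  obtain ⟨a, ha, haf⟩ := s35f1_inst_hP1 ϖ 𝔪 𝔭₁ hϖ₁ x y hx₁ hy𝔪 hy₁ hgen h1
  have hau : IsUnit (algebraMap B (Localization.AtPrime 𝔪) a) :=
    IsLocalization.map_units (Localization.AtPrime 𝔪) (⟨a, ha⟩ : 𝔪.primeCompl)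
  apply le_antisymm
  · rw [Ideal.map_le_iff_le_comap]
    intro f hf
    obtain ⟨r, d, hrd⟩ := haf f hf
    rw [Ideal.mem_comap, ← Ideal.unit_mul_mem_iff_mem _ hau, ← map_mul, hrd, map_add, map_mul,
      map_mul]
    exact Ideal.mem_span_pair.mpr ⟨algebraMap B (Localization.AtPrime 𝔪) r,
      algebraMap B (Localization.AtPrime 𝔪) d, by ring⟩
  · rw [Ideal.span_le]
    intro z hz
    simp only [Set.mem_insert_iff, Set.mem_singleton_iff] at hz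
    rcases hz with rfl | rfl
    · exact Ideal.mem_map_of_mem _ hϖ₁
    · exact Ideal.mem_map_of_mem _ hx₁

theorem s35f1nbB_prime_map {B : Type*} [CommRing B] (𝔪 : Ideal B) [𝔪.IsPrime] (𝔭 : Ideal B)
    [𝔭.IsPrime] (h : 𝔭 ≤ 𝔪) :
    (𝔭.map (algebraMap B (Localization.AtPrime 𝔪))).IsPrime ∧
      ∀ b : B, algebraMap B (Localization.AtPrime 𝔪) b ∈
        𝔭.map (algebraMap B (Localization.AtPrime 𝔪)) → b ∈ 𝔭 := by
  have hdisj : Disjoint (𝔪.primeCompl : Set B) (𝔭 : Set B) := by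
    rw [Set.disjoint_left]
    intro b hb hb'
    exact hb (h hb')
  refine ⟨IsLocalization.isPrime_of_isPrime_disjoint 𝔪.primeCompl _ 𝔭 inferInstance hdisj,
    fun b hb => ?_⟩
  have h3 := IsLocalization.under_map_of_isPrime_disjoint 𝔪.primeCompl
    (Localization.AtPrime 𝔪) (inferInstance : 𝔭.IsPrime) hdisj
  rw [← h3]
  exact hb

/-- one level `K` of the argument. -/
theorem s35f1nbB_level {Λ B : Type*} [CommRing Λ] [IsDomain Λ] [IsDiscreteValuationRing Λ]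
    [CommRing B] [IsDomain B] [IsNoetherianRing B] [Algebra Λ B]
    (π : Λ) (hπ : Irreducible π) (φ : B →ₐ[Λ] Λ)
    (𝔪 : Ideal B) [𝔪.IsPrime] (h𝔪 : ∀ z : B, z ∈ 𝔪 ↔ π ∣ φ z)
    (𝔭₁ 𝔭₂ : Ideal B) [𝔭₁.IsPrime] [𝔭₂.IsPrime] (h1 : 𝔭₁ ≤ 𝔪) (h2 : 𝔭₂ ≤ 𝔪)
    (hπ1 : algebraMap Λ B π ∈ 𝔭₁) (hπ2 : algebraMap Λ B π ∈ 𝔭₂)
    (x y G : B) (hxy : x * y = algebraMap Λ B π * G)
    (hx1 : x ∈ 𝔭₁) (hy2 : y ∈ 𝔭₂) (hx2 : x ∉ 𝔭₂) (hy1 : y ∉ 𝔭₁)
    (hgen : ∀ z ∈ 𝔪, ∃ a : B, a ∉ 𝔪 ∧ a * z ∈ Ideal.span {algebraMap Λ B π, x, y})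
    (ϖ s₀ : B) (hϖ : φ ϖ = 0) (hϖ0 : ϖ ≠ 0) (hs₀ : s₀ ≠ 0)
    (hd : ∀ z : B, φ z = 0 → ϖ ∣ s₀ * z)
    (hbad : NodeBadG π π x y (RingHom.id B) φ) (K : ℕ) : π ^ (K + 1) ∣ φ s₀ := by
  have hgen' : ∀ z : B, π ∣ φ z → ∃ a : B, ¬ π ∣ φ a ∧
      a * z ∈ Ideal.span {algebraMap Λ B π, x, y} := by
    intro z hz
    obtain ⟨a, ha, haz⟩ := hgen z ((h𝔪 z).mpr hz)
    exact ⟨a, fun h => ha ((h𝔪 a).mpr h), haz⟩
  have hres_b : ∀ r s : B, ¬ π ∣ φ s → ∃ c : Λ, π ∣ φ (r - algebraMap Λ B c * s) := by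
    intro r s hs
    obtain ⟨u, hu⟩ := (ngbB_isUnit_of_not_dvd hπ hs).exists_right_inv
    refine ⟨φ r * u, ?_⟩
    have h3 : φ (r - algebraMap Λ B (φ r * u) * s) = 0 := by
      rw [map_sub, map_mul, AlgHom.commutes]
      simp only [Algebra.algebraMap_self, RingHom.id_apply]
      linear_combination (-φ r) * hu
    rw [h3]
    exact dvd_zero π
  obtain ⟨X, Y, H, σ, c, hσ, hX, hY, hXY⟩ := ngbB_base_aux π π x y G hxy (φ : B →+* Λ) 𝔪 h𝔪
    (Localization.AtPrime 𝔪) hgen' hres_b K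
  have hb := hbad K X Y H σ c hσ hX hY hXY
  simp only [Algebra.algebraMap_self, RingHom.id_apply] at hb
  obtain ⟨hbX, hbY⟩ := hb
  -- the local ring at the centre
  have hnoeth : IsNoetherianRing (Localization.AtPrime 𝔪) :=
    IsLocalization.isNoetherianRing 𝔪.primeCompl _ inferInstance
  have hdom : IsDomain (Localization.AtPrime 𝔪) :=
    IsLocalization.isDomain_localization (Ideal.primeCompl_le_nonZeroDivisors 𝔪)
  obtain ⟨ev, hev⟩ := ngcB_exists_ev π hπ φ 𝔪 h𝔪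
  have hιinj : Function.Injective (algebraMap B (Localization.AtPrime 𝔪)) :=
    IsLocalization.injective _ (Ideal.primeCompl_le_nonZeroDivisors 𝔪)
  set ι : B →+* Localization.AtPrime 𝔪 := algebraMap B (Localization.AtPrime 𝔪) with hι
  have hιΛ : ∀ c : Λ, ι (algebraMap Λ B c) = algebraMap Λ (Localization.AtPrime 𝔪) c :=
    fun c => (IsScalarTower.algebraMap_apply Λ B (Localization.AtPrime 𝔪) c).symm
  have hunitι : ∀ a : B, ¬ π ∣ φ a → IsUnit (ι a) := fun a ha =>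
    IsLocalization.map_units (Localization.AtPrime 𝔪)
      (⟨a, fun h => ha ((h𝔪 a).mp h)⟩ : 𝔪.primeCompl)
  have hmemmax := ngcB_mem_maximal_iff π hπ φ 𝔪 h𝔪 ev hev
  have hπR : algebraMap Λ (Localization.AtPrime 𝔪) π ∈
      IsLocalRing.maximalIdeal (Localization.AtPrime 𝔪) := by
    rw [hmemmax, AlgHom.commutes]
    exact dvd_refl π
  have hres : ∀ r : Localization.AtPrime 𝔪, ∃ c : Λ,
      r - algebraMap Λ (Localization.AtPrime 𝔪) c ∈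
        IsLocalRing.maximalIdeal (Localization.AtPrime 𝔪) := by
    intro r
    refine ⟨ev r, ?_⟩
    rw [hmemmax, map_sub, AlgHom.commutes, Algebra.algebraMap_self_apply, sub_self]
    exact dvd_zero π
  have hm0 : IsLocalRing.maximalIdeal (Localization.AtPrime 𝔪) ≤
      Ideal.span {algebraMap Λ (Localization.AtPrime 𝔪) π, ι x, ι y} :=
    ngcB_maximal_le π φ 𝔪 h𝔪 x y hgen'
  -- the inverse of `σ` and the normalised branch functions
  obtain ⟨u, hu⟩ := (hunitι σ hσ).exists_right_inv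
  obtain ⟨w₁, hw₁⟩ := Ideal.mem_span_singleton'.mp hX
  obtain ⟨w₂, hw₂⟩ := Ideal.mem_span_singleton'.mp hY
  have E1 : ι w₁ * algebraMap Λ (Localization.AtPrime 𝔪) π = ι X - ι σ * ι x := by
    rw [← hιΛ, ← map_mul, hw₁, map_sub, map_mul]
  have E2 : ι w₂ * algebraMap Λ (Localization.AtPrime 𝔪) π = ι Y - ι σ * ι y := by
    rw [← hιΛ, ← map_mul, hw₂, map_sub, map_mul]
  have E3 : ι X * ι Y = ι σ ^ 2 * algebraMap Λ (Localization.AtPrime 𝔪) (π * c) +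
      algebraMap Λ (Localization.AtPrime 𝔪) (π ^ (K + 1)) * ι H := by
    rw [← map_mul, hXY, map_add, map_mul ι, map_mul ι, map_pow, hιΛ, hιΛ]
  have hXs : u * ι X - ι x ∈ Ideal.span {algebraMap Λ (Localization.AtPrime 𝔪) π} :=
    Ideal.mem_span_singleton'.mpr ⟨u * ι w₁, by linear_combination u * E1 - ι x * hu⟩
  have hYs : u * ι Y - ι y ∈ Ideal.span {algebraMap Λ (Localization.AtPrime 𝔪) π} :=
    Ideal.mem_span_singleton'.mpr ⟨u * ι w₂, by linear_combination u * E2 - ι y * hu⟩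
  have hXY'' : (u * ι X) * (u * ι Y) = algebraMap Λ (Localization.AtPrime 𝔪) (π * c) +
      algebraMap Λ (Localization.AtPrime 𝔪) (π ^ (K + 1)) * (u ^ 2 * ι H) := by
    linear_combination u ^ 2 * E3 +
      (ι σ * u + 1) * algebraMap Λ (Localization.AtPrime 𝔪) (π * c) * hu
  have hm : IsLocalRing.maximalIdeal (Localization.AtPrime 𝔪) ≤
      Ideal.span {algebraMap Λ (Localization.AtPrime 𝔪) π, u * ι X, u * ι Y} := by
    rw [← node_span_eq (algebraMap Λ (Localization.AtPrime 𝔪) π) (ι x) (ι y) (u * ι X)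
      (u * ι Y) hXs hYs]
    exact hm0
  -- the two vertical primes
  have hy𝔪 : y ∈ 𝔪 := h2 hy2
  have hx𝔪 : x ∈ 𝔪 := h1 hx1
  have hQ1eq : 𝔭₁.map ι = Ideal.span {algebraMap Λ (Localization.AtPrime 𝔪) π, ι x} := by
    rw [← hιΛ]
    exact s35f1nbB_map_eq (algebraMap Λ B π) 𝔪 𝔭₁ hπ1 x y hx1 hy𝔪 hy1 hgen h1
  have hQ2eq : 𝔭₂.map ι = Ideal.span {algebraMap Λ (Localization.AtPrime 𝔪) π, ι y} := by
    rw [← hιΛ]
    exact s35f1nbB_map_eq (algebraMap Λ B π) 𝔪 𝔭₂ hπ2 y x hy2 hx𝔪 hx2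
      (by rw [Set.pair_comm y x]; exact hgen) h2
  obtain ⟨hp1, hc1⟩ := s35f1nbB_prime_map 𝔪 𝔭₁ h1
  obtain ⟨hp2, hc2⟩ := s35f1nbB_prime_map 𝔪 𝔭₂ h2
  have hQ1 : (Ideal.span {algebraMap Λ (Localization.AtPrime 𝔪) π, ι x}).IsPrime := by
    rw [← hQ1eq]; exact hp1
  have hQ2 : (Ideal.span {algebraMap Λ (Localization.AtPrime 𝔪) π, ι y}).IsPrime := by
    rw [← hQ2eq]; exact hp2
  have hyn : ι y ∉ Ideal.span {algebraMap Λ (Localization.AtPrime 𝔪) π, ι x} := by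
    rw [← hQ1eq]
    exact fun h => hy1 (hc1 y h)
  have hxn : ι x ∉ Ideal.span {algebraMap Λ (Localization.AtPrime 𝔪) π, ι y} := by
    rw [← hQ2eq]
    exact fun h => hx2 (hc2 x h)
  obtain ⟨c1, c2⟩ := s35f1nbB_cancel (algebraMap Λ (Localization.AtPrime 𝔪) π) (ι x) (ι y)
    (u * ι X) (u * ι Y) hQ1 hQ2 hyn hxn hXs hYs
  obtain ⟨c1', c2'⟩ := s35f1nbB_cancel (algebraMap Λ (Localization.AtPrime 𝔪) π) (ι y) (ι x)
    (u * ι Y) (u * ι X) hQ2 hQ1 hxn hyn hYs hXs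
  -- the evaluations
  have hbX' : π ^ (K + 1) ∣ ev (u * ι X) := by
    rw [map_mul, hev]
    exact Dvd.dvd.mul_left hbX _
  have hbY' : π ^ (K + 1) ∣ ev (u * ι Y) := by
    rw [map_mul, hev]
    exact Dvd.dvd.mul_left hbY _
  -- the kernel of `ev`
  have hdR : ∀ z : Localization.AtPrime 𝔪, ev z = 0 → ι ϖ ∣ ι s₀ * z := by
    intro z hz
    obtain ⟨⟨b, t⟩, hbt⟩ := IsLocalization.surj 𝔪.primeCompl z
    dsimp only at hbt
    have htu : IsUnit (ι (t : B)) := IsLocalization.map_units _ t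
    obtain ⟨v, hv⟩ := htu.exists_right_inv
    have hφb : φ b = 0 := by rw [← hev, ← hbt, map_mul, hz, zero_mul]
    obtain ⟨d, hd'⟩ := hd b hφb
    refine ⟨ι d * v, ?_⟩
    have h3 := congrArg ι hd'
    rw [map_mul, map_mul] at h3
    linear_combination v * h3 + (ι s₀ * v) * hbt - (ι s₀ * z) * hv
  have hfin := s35f1nb_local_core ev π hπ.ne_zero hπR hres K (u * ι X) (u * ι Y) hm c1 c2 c1' c2'
    c (u ^ 2 * ι H) hXY'' hbX' hbY' (ι ϖ) (ι s₀) (by rw [hev]; exact hϖ)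
    (fun h => hϖ0 (hιinj (by rw [h, map_zero])))
    (fun h => hs₀ (hιinj (by rw [h, map_zero]))) hdR
  rwa [hev] at hfin

theorem s35f1_no_bad_B {Λ B : Type*} [CommRing Λ] [IsDomain Λ] [IsDiscreteValuationRing Λ]
    [CommRing B] [IsDomain B] [IsNoetherianRing B] [Algebra Λ B]
    (π : Λ) (hπ : Irreducible π) (φ : B →ₐ[Λ] Λ)
    (𝔪 : Ideal B) (h𝔪 : 𝔪 = Ideal.comap (φ : B →+* Λ) (Ideal.span {π}))
    (𝔭₁ 𝔭₂ : Ideal B) [𝔭₁.IsPrime] [𝔭₂.IsPrime] (h1 : 𝔭₁ ≤ 𝔪) (h2 : 𝔭₂ ≤ 𝔪)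
    (hπ1 : algebraMap Λ B π ∈ 𝔭₁) (hπ2 : algebraMap Λ B π ∈ 𝔭₂)
    (x y G : B) (hxy : x * y = algebraMap Λ B π * G)
    (hx1 : x ∈ 𝔭₁) (hy2 : y ∈ 𝔭₂) (hx2 : x ∉ 𝔭₂) (hy1 : y ∉ 𝔭₁)
    (hgen : ∀ z ∈ 𝔪, ∃ a : B, a ∉ 𝔪 ∧ a * z ∈ Ideal.span {algebraMap Λ B π, x, y})
    (hdvr : ∃ ϖ s₀ : B, φ ϖ = 0 ∧ φ s₀ ≠ 0 ∧ ∀ z : B, φ z = 0 → ϖ ∣ s₀ * z) :
    ¬ NodeBadG π π x y (RingHom.id B) φ := by
  intro hbad
  have hspan : (Ideal.span {π}).IsPrime :=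
    (Ideal.span_singleton_prime hπ.ne_zero).mpr hπ.prime
  have h𝔪prime : 𝔪.IsPrime := by
    rw [h𝔪]
    exact Ideal.comap_isPrime _ _
  have h𝔪' : ∀ z : B, z ∈ 𝔪 ↔ π ∣ φ z := fun z => by
    rw [h𝔪, Ideal.mem_comap, Ideal.mem_span_singleton]
    rfl
  obtain ⟨ϖ, s₀, hϖ, hs₀, hd⟩ := hdvr
  have hs₀0 : s₀ ≠ 0 := fun h => hs₀ (by rw [h, map_zero])
  have hϖ0 : ϖ ≠ 0 := by
    intro h0
    have hker : ∀ z : B, φ z = 0 → z = 0 := by
      intro z hz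
      have h3 := hd z hz
      rw [h0, zero_dvd_iff] at h3
      exact (mul_eq_zero.mp h3).resolve_left hs₀0
    have hx : x = algebraMap Λ B (φ x) := by
      have h3 := hker (x - algebraMap Λ B (φ x)) (by
        rw [map_sub, AlgHom.commutes, Algebra.algebraMap_self_apply, sub_self])
      exact sub_eq_zero.mp h3
    obtain ⟨e, he⟩ := (h𝔪' x).mp (h1 hx1)
    apply hx2
    rw [hx, he, map_mul]
    exact Ideal.mul_mem_right _ _ hπ2
  exact hs₀ (ngbB_krull hπ (dvd_refl π) (φ s₀) (fun K =>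
    s35f1nbB_level π hπ φ 𝔪 h𝔪' 𝔭₁ 𝔭₂ h1 h2 hπ1 hπ2 x y G hxy hx1 hy2 hx2 hy1 hgen ϖ s₀ hϖ hϖ0
      hs₀0 hd hbad K))

end Fermat.Agent.S35
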