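import Mathlib
import Fermat.Agent.S34.NodeGlobalDefs
import Fermat.Agent.S34.NodeAlg
import Fermat.Agent.S34.NodeGlobalCrossB

/-!
# P20 (S35), block F1, NOFT (L1) sub-leaf (second team): the kernel of an integral point

Global form of `S34.node_ker_eval_pair`: the kernel of an integral point `φ` through a crossing
point is generated, locally at the centre, by `X - φ X` and `Y - φ Y`.

The proof localises `B` at the centre `𝔪 = φ⁻¹(π)`, applies `node_ker_eval_pair` to the images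
of `X`, `Y` (the maximal ideal of the local ring is `(π, X, Y)` because `σ` is a unit there) and
clears denominators.
-/

set_option autoImplicit false

namespace Fermat.Agent.S35

open Fermat.Agent.S34

/-- The local generators `π, x, y` of the centre may be replaced by `π, X, Y`. -/
theorem s35f1nbkB_gen {Λ B : Type*} [CommRing Λ] [IsDomain Λ] [IsDiscreteValuationRing Λ]
    [CommRing B] [Algebra Λ B] (π : Λ) (hπ : Irreducible π)
    (φ : B →ₐ[Λ] Λ) (x y X Y σ : B) (hσ : ¬ π ∣ φ σ)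
    (hX : X - σ * x ∈ Ideal.span {algebraMap Λ B π})
    (hY : Y - σ * y ∈ Ideal.span {algebraMap Λ B π})
    (hgen : ∀ z : B, π ∣ φ z → ∃ a : B, ¬ π ∣ φ a ∧
      a * z ∈ Ideal.span {algebraMap Λ B π, x, y})
    (z : B) (hz : π ∣ φ z) :
    ∃ a : B, ¬ π ∣ φ a ∧ a * z ∈ Ideal.span {algebraMap Λ B π, X, Y} := by
  obtain ⟨a, ha, haz⟩ := hgen z hz
  obtain ⟨α, z₁, hz₁, e₁⟩ := Ideal.mem_span_insert.mp haz
  obtain ⟨β, γ, e₂⟩ := Ideal.mem_span_pair.mp hz₁
  obtain ⟨w₁, hw₁⟩ := Ideal.mem_span_singleton'.mp hX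
  obtain ⟨w₂, hw₂⟩ := Ideal.mem_span_singleton'.mp hY
  refine ⟨σ * a, ?_, ?_⟩
  · rw [map_mul]
    intro hdvd
    rcases hπ.prime.dvd_or_dvd hdvd with h | h
    · exact hσ h
    · exact ha h
  · have h1 : σ * a * z = (σ * α - β * w₁ - γ * w₂) * algebraMap Λ B π + (β * X + γ * Y) := by
      linear_combination σ * e₁ - σ * e₂ + β * hw₁ + γ * hw₂
    rw [h1]
    refine Ideal.add_mem _ (Ideal.mul_mem_left _ _ (Ideal.subset_span (by simp))) ?_
    exact Ideal.add_mem _ (Ideal.mul_mem_left _ _ (Ideal.subset_span (by simp)))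
      (Ideal.mul_mem_left _ _ (Ideal.subset_span (by simp)))

/-- (NOFT L1-ker, second team) the kernel of an integral point through a crossing point is
generated, locally at the centre, by `X - φ X` and `Y - φ Y`
(global form of `S34.node_ker_eval_pair`). -/
theorem s35f1_nobad_ker_B {Λ B : Type*} [CommRing Λ] [IsDomain Λ] [IsDiscreteValuationRing Λ]
    [CommRing B] [IsNoetherianRing B] [Algebra Λ B] (π : Λ) (hπ : Irreducible π)
    (φ : B →ₐ[Λ] Λ) (x y X Y σ : B) (hσ : ¬ π ∣ φ σ)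
    (hX : X - σ * x ∈ Ideal.span {algebraMap Λ B π})
    (hY : Y - σ * y ∈ Ideal.span {algebraMap Λ B π})
    (hx : π ∣ φ x) (hy : π ∣ φ y)
    (hgen : ∀ z : B, π ∣ φ z → ∃ a : B, ¬ π ∣ φ a ∧
      a * z ∈ Ideal.span {algebraMap Λ B π, x, y})
    (z : B) (hz : φ z = 0) :
    ∃ t e f : B, ¬ π ∣ φ t ∧
      t * z = e * (X - algebraMap Λ B (φ X)) + f * (Y - algebraMap Λ B (φ Y)) := by
  -- the centre
  have hspan : (Ideal.span {π}).IsPrime :=
    (Ideal.span_singleton_prime hπ.ne_zero).mpr hπ.prime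
  set 𝔪 : Ideal B := Ideal.comap (φ : B →+* Λ) (Ideal.span {π}) with h𝔪def
  have h𝔪prime : 𝔪.IsPrime := Ideal.comap_isPrime _ _
  have h𝔪 : ∀ z : B, z ∈ 𝔪 ↔ π ∣ φ z := fun z => by
    rw [h𝔪def, Ideal.mem_comap, Ideal.mem_span_singleton]
    rfl
  have hnoeth : IsNoetherianRing (Localization.AtPrime 𝔪) :=
    IsLocalization.isNoetherianRing 𝔪.primeCompl _ inferInstance
  obtain ⟨ev, hev⟩ := ngcB_exists_ev π hπ φ 𝔪 h𝔪
  set ι : B →+* Localization.AtPrime 𝔪 := algebraMap B (Localization.AtPrime 𝔪) with hι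
  have hιΛ : ∀ c : Λ, ι (algebraMap Λ B c) = algebraMap Λ (Localization.AtPrime 𝔪) c :=
    fun c => (IsScalarTower.algebraMap_apply Λ B (Localization.AtPrime 𝔪) c).symm
  have hmemmax := ngcB_mem_maximal_iff π hπ φ 𝔪 h𝔪 ev hev
  have hπR : algebraMap Λ (Localization.AtPrime 𝔪) π ∈
      IsLocalRing.maximalIdeal (Localization.AtPrime 𝔪) := by
    rw [hmemmax, AlgHom.commutes]
    exact dvd_refl π
  have hres : ∀ r : Localization.AtPrime 𝔪, ∃ c : Λ,
      r - algebraMap Λ (Localization.AtPrime 𝔪) c ∈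
        IsLocalRing.maximalIdeal (Localization.AtPrime 𝔪) := by
    intro r
    refine ⟨ev r, ?_⟩
    rw [hmemmax, map_sub, AlgHom.commutes, Algebra.algebraMap_self_apply, sub_self]
    exact dvd_zero π
  -- the maximal ideal of the local ring is `(π, X, Y)`
  have hm : IsLocalRing.maximalIdeal (Localization.AtPrime 𝔪) ≤
      Ideal.span {algebraMap Λ (Localization.AtPrime 𝔪) π, ι X, ι Y} :=
    ngcB_maximal_le π φ 𝔪 h𝔪 X Y (s35f1nbkB_gen π hπ φ x y X Y σ hσ hX hY hgen)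
  -- `π ∣ φ X`, `π ∣ φ Y`
  have hdvd : ∀ Z z' : B, Z - σ * z' ∈ Ideal.span {algebraMap Λ B π} → π ∣ φ z' → π ∣ φ Z := by
    intro Z z' hZ hz'
    obtain ⟨w, hw⟩ := Ideal.mem_span_singleton'.mp hZ
    have h1 : Z = σ * z' + w * algebraMap Λ B π := by rw [hw]; ring
    rw [h1, map_add, map_mul, map_mul, AlgHom.commutes]
    exact dvd_add (Dvd.dvd.mul_left hz' _) (dvd_mul_left π _)
  have hevX : π ∣ ev (ι X) := by
    rw [hι, hev]
    exact hdvd X x hX hx
  have hevY : π ∣ ev (ι Y) := by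
    rw [hι, hev]
    exact hdvd Y y hY hy
  have hker := node_ker_eval_pair ev π hπR (ι X) (ι Y) hm hres hevX hevY
  -- `ι z` lies in the kernel
  have hzker : ι z ∈ RingHom.ker (ev : Localization.AtPrime 𝔪 →+* Λ) := by
    rw [RingHom.mem_ker, RingHom.coe_coe, hι, hev, hz]
  rw [hker, Ideal.mem_span_pair] at hzker
  obtain ⟨a, b, hab⟩ := hzker
  -- back to `B`
  obtain ⟨⟨a₀, s₁⟩, ha₀⟩ := IsLocalization.surj 𝔪.primeCompl a
  obtain ⟨⟨b₀, s₂⟩, hb₀⟩ := IsLocalization.surj 𝔪.primeCompl b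
  dsimp only at ha₀ hb₀
  have hXι : ι X - algebraMap Λ (Localization.AtPrime 𝔪) (ev (ι X)) =
      ι (X - algebraMap Λ B (φ X)) := by
    rw [map_sub, hιΛ, hι, hev]
  have hYι : ι Y - algebraMap Λ (Localization.AtPrime 𝔪) (ev (ι Y)) =
      ι (Y - algebraMap Λ B (φ Y)) := by
    rw [map_sub, hιΛ, hι, hev]
  rw [hXι, hYι] at hab
  have h1 : ι (z * s₁ * s₂) = ι (a₀ * s₂ * (X - algebraMap Λ B (φ X)) +
      b₀ * s₁ * (Y - algebraMap Λ B (φ Y))) := by
    simp only [map_mul, map_add]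
    rw [← ha₀, ← hb₀, ← hab]
    ring
  obtain ⟨c, hc⟩ := (IsLocalization.eq_iff_exists 𝔪.primeCompl (Localization.AtPrime 𝔪)).mp h1
  refine ⟨c * s₁ * s₂, c * (a₀ * s₂), c * (b₀ * s₁), ?_, ?_⟩
  · have hmem : ((c * s₁ * s₂ : 𝔪.primeCompl) : B) ∉ 𝔪 := (c * s₁ * s₂).2
    intro hdvd'
    apply hmem
    rw [h𝔪]
    simpa using hdvd'
  · linear_combination hc

end Fermat.Agent.S35
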