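import Mathlib
import Fermat.Agent.S34.ModelDefs
import Fermat.Agent.S34.NodeGlobalCrossB

/-!
# P20 (S35), block F1, leaf F1-NLP (second team)

`s35f1_lp_node_B`: the statement of `S34.ngcB_core` with the witness `X - a σ`, `a = φ X / φ σ`,
exposed, together with the vertical relation `X Y ∈ a π B_𝔪` (second output of `S34.node_lp`),
with denominators cleared.
-/

set_option autoImplicit false

namespace Fermat.Agent.S35

open Fermat.Agent.S34

/-- (F1-NLP, second team) `S34.ngcB_core` with the witness `X - a σ`, `a = φ X / φ σ`, exposed,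
together with the vertical relation `X Y ∈ a π B_𝔪` (second output of `S34.node_lp`). -/
theorem s35f1_lp_node_B {Λ B : Type*} [CommRing Λ] [IsDomain Λ] [IsDiscreteValuationRing Λ]
    [CommRing B] [Algebra Λ B] [IsNoetherianRing B] (π : Λ) (hπ : Irreducible π)
    (φ : B →ₐ[Λ] Λ) (x y X Y H σ : B) (d Q : Λ) (hσ : ¬ π ∣ φ σ)
    (hX : X - σ * x ∈ Ideal.span {algebraMap Λ B π})
    (hY : Y - σ * y ∈ Ideal.span {algebraMap Λ B π})
    (hXY : X * Y = σ ^ 2 * algebraMap Λ B d + algebraMap Λ B Q * H)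
    (hx : π ∣ φ x) (hy : π ∣ φ y)
    (hgen : ∀ z : B, π ∣ φ z → ∃ a : B, ¬ π ∣ φ a ∧
      a * z ∈ Ideal.span {algebraMap Λ B π, x, y})
    (hQ : ¬ Q ∣ φ X) :
    ∃ a : Λ, a * φ σ = φ X ∧ a ≠ 0 ∧ π ∣ a ∧
      (∃ (k : ℕ) (s : B), ¬ π ∣ φ s ∧ ∀ b : B, φ b = 0 →
        (X - algebraMap Λ B a * σ) ∣ algebraMap Λ B (π ^ k) * (s * b)) ∧
      (∃ s' ν : B, ¬ π ∣ φ s' ∧
        s' * (X * Y) = algebraMap Λ B a * (algebraMap Λ B π * ν)) := by
  -- the centre
  have hspan : (Ideal.span {π}).IsPrime :=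
    (Ideal.span_singleton_prime hπ.ne_zero).mpr hπ.prime
  set 𝔪 : Ideal B := Ideal.comap (φ : B →+* Λ) (Ideal.span {π}) with h𝔪def
  have h𝔪prime : 𝔪.IsPrime := Ideal.comap_isPrime _ _
  have h𝔪 : ∀ z : B, z ∈ 𝔪 ↔ π ∣ φ z := fun z => by
    rw [h𝔪def, Ideal.mem_comap, Ideal.mem_span_singleton]
    rfl
  have hnoeth : IsNoetherianRing (Localization.AtPrime 𝔪) :=
    IsLocalization.isNoetherianRing 𝔪.primeCompl _ inferInstance
  obtain ⟨ev, hev⟩ := ngcB_exists_ev π hπ φ 𝔪 h𝔪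
  -- abbreviations
  set ι : B →+* Localization.AtPrime 𝔪 := algebraMap B (Localization.AtPrime 𝔪) with hι
  have hιΛ : ∀ c : Λ, ι (algebraMap Λ B c) = algebraMap Λ (Localization.AtPrime 𝔪) c :=
    fun c => (IsScalarTower.algebraMap_apply Λ B (Localization.AtPrime 𝔪) c).symm
  have hunitι : ∀ a : B, ¬ π ∣ φ a → IsUnit (ι a) := fun a ha =>
    IsLocalization.map_units (Localization.AtPrime 𝔪)
      (⟨a, fun h => ha ((h𝔪 a).mp h)⟩ : 𝔪.primeCompl)
  have hmemmax := ngcB_mem_maximal_iff π hπ φ 𝔪 h𝔪 ev hev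
  have hπR : algebraMap Λ (Localization.AtPrime 𝔪) π ∈
      IsLocalRing.maximalIdeal (Localization.AtPrime 𝔪) := by
    rw [hmemmax, AlgHom.commutes]
    exact dvd_refl π
  have hres : ∀ r : Localization.AtPrime 𝔪, ∃ c : Λ,
      r - algebraMap Λ (Localization.AtPrime 𝔪) c ∈
        IsLocalRing.maximalIdeal (Localization.AtPrime 𝔪) := by
    intro r
    refine ⟨ev r, ?_⟩
    rw [hmemmax, map_sub, AlgHom.commutes, Algebra.algebraMap_self_apply, sub_self]
    exact dvd_zero π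
  -- the inverse of `σ`
  obtain ⟨u, hu⟩ := (hunitι σ hσ).exists_right_inv
  have hφu : φ σ * ev u = 1 := by rw [← hev, ← map_mul, hu, map_one]
  -- the elements `X_R`, `Y_R`, `H_R`
  obtain ⟨w₁, hw₁⟩ := Ideal.mem_span_singleton'.mp hX
  obtain ⟨w₂, hw₂⟩ := Ideal.mem_span_singleton'.mp hY
  have E1 : ι w₁ * algebraMap Λ (Localization.AtPrime 𝔪) π = ι X - ι σ * ι x := by
    rw [← hιΛ, ← map_mul, hw₁, map_sub, map_mul]
  have E1' : ι w₂ * algebraMap Λ (Localization.AtPrime 𝔪) π = ι Y - ι σ * ι y := by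
    rw [← hιΛ, ← map_mul, hw₂, map_sub, map_mul]
  have E3 : ι X * ι Y = ι σ ^ 2 * algebraMap Λ (Localization.AtPrime 𝔪) d +
      algebraMap Λ (Localization.AtPrime 𝔪) Q * ι H := by
    rw [← map_mul, hXY, map_add, map_mul, map_mul, map_pow, hιΛ, hιΛ]
  have hXR : ι X * u - ι x = (ι w₁ * u) * algebraMap Λ (Localization.AtPrime 𝔪) π := by
    linear_combination (-u) * E1 + ι x * hu
  have hYR : ι Y * u - ι y = (ι w₂ * u) * algebraMap Λ (Localization.AtPrime 𝔪) π := by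
    linear_combination (-u) * E1' + ι y * hu
  have hXYR : (ι X * u) * (ι Y * u) = algebraMap Λ (Localization.AtPrime 𝔪) d +
      algebraMap Λ (Localization.AtPrime 𝔪) Q * (ι H * u ^ 2) := by
    linear_combination u ^ 2 * E3 +
      algebraMap Λ (Localization.AtPrime 𝔪) d * (ι σ * u + 1) * hu
  have hm : IsLocalRing.maximalIdeal (Localization.AtPrime 𝔪) ≤
      Ideal.span {algebraMap Λ (Localization.AtPrime 𝔪) π, ι X * u, ι Y * u} := by
    rw [← node_span_eq (algebraMap Λ (Localization.AtPrime 𝔪) π) (ι x) (ι y) (ι X * u) (ι Y * u)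
      (Ideal.mem_span_singleton'.mpr ⟨_, hXR.symm⟩) (Ideal.mem_span_singleton'.mpr ⟨_, hYR.symm⟩)]
    exact ngcB_maximal_le π φ 𝔪 h𝔪 x y hgen
  have hevX : π ∣ ev (ι X * u) := by
    have h1 : ι X * u = ι x + (ι w₁ * u) * algebraMap Λ (Localization.AtPrime 𝔪) π := by
      rw [← hXR]; ring
    rw [h1, map_add, map_mul, AlgHom.commutes, hev]
    exact dvd_add hx (dvd_mul_left π _)
  have hevY : π ∣ ev (ι Y * u) := by
    have h1 : ι Y * u = ι y + (ι w₂ * u) * algebraMap Λ (Localization.AtPrime 𝔪) π := by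
      rw [← hYR]; ring
    rw [h1, map_add, map_mul, AlgHom.commutes, hev]
    exact dvd_add hy (dvd_mul_left π _)
  have hφX : φ X = ev (ι X * u) * φ σ := by
    rw [map_mul, hev, mul_assoc, mul_comm (ev u), hφu, mul_one]
  have hQ' : ¬ Q ∣ ev (ι X * u) := by
    intro hdvd
    apply hQ
    rw [hφX]
    exact Dvd.dvd.mul_right hdvd _
  obtain ⟨μ, hQμ, hμ⟩ := node_dvr_dichotomy π hπ (ev (ι X * u)) Q hQ'
  have hker := node_ker_eval_pair ev π hπR (ι X * u) (ι Y * u) hm hres hevX hevY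
  obtain ⟨⟨t, ht⟩, ⟨ν₁, hν₁mem, hν₁⟩⟩ :=
    node_lp ev π hπR (ι X * u) (ι Y * u) (ι H * u ^ 2) hm hres hevX hevY d Q μ hXYR hQμ hμ
  -- `A = ev X_R` is a unit times a power of `π`
  have hA0 : ev (ι X * u) ≠ 0 := fun h0 => hQ' (h0 ▸ dvd_zero Q)
  obtain ⟨k, v, hv⟩ := IsDiscreteValuationRing.associated_pow_irreducible hA0 hπ
  set g : Localization.AtPrime 𝔪 :=
    ι X * u - algebraMap Λ (Localization.AtPrime 𝔪) (ev (ι X * u)) with hg
  have hkey : ∀ r : Localization.AtPrime 𝔪, ev r = 0 →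
      ∃ w : Localization.AtPrime 𝔪,
        algebraMap Λ (Localization.AtPrime 𝔪) (π ^ k) * r = w * g := by
    intro r hr
    have hr' : r ∈ RingHom.ker (ev : Localization.AtPrime 𝔪 →+* Λ) := hr
    rw [hker, Ideal.mem_span_pair] at hr'
    obtain ⟨a, b, hab⟩ := hr'
    refine ⟨algebraMap Λ (Localization.AtPrime 𝔪) (v : Λ) *
      (algebraMap Λ (Localization.AtPrime 𝔪) (ev (ι X * u)) * a + b * t), ?_⟩
    rw [← hv, map_mul, ← hab]
    linear_combination (algebraMap Λ (Localization.AtPrime 𝔪) (v : Λ) * b) * ht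
  -- the constant `a`
  obtain ⟨A, hAdef⟩ : ∃ A : Λ, A = ev (ι X * u) := ⟨_, rfl⟩
  have hgA : g = ι X * u - algebraMap Λ (Localization.AtPrime 𝔪) A := by rw [hAdef]
  have hν₁A : ι X * u * (ι Y * u) = algebraMap Λ (Localization.AtPrime 𝔪) A * ν₁ := by
    rw [hAdef]
    exact hν₁
  have hφXA : A * φ σ = φ X := by
    rw [hAdef]
    exact hφX.symm
  have hA0' : A ≠ 0 := by
    rw [hAdef]
    exact hA0
  have hevXA : π ∣ A := by
    rw [hAdef]
    exact hevX
  -- the witness in `B`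
  have hgB : g = ι (X - algebraMap Λ B A * σ) * u := by
    rw [hgA, map_sub, map_mul, hιΛ]
    linear_combination (algebraMap Λ (Localization.AtPrime 𝔪) A) * hu
  refine ⟨A, hφXA, hA0', hevXA, ?_, ?_⟩
  · -- the first clause
    refine ⟨k, ?_⟩
    refine ngcB_uniform π hπ φ (X - algebraMap Λ B A * σ) (algebraMap Λ B (π ^ k)) ?_
    intro b hb
    obtain ⟨w, hw⟩ := hkey (ι b) (by rw [hι, hev, hb])
    obtain ⟨⟨w₀, s₁⟩, hw₀⟩ := IsLocalization.surj 𝔪.primeCompl (w * u)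
    dsimp only at hw₀
    have h1 : ι (algebraMap Λ B (π ^ k) * b * s₁) =
        ι (w₀ * (X - algebraMap Λ B A * σ)) := by
      rw [map_mul, map_mul, map_mul, hιΛ, hw, ← hw₀, hgB]
      ring
    obtain ⟨c, hc⟩ := (IsLocalization.eq_iff_exists 𝔪.primeCompl (Localization.AtPrime 𝔪)).mp h1
    refine ⟨c * s₁, ?_, ?_⟩
    · have hmem : ((c * s₁ : 𝔪.primeCompl) : B) ∉ 𝔪 := (c * s₁).2
      intro hdvd
      apply hmem
      rw [h𝔪]
      simpa using hdvd
    · refine ⟨c * w₀, ?_⟩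
      linear_combination hc
  · -- the second clause
    obtain ⟨ν₂, hν₂⟩ := Ideal.mem_span_singleton'.mp hν₁mem
    obtain ⟨⟨ν₀, s₂⟩, hν₀⟩ := IsLocalization.surj 𝔪.primeCompl (ν₂ * ι σ ^ 2)
    dsimp only at hν₀
    have h2 : ι X * ι Y = algebraMap Λ (Localization.AtPrime 𝔪) A *
        (algebraMap Λ (Localization.AtPrime 𝔪) π * (ν₂ * ι σ ^ 2)) := by
      linear_combination ι σ ^ 2 * hν₁A - algebraMap Λ (Localization.AtPrime 𝔪) A
        * ι σ ^ 2 * hν₂ - ι X * ι Y * (ι σ * u + 1) * hu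
    have h3 : ι ((s₂ : B) * (X * Y)) =
        ι (algebraMap Λ B A * (algebraMap Λ B π * ν₀)) := by
      rw [map_mul, map_mul, map_mul, map_mul, hιΛ, hιΛ, h2, ← hν₀]
      ring
    obtain ⟨c, hc⟩ := (IsLocalization.eq_iff_exists 𝔪.primeCompl (Localization.AtPrime 𝔪)).mp h3
    refine ⟨c * s₂, c * ν₀, ?_, ?_⟩
    · have hmem : ((c * s₂ : 𝔪.primeCompl) : B) ∉ 𝔪 := (c * s₂).2
      intro hdvd
      apply hmem
      rw [h𝔪]
      simpa using hdvd
    · linear_combination hc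

end Fermat.Agent.S35
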