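import Mathlib
import Fermat.Agent.S34.AbsLP
import Fermat.Agent.S34.ModelDefs
import Fermat.Agent.S35.F1CrossProd
import Fermat.Agent.S35.F1CrossVert
import Fermat.Agent.S35.F1NodeLP

/-!
P20 (S35), block F1, leaf F1-PTC (second team): crossing point, all integral points of `X`-type.

At a crossing point `𝔪` of the special fibre, the local `m`-th root datum `g` of `u ≡ 1` can be
chosen `≡` a unit constant at `w₁` and `≡ 1` at `w₂`.  The per-place local functions are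
`(X - a σ) / σ` with `a = φ X / φ σ` (F1-NLP + ABS-4); the product step is F1-D1 and the vertical
step is F1-D2.
-/

set_option autoImplicit false

namespace Fermat.Agent.S35

open IsDedekindDomain
open Fermat.Agent.S34

section PT

variable {Bη F : Type*} [CommRing Bη] [IsDedekindDomain Bη] [Field F] [Algebra Bη F]
  [IsFractionRing Bη F]
  {Λ B : Type*} [CommRing Λ] [IsDomain Λ] [IsDiscreteValuationRing Λ] [Algebra Λ F]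
  [CommRing B] [IsNoetherianRing B] [Algebra B F] [Algebra Λ B] [IsScalarTower Λ B F]

/-- The local function at one horizontal prime `𝔔` through the crossing point, from the integral
point `φ` of `𝔔` and its `X`-type datum. -/
theorem s35f1ptcB_place
    {Γ₁ Γ₂ : Type*} [LinearOrderedCommGroupWithZero Γ₁] [LinearOrderedCommGroupWithZero Γ₂]
    (ι : B →+* Bη) (hι : ∀ b : B, algebraMap Bη F (ι b) = algebraMap B F b)
    (hinj : Function.Injective (algebraMap B F))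
    (π : Λ) (hπ : Irreducible π)
    (hπu : IsUnit (ι (algebraMap Λ B π)))
    (hloc : ∀ y : Bη, ∃ (n : ℕ) (b : B), ι (algebraMap Λ B π) ^ n * y = ι b)
    (𝔪 : Ideal B) [𝔪.IsPrime]
    (V : Subring F)
    (hBV : ∀ b : B, IsIntegral V (algebraMap B F b))
    (w₁ : Valuation F Γ₁) (w₂ : Valuation F Γ₂)
    (hVw : ∀ f : F, IsIntegral V f ↔ w₁ f ≤ 1 ∧ w₂ f ≤ 1)
    (hπ₁ : w₁ (algebraMap Λ F π) < 1) (hπ₂ : w₂ (algebraMap Λ F π) < 1)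
    (h𝔪₁ : ∀ b : B, w₁ (algebraMap B F b) < 1 → b ∈ 𝔪)
    (h𝔪₂ : ∀ b : B, w₂ (algebraMap B F b) < 1 → b ∈ 𝔪)
    (x y : B) (hx𝔪 : x ∈ 𝔪) (hy𝔪 : y ∈ 𝔪)
    (hy₁ : w₁ (algebraMap B F y) = 1)
    (hgen : ∀ z ∈ 𝔪, ∃ a : B, a ∉ 𝔪 ∧ a * z ∈ Ideal.span {algebraMap Λ B π, x, y})
    (𝔔 : HeightOneSpectrum Bη) (h𝔔 : 𝔔 ∈ absThrough ι 𝔪)
    (φ : B →ₐ[Λ] Λ) (h𝔪 : 𝔪 = Ideal.comap (φ : B →+* Λ) (Ideal.span {π}))
    (hφ : ∀ b : B, ι b ∈ 𝔔.asIdeal ↔ φ b = 0)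
    (X Y H σ : B) (d Q : Λ) (hσ : ¬ π ∣ φ σ)
    (hX : X - σ * x ∈ Ideal.span {algebraMap Λ B π})
    (hY : Y - σ * y ∈ Ideal.span {algebraMap Λ B π})
    (hXY : X * Y = σ ^ 2 * algebraMap Λ B d + algebraMap Λ B Q * H) (hQ : ¬ Q ∣ φ X) :
    ∃ (h : F) (a : Λ), a ≠ 0 ∧ w₁ (h - algebraMap Λ F a) < w₁ (algebraMap Λ F a) ∧
      w₂ (h - algebraMap B F x) < 1 ∧
      𝔔.valuation F h = WithZero.exp (-1 : ℤ) ∧
      ∀ 𝔔' ∈ absThrough ι 𝔪, 𝔔' ≠ 𝔔 → 𝔔'.valuation F h = 1 := by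
  -- membership in `𝔪`
  have hmem : ∀ b : B, b ∈ 𝔪 ↔ π ∣ φ b := by
    intro b
    rw [h𝔪, Ideal.mem_comap, Ideal.mem_span_singleton]
    rfl
  have hΛF : ∀ c : Λ, algebraMap Λ F c = algebraMap B F (algebraMap Λ B c) :=
    fun c => IsScalarTower.algebraMap_apply Λ B F c
  have hφΛ : ∀ c : Λ, φ (algebraMap Λ B c) = c := fun c => φ.commutes c
  have hΛ0 : ∀ c : Λ, c ≠ 0 → algebraMap Λ F c ≠ 0 := by
    intro c hc h0
    apply hc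
    rw [hΛF] at h0
    have h1 : algebraMap Λ B c = 0 := hinj (h0.trans (map_zero _).symm)
    have h2 := congrArg φ h1
    rwa [hφΛ, map_zero] at h2
  have hBw : ∀ b : B, w₁ (algebraMap B F b) ≤ 1 ∧ w₂ (algebraMap B F b) ≤ 1 :=
    fun b => (hVw _).1 (hBV b)
  have hunit₁ : ∀ b : B, b ∉ 𝔪 → w₁ (algebraMap B F b) = 1 := fun b hb =>
    le_antisymm (hBw b).1 (not_lt.mp fun hlt => hb (h𝔪₁ b hlt))
  have hunit₂ : ∀ b : B, b ∉ 𝔪 → w₂ (algebraMap B F b) = 1 := fun b hb =>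
    le_antisymm (hBw b).2 (not_lt.mp fun hlt => hb (h𝔪₂ b hlt))
  have hunitQ : ∀ b : B, b ∉ 𝔪 → ∀ 𝔔' ∈ absThrough ι 𝔪,
      𝔔'.valuation F (algebraMap B F b) = 1 := by
    intro b hb 𝔔' h𝔔'
    rw [← hι, HeightOneSpectrum.valuation_of_algebraMap,
      HeightOneSpectrum.intValuation_eq_one_iff]
    exact fun hmem' => hb (h𝔔' hmem')
  have hσ𝔪 : σ ∉ 𝔪 := fun h => hσ ((hmem σ).mp h)
  have hπB₁ : w₁ (algebraMap B F (algebraMap Λ B π)) < 1 := by rw [← hΛF]; exact hπ₁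
  have hπB₂ : w₂ (algebraMap B F (algebraMap Λ B π)) < 1 := by rw [← hΛF]; exact hπ₂
  -- F1-NLP
  obtain ⟨a, haσ, ha0, hπa, ⟨k, s, hs, hdivs⟩, ⟨s', ν, hs', hXYa⟩⟩ :=
    s35f1_lp_node π hπ φ x y X Y H σ d Q hσ hX hY hXY ((hmem x).mp hx𝔪) ((hmem y).mp hy𝔪)
      (fun z hz => by
        obtain ⟨a, ha, haz⟩ := hgen z ((hmem z).mpr hz)
        exact ⟨a, fun h => ha ((hmem a).mpr h), haz⟩) hQ
  have hs'𝔪 : s' ∉ 𝔪 := fun h => hs' ((hmem s').mp h)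
  -- ABS-4 for `X - a σ`
  have hh0 : φ (X - algebraMap Λ B a * σ) = 0 := by
    rw [map_sub, map_mul, hφΛ, haσ, sub_self]
  obtain ⟨hv1, hv2⟩ := abs_lp_place (F := F) ι π hπu hloc φ 𝔔 hφ
    (X - algebraMap Λ B a * σ) hh0 k s hs hdivs
  have hσ0 : algebraMap B F σ ≠ 0 := by
    intro h0
    have h1 := hunit₁ σ hσ𝔪
    rw [h0, map_zero] at h1
    exact zero_ne_one h1
  have ha0F : algebraMap Λ F a ≠ 0 := hΛ0 a ha0
  have hwa : (0 : Γ₁) < w₁ (algebraMap Λ F a) :=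
    zero_lt_iff.mpr ((Valuation.ne_zero_iff w₁).mpr ha0F)
  -- `w₁ Y = 1`
  obtain ⟨rY, hrY⟩ := Ideal.mem_span_singleton'.mp hY
  have hwY : w₁ (algebraMap B F Y) = 1 := by
    have h1 : algebraMap B F Y = algebraMap B F σ * algebraMap B F y +
        algebraMap B F rY * algebraMap B F (algebraMap Λ B π) := by
      rw [← map_mul, ← map_mul, ← map_add, hrY]
      congr 1
      ring
    have h2 : w₁ (algebraMap B F σ * algebraMap B F y) = 1 := by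
      rw [map_mul, hunit₁ σ hσ𝔪, hy₁, one_mul]
    have h3 : w₁ (algebraMap B F rY * algebraMap B F (algebraMap Λ B π)) < 1 := by
      rw [map_mul]
      exact s35f1d2_mul_lt_one (hBw rY).1 hπB₁
    rw [h1, Valuation.map_add_eq_of_lt_left w₁ (by rw [h2]; exact h3), h2]
  -- `w₁ X < w₁ a`
  have hwX : w₁ (algebraMap B F X) < w₁ (algebraMap Λ F a) := by
    have h1 := congrArg (fun b : B => w₁ (algebraMap B F b)) hXYa
    simp only [map_mul] at h1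
    rw [hunit₁ s' hs'𝔪, hwY, one_mul, mul_one, ← hΛF] at h1
    rw [h1]
    have h2 : w₁ (algebraMap B F (algebraMap Λ B π)) * w₁ (algebraMap B F ν) < 1 := by
      rw [mul_comm]
      exact s35f1d2_mul_lt_one (hBw ν).1 hπB₁
    calc w₁ (algebraMap Λ F a) * (w₁ (algebraMap B F (algebraMap Λ B π)) * w₁ (algebraMap B F ν))
        < w₁ (algebraMap Λ F a) * 1 := mul_lt_mul_of_pos_left h2 hwa
      _ = w₁ (algebraMap Λ F a) := mul_one _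
  -- `w₂ (X - σ x) < 1` and `w₂ a < 1`
  obtain ⟨rX, hrX⟩ := Ideal.mem_span_singleton'.mp hX
  have hwX₂ : w₂ (algebraMap B F (X - σ * x)) < 1 := by
    rw [← hrX, map_mul, map_mul]
    exact s35f1d2_mul_lt_one (hBw rX).2 hπB₂
  have hwa₂ : w₂ (algebraMap Λ F a) < 1 := by
    obtain ⟨a', rfl⟩ := hπa
    rw [hΛF, map_mul, map_mul, map_mul, mul_comm]
    exact s35f1d2_mul_lt_one (hBw _).2 hπB₂
  refine ⟨algebraMap B F (X - algebraMap Λ B a * σ) / algebraMap B F σ, -a,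
    neg_ne_zero.mpr ha0, ?_, ?_, ?_, ?_⟩
  · have h1 : algebraMap B F (X - algebraMap Λ B a * σ) / algebraMap B F σ -
        algebraMap Λ F (-a) = algebraMap B F X / algebraMap B F σ := by
      rw [map_sub, map_mul, ← hΛF, map_neg]
      field_simp
      ring
    rw [h1, map_div₀, hunit₁ σ hσ𝔪, div_one, map_neg, Valuation.map_neg]
    exact hwX
  · have h1 : algebraMap B F (X - algebraMap Λ B a * σ) / algebraMap B F σ - algebraMap B F x =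
        algebraMap B F (X - σ * x) / algebraMap B F σ - algebraMap Λ F a := by
      rw [map_sub, map_mul, ← hΛF, map_sub, map_mul]
      field_simp
      ring
    rw [h1]
    refine lt_of_le_of_lt (Valuation.map_sub _ _ _) (max_lt ?_ hwa₂)
    rw [map_div₀, hunit₂ σ hσ𝔪, div_one]
    exact hwX₂
  · rw [map_div₀, ← hι (X - algebraMap Λ B a * σ), hv1, hunitQ σ hσ𝔪 𝔔 h𝔔, div_one]
  · intro 𝔔' h𝔔' hne
    have h1 : 𝔔' ∈ absThrough ι (Ideal.comap (φ : B →+* Λ) (Ideal.span {π})) := by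
      rw [← h𝔪]
      exact h𝔔'
    rw [map_div₀, ← hι (X - algebraMap Λ B a * σ), hv2 𝔔' hne h1, hunitQ σ hσ𝔪 𝔔' h𝔔', div_one]

/-- (F1-PTC, second team) crossing point, all integral points of `X`-type. -/
theorem s35f1_pt_cross_B
    {Γ₁ Γ₂ : Type*} [LinearOrderedCommGroupWithZero Γ₁] [LinearOrderedCommGroupWithZero Γ₂]
    (ι : B →+* Bη) (hι : ∀ b : B, algebraMap Bη F (ι b) = algebraMap B F b)
    (hinj : Function.Injective (algebraMap B F))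
    (π : Λ) (hπ : Irreducible π)
    (hπu : IsUnit (ι (algebraMap Λ B π)))
    (hloc : ∀ y : Bη, ∃ (n : ℕ) (b : B), ι (algebraMap Λ B π) ^ n * y = ι b)
    (𝔪 : Ideal B) [𝔪.IsPrime] (hπ𝔪 : algebraMap Λ B π ∈ 𝔪)
    (V : Subring F)
    (hBV : ∀ b : B, IsIntegral V (algebraMap B F b))
    (hK : ∀ y : Bη, IsIntegral V (algebraMap Bη F y) →
      ∃ b : B, algebraMap B F b = algebraMap Bη F y)
    (w₁ : Valuation F Γ₁) (w₂ : Valuation F Γ₂)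
    (hVw : ∀ f : F, IsIntegral V f ↔ w₁ f ≤ 1 ∧ w₂ f ≤ 1)
    (hπ₁ : w₁ (algebraMap Λ F π) < 1) (hπ₂ : w₂ (algebraMap Λ F π) < 1)
    (h𝔪₁ : ∀ b : B, w₁ (algebraMap B F b) < 1 → b ∈ 𝔪)
    (h𝔪₂ : ∀ b : B, w₂ (algebraMap B F b) < 1 → b ∈ 𝔪)
    (m : ℕ) (hm : m ≠ 0) {u : F} (hu : u ≠ 0)
    (hu1 : ∃ δ : F, IsIntegral V δ ∧ u - 1 = π • δ)
    (hdiv : ∀ 𝔔 ∈ absThrough ι 𝔪, ∃ n : ℤ, 𝔔.valuation F u = WithZero.exp ((m : ℤ) * n))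
    (x y : B) (hx𝔪 : x ∈ 𝔪) (hy𝔪 : y ∈ 𝔪)
    (hx₂ : w₂ (algebraMap B F x) = 1) (hy₁ : w₁ (algebraMap B F y) = 1)
    (hgen : ∀ z ∈ 𝔪, ∃ a : B, a ∉ 𝔪 ∧ a * z ∈ Ideal.span {algebraMap Λ B π, x, y})
    (hpoint : ∀ 𝔔 ∈ absThrough ι 𝔪, 𝔔.valuation F u ≠ 1 →
      ∃ φ : B →ₐ[Λ] Λ, 𝔪 = Ideal.comap (φ : B →+* Λ) (Ideal.span {π}) ∧
        ∀ b : B, ι b ∈ 𝔔.asIdeal ↔ φ b = 0)
    (hXtype : ∀ φ : B →ₐ[Λ] Λ, 𝔪 = Ideal.comap (φ : B →+* Λ) (Ideal.span {π}) →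
      ∃ (X Y H σ : B) (d Q : Λ), ¬ π ∣ φ σ ∧
        X - σ * x ∈ Ideal.span {algebraMap Λ B π} ∧
        Y - σ * y ∈ Ideal.span {algebraMap Λ B π} ∧
        X * Y = σ ^ 2 * algebraMap Λ B d + algebraMap Λ B Q * H ∧ ¬ Q ∣ φ X) :
    ∃ (g : F) (c : Λ), g ≠ 0 ∧ IsUnit c ∧ w₁ (g - algebraMap Λ F c) < 1 ∧ w₂ (g - 1) < 1 ∧
      ∀ 𝔔 ∈ absThrough ι 𝔪, 𝔔.valuation F (u / g ^ m) = 1 := by
  have _ := hπ𝔪
  have hlp : ∀ 𝔔 ∈ absThrough ι 𝔪, 𝔔.valuation F u ≠ 1 →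
      ∃ (h : F) (a : Λ), a ≠ 0 ∧ w₁ (h - algebraMap Λ F a) < w₁ (algebraMap Λ F a) ∧
        w₂ (h - algebraMap B F x) < 1 ∧
        𝔔.valuation F h = WithZero.exp (-1 : ℤ) ∧
        ∀ 𝔔' ∈ absThrough ι 𝔪, 𝔔' ≠ 𝔔 → 𝔔'.valuation F h = 1 := by
    intro 𝔔 h𝔔 hval
    obtain ⟨φ, h𝔪, hφ⟩ := hpoint 𝔔 h𝔔 hval
    obtain ⟨X, Y, H, σ, d, Q, hσ, hX, hY, hXY, hQ⟩ := hXtype φ h𝔪
    exact s35f1ptcB_place ι hι hinj π hπ hπu hloc 𝔪 V hBV w₁ w₂ hVw hπ₁ hπ₂ h𝔪₁ h𝔪₂ x y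
      hx𝔪 hy𝔪 hy₁ hgen 𝔔 h𝔔 φ h𝔪 hφ X Y H σ d Q hσ hX hY hXY hQ
  obtain ⟨g, a, a', N, hg, ha, ha', hg₁, hg₂, hval⟩ :=
    s35f1_cross_prod ι 𝔪 w₁ w₂ m hu hdiv x hx₂ hlp
  obtain ⟨c, hc, h1, h2⟩ := s35f1_cross_vert ι hι 𝔪 π hπ hπu V hBV hK w₁ w₂ hVw hπ₁ hπ₂
    h𝔪₁ h𝔪₂ m hm hu hu1 x hx𝔪 hx₂ g a a' N hg ha ha' hg₁ hg₂ hval
  exact ⟨g, c, hg, hc, h1, h2, hval⟩

end PT

end Fermat.Agent.S35
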