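import Mathlib
set_option autoImplicit false
namespace Fermat.Agent.S35

theorem s35f1thick_ind {Λ B F Γ : Type*} [CommRing Λ] [IsDomain Λ] [IsDiscreteValuationRing Λ]
    [CommRing B] [Algebra Λ B] [Field F] [Algebra B F] [LinearOrderedCommGroupWithZero Γ]
    (π : Λ) (hπ : Irreducible π) (φ : B →ₐ[Λ] Λ) (w₁ : Valuation F Γ)
    (hw₁B : ∀ b : B, w₁ (algebraMap B F b) ≤ 1)
    (hw₁π : w₁ (algebraMap B F (algebraMap Λ B π)) ≠ 0)
    (hw₁π1 : w₁ (algebraMap B F (algebraMap Λ B π)) < 1)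
    (x : B)
    (hP1 : ∀ f : B, w₁ (algebraMap B F f) < 1 →
      ∃ a r d : B, ¬ π ∣ φ a ∧ a * f = algebraMap Λ B π * r + x * d)
    (X σ : B) (K : ℕ) (hσ : ¬ π ∣ φ σ)
    (hX : X - σ * x ∈ Ideal.span {algebraMap Λ B π})
    (hwX : w₁ (algebraMap B F X) ≤ w₁ (algebraMap B F (algebraMap Λ B π)) ^ (K + 1))
    (k : ℕ) (hk : k ≤ K + 1) (f : B)
    (hf : w₁ (algebraMap B F f) ≤ w₁ (algebraMap B F (algebraMap Λ B π)) ^ k) :
    ∃ a r d : B, ¬ π ∣ φ a ∧ a * f = algebraMap Λ B π ^ k * r + X * d := by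
  have hprime : Prime π := hπ.prime
  induction k generalizing f with
  | zero =>
    exact ⟨1, f, 0, by rw [map_one]; exact hπ.not_dvd_one, by ring⟩
  | succ k ih =>
    set ϖ := w₁ (algebraMap B F (algebraMap Λ B π)) with hϖ
    have hϖle : ϖ ≤ 1 := hw₁B _
    have hf1 : w₁ (algebraMap B F f) < 1 := by
      refine lt_of_le_of_lt hf ?_
      calc ϖ ^ (k + 1) ≤ ϖ ^ 1 := pow_le_pow_of_le_one zero_le hϖle (by omega)
        _ = ϖ := pow_one _
        _ < 1 := hw₁π1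
    obtain ⟨a, r, d, ha, hafd⟩ := hP1 f hf1
    obtain ⟨e, he⟩ := Ideal.mem_span_singleton'.1 hX
    -- he : e * π = X - σ * x
    have hrel : algebraMap Λ B π * (σ * r - e * d) = σ * a * f - X * d := by
      have : σ * a * f = σ * (a * f) := by ring
      rw [this, hafd]
      linear_combination (-d) * he
    have hwX' : w₁ (algebraMap B F X) ≤ ϖ ^ (k + 1) :=
      hwX.trans (pow_le_pow_of_le_one zero_le hϖle hk)
    have hw : ϖ * w₁ (algebraMap B F (σ * r - e * d)) ≤ ϖ * ϖ ^ k := by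
      rw [← map_mul, ← map_mul, hrel, ← pow_succ', map_sub]
      refine (Valuation.map_sub _ _ _).trans (max_le ?_ ?_)
      · rw [map_mul, map_mul]
        calc w₁ (algebraMap B F (σ * a)) * w₁ (algebraMap B F f)
            ≤ 1 * ϖ ^ (k + 1) := mul_le_mul' (hw₁B _) hf
          _ = ϖ ^ (k + 1) := one_mul _
      · rw [map_mul, map_mul]
        calc w₁ (algebraMap B F X) * w₁ (algebraMap B F d)
            ≤ ϖ ^ (k + 1) * 1 := mul_le_mul' hwX' (hw₁B _)
          _ = ϖ ^ (k + 1) := mul_one _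
    have hw' : w₁ (algebraMap B F (σ * r - e * d)) ≤ ϖ ^ k :=
      (mul_le_mul_iff_right₀ (zero_lt_iff.2 hw₁π)).1 hw
    obtain ⟨a', r', d', ha', h'⟩ := ih (by omega) _ hw'
    refine ⟨a' * (σ * a), r', algebraMap Λ B π * d' + a' * d, ?_, ?_⟩
    · rw [map_mul, map_mul]
      intro hdvd
      rcases hprime.dvd_or_dvd hdvd with h | h
      · exact ha' h
      · rcases hprime.dvd_or_dvd h with h | h
        · exact hσ h
        · exact ha h
    · have e1 : a' * (σ * a) * f = a' * (σ * a * f) := by ring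
      have e2 : σ * a * f = algebraMap Λ B π * (σ * r - e * d) + X * d := by
        rw [hrel]; ring
      rw [e1, e2, mul_add, ← mul_assoc a', mul_comm a' (algebraMap Λ B π), mul_assoc, h']
      ring

/-- (F1-THICK, file `S35/F1Thick.lean`) finite thickness from a certificate `Φ Φ' = ε π ^ n`:
every integral point through the crossing point is `X`-type at level `K ≥ n - 1`. -/
theorem s35f1_thick {Λ B F Γ : Type*} [CommRing Λ] [IsDomain Λ] [IsDiscreteValuationRing Λ]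
    [CommRing B] [Algebra Λ B] [Field F] [Algebra B F] [LinearOrderedCommGroupWithZero Γ]
    (π : Λ) (hπ : Irreducible π) (φ : B →ₐ[Λ] Λ) (w₁ : Valuation F Γ)
    (hw₁B : ∀ b : B, w₁ (algebraMap B F b) ≤ 1)
    (hw₁π : w₁ (algebraMap B F (algebraMap Λ B π)) ≠ 0)
    (hw₁π1 : w₁ (algebraMap B F (algebraMap Λ B π)) < 1)
    (x : B)
    (hP1 : ∀ f : B, w₁ (algebraMap B F f) < 1 →
      ∃ a r d : B, ¬ π ∣ φ a ∧ a * f = algebraMap Λ B π * r + x * d)
    (X Y H σ : B) (c : Λ) (K : ℕ) (hσ : ¬ π ∣ φ σ)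
    (hX : X - σ * x ∈ Ideal.span {algebraMap Λ B π})
    (hwY : w₁ (algebraMap B F Y) = 1)
    (hXY : X * Y = σ ^ 2 * algebraMap Λ B (π * c) + algebraMap Λ B (π ^ (K + 1)) * H)
    (n : ℕ) (hnK : n ≤ K + 1)
    (Φ Φ' : B) (ε : Λ) (hε : IsUnit ε) (hΦΦ' : Φ * Φ' = algebraMap Λ B (ε * π ^ n))
    (hΦ : w₁ (algebraMap B F Φ) ≤ w₁ (algebraMap B F (algebraMap Λ B π)) ^ n)
    (hΦ' : π ∣ φ Φ') :
    ¬ π ^ (K + 1) ∣ φ X := by
  intro hdvd
  have hprime : Prime π := hπ.prime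
  have hπ0 : π ≠ 0 := hπ.ne_zero
  -- π ^ K ∣ c
  have h1 : φ X * φ Y = φ σ ^ 2 * (π * c) + π ^ (K + 1) * φ H := by
    have := congrArg φ hXY
    simpa only [map_mul, map_add, map_pow, AlgHom.commutes, Algebra.algebraMap_self,
      RingHom.id_apply] using this
  have h2 : π ^ (K + 1) ∣ φ σ ^ 2 * (π * c) := by
    have h3 : π ^ (K + 1) ∣ φ X * φ Y := Dvd.dvd.mul_right hdvd _
    rw [h1] at h3
    exact (dvd_add_left (dvd_mul_right _ _)).1 h3
  have h4 : π ^ (K + 1) ∣ π * c :=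
    hprime.pow_dvd_of_dvd_mul_left _ (fun h => hσ (hprime.dvd_of_dvd_pow h)) h2
  have h5 : π ^ K ∣ c := by
    rw [pow_succ'] at h4
    exact (mul_dvd_mul_iff_left hπ0).1 h4
  obtain ⟨c', rfl⟩ := h5
  have hXY' : X * Y = algebraMap Λ B π ^ (K + 1) * (σ ^ 2 * algebraMap Λ B c' + H) := by
    rw [hXY]
    simp only [map_mul, map_pow]
    ring
  have hwX : w₁ (algebraMap B F X) ≤ w₁ (algebraMap B F (algebraMap Λ B π)) ^ (K + 1) := by
    have : w₁ (algebraMap B F X) = w₁ (algebraMap B F (X * Y)) := by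
      rw [map_mul, map_mul, hwY, mul_one]
    rw [this, hXY', map_mul, map_mul, map_pow, map_pow]
    calc w₁ (algebraMap B F (algebraMap Λ B π)) ^ (K + 1) * w₁ (algebraMap B F _)
        ≤ w₁ (algebraMap B F (algebraMap Λ B π)) ^ (K + 1) * 1 :=
          mul_le_mul' le_rfl (hw₁B _)
      _ = _ := mul_one _
  obtain ⟨a, r, d, ha, hard⟩ := s35f1thick_ind π hπ φ w₁ hw₁B hw₁π hw₁π1 x hP1 X σ K hσ hX hwX
    n hnK Φ hΦ
  have h6 : φ a * φ Φ = π ^ n * φ r + φ X * φ d := by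
    have := congrArg φ hard
    simpa only [map_mul, map_add, map_pow, AlgHom.commutes, Algebra.algebraMap_self,
      RingHom.id_apply] using this
  have h7 : π ^ n ∣ φ a * φ Φ := by
    rw [h6]
    exact dvd_add (dvd_mul_right _ _) (Dvd.dvd.mul_right ((pow_dvd_pow π hnK).trans hdvd) _)
  obtain ⟨s, hs⟩ := hprime.pow_dvd_of_dvd_mul_left _ ha h7
  have h8 : φ Φ * φ Φ' = ε * π ^ n := by
    have := congrArg φ hΦΦ'
    simpa only [map_mul, map_add, map_pow, AlgHom.commutes, Algebra.algebraMap_self,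
      RingHom.id_apply] using this
  have h9 : s * φ Φ' = ε := by
    have : π ^ n * (s * φ Φ') = π ^ n * ε := by
      rw [← mul_assoc, ← hs, h8]; ring
    exact mul_left_cancel₀ (pow_ne_zero n hπ0) this
  have h10 : IsUnit (φ Φ') := isUnit_of_mul_isUnit_right (h9 ▸ hε)
  exact hπ.not_isUnit (isUnit_of_dvd_unit hΦ' h10)

end Fermat.Agent.S35
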