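import Mathlib
import Fermat.Agent.S34.ModelDefs

/-!
# P20 (S35), block F1, leaf F1-THICK (second team)

Finite thickness from a certificate `Φ Φ' = ε π ^ n`: every integral point through the crossing
point is of `X`-type at level `K ≥ n - 1`.

Compared with the pinned statement there is one extra hypothesis `hw₁π1 : w₁ π < 1` (without it
the statement fails for the trivial valuation).
-/

set_option autoImplicit false

namespace Fermat.Agent.S35

open Fermat.Agent.S34

/-- Successive approximation: an element of `w₁`-size at most `w₁ π ^ k` lies, up to a factor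
not vanishing at the point, in `(π ^ k, X)`. -/
theorem s35f1thB_approx {Λ B F Γ : Type*} [CommRing Λ] [IsDomain Λ]
    [IsDiscreteValuationRing Λ] [CommRing B] [Algebra Λ B] [Field F] [Algebra B F]
    [LinearOrderedCommGroupWithZero Γ]
    (π : Λ) (hπ : Irreducible π) (φ : B →ₐ[Λ] Λ) (w₁ : Valuation F Γ)
    (hw₁B : ∀ b : B, w₁ (algebraMap B F b) ≤ 1)
    (hw₁π : w₁ (algebraMap B F (algebraMap Λ B π)) ≠ 0)
    (hw₁π1 : w₁ (algebraMap B F (algebraMap Λ B π)) < 1)
    (x : B)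
    (hP1 : ∀ f : B, w₁ (algebraMap B F f) < 1 →
      ∃ a r d : B, ¬ π ∣ φ a ∧ a * f = algebraMap Λ B π * r + x * d)
    (X σ : B) (hσ : ¬ π ∣ φ σ)
    (hX : X - σ * x ∈ Ideal.span {algebraMap Λ B π})
    (n : ℕ) (hwX : w₁ (algebraMap B F X) ≤ w₁ (algebraMap B F (algebraMap Λ B π)) ^ n) :
    ∀ k : ℕ, k ≤ n → ∀ f : B,
      w₁ (algebraMap B F f) ≤ w₁ (algebraMap B F (algebraMap Λ B π)) ^ k →
      ∃ a r d : B, ¬ π ∣ φ a ∧ a * f = algebraMap Λ B (π ^ k) * r + X * d := by
  have hπp : Prime π := hπ.prime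
  have hle : w₁ (algebraMap B F (algebraMap Λ B π)) ≤ 1 := hw₁B _
  intro k
  induction k with
  | zero =>
    intro _ f _
    refine ⟨1, f, 0, ?_, ?_⟩
    · rw [map_one]
      exact fun h => hπ.not_isUnit (isUnit_of_dvd_one h)
    · rw [pow_zero, map_one]
      ring
  | succ k ih =>
    intro hk f hf
    have hpow1 : w₁ (algebraMap B F (algebraMap Λ B π)) ^ (k + 1) < 1 := by
      have h1 : w₁ (algebraMap B F (algebraMap Λ B π)) ^ (k + 1) ≤
          w₁ (algebraMap B F (algebraMap Λ B π)) := by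
        calc w₁ (algebraMap B F (algebraMap Λ B π)) ^ (k + 1)
            = w₁ (algebraMap B F (algebraMap Λ B π)) ^ k *
                w₁ (algebraMap B F (algebraMap Λ B π)) := pow_succ _ _
          _ ≤ 1 * w₁ (algebraMap B F (algebraMap Λ B π)) :=
              mul_le_mul' (pow_le_one' hle k) le_rfl
          _ = w₁ (algebraMap B F (algebraMap Λ B π)) := one_mul _
      exact lt_of_le_of_lt h1 hw₁π1
    obtain ⟨a, r, d, ha, hafd⟩ := hP1 f (lt_of_le_of_lt hf hpow1)
    obtain ⟨e, he⟩ := Ideal.mem_span_singleton'.1 hX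
    have h1 : algebraMap Λ B π * (σ * r - e * d) = σ * a * f - X * d := by
      linear_combination (-σ) * hafd - d * he
    have hr' : w₁ (algebraMap B F (σ * r - e * d)) ≤
        w₁ (algebraMap B F (algebraMap Λ B π)) ^ k := by
      have h2 : w₁ (algebraMap B F (algebraMap Λ B π)) * w₁ (algebraMap B F (σ * r - e * d)) ≤
          w₁ (algebraMap B F (algebraMap Λ B π)) * w₁ (algebraMap B F (algebraMap Λ B π)) ^ k := by
        rw [← pow_succ', ← map_mul, ← map_mul, h1, map_sub]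
        apply Valuation.map_sub_le
        · rw [map_mul, map_mul, map_mul, map_mul]
          calc w₁ (algebraMap B F σ) * w₁ (algebraMap B F a) * w₁ (algebraMap B F f)
              ≤ 1 * 1 * w₁ (algebraMap B F (algebraMap Λ B π)) ^ (k + 1) :=
                mul_le_mul' (mul_le_mul' (hw₁B σ) (hw₁B a)) hf
            _ = w₁ (algebraMap B F (algebraMap Λ B π)) ^ (k + 1) := by rw [one_mul, one_mul]
        · rw [map_mul, map_mul]
          calc w₁ (algebraMap B F X) * w₁ (algebraMap B F d)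
              ≤ w₁ (algebraMap B F (algebraMap Λ B π)) ^ n * 1 := mul_le_mul' hwX (hw₁B d)
            _ = w₁ (algebraMap B F (algebraMap Λ B π)) ^ n := mul_one _
            _ ≤ w₁ (algebraMap B F (algebraMap Λ B π)) ^ (k + 1) :=
                pow_le_pow_right_of_le_one' hle hk
      exact le_of_mul_le_mul_left h2 (zero_lt_iff.2 hw₁π)
    obtain ⟨a', r'', d', ha', h3⟩ := ih (by omega) (σ * r - e * d) hr'
    refine ⟨a' * σ * a, r'', algebraMap Λ B π * d' + a' * d, ?_, ?_⟩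
    · rw [map_mul, map_mul]
      intro hdvd
      rcases hπp.dvd_or_dvd hdvd with h | h
      · rcases hπp.dvd_or_dvd h with h' | h'
        · exact ha' h'
        · exact hσ h'
      · exact ha h
    · rw [map_pow] at h3 ⊢
      linear_combination (-a') * h1 + algebraMap Λ B π * h3

/-- (F1-THICK) finite thickness from a certificate `Φ Φ' = ε π ^ n`: every integral point
through the crossing point is `X`-type at level `K ≥ n - 1`. -/
theorem s35f1_thick_B {Λ B F Γ : Type*} [CommRing Λ] [IsDomain Λ] [IsDiscreteValuationRing Λ]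
    [CommRing B] [Algebra Λ B] [Field F] [Algebra B F] [LinearOrderedCommGroupWithZero Γ]
    (π : Λ) (hπ : Irreducible π) (φ : B →ₐ[Λ] Λ) (w₁ : Valuation F Γ)
    (hw₁B : ∀ b : B, w₁ (algebraMap B F b) ≤ 1)
    (hw₁π : w₁ (algebraMap B F (algebraMap Λ B π)) ≠ 0)
    (hw₁π1 : w₁ (algebraMap B F (algebraMap Λ B π)) < 1)
    (x : B)
    (hP1 : ∀ f : B, w₁ (algebraMap B F f) < 1 →
      ∃ a r d : B, ¬ π ∣ φ a ∧ a * f = algebraMap Λ B π * r + x * d)
    (X Y H σ : B) (c : Λ) (K : ℕ) (hσ : ¬ π ∣ φ σ)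
    (hX : X - σ * x ∈ Ideal.span {algebraMap Λ B π})
    (hwY : w₁ (algebraMap B F Y) = 1)
    (hXY : X * Y = σ ^ 2 * algebraMap Λ B (π * c) + algebraMap Λ B (π ^ (K + 1)) * H)
    (n : ℕ) (hnK : n ≤ K + 1)
    (Φ Φ' : B) (ε : Λ) (hε : IsUnit ε) (hΦΦ' : Φ * Φ' = algebraMap Λ B (ε * π ^ n))
    (hΦ : w₁ (algebraMap B F Φ) ≤ w₁ (algebraMap B F (algebraMap Λ B π)) ^ n)
    (hΦ' : π ∣ φ Φ') :
    ¬ π ^ (K + 1) ∣ φ X := by
  intro hdiv
  have hπp : Prime π := hπ.prime
  have hle : w₁ (algebraMap B F (algebraMap Λ B π)) ≤ 1 := hw₁B _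
  have hφalg : ∀ l : Λ, φ (algebraMap Λ B l) = l := fun l => φ.commutes l
  -- step 1: `π ^ K ∣ c`, hence `X * Y ∈ π ^ (K + 1) B`
  have e1 : φ X * φ Y = φ σ ^ 2 * (π * c) + π ^ (K + 1) * φ H := by
    have h0 := congrArg φ hXY
    simp only [map_mul, map_add, map_pow, hφalg] at h0
    exact h0
  have h2 : π ^ (K + 1) ∣ φ σ ^ 2 * (π * c) := by
    have h3 : π ^ (K + 1) ∣ φ X * φ Y := Dvd.dvd.mul_right hdiv _
    rw [e1] at h3
    exact (dvd_add_left (dvd_mul_right _ _)).1 h3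
  have h4 : π ^ (K + 1) ∣ π * c :=
    hπp.pow_dvd_of_dvd_mul_left (K + 1) (fun h => hσ (hπp.dvd_of_dvd_pow h)) h2
  have h5 : π ^ K ∣ c := by
    rw [pow_succ'] at h4
    exact (mul_dvd_mul_iff_left hπ.ne_zero).1 h4
  obtain ⟨c', rfl⟩ := h5
  have e2 : X * Y = algebraMap Λ B (π ^ (K + 1)) * (σ ^ 2 * algebraMap Λ B c' + H) := by
    rw [hXY]
    simp only [map_mul, map_pow]
    ring
  have hwX : w₁ (algebraMap B F X) ≤ w₁ (algebraMap B F (algebraMap Λ B π)) ^ n := by
    have h6 : w₁ (algebraMap B F X) = w₁ (algebraMap B F (X * Y)) := by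
      rw [map_mul, map_mul, hwY, mul_one]
    rw [h6, e2, map_mul, map_mul, map_pow, map_pow, map_pow]
    calc w₁ (algebraMap B F (algebraMap Λ B π)) ^ (K + 1) *
          w₁ (algebraMap B F (σ ^ 2 * algebraMap Λ B c' + H))
        ≤ w₁ (algebraMap B F (algebraMap Λ B π)) ^ (K + 1) * 1 := mul_le_mul' le_rfl (hw₁B _)
      _ = w₁ (algebraMap B F (algebraMap Λ B π)) ^ (K + 1) := mul_one _
      _ ≤ w₁ (algebraMap B F (algebraMap Λ B π)) ^ n := pow_le_pow_right_of_le_one' hle hnK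
  -- step 2: approximation of `Φ`
  obtain ⟨a, r, d, ha, hard⟩ := s35f1thB_approx π hπ φ w₁ hw₁B hw₁π hw₁π1 x hP1 X σ hσ hX n hwX
    n le_rfl Φ hΦ
  -- step 3: evaluate at the point
  have e3 : φ a * φ Φ = π ^ n * φ r + φ X * φ d := by
    have h0 := congrArg φ hard
    rw [map_mul, map_add, map_mul, map_mul, hφalg] at h0
    exact h0
  have h7 : π ^ n ∣ φ a * φ Φ := by
    rw [e3]
    exact dvd_add (dvd_mul_right _ _) (Dvd.dvd.mul_right ((pow_dvd_pow π hnK).trans hdiv) _)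
  obtain ⟨s, hs⟩ := hπp.pow_dvd_of_dvd_mul_left n ha h7
  have e4 : φ Φ * φ Φ' = ε * π ^ n := by
    have h0 := congrArg φ hΦΦ'
    rw [map_mul, hφalg] at h0
    exact h0
  rw [hs] at e4
  have h9 : s * φ Φ' = ε := by
    have h10 : π ^ n * (s * φ Φ') = π ^ n * ε := by linear_combination e4
    exact mul_left_cancel₀ (pow_ne_zero n hπ.ne_zero) h10
  have h11 : IsUnit (φ Φ') := isUnit_of_dvd_unit ⟨s, by rw [← h9]; ring⟩ hε
  exact hπ.not_isUnit (isUnit_of_dvd_unit hΦ' h11)

end Fermat.Agent.S35
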