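import Mathlib
import Fermat.Agent.S34.AbsLP
import Fermat.Agent.S34.ModelDefs
import Fermat.Agent.S34.NodeAlg
import Fermat.Agent.S35.F1Thick
set_option autoImplicit false
namespace Fermat.Agent.S35
open IsDedekindDomain
open Fermat.Agent.S34

theorem s35f1xt_isUnit_of_not_dvd {Λ : Type*} [CommRing Λ] [IsDomain Λ]
    [IsDiscreteValuationRing Λ] {π : Λ} (hπ : Irreducible π) {a : Λ} (h : ¬ π ∣ a) :
    IsUnit a := by
  by_contra hu
  have h1 : a ∈ IsLocalRing.maximalIdeal Λ := (IsLocalRing.mem_maximalIdeal a).mpr hu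
  rw [hπ.maximalIdeal_eq, Ideal.mem_span_singleton] at h1
  exact h h1

/-- the iteration in the local ring at the centre, denominators cleared, no domain
hypothesis. -/
theorem s35f1xt_base {Λ B : Type*} [CommRing Λ] [CommRing B]
    [Algebra Λ B] (π : Λ) (x y G : B)
    (hxy : x * y = algebraMap Λ B π * G) (ψ : B →+* Λ)
    (𝔪 : Ideal B) [𝔪.IsPrime] (hmem : ∀ z : B, z ∈ 𝔪 ↔ π ∣ ψ z)
    (R : Type*) [CommRing R] [Algebra B R] [IsLocalization.AtPrime R 𝔪] [Algebra Λ R]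
    [IsScalarTower Λ B R]
    (hgen_b : ∀ z : B, π ∣ ψ z → ∃ a : B, ¬ π ∣ ψ a ∧
      a * z ∈ Ideal.span {algebraMap Λ B π, x, y})
    (hres_b : ∀ r s : B, ¬ π ∣ ψ s → ∃ c : Λ, π ∣ ψ (r - algebraMap Λ B c * s)) (K : ℕ) :
    ∃ (X Y H σ : B) (c : Λ), ¬ π ∣ ψ σ ∧
      X - σ * x ∈ Ideal.span {algebraMap Λ B π} ∧
      Y - σ * y ∈ Ideal.span {algebraMap Λ B π} ∧
      X * Y = σ ^ 2 * algebraMap Λ B (π * c) + algebraMap Λ B (π ^ (K + 1)) * H := by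
  have hunit : ∀ s : B, s ∉ 𝔪 → IsUnit (algebraMap B R s) := fun s hs =>
    IsLocalization.map_units R (⟨s, hs⟩ : 𝔪.primeCompl)
  have htower : ∀ c : Λ, algebraMap Λ R c = algebraMap B R (algebraMap Λ B c) :=
    fun c => IsScalarTower.algebraMap_apply Λ B R c
  have hm : ∀ r : R, ∃ c : Λ, r - algebraMap Λ R c ∈
      Ideal.span {algebraMap Λ R π, algebraMap B R x, algebraMap B R y} := by
    intro r
    obtain ⟨r₀, s, rfl⟩ := IsLocalization.exists_mk'_eq 𝔪.primeCompl r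
    have hs : ¬ π ∣ ψ (s : B) := fun h => s.2 ((hmem _).mpr h)
    obtain ⟨c, hc⟩ := hres_b r₀ s hs
    obtain ⟨a, ha, haz⟩ := hgen_b _ hc
    refine ⟨c, ?_⟩
    have h1 : (IsLocalization.mk' R r₀ s - algebraMap Λ R c) * algebraMap B R (a * s) =
        algebraMap B R (a * (r₀ - algebraMap Λ B c * s)) := by
      have h0 := IsLocalization.mk'_spec R r₀ s
      rw [htower]
      simp only [map_mul, map_sub]
      linear_combination algebraMap B R a * h0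
    have h2 : algebraMap B R (a * (r₀ - algebraMap Λ B c * s)) ∈
        Ideal.span {algebraMap Λ R π, algebraMap B R x, algebraMap B R y} := by
      have h3 := Ideal.mem_map_of_mem (algebraMap B R) haz
      rw [Ideal.map_span] at h3
      simp only [Set.image_insert_eq, Set.image_singleton] at h3
      rw [htower]
      exact h3
    have hu : IsUnit (algebraMap B R (a * s)) := by
      apply hunit
      intro h
      rcases (Ideal.IsPrime.mem_or_mem inferInstance h) with h4 | h4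
      · exact ha ((hmem _).mp h4)
      · exact s.2 h4
    rw [← h1] at h2
    exact (Ideal.mul_unit_mem_iff_mem _ hu).mp h2
  have hxy' : algebraMap B R x * algebraMap B R y =
      algebraMap Λ R π * algebraMap B R G := by
    rw [htower, ← map_mul, ← map_mul, hxy]
  obtain ⟨X', Y', H', c, hX', hY', hXY'⟩ := node_iter_alg π (algebraMap B R x)
    (algebraMap B R y) (algebraMap B R G) hm hxy' K
  obtain ⟨u', hu'⟩ := Ideal.mem_span_singleton'.mp hX'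
  obtain ⟨v', hv'⟩ := Ideal.mem_span_singleton'.mp hY'
  obtain ⟨u, τ₁, rfl⟩ := IsLocalization.exists_mk'_eq 𝔪.primeCompl u'
  obtain ⟨v, τ₂, rfl⟩ := IsLocalization.exists_mk'_eq 𝔪.primeCompl v'
  obtain ⟨H₁, τ₃, rfl⟩ := IsLocalization.exists_mk'_eq 𝔪.primeCompl H'
  have e1 := IsLocalization.mk'_spec R u τ₁
  have e2 := IsLocalization.mk'_spec R v τ₂
  have e3 := IsLocalization.mk'_spec R H₁ τ₃
  have hloc : algebraMap B R
      (((τ₁ * τ₂ * τ₃ : B) * x + algebraMap Λ B π * (u * τ₂ * τ₃)) *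
        ((τ₁ * τ₂ * τ₃ : B) * y + algebraMap Λ B π * (v * τ₁ * τ₃))) =
      algebraMap B R ((τ₁ * τ₂ * τ₃ : B) ^ 2 * algebraMap Λ B (π * c) +
        algebraMap Λ B (π ^ (K + 1)) * (H₁ * (τ₁ : B) ^ 2 * (τ₂ : B) ^ 2 * τ₃)) := by
    simp only [map_mul, map_add, map_pow, ← htower]
    rw [← e1, ← e2, ← e3]
    have hX'' : X' = algebraMap B R x +
        IsLocalization.mk' R u τ₁ * algebraMap Λ R π := by rw [hu']; ring
    have hY'' : Y' = algebraMap B R y +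
        IsLocalization.mk' R v τ₂ * algebraMap Λ R π := by rw [hv']; ring
    rw [hX'', hY'', map_mul, map_pow] at hXY'
    linear_combination (algebraMap B R τ₁ * algebraMap B R τ₂ * algebraMap B R τ₃) ^ 2 * hXY'
  obtain ⟨s, hs⟩ := (IsLocalization.eq_iff_exists 𝔪.primeCompl R).1 hloc
  refine ⟨(s : B) * ((τ₁ * τ₂ * τ₃ : B) * x + algebraMap Λ B π * (u * τ₂ * τ₃)),
    (s : B) * ((τ₁ * τ₂ * τ₃ : B) * y + algebraMap Λ B π * (v * τ₁ * τ₃)),
    (s : B) ^ 2 * (H₁ * (τ₁ : B) ^ 2 * (τ₂ : B) ^ 2 * τ₃), (s : B) * (τ₁ * τ₂ * τ₃ : B), c,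
    ?_, ?_, ?_, ?_⟩
  · intro h
    exact (s * (τ₁ * τ₂ * τ₃)).2 ((hmem _).mpr h)
  · have : (s : B) * ((τ₁ * τ₂ * τ₃ : B) * x + algebraMap Λ B π * (u * τ₂ * τ₃)) -
        (s : B) * (τ₁ * τ₂ * τ₃ : B) * x = (s * (u * τ₂ * τ₃)) * algebraMap Λ B π := by ring
    rw [this]
    exact Ideal.mul_mem_left _ _ (Ideal.mem_span_singleton_self _)
  · have : (s : B) * ((τ₁ * τ₂ * τ₃ : B) * y + algebraMap Λ B π * (v * τ₁ * τ₃)) -
        (s : B) * (τ₁ * τ₂ * τ₃ : B) * y = (s * (v * τ₁ * τ₃)) * algebraMap Λ B π := by ring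
    rw [this]
    exact Ideal.mul_mem_left _ _ (Ideal.mem_span_singleton_self _)
  · linear_combination (s : B) * hs

section PT

variable {Bη F : Type*} [CommRing Bη] [IsDedekindDomain Bη] [Field F] [Algebra Bη F]
  [IsFractionRing Bη F]
  {Λ B : Type*} [CommRing Λ] [IsDomain Λ] [IsDiscreteValuationRing Λ] [Algebra Λ F]
  [CommRing B] [IsNoetherianRing B] [Algebra B F] [Algebra Λ B] [IsScalarTower Λ B F]

/-- (F1-XT, file `S35/F1Xtype.lean`) `X`-type of every integral point through a crossing point,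
from a thickness certificate `Φ Φ' = ε π ^ n`. -/
theorem s35f1_xtype_of_cert
    {Γ₁ : Type*} [LinearOrderedCommGroupWithZero Γ₁]
    (π : Λ) (hπ : Irreducible π)
    (𝔪 : Ideal B) [𝔪.IsPrime] (hπ𝔪 : algebraMap Λ B π ∈ 𝔪)
    (w₁ : Valuation F Γ₁)
    (hw₁B : ∀ b : B, w₁ (algebraMap B F b) ≤ 1)
    (hw₁π : w₁ (algebraMap Λ F π) ≠ 0)
    (hπ₁ : w₁ (algebraMap Λ F π) < 1)
    (h𝔪₁ : ∀ b : B, w₁ (algebraMap B F b) < 1 → b ∈ 𝔪)
    (x y G : B) (hx𝔪 : x ∈ 𝔪) (hy𝔪 : y ∈ 𝔪) (hxy : x * y = algebraMap Λ B π * G)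
    (hy₁ : w₁ (algebraMap B F y) = 1)
    (hgen : ∀ z ∈ 𝔪, ∃ a : B, a ∉ 𝔪 ∧ a * z ∈ Ideal.span {algebraMap Λ B π, x, y})
    (hP1 : ∀ f : B, w₁ (algebraMap B F f) < 1 →
      ∃ a r d : B, a ∉ 𝔪 ∧ a * f = algebraMap Λ B π * r + x * d)
    (n : ℕ) (Φ Φ' : B) (ε : Λ) (hε : IsUnit ε) (hΦΦ' : Φ * Φ' = algebraMap Λ B (ε * π ^ n))
    (hΦ : w₁ (algebraMap B F Φ) ≤ w₁ (algebraMap Λ F π) ^ n) (hΦ' : Φ' ∈ 𝔪)
    (φ : B →ₐ[Λ] Λ) (h𝔪 : 𝔪 = Ideal.comap (φ : B →+* Λ) (Ideal.span {π})) :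
    ∃ (X Y H σ : B) (d Q : Λ), ¬ π ∣ φ σ ∧
      X - σ * x ∈ Ideal.span {algebraMap Λ B π} ∧
      Y - σ * y ∈ Ideal.span {algebraMap Λ B π} ∧
      X * Y = σ ^ 2 * algebraMap Λ B d + algebraMap Λ B Q * H ∧ ¬ Q ∣ φ X := by
  have hmem : ∀ z : B, z ∈ 𝔪 ↔ π ∣ (φ : B →+* Λ) z := fun z => by
    rw [h𝔪, Ideal.mem_comap, Ideal.mem_span_singleton]
  have hmem' : ∀ z : B, z ∈ 𝔪 ↔ π ∣ φ z := hmem
  have hgen_b : ∀ z : B, π ∣ (φ : B →+* Λ) z → ∃ a : B, ¬ π ∣ (φ : B →+* Λ) a ∧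
      a * z ∈ Ideal.span {algebraMap Λ B π, x, y} := by
    intro z hz
    obtain ⟨a, ha, haz⟩ := hgen z ((hmem z).2 hz)
    exact ⟨a, fun h => ha ((hmem a).2 h), haz⟩
  have hres_b : ∀ r s : B, ¬ π ∣ (φ : B →+* Λ) s →
      ∃ c : Λ, π ∣ (φ : B →+* Λ) (r - algebraMap Λ B c * s) := by
    intro r s hs
    obtain ⟨v, hv⟩ := s35f1xt_isUnit_of_not_dvd hπ hs
    refine ⟨φ r * ((v⁻¹ : Λˣ) : Λ), ?_⟩
    have : (φ : B →+* Λ) (r - algebraMap Λ B (φ r * ((v⁻¹ : Λˣ) : Λ)) * s) = 0 := by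
      have hv' : (φ : B →+* Λ) s = φ s := rfl
      rw [hv'] at hv
      show φ (r - algebraMap Λ B (φ r * ((v⁻¹ : Λˣ) : Λ)) * s) = 0
      rw [map_sub, map_mul, AlgHom.commutes, Algebra.algebraMap_self, RingHom.id_apply, ← hv,
        mul_assoc, Units.inv_mul, mul_one, sub_self]
    rw [this]
    exact dvd_zero _
  obtain ⟨X, Y, H, σ, c, hσ, hX, hY, hXY⟩ := s35f1xt_base π x y G hxy (φ : B →+* Λ) 𝔪 hmem
    (Localization.AtPrime 𝔪) hgen_b hres_b n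
  have hσ' : ¬ π ∣ φ σ := hσ
  have hPF : algebraMap B F (algebraMap Λ B π) = algebraMap Λ F π :=
    (IsScalarTower.algebraMap_apply Λ B F π).symm
  refine ⟨X, Y, H, σ, π * c, π ^ (n + 1), hσ', hX, hY, hXY, ?_⟩
  have hσ𝔪 : σ ∉ 𝔪 := fun h => hσ' ((hmem' σ).1 h)
  have hwσ : w₁ (algebraMap B F σ) = 1 :=
    le_antisymm (hw₁B σ) (not_lt.1 (fun h => hσ𝔪 (h𝔪₁ σ h)))
  have hwY : w₁ (algebraMap B F Y) = 1 := by
    obtain ⟨e, he⟩ := Ideal.mem_span_singleton'.1 hY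
    have hYe : Y = σ * y + e * algebraMap Λ B π := by rw [he]; ring
    have h1 : w₁ (algebraMap B F (σ * y)) = 1 := by rw [map_mul, map_mul, hwσ, hy₁, one_mul]
    have h2 : w₁ (algebraMap B F (e * algebraMap Λ B π)) < 1 := by
      rw [map_mul, map_mul, hPF]
      calc w₁ (algebraMap B F e) * w₁ (algebraMap Λ F π)
          ≤ 1 * w₁ (algebraMap Λ F π) := mul_le_mul' (hw₁B e) le_rfl
        _ = w₁ (algebraMap Λ F π) := one_mul _
        _ < 1 := hπ₁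
    rw [hYe, map_add, Valuation.map_add_eq_of_lt_left _ (by rw [h1]; exact h2), h1]
  refine s35f1_thick π hπ φ w₁ hw₁B (by rw [hPF]; exact hw₁π) (by rw [hPF]; exact hπ₁) x ?_
    X Y H σ c n hσ' hX hwY hXY n (Nat.le_succ n) Φ Φ' ε hε hΦΦ' (by rw [hPF]; exact hΦ)
    ((hmem' Φ').1 hΦ')
  intro f hf
  obtain ⟨a, r, d, ha, h⟩ := hP1 f hf
  exact ⟨a, r, d, fun h' => ha ((hmem' a).2 h'), h⟩

end PT

end Fermat.Agent.S35
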