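import Mathlib
import Fermat.Agent.S34.AbsLP
import Fermat.Agent.S34.ModelDefs
import Fermat.Agent.S35.F1ThickB

/-!
# P20 (S35), block F1, leaf F1-XT (second team): `X`-type of integral points at a crossing point

From a thickness certificate `Φ Φ' = ε π ^ n`, every integral point `φ` through the crossing
point `𝔪` is of `X`-type: there are `X ≡ σ x`, `Y ≡ σ y (mod π)` with
`X Y = σ² d + Q H` and `Q ∤ φ X`.

The node iteration is performed directly in `B` (with a denominator `σ` prime to the centre),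
so no localisation is needed; the divisibility statement is `s35f1_thick_B`.
-/

set_option autoImplicit false
set_option linter.unusedSectionVars false
set_option linter.unusedVariables false

namespace Fermat.Agent.S35

open IsDedekindDomain
open Fermat.Agent.S34

/-- In a discrete valuation ring, an element not divisible by the uniformiser has an inverse. -/
theorem s35f1xtB_exists_inv {Λ : Type*} [CommRing Λ] [IsDomain Λ] [IsDiscreteValuationRing Λ]
    (π : Λ) (hπ : Irreducible π) {a : Λ} (ha : ¬ π ∣ a) : ∃ v : Λ, a * v = 1 := by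
  have hu : IsUnit a := by
    by_contra hu
    have hmem : a ∈ IsLocalRing.maximalIdeal Λ := (IsLocalRing.mem_maximalIdeal a).mpr hu
    rw [hπ.maximalIdeal_eq, Ideal.mem_span_singleton] at hmem
    exact ha hmem
  exact hu.exists_right_inv

/-- The node iteration in `B`, with a denominator `σ` which is a unit at the centre of `φ`. -/
theorem s35f1xtB_iter {Λ B : Type*} [CommRing Λ] [IsDomain Λ] [IsDiscreteValuationRing Λ]
    [CommRing B] [Algebra Λ B] (π : Λ) (hπ : Irreducible π) (φ : B →ₐ[Λ] Λ) (x y G : B)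
    (hxy : x * y = algebraMap Λ B π * G)
    (hgen : ∀ z : B, π ∣ φ z → ∃ a : B, ¬ π ∣ φ a ∧
      a * z ∈ Ideal.span {algebraMap Λ B π, x, y}) (K : ℕ) :
    ∃ (X Y H σ : B) (c : Λ), ¬ π ∣ φ σ ∧
      X - σ * x ∈ Ideal.span {algebraMap Λ B π} ∧
      Y - σ * y ∈ Ideal.span {algebraMap Λ B π} ∧
      X * Y = σ ^ 2 * algebraMap Λ B (π * c) + algebraMap Λ B (π ^ (K + 1)) * H := by
  induction K with
  | zero =>
    refine ⟨x, y, G, 1, 0, ?_, ?_, ?_, ?_⟩
    · rw [map_one]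
      exact hπ.not_dvd_one
    · rw [one_mul, sub_self]
      exact Ideal.zero_mem _
    · rw [one_mul, sub_self]
      exact Ideal.zero_mem _
    · rw [hxy, mul_zero, map_zero, mul_zero, zero_add, zero_add, pow_one]
  | succ K ih =>
    obtain ⟨X, Y, H, σ, c, hσ, hX, hY, hXY⟩ := ih
    obtain ⟨v, hv⟩ := s35f1xtB_exists_inv π hπ hσ
    -- the constant approximating `H / σ ^ 2`
    set h' : Λ := φ H * v ^ 2 with hh'
    have hz : π ∣ φ (H - σ ^ 2 * algebraMap Λ B h') := by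
      have h0 : φ (H - σ ^ 2 * algebraMap Λ B h') = 0 := by
        rw [map_sub, map_mul, map_pow, AlgHom.commutes, Algebra.algebraMap_self_apply, hh']
        linear_combination (-(φ H) * (φ σ * v + 1)) * hv
      rw [h0]
      exact dvd_zero π
    obtain ⟨a, ha, haz⟩ := hgen _ hz
    obtain ⟨α, z₁, hz₁, e₁⟩ := Ideal.mem_span_insert.mp haz
    obtain ⟨β, γ, e₂⟩ := Ideal.mem_span_pair.mp hz₁
    obtain ⟨e, he⟩ := Ideal.mem_span_singleton'.mp hX
    obtain ⟨e', he'⟩ := Ideal.mem_span_singleton'.mp hY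
    have haz' : a * (H - σ ^ 2 * algebraMap Λ B h') =
        α * algebraMap Λ B π + (β * x + γ * y) := by
      rw [e₁, e₂]
    have hXY' : X * Y = σ ^ 2 * (algebraMap Λ B π * algebraMap Λ B c) +
        algebraMap Λ B π ^ (K + 1) * H := by
      rw [hXY, map_mul, map_pow]
    refine ⟨σ * a * X - algebraMap Λ B π ^ (K + 1) * γ,
      σ * a * Y - algebraMap Λ B π ^ (K + 1) * β,
      σ * a * (σ * α - β * e - γ * e') + algebraMap Λ B π ^ K * (β * γ),
      σ * a * σ, c + π ^ K * h', ?_, ?_, ?_, ?_⟩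
    · rw [map_mul, map_mul]
      intro hdvd
      rcases hπ.prime.dvd_or_dvd hdvd with h1 | h1
      · rcases hπ.prime.dvd_or_dvd h1 with h2 | h2
        · exact hσ h2
        · exact ha h2
      · exact hσ h1
    · refine Ideal.mem_span_singleton'.mpr ⟨σ * a * e - algebraMap Λ B π ^ K * γ, ?_⟩
      linear_combination (σ * a) * he
    · refine Ideal.mem_span_singleton'.mpr ⟨σ * a * e' - algebraMap Λ B π ^ K * β, ?_⟩
      linear_combination (σ * a) * he'
    · simp only [map_mul, map_add, map_pow]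
      linear_combination (σ * a) ^ 2 * hXY' +
        (algebraMap Λ B π ^ (K + 1) * (σ * a) * σ) * haz' +
        (algebraMap Λ B π ^ (K + 1) * (σ * a) * β) * he +
        (algebraMap Λ B π ^ (K + 1) * (σ * a) * γ) * he'

section PT

variable {Bη F : Type*} [CommRing Bη] [IsDedekindDomain Bη] [Field F] [Algebra Bη F]
  [IsFractionRing Bη F]
  {Λ B : Type*} [CommRing Λ] [IsDomain Λ] [IsDiscreteValuationRing Λ] [Algebra Λ F]
  [CommRing B] [IsNoetherianRing B] [Algebra B F] [Algebra Λ B] [IsScalarTower Λ B F]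

/-- (F1-XT, second team) `X`-type of every integral point through a crossing point, from a
thickness certificate `Φ Φ' = ε π ^ n`. -/
theorem s35f1_xtype_of_cert_B
    {Γ₁ : Type*} [LinearOrderedCommGroupWithZero Γ₁]
    (π : Λ) (hπ : Irreducible π)
    (𝔪 : Ideal B) [𝔪.IsPrime] (hπ𝔪 : algebraMap Λ B π ∈ 𝔪)
    (w₁ : Valuation F Γ₁)
    (hw₁B : ∀ b : B, w₁ (algebraMap B F b) ≤ 1)
    (hw₁π : w₁ (algebraMap Λ F π) ≠ 0)
    (hπ₁ : w₁ (algebraMap Λ F π) < 1)
    (h𝔪₁ : ∀ b : B, w₁ (algebraMap B F b) < 1 → b ∈ 𝔪)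
    (x y G : B) (hx𝔪 : x ∈ 𝔪) (hy𝔪 : y ∈ 𝔪) (hxy : x * y = algebraMap Λ B π * G)
    (hy₁ : w₁ (algebraMap B F y) = 1)
    (hgen : ∀ z ∈ 𝔪, ∃ a : B, a ∉ 𝔪 ∧ a * z ∈ Ideal.span {algebraMap Λ B π, x, y})
    (hP1 : ∀ f : B, w₁ (algebraMap B F f) < 1 →
      ∃ a r d : B, a ∉ 𝔪 ∧ a * f = algebraMap Λ B π * r + x * d)
    (n : ℕ) (Φ Φ' : B) (ε : Λ) (hε : IsUnit ε) (hΦΦ' : Φ * Φ' = algebraMap Λ B (ε * π ^ n))
    (hΦ : w₁ (algebraMap B F Φ) ≤ w₁ (algebraMap Λ F π) ^ n) (hΦ' : Φ' ∈ 𝔪)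
    (φ : B →ₐ[Λ] Λ) (h𝔪 : 𝔪 = Ideal.comap (φ : B →+* Λ) (Ideal.span {π})) :
    ∃ (X Y H σ : B) (d Q : Λ), ¬ π ∣ φ σ ∧
      X - σ * x ∈ Ideal.span {algebraMap Λ B π} ∧
      Y - σ * y ∈ Ideal.span {algebraMap Λ B π} ∧
      X * Y = σ ^ 2 * algebraMap Λ B d + algebraMap Λ B Q * H ∧ ¬ Q ∣ φ X := by
  have hmem : ∀ z : B, z ∈ 𝔪 ↔ π ∣ φ z := fun z => by
    rw [h𝔪, Ideal.mem_comap, Ideal.mem_span_singleton]
    rfl
  have hπF : algebraMap B F (algebraMap Λ B π) = algebraMap Λ F π :=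
    (IsScalarTower.algebraMap_apply Λ B F π).symm
  have hgen' : ∀ z : B, π ∣ φ z → ∃ a : B, ¬ π ∣ φ a ∧
      a * z ∈ Ideal.span {algebraMap Λ B π, x, y} := by
    intro z hz
    obtain ⟨a, ha, haz⟩ := hgen z ((hmem z).mpr hz)
    exact ⟨a, fun h => ha ((hmem a).mpr h), haz⟩
  obtain ⟨X, Y, H, σ, c, hσ, hX, hY, hXY⟩ := s35f1xtB_iter π hπ φ x y G hxy hgen' n
  -- `w₁ σ = 1` and `w₁ Y = 1`
  have hwσ : w₁ (algebraMap B F σ) = 1 := by
    refine le_antisymm (hw₁B σ) ?_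
    by_contra hlt
    exact hσ ((hmem σ).mp (h𝔪₁ σ (lt_of_not_ge hlt)))
  have hwY : w₁ (algebraMap B F Y) = 1 := by
    obtain ⟨e', he'⟩ := Ideal.mem_span_singleton'.mp hY
    have hYe : Y = σ * y + e' * algebraMap Λ B π := by rw [he']; ring
    have h1 : w₁ (algebraMap B F (σ * y)) = 1 := by
      rw [map_mul, map_mul, hwσ, hy₁, one_mul]
    have h2 : w₁ (algebraMap B F (e' * algebraMap Λ B π)) < 1 := by
      rw [map_mul, map_mul, hπF]
      calc w₁ (algebraMap B F e') * w₁ (algebraMap Λ F π)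
          ≤ 1 * w₁ (algebraMap Λ F π) := mul_le_mul_left (hw₁B e') _
        _ = w₁ (algebraMap Λ F π) := one_mul _
        _ < 1 := hπ₁
    rw [hYe, map_add, Valuation.map_add_eq_of_lt_left, h1]
    rw [h1]
    exact h2
  have hP1' : ∀ f : B, w₁ (algebraMap B F f) < 1 →
      ∃ a r d : B, ¬ π ∣ φ a ∧ a * f = algebraMap Λ B π * r + x * d := by
    intro f hf
    obtain ⟨a, r, d, ha, hard⟩ := hP1 f hf
    exact ⟨a, r, d, fun h => ha ((hmem a).mpr h), hard⟩
  have hthick : ¬ π ^ (n + 1) ∣ φ X :=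
    s35f1_thick_B π hπ φ w₁ hw₁B (by rw [hπF]; exact hw₁π) (by rw [hπF]; exact hπ₁) x hP1'
      X Y H σ c n hσ hX hwY hXY n (Nat.le_succ n) Φ Φ' ε hε hΦΦ' (by rw [hπF]; exact hΦ)
      ((hmem Φ').mp hΦ')
  exact ⟨X, Y, H, σ, π * c, π ^ (n + 1), hσ, hX, hY, hXY, hthick⟩

end PT

end Fermat.Agent.S35
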