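import Mathlib

/-!
# P20 (S35), block F1-CONC, leaf L2: restriction of an automorphism to a chart ring (abstract)

`F` a field, `Λ` a ring with `Algebra Λ F`, `t : F`, and `τ : F ≃+* F` with `τ t = t` such that
`τ` and `τ⁻¹` preserve the image of `Λ`.  Then `τ` restricts to a ring automorphism
`s35f1c_sB τ t ..` of the integral closure `B` of `Λ[t]` in `F`:

* `coe_s35f1c_sB` : the underlying map;
* `s35f1c_hs` : elementwise form (hypothesis `hs𝔪` of `s35f1_point` for `𝔪' := sB⁻¹ 𝔪`);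
* `s35f1c_comap_isMaximal` : `sB⁻¹ 𝔪` is maximal;
* `s35f1c_pi_mem_comap` : `π ∈ sB⁻¹ 𝔪` when `π ∈ 𝔪` and `τ π ∈ π Λ`;
* `s35f1c_tau_pi` : in a DVR `Λ`, `τ π ∈ π Λ` holds for a uniformiser `π`.
-/

set_option autoImplicit false

namespace Fermat.Agent.S35

section L2

variable {Λ F : Type*} [CommRing Λ] [Field F] [Algebra Λ F]

/-- A ring endomorphism of `F` fixing `t` and preserving the image of `Λ` preserves `Λ[t]`. -/
theorem s35f1ca_map_mem_adjoin (τ : F →+* F) {t : F} (ht : τ t = t)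
    (hR : ∀ c : Λ, ∃ c' : Λ, τ (algebraMap Λ F c) = algebraMap Λ F c') {a : F}
    (ha : a ∈ Algebra.adjoin Λ {t}) : τ a ∈ Algebra.adjoin Λ {t} := by
  induction ha using Algebra.adjoin_induction with
  | mem x hx =>
    rw [Set.mem_singleton_iff] at hx
    rw [hx, ht]
    exact Algebra.self_mem_adjoin_singleton Λ t
  | algebraMap r =>
    obtain ⟨c', hc'⟩ := hR r
    rw [hc']
    exact Subalgebra.algebraMap_mem _ c'
  | add x y _ _ hx hy => rw [map_add]; exact Subalgebra.add_mem _ hx hy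
  | mul x y _ _ hx hy => rw [map_mul]; exact Subalgebra.mul_mem _ hx hy

/-- A ring endomorphism of `F` fixing `t` and preserving the image of `Λ` preserves integrality
over `Λ[t]`. -/
theorem s35f1ca_isIntegral_map_adjoin (τ : F →+* F) {t : F} (ht : τ t = t)
    (hR : ∀ c : Λ, ∃ c' : Λ, τ (algebraMap Λ F c) = algebraMap Λ F c') {y : F}
    (hy : IsIntegral (Algebra.adjoin Λ {t}) y) : IsIntegral (Algebra.adjoin Λ {t}) (τ y) := by
  let φ : ↥(Algebra.adjoin Λ {t}) →+* ↥(Algebra.adjoin Λ {t}) :=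
    (τ.comp (algebraMap ↥(Algebra.adjoin Λ {t}) F)).codRestrict (Algebra.adjoin Λ {t})
      (fun a => s35f1ca_map_mem_adjoin τ ht hR a.2)
  exact IsIntegral.map_of_comp_eq (R := ↥(Algebra.adjoin Λ {t})) (S := F)
    (T := ↥(Algebra.adjoin Λ {t})) (U := F) φ τ (by ext x; rfl) hy

/-- The inverse of an automorphism fixing `t` fixes `t`. -/
theorem s35f1ca_symm_fix (τ : F ≃+* F) {t : F} (hτt : τ t = t) : τ.symm t = t := by
  rw [← hτt, RingEquiv.symm_apply_apply, hτt]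

/-- The restriction of `τ` to the integral closure of `Λ[t]` (`τ t = t`, `τ` and `τ⁻¹` preserve
the image of `Λ`). -/
noncomputable def s35f1c_sB (τ : F ≃+* F) (t : F) (hτt : τ t = t)
    (hτΛ : ∀ c : Λ, ∃ c' : Λ, τ (algebraMap Λ F c) = algebraMap Λ F c')
    (hτΛs : ∀ c : Λ, ∃ c' : Λ, τ.symm (algebraMap Λ F c) = algebraMap Λ F c') :
    ↥(integralClosure (Algebra.adjoin Λ {t}) F) ≃+* ↥(integralClosure (Algebra.adjoin Λ {t}) F) :=
  { toFun := fun b => ⟨τ (b : F), s35f1ca_isIntegral_map_adjoin (τ : F →+* F) hτt hτΛ b.2⟩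
    invFun := fun b => ⟨τ.symm (b : F),
      s35f1ca_isIntegral_map_adjoin (τ.symm : F →+* F) (s35f1ca_symm_fix τ hτt) hτΛs b.2⟩
    left_inv := fun b => Subtype.ext (τ.symm_apply_apply (b : F))
    right_inv := fun b => Subtype.ext (τ.apply_symm_apply (b : F))
    map_mul' := fun a b => Subtype.ext (map_mul τ (a : F) (b : F))
    map_add' := fun a b => Subtype.ext (map_add τ (a : F) (b : F)) }

theorem coe_s35f1c_sB (τ : F ≃+* F) (t : F) (hτt : τ t = t)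
    (hτΛ : ∀ c : Λ, ∃ c' : Λ, τ (algebraMap Λ F c) = algebraMap Λ F c')
    (hτΛs : ∀ c : Λ, ∃ c' : Λ, τ.symm (algebraMap Λ F c) = algebraMap Λ F c')
    (b : ↥(integralClosure (Algebra.adjoin Λ {t}) F)) :
    ((s35f1c_sB τ t hτt hτΛ hτΛs b : ↥(integralClosure (Algebra.adjoin Λ {t}) F)) : F) =
      τ (b : F) := by
  rfl

/-- `hs𝔪` of `s35f1_point` for `𝔪' := s2⁻¹ 𝔪`. -/
theorem s35f1c_hs (τ : F ≃+* F) (t : F) (hτt : τ t = t)
    (hτΛ : ∀ c : Λ, ∃ c' : Λ, τ (algebraMap Λ F c) = algebraMap Λ F c')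
    (hτΛs : ∀ c : Λ, ∃ c' : Λ, τ.symm (algebraMap Λ F c) = algebraMap Λ F c')
    (𝔪 : Ideal ↥(integralClosure (Algebra.adjoin Λ {t}) F))
    (b : ↥(integralClosure (Algebra.adjoin Λ {t}) F)) :
    ∃ b' : ↥(integralClosure (Algebra.adjoin Λ {t}) F),
      algebraMap ↥(integralClosure (Algebra.adjoin Λ {t}) F) F b' =
        τ (algebraMap ↥(integralClosure (Algebra.adjoin Λ {t}) F) F b) ∧
      (b' ∈ 𝔪 → b ∈ 𝔪.comap (s35f1c_sB τ t hτt hτΛ hτΛs).toRingHom) := by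
  refine ⟨s35f1c_sB τ t hτt hτΛ hτΛs b, rfl, fun h => ?_⟩
  rw [Ideal.mem_comap]
  exact h

theorem s35f1c_comap_isMaximal (τ : F ≃+* F) (t : F) (hτt : τ t = t)
    (hτΛ : ∀ c : Λ, ∃ c' : Λ, τ (algebraMap Λ F c) = algebraMap Λ F c')
    (hτΛs : ∀ c : Λ, ∃ c' : Λ, τ.symm (algebraMap Λ F c) = algebraMap Λ F c')
    (𝔪 : Ideal ↥(integralClosure (Algebra.adjoin Λ {t}) F)) (h𝔪 : 𝔪.IsMaximal) :
    (𝔪.comap (s35f1c_sB τ t hτt hτΛ hτΛs).toRingHom).IsMaximal := by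
  exact Ideal.comap_isMaximal_of_surjective (s35f1c_sB τ t hτt hτΛ hτΛs).toRingHom
    (s35f1c_sB τ t hτt hτΛ hτΛs).surjective

/-- `π ∈ s2⁻¹ 𝔪` (for `π` with `τ⁻¹ π ∈ π Λ`, e.g. `Λ` a DVR with uniformiser `π`). -/
theorem s35f1c_pi_mem_comap (τ : F ≃+* F) (t : F) (hτt : τ t = t)
    (hτΛ : ∀ c : Λ, ∃ c' : Λ, τ (algebraMap Λ F c) = algebraMap Λ F c')
    (hτΛs : ∀ c : Λ, ∃ c' : Λ, τ.symm (algebraMap Λ F c) = algebraMap Λ F c')
    (π : Λ) (hπ : ∃ c : Λ, τ (algebraMap Λ F π) = algebraMap Λ F (π * c))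
    (𝔪 : Ideal ↥(integralClosure (Algebra.adjoin Λ {t}) F))
    (hπ𝔪 : algebraMap Λ ↥(integralClosure (Algebra.adjoin Λ {t}) F) π ∈ 𝔪) :
    algebraMap Λ ↥(integralClosure (Algebra.adjoin Λ {t}) F) π ∈
      𝔪.comap (s35f1c_sB τ t hτt hτΛ hτΛs).toRingHom := by
  obtain ⟨c, hc⟩ := hπ
  have h : s35f1c_sB τ t hτt hτΛ hτΛs
      (algebraMap Λ ↥(integralClosure (Algebra.adjoin Λ {t}) F) π) =
      algebraMap Λ ↥(integralClosure (Algebra.adjoin Λ {t}) F) π *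
        algebraMap Λ ↥(integralClosure (Algebra.adjoin Λ {t}) F) c := by
    apply Subtype.ext
    rw [← map_mul]
    exact hc
  rw [Ideal.mem_comap]
  change s35f1c_sB τ t hτt hτΛ hτΛs
    (algebraMap Λ ↥(integralClosure (Algebra.adjoin Λ {t}) F) π) ∈ 𝔪
  rw [h]
  exact 𝔪.mul_mem_right _ hπ𝔪

/-- in a DVR an injective-on-`F` automorphism preserving `Λ` both ways maps `π` to `π · unit`. -/
theorem s35f1c_tau_pi [IsDomain Λ] [IsDiscreteValuationRing Λ] [FaithfulSMul Λ F] (τ : F ≃+* F)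
    (hτΛ : ∀ c : Λ, ∃ c' : Λ, τ (algebraMap Λ F c) = algebraMap Λ F c')
    (hτΛs : ∀ c : Λ, ∃ c' : Λ, τ.symm (algebraMap Λ F c) = algebraMap Λ F c')
    (π : Λ) (hπ : Irreducible π) :
    ∃ c : Λ, τ (algebraMap Λ F π) = algebraMap Λ F (π * c) := by
  obtain ⟨c', hc'⟩ := hτΛ π
  have hinj : Function.Injective (algebraMap Λ F) := FaithfulSMul.algebraMap_injective Λ F
  have hnu : ¬ IsUnit c' := by
    intro hu
    obtain ⟨d, hd⟩ := hu.exists_right_inv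
    obtain ⟨d', hd'⟩ := hτΛs d
    have h1 : τ.symm (algebraMap Λ F c') = algebraMap Λ F π := by
      rw [← hc', RingEquiv.symm_apply_apply]
    have h2 : algebraMap Λ F (π * d') = algebraMap Λ F 1 := by
      rw [map_mul, ← h1, ← hd', ← map_mul, ← map_mul, hd, map_one, map_one]
    exact hπ.not_isUnit (IsUnit.of_mul_eq_one _ (hinj h2))
  have hmem : c' ∈ IsLocalRing.maximalIdeal Λ := (IsLocalRing.mem_maximalIdeal c').2 hnu
  rw [(IsDiscreteValuationRing.irreducible_iff_uniformizer π).1 hπ,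
    Ideal.mem_span_singleton] at hmem
  obtain ⟨c, rfl⟩ := hmem
  exact ⟨c, hc'⟩

end L2

end Fermat.Agent.S35
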