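import Mathlib

/-!
# P20 (S35), F1-CONC, leaf L2 (second team): restriction of an automorphism to a chart ring

`τ : F ≃+* F` with `τ t = t`, `τ` and `τ⁻¹` preserving the image of `Λ`: `τ` restricts to a ring
automorphism `s35f1c_sB_B` of `integralClosure Λ[t] F`.  Statements of note 950 §L2, names
suffixed `_B`.
-/

set_option autoImplicit false

namespace Fermat.Agent.S35

section L2

variable {Λ F : Type*} [CommRing Λ] [Field F] [Algebra Λ F]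

/-- `τ` preserves `Λ[t]`. -/
theorem s35f1caB_mem_adjoin (τ : F ≃+* F) (t : F) (hτt : τ t = t)
    (hτΛ : ∀ c : Λ, ∃ c' : Λ, τ (algebraMap Λ F c) = algebraMap Λ F c')
    (x : F) (hx : x ∈ Algebra.adjoin Λ {t}) : τ x ∈ Algebra.adjoin Λ {t} := by
  induction hx using Algebra.adjoin_induction with
  | mem y hy =>
    rw [Set.mem_singleton_iff] at hy
    rw [hy, hτt]
    exact Algebra.subset_adjoin (Set.mem_singleton t)
  | algebraMap c =>
    obtain ⟨c', hc'⟩ := hτΛ c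
    rw [hc']
    exact Subalgebra.algebraMap_mem _ _
  | add y z _ _ hy hz =>
    rw [map_add]
    exact Subalgebra.add_mem _ hy hz
  | mul y z _ _ hy hz =>
    rw [map_mul]
    exact Subalgebra.mul_mem _ hy hz

/-- `τ` preserves integrality over `Λ[t]`. -/
theorem s35f1caB_isIntegral (τ : F ≃+* F) (t : F) (hτt : τ t = t)
    (hτΛ : ∀ c : Λ, ∃ c' : Λ, τ (algebraMap Λ F c) = algebraMap Λ F c')
    (x : F) (hx : IsIntegral ↥(Algebra.adjoin Λ {t}) x) :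
    IsIntegral ↥(Algebra.adjoin Λ {t}) (τ x) := by
  let φ : ↥(Algebra.adjoin Λ {t}) →+* ↥(Algebra.adjoin Λ {t}) :=
    ((τ : F →+* F).comp (Algebra.adjoin Λ {t}).val.toRingHom).codRestrict (Algebra.adjoin Λ {t})
      (fun y => s35f1caB_mem_adjoin τ t hτt hτΛ y y.2)
  exact IsIntegral.map_of_comp_eq φ (τ : F →+* F) (RingHom.ext fun y => rfl) hx

theorem s35f1caB_symm_t (τ : F ≃+* F) (t : F) (hτt : τ t = t) : τ.symm t = t := by
  conv_lhs => rw [← hτt]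
  exact τ.symm_apply_apply t

/-- The restriction of `τ` to the integral closure of `Λ[t]`. -/
noncomputable def s35f1c_sB_B (τ : F ≃+* F) (t : F) (hτt : τ t = t)
    (hτΛ : ∀ c : Λ, ∃ c' : Λ, τ (algebraMap Λ F c) = algebraMap Λ F c')
    (hτΛs : ∀ c : Λ, ∃ c' : Λ, τ.symm (algebraMap Λ F c) = algebraMap Λ F c') :
    ↥(integralClosure (Algebra.adjoin Λ {t}) F) ≃+*
      ↥(integralClosure (Algebra.adjoin Λ {t}) F) where
  toFun b := ⟨τ (b : F), s35f1caB_isIntegral τ t hτt hτΛ _ b.2⟩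
  invFun b := ⟨τ.symm (b : F),
    s35f1caB_isIntegral τ.symm t (s35f1caB_symm_t τ t hτt) hτΛs _ b.2⟩
  left_inv _ := Subtype.ext (τ.symm_apply_apply _)
  right_inv _ := Subtype.ext (τ.apply_symm_apply _)
  map_mul' _ _ := Subtype.ext (map_mul τ _ _)
  map_add' _ _ := Subtype.ext (map_add τ _ _)

theorem coe_s35f1c_sB_B (τ : F ≃+* F) (t : F) (hτt : τ t = t)
    (hτΛ : ∀ c : Λ, ∃ c' : Λ, τ (algebraMap Λ F c) = algebraMap Λ F c')
    (hτΛs : ∀ c : Λ, ∃ c' : Λ, τ.symm (algebraMap Λ F c) = algebraMap Λ F c')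
    (b : ↥(integralClosure (Algebra.adjoin Λ {t}) F)) :
    ((s35f1c_sB_B τ t hτt hτΛ hτΛs b : ↥(integralClosure (Algebra.adjoin Λ {t}) F)) : F) =
      τ (b : F) := rfl

/-- `hs𝔪` of `s35f1_point` for `𝔪' := s2⁻¹ 𝔪`. -/
theorem s35f1c_hs_B (τ : F ≃+* F) (t : F) (hτt : τ t = t)
    (hτΛ : ∀ c : Λ, ∃ c' : Λ, τ (algebraMap Λ F c) = algebraMap Λ F c')
    (hτΛs : ∀ c : Λ, ∃ c' : Λ, τ.symm (algebraMap Λ F c) = algebraMap Λ F c')
    (𝔪 : Ideal ↥(integralClosure (Algebra.adjoin Λ {t}) F))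
    (b : ↥(integralClosure (Algebra.adjoin Λ {t}) F)) :
    ∃ b' : ↥(integralClosure (Algebra.adjoin Λ {t}) F),
      algebraMap ↥(integralClosure (Algebra.adjoin Λ {t}) F) F b' =
        τ (algebraMap ↥(integralClosure (Algebra.adjoin Λ {t}) F) F b) ∧
      (b' ∈ 𝔪 → b ∈ 𝔪.comap (s35f1c_sB_B τ t hτt hτΛ hτΛs).toRingHom) :=
  ⟨s35f1c_sB_B τ t hτt hτΛ hτΛs b, rfl, fun h => h⟩

theorem s35f1c_comap_isMaximal_B (τ : F ≃+* F) (t : F) (hτt : τ t = t)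
    (hτΛ : ∀ c : Λ, ∃ c' : Λ, τ (algebraMap Λ F c) = algebraMap Λ F c')
    (hτΛs : ∀ c : Λ, ∃ c' : Λ, τ.symm (algebraMap Λ F c) = algebraMap Λ F c')
    (𝔪 : Ideal ↥(integralClosure (Algebra.adjoin Λ {t}) F)) (h𝔪 : 𝔪.IsMaximal) :
    (𝔪.comap (s35f1c_sB_B τ t hτt hτΛ hτΛs).toRingHom).IsMaximal :=
  Ideal.comap_isMaximal_of_surjective _ (s35f1c_sB_B τ t hτt hτΛ hτΛs).surjective

/-- `π ∈ s2⁻¹ 𝔪` (for `π` with `τ π ∈ π Λ`). -/
theorem s35f1c_pi_mem_comap_B (τ : F ≃+* F) (t : F) (hτt : τ t = t)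
    (hτΛ : ∀ c : Λ, ∃ c' : Λ, τ (algebraMap Λ F c) = algebraMap Λ F c')
    (hτΛs : ∀ c : Λ, ∃ c' : Λ, τ.symm (algebraMap Λ F c) = algebraMap Λ F c')
    (π : Λ) (hπ : ∃ c : Λ, τ (algebraMap Λ F π) = algebraMap Λ F (π * c))
    (𝔪 : Ideal ↥(integralClosure (Algebra.adjoin Λ {t}) F))
    (hπ𝔪 : algebraMap Λ ↥(integralClosure (Algebra.adjoin Λ {t}) F) π ∈ 𝔪) :
    algebraMap Λ ↥(integralClosure (Algebra.adjoin Λ {t}) F) π ∈
      𝔪.comap (s35f1c_sB_B τ t hτt hτΛ hτΛs).toRingHom := by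
  obtain ⟨c, hc⟩ := hπ
  rw [Ideal.mem_comap]
  have h : (s35f1c_sB_B τ t hτt hτΛ hτΛs).toRingHom
      (algebraMap Λ ↥(integralClosure (Algebra.adjoin Λ {t}) F) π) =
      algebraMap Λ ↥(integralClosure (Algebra.adjoin Λ {t}) F) π *
        algebraMap Λ ↥(integralClosure (Algebra.adjoin Λ {t}) F) c := by
    apply Subtype.ext
    show τ (algebraMap Λ F π) = algebraMap Λ F π * algebraMap Λ F c
    rw [hc, map_mul]
  rw [h]
  exact Ideal.mul_mem_right _ _ hπ𝔪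

/-- In a DVR an automorphism of `F` preserving `Λ` both ways maps `π` to `π · c`. -/
theorem s35f1c_tau_pi_B [IsDomain Λ] [IsDiscreteValuationRing Λ] [FaithfulSMul Λ F]
    (τ : F ≃+* F)
    (hτΛ : ∀ c : Λ, ∃ c' : Λ, τ (algebraMap Λ F c) = algebraMap Λ F c')
    (hτΛs : ∀ c : Λ, ∃ c' : Λ, τ.symm (algebraMap Λ F c) = algebraMap Λ F c')
    (π : Λ) (hπ : Irreducible π) :
    ∃ c : Λ, τ (algebraMap Λ F π) = algebraMap Λ F (π * c) := by
  obtain ⟨π', hπ'⟩ := hτΛ π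
  by_cases hdvd : π ∣ π'
  · obtain ⟨c, rfl⟩ := hdvd
    exact ⟨c, hπ'⟩
  · exfalso
    have hu : IsUnit π' := by
      rw [← IsLocalRing.notMem_maximalIdeal, hπ.maximalIdeal_eq, Ideal.mem_span_singleton]
      exact hdvd
    obtain ⟨e, he⟩ := hu.exists_right_inv
    obtain ⟨d, hd⟩ := hτΛs e
    have h1 : algebraMap Λ F (π * d) = algebraMap Λ F 1 := by
      rw [map_mul, ← hd, map_one]
      have h2 : algebraMap Λ F π = τ.symm (algebraMap Λ F π') := by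
        rw [← hπ', τ.symm_apply_apply]
      rw [h2, ← map_mul, ← map_mul, he, map_one, map_one]
    have h3 : π * d = 1 := FaithfulSMul.algebraMap_injective Λ F h1
    exact hπ.not_isUnit (IsUnit.of_mul_eq_one _ h3)

end L2

end Fermat.Agent.S35
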