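import Mathlib
import Fermat.Agent.S34.GeoPT
import Fermat.Agent.S35.F1Val
import Fermat.Agent.S35.F1cAut
import Fermat.Agent.S35.F1cSigFin

/-!
# P20 (S35), block F1-CONC, leaf L9a (second team): crossing points of the fin chart are fixed
by `(Frobenius lift)²` — concrete chart ring

`B = integralClosure Λ[j]` in `F_{Mq}`.  For a `Λ`-point `ψ` of `B` whose closed point
`𝔪 = ψ⁻¹(π)` lies on both vertical components (`h1`, `h2` in valuation form), `𝔪` is stable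
under the restriction `sB` of `s2 = (arithmetic lift of φ)²` to `B`.  Wrapper of
`s35f1c_cross_stable_fin` (leaf L4).
-/

set_option autoImplicit false

namespace Fermat.Agent.S35

open ModularCurve AlgebraicCurve Polynomial IsDedekindDomain
open Fermat.Agent.S18 Fermat.Agent.S28 Fermat.Agent.S28.FreeBasisAbs Fermat.Agent.S34

variable {L k : Type*} [Field L] [Algebra ℚ L] [Field k] {Λ : Subring L} {π : L}
  {res : ↥Λ →+* k}

set_option synthInstance.maxHeartbeats 400000 in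
set_option maxHeartbeats 1000000 in
/-- (L9a, second team) **crossing points of the fin chart are fixed by
`s2 = (Frobenius lift)²`**, concrete chart ring `B = integralClosure Λ[j]` of `F_{Mq}`. -/
theorem s35f1c_cross_fixed_fin_B [CharZero L] [IsDiscreteValuationRing ↥Λ] [IsFractionRing ↥Λ L]
    (ι : L →+* ℂ) (M q : ℕ) [NeZero M] [NeZero q] (hcop : Nat.Coprime M q)
    [IsScalarTower ↥Λ L (Fermat.Agent.S24.FFL L (M * q))]
    (hΛ : IsGaussRing Λ π res) (hq : q.Prime) [CharP k q]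
    (ζ : Lˣ) (hζ : IsPrimitiveRoot ζ q) (hζΛ : (ζ : L) ∈ Λ)
    (φ : L ≃ₐ[ℚ] L) (hφΛ : ∀ a ∈ Λ, φ a ∈ Λ) (hφΛs : ∀ a ∈ Λ, φ.symm a ∈ Λ)
    (hφ : ∀ a : ↥Λ, res ⟨φ a, hφΛ a a.2⟩ = res a ^ q)
    (hM : S34MstarAt Λ M (GaussL.piL hΛ))
    (s2 : Fermat.Agent.S24.FFL L (M * q) ≃+* Fermat.Agent.S24.FFL L (M * q))
    (hs2 : ∀ f, s2 f = arithmeticRingAut (modularFunctionFieldFull (M * q)) φ
      (arithmeticRingAut (modularFunctionFieldFull (M * q)) φ f))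
    (hs2t : s2 (Fermat.Agent.S24.jL L (M * q)) = Fermat.Agent.S24.jL L (M * q))
    (hs2Λ : ∀ c : ↥Λ, ∃ c' : ↥Λ, s2 (algebraMap ↥Λ (Fermat.Agent.S24.FFL L (M * q)) c) =
      algebraMap ↥Λ (Fermat.Agent.S24.FFL L (M * q)) c')
    (hs2Λs : ∀ c : ↥Λ, ∃ c' : ↥Λ, s2.symm (algebraMap ↥Λ (Fermat.Agent.S24.FFL L (M * q)) c) =
      algebraMap ↥Λ (Fermat.Agent.S24.FFL L (M * q)) c')
    (𝔪 : Ideal ↥(integralClosure (Algebra.adjoin ↥Λ {Fermat.Agent.S24.jL L (M * q)})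
      (Fermat.Agent.S24.FFL L (M * q))))
    (ψ : ↥(integralClosure (Algebra.adjoin ↥Λ {Fermat.Agent.S24.jL L (M * q)})
      (Fermat.Agent.S24.FFL L (M * q))) →ₐ[↥Λ] ↥Λ)
    (h𝔪 : 𝔪 = Ideal.comap (ψ : ↥(integralClosure (Algebra.adjoin ↥Λ
      {Fermat.Agent.S24.jL L (M * q)}) (Fermat.Agent.S24.FFL L (M * q))) →+* ↥Λ)
      (Ideal.span {GaussL.piL hΛ}))
    (h1 : ∀ b : ↥(integralClosure (Algebra.adjoin ↥Λ {Fermat.Agent.S24.jL L (M * q)})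
      (Fermat.Agent.S24.FFL L (M * q))),
      s35valW₁ hΛ (M * q) (b : Fermat.Agent.S24.FFL L (M * q)) < 1 → b ∈ 𝔪)
    (h2 : ∀ b : ↥(integralClosure (Algebra.adjoin ↥Λ {Fermat.Agent.S24.jL L (M * q)})
      (Fermat.Agent.S24.FFL L (M * q))),
      s35valW₂ hΛ ι M q hcop (b : Fermat.Agent.S24.FFL L (M * q)) < 1 → b ∈ 𝔪) :
    Ideal.comap (s35f1c_sB s2 (Fermat.Agent.S24.jL L (M * q)) hs2t hs2Λ hs2Λs).toRingHom 𝔪 =
      𝔪 := by
  have hmem : ∀ x : ↥(integralClosure (Algebra.adjoin ↥Λ {Fermat.Agent.S24.jL L (M * q)})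
      (Fermat.Agent.S24.FFL L (M * q))), x ∈ 𝔪 ↔ GaussL.piL hΛ ∣ ψ x := fun x => by
    rw [h𝔪, Ideal.mem_comap, Ideal.mem_span_singleton]
    rfl
  have key := s35f1c_cross_stable_fin ι M q hcop hΛ hq ζ hζ hζΛ φ hφΛ hφΛs hφ
    (A := ↥(integralClosure (Algebra.adjoin ↥Λ {Fermat.Agent.S24.jL L M})
      (Fermat.Agent.S24.FFL L M)))
    (B := ↥(integralClosure (Algebra.adjoin ↥Λ {Fermat.Agent.S24.jL L (M * q)})
      (Fermat.Agent.S24.FFL L (M * q))))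
    (algebraMap _ _) (algebraMap _ _) Subtype.val_injective Subtype.val_injective
    (fun c => rfl) (fun c => rfl)
    (fun z => ⟨fun ⟨a, ha⟩ => ha ▸ a.2, fun hz => ⟨⟨z, hz⟩, rfl⟩⟩)
    (fun z => ⟨fun ⟨a, ha⟩ => ha ▸ a.2, fun hz => ⟨⟨z, hz⟩, rfl⟩⟩)
    (fun 𝔐 h𝔐 hπ => hM.1 𝔐 h𝔐 hπ) ψ
    (fun b ⟨hb, hred⟩ => (hmem b).mp (h1 b
      ((s35val_w₁_lt_one_iff_redInf hΛ ι M q hcop ⟨_, hb⟩).mpr hred)))
    (fun b ⟨hb, hred⟩ => (hmem b).mp (h2 b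
      ((s35val_w₂_lt_one_iff_redZero hΛ ι M q hcop ⟨_, hb⟩).mpr hred)))
  ext b
  rw [Ideal.mem_comap, hmem, hmem]
  exact key b (s35f1c_sB s2 (Fermat.Agent.S24.jL L (M * q)) hs2t hs2Λ hs2Λs b) (hs2 _)

end Fermat.Agent.S35
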