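import Mathlib
import Fermat.Agent.S34.GeoPT
import Fermat.Agent.S35.F1Val
import Fermat.Agent.S35.F1cAut
import Fermat.Agent.S35.F1cSigInf

/-!
# P20 (S35), block F1-CONC, leaf L9b: crossing points of the cusp chart are fixed by `s2`

Concrete chart ring `B = integralClosure Λ[j⁻¹]` of `F_{Mq} = FFL L (M * q)`, `s2` the square of
the coefficientwise Frobenius lift, `sB = s35f1c_sB s2 j⁻¹ ..` its restriction to `B`.  If `𝔪`
is the centre `ψ⁻¹(π)` of a `Λ`-point `ψ` of `B` through the cusp `j⁻¹ = 0` and both vertical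
primes `{w₁ < 1}`, `{w₂ < 1}` lie in `𝔪` (a crossing point), then `sB⁻¹ 𝔪 = 𝔪`.

Wrapper of `s35f1c_cross_stable_inf` (leaf L5) on the concrete chart rings, as at the end of
`S34/GeoPT.lean` (`geo_hpt_inf`); statement = note 978 (L9b) verbatim.
-/

set_option autoImplicit false

namespace Fermat.Agent.S35

open ModularCurve AlgebraicCurve Polynomial IsDedekindDomain
open Fermat.Agent.S18 Fermat.Agent.S28 Fermat.Agent.S28.FreeBasisAbs Fermat.Agent.S34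

variable {L k : Type*} [Field L] [Algebra ℚ L] [Field k] {Λ : Subring L} {π : L}
  {res : ↥Λ →+* k}

set_option synthInstance.maxHeartbeats 400000 in
set_option maxHeartbeats 1000000 in
/-- (L9b) **crossing points of the cusp chart are fixed by `s2 = (Frobenius lift)²`**, concrete
chart ring `B = integralClosure Λ[j⁻¹]` of `F_{Mq}`, at a point through the cusp `j⁻¹ = 0`. -/
theorem s35f1c_cross_fixed_inf [CharZero L] [IsDiscreteValuationRing ↥Λ] [IsFractionRing ↥Λ L]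
    (ι : L →+* ℂ) (M q : ℕ) [NeZero M] [NeZero q] (hcop : Nat.Coprime M q)
    [IsScalarTower ↥Λ L (Fermat.Agent.S24.FFL L (M * q))]
    (hΛ : IsGaussRing Λ π res) (hq : q.Prime) [CharP k q]
    (ζ : Lˣ) (hζ : IsPrimitiveRoot ζ q) (hζΛ : (ζ : L) ∈ Λ)
    (φ : L ≃ₐ[ℚ] L) (hφΛ : ∀ a ∈ Λ, φ a ∈ Λ) (hφΛs : ∀ a ∈ Λ, φ.symm a ∈ Λ)
    (hφ : ∀ a : ↥Λ, res ⟨φ a, hφΛ a a.2⟩ = res a ^ q)
    (hM : S34MstarAt Λ M (GaussL.piL hΛ))
    (s2 : Fermat.Agent.S24.FFL L (M * q) ≃+* Fermat.Agent.S24.FFL L (M * q))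
    (hs2 : ∀ f, s2 f = arithmeticRingAut (modularFunctionFieldFull (M * q)) φ
      (arithmeticRingAut (modularFunctionFieldFull (M * q)) φ f))
    (hs2t : s2 (Fermat.Agent.S24.jL L (M * q))⁻¹ = (Fermat.Agent.S24.jL L (M * q))⁻¹)
    (hs2Λ : ∀ c : ↥Λ, ∃ c' : ↥Λ, s2 (algebraMap ↥Λ (Fermat.Agent.S24.FFL L (M * q)) c) =
      algebraMap ↥Λ (Fermat.Agent.S24.FFL L (M * q)) c')
    (hs2Λs : ∀ c : ↥Λ, ∃ c' : ↥Λ, s2.symm (algebraMap ↥Λ (Fermat.Agent.S24.FFL L (M * q)) c) =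
      algebraMap ↥Λ (Fermat.Agent.S24.FFL L (M * q)) c')
    (𝔪 : Ideal ↥(integralClosure (Algebra.adjoin ↥Λ {(Fermat.Agent.S24.jL L (M * q))⁻¹})
      (Fermat.Agent.S24.FFL L (M * q))))
    (hcusp : ∃ a : ↥(integralClosure (Algebra.adjoin ↥Λ {(Fermat.Agent.S24.jL L (M * q))⁻¹})
      (Fermat.Agent.S24.FFL L (M * q))),
      (a : Fermat.Agent.S24.FFL L (M * q)) = (Fermat.Agent.S24.jL L (M * q))⁻¹ ∧ a ∈ 𝔪)
    (ψ : ↥(integralClosure (Algebra.adjoin ↥Λ {(Fermat.Agent.S24.jL L (M * q))⁻¹})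
      (Fermat.Agent.S24.FFL L (M * q))) →ₐ[↥Λ] ↥Λ)
    (h𝔪 : 𝔪 = Ideal.comap (ψ : ↥(integralClosure (Algebra.adjoin ↥Λ
      {(Fermat.Agent.S24.jL L (M * q))⁻¹}) (Fermat.Agent.S24.FFL L (M * q))) →+* ↥Λ)
      (Ideal.span {GaussL.piL hΛ}))
    (h1 : ∀ b : ↥(integralClosure (Algebra.adjoin ↥Λ {(Fermat.Agent.S24.jL L (M * q))⁻¹})
      (Fermat.Agent.S24.FFL L (M * q))),
      s35valW₁ hΛ (M * q) (b : Fermat.Agent.S24.FFL L (M * q)) < 1 → b ∈ 𝔪)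
    (h2 : ∀ b : ↥(integralClosure (Algebra.adjoin ↥Λ {(Fermat.Agent.S24.jL L (M * q))⁻¹})
      (Fermat.Agent.S24.FFL L (M * q))),
      s35valW₂ hΛ ι M q hcop (b : Fermat.Agent.S24.FFL L (M * q)) < 1 → b ∈ 𝔪) :
    Ideal.comap (s35f1c_sB s2 (Fermat.Agent.S24.jL L (M * q))⁻¹ hs2t hs2Λ hs2Λs).toRingHom 𝔪 =
      𝔪 := by
  subst h𝔪
  have hmem : ∀ x : ↥(integralClosure (Algebra.adjoin ↥Λ {(Fermat.Agent.S24.jL L (M * q))⁻¹})
      (Fermat.Agent.S24.FFL L (M * q))),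
      x ∈ Ideal.comap (ψ : ↥(integralClosure (Algebra.adjoin ↥Λ
        {(Fermat.Agent.S24.jL L (M * q))⁻¹}) (Fermat.Agent.S24.FFL L (M * q))) →+* ↥Λ)
        (Ideal.span {GaussL.piL hΛ}) ↔ GaussL.piL hΛ ∣ ψ x := fun x => by
    rw [Ideal.mem_comap, Ideal.mem_span_singleton]
    rfl
  ext b
  rw [Ideal.mem_comap, hmem, hmem]
  refine s35f1c_cross_stable_inf ι M q hcop hΛ hq ζ hζ hζΛ φ hφΛ hφΛs hφ
    (A := ↥(integralClosure (Algebra.adjoin ↥Λ {(Fermat.Agent.S24.jL L M)⁻¹})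
      (Fermat.Agent.S24.FFL L M)))
    (B := ↥(integralClosure (Algebra.adjoin ↥Λ {(Fermat.Agent.S24.jL L (M * q))⁻¹})
      (Fermat.Agent.S24.FFL L (M * q))))
    (algebraMap _ _) (algebraMap _ _) Subtype.val_injective Subtype.val_injective
    (fun c => rfl) (fun c => rfl)
    (fun z => ⟨fun ⟨a, ha⟩ => ha ▸ a.2, fun hz => ⟨⟨z, hz⟩, rfl⟩⟩)
    (fun z => ⟨fun ⟨a, ha⟩ => ha ▸ a.2, fun hz => ⟨⟨z, hz⟩, rfl⟩⟩)
    (fun 𝔐 h𝔐 hπ => hM.2 𝔐 h𝔐 hπ) ψ ?_ ?_ ?_ b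
    (s35f1c_sB s2 (Fermat.Agent.S24.jL L (M * q))⁻¹ hs2t hs2Λ hs2Λs b) ?_
  · intro b₀ hb₀
    obtain ⟨a, ha, ha𝔪⟩ := hcusp
    have hab : b₀ = a := Subtype.ext (hb₀.trans ha.symm)
    rw [hab]
    exact (hmem a).mp ha𝔪
  · rintro x ⟨h, hred⟩
    exact (hmem x).mp (h1 x ((s35val_w₁_lt_one_iff_redInf hΛ ι M q hcop ⟨_, h⟩).mpr hred))
  · rintro x ⟨h, hred⟩
    exact (hmem x).mp (h2 x ((s35val_w₂_lt_one_iff_redZero hΛ ι M q hcop ⟨_, h⟩).mpr hred))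
  · exact hs2 _

end Fermat.Agent.S35
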