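import Mathlib
import Fermat.Agent.S34.AbsMainRoot
import Fermat.Agent.S35.F1Engine

/-!
# P20 (S35), block F1-CONC, leaf L7: the Kummer engine F1-E with the root in an ambient field

`s35f1_engine_ambient`: the engine `s35f1_engine` for a function field `F = ↥E`, `E` an
intermediate field of `Ω / K`, where `K` is algebraically closed in `Ω` and the `m`-th root `W`
of `z` is given in `Ω`: then `z` is an `m`-th power in `E`.  The auxiliary field of the engine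
is `E(W) ⊆ Ω` (`s34rootField`).

`s35f1_engine_laurent`: the case `Ω = K((q))`.
-/

set_option autoImplicit false
set_option linter.style.haveILetI false

namespace Fermat.Agent.S35

open IntermediateField
open Fermat.Agent.S34
open IsDedekindDomain

/-- **F1-E (ambient root)**: `s35f1_engine` with the `m`-th root in an ambient field `Ω` in
which `K` is algebraically closed. -/
theorem s35f1_engine_ambient
    {Λ K Ω : Type*} [CommRing Λ] [IsDomain Λ] [IsDiscreteValuationRing Λ]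
    [Field K] [CharZero K] [Algebra Λ K] [IsFractionRing Λ K]
    [Field Ω] [Algebra K Ω]
    (hΩ : ∀ y : Ω, IsAlgebraic K y → y ∈ (algebraMap K Ω).range)
    (E : IntermediateField K Ω) [Algebra Λ ↥E] [IsScalarTower Λ K ↥E]
    (π : Λ) (hπ : Irreducible π) (j : ↥E) (hj : Transcendental K j)
    [FiniteDimensional K⟮j⟯ ↥E]
    (m : ℕ) (hm : IsUnit (m : Λ)) (ζ : Λ) (hζ : IsPrimitiveRoot ζ m)
    [IsDedekindDomain ↥(integralClosure (Algebra.adjoin K {j}) ↥E)]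
    [IsFractionRing ↥(integralClosure (Algebra.adjoin K {j}) ↥E) ↥E]
    [IsDedekindDomain ↥(integralClosure (Algebra.adjoin K {j⁻¹}) ↥E)]
    [IsFractionRing ↥(integralClosure (Algebra.adjoin K {j⁻¹}) ↥E) ↥E]
    (z : ↥E) (W : Ω) (hW : W ^ m = (z : Ω))
    (hz : IsIntegral (S18.gaussSub π hπ.prime j) z)
    (hz' : IsIntegral (S18.gaussSub π hπ.prime j) z⁻¹)
    (hz1 : ∃ δ : ↥E, IsIntegral (S18.gaussSub π hπ.prime j) δ ∧ z - 1 = π • δ)
    (hfin : ∀ 𝔪 : Ideal ↥(integralClosure (Algebra.adjoin Λ {j}) ↥E), 𝔪.IsMaximal →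
      algebraMap Λ ↥(integralClosure (Algebra.adjoin Λ {j}) ↥E) π ∈ 𝔪 →
      ∃ G : ↥E, G ≠ 0 ∧ IsIntegral (S18.gaussSub π hπ.prime j) G⁻¹ ∧
        (∃ δ : ↥E, IsIntegral (S18.gaussSub π hπ.prime j) δ ∧ G - 1 = π • δ) ∧
        ∀ 𝔔 ∈ absThrough (absIncl Λ K j) 𝔪, 𝔔.valuation ↥E (z / G ^ m) ≤ 1)
    (hinf : ∀ 𝔪 : Ideal ↥(integralClosure (Algebra.adjoin Λ {j⁻¹}) ↥E), 𝔪.IsMaximal →
      algebraMap Λ ↥(integralClosure (Algebra.adjoin Λ {j⁻¹}) ↥E) π ∈ 𝔪 →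
      (∃ a : ↥(integralClosure (Algebra.adjoin Λ {j⁻¹}) ↥E), (a : ↥E) = j⁻¹ ∧ a ∈ 𝔪) →
      ∃ G : ↥E, G ≠ 0 ∧ IsIntegral (S18.gaussSub π hπ.prime j) G⁻¹ ∧
        (∃ δ : ↥E, IsIntegral (S18.gaussSub π hπ.prime j) δ ∧ G - 1 = π • δ) ∧
        ∀ 𝔔 ∈ absThrough (absIncl Λ K j⁻¹) 𝔪, 𝔔.valuation ↥E (z / G ^ m) ≤ 1) :
    ∃ y : ↥E, y ^ m = z := by
  have hm0 : 0 < m := by
    rcases Nat.eq_zero_or_pos m with rfl | h
    · rw [Nat.cast_zero] at hm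
      exact absurd hm not_isUnit_zero
    · exact h
  letI : Algebra Λ ↥(s34rootField E W) :=
    ((algebraMap K ↥(s34rootField E W)).comp (algebraMap Λ K)).toAlgebra
  haveI : IsScalarTower Λ K ↥(s34rootField E W) := IsScalarTower.of_algebraMap_eq fun _ => rfl
  letI : Algebra ↥E ↥(s34rootField E W) := (s34rootIncl E W).toRingHom.toAlgebra
  haveI : IsScalarTower K ↥E ↥(s34rootField E W) :=
    IsScalarTower.of_algebraMap_eq fun c => ((s34rootIncl E W).commutes c).symm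
  haveI : IsScalarTower Λ ↥E ↥(s34rootField E W) := IsScalarTower.of_algebraMap_eq fun a => by
    show algebraMap K ↥(s34rootField E W) (algebraMap Λ K a) =
      s34rootIncl E W (algebraMap Λ ↥E a)
    rw [IsScalarTower.algebraMap_apply Λ K ↥E, AlgHom.commutes]
  haveI : FiniteDimensional ↥(K⟮algebraMap ↥E ↥(s34rootField E W) j⟯) ↥(s34rootField E W) :=
    s34root_finiteDimensional E W j hm0 z hW
  obtain ⟨y, hy⟩ := s35f1_engine (𝔽 := ↥(s34rootField E W)) π hπ j hj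
    (s34root_closed hΩ (s34rootField E W)) m hm ζ hζ z ⟨W, s34root_mem E W⟩ (Subtype.ext hW)
    hz hz' hz1 hfin hinf
  refine ⟨y, Subtype.ext ?_⟩
  have h1 : ((y : ↥E) : Ω) = W := congrArg Subtype.val hy
  rw [← hW, ← h1]
  rfl

/-- **F1-E (Laurent root)**: the case `Ω = K((q))`. -/
theorem s35f1_engine_laurent
    {Λ K : Type*} [CommRing Λ] [IsDomain Λ] [IsDiscreteValuationRing Λ]
    [Field K] [CharZero K] [Algebra Λ K] [IsFractionRing Λ K]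
    (E : IntermediateField K (LaurentSeries K)) [Algebra Λ ↥E] [IsScalarTower Λ K ↥E]
    (π : Λ) (hπ : Irreducible π) (j : ↥E) (hj : Transcendental K j)
    [FiniteDimensional K⟮j⟯ ↥E]
    (m : ℕ) (hm : IsUnit (m : Λ)) (ζ : Λ) (hζ : IsPrimitiveRoot ζ m)
    [IsDedekindDomain ↥(integralClosure (Algebra.adjoin K {j}) ↥E)]
    [IsFractionRing ↥(integralClosure (Algebra.adjoin K {j}) ↥E) ↥E]
    [IsDedekindDomain ↥(integralClosure (Algebra.adjoin K {j⁻¹}) ↥E)]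
    [IsFractionRing ↥(integralClosure (Algebra.adjoin K {j⁻¹}) ↥E) ↥E]
    (z : ↥E) (W : LaurentSeries K) (hW : W ^ m = (z : LaurentSeries K))
    (hz : IsIntegral (S18.gaussSub π hπ.prime j) z)
    (hz' : IsIntegral (S18.gaussSub π hπ.prime j) z⁻¹)
    (hz1 : ∃ δ : ↥E, IsIntegral (S18.gaussSub π hπ.prime j) δ ∧ z - 1 = π • δ)
    (hfin : ∀ 𝔪 : Ideal ↥(integralClosure (Algebra.adjoin Λ {j}) ↥E), 𝔪.IsMaximal →
      algebraMap Λ ↥(integralClosure (Algebra.adjoin Λ {j}) ↥E) π ∈ 𝔪 →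
      ∃ G : ↥E, G ≠ 0 ∧ IsIntegral (S18.gaussSub π hπ.prime j) G⁻¹ ∧
        (∃ δ : ↥E, IsIntegral (S18.gaussSub π hπ.prime j) δ ∧ G - 1 = π • δ) ∧
        ∀ 𝔔 ∈ absThrough (absIncl Λ K j) 𝔪, 𝔔.valuation ↥E (z / G ^ m) ≤ 1)
    (hinf : ∀ 𝔪 : Ideal ↥(integralClosure (Algebra.adjoin Λ {j⁻¹}) ↥E), 𝔪.IsMaximal →
      algebraMap Λ ↥(integralClosure (Algebra.adjoin Λ {j⁻¹}) ↥E) π ∈ 𝔪 →
      (∃ a : ↥(integralClosure (Algebra.adjoin Λ {j⁻¹}) ↥E), (a : ↥E) = j⁻¹ ∧ a ∈ 𝔪) →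
      ∃ G : ↥E, G ≠ 0 ∧ IsIntegral (S18.gaussSub π hπ.prime j) G⁻¹ ∧
        (∃ δ : ↥E, IsIntegral (S18.gaussSub π hπ.prime j) δ ∧ G - 1 = π • δ) ∧
        ∀ 𝔔 ∈ absThrough (absIncl Λ K j⁻¹) 𝔪, 𝔔.valuation ↥E (z / G ^ m) ≤ 1) :
    ∃ y : ↥E, y ^ m = z :=
  s35f1_engine_ambient (fun y hy => s34root_const_of_isAlgebraic y hy) E π hπ j hj m hm ζ hζ
    z W hW hz hz' hz1 hfin hinf

end Fermat.Agent.S35
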