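import Fermat.Agent.S35.N3Defs
import Fermat.Agent.S37.GaussADesc

/-!
# P20 (S35), block F1: the scaling lemma

For every `t ∈ F_{Nq}(ℚ̄)` a high power of `q` scales `t` into the semi-local ring
`s35_O A N q hcop = V_∞ ∩ W⁻¹ V_∞` with both reductions equal to `0`
(`s35f1c_exists_pow_smul`, monotone form `s35f1c_exists_pow_smul_ge`).

Ingredients: the valuation ring `A ⊆ ℚ̄` has rank one over `q` (`s35f1c_exists_pow_mul_mem`: every
constant is scaled into `A` by a power of `q`, because it has an integral multiple), and the normal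
form `z = c · u` of `S37/GaussADesc` (`u` a unit of the Gauss ring).
-/

set_option autoImplicit false

namespace Fermat.Agent.S35

open ModularCurve AlgebraicCurve Fermat.Agent.S18 Fermat.Agent.S34 Fermat.Agent.S37

/-- `A` has rank one over `q`: every constant is scaled into `A` by a power of `q`. -/
theorem s35f1c_exists_pow_mul_mem {A : ValuationSubring (AlgebraicClosure ℚ)} {q : ℕ}
    (hq : q.Prime) (hA : A.LiesOverPrime q) (c : AlgebraicClosure ℚ) :
    ∃ s : ℕ, (q : AlgebraicClosure ℚ) ^ s * c ∈ A := by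
  haveI : Fact q.Prime := ⟨hq⟩
  have halgQ : Algebra.IsAlgebraic ℚ (AlgebraicClosure ℚ) := by
    rw [show (DivisionRing.toRatAlgebra : Algebra ℚ (AlgebraicClosure ℚ)) =
      AlgebraicClosure.instAlgebra ℚ from Subsingleton.elim _ _]
    infer_instance
  have halg : IsAlgebraic ℤ c :=
    (IsFractionRing.isAlgebraic_iff ℤ ℚ (AlgebraicClosure ℚ)).mpr
      (Algebra.IsAlgebraic.isAlgebraic c)
  obtain ⟨y, hy0, hy⟩ := halg.exists_integral_multiple
  have hmem : (y : AlgebraicClosure ℚ) * c ∈ A := by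
    have h1 := NumField.mem_of_isIntegral_int (A := A) hy
    rwa [zsmul_eq_mul] at h1
  obtain ⟨s, m', hm', hys⟩ :=
    Nat.exists_eq_pow_mul_and_not_dvd (Int.natAbs_ne_zero.mpr hy0) q hq.ne_one
  have hm'inv : ((m' : AlgebraicClosure ℚ))⁻¹ ∈ A := NumField.natCast_inv_mem hA hm'
  have hm'0 : (m' : AlgebraicClosure ℚ) ≠ 0 := by
    intro h0
    have : m' = 0 := by exact_mod_cast h0
    exact hm' (this ▸ dvd_zero q)
  have habs : ((y.natAbs : ℕ) : AlgebraicClosure ℚ) =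
      (q : AlgebraicClosure ℚ) ^ s * (m' : AlgebraicClosure ℚ) := by
    rw [hys]
    push_cast
    rfl
  refine ⟨s, ?_⟩
  rcases Int.natAbs_eq y with h | h
  · have h1 : (y : AlgebraicClosure ℚ) = (q : AlgebraicClosure ℚ) ^ s * (m' : AlgebraicClosure ℚ) := by
      rw [← habs]
      conv_lhs => rw [h]
      exact Int.cast_natCast _
    have h2 : (q : AlgebraicClosure ℚ) ^ s * c =
        ((m' : AlgebraicClosure ℚ))⁻¹ * ((y : AlgebraicClosure ℚ) * c) := by
      rw [h1]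
      field_simp
    rw [h2]
    exact A.mul_mem _ _ hm'inv hmem
  · have h1 : (y : AlgebraicClosure ℚ) =
        -((q : AlgebraicClosure ℚ) ^ s * (m' : AlgebraicClosure ℚ)) := by
      rw [← habs]
      conv_lhs => rw [h]
      rw [Int.cast_neg, Int.cast_natCast]
    have h2 : (q : AlgebraicClosure ℚ) ^ s * c =
        -(((m' : AlgebraicClosure ℚ))⁻¹ * ((y : AlgebraicClosure ℚ) * c)) := by
      rw [h1]
      field_simp
    rw [h2]
    exact A.neg_mem _ (A.mul_mem _ _ hm'inv hmem)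

/-- Every constant is scaled into the maximal ideal of `A` by all high powers of `q`. -/
theorem s35f1c_exists_pow_mul_residue {A : ValuationSubring (AlgebraicClosure ℚ)} {q : ℕ}
    (hq : q.Prime) (hA : A.LiesOverPrime q) (c : AlgebraicClosure ℚ) :
    ∃ n₀ : ℕ, ∀ n : ℕ, n₀ ≤ n → ∃ h : (q : AlgebraicClosure ℚ) ^ n * c ∈ A,
      IsLocalRing.residue ↥A ⟨_, h⟩ = 0 := by
  obtain ⟨s, hs⟩ := s35f1c_exists_pow_mul_mem hq hA c
  have hqA : (q : AlgebraicClosure ℚ) ∈ A := by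
    have h1 : ((q : ℕ) : AlgebraicClosure ℚ) ∈ A.toSubring := natCast_mem _ q
    exact h1
  have hqpow : ∀ k : ℕ, (q : AlgebraicClosure ℚ) ^ k ∈ A := fun k => A.pow_mem hqA k
  have hqres : IsLocalRing.residue ↥A ⟨(q : AlgebraicClosure ℚ), hqA⟩ = 0 := by
    rw [IsLocalRing.residue_eq_zero_iff, IsLocalRing.mem_maximalIdeal, mem_nonunits_iff]
    intro hu
    have h1 : A.valuation (q : AlgebraicClosure ℚ) < 1 := (A.mem_nonunits_iff).mp hA
    have h2 : A.valuation (q : AlgebraicClosure ℚ) = 1 :=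
      (A.valuation_eq_one_iff ⟨(q : AlgebraicClosure ℚ), hqA⟩).mp hu
    rw [h2] at h1
    exact lt_irrefl _ h1
  refine ⟨s + 1, fun n hn => ?_⟩
  obtain ⟨k, rfl⟩ := Nat.exists_eq_add_of_le hn
  have heq : (q : AlgebraicClosure ℚ) ^ (s + 1 + k) * c =
      (q : AlgebraicClosure ℚ) * ((q : AlgebraicClosure ℚ) ^ k * ((q : AlgebraicClosure ℚ) ^ s * c)) := by
    ring
  have hmem : (q : AlgebraicClosure ℚ) ^ (s + 1 + k) * c ∈ A := by
    rw [heq]
    exact A.mul_mem _ _ hqA (A.mul_mem _ _ (hqpow k) hs)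
  refine ⟨hmem, ?_⟩
  have h3 : (⟨_, hmem⟩ : ↥A) =
      ⟨(q : AlgebraicClosure ℚ), hqA⟩ * (⟨_, hqpow k⟩ * ⟨_, hs⟩) := Subtype.ext heq
  rw [h3, map_mul, hqres, zero_mul]

/-- Scaling into `gaussA` with reduction `0`. -/
theorem s35f1c_exists_pow_smul_gaussA {A : ValuationSubring (AlgebraicClosure ℚ)} {M q : ℕ}
    [NeZero M] (hq : q.Prime) (hA : A.LiesOverPrime q) (t : ↥(modularFunctionFieldBar M)) :
    ∃ n₀ : ℕ, ∀ n : ℕ, n₀ ≤ n →
      ∃ h : algebraMap (AlgebraicClosure ℚ) ↥(modularFunctionFieldBar M)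
          ((q : AlgebraicClosure ℚ) ^ n) * t ∈ gaussA A M,
        redA A M ⟨_, h⟩ = 0 := by
  haveI : Fact q.Prime := ⟨hq⟩
  by_cases ht : t = 0
  · refine ⟨0, fun n _ => ?_⟩
    have h0 : algebraMap (AlgebraicClosure ℚ) ↥(modularFunctionFieldBar M)
        ((q : AlgebraicClosure ℚ) ^ n) * t = 0 := by rw [ht, mul_zero]
    refine ⟨h0 ▸ zero_mem _, ?_⟩
    have h1 : (⟨_, h0 ▸ zero_mem _⟩ : ↥(gaussA A M)) = 0 := Subtype.ext h0
    rw [h1, map_zero]
  · obtain ⟨c, u, hu, hc, hured, -, htu⟩ := exists_unit_mul hA ht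
    obtain ⟨n₀, hn₀⟩ := s35f1c_exists_pow_mul_residue hq hA c
    refine ⟨n₀, fun n hn => ?_⟩
    obtain ⟨hmem, hres⟩ := hn₀ n hn
    have heq : algebraMap (AlgebraicClosure ℚ) ↥(modularFunctionFieldBar M)
        ((q : AlgebraicClosure ℚ) ^ n) * t =
        algebraMap (AlgebraicClosure ℚ) ↥(modularFunctionFieldBar M)
          ((q : AlgebraicClosure ℚ) ^ n * c) * u := by
      rw [htu, map_mul, mul_assoc]
    have hmemG : algebraMap (AlgebraicClosure ℚ) ↥(modularFunctionFieldBar M)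
        ((q : AlgebraicClosure ℚ) ^ n) * t ∈ gaussA A M := by
      rw [heq]
      exact mul_mem (algebraMap_mem_gaussA hmem) hu
    refine ⟨hmemG, ?_⟩
    have h1 : (⟨_, hmemG⟩ : ↥(gaussA A M)) =
        ⟨_, algebraMap_mem_gaussA hmem⟩ * ⟨u, hu⟩ := Subtype.ext heq
    rw [h1, map_mul, redA_algebraMap hmem, hres, map_zero, zero_mul]

/-- **Scaling lemma**, monotone form: for every `t ∈ F_{Nq}(ℚ̄)` all high powers of `q` scale `t`
into `s35_O` with both reductions `0`. -/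
theorem s35f1c_exists_pow_smul_ge {A : ValuationSubring (AlgebraicClosure ℚ)} {N q : ℕ}
    [NeZero N] [NeZero q] {hcop : Nat.Coprime N q} (hq : q.Prime) (hA : A.LiesOverPrime q)
    (t : ↥(modularFunctionFieldBar (N * q))) :
    ∃ n₀ : ℕ, ∀ n : ℕ, n₀ ≤ n →
      ∃ h : algebraMap (AlgebraicClosure ℚ) ↥(modularFunctionFieldBar (N * q))
          ((q : AlgebraicClosure ℚ) ^ n) * t ∈ s35_O A N q hcop,
        s35_redInf A N q hcop ⟨_, h⟩ = 0 ∧ s35_redZero A N q hcop ⟨_, h⟩ = 0 := by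
  obtain ⟨n₁, h₁⟩ := s35f1c_exists_pow_smul_gaussA hq hA t
  obtain ⟨n₂, h₂⟩ := s35f1c_exists_pow_smul_gaussA hq hA (s35_W N q hcop t)
  refine ⟨max n₁ n₂, fun n hn => ?_⟩
  obtain ⟨hm₁, hr₁⟩ := h₁ n (le_trans (le_max_left _ _) hn)
  obtain ⟨hm₂, hr₂⟩ := h₂ n (le_trans (le_max_right _ _) hn)
  have hW : s35_W N q hcop (algebraMap (AlgebraicClosure ℚ) ↥(modularFunctionFieldBar (N * q))
      ((q : AlgebraicClosure ℚ) ^ n) * t) =
      algebraMap (AlgebraicClosure ℚ) ↥(modularFunctionFieldBar (N * q))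
        ((q : AlgebraicClosure ℚ) ^ n) * s35_W N q hcop t := by
    rw [map_mul, AlgEquiv.commutes]
  have hmem : algebraMap (AlgebraicClosure ℚ) ↥(modularFunctionFieldBar (N * q))
      ((q : AlgebraicClosure ℚ) ^ n) * t ∈ s35_O A N q hcop := by
    refine ⟨hm₁, ?_⟩
    show s35_W N q hcop _ ∈ gaussA A (N * q)
    rw [hW]
    exact hm₂
  refine ⟨hmem, hr₁, ?_⟩
  rw [← hr₂]
  show redA A (N * q) ⟨s35_W N q hcop _, _⟩ = _
  congr 1
  exact Subtype.ext hW

/-- **Scaling lemma**: for every `t ∈ F_{Nq}(ℚ̄)` some power of `q` scales `t` into `s35_O` with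
both reductions `0`. -/
theorem s35f1c_exists_pow_smul {A : ValuationSubring (AlgebraicClosure ℚ)} {N q : ℕ}
    [NeZero N] [NeZero q] {hcop : Nat.Coprime N q} (hq : q.Prime) (hA : A.LiesOverPrime q)
    (t : ↥(modularFunctionFieldBar (N * q))) :
    ∃ n : ℕ, ∃ h : algebraMap (AlgebraicClosure ℚ) ↥(modularFunctionFieldBar (N * q))
        ((q : AlgebraicClosure ℚ) ^ n) * t ∈ s35_O A N q hcop,
      s35_redInf A N q hcop ⟨_, h⟩ = 0 ∧ s35_redZero A N q hcop ⟨_, h⟩ = 0 := by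
  obtain ⟨n₀, h⟩ := s35f1c_exists_pow_smul_ge (hcop := hcop) hq hA t
  exact ⟨n₀, h n₀ le_rfl⟩

end Fermat.Agent.S35
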