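import Fermat.Agent.S35.N3Defs
import Fermat.Agent.S35.F1cScale
import Fermat.Agent.S34.GalMoving

/-!
# P20 (S35), block F1: moving the Kummer pair of `ker κ` off a finite set of places

`s35_kerKappa_moving`: if `y ∈ ker κ` (a Kummer pair `(D, u)` with `u ≡ 1` at both Gauss
valuations), then for every finite set `T` of places there is such a pair with `supp D ∩ T = ∅`.

Proof: `f = (1 + q^n₁ t₁) / (1 + q^n₂ t₂)` with `t₁`, `t₂` from weak approximation
(`ord_P t₁ = -D(P)` where `D(P) > 0`, `ord_P t₂ = D(P)` where `D(P) < 0`, `ord_P = 1` at the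
other places of `T`) and `n₁`, `n₂` so large that `q^nᵢ tᵢ` reduces to `0` at both Gauss
valuations (`s35f1c_exists_pow_smul`); then `(D + div f, u f^m)` works.
-/

set_option autoImplicit false

namespace Fermat.Agent.S35

open ModularCurve AlgebraicCurve Fermat.Agent.S18 Fermat.Agent.S34

/-- An element of `𝒪` which is `≡ 1` at both Gauss valuations is a unit of `𝒪`, and its inverse
is `≡ 1` at both. -/
theorem s35f1c_exists_inv {A : ValuationSubring (AlgebraicClosure ℚ)} {N q : ℕ} [NeZero N]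
    [NeZero q] {hcop : Nat.Coprime N q} {z : ↥(s35_O A N q hcop)}
    (h1 : s35_redInf A N q hcop z = 1) (h2 : s35_redZero A N q hcop z = 1) :
    ∃ b : ↥(s35_O A N q hcop), z * b = 1 ∧ s35_redInf A N q hcop b = 1 ∧
      s35_redZero A N q hcop b = 1 := by
  have hz0 : (z : ↥(modularFunctionFieldBar (N * q))) ≠ 0 := by
    intro h0
    have hz : z = 0 := Subtype.ext h0
    rw [hz, map_zero] at h1
    exact zero_ne_one h1
  have hzmem := z.2
  rw [mem_kronO_iff] at hzmem
  have hi1 : (z : ↥(modularFunctionFieldBar (N * q)))⁻¹ ∈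
      GaussL.gaussV A.toSubring (Fermat.Agent.S37.resA A) (modularFunctionFieldBar (N * q)) := by
    refine GaussL.inv_mem_gaussV (modularFunctionFieldBar (N * q)) hzmem.1 ?_
    have h3 := kronRedInf_apply A.toSubring (Fermat.Agent.S37.resA A)
      Fermat.Agent.S37.barToComplex N q hcop z
    rw [← h3]
    exact fun h => zero_ne_one (h.symm.trans h1)
  have hi2 : s35_W N q hcop (z : ↥(modularFunctionFieldBar (N * q)))⁻¹ ∈
      GaussL.gaussV A.toSubring (Fermat.Agent.S37.resA A) (modularFunctionFieldBar (N * q)) := by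
    rw [map_inv₀]
    refine GaussL.inv_mem_gaussV (modularFunctionFieldBar (N * q)) hzmem.2 ?_
    have h3 := kronRedZero_apply A.toSubring (Fermat.Agent.S37.resA A)
      Fermat.Agent.S37.barToComplex N q hcop z
    rw [← h3]
    exact fun h => zero_ne_one (h.symm.trans h2)
  have hb : (z : ↥(modularFunctionFieldBar (N * q)))⁻¹ ∈ s35_O A N q hcop :=
    (mem_kronO_iff _ _ _ _ _ _).mpr ⟨hi1, hi2⟩
  have hzb : z * (⟨_, hb⟩ : ↥(s35_O A N q hcop)) = 1 := Subtype.ext (mul_inv_cancel₀ hz0)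
  refine ⟨⟨_, hb⟩, hzb, ?_, ?_⟩
  · have h := congrArg (s35_redInf A N q hcop) hzb
    rwa [map_mul, h1, one_mul, map_one] at h
  · have h := congrArg (s35_redZero A N q hcop) hzb
    rwa [map_mul, h2, one_mul, map_one] at h

theorem s35_kerKappa_moving {A : ValuationSubring (AlgebraicClosure ℚ)} {N q : ℕ} [NeZero N]
    [NeZero q] {hcop : Nat.Coprime N q} {m : ℕ} {y : JZero (N * q)} (hq : q.Prime)
    (hA : A.LiesOverPrime q) (hy : s35_kerKappa A N q hcop m y)
    (T : Finset (Place (AlgebraicClosure ℚ) (modularFunctionFieldBar (N * q)))) :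
    ∃ (D : Divisor.degZero (K := AlgebraicClosure ℚ) (F := modularFunctionFieldBar (N * q)))
      (u : ↥(s35_O A N q hcop)),
      Pic0.mk D = y ∧
      (∀ v : Place (AlgebraicClosure ℚ) (modularFunctionFieldBar (N * q)),
        (m • (D : Divisor (AlgebraicClosure ℚ) (modularFunctionFieldBar (N * q)))) v =
          v.ord (u : ↥(modularFunctionFieldBar (N * q)))) ∧
      s35_redInf A N q hcop u = 1 ∧ s35_redZero A N q hcop u = 1 ∧
      ∀ v ∈ T, (D : Divisor (AlgebraicClosure ℚ) (modularFunctionFieldBar (N * q))) v = 0 := by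
  classical
  obtain ⟨D, u, hDy, hDu, hu1, hu2⟩ := hy
  -- weak approximation
  obtain ⟨t₁, ht₁0, ht₁⟩ := s34mov_weak_approx T
    (fun P => if 0 < (D : Divisor (AlgebraicClosure ℚ) (modularFunctionFieldBar (N * q))) P
      then -((D : Divisor (AlgebraicClosure ℚ) (modularFunctionFieldBar (N * q))) P) else 1)
  obtain ⟨t₂, ht₂0, ht₂⟩ := s34mov_weak_approx T
    (fun P => if (D : Divisor (AlgebraicClosure ℚ) (modularFunctionFieldBar (N * q))) P < 0
      then (D : Divisor (AlgebraicClosure ℚ) (modularFunctionFieldBar (N * q))) P else 1)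
  obtain ⟨n₁, h₁, h₁i, h₁z⟩ := s35f1c_exists_pow_smul (hcop := hcop) hq hA t₁
  obtain ⟨n₂, h₂, h₂i, h₂z⟩ := s35f1c_exists_pow_smul (hcop := hcop) hq hA t₂
  have hq0 : (q : AlgebraicClosure ℚ) ≠ 0 := Nat.cast_ne_zero.mpr hq.ne_zero
  -- the two factors
  set g₁ : ↥(s35_O A N q hcop) := 1 + ⟨_, h₁⟩ with hg₁
  set g₂ : ↥(s35_O A N q hcop) := 1 + ⟨_, h₂⟩ with hg₂
  have hg₁i : s35_redInf A N q hcop g₁ = 1 := by rw [hg₁, map_add, map_one, h₁i, add_zero]
  have hg₁z : s35_redZero A N q hcop g₁ = 1 := by rw [hg₁, map_add, map_one, h₁z, add_zero]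
  have hg₂i : s35_redInf A N q hcop g₂ = 1 := by rw [hg₂, map_add, map_one, h₂i, add_zero]
  have hg₂z : s35_redZero A N q hcop g₂ = 1 := by rw [hg₂, map_add, map_one, h₂z, add_zero]
  obtain ⟨b₂, hb₂, hb₂i, hb₂z⟩ := s35f1c_exists_inv hg₂i hg₂z
  have hne : ∀ z : ↥(s35_O A N q hcop), s35_redInf A N q hcop z = 1 →
      (z : ↥(modularFunctionFieldBar (N * q))) ≠ 0 := by
    intro z hz h0
    have hz' : z = 0 := Subtype.ext h0
    rw [hz', map_zero] at hz
    exact zero_ne_one hz
  have hg₁0 := hne g₁ hg₁i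
  have hg₂0 := hne g₂ hg₂i
  have hu0 := hne u hu1
  have hb₂F : (b₂ : ↥(modularFunctionFieldBar (N * q))) =
      (g₂ : ↥(modularFunctionFieldBar (N * q)))⁻¹ :=
    eq_inv_of_mul_eq_one_right (congrArg Subtype.val hb₂)
  set f : ↥(s35_O A N q hcop) := g₁ * b₂ with hf
  have hfi : s35_redInf A N q hcop f = 1 := by rw [hf, map_mul, hg₁i, hb₂i, one_mul]
  have hfz : s35_redZero A N q hcop f = 1 := by rw [hf, map_mul, hg₁z, hb₂z, one_mul]
  have hf0 := hne f hfi
  have hfF : (f : ↥(modularFunctionFieldBar (N * q))) =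
      (g₁ : ↥(modularFunctionFieldBar (N * q))) / (g₂ : ↥(modularFunctionFieldBar (N * q))) := by
    rw [div_eq_mul_inv, ← hb₂F]
    rfl
  -- orders of `f` on `T`
  have hordT : ∀ P ∈ T, P.ord (f : ↥(modularFunctionFieldBar (N * q))) =
      -((D : Divisor (AlgebraicClosure ℚ) (modularFunctionFieldBar (N * q))) P) := by
    intro P hP
    have hc : ∀ n : ℕ, algebraMap (AlgebraicClosure ℚ) ↥(modularFunctionFieldBar (N * q))
        ((q : AlgebraicClosure ℚ) ^ n) ≠ 0 := fun n =>
      (map_ne_zero _).mpr (pow_ne_zero n hq0)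
    have e₁ : P.ord (algebraMap (AlgebraicClosure ℚ) ↥(modularFunctionFieldBar (N * q))
        ((q : AlgebraicClosure ℚ) ^ n₁) * t₁) = P.ord t₁ := by
      rw [P.ord_mul (hc n₁) ht₁0, Fermat.Agent.S24.PlacesBasic.ord_algebraMap, zero_add]
    have e₂ : P.ord (algebraMap (AlgebraicClosure ℚ) ↥(modularFunctionFieldBar (N * q))
        ((q : AlgebraicClosure ℚ) ^ n₂) * t₂) = P.ord t₂ := by
      rw [P.ord_mul (hc n₂) ht₂0, Fermat.Agent.S24.PlacesBasic.ord_algebraMap, zero_add]
    have hg₁F : (g₁ : ↥(modularFunctionFieldBar (N * q))) =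
        1 + algebraMap (AlgebraicClosure ℚ) ↥(modularFunctionFieldBar (N * q))
          ((q : AlgebraicClosure ℚ) ^ n₁) * t₁ := rfl
    have hg₂F : (g₂ : ↥(modularFunctionFieldBar (N * q))) =
        1 + algebraMap (AlgebraicClosure ℚ) ↥(modularFunctionFieldBar (N * q))
          ((q : AlgebraicClosure ℚ) ^ n₂) * t₂ := rfl
    have k₁ := ht₁ P hP
    have k₂ := ht₂ P hP
    rw [hfF, s34mov_ord_div P hg₁0 hg₂0, hg₁F, hg₂F]
    rcases lt_trichotomy ((D : Divisor (AlgebraicClosure ℚ) (modularFunctionFieldBar (N * q))) P) 0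
      with hD | hD | hD
    · rw [if_neg (by omega)] at k₁
      rw [if_pos hD] at k₂
      rw [s34mov_ord_one_add_of_pos P (by rw [e₁, k₁]; norm_num),
        s34mov_ord_one_add_of_neg P (by rw [e₂, k₂]; exact hD), e₂, k₂]
      ring
    · rw [if_neg (by omega)] at k₁
      rw [if_neg (by omega)] at k₂
      rw [s34mov_ord_one_add_of_pos P (by rw [e₁, k₁]; norm_num),
        s34mov_ord_one_add_of_pos P (by rw [e₂, k₂]; norm_num), hD]
      ring
    · rw [if_pos hD] at k₁
      rw [if_neg (by omega)] at k₂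
      rw [s34mov_ord_one_add_of_neg P (by rw [e₁, k₁]; omega),
        s34mov_ord_one_add_of_pos P (by rw [e₂, k₂]; norm_num), e₁, k₁]
      ring
  -- the divisor of `f`
  obtain ⟨E, hE, hEdeg⟩ := HasPrincipalDivisors.exists_divisor (K := AlgebraicClosure ℚ)
    (f : ↥(modularFunctionFieldBar (N * q))) hf0
  have hEmem : E ∈ Divisor.degZero (K := AlgebraicClosure ℚ)
      (F := modularFunctionFieldBar (N * q)) := hEdeg
  refine ⟨D + ⟨E, hEmem⟩, u * f ^ m, ?_, fun v => ?_, ?_, ?_, fun v hv => ?_⟩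
  · rw [Pic0.mk_add]
    have h0 : Pic0.mk (⟨E, hEmem⟩ : Divisor.degZero (K := AlgebraicClosure ℚ)
        (F := modularFunctionFieldBar (N * q))) = 0 := by
      refine (QuotientAddGroup.eq_zero_iff _).mpr ?_
      rw [AddSubgroup.mem_addSubgroupOf]
      exact ⟨(f : ↥(modularFunctionFieldBar (N * q))), hf0, hE⟩
    rw [h0, add_zero, hDy]
  · show (m • ((D : Divisor (AlgebraicClosure ℚ) (modularFunctionFieldBar (N * q))) + E)) v =
      v.ord ((u : ↥(modularFunctionFieldBar (N * q))) *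
        (f : ↥(modularFunctionFieldBar (N * q))) ^ m)
    rw [smul_add, Finsupp.add_apply, hDu v, Finsupp.smul_apply, hE v,
      v.ord_mul hu0 (pow_ne_zero m hf0), s34mov_ord_pow, nsmul_eq_mul]
  · rw [map_mul, map_pow, hu1, hfi, one_pow, one_mul]
  · rw [map_mul, map_pow, hu2, hfz, one_pow, one_mul]
  · show ((D : Divisor (AlgebraicClosure ℚ) (modularFunctionFieldBar (N * q))) + E) v = 0
    rw [Finsupp.add_apply, hE v, hordT v hv]
    ring

end Fermat.Agent.S35
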