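import Mathlib
import Fermat.Agent.S34.GalKummerMonic
import Fermat.Agent.S28.Subst
import Fermat.Agent.S24.LaurentOrder

/-!
# P20 F1-CONC leaf L6 (second team): the `m`-th root of `σ²(u) / u ^ Q` in `K((q))`
-/

set_option autoImplicit false

namespace Fermat.Agent.S35

open ModularCurve AlgebraicCurve IntermediateField
open Fermat.Agent.S18 Fermat.Agent.S28 Fermat.Agent.S28.FreeBasisAbs Fermat.Agent.S34

local notation "Qb" => AlgebraicClosure ℚ

section L6

theorem s35f1c6B_order_coeffMap {R S : Type*} [CommRing R] [CommRing S] (f : R →+* S)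
    (hf : Function.Injective f) (x : LaurentSeries R) :
    (coeffMap f x).order = x.order := by
  by_cases hx : x = 0
  · rw [hx, map_zero, HahnSeries.order_zero, HahnSeries.order_zero]
  · refine Fermat.Agent.S24.laurent_order_eq_of_coeff ?_ ?_
    · rw [coeffMap_coeff]
      intro h
      exact (HahnSeries.coeff_order_eq_zero.not.mpr hx) (hf (h.trans (map_zero f).symm))
    · intro k hk
      rw [coeffMap_coeff, HahnSeries.coeff_eq_zero_of_lt_order hk, map_zero]

theorem s35f1c6B_leadingCoeff_coeffMap {R S : Type*} [CommRing R] [CommRing S] (f : R →+* S)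
    (hf : Function.Injective f) (x : LaurentSeries R) :
    (coeffMap f x).leadingCoeff = f x.leadingCoeff := by
  rw [HahnSeries.leadingCoeff_eq, HahnSeries.leadingCoeff_eq, s35f1c6B_order_coeffMap f hf,
    coeffMap_coeff]

/-- a nonzero Laurent series whose order is divisible by `m` and whose leading coefficient is an
`m`-th power is an `m`-th power (characteristic `0`). -/
theorem s35f1c_exists_pow_eq_B {K : Type*} [Field K] [CharZero K] {m : ℕ} (hm : m ≠ 0)
    (u : LaurentSeries K) (hu : u ≠ 0) (hord : (m : ℤ) ∣ u.order)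
    (b : K) (hb : b ^ m = u.leadingCoeff) : ∃ U : LaurentSeries K, U ^ m = u := by
  obtain ⟨k, hk⟩ := hord
  have hl : u.leadingCoeff ≠ 0 := HahnSeries.leadingCoeff_ne_zero.mpr hu
  have hpc : PowerSeries.constantCoeff u.powerSeriesPart = u.leadingCoeff := by
    have h := LaurentSeries.powerSeriesPart_coeff u 0
    rw [PowerSeries.coeff_zero_eq_constantCoeff_apply] at h
    rw [h, Nat.cast_zero, add_zero, ← HahnSeries.leadingCoeff_eq]
  have hp' : PowerSeries.constantCoeff
      (PowerSeries.C (u.leadingCoeff)⁻¹ * u.powerSeriesPart) = 1 := by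
    rw [map_mul, PowerSeries.constantCoeff_C, hpc, inv_mul_cancel₀ hl]
  obtain ⟨w, hw, -⟩ := s34root_exists_pow hm _ hp'
  have hpw : (PowerSeries.C b * w) ^ m = u.powerSeriesPart := by
    rw [mul_pow, hw, ← map_pow, hb, ← mul_assoc, ← map_mul, mul_inv_cancel₀ hl, map_one, one_mul]
  refine ⟨HahnSeries.single k 1 * HahnSeries.ofPowerSeries ℤ K (PowerSeries.C b * w), ?_⟩
  have h1 : m • k = u.order := by rw [hk, nsmul_eq_mul]
  rw [mul_pow, HahnSeries.single_pow, one_pow, ← map_pow, hpw, h1]
  exact LaurentSeries.single_order_mul_powerSeriesPart u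

theorem s35f1c_exists_root_series_B (F₀ : IntermediateField ℚ (LaurentSeries ℚ))
    {L : Type*} [Field L] [Algebra ℚ L] [CharZero L] (σ : L ≃ₐ[ℚ] L) {m : ℕ} (hm : m ≠ 0)
    (Q : ℕ) (u : ↥(laurentBaseChange L F₀)) (hu : u ≠ 0)
    (hord : (m : ℤ) ∣ (u : LaurentSeries L).order)
    (b : L) (hb : b ^ m = (u : LaurentSeries L).leadingCoeff) :
    ∃ W : LaurentSeries L,
      W ^ m = ((arithmeticRingAut F₀ σ (arithmeticRingAut F₀ σ u) / u ^ Q :
        ↥(laurentBaseChange L F₀)) : LaurentSeries L) := by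
  have hu' : (u : LaurentSeries L) ≠ 0 := fun h => hu (Subtype.ext h)
  obtain ⟨U, hU⟩ := s35f1c_exists_pow_eq_B hm (u : LaurentSeries L) hu' hord b hb
  refine ⟨coeffMap (σ : L →+* L) (coeffMap (σ : L →+* L) U) / U ^ Q, ?_⟩
  have hcoe : ((arithmeticRingAut F₀ σ (arithmeticRingAut F₀ σ u) / u ^ Q :
        ↥(laurentBaseChange L F₀)) : LaurentSeries L)
      = coeffMap (σ : L →+* L) (coeffMap (σ : L →+* L) (u : LaurentSeries L)) /
          (u : LaurentSeries L) ^ Q := rfl
  rw [hcoe, ← hU, div_pow, map_pow, map_pow, pow_right_comm U Q m]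

/-- the order of the `q`-expansion is a multiple of the order at a place. -/
theorem s35f1c_dvd_order_B (N : ℕ) [NeZero N] {m : ℕ}
    (U : ↥(modularFunctionFieldBar N)) (hU : U ≠ 0)
    (hdiv : ∀ P : Place Qb (modularFunctionFieldBar N), (m : ℤ) ∣ P.ord U) :
    (m : ℤ) ∣ (U : LaurentSeries Qb).order := by
  have hne : ∀ f : ↥(modularFunctionFieldBar N), f ≠ 0 → (f : LaurentSeries Qb) ≠ 0 :=
    fun f hf h => hf (Subtype.ext h)
  have hj : ((Fermat.Agent.S24.jL Qb N : ↥(modularFunctionFieldBar N)) : LaurentSeries Qb)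
      = jqModC Qb := Fermat.Agent.S28.coeffEmb_jq Qb
  have hjo : (jqModC Qb).order = -1 :=
    Fermat.Agent.S24.laurent_order_eq_of_coeff
      (by rw [coeff_jqModC_neg_one]; exact one_ne_zero)
      (fun _ hk => coeff_jqModC_of_lt Qb hk)
  have hj0 : (Fermat.Agent.S24.jL Qb N : ↥(modularFunctionFieldBar N)) ≠ 0 := by
    intro h
    have h1 : (jqModC Qb) = 0 := by rw [← hj, h]; rfl
    rw [h1, HahnSeries.order_zero] at hjo
    omega
  have hy0 : (Fermat.Agent.S24.jL Qb N : ↥(modularFunctionFieldBar N))⁻¹ ≠ 0 := inv_ne_zero hj0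
  have hy : 0 < (((Fermat.Agent.S24.jL Qb N : ↥(modularFunctionFieldBar N))⁻¹ :
      ↥(modularFunctionFieldBar N)) : LaurentSeries Qb).order := by
    have h1 : ((Fermat.Agent.S24.jL Qb N : ↥(modularFunctionFieldBar N)) : LaurentSeries Qb) *
        (((Fermat.Agent.S24.jL Qb N : ↥(modularFunctionFieldBar N))⁻¹ :
          ↥(modularFunctionFieldBar N)) : LaurentSeries Qb) = 1 := by
      have h2 := congrArg (fun f : ↥(modularFunctionFieldBar N) => (f : LaurentSeries Qb))
        (mul_inv_cancel₀ hj0)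
      exact h2
    have h3 := congrArg HahnSeries.order h1
    rw [HahnSeries.order_mul (hne _ hj0) (hne _ hy0), HahnSeries.order_one, hj, hjo] at h3
    omega
  obtain ⟨w, d, -, hw⟩ := Fermat.Agent.S24.exists_place_of_valuation (K := Qb)
    (F := ↥(modularFunctionFieldBar N)) (fun f => (f : LaurentSeries Qb).order)
    (fun f g hf hg => HahnSeries.order_mul (hne f hf) (hne g hg))
    (fun f g _ _ hfg => HahnSeries.min_order_le_order_add (hne (f + g) hfg))
    (fun a ha => by
      show (algebraMap Qb (LaurentSeries Qb) a).order = 0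
      rw [algebraMap_laurentSeries_eq_single, HahnSeries.order_single ha])
    hy0 hy
  have h4 : (U : LaurentSeries Qb).order = d * w.ord U := hw U hU
  rw [h4]
  exact Dvd.dvd.mul_left (hdiv w) _

/-- choice of the number field: an `m`-th root of the leading coefficient. -/
theorem s35f1c_exists_field_root_B (N : ℕ) [NeZero N] {m : ℕ} (hm : m ≠ 0)
    (U : ↥(modularFunctionFieldBar N)) (hU : U ≠ 0) :
    ∃ K₁ : IntermediateField ℚ Qb, FiniteDimensional ℚ ↥K₁ ∧
      ∀ K : IntermediateField ℚ Qb, K₁ ≤ K →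
        ∀ u : ↥(laurentBaseChange ↥K (modularFunctionFieldFull N)),
          s34galEmb (modularFunctionFieldFull N) K u = U →
          ∃ b : ↥K, b ^ m = (u : LaurentSeries ↥K).leadingCoeff := by
  obtain ⟨β, hβ⟩ := IsAlgClosed.exists_pow_nat_eq ((U : LaurentSeries Qb).leadingCoeff)
    (Nat.pos_of_ne_zero hm)
  have hint : IsIntegral ℚ β := (Algebra.IsAlgebraic.isAlgebraic β).isIntegral
  refine ⟨ℚ⟮β⟯, IntermediateField.adjoin.finiteDimensional hint, ?_⟩
  intro K hK u hu
  have hβK : β ∈ K := hK (IntermediateField.mem_adjoin_simple_self ℚ β)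
  refine ⟨⟨β, hβK⟩, ?_⟩
  have hinj : Function.Injective (algebraMap ↥K Qb) := (algebraMap ↥K Qb).injective
  apply hinj
  have h1 : (U : LaurentSeries Qb) = coeffMap (algebraMap ↥K Qb) (u : LaurentSeries ↥K) := by
    rw [← hu]; rfl
  rw [map_pow, ← s35f1c6B_leadingCoeff_coeffMap _ hinj, ← h1]
  exact hβ

/-- **ROOT for F1** (what the integrator uses). -/
theorem s35f1c_exists_root_B (N : ℕ) [NeZero N] {m : ℕ} (hm : m ≠ 0) (Q : ℕ)
    (K : IntermediateField ℚ Qb) (σK : ↥K ≃ₐ[ℚ] ↥K)
    (u : ↥(laurentBaseChange ↥K (modularFunctionFieldFull N))) (hu : u ≠ 0)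
    (hdiv : ∀ P : Place Qb (modularFunctionFieldBar N),
      (m : ℤ) ∣ P.ord (s34galEmb (modularFunctionFieldFull N) K u))
    (b : ↥K) (hb : b ^ m = (u : LaurentSeries ↥K).leadingCoeff) :
    ∃ W : LaurentSeries ↥K,
      W ^ m = ((arithmeticRingAut (modularFunctionFieldFull N) σK
          (arithmeticRingAut (modularFunctionFieldFull N) σK u) / u ^ Q :
        ↥(laurentBaseChange ↥K (modularFunctionFieldFull N))) : LaurentSeries ↥K) := by
  have hinj : Function.Injective (algebraMap ↥K Qb) := (algebraMap ↥K Qb).injective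
  have hU : s34galEmb (modularFunctionFieldFull N) K u ≠ 0 := fun h =>
    hu (s34galEmb_injective (modularFunctionFieldFull N) K (h.trans (map_zero _).symm))
  have h1 := s35f1c_dvd_order_B N (s34galEmb (modularFunctionFieldFull N) K u) hU hdiv
  have h2 : ((s34galEmb (modularFunctionFieldFull N) K u :
      ↥(modularFunctionFieldBar N)) : LaurentSeries Qb).order = (u : LaurentSeries ↥K).order :=
    s35f1c6B_order_coeffMap (algebraMap ↥K Qb) hinj (u : LaurentSeries ↥K)
  rw [h2] at h1
  exact s35f1c_exists_root_series_B (modularFunctionFieldFull N) σK hm Q u hu h1 b hb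

end L6

end Fermat.Agent.S35
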