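import Mathlib
import Fermat.Agent.S34.KronDefs
import Fermat.Agent.S34.KronBasic
import Fermat.Agent.S35.F1ValDefs
import Fermat.Agent.S35.F1Val
import Fermat.Prelude.Def_ModularCurve_ArithmeticGalois

/-!
# P20 (S35), block F1-CONC, leaf L8b (second version): the vertical valuations, Frobenius and
elements congruent to `1`

KRON generic setting (`L`, `Λ ⊆ L`, `hΛ : IsGaussRing Λ π res`), `w₁ = s35valW₁`, `w₂ = s35valW₂`,
`𝒪 = kronO`.

* `s35f1c_w₁_frob_sq_B`       : (V6) `w₁ (σ (σ c) - c ^ (q ^ 2)) < 1` for constants `c ∈ Λ` when `σ`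
  induces the `q`-th power map on the residue field;
* `s35f1c_inv_one_add_mem_B`  : (hU) `(1 + π δ)⁻¹ ∈ 𝒪` for `δ ∈ 𝒪`;
* `s35f1c_sub_one_eq_B`       : (hu1) an element of `𝒪` with both reductions `1` is `1 + π δ`,
  `δ ∈ 𝒪`.
-/

set_option autoImplicit false

namespace Fermat.Agent.S35

open ModularCurve AlgebraicCurve
open Fermat.Agent.S18 Fermat.Agent.S28 Fermat.Agent.S28.FreeBasisAbs Fermat.Agent.S34

section L8

variable {L k : Type*} [Field L] [Algebra ℚ L] [Field k] {Λ : Subring L} {π : L}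
  {res : ↥Λ →+* k}

/-- A coefficientwise automorphism preserving `Λ` maps the constant `a ∈ Λ` to the constant
`σ a`. -/
theorem s35f1c8B_ringAut_algebraMap (N : ℕ) (σ : L ≃ₐ[ℚ] L) (hσΛ : ∀ a ∈ Λ, σ a ∈ Λ) (a : ↥Λ) :
    arithmeticRingAut (modularFunctionFieldFull N) σ
        (algebraMap ↥Λ ↥(laurentBaseChange L (modularFunctionFieldFull N)) a) =
      algebraMap ↥Λ ↥(laurentBaseChange L (modularFunctionFieldFull N)) ⟨σ a, hσΛ a a.2⟩ :=
  arithmeticRingAut_algebraMap (modularFunctionFieldFull N) σ (a : L)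

/-- (V6) Frobenius on constants, two steps (`hfrob` of F1-G with `Q = q ^ 2`). -/
theorem s35f1c_w₁_frob_sq_B (hΛ : IsGaussRing Λ π res) (N : ℕ) [NeZero N] (q : ℕ)
    (σ : L ≃ₐ[ℚ] L) (hσΛ : ∀ a ∈ Λ, σ a ∈ Λ)
    (hσ : ∀ a : ↥Λ, res ⟨σ a, hσΛ a a.2⟩ = res a ^ q) (c : ↥Λ) :
    s35valW₁ hΛ N (arithmeticRingAut (modularFunctionFieldFull N) σ
        (arithmeticRingAut (modularFunctionFieldFull N) σ
          (algebraMap ↥Λ ↥(laurentBaseChange L (modularFunctionFieldFull N)) c)) -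
      algebraMap ↥Λ ↥(laurentBaseChange L (modularFunctionFieldFull N)) c ^ (q ^ 2)) < 1 := by
  have e : arithmeticRingAut (modularFunctionFieldFull N) σ
        (arithmeticRingAut (modularFunctionFieldFull N) σ
          (algebraMap ↥Λ ↥(laurentBaseChange L (modularFunctionFieldFull N)) c)) -
      algebraMap ↥Λ ↥(laurentBaseChange L (modularFunctionFieldFull N)) c ^ (q ^ 2) =
      algebraMap ↥Λ ↥(laurentBaseChange L (modularFunctionFieldFull N))
        ((⟨σ ((⟨σ c, hσΛ c c.2⟩ : ↥Λ) : L), hσΛ _ (⟨σ c, hσΛ c c.2⟩ : ↥Λ).2⟩ : ↥Λ) -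
          c ^ (q ^ 2)) := by
    rw [s35f1c8B_ringAut_algebraMap N σ hσΛ c,
      s35f1c8B_ringAut_algebraMap N σ hσΛ ⟨σ c, hσΛ c c.2⟩, map_sub, map_pow]
  rw [e, s35val_w₁_algebraMap_lt_one_iff, map_sub, map_pow, hσ ⟨σ c, hσΛ c c.2⟩, hσ c, ← pow_mul,
    ← sq, sub_self]

/-- (hU) `(1 + π δ)⁻¹ ∈ 𝒪` for `δ ∈ 𝒪`. -/
theorem s35f1c_inv_one_add_mem_B (hΛ : IsGaussRing Λ π res) (ι : L →+* ℂ) (M q : ℕ) [NeZero M]
    [NeZero q] (hcop : Nat.Coprime M q)
    {δ : ↥(laurentBaseChange L (modularFunctionFieldFull (M * q)))}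
    (hδ : δ ∈ kronO Λ res ι M q hcop) :
    (1 + algebraMap L ↥(laurentBaseChange L (modularFunctionFieldFull (M * q))) π * δ)⁻¹ ∈
      kronO Λ res ι M q hcop := by
  obtain ⟨hδ1, hδ2⟩ := (s35val_mem_kronO_iff hΛ ι M q hcop δ).mp hδ
  have hπ1 : s35valW₁ hΛ (M * q)
      (algebraMap L ↥(laurentBaseChange L (modularFunctionFieldFull (M * q))) π) < 1 :=
    s35val_w₁_pi_lt_one' hΛ (M * q)
  have hπ2 : s35valW₂ hΛ ι M q hcop
      (algebraMap L ↥(laurentBaseChange L (modularFunctionFieldFull (M * q))) π) < 1 := by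
    rw [s35val_w₂_apply, AlgEquiv.commutes]
    exact hπ1
  have h1 : s35valW₁ hΛ (M * q)
      (algebraMap L ↥(laurentBaseChange L (modularFunctionFieldFull (M * q))) π * δ) < 1 := by
    rw [map_mul]
    exact lt_of_le_of_lt (mul_le_of_le_one_right' hδ1) hπ1
  have h2 : s35valW₂ hΛ ι M q hcop
      (algebraMap L ↥(laurentBaseChange L (modularFunctionFieldFull (M * q))) π * δ) < 1 := by
    rw [map_mul]
    exact lt_of_le_of_lt (mul_le_of_le_one_right' hδ2) hπ2
  rw [s35val_mem_kronO_iff hΛ ι M q hcop]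
  constructor
  · rw [map_inv₀, (s35valW₁ hΛ (M * q)).map_one_add_of_lt h1, inv_one]
  · rw [map_inv₀, (s35valW₂ hΛ ι M q hcop).map_one_add_of_lt h2, inv_one]

/-- (hu1) an element of `𝒪` with both reductions `1` is `≡ 1` modulo `π 𝒪`. -/
theorem s35f1c_sub_one_eq_B (hΛ : IsGaussRing Λ π res) (ι : L →+* ℂ) (M q : ℕ) [NeZero M]
    [NeZero q] (hcop : Nat.Coprime M q) (u : ↥(kronO Λ res ι M q hcop))
    (h1 : kronRedInf Λ res ι M q hcop u = 1) (h2 : kronRedZero Λ res ι M q hcop u = 1) :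
    ∃ δ : ↥(laurentBaseChange L (modularFunctionFieldFull (M * q))),
      δ ∈ kronO Λ res ι M q hcop ∧
      (u : ↥(laurentBaseChange L (modularFunctionFieldFull (M * q)))) - 1 =
        algebraMap L ↥(laurentBaseChange L (modularFunctionFieldFull (M * q))) π * δ := by
  have h1' := h1
  have h2' := h2
  rw [kronRedInf_apply] at h1'
  rw [kronRedZero_apply] at h2'
  have e1 : GaussL.gaussRed Λ res (laurentBaseChange L (modularFunctionFieldFull (M * q)))
      (⟨(u : ↥(laurentBaseChange L (modularFunctionFieldFull (M * q)))), u.2.1⟩ - 1) = 0 := by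
    rw [map_sub, map_one, h1', sub_self]
  have e2 : GaussL.gaussRed Λ res (laurentBaseChange L (modularFunctionFieldFull (M * q)))
      (⟨kronW L ι M q hcop (u : ↥(laurentBaseChange L (modularFunctionFieldFull (M * q)))),
        u.2.2⟩ - 1) = 0 := by
    rw [map_sub, map_one, h2', sub_self]
  obtain ⟨y₁, hy₁⟩ := (GaussL.gaussRed_eq_zero_iff
    (laurentBaseChange L (modularFunctionFieldFull (M * q))) hΛ _).mp e1
  obtain ⟨y₂, hy₂⟩ := (GaussL.gaussRed_eq_zero_iff
    (laurentBaseChange L (modularFunctionFieldFull (M * q))) hΛ _).mp e2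
  have hy₁' : (u : ↥(laurentBaseChange L (modularFunctionFieldFull (M * q)))) - 1 =
      algebraMap L ↥(laurentBaseChange L (modularFunctionFieldFull (M * q))) π *
        (y₁ : ↥(laurentBaseChange L (modularFunctionFieldFull (M * q)))) := hy₁
  have hy₂' : kronW L ι M q hcop (u : ↥(laurentBaseChange L (modularFunctionFieldFull (M * q))))
      - 1 = algebraMap L ↥(laurentBaseChange L (modularFunctionFieldFull (M * q))) π *
        (y₂ : ↥(laurentBaseChange L (modularFunctionFieldFull (M * q)))) := hy₂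
  have hπ := GaussL.algebraMap_pi_ne_zero
    (laurentBaseChange L (modularFunctionFieldFull (M * q))) hΛ
  have h3 : kronW L ι M q hcop (y₁ : ↥(laurentBaseChange L (modularFunctionFieldFull (M * q)))) =
      (y₂ : ↥(laurentBaseChange L (modularFunctionFieldFull (M * q)))) := by
    have h4 : algebraMap L ↥(laurentBaseChange L (modularFunctionFieldFull (M * q))) π *
        kronW L ι M q hcop (y₁ : ↥(laurentBaseChange L (modularFunctionFieldFull (M * q)))) =
        algebraMap L ↥(laurentBaseChange L (modularFunctionFieldFull (M * q))) π *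
          (y₂ : ↥(laurentBaseChange L (modularFunctionFieldFull (M * q)))) := by
      rw [← hy₂', ← AlgEquiv.commutes (kronW L ι M q hcop) π, ← map_mul, ← hy₁', map_sub, map_one]
    exact mul_left_cancel₀ hπ h4
  refine ⟨(y₁ : ↥(laurentBaseChange L (modularFunctionFieldFull (M * q)))), ?_, hy₁'⟩
  rw [mem_kronO_iff]
  refine ⟨y₁.2, ?_⟩
  rw [h3]
  exact y₂.2

end L8

end Fermat.Agent.S35
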