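import Mathlib
import Fermat.Agent.S34.AbsLP
import Fermat.Agent.S34.AbsHR
import Fermat.Agent.S34.AbsPlaceComp
import Fermat.Agent.S34.ModelDefs
import Fermat.Agent.S35.F1Ctrick
import Fermat.Agent.S35.F1CrossProd
import Fermat.Agent.S35.F1CrossVert

/-!
# P20 (S35), F1 without thickness input, leaf NC2: the balanced case

If the normalised mixed product `g₁` is a unit at both vertical valuations
(`g₁ ≡ c₁ y ^ N₁` at `w₁`, `g₁ ≡ c₂ x ^ N₂` at `w₂`, `c₁`, `c₂` unit constants) and `u / g₁ ^ m`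
has no horizontal order at the crossing point, then `N₁ = N₂ = 0` and `g₁ / c₂` has the shape of
the output of F1-D2.
-/

set_option autoImplicit false

namespace Fermat.Agent.S35

open IsDedekindDomain
open Fermat.Agent.S34

section PT

variable {Bη F : Type*} [CommRing Bη] [IsDedekindDomain Bη] [Field F] [Algebra Bη F]
  [IsFractionRing Bη F]
  {Λ B : Type*} [CommRing Λ] [IsDomain Λ] [IsDiscreteValuationRing Λ] [Algebra Λ F]
  [CommRing B] [IsNoetherianRing B] [Algebra B F] [Algebra Λ B] [IsScalarTower Λ B F]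

/-- An integral function without poles through `𝔪` cannot be congruent, at a vertical valuation
whose centre lies in `𝔪`, to the inverse of an element of `𝔪`. -/
theorem s35f1nc_M {Γ : Type*} [LinearOrderedCommGroupWithZero Γ]
    (ι : B →+* Bη) (hι : ∀ b : B, algebraMap Bη F (ι b) = algebraMap B F b)
    (𝔪 : Ideal B) [𝔪.IsPrime] (V : Subring F)
    (hBV : ∀ b : B, IsIntegral V (algebraMap B F b))
    (hK : ∀ y : Bη, IsIntegral V (algebraMap Bη F y) →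
      ∃ b : B, algebraMap B F b = algebraMap Bη F y)
    (w : Valuation F Γ) (hw : ∀ b : B, w (algebraMap B F b) ≤ 1)
    (h𝔪w : ∀ b : B, w (algebraMap B F b) < 1 → b ∈ 𝔪)
    (f : F) (hfV : IsIntegral V f)
    (hval : ∀ 𝔔 ∈ absThrough ι 𝔪, 𝔔.valuation F f ≤ 1)
    (z : B) (hz : z ∈ 𝔪) (hf : w (f * algebraMap B F z - 1) < 1) : False := by
  obtain ⟨d, hd, b, hb⟩ := s35f1_ctrick ι hι 𝔪 V hBV hK f hfV hval
  have h1 : b * z - d ∈ 𝔪 := by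
    apply h𝔪w
    have : algebraMap B F (b * z - d) = algebraMap B F d * (f * algebraMap B F z - 1) := by
      rw [map_sub, map_mul, hb]; ring
    rw [this, map_mul]
    exact s35f1d2_mul_lt_one (hw d) hf
  have h2 : d ∈ 𝔪 := by
    have := 𝔪.sub_mem (𝔪.mul_mem_left b hz) h1
    rwa [sub_sub_cancel] at this
  exact hd h2

/-- The exponent of the branch function vanishes. -/
theorem s35f1nc_exp_zero {Γ : Type*} [LinearOrderedCommGroupWithZero Γ]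
    (ι : B →+* Bη) (hι : ∀ b : B, algebraMap Bη F (ι b) = algebraMap B F b)
    (𝔪 : Ideal B) [𝔪.IsPrime] (V : Subring F)
    (hBV : ∀ b : B, IsIntegral V (algebraMap B F b))
    (hK : ∀ y : Bη, IsIntegral V (algebraMap Bη F y) →
      ∃ b : B, algebraMap B F b = algebraMap Bη F y)
    (w : Valuation F Γ) (hw : ∀ b : B, w (algebraMap B F b) ≤ 1)
    (h𝔪w : ∀ b : B, w (algebraMap B F b) < 1 → b ∈ 𝔪)
    (m : ℕ) (hm : m ≠ 0) {u : F} (huw : w (u - 1) < 1)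
    (y : B) (hy𝔪 : y ∈ 𝔪) (hyw : w (algebraMap B F y) = 1)
    (g₁ : F) (c₁ c₁' : Λ) (hcc : c₁ * c₁' = 1) (hcw : w (algebraMap Λ F c₁) = 1)
    (N₁ : ℤ) (h₁ : w (g₁ - algebraMap Λ F c₁ * algebraMap B F y ^ N₁) < 1)
    (hEV : IsIntegral V (u / g₁ ^ m)) (hEV' : IsIntegral V (u / g₁ ^ m)⁻¹)
    (hval : ∀ 𝔔 ∈ absThrough ι 𝔪, 𝔔.valuation F (u / g₁ ^ m) = 1) : N₁ = 0 := by
  have hΛF : ∀ c : Λ, algebraMap Λ F c = algebraMap B F (algebraMap Λ B c) :=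
    fun c => IsScalarTower.algebraMap_apply Λ B F c
  have hY0 : algebraMap B F y ≠ 0 := by
    intro h
    rw [h, map_zero] at hyw
    exact zero_ne_one hyw
  have hC0 : algebraMap Λ F c₁ ≠ 0 := by
    intro h
    rw [h, map_zero] at hcw
    exact zero_ne_one hcw
  have hCC' : algebraMap Λ F c₁ * algebraMap Λ F c₁' = 1 := by rw [← map_mul, hcc, map_one]
  have hC'eq : algebraMap Λ F c₁' = (algebraMap Λ F c₁)⁻¹ := eq_inv_of_mul_eq_one_right hCC'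
  have hcy : w (algebraMap Λ F c₁ * algebraMap B F y ^ N₁) = 1 := by
    rw [map_mul, map_zpow₀, hyw, one_zpow, mul_one, hcw]
  have hu0 : u ≠ 0 := s35f1d2_ou_ne w huw
  have hg0 : g₁ ≠ 0 := by
    intro h
    have h2 := s35f1d_eq_of_sub_lt w (by rw [hcy]; exact h₁)
    rw [h, map_zero, hcy] at h2
    exact zero_ne_one h2
  have hr : w (g₁ / (algebraMap Λ F c₁ * algebraMap B F y ^ N₁) - 1) < 1 := by
    have hne : algebraMap Λ F c₁ * algebraMap B F y ^ N₁ ≠ 0 :=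
      mul_ne_zero hC0 (zpow_ne_zero _ hY0)
    have e : g₁ / (algebraMap Λ F c₁ * algebraMap B F y ^ N₁) - 1
        = (g₁ - algebraMap Λ F c₁ * algebraMap B F y ^ N₁)
          / (algebraMap Λ F c₁ * algebraMap B F y ^ N₁) := by
      field_simp
    rw [e, map_div₀, hcy, div_one]
    exact h₁
  by_contra hN
  rcases lt_or_gt_of_ne hN with hN | hN
  · obtain ⟨n, rfl⟩ : ∃ n : ℕ, N₁ = -(n : ℤ) := ⟨(-N₁).toNat, by omega⟩
    have hn : n ≠ 0 := by omega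
    rw [zpow_neg, zpow_natCast] at hr
    refine s35f1nc_M ι hι 𝔪 V hBV hK w hw h𝔪w (u / g₁ ^ m)⁻¹ hEV' ?_
      ((algebraMap Λ B c₁') ^ m * y ^ (n * m))
      (𝔪.mul_mem_left _ (𝔪.pow_mem_of_mem hy𝔪 _
        (Nat.pos_of_ne_zero (Nat.mul_ne_zero hn hm)))) ?_
    · intro 𝔔 h𝔔
      rw [map_inv₀, hval 𝔔 h𝔔, inv_one]
    · have e : (u / g₁ ^ m)⁻¹ * algebraMap B F ((algebraMap Λ B c₁') ^ m * y ^ (n * m))
          = u⁻¹ * (g₁ / (algebraMap Λ F c₁ * (algebraMap B F y ^ n)⁻¹)) ^ m := by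
        have h1 : g₁ / (algebraMap Λ F c₁ * (algebraMap B F y ^ n)⁻¹)
            = g₁ * (algebraMap Λ F c₁)⁻¹ * algebraMap B F y ^ n := by
          rw [div_eq_mul_inv, mul_inv, inv_inv, mul_assoc]
        rw [map_mul, map_pow, map_pow, ← hΛF, pow_mul, hC'eq, h1, inv_div, mul_pow, mul_pow]
        ring
      rw [e]
      exact s35f1d2_ou_mul w (s35f1d2_ou_inv w huw) (s35f1d2_ou_pow w hr m)
  · obtain ⟨n, rfl⟩ : ∃ n : ℕ, N₁ = (n : ℤ) := ⟨N₁.toNat, by omega⟩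
    have hn : n ≠ 0 := by omega
    rw [zpow_natCast] at hr
    refine s35f1nc_M ι hι 𝔪 V hBV hK w hw h𝔪w (u / g₁ ^ m) hEV
      (fun 𝔔 h𝔔 => (hval 𝔔 h𝔔).le)
      ((algebraMap Λ B c₁) ^ m * y ^ (n * m))
      (𝔪.mul_mem_left _ (𝔪.pow_mem_of_mem hy𝔪 _
        (Nat.pos_of_ne_zero (Nat.mul_ne_zero hn hm)))) ?_
    have e : u / g₁ ^ m * algebraMap B F ((algebraMap Λ B c₁) ^ m * y ^ (n * m))
        = u * ((g₁ / (algebraMap Λ F c₁ * algebraMap B F y ^ n))⁻¹) ^ m := by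
      rw [map_mul, map_pow, map_pow, ← hΛF, pow_mul, inv_div, div_pow, mul_pow]
      ring
    rw [e]
    exact s35f1d2_ou_mul w huw (s35f1d2_ou_pow w (s35f1d2_ou_inv w hr) m)

/-- (NC2, file `S35/F1nBal.lean`) the balanced case: both exponents vanish and the datum has the
shape of the output of F1-D2. -/
theorem s35f1n_balanced
    {Γ₁ Γ₂ : Type*} [LinearOrderedCommGroupWithZero Γ₁] [LinearOrderedCommGroupWithZero Γ₂]
    (ι : B →+* Bη) (hι : ∀ b : B, algebraMap Bη F (ι b) = algebraMap B F b)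
    (𝔪 : Ideal B) [𝔪.IsPrime] (π : Λ) (hπ : Irreducible π)
    (hπu : IsUnit (ι (algebraMap Λ B π))) (V : Subring F)
    (hBV : ∀ b : B, IsIntegral V (algebraMap B F b))
    (hK : ∀ y : Bη, IsIntegral V (algebraMap Bη F y) →
      ∃ b : B, algebraMap B F b = algebraMap Bη F y)
    (w₁ : Valuation F Γ₁) (w₂ : Valuation F Γ₂)
    (hVw : ∀ f : F, IsIntegral V f ↔ w₁ f ≤ 1 ∧ w₂ f ≤ 1)
    (hπ₁ : w₁ (algebraMap Λ F π) < 1) (hπ₂ : w₂ (algebraMap Λ F π) < 1)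
    (h𝔪₁ : ∀ b : B, w₁ (algebraMap B F b) < 1 → b ∈ 𝔪)
    (h𝔪₂ : ∀ b : B, w₂ (algebraMap B F b) < 1 → b ∈ 𝔪)
    (m : ℕ) (hm : m ≠ 0) {u : F} (hu : u ≠ 0)
    (hu1 : ∃ δ : F, IsIntegral V δ ∧ u - 1 = π • δ)
    (x y : B) (hx𝔪 : x ∈ 𝔪) (hy𝔪 : y ∈ 𝔪)
    (hx₂ : w₂ (algebraMap B F x) = 1) (hy₁ : w₁ (algebraMap B F y) = 1)
    (g₁ : F) (c₁ c₂ : Λ) (N₁ N₂ : ℤ) (hg₁0 : g₁ ≠ 0) (hc₁ : IsUnit c₁) (hc₂ : IsUnit c₂)
    (h₁ : w₁ (g₁ - algebraMap Λ F c₁ * algebraMap B F y ^ N₁) < 1)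
    (h₂ : w₂ (g₁ - algebraMap Λ F c₂ * algebraMap B F x ^ N₂) < 1)
    (hval : ∀ 𝔔 ∈ absThrough ι 𝔪, 𝔔.valuation F (u / g₁ ^ m) = 1) :
    ∃ (g' : F) (c : Λ), g' ≠ 0 ∧ IsUnit c ∧ w₁ (g' - algebraMap Λ F c) < 1 ∧
      w₂ (g' - 1) < 1 ∧ ∀ 𝔔 ∈ absThrough ι 𝔪, 𝔔.valuation F (u / g' ^ m) = 1 := by
  obtain ⟨δ, hδV, hδ⟩ := hu1
  have hΛF : ∀ c : Λ, algebraMap Λ F c = algebraMap B F (algebraMap Λ B c) :=
    fun c => IsScalarTower.algebraMap_apply Λ B F c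
  have hB : ∀ b : B, w₁ (algebraMap B F b) ≤ 1 ∧ w₂ (algebraMap B F b) ≤ 1 :=
    fun b => (hVw _).1 (hBV b)
  have hΛV : ∀ c : Λ, w₁ (algebraMap Λ F c) ≤ 1 ∧ w₂ (algebraMap Λ F c) ≤ 1 := fun c => by
    rw [hΛF]; exact hB _
  have hΛu : ∀ c : Λ, IsUnit c → w₁ (algebraMap Λ F c) = 1 ∧ w₂ (algebraMap Λ F c) = 1 := by
    intro c hc
    obtain ⟨c', hc'⟩ := hc.exists_right_inv
    have e : algebraMap Λ F c * algebraMap Λ F c' = 1 := by rw [← map_mul, hc', map_one]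
    have e1 : w₁ (algebraMap Λ F c) * w₁ (algebraMap Λ F c') = 1 := by
      rw [← map_mul, e, map_one]
    have e2 : w₂ (algebraMap Λ F c) * w₂ (algebraMap Λ F c') = 1 := by
      rw [← map_mul, e, map_one]
    exact ⟨s35f1d2_eq_one_of_mul (hΛV c).1 (hΛV c').1 e1,
      s35f1d2_eq_one_of_mul (hΛV c).2 (hΛV c').2 e2⟩
  have hΛQ : ∀ c : Λ, IsUnit c → ∀ 𝔔 : HeightOneSpectrum Bη,
      𝔔.valuation F (algebraMap Λ F c) = 1 := by
    intro c hc 𝔔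
    rw [hΛF, ← hι]
    exact s35f1d2_val_unit _ ((hc.map _).map _) 𝔔
  have hu₁ : w₁ (u - 1) < 1 := by
    rw [hδ, Algebra.smul_def, map_mul, mul_comm]
    exact s35f1d2_mul_lt_one ((hVw δ).1 hδV).1 hπ₁
  have hu₂ : w₂ (u - 1) < 1 := by
    rw [hδ, Algebra.smul_def, map_mul, mul_comm]
    exact s35f1d2_mul_lt_one ((hVw δ).1 hδV).2 hπ₂
  obtain ⟨c₁', hc₁'⟩ := hc₁.exists_right_inv
  obtain ⟨c₂', hc₂'⟩ := hc₂.exists_right_inv
  have hc₂'u : IsUnit c₂' := isUnit_iff_exists_inv'.mpr ⟨c₂, hc₂'⟩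
  -- `g₁` is a unit at both vertical valuations
  have hcy₁ : w₁ (algebraMap Λ F c₁ * algebraMap B F y ^ N₁) = 1 := by
    rw [map_mul, map_zpow₀, hy₁, one_zpow, mul_one, (hΛu c₁ hc₁).1]
  have hcx₂ : w₂ (algebraMap Λ F c₂ * algebraMap B F x ^ N₂) = 1 := by
    rw [map_mul, map_zpow₀, hx₂, one_zpow, mul_one, (hΛu c₂ hc₂).2]
  have hgw₁ : w₁ g₁ = 1 := by
    rw [← hcy₁]
    exact s35f1d_eq_of_sub_lt w₁ (by rw [hcy₁]; exact h₁)
  have hgw₂ : w₂ g₁ = 1 := by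
    rw [← hcx₂]
    exact s35f1d_eq_of_sub_lt w₂ (by rw [hcx₂]; exact h₂)
  have hEw₁ : w₁ (u / g₁ ^ m) = 1 := by
    rw [map_div₀, map_pow, hgw₁, one_pow, div_one, s35f1d2_ou_val w₁ hu₁]
  have hEw₂ : w₂ (u / g₁ ^ m) = 1 := by
    rw [map_div₀, map_pow, hgw₂, one_pow, div_one, s35f1d2_ou_val w₂ hu₂]
  have hEV : IsIntegral V (u / g₁ ^ m) := (hVw _).2 ⟨hEw₁.le, hEw₂.le⟩
  have hEV' : IsIntegral V (u / g₁ ^ m)⁻¹ := by
    refine (hVw _).2 ⟨?_, ?_⟩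
    · rw [map_inv₀, hEw₁, inv_one]
    · rw [map_inv₀, hEw₂, inv_one]
  have hN₁ : N₁ = 0 :=
    s35f1nc_exp_zero ι hι 𝔪 V hBV hK w₁ (fun b => (hB b).1) h𝔪₁ m hm hu₁ y hy𝔪 hy₁ g₁ c₁ c₁'
      hc₁' (hΛu c₁ hc₁).1 N₁ h₁ hEV hEV' hval
  have hN₂ : N₂ = 0 :=
    s35f1nc_exp_zero ι hι 𝔪 V hBV hK w₂ (fun b => (hB b).2) h𝔪₂ m hm hu₂ x hx𝔪 hx₂ g₁ c₂ c₂'
      hc₂' (hΛu c₂ hc₂).2 N₂ h₂ hEV hEV' hval
  subst hN₁ hN₂
  rw [zpow_zero, mul_one] at h₁ h₂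
  have hCC' : algebraMap Λ F c₂ * algebraMap Λ F c₂' = 1 := by rw [← map_mul, hc₂', map_one]
  have hC₂0 : algebraMap Λ F c₂ ≠ 0 := left_ne_zero_of_mul_eq_one hCC'
  have hC₂'0 : algebraMap Λ F c₂' ≠ 0 := right_ne_zero_of_mul_eq_one hCC'
  have hC'eq : algebraMap Λ F c₂' = (algebraMap Λ F c₂)⁻¹ := eq_inv_of_mul_eq_one_right hCC'
  refine ⟨g₁ * algebraMap Λ F c₂', c₁ * c₂', mul_ne_zero hg₁0 hC₂'0, hc₁.mul hc₂'u, ?_, ?_, ?_⟩
  · have e : g₁ * algebraMap Λ F c₂' - algebraMap Λ F (c₁ * c₂')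
        = (g₁ - algebraMap Λ F c₁) * algebraMap Λ F c₂' := by
      rw [map_mul]; ring
    rw [e, map_mul, (hΛu c₂' hc₂'u).1, mul_one]
    exact h₁
  · have e : g₁ * algebraMap Λ F c₂' - 1 = (g₁ - algebraMap Λ F c₂) * algebraMap Λ F c₂' := by
      rw [sub_mul, hCC']
    rw [e, map_mul, (hΛu c₂' hc₂'u).2, mul_one]
    exact h₂
  · intro 𝔔 h𝔔
    have e : u / (g₁ * algebraMap Λ F c₂') ^ m = u / g₁ ^ m * algebraMap Λ F c₂ ^ m := by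
      rw [hC'eq, mul_pow, inv_pow, div_eq_mul_inv, mul_inv, inv_inv, div_eq_mul_inv, mul_assoc]
    rw [e, map_mul, hval 𝔔 h𝔔, map_pow, hΛQ c₂ hc₂, one_pow, one_mul]

end PT

end Fermat.Agent.S35
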