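import Mathlib
import Fermat.Agent.S34.AbsLP
import Fermat.Agent.S34.AbsHR
import Fermat.Agent.S34.AbsPlaceComp
import Fermat.Agent.S34.ModelDefs
import Fermat.Agent.S35.F1Ctrick
import Fermat.Agent.S35.F1CrossProd
import Fermat.Agent.S35.F1CrossVert

/-!
# P20 (S35), block F1-NOFT, leaf NC3 (second team): the thickness certificate

In the unbalanced case of the vertical analysis at a crossing point, the function `u`
(`u ≡ 1` on both vertical components) and the normalised product `g₁` (a unit at `w₁`, of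
order `p ≠ 0` at `w₂`, with `u / g₁ ^ m` of trivial horizontal valuation through `𝔪`) yield a
certificate `φ₀` with no horizontal order at `𝔪`, `w₁ φ₀ = 1` and `w₂ φ₀ = w₂(π) ^ n`, `n > 0`:
`φ₀ = g₁ ^ m / u` if `p > 0` and `φ₀ = u / g₁ ^ m` if `p < 0` (`s35f1n_cert_B`).
-/

set_option autoImplicit false

namespace Fermat.Agent.S35

open IsDedekindDomain
open Fermat.Agent.S34

/-- An element congruent to one has valuation one. -/
theorem s35f1nc3b_val_one {F Γ : Type*} [Field F] [LinearOrderedCommGroupWithZero Γ]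
    (w : Valuation F Γ) {u : F} (h : w (u - 1) < 1) : w u = 1 := by
  have h1 : w (u - 1) < w 1 := by rw [map_one]; exact h
  have h2 : w (1 + (u - 1)) = w 1 := Valuation.map_add_eq_of_lt_left w h1
  rwa [add_sub_cancel, map_one] at h2

section PT

variable {Bη F : Type*} [CommRing Bη] [IsDedekindDomain Bη] [Field F] [Algebra Bη F]
  [IsFractionRing Bη F]
  {Λ B : Type*} [CommRing Λ] [IsDomain Λ] [IsDiscreteValuationRing Λ] [Algebra Λ F]
  [CommRing B] [IsNoetherianRing B] [Algebra B F] [Algebra Λ B] [IsScalarTower Λ B F]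

/-- (NC3, second team) the unbalanced case: `u` yields a thickness certificate. -/
theorem s35f1n_cert_B
    {Γ₁ Γ₂ : Type*} [LinearOrderedCommGroupWithZero Γ₁] [LinearOrderedCommGroupWithZero Γ₂]
    (ι : B →+* Bη) (𝔪 : Ideal B) (π : Λ)
    (w₁ : Valuation F Γ₁) (w₂ : Valuation F Γ₂)
    (m : ℕ) (hm : m ≠ 0) {u : F} (hu₁ : w₁ (u - 1) < 1) (hu₂ : w₂ (u - 1) < 1)
    (g₁ : F) (p : ℤ) (hp : p ≠ 0) (hw₁ : w₁ g₁ = 1)
    (hw₂ : w₂ g₁ = w₂ (algebraMap Λ F π) ^ p)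
    (hval : ∀ 𝔔 ∈ absThrough ι 𝔪, 𝔔.valuation F (u / g₁ ^ m) = 1) :
    ∃ (φ₀ : F) (n : ℕ), 0 < n ∧ w₁ φ₀ = 1 ∧ w₂ φ₀ = w₂ (algebraMap Λ F π) ^ n ∧
      ∀ 𝔔 ∈ absThrough ι 𝔪, 𝔔.valuation F φ₀ = 1 := by
  have hu1 : w₁ u = 1 := s35f1nc3b_val_one w₁ hu₁
  have hu2 : w₂ u = 1 := s35f1nc3b_val_one w₂ hu₂
  have hm0 : 0 < m := Nat.pos_of_ne_zero hm
  rcases lt_or_gt_of_ne hp with hneg | hpos
  · -- `p < 0`: `φ₀ = u / g₁ ^ m`
    have hpn : 0 < (-p).toNat := by omega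
    refine ⟨u / g₁ ^ m, (-p).toNat * m, Nat.mul_pos hpn hm0, ?_, ?_, hval⟩
    · rw [map_div₀, map_pow, hu1, hw₁, one_pow, div_one]
    · have hn : (((-p).toNat * m : ℕ) : ℤ) = -(p * m) := by
        rw [Nat.cast_mul, Int.toNat_of_nonneg (by omega)]
        ring
      rw [map_div₀, map_pow, hu2, hw₂, one_div,
        ← zpow_natCast (w₂ (algebraMap Λ F π)) ((-p).toNat * m), hn, zpow_neg, zpow_mul,
        zpow_natCast]
  · -- `p > 0`: `φ₀ = g₁ ^ m / u`
    have hpn : 0 < p.toNat := by omega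
    refine ⟨g₁ ^ m / u, p.toNat * m, Nat.mul_pos hpn hm0, ?_, ?_, ?_⟩
    · rw [map_div₀, map_pow, hu1, hw₁, one_pow, div_one]
    · have hn : ((p.toNat * m : ℕ) : ℤ) = p * m := by
        rw [Nat.cast_mul, Int.toNat_of_nonneg hpos.le]
      rw [map_div₀, map_pow, hu2, hw₂, div_one,
        ← zpow_natCast (w₂ (algebraMap Λ F π)) (p.toNat * m), hn, zpow_mul, zpow_natCast]
    · intro 𝔔 h𝔔
      rw [← inv_div, map_inv₀, hval 𝔔 h𝔔, inv_one]

end PT

end Fermat.Agent.S35
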