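import Mathlib
import Fermat.Agent.S34.AbsLP
import Fermat.Agent.S34.AbsHR
import Fermat.Agent.S34.AbsPlaceComp
import Fermat.Agent.S34.ModelDefs
import Fermat.Agent.S35.F1Ctrick
import Fermat.Agent.S35.F1CrossProd
import Fermat.Agent.S35.F1CrossVert

/-!
# P20 (S35), block F1-NOFT, leaf NC1 (third team): normalisation of the mixed product

`s35f1n_normalise_C`: the mixed product `g` at a crossing point (output of the product step, with
constants `a, a', b, b'` of the discrete valuation ring `Λ`) is normalised by a power of the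
uniformiser `π`: writing `a = v_a π ^ k_a`, ..., the element `g₁ = g π ^ (k_a' - k_a)` is congruent
to `c₁ y ^ N₁` at `w₁` and to `c₂ π ^ p x ^ N₂` (relative to `w₂(π) ^ p`) at `w₂`, with units
`c₁ = v_a / v_a'`, `c₂ = v_b / v_b'` and `p = (k_b - k_b') - (k_a - k_a')`; the horizontal
valuations do not change since `π` is a unit on the generic fibre.
-/

set_option autoImplicit false
set_option linter.unusedSectionVars false
set_option linter.unusedVariables false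

namespace Fermat.Agent.S35

open IsDedekindDomain
open Fermat.Agent.S34

/-- Division of a congruence `g v' P ^ k' ≡ v P ^ k Z` by `v' P ^ k'` and multiplication by
`P ^ j`. -/
theorem s35f1nc1C_key {F Γ : Type*} [Field F] [LinearOrderedCommGroupWithZero Γ]
    (w : Valuation F Γ) {P v v' : F} (hP : P ≠ 0) (hv : w v = 1) (hv' : w v' = 1)
    (g Z : F) (k k' : ℕ) (j e : ℤ) (he : e = j + k - k')
    (h : w (g * (v' * P ^ k') - v * P ^ k * Z) < w (v * P ^ k)) :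
    w (g * P ^ j - v * v'⁻¹ * P ^ e * Z) < w P ^ e := by
  have hv'0 : v' ≠ 0 := by
    rintro rfl
    rw [map_zero] at hv'
    exact zero_ne_one hv'
  have hwP : w P ≠ 0 := (Valuation.ne_zero_iff w).mpr hP
  have h1 : P ^ (j - k') * P ^ k' = P ^ j := by
    rw [← zpow_natCast P k', ← zpow_add₀ hP, sub_add_cancel]
  have h2 : P ^ (j - k') * P ^ k = P ^ e := by
    rw [← zpow_natCast P k, ← zpow_add₀ hP, he]
    congr 1
    ring
  have e1 : g * P ^ j - v * v'⁻¹ * P ^ e * Z =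
      P ^ (j - k') * v'⁻¹ * (g * (v' * P ^ k') - v * P ^ k * Z) := by
    have e0 : P ^ (j - k') * v'⁻¹ * (g * (v' * P ^ k') - v * P ^ k * Z) =
        g * (P ^ (j - k') * P ^ k') * (v'⁻¹ * v') - v * v'⁻¹ * (P ^ (j - k') * P ^ k) * Z := by
      ring
    rw [e0, h1, h2, inv_mul_cancel₀ hv'0, mul_one]
  have e2 : w P ^ e = w P ^ (j - k') * w (v * P ^ k) := by
    rw [map_mul, hv, one_mul, map_pow, ← zpow_natCast (w P) k, ← zpow_add₀ hwP, he]
    congr 1
    ring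
  rw [e1, map_mul, map_mul, map_inv₀, hv', inv_one, mul_one, map_zpow₀, e2]
  exact mul_lt_mul_of_pos_left h (zpow_pos (zero_lt_iff.mpr hwP) _)

section PT

variable {Bη F : Type*} [CommRing Bη] [IsDedekindDomain Bη] [Field F] [Algebra Bη F]
  [IsFractionRing Bη F]
  {Λ B : Type*} [CommRing Λ] [IsDomain Λ] [IsDiscreteValuationRing Λ] [Algebra Λ F]
  [CommRing B] [IsNoetherianRing B] [Algebra B F] [Algebra Λ B] [IsScalarTower Λ B F]

/-- (NC1, third team) normalisation of the mixed product by a power of `π`. -/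
theorem s35f1n_normalise_C
    {Γ₁ Γ₂ : Type*} [LinearOrderedCommGroupWithZero Γ₁] [LinearOrderedCommGroupWithZero Γ₂]
    (ι : B →+* Bη) (hι : ∀ b : B, algebraMap Bη F (ι b) = algebraMap B F b)
    (𝔪 : Ideal B) (π : Λ) (hπ : Irreducible π)
    (hπu : IsUnit (ι (algebraMap Λ B π))) (V : Subring F)
    (hBV : ∀ b : B, IsIntegral V (algebraMap B F b))
    (w₁ : Valuation F Γ₁) (w₂ : Valuation F Γ₂)
    (hVw : ∀ f : F, IsIntegral V f ↔ w₁ f ≤ 1 ∧ w₂ f ≤ 1)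
    (m : ℕ) {u : F}
    (x y : B) (hx₂ : w₂ (algebraMap B F x) = 1) (hy₁ : w₁ (algebraMap B F y) = 1)
    (g : F) (a a' b b' : Λ) (N₁ N₂ : ℤ) (hg : g ≠ 0) (ha : a ≠ 0) (ha' : a' ≠ 0)
    (hb : b ≠ 0) (hb' : b' ≠ 0)
    (hg₁ : w₁ (g * algebraMap Λ F a' - algebraMap Λ F a * algebraMap B F y ^ N₁)
      < w₁ (algebraMap Λ F a))
    (hg₂ : w₂ (g * algebraMap Λ F b' - algebraMap Λ F b * algebraMap B F x ^ N₂)
      < w₂ (algebraMap Λ F b))
    (hval : ∀ 𝔔 ∈ absThrough ι 𝔪, 𝔔.valuation F (u / g ^ m) = 1) :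
    ∃ (g₁ : F) (c₁ c₂ : Λ) (p : ℤ), g₁ ≠ 0 ∧ IsUnit c₁ ∧ IsUnit c₂ ∧
      w₁ (g₁ - algebraMap Λ F c₁ * algebraMap B F y ^ N₁) < 1 ∧
      w₂ (g₁ - algebraMap Λ F c₂ * algebraMap Λ F π ^ p * algebraMap B F x ^ N₂)
        < w₂ (algebraMap Λ F π) ^ p ∧
      ∀ 𝔔 ∈ absThrough ι 𝔪, 𝔔.valuation F (u / g₁ ^ m) = 1 := by
  -- constants of `Λ` are `V`-integral, units of `Λ` have valuations `1`
  have hΛF : ∀ c : Λ, algebraMap Λ F c = algebraMap B F (algebraMap Λ B c) :=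
    fun c => IsScalarTower.algebraMap_apply Λ B F c
  have hΛV : ∀ c : Λ, w₁ (algebraMap Λ F c) ≤ 1 ∧ w₂ (algebraMap Λ F c) ≤ 1 := fun c => by
    rw [hΛF]
    exact (hVw _).1 (hBV _)
  have hΛu : ∀ c : Λ, IsUnit c → w₁ (algebraMap Λ F c) = 1 ∧ w₂ (algebraMap Λ F c) = 1 := by
    intro c hc
    obtain ⟨c', hc'⟩ := hc.exists_right_inv
    have e : algebraMap Λ F c * algebraMap Λ F c' = 1 := by rw [← map_mul, hc', map_one]
    have e1 : w₁ (algebraMap Λ F c) * w₁ (algebraMap Λ F c') = 1 := by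
      rw [← map_mul, e, map_one]
    have e2 : w₂ (algebraMap Λ F c) * w₂ (algebraMap Λ F c') = 1 := by
      rw [← map_mul, e, map_one]
    exact ⟨s35f1d2_eq_one_of_mul (hΛV c).1 (hΛV c').1 e1,
      s35f1d2_eq_one_of_mul (hΛV c).2 (hΛV c').2 e2⟩
  -- `π` is a unit on the generic fibre
  have hPη : algebraMap Λ F π = algebraMap Bη F (ι (algebraMap Λ B π)) := by
    rw [hι, ← hΛF]
  have hP0 : algebraMap Λ F π ≠ 0 := by
    rw [hPη]
    exact (hπu.map (algebraMap Bη F)).ne_zero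
  have hPQ : ∀ 𝔔 : HeightOneSpectrum Bη, 𝔔.valuation F (algebraMap Λ F π) = 1 := fun 𝔔 => by
    rw [hPη]
    exact s35f1d2_val_unit _ hπu 𝔔
  -- the four constants
  obtain ⟨ka, va, rfl⟩ := IsDiscreteValuationRing.eq_unit_mul_pow_irreducible ha hπ
  obtain ⟨ka', va', rfl⟩ := IsDiscreteValuationRing.eq_unit_mul_pow_irreducible ha' hπ
  obtain ⟨kb, vb, rfl⟩ := IsDiscreteValuationRing.eq_unit_mul_pow_irreducible hb hπ
  obtain ⟨kb', vb', rfl⟩ := IsDiscreteValuationRing.eq_unit_mul_pow_irreducible hb' hπ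
  have hmp : ∀ (v : Λˣ) (k : ℕ), algebraMap Λ F ((v : Λ) * π ^ k) =
      algebraMap Λ F (v : Λ) * algebraMap Λ F π ^ k := fun v k => by rw [map_mul, map_pow]
  rw [hmp, hmp] at hg₁ hg₂
  have hinv : ∀ v v' : Λˣ, algebraMap Λ F ((v * v'⁻¹ : Λˣ) : Λ) =
      algebraMap Λ F (v : Λ) * (algebraMap Λ F (v' : Λ))⁻¹ := fun v v' => by
    rw [Units.val_mul, map_mul, map_units_inv]
  refine ⟨g * algebraMap Λ F π ^ ((ka' : ℤ) - ka), ((va * va'⁻¹ : Λˣ) : Λ),
    ((vb * vb'⁻¹ : Λˣ) : Λ), ((kb : ℤ) - kb') - ((ka : ℤ) - ka'),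
    mul_ne_zero hg (zpow_ne_zero _ hP0), Units.isUnit _, Units.isUnit _, ?_, ?_, ?_⟩
  · have h := s35f1nc1C_key w₁ hP0 (hΛu _ va.isUnit).1 (hΛu _ va'.isUnit).1 g
      (algebraMap B F y ^ N₁) ka ka' ((ka' : ℤ) - ka) 0 (by ring) hg₁
    rw [zpow_zero, mul_one, zpow_zero] at h
    rw [hinv]
    exact h
  · have h := s35f1nc1C_key w₂ hP0 (hΛu _ vb.isUnit).2 (hΛu _ vb'.isUnit).2 g
      (algebraMap B F x ^ N₂) kb kb' ((ka' : ℤ) - ka) (((kb : ℤ) - kb') - ((ka : ℤ) - ka'))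
      (by ring) hg₂
    rw [hinv]
    exact h
  · intro 𝔔 h𝔔
    have e : u / (g * algebraMap Λ F π ^ ((ka' : ℤ) - ka)) ^ m =
        (u / g ^ m) * ((algebraMap Λ F π ^ ((ka' : ℤ) - ka))⁻¹) ^ m := by
      rw [mul_pow, inv_pow, div_mul_eq_div_div, div_eq_mul_inv (u / g ^ m)]
    rw [e, map_mul, hval 𝔔 h𝔔, map_pow, map_inv₀, map_zpow₀, hPQ, one_zpow, inv_one, one_pow,
      mul_one]

end PT

end Fermat.Agent.S35
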