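import Mathlib
import Fermat.Agent.S34.AbsLP
import Fermat.Agent.S34.AbsHR
import Fermat.Agent.S34.AbsPlaceComp
import Fermat.Agent.S34.ModelDefs
import Fermat.Agent.S35.F1Ctrick
import Fermat.Agent.S35.F1CrossProd
import Fermat.Agent.S35.F1CrossVert

/-!
P20 (S35), NOFT crossing package, leaf NB: the product step at a crossing point with places of
both types (mixed product).
-/

set_option autoImplicit false
set_option linter.unusedSectionVars false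

namespace Fermat.Agent.S35

open IsDedekindDomain
open Fermat.Agent.S34

/-- Multiplicativity of the relation `w (f * α' - α * t ^ N) < w α` (`w t = 1`). -/
theorem s35f1nb_mul {F Γ : Type*} [Field F] [LinearOrderedCommGroupWithZero Γ]
    (w : Valuation F Γ) {t : F} (ht : w t = 1) {f f' α α' β β' : F} {N N' : ℤ}
    (h : w (f * α' - α * t ^ N) < w α) (h' : w (f' * β' - β * t ^ N') < w β) :
    w (f * f' * (α' * β') - α * β * t ^ (N + N')) < w (α * β) := by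
  have ht0 : t ≠ 0 := (Valuation.ne_zero_iff w).1 (by rw [ht]; exact one_ne_zero)
  have hA : ∀ (γ : F) (M : ℤ), w (γ * t ^ M) = w γ := fun γ M => by
    rw [map_mul, map_zpow₀, ht, one_zpow, mul_one]
  have h1 : w (f * α' - α * t ^ N) < w (α * t ^ N) := by rw [hA]; exact h
  have h1' : w (f' * β' - β * t ^ N') < w (β * t ^ N') := by rw [hA]; exact h'
  have h2 := s35f1d_w_mul w h1 h1'
  have e : α * t ^ N * (β * t ^ N') = α * β * t ^ (N + N') := by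
    rw [zpow_add₀ ht0]
    ring
  rw [e, hA] at h2
  exact h2

/-- Inversion for the relation `w (f * α' - α * t ^ N) < w α` (`w t = 1`). -/
theorem s35f1nb_inv {F Γ : Type*} [Field F] [LinearOrderedCommGroupWithZero Γ]
    (w : Valuation F Γ) {t : F} (ht : w t = 1) {f α α' : F} {N : ℤ}
    (h : w (f * α' - α * t ^ N) < w α) :
    w (f⁻¹ * α - α' * t ^ (-N)) < w α' := by
  have ht0 : t ≠ 0 := (Valuation.ne_zero_iff w).1 (by rw [ht]; exact one_ne_zero)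
  have hA : ∀ (γ : F) (M : ℤ), w (γ * t ^ M) = w γ := fun γ M => by
    rw [map_mul, map_zpow₀, ht, one_zpow, mul_one]
  have h1 : w (f * α' - α * t ^ N) < w (α * t ^ N) := by rw [hA]; exact h
  have h2 := s35f1d_w_inv w h1
  have e : f⁻¹ * α - α' * t ^ (-N) = (f⁻¹ * (α * t ^ N) - α') * t ^ (-N) := by
    have e1 : t ^ N * t ^ (-N) = 1 := by
      rw [zpow_neg, mul_inv_cancel₀ (zpow_ne_zero N ht0)]
    linear_combination (-(f⁻¹ * α)) * e1
  rw [e, hA]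
  exact h2

section PT

variable {Bη F : Type*} [CommRing Bη] [IsDedekindDomain Bη] [Field F] [Algebra Bη F]
  [IsFractionRing Bη F]
  {Λ B : Type*} [CommRing Λ] [IsDomain Λ] [IsDiscreteValuationRing Λ] [Algebra Λ F]
  [CommRing B] [IsNoetherianRing B] [Algebra B F] [Algebra Λ B] [IsScalarTower Λ B F]

/-- (NB = GD1, file `S35/F1nProd.lean`) crossing point, product step with places of both types. -/
theorem s35f1n_cross_prod
    {Γ₁ Γ₂ : Type*} [LinearOrderedCommGroupWithZero Γ₁] [LinearOrderedCommGroupWithZero Γ₂]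
    (ι : B →+* Bη) (𝔪 : Ideal B) (w₁ : Valuation F Γ₁) (w₂ : Valuation F Γ₂)
    (m : ℕ) {u : F} (hu : u ≠ 0)
    (hdiv : ∀ 𝔔 ∈ absThrough ι 𝔪, ∃ n : ℤ, 𝔔.valuation F u = WithZero.exp ((m : ℤ) * n))
    (x y : B) (hx₂ : w₂ (algebraMap B F x) = 1) (hy₁ : w₁ (algebraMap B F y) = 1)
    (hlp : ∀ 𝔔 ∈ absThrough ι 𝔪, 𝔔.valuation F u ≠ 1 →
      (∃ (h : F) (a : Λ), a ≠ 0 ∧ w₁ (h - algebraMap Λ F a) < w₁ (algebraMap Λ F a) ∧
        w₂ (h - algebraMap B F x) < 1 ∧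
        𝔔.valuation F h = WithZero.exp (-1 : ℤ) ∧
        ∀ 𝔔' ∈ absThrough ι 𝔪, 𝔔' ≠ 𝔔 → 𝔔'.valuation F h = 1) ∨
      (∃ (h : F) (b : Λ), b ≠ 0 ∧ w₂ (h - algebraMap Λ F b) < w₂ (algebraMap Λ F b) ∧
        w₁ (h - algebraMap B F y) < 1 ∧
        𝔔.valuation F h = WithZero.exp (-1 : ℤ) ∧
        ∀ 𝔔' ∈ absThrough ι 𝔪, 𝔔' ≠ 𝔔 → 𝔔'.valuation F h = 1)) :
    ∃ (g : F) (a a' b b' : Λ) (N₁ N₂ : ℤ), g ≠ 0 ∧ a ≠ 0 ∧ a' ≠ 0 ∧ b ≠ 0 ∧ b' ≠ 0 ∧
      w₁ (g * algebraMap Λ F a' - algebraMap Λ F a * algebraMap B F y ^ N₁)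
        < w₁ (algebraMap Λ F a) ∧
      w₂ (g * algebraMap Λ F b' - algebraMap Λ F b * algebraMap B F x ^ N₂)
        < w₂ (algebraMap Λ F b) ∧
      ∀ 𝔔 ∈ absThrough ι 𝔪, 𝔔.valuation F (u / g ^ m) = 1 := by
  let Q : F → Prop := fun f =>
    (∃ (a a' : Λ) (N : ℤ), a ≠ 0 ∧ a' ≠ 0 ∧
      w₁ (f * algebraMap Λ F a' - algebraMap Λ F a * algebraMap B F y ^ N)
        < w₁ (algebraMap Λ F a)) ∧
    (∃ (b b' : Λ) (N : ℤ), b ≠ 0 ∧ b' ≠ 0 ∧
      w₂ (f * algebraMap Λ F b' - algebraMap Λ F b * algebraMap B F x ^ N)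
        < w₂ (algebraMap Λ F b))
  have hQ1 : Q 1 := by
    refine ⟨⟨1, 1, 0, one_ne_zero, one_ne_zero, ?_⟩, ⟨1, 1, 0, one_ne_zero, one_ne_zero, ?_⟩⟩
    · rw [map_one, mul_one, zpow_zero, mul_one, sub_self, map_zero, map_one]
      exact zero_lt_one
    · rw [map_one, mul_one, zpow_zero, mul_one, sub_self, map_zero, map_one]
      exact zero_lt_one
  have hQmul : ∀ a b : F, Q a → Q b → Q (a * b) := by
    rintro f f' ⟨⟨a, a', N, ha, ha', h1⟩, b, b', M, hb, hb', h2⟩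
      ⟨⟨c, c', N', hc, hc', h1'⟩, d, d', M', hd, hd', h2'⟩
    refine ⟨⟨a * c, a' * c', N + N', mul_ne_zero ha hc, mul_ne_zero ha' hc', ?_⟩,
      ⟨b * d, b' * d', M + M', mul_ne_zero hb hd, mul_ne_zero hb' hd', ?_⟩⟩
    · rw [map_mul, map_mul]
      exact s35f1nb_mul w₁ hy₁ h1 h1'
    · rw [map_mul, map_mul]
      exact s35f1nb_mul w₂ hx₂ h2 h2'
  have hQinv : ∀ a : F, Q a → Q a⁻¹ := by
    rintro f ⟨⟨a, a', N, ha, ha', h1⟩, b, b', M, hb, hb', h2⟩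
    exact ⟨⟨a', a, -N, ha', ha, s35f1nb_inv w₁ hy₁ h1⟩,
      ⟨b', b, -M, hb', hb, s35f1nb_inv w₂ hx₂ h2⟩⟩
  obtain ⟨h0, hh0, ⟨⟨a, a', N₁, ha, ha', h1⟩, b, b', N₂, hb, hb', h2⟩, hval⟩ :=
    s35f1_lp_pred (absThrough ι 𝔪) Q hQ1 hQmul hQinv m u hu hdiv (by
      intro 𝔔 h𝔔 hne
      rcases hlp 𝔔 h𝔔 hne with ⟨h, a, ha, h1, h2, h3, h4⟩ | ⟨h, b, hb, h1, h2, h3, h4⟩
      · refine ⟨h, ⟨⟨a, 1, 0, ha, one_ne_zero, ?_⟩, ⟨1, 1, 1, one_ne_zero, one_ne_zero, ?_⟩⟩,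
          h3, h4⟩
        · rw [map_one, mul_one, zpow_zero, mul_one]
          exact h1
        · rw [map_one, mul_one, one_mul, zpow_one, map_one]
          exact h2
      · refine ⟨h, ⟨⟨1, 1, 1, one_ne_zero, one_ne_zero, ?_⟩, ⟨b, 1, 0, hb, one_ne_zero, ?_⟩⟩,
          h3, h4⟩
        · rw [map_one, mul_one, one_mul, zpow_one, map_one]
          exact h2
        · rw [map_one, mul_one, zpow_zero, mul_one]
          exact h1)
  exact ⟨h0, a, a', b, b', N₁, N₂, hh0, ha, ha', hb, hb', h1, h2, hval⟩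

end PT

end Fermat.Agent.S35
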