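import Mathlib
import Fermat.Agent.S24.MerH
import Fermat.Agent.S24.JBasic
import Fermat.Agent.S24.JTranslates

/-!
# P20 (S35), block FT-CERT, (C3): shared analytic definitions

* `s35ftHolDeriv f` : the derivative `d/dτ` of a holomorphic function on the upper half plane;
* `s35ftJHol` : Klein's `J` as an element of `Hol`;
* `s35ftJabdHol a b d` : `τ ↦ J ((a τ + b) / d)` as an element of `Hol`.
-/

set_option autoImplicit false

namespace Fermat.Agent.S35

open UpperHalfPlane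
open scoped Manifold
open Fermat.Agent.S24

noncomputable section

/-- The derivative of a holomorphic function on `ℍ` is holomorphic on `ℍ`. -/
theorem s35ft_mdiff_deriv (f : Hol) :
    MDiff (fun τ : ℍ => deriv ((f : ℍ → ℂ) ∘ ofComplex) (τ : ℂ)) := by
  rw [UpperHalfPlane.mdifferentiable_iff]
  have h1 : DifferentiableOn ℂ ((f : ℍ → ℂ) ∘ ofComplex) {z : ℂ | 0 < z.im} :=
    UpperHalfPlane.mdifferentiable_iff.mp f.2
  have h2 : DifferentiableOn ℂ (deriv ((f : ℍ → ℂ) ∘ ofComplex)) {z : ℂ | 0 < z.im} :=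
    h1.deriv isOpen_upperHalfPlaneSet
  refine h2.congr fun z hz => ?_
  show deriv ((f : ℍ → ℂ) ∘ ofComplex) ((ofComplex z : ℍ) : ℂ) = _
  rw [ofComplex_apply_of_im_pos hz]

/-- The derivative of a holomorphic function on `ℍ`. -/
def s35ftHolDeriv (f : Hol) : Hol :=
  ⟨fun τ => deriv ((f : ℍ → ℂ) ∘ ofComplex) (τ : ℂ), s35ft_mdiff_deriv f⟩

theorem s35ftHolDeriv_apply (f : Hol) (τ : ℍ) :
    (s35ftHolDeriv f : ℍ → ℂ) τ = deriv ((f : ℍ → ℂ) ∘ ofComplex) (τ : ℂ) := rfl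

/-- Klein's `J` as an element of `Hol`. -/
def s35ftJHol : Hol := ⟨Jfun, mdifferentiable_Jfun⟩

theorem s35ftJHol_apply (τ : ℍ) : (s35ftJHol : ℍ → ℂ) τ = Jfun τ := rfl

/-- `τ ↦ J ((a τ + b) / d)` as an element of `Hol`. -/
def s35ftJabdHol (a b d : ℕ) (ha : 0 < a) (hd : 0 < d) : Hol :=
  ⟨Jabd a b d, JTranslates.Jabd_mdiff a b d ha hd⟩

theorem s35ftJabdHol_apply (a b d : ℕ) (ha : 0 < a) (hd : 0 < d) (τ : ℍ) :
    (s35ftJabdHol a b d ha hd : ℍ → ℂ) τ = Jabd a b d τ := rfl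

end

end Fermat.Agent.S35
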