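import Mathlib
import Fermat.Agent.S24.Families
import Fermat.Agent.S24.JTranslates
import Fermat.Agent.S35.FtAnaDefs
import Fermat.Prelude.Def_ModularCurve_HeckeOperator
import Fermat.Prelude.Thm_ModularCurve_coeffMap_qExpand

/-!
# P20 (S35), block FT-CERT, (Q): the conjugates of `j_q`

Every conjugate `conjMer (M * q) ι x` of `j_q = heckeBetaBar L M q (jL L M)` is the holomorphic
function `τ ↦ J ((a τ + b) / d)` for some `a, b, d` with `a * d = q`.
-/

set_option autoImplicit false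

namespace Fermat.Agent.S35

open ModularCurve AlgebraicCurve UpperHalfPlane
open Fermat.Agent.S24

noncomputable section

/-- `j_q` is the generator `j(qτ)` of the function field of level `M * q`. -/
theorem s35ftQ_beta_jL_eq_jdL {L : Type*} [Field L] [Algebra ℚ L] (M q : ℕ) [NeZero M]
    [NeZero q] :
    heckeBetaBar L M q (jL L M) = jdL (M * q) L q (Dvd.intro_left M rfl) := by
  apply Subtype.ext
  rw [coe_heckeBetaBar, coe_jdL]
  show qExpand L q (coeffEmb L jq) = coeffEmb L (qExpand ℚ q jq)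
  rw [coeffEmb, coeffMap_qExpand]

/-- The conjugates of `j(dτ)`, `d ∣ N`: `τ ↦ J ((a τ + b) / d')` with `a * d' = d`. -/
theorem s35ftQ_conjMer_jdL {L : Type*} [Field L] [Algebra ℚ L] (ι : L →+* ℂ) (N : ℕ) [NeZero N]
    (d : ℕ) (hd : d ∣ N) (x : XX N) :
    ∃ (a b d' : ℕ) (ha : 0 < a) (hd' : 0 < d'), a * d' = d ∧
      conjMer N ι x (jdL N L d hd) = algebraMap Hol Mer (s35ftJabdHol a b d' ha hd') := by
  have hd0 : d ≠ 0 := ne_zero_of_dvd_ne_zero (NeZero.ne N) hd
  have : NeZero d := ⟨hd0⟩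
  induction x using QuotientGroup.induction_on with
  | H g =>
    obtain ⟨a, b, d', had, -, h⟩ := slComp_Jabd d g⁻¹
    have ha : 0 < a := Nat.pos_of_ne_zero (fun h0 => hd0 (by rw [← had, h0, zero_mul]))
    have hd' : 0 < d' := Nat.pos_of_ne_zero (fun h0 => hd0 (by rw [← had, h0, mul_zero]))
    refine ⟨a, b, d', ha, hd', had, ?_⟩
    rw [conjMer_apply, conj_mk_apply, realHom_jdL, act_algebraMap, toMer_algebraMap]
    congr 1
    apply Subtype.ext
    rw [coe_toHol, coe_actR, coe_JdRN, h]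
    rfl

/-- **(Q)** the conjugates of `j_q`. -/
theorem s35ft_conjMer_jq {L : Type*} [Field L] [Algebra ℚ L] (ι : L →+* ℂ) (M q : ℕ) [NeZero M]
    [NeZero q] (x : XX (M * q)) :
    ∃ (a b d : ℕ) (ha : 0 < a) (hd : 0 < d), a * d = q ∧
      conjMer (M * q) ι x (heckeBetaBar L M q (jL L M)) =
        algebraMap Hol Mer (s35ftJabdHol a b d ha hd) := by
  rw [s35ftQ_beta_jL_eq_jdL]
  exact s35ftQ_conjMer_jdL ι (M * q) q (Dvd.intro_left M rfl) x

end

end Fermat.Agent.S35
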