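import Mathlib
import Fermat.Agent.S24.JOrder
import Fermat.Agent.S35.FtAnaDefs

/-!
# P20 (S35), block FT-CERT, (C3), slice (J): the analytic identity

* `s35ftJ_deriv_pow_six`: `J' ^ 6 = (2πi)^6 · J^4 · (J - 1728)^3 · Δ` on the upper half plane;
* `s35ftJ_deriv_Jabd`: chain rule for `G = J ∘ μ`, `μ τ = (a τ + b) / d`;
* `s35ftJ_key`: `(G')^6 · J^4 (J-1728)^3 · U = G^4 (G-1728)^3 · V · (J')^6` with `U = Δ`,
  `V = (a/d)^6 · Δ ∘ μ` nowhere vanishing;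
* `s35ftJ_ne_zero`: none of the factors vanishes identically.
-/

set_option autoImplicit false

namespace Fermat.Agent.S35

open UpperHalfPlane ModularForm EisensteinSeries
open Fermat.Agent.S24
open scoped Real Manifold Topology

/-- `J'^6 = (2πi)^6 J^4 (J - 1728)^3 Δ`. -/
theorem s35ftJ_deriv_pow_six (τ : ℍ) :
    deriv (Jfun ∘ ofComplex) (τ : ℂ) ^ 6 =
      (2 * π * Complex.I) ^ 6 * Jfun τ ^ 4 * (Jfun τ - 1728) ^ 3 *
        ModularForm.discriminant τ := by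
  have hΔ := ModularForm.discriminant_ne_zero τ
  rw [deriv_Jfun, Jfun_sub_1728, Jfun_apply]
  field_simp

/-- The point `μ τ = (a τ + b) / d` of the upper half plane. -/
noncomputable def s35ftJ_mu (a b d : ℕ) (ha : 0 < a) (hd : 0 < d) (τ : ℍ) : ℍ :=
  ⟨((a : ℂ) * (τ : ℂ) + (b : ℂ)) / (d : ℂ), JTranslates.im_pos_aux a b d ha hd τ τ.im_pos⟩

theorem s35ftJ_coe_mu (a b d : ℕ) (ha : 0 < a) (hd : 0 < d) (τ : ℍ) :
    ((s35ftJ_mu a b d ha hd τ : ℍ) : ℂ) = ((a : ℂ) * (τ : ℂ) + (b : ℂ)) / (d : ℂ) := rfl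

theorem s35ftJ_Jabd_eq (a b d : ℕ) (ha : 0 < a) (hd : 0 < d) (τ : ℍ) :
    Jabd a b d τ = Jfun (s35ftJ_mu a b d ha hd τ) :=
  JTranslates.Jabd_apply a b d ha hd τ

/-- `τ ↦ F ((a τ + b) / d)` is holomorphic on `ℍ` for holomorphic `F`. -/
theorem s35ftJ_mdiff_comp_mu (a b d : ℕ) (ha : 0 < a) (hd : 0 < d) {F : ℍ → ℂ} (hF : MDiff F) :
    MDiff (fun τ : ℍ => F (s35ftJ_mu a b d ha hd τ)) := by
  rw [UpperHalfPlane.mdifferentiable_iff]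
  have h1 : DifferentiableOn ℂ (F ∘ ofComplex) {z | 0 < z.im} :=
    UpperHalfPlane.mdifferentiable_iff.mp hF
  have h2 : DifferentiableOn ℂ (fun z : ℂ => ((a : ℂ) * z + (b : ℂ)) / (d : ℂ))
      {z | 0 < z.im} := by
    fun_prop
  have h3 : Set.MapsTo (fun z : ℂ => ((a : ℂ) * z + (b : ℂ)) / (d : ℂ))
      {z | 0 < z.im} {z | 0 < z.im} :=
    fun z hz => JTranslates.im_pos_aux a b d ha hd z hz
  refine (h1.comp h2 h3).congr ?_
  intro z hz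
  have hz' : 0 < (((a : ℂ) * z + (b : ℂ)) / (d : ℂ)).im := h3 hz
  simp only [Function.comp_apply]
  rw [ofComplex_apply_of_im_pos hz', ofComplex_apply_of_im_pos hz]
  rfl

/-- Chain rule: `(J ∘ μ)' = (a/d) · J' ∘ μ`. -/
theorem s35ftJ_deriv_Jabd (a b d : ℕ) (ha : 0 < a) (hd : 0 < d) (τ : ℍ) :
    deriv (Jabd a b d ∘ ofComplex) (τ : ℂ) =
      (a : ℂ) / (d : ℂ) * deriv (Jfun ∘ ofComplex) (s35ftJ_mu a b d ha hd τ : ℂ) := by
  have hd0 : (d : ℂ) ≠ 0 := by exact_mod_cast hd.ne'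
  have hev : (Jabd a b d ∘ ofComplex) =ᶠ[𝓝 (τ : ℂ)]
      ((Jfun ∘ ofComplex) ∘ fun z : ℂ => ((a : ℂ) * z + (b : ℂ)) / (d : ℂ)) := by
    filter_upwards [isOpen_upperHalfPlaneSet.mem_nhds τ.im_pos] with z hz
    simp only [Function.comp_apply, Jabd]
    rw [ofComplex_apply_of_im_pos hz]
  rw [hev.deriv_eq]
  have h1 : HasDerivAt (fun z : ℂ => ((a : ℂ) * z + (b : ℂ)) / (d : ℂ)) ((a : ℂ) / (d : ℂ))
      (τ : ℂ) := by
    have := (((hasDerivAt_id (τ : ℂ)).const_mul (a : ℂ)).add_const (b : ℂ)).div_const (d : ℂ)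
    simpa using this
  have h2 : HasDerivAt (Jfun ∘ ofComplex)
      (deriv (Jfun ∘ ofComplex) (s35ftJ_mu a b d ha hd τ : ℂ))
      (((a : ℂ) * (τ : ℂ) + (b : ℂ)) / (d : ℂ)) :=
    (JOrderAux.analyticAt_Jfun (s35ftJ_mu a b d ha hd τ)).differentiableAt.hasDerivAt
  rw [(h2.comp (τ : ℂ) h1).deriv, mul_comm]

/-- `Δ` as an element of `Hol`. -/
noncomputable def s35ftJ_deltaHol : Hol :=
  ⟨(ModularForm.discriminant : ℍ → ℂ), JOrderAux.mdiff_discriminant⟩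

/-- `Δ ∘ μ` as an element of `Hol`. -/
noncomputable def s35ftJ_deltaMuHol (a b d : ℕ) (ha : 0 < a) (hd : 0 < d) : Hol :=
  ⟨fun τ => ModularForm.discriminant (s35ftJ_mu a b d ha hd τ),
    s35ftJ_mdiff_comp_mu a b d ha hd JOrderAux.mdiff_discriminant⟩

/-- `(G')^6 · J^4 (J-1728)^3 · U = G^4 (G-1728)^3 · V · (J')^6` with `U = Δ`,
`V = (a/d)^6 · Δ∘μ` nowhere vanishing (`J'^6 = (2πi)^6 J^4 (J-1728)^3 Δ`, chain rule). -/
theorem s35ftJ_key (a b d : ℕ) (ha : 0 < a) (hd : 0 < d) :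
    ∃ U V : Hol, (∀ τ : ℍ, (U : ℍ → ℂ) τ ≠ 0) ∧ (∀ τ : ℍ, (V : ℍ → ℂ) τ ≠ 0) ∧
      s35ftHolDeriv (s35ftJabdHol a b d ha hd) ^ 6 *
          (s35ftJHol ^ 4 * (s35ftJHol - holC 1728) ^ 3) * U =
        s35ftJabdHol a b d ha hd ^ 4 * (s35ftJabdHol a b d ha hd - holC 1728) ^ 3 * V *
          s35ftHolDeriv s35ftJHol ^ 6 := by
  have ha0 : (a : ℂ) ≠ 0 := by exact_mod_cast ha.ne'
  have hd0 : (d : ℂ) ≠ 0 := by exact_mod_cast hd.ne'
  refine ⟨s35ftJ_deltaHol, holC (((a : ℂ) / (d : ℂ)) ^ 6) * s35ftJ_deltaMuHol a b d ha hd,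
    fun τ => ModularForm.discriminant_ne_zero τ, fun τ => ?_, ?_⟩
  · show ((a : ℂ) / (d : ℂ)) ^ 6 * ModularForm.discriminant (s35ftJ_mu a b d ha hd τ) ≠ 0
    exact mul_ne_zero (pow_ne_zero 6 (div_ne_zero ha0 hd0))
      (ModularForm.discriminant_ne_zero _)
  · apply Subtype.ext
    funext τ
    show deriv (Jabd a b d ∘ ofComplex) (τ : ℂ) ^ 6 *
          (Jfun τ ^ 4 * (Jfun τ - 1728) ^ 3) * ModularForm.discriminant τ =
        Jabd a b d τ ^ 4 * (Jabd a b d τ - 1728) ^ 3 *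
          (((a : ℂ) / (d : ℂ)) ^ 6 * ModularForm.discriminant (s35ftJ_mu a b d ha hd τ)) *
          deriv (Jfun ∘ ofComplex) (τ : ℂ) ^ 6
    rw [s35ftJ_deriv_Jabd a b d ha hd τ, mul_pow, s35ftJ_deriv_pow_six,
      s35ftJ_deriv_pow_six, s35ftJ_Jabd_eq a b d ha hd τ]
    ring

/-- A point where `J = 1`. -/
theorem s35ftJ_exists_Jfun_eq_one : ∃ σ : ℍ, Jfun σ = 1 := Jfun_surjective 1

/-- A point where `J ∘ μ = 1`. -/
theorem s35ftJ_exists_Jabd_eq_one (a b d : ℕ) (ha : 0 < a) (hd : 0 < d) :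
    ∃ τ : ℍ, Jabd a b d τ = 1 := by
  obtain ⟨σ, hσ⟩ := s35ftJ_exists_Jfun_eq_one
  have ha0 : (a : ℂ) ≠ 0 := by exact_mod_cast ha.ne'
  have hd0 : (d : ℂ) ≠ 0 := by exact_mod_cast hd.ne'
  have him : 0 < ((((d : ℂ) * (σ : ℂ) - (b : ℂ)) / (a : ℂ))).im := by
    have h1 : ((((d : ℂ) * (σ : ℂ) - (b : ℂ)) / (a : ℂ))).im = (d : ℝ) * σ.im / (a : ℝ) := by
      rw [Complex.div_natCast_im]
      simp
    rw [h1]
    have ha' : (0 : ℝ) < a := by exact_mod_cast ha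
    have hd' : (0 : ℝ) < d := by exact_mod_cast hd
    have := σ.im_pos
    positivity
  refine ⟨⟨((d : ℂ) * (σ : ℂ) - (b : ℂ)) / (a : ℂ), him⟩, ?_⟩
  rw [s35ftJ_Jabd_eq a b d ha hd, ← hσ]
  congr 1
  apply UpperHalfPlane.ext
  rw [s35ftJ_coe_mu]
  show ((a : ℂ) * (((d : ℂ) * (σ : ℂ) - (b : ℂ)) / (a : ℂ)) + (b : ℂ)) / (d : ℂ) = (σ : ℂ)
  field_simp
  ring

/-- None of the factors vanishes identically. -/
theorem s35ftJ_ne_zero (a b d : ℕ) (ha : 0 < a) (hd : 0 < d) :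
    s35ftJHol ≠ 0 ∧ s35ftJHol - holC 1728 ≠ 0 ∧ s35ftHolDeriv s35ftJHol ≠ 0 ∧
      s35ftJabdHol a b d ha hd ≠ 0 ∧ s35ftJabdHol a b d ha hd - holC 1728 ≠ 0 := by
  obtain ⟨σ, hσ⟩ := s35ftJ_exists_Jfun_eq_one
  obtain ⟨τ, hτ⟩ := s35ftJ_exists_Jabd_eq_one a b d ha hd
  refine ⟨fun h => ?_, fun h => ?_, fun h => ?_, fun h => ?_, fun h => ?_⟩
  · have h1 := congrArg (fun f : Hol => (f : ℍ → ℂ) σ) h
    have h2 : Jfun σ = 0 := h1
    rw [hσ] at h2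
    exact one_ne_zero h2
  · have h1 := congrArg (fun f : Hol => (f : ℍ → ℂ) σ) h
    have h2 : Jfun σ - 1728 = 0 := h1
    rw [hσ] at h2
    norm_num at h2
  · have h1 := congrArg (fun f : Hol => (f : ℍ → ℂ) σ) h
    have h2 : deriv (Jfun ∘ ofComplex) (σ : ℂ) = 0 := h1
    exact deriv_Jfun_ne_zero σ (by rw [hσ]; exact one_ne_zero) (by rw [hσ]; norm_num) h2
  · have h1 := congrArg (fun f : Hol => (f : ℍ → ℂ) τ) h
    have h2 : Jabd a b d τ = 0 := h1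
    rw [hτ] at h2
    exact one_ne_zero h2
  · have h1 := congrArg (fun f : Hol => (f : ℍ → ℂ) τ) h
    have h2 : Jabd a b d τ - 1728 = 0 := h1
    rw [hτ] at h2
    norm_num at h2

end Fermat.Agent.S35
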