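import Mathlib
import Fermat.Agent.S35.FtAnaDefs

/-!
# P20 (S35), block FT-CERT, (C3), slice (D): `d/dτ` on `Mer` (dual numbers)
-/

set_option autoImplicit false

namespace Fermat.Agent.S35

open UpperHalfPlane
open Fermat.Agent.S24
open scoped Manifold

theorem s35ftMD_differentiableAt (f : Hol) (τ : ℍ) :
    DifferentiableAt ℂ ((f : ℍ → ℂ) ∘ ofComplex) (τ : ℂ) :=
  (mer_analyticAt f τ).differentiableAt

theorem s35ftMD_holDeriv_add (f g : Hol) :
    s35ftHolDeriv (f + g) = s35ftHolDeriv f + s35ftHolDeriv g := by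
  apply Subtype.ext
  funext τ
  show deriv (((f : ℍ → ℂ) ∘ ofComplex) + ((g : ℍ → ℂ) ∘ ofComplex)) (τ : ℂ) =
    deriv ((f : ℍ → ℂ) ∘ ofComplex) (τ : ℂ) + deriv ((g : ℍ → ℂ) ∘ ofComplex) (τ : ℂ)
  exact deriv_add (s35ftMD_differentiableAt f τ) (s35ftMD_differentiableAt g τ)

theorem s35ftMD_holDeriv_mul (f g : Hol) :
    s35ftHolDeriv (f * g) = f * s35ftHolDeriv g + g * s35ftHolDeriv f := by
  apply Subtype.ext
  funext τ
  show deriv (((f : ℍ → ℂ) ∘ ofComplex) * ((g : ℍ → ℂ) ∘ ofComplex)) (τ : ℂ) =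
    (f : ℍ → ℂ) τ * deriv ((g : ℍ → ℂ) ∘ ofComplex) (τ : ℂ) +
      (g : ℍ → ℂ) τ * deriv ((f : ℍ → ℂ) ∘ ofComplex) (τ : ℂ)
  rw [deriv_mul (s35ftMD_differentiableAt f τ) (s35ftMD_differentiableAt g τ)]
  simp only [Function.comp_apply, ofComplex_apply]
  ring

theorem s35ftMD_holDeriv_holC (c : ℂ) : s35ftHolDeriv (holC c) = 0 := by
  apply Subtype.ext
  funext τ
  show deriv (fun _ : ℂ => c) (τ : ℂ) = 0
  exact deriv_const _ _

theorem s35ftMD_holDeriv_one : s35ftHolDeriv 1 = 0 := by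
  have h := s35ftMD_holDeriv_holC 1
  rwa [map_one] at h

theorem s35ftMD_holDeriv_zero : s35ftHolDeriv 0 = 0 := by
  have h := s35ftMD_holDeriv_holC 0
  rwa [map_zero] at h

/-- `f ↦ f + f' ε` as a ring hom into the dual numbers over `Mer`. -/
noncomputable def s35ftMD_dual : Hol →+* TrivSqZeroExt Mer Mer where
  toFun f := TrivSqZeroExt.inl (algebraMap Hol Mer f) +
    TrivSqZeroExt.inr (algebraMap Hol Mer (s35ftHolDeriv f))
  map_one' := by
    rw [s35ftMD_holDeriv_one, map_zero, TrivSqZeroExt.inr_zero, add_zero, map_one,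
      TrivSqZeroExt.inl_one]
  map_mul' f g := by
    apply TrivSqZeroExt.ext
    · simp only [TrivSqZeroExt.fst_mul, TrivSqZeroExt.fst_add, TrivSqZeroExt.fst_inl,
        TrivSqZeroExt.fst_inr, add_zero, map_mul]
    · simp only [TrivSqZeroExt.snd_mul, TrivSqZeroExt.snd_add, TrivSqZeroExt.snd_inl,
        TrivSqZeroExt.snd_inr, TrivSqZeroExt.fst_add, TrivSqZeroExt.fst_inl,
        TrivSqZeroExt.fst_inr, add_zero, zero_add, smul_eq_mul, MulOpposite.smul_eq_mul_unop,
        MulOpposite.unop_op, s35ftMD_holDeriv_mul, map_add, map_mul]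
      ring
  map_zero' := by
    rw [s35ftMD_holDeriv_zero, map_zero, TrivSqZeroExt.inr_zero, add_zero,
      TrivSqZeroExt.inl_zero]
  map_add' f g := by
    apply TrivSqZeroExt.ext
    · simp only [TrivSqZeroExt.fst_add, TrivSqZeroExt.fst_inl, TrivSqZeroExt.fst_inr, add_zero,
        map_add]
    · simp only [TrivSqZeroExt.snd_add, TrivSqZeroExt.snd_inl, TrivSqZeroExt.snd_inr, zero_add,
        s35ftMD_holDeriv_add, map_add]

theorem s35ftMD_dual_fst (f : Hol) : (s35ftMD_dual f).fst = algebraMap Hol Mer f := by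
  show (TrivSqZeroExt.inl (algebraMap Hol Mer f) +
    TrivSqZeroExt.inr (algebraMap Hol Mer (s35ftHolDeriv f)) : TrivSqZeroExt Mer Mer).fst = _
  rw [TrivSqZeroExt.fst_add, TrivSqZeroExt.fst_inl, TrivSqZeroExt.fst_inr, add_zero]

theorem s35ftMD_dual_snd (f : Hol) :
    (s35ftMD_dual f).snd = algebraMap Hol Mer (s35ftHolDeriv f) := by
  show (TrivSqZeroExt.inl (algebraMap Hol Mer f) +
    TrivSqZeroExt.inr (algebraMap Hol Mer (s35ftHolDeriv f)) : TrivSqZeroExt Mer Mer).snd = _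
  rw [TrivSqZeroExt.snd_add, TrivSqZeroExt.snd_inl, TrivSqZeroExt.snd_inr, zero_add]

theorem s35ftMD_dual_isUnit (f : nonZeroDivisors Hol) : IsUnit (s35ftMD_dual (f : Hol)) := by
  rw [TrivSqZeroExt.isUnit_iff_isUnit_fst, s35ftMD_dual_fst]
  exact IsLocalization.map_units Mer f

/-- The extension of `s35ftMD_dual` to `Mer`. -/
noncomputable def s35ftMD_dualMer : Mer →+* TrivSqZeroExt Mer Mer :=
  IsLocalization.lift (M := nonZeroDivisors Hol) (g := s35ftMD_dual) s35ftMD_dual_isUnit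

theorem s35ftMD_dualMer_algebraMap (f : Hol) :
    s35ftMD_dualMer (algebraMap Hol Mer f) = s35ftMD_dual f :=
  IsLocalization.lift_eq _ f

theorem s35ftMD_dualMer_fst (x : Mer) : (s35ftMD_dualMer x).fst = x := by
  have h : (TrivSqZeroExt.fstHom Mer Mer Mer : TrivSqZeroExt Mer Mer →+* Mer).comp
      s35ftMD_dualMer = RingHom.id Mer := by
    apply IsLocalization.ringHom_ext (nonZeroDivisors Hol)
    ext f
    show (s35ftMD_dualMer (algebraMap Hol Mer f)).fst = algebraMap Hol Mer f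
    rw [s35ftMD_dualMer_algebraMap, s35ftMD_dual_fst]
  exact congrArg (fun φ : Mer →+* Mer => φ x) h

/-- `d/dτ` on the field of meromorphic functions on `ℍ`. -/
noncomputable def s35ftMerDeriv : Mer →+ Mer where
  toFun x := (s35ftMD_dualMer x).snd
  map_zero' := by rw [map_zero, TrivSqZeroExt.snd_zero]
  map_add' x y := by rw [map_add, TrivSqZeroExt.snd_add]

theorem s35ftMerDeriv_mul (x y : Mer) :
    s35ftMerDeriv (x * y) = x * s35ftMerDeriv y + y * s35ftMerDeriv x := by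
  show (s35ftMD_dualMer (x * y)).snd = x * (s35ftMD_dualMer y).snd + y * (s35ftMD_dualMer x).snd
  rw [map_mul, TrivSqZeroExt.snd_mul, s35ftMD_dualMer_fst, s35ftMD_dualMer_fst,
    MulOpposite.smul_eq_mul_unop, MulOpposite.unop_op, smul_eq_mul, mul_comm y]

theorem s35ftMerDeriv_algebraMap (f : Hol) :
    s35ftMerDeriv (algebraMap Hol Mer f) = algebraMap Hol Mer (s35ftHolDeriv f) := by
  show (s35ftMD_dualMer (algebraMap Hol Mer f)).snd = _
  rw [s35ftMD_dualMer_algebraMap, s35ftMD_dual_snd]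

end Fermat.Agent.S35
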