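import Mathlib
import Fermat.Prelude.Def_ModularCurve_HeckeOperator
import Fermat.Agent.S24.Defs
import Fermat.Agent.S24.LaurentDeriv

/-!
# P20 (S35), block FT-CERT: shared definitions for the modular unit certificate

Level `M * q`, function field `F = FFL L (M * q)` inside `L((s))`, `j = jL L (M * q)`,
`j_q = heckeBetaBar L M q (jL L M)` (the series `j(s^q)`), `D = d/ds`.

* `s35ftIsOmega L M q ω` : `ω · D(j) = D(j_q)` on `q`-expansions;
* `s35ftPhi L M q ω` : `φ = q^6 ω^6 j^4 (j - 1728)^3 / (j_q^4 (j_q - 1728)^3)`.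
-/

set_option autoImplicit false

namespace Fermat.Agent.S35

open ModularCurve
open Fermat.Agent.S24

noncomputable section

variable (L : Type*) [Field L] [Algebra ℚ L] (M q : ℕ) [NeZero M] [NeZero q]

/-- `ω · D(j) = D(j_q)` on `q`-expansions (`D = d/ds`, `j_q = β j`). -/
def s35ftIsOmega (ω : FFL L (M * q)) : Prop :=
  (ω : LaurentSeries L) *
      LaurentDeriv.lsDer L ((jL L (M * q) : FFL L (M * q)) : LaurentSeries L) =
    LaurentDeriv.lsDer L ((heckeBetaBar L M q (jL L M) : FFL L (M * q)) : LaurentSeries L)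

/-- `φ = q^6 ω^6 j^4 (j - 1728)^3 / (j_q^4 (j_q - 1728)^3)`. -/
def s35ftPhi (ω : FFL L (M * q)) : FFL L (M * q) :=
  algebraMap L (FFL L (M * q)) ((q : L) ^ 6) * ω ^ 6 * jL L (M * q) ^ 4 *
      (jL L (M * q) - algebraMap L (FFL L (M * q)) 1728) ^ 3 /
    (heckeBetaBar L M q (jL L M) ^ 4 *
      (heckeBetaBar L M q (jL L M) - algebraMap L (FFL L (M * q)) 1728) ^ 3)

end

end Fermat.Agent.S35
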