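import Mathlib
import Fermat.Agent.S35.FtOmegaDefs
import Fermat.Agent.S24.KaehlerCore
import Fermat.Agent.S24.FFLAlg
import Fermat.Agent.S18.Descent
import Fermat.Agent.S18.Char0DegK
import Fermat.Agent.S34.KronInt

/-!
# P20 (S35), block FT-CERT: the function `ω = d j_q / d j`

For `F = FFL L (M * q)`, `j = jL L (M * q)`, `j_q = heckeBetaBar L M q (jL L M)`:

* `s35ft_exists_omega`, `s35ft_isOmega_unique` : existence and uniqueness of `ω ∈ F` with
  `ω · D(j) = D(j_q)` on `q`-expansions (`s35ftIsOmega`);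
* `s35ft_derivation_omega` : every `L`-derivation `δ` of `F` satisfies `δ j_q = ω • δ j`;
* `s35ft_exists_ddj` : the derivation `d/dj` of `F`.
-/

set_option autoImplicit false

namespace Fermat.Agent.S35

open ModularCurve IntermediateField
open Fermat.Agent.S24

noncomputable section

section General

variable {K F : Type*} [Field K] [Field F] [Algebra K F] [CharZero K]

theorem s35ftO_exists_smul {x : F} (hx : Transcendental K x) [FiniteDimensional K⟮x⟯ F] (y : F) :
    ∃ ω : F, KaehlerDifferential.D K F y = ω • KaehlerDifferential.D K F x :=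
  exists_eq_smul_D hx _

omit [CharZero K] in
theorem s35ftO_derivation_of_kaehler {x y ω : F}
    (h : KaehlerDifferential.D K F y = ω • KaehlerDifferential.D K F x)
    {E : Type*} [AddCommGroup E] [Module K E] [Module F E] [IsScalarTower K F E]
    (δ : Derivation K F E) : δ y = ω • δ x := by
  have h1 := congrArg δ.liftKaehlerDifferential h
  rwa [map_smul, Derivation.liftKaehlerDifferential_comp_D,
    Derivation.liftKaehlerDifferential_comp_D] at h1

theorem s35ftO_exists_ddx {x : F} (hx : Transcendental K x) [FiniteDimensional K⟮x⟯ F] :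
    ∃ c : Derivation K F F, c x = 1 := by
  have hD := D_ne_zero hx
  obtain ⟨f, hf⟩ : ∃ f : Module.Dual F (Ω[F⁄K]), f (KaehlerDifferential.D K F x) ≠ 0 := by
    by_contra hcon
    rw [not_exists] at hcon
    exact hD ((Module.forall_dual_apply_eq_zero_iff F _).1 (fun φ => not_not.1 (hcon φ)))
  refine ⟨((f (KaehlerDifferential.D K F x))⁻¹ • f).compDer (KaehlerDifferential.D K F), ?_⟩
  show (f (KaehlerDifferential.D K F x))⁻¹ • f (KaehlerDifferential.D K F x) = 1
  rw [smul_eq_mul, inv_mul_cancel₀ hf]

omit [CharZero K] in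
theorem s35ftO_finiteDimensional_transport {K' : Type*} [Field K'] [Algebra K K']
    (E₁ E₂ : IntermediateField K K') (h : E₁ = E₂) (x₁ : E₁) (x₂ : E₂)
    (hx : (x₁ : K') = x₂) (hfin : FiniteDimensional K⟮x₂⟯ E₂) :
    FiniteDimensional K⟮x₁⟯ E₁ := by
  subst h
  obtain rfl : x₁ = x₂ := Subtype.ext hx
  exact hfin

end General

section Omega

variable (L : Type*) [Field L] [Algebra ℚ L]

/-- `FFL L N` is finite over `L(j)`, for every field `L` of characteristic zero. -/
theorem s35ftO_finiteDimensional (N : ℕ) [NeZero N] :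
    FiniteDimensional L⟮jL L N⟯ (FFL L N) := by
  have : CharZero L := algebraRat.charZero L
  exact s35ftO_finiteDimensional_transport _ _
    (Fermat.Agent.S18.Descent.fullC_eq_laurentBaseChange L N).symm (jL L N)
    (Fermat.Agent.S18.GaussL.jC L N) (Fermat.Agent.S34.KronInt.coe_jL_eq L N)
    (Fermat.Agent.S18.Char0DegK.finrank_adjoin_jC_le L N).1

theorem s35ftO_tower (N : ℕ) : IsScalarTower L (FFL L N) (LaurentSeries L) :=
  ⟨fun a x y => by
    show (((a • x : FFL L N)) : LaurentSeries L) * y = a • ((x : LaurentSeries L) * y)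
    rw [IntermediateField.coe_smul, Algebra.smul_def, LaurentDeriv.algebraMap_eq_C, mul_assoc,
      HahnSeries.C_mul_eq_smul]⟩

/-- `d/ds` on `q`-expansions, as a derivation of the function field. -/
def s35ftO_der (N : ℕ) : Derivation L (FFL L N) (LaurentSeries L) :=
  haveI : IsScalarTower L (FFL L N) (LaurentSeries L) := s35ftO_tower L N
  (LaurentDeriv.lsDer L).compAlgebraMap (FFL L N)

theorem s35ftO_der_apply (N : ℕ) (x : FFL L N) :
    s35ftO_der L N x = LaurentDeriv.lsDer L (x : LaurentSeries L) := rfl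

theorem s35ftO_lsDer_jq_ne_zero : LaurentDeriv.lsDer L (jqModC L) ≠ 0 := by
  have : CharZero L := algebraRat.charZero L
  refine (LaurentDeriv.lsDer_order ?_).1
  rw [Fermat.Agent.S37.KronModEq.order_jqModC']
  decide

variable (M q : ℕ) [NeZero M] [NeZero q]

theorem s35ftO_lsDer_jL_ne_zero :
    LaurentDeriv.lsDer L ((jL L (M * q) : FFL L (M * q)) : LaurentSeries L) ≠ 0 := by
  rw [Fermat.Agent.S34.KronInt.coe_jL_eq]
  exact s35ftO_lsDer_jq_ne_zero L

/-- The Kähler form of `ω` gives the `q`-expansion form. -/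
theorem s35ftO_isOmega_of_kaehler {ω : FFL L (M * q)}
    (h : KaehlerDifferential.D L (FFL L (M * q)) (heckeBetaBar L M q (jL L M)) =
      ω • KaehlerDifferential.D L (FFL L (M * q)) (jL L (M * q))) :
    s35ftIsOmega L M q ω := by
  have : IsScalarTower L (FFL L (M * q)) (LaurentSeries L) := s35ftO_tower L (M * q)
  exact (s35ftO_derivation_of_kaehler h (s35ftO_der L (M * q))).symm

/-- Existence of `ω` in Kähler form. -/
theorem s35ftO_exists_kaehler :
    ∃ ω : FFL L (M * q),
      KaehlerDifferential.D L (FFL L (M * q)) (heckeBetaBar L M q (jL L M)) =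
        ω • KaehlerDifferential.D L (FFL L (M * q)) (jL L (M * q)) := by
  have : CharZero L := algebraRat.charZero L
  have := s35ftO_finiteDimensional L (M * q)
  exact s35ftO_exists_smul (transcendental_jL (M * q) L) _

variable {L}

/-- (O3) existence of `ω`. -/
theorem s35ft_exists_omega : ∃ ω : FFL L (M * q), s35ftIsOmega L M q ω := by
  obtain ⟨ω, h⟩ := s35ftO_exists_kaehler L M q
  exact ⟨ω, s35ftO_isOmega_of_kaehler L M q h⟩

/-- (O4) uniqueness of `ω`. -/
theorem s35ft_isOmega_unique {ω ω' : FFL L (M * q)} (h : s35ftIsOmega L M q ω)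
    (h' : s35ftIsOmega L M q ω') : ω = ω' := by
  apply Subtype.ext
  have h1 : (ω : LaurentSeries L) *
      LaurentDeriv.lsDer L ((jL L (M * q) : FFL L (M * q)) : LaurentSeries L) =
    (ω' : LaurentSeries L) *
      LaurentDeriv.lsDer L ((jL L (M * q) : FFL L (M * q)) : LaurentSeries L) := h.trans h'.symm
  exact mul_right_cancel₀ (s35ftO_lsDer_jL_ne_zero L M q) h1

/-- (O6) every `L`-derivation `δ` of `F` satisfies `δ j_q = ω • δ j`. -/
theorem s35ft_derivation_omega {ω : FFL L (M * q)} (h : s35ftIsOmega L M q ω)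
    {E : Type*} [AddCommGroup E] [Module L E] [Module (FFL L (M * q)) E]
    [IsScalarTower L (FFL L (M * q)) E] (δ : Derivation L (FFL L (M * q)) E) :
    δ (heckeBetaBar L M q (jL L M)) = ω • δ (jL L (M * q)) := by
  obtain ⟨ω₀, h₀⟩ := s35ftO_exists_kaehler L M q
  have e : ω = ω₀ := s35ft_isOmega_unique M q h (s35ftO_isOmega_of_kaehler L M q h₀)
  rw [e]
  exact s35ftO_derivation_of_kaehler h₀ δ

/-- (O7) the derivation `d/dj` of `F`. -/
theorem s35ft_exists_ddj : ∃ c : Derivation L (FFL L (M * q)) (FFL L (M * q)),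
    c (jL L (M * q)) = 1 := by
  have : CharZero L := algebraRat.charZero L
  have := s35ftO_finiteDimensional L (M * q)
  exact s35ftO_exists_ddx (transcendental_jL (M * q) L)

end Omega

end

end Fermat.Agent.S35
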