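import Mathlib
import Fermat.Agent.S35.FtOmega

/-!
# P20 (S35), block FT-CERT: ring-hom form of the derivation lemma for `ω`

`s35ft_derivation_omega_hom` : for a ring homomorphism `c : F →+* S` and an additive map
`D : S →+ S` satisfying the Leibniz rule and killing the constants, `D (c j_q) = c ω * D (c j)`.
-/

set_option autoImplicit false
set_option linter.style.haveILetI false

namespace Fermat.Agent.S35

open ModularCurve
open Fermat.Agent.S24

noncomputable section

/-- The derivation `D ∘ c` of a field `F` over `K`, with values in `S` viewed as an `F`-module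
through `c`. -/
theorem s35ftOH_exists_derivation {K F S : Type*} [Field K] [Field F] [Algebra K F]
    [CommRing S] (c : F →+* S) (D : S →+ S)
    (hD : ∀ a b : S, D (a * b) = a * D b + b * D a)
    (hL : ∀ a : K, D (c (algebraMap K F a)) = 0) :
    letI : Algebra F S := c.toAlgebra
    letI : Algebra K S := (c.comp (algebraMap K F)).toAlgebra
    ∃ _ : IsScalarTower K F S, ∃ δ : Derivation K F S, ∀ x : F, δ x = D (c x) := by
  letI : Algebra F S := c.toAlgebra
  letI : Algebra K S := (c.comp (algebraMap K F)).toAlgebra
  have hT : IsScalarTower K F S := IsScalarTower.of_algebraMap_eq (fun a => rfl)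
  refine ⟨hT, ?_⟩
  have h1 : D (c 1) = 0 := by
    have := hL 1
    rwa [map_one] at this
  refine ⟨{ toFun := fun x => D (c x)
            map_add' := fun x y => by rw [map_add, map_add]
            map_smul' := fun a x => by
              show D (c (a • x)) = a • D (c x)
              rw [Algebra.smul_def, map_mul, hD, hL, mul_zero, add_zero, Algebra.smul_def]
              rfl
            map_one_eq_zero' := h1
            leibniz' := fun x y => by
              show D (c (x * y)) = x • D (c y) + y • D (c x)
              rw [map_mul, hD, Algebra.smul_def, Algebra.smul_def]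
              rfl }, fun x => rfl⟩

/-- (O6') ring-hom form of `s35ft_derivation_omega`. -/
theorem s35ft_derivation_omega_hom {L : Type*} [Field L] [Algebra ℚ L] (M q : ℕ) [NeZero M]
    [NeZero q] {ω : FFL L (M * q)} (h : s35ftIsOmega L M q ω) {S : Type*} [CommRing S]
    (c : FFL L (M * q) →+* S) (D : S →+ S) (hD : ∀ a b : S, D (a * b) = a * D b + b * D a)
    (hL : ∀ a : L, D (c (algebraMap L (FFL L (M * q)) a)) = 0) :
    D (c (heckeBetaBar L M q (jL L M))) = c ω * D (c (jL L (M * q))) := by
  letI : Algebra (FFL L (M * q)) S := c.toAlgebra
  letI : Algebra L S := (c.comp (algebraMap L (FFL L (M * q)))).toAlgebra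
  obtain ⟨hT, δ, hδ⟩ := s35ftOH_exists_derivation c D hD hL
  have h2 := s35ft_derivation_omega M q h δ
  rw [hδ, hδ, Algebra.smul_def] at h2
  exact h2

end

end Fermat.Agent.S35
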