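import Mathlib
import Fermat.Agent.S24.LaurentDeriv
import Fermat.Prelude.Def_ModularCurve_X0
import Fermat.Prelude.Def_ModularCurve_LaurentCoeff
import Fermat.Prelude.Def_ModularCurve_X0ModL

/-!
# P20 (S35), block FT-CERT: the derivation `θ = Q · d/dQ` on Laurent series

Purely formal: coefficient formula, compatibility with `qExpand` (chain rule
`θ (f (Q^q)) = q · (θ f) (Q^q)`) and with `coeffMap`, and `θ` of the `q`-expansion of `j`.
-/

set_option autoImplicit false

namespace Fermat.Agent.S35

open ModularCurve HahnSeries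
open Fermat.Agent.S24

noncomputable section

section Basic

variable (R : Type*) [CommRing R]

/-- The derivation `θ = Q · d/dQ` of `R((Q))`. -/
def s35ftTheta : Derivation R (LaurentSeries R) (LaurentSeries R) where
  toFun f := single (1 : ℤ) (1 : R) * LaurentDeriv.lsDer R f
  map_add' f g := by rw [map_add, mul_add]
  map_smul' r f := by
    rw [RingHom.id_apply, Derivation.map_smul, ← C_mul_eq_smul, ← C_mul_eq_smul]
    ring
  map_one_eq_zero' := by
    show single (1 : ℤ) (1 : R) * LaurentDeriv.lsDer R 1 = 0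
    rw [Derivation.map_one_eq_zero, mul_zero]
  leibniz' f g := by
    show single (1 : ℤ) (1 : R) * LaurentDeriv.lsDer R (f * g)
      = f • (single (1 : ℤ) (1 : R) * LaurentDeriv.lsDer R g)
        + g • (single (1 : ℤ) (1 : R) * LaurentDeriv.lsDer R f)
    rw [Derivation.leibniz]
    simp only [smul_eq_mul]
    ring

variable {R}

theorem s35ftTheta_apply (f : LaurentSeries R) :
    s35ftTheta R f = single (1 : ℤ) (1 : R) * LaurentDeriv.lsDer R f := rfl

/-- `θ` multiplies the `n`-th coefficient by `n`. -/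
theorem s35ftTheta_coeff (f : LaurentSeries R) (n : ℤ) :
    (s35ftTheta R f).coeff n = (n : R) * f.coeff n := by
  rw [s35ftTheta_apply, coeff_single_mul, one_mul, LaurentDeriv.lsDer_coeff, sub_add_cancel]

theorem s35ftTheta_mul (f g : LaurentSeries R) :
    s35ftTheta R (f * g) = f * s35ftTheta R g + g * s35ftTheta R f := by
  have h := (s35ftTheta R).leibniz f g
  rw [smul_eq_mul, smul_eq_mul] at h
  exact h

theorem s35ftTheta_C (c : R) : s35ftTheta R (C c) = 0 := by
  rw [s35ftTheta_apply, LaurentDeriv.lsDer_C, mul_zero]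

theorem s35ftTheta_single (n : ℤ) (c : R) :
    s35ftTheta R (single n c) = single n ((n : R) * c) := by
  ext m
  rw [s35ftTheta_coeff]
  by_cases h : m = n
  · subst h
    rw [coeff_single_same, coeff_single_same]
  · rw [coeff_single_of_ne h, coeff_single_of_ne h, mul_zero]

/-- Chain rule: `θ (f (Q^q)) = q · (θ f) (Q^q)`. -/
theorem s35ftTheta_qExpand (q : ℕ) [NeZero q] (f : LaurentSeries R) :
    s35ftTheta R (qExpand R q f) = C (q : R) * qExpand R q (s35ftTheta R f) := by
  ext n
  rw [s35ftTheta_coeff, C_mul_eq_smul, coeff_smul, smul_eq_mul]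
  by_cases hn : (q : ℤ) ∣ n
  · obtain ⟨m, rfl⟩ := hn
    rw [qExpand_coeff_mul, qExpand_coeff_mul, s35ftTheta_coeff]
    push_cast
    ring
  · rw [qExpand_coeff_of_not_dvd q f hn, qExpand_coeff_of_not_dvd q _ hn, mul_zero, mul_zero]

/-- `θ` commutes with change of coefficients. -/
theorem s35ftTheta_coeffMap {S : Type*} [CommRing S] (φ : R →+* S) (f : LaurentSeries R) :
    s35ftTheta S (coeffMap φ f) = coeffMap φ (s35ftTheta R f) := by
  ext n
  rw [s35ftTheta_coeff, coeffMap_coeff, coeffMap_coeff, s35ftTheta_coeff, map_mul, map_intCast]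

/-- Order bound: `θ f` has no coefficient below the order of `f`. -/
theorem s35ftTheta_coeff_eq_zero_of_lt {f : LaurentSeries R} {n : ℤ}
    (h : ∀ m, m < n → f.coeff m = 0) {m : ℤ} (hm : m < n) : (s35ftTheta R f).coeff m = 0 := by
  rw [s35ftTheta_coeff, h m hm, mul_zero]

end Basic

section Field

variable {L : Type*} [Field L]

theorem s35ftTheta_inv (f : LaurentSeries L) (hf : f ≠ 0) :
    s35ftTheta L f⁻¹ = -(s35ftTheta L f) / f ^ 2 := by
  have h1 : s35ftTheta L (f * f⁻¹) = 0 := by
    rw [mul_inv_cancel₀ hf]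
    exact (s35ftTheta L).map_one_eq_zero
  rw [s35ftTheta_mul] at h1
  rw [eq_div_iff (pow_ne_zero 2 hf)]
  linear_combination f * h1 - s35ftTheta L f * (mul_inv_cancel₀ hf)

theorem s35ftTheta_div (f g : LaurentSeries L) (hg : g ≠ 0) :
    s35ftTheta L (f / g) = (g * s35ftTheta L f - f * s35ftTheta L g) / g ^ 2 := by
  rw [div_eq_mul_inv, s35ftTheta_mul, s35ftTheta_inv g hg]
  field_simp
  ring

/-- In characteristic zero the kernel of `θ` is the field of constants. -/
theorem s35ftTheta_eq_zero_iff [CharZero L] (f : LaurentSeries L) :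
    s35ftTheta L f = 0 ↔ f = C (f.coeff 0) := by
  constructor
  · intro h
    ext n
    by_cases hn : n = 0
    · subst hn
      rw [C_apply, coeff_single_same]
    · rw [C_apply, coeff_single_of_ne hn]
      have h1 := congrArg (fun x : LaurentSeries L => x.coeff n) h
      simp only [s35ftTheta_coeff, coeff_zero] at h1
      rcases mul_eq_zero.mp h1 with h2 | h2
      · exact absurd (by exact_mod_cast h2) hn
      · exact h2
  · intro h
    rw [h, s35ftTheta_C]

end Field

section J

variable (R : Type*) [CommRing R]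

/-- `θ j = -Q⁻¹ + O(Q)`: the coefficient of `Q⁻¹`. -/
theorem s35ftTheta_jqModC_coeff_neg_one : (s35ftTheta R (jqModC R)).coeff (-1 : ℤ) = -1 := by
  rw [s35ftTheta_coeff, coeff_jqModC_neg_one]
  simp

theorem s35ftTheta_jqModC_coeff_of_lt {k : ℤ} (hk : k < -1) :
    (s35ftTheta R (jqModC R)).coeff k = 0 :=
  s35ftTheta_coeff_eq_zero_of_lt (fun _ hm => coeff_jqModC_of_lt R hm) hk

theorem s35ftTheta_jqModC_ne_zero [Nontrivial R] : s35ftTheta R (jqModC R) ≠ 0 := by
  intro h
  have h1 := s35ftTheta_jqModC_coeff_neg_one R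
  rw [h, coeff_zero] at h1
  exact one_ne_zero (neg_eq_zero.mp h1.symm)

/-- `θ (j (Q^q)) = q · (θ j) (Q^q)`. -/
theorem s35ftTheta_jqNModC (q : ℕ) [NeZero q] :
    s35ftTheta R (jqNModC R q) = C (q : R) * qExpand R q (s35ftTheta R (jqModC R)) :=
  s35ftTheta_qExpand q (jqModC R)

theorem s35ftTheta_jq_coeff_neg_one : (s35ftTheta ℚ jq).coeff (-1 : ℤ) = -1 :=
  s35ftTheta_jqModC_coeff_neg_one ℚ

theorem s35ftTheta_jq_ne_zero : s35ftTheta ℚ jq ≠ 0 :=
  s35ftTheta_jqModC_ne_zero ℚ

end J

end

end Fermat.Agent.S35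

/-! ## Second part (helper167): the same operator as a plain function `s35ft_theta`

* `s35ft_theta f` : `θ f = Q · f'`, with `(θ f).coeff n = n * f.coeff n`;
* additivity, Leibniz rule, constants, powers, inverses and quotients;
* `s35ft_theta_qExpand` : the chain rule `θ (f(Q^N)) = N · (θ f)(Q^N)`;
* `s35ft_theta_coeffMap` : `θ` commutes with coefficientwise ring homomorphisms;
* `s35ft_thetaDer R` : `θ` as a derivation; `s35ftTheta_eq_theta` : bridge to `s35ftTheta`.
-/

namespace Fermat.Agent.S35

open HahnSeries ModularCurve Fermat.Agent.S24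

section Theta

variable {R : Type*} [CommRing R]

/-- `θ = Q d/dQ` on Laurent series. -/
noncomputable def s35ft_theta (f : LaurentSeries R) : LaurentSeries R :=
  single (1 : ℤ) (1 : R) * LaurentDeriv.lsD f

theorem s35ft_theta_def (f : LaurentSeries R) :
    s35ft_theta f = single (1 : ℤ) (1 : R) * LaurentDeriv.lsDer R f := rfl

theorem s35ft_theta_coeff (f : LaurentSeries R) (n : ℤ) :
    (s35ft_theta f).coeff n = (n : R) * f.coeff n := by
  rw [s35ft_theta, coeff_single_mul, LaurentDeriv.lsD_coeff, one_mul, sub_add_cancel]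

theorem s35ft_theta_add (f g : LaurentSeries R) :
    s35ft_theta (f + g) = s35ft_theta f + s35ft_theta g := by
  rw [s35ft_theta, LaurentDeriv.lsD_add, mul_add]; rfl

theorem s35ft_theta_mul (f g : LaurentSeries R) :
    s35ft_theta (f * g) = f * s35ft_theta g + g * s35ft_theta f := by
  rw [s35ft_theta, LaurentDeriv.lsD_mul, s35ft_theta, s35ft_theta]; ring

theorem s35ft_theta_C (c : R) : s35ft_theta (C c : LaurentSeries R) = 0 := by
  ext n
  rw [s35ft_theta_coeff, coeff_zero]
  by_cases h : n = 0
  · subst h; simp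
  · rw [C_apply, coeff_single_of_ne h, mul_zero]

theorem s35ft_theta_zero : s35ft_theta (0 : LaurentSeries R) = 0 := by
  ext n
  rw [s35ft_theta_coeff, coeff_zero, mul_zero]

theorem s35ft_theta_one : s35ft_theta (1 : LaurentSeries R) = 0 := by
  have h := s35ft_theta_C (1 : R)
  rwa [map_one] at h

theorem s35ft_theta_neg (f : LaurentSeries R) : s35ft_theta (-f) = -s35ft_theta f := by
  ext n
  rw [s35ft_theta_coeff, coeff_neg, coeff_neg, s35ft_theta_coeff, mul_neg]

theorem s35ft_theta_sub (f g : LaurentSeries R) :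
    s35ft_theta (f - g) = s35ft_theta f - s35ft_theta g := by
  rw [sub_eq_add_neg, s35ft_theta_add, s35ft_theta_neg, sub_eq_add_neg]

theorem s35ft_theta_C_mul (c : R) (f : LaurentSeries R) :
    s35ft_theta (C c * f) = C c * s35ft_theta f := by
  rw [s35ft_theta_mul, s35ft_theta_C, mul_zero, add_zero]

/-- `θ (Q^k) = k Q^k`. -/
theorem s35ft_theta_single (k : ℤ) (r : R) :
    s35ft_theta (single k r : LaurentSeries R) = single k ((k : R) * r) := by
  ext n
  rw [s35ft_theta_coeff]
  by_cases h : n = k
  · subst h; rw [coeff_single_same, coeff_single_same]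
  · rw [coeff_single_of_ne h, coeff_single_of_ne h, mul_zero]

/-- The chain rule for `Q ↦ Q^N`: `θ (f(Q^N)) = N · (θ f)(Q^N)`. -/
theorem s35ft_theta_qExpand (N : ℕ) [NeZero N] (f : LaurentSeries R) :
    s35ft_theta (qExpand R N f) = C (N : R) * qExpand R N (s35ft_theta f) := by
  ext k
  rw [s35ft_theta_coeff, C_mul_eq_smul, coeff_smul, smul_eq_mul]
  by_cases hk : (N : ℤ) ∣ k
  · obtain ⟨m, rfl⟩ := hk
    rw [qExpand_coeff_mul, qExpand_coeff_mul, s35ft_theta_coeff]
    push_cast; ring
  · rw [qExpand_coeff_of_not_dvd N f hk, qExpand_coeff_of_not_dvd N _ hk, mul_zero, mul_zero]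

/-- `θ` commutes with coefficientwise ring homomorphisms. -/
theorem s35ft_theta_coeffMap {S : Type*} [CommRing S] (φ : R →+* S) (f : LaurentSeries R) :
    s35ft_theta (coeffMap φ f) = coeffMap φ (s35ft_theta f) := by
  ext n
  rw [s35ft_theta_coeff, coeffMap_coeff, coeffMap_coeff, s35ft_theta_coeff, map_mul, map_intCast]

variable (R) in
/-- `θ` as a derivation of the ring of Laurent series. -/
noncomputable def s35ft_thetaDer : Derivation R (LaurentSeries R) (LaurentSeries R) where
  toFun := s35ft_theta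
  map_add' := s35ft_theta_add
  map_smul' r f := by
    rw [RingHom.id_apply, Algebra.smul_def, LaurentDeriv.algebraMap_eq_C, s35ft_theta_C_mul,
      C_mul_eq_smul]
  map_one_eq_zero' := s35ft_theta_one
  leibniz' f g := by
    show s35ft_theta (f * g) = f • s35ft_theta g + g • s35ft_theta f
    simp only [smul_eq_mul]
    exact s35ft_theta_mul f g

theorem s35ft_thetaDer_apply (f : LaurentSeries R) : s35ft_thetaDer R f = s35ft_theta f := rfl

theorem s35ft_theta_pow (f : LaurentSeries R) (n : ℕ) :
    s35ft_theta (f ^ n) = C (n : R) * f ^ (n - 1) * s35ft_theta f := by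
  have h := (s35ft_thetaDer R).leibniz_pow (a := f) n
  rw [s35ft_thetaDer_apply, s35ft_thetaDer_apply, smul_eq_mul, nsmul_eq_mul] at h
  rw [h, mul_assoc, map_natCast]

/-- `θ (aeval f P) = P'(f) · θ f` for a polynomial `P` with constant coefficients. -/
theorem s35ft_theta_aeval (P : Polynomial R) (f : LaurentSeries R) :
    s35ft_theta (Polynomial.aeval f P)
      = Polynomial.aeval f (Polynomial.derivative P) * s35ft_theta f := by
  have h := (s35ft_thetaDer R).map_aeval P f
  rwa [s35ft_thetaDer_apply, s35ft_thetaDer_apply, smul_eq_mul] at h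

end Theta

section Field

variable {L : Type*} [Field L]

theorem s35ft_theta_inv (f : LaurentSeries L) :
    s35ft_theta f⁻¹ = -(f⁻¹ ^ 2 * s35ft_theta f) := by
  have h := (s35ft_thetaDer L).leibniz_inv f
  rwa [s35ft_thetaDer_apply, s35ft_thetaDer_apply, smul_eq_mul, neg_mul] at h

theorem s35ft_theta_div (f g : LaurentSeries L) :
    s35ft_theta (f / g) = g⁻¹ ^ 2 * (g * s35ft_theta f - f * s35ft_theta g) := by
  have h := (s35ft_thetaDer L).leibniz_div f g
  rwa [s35ft_thetaDer_apply, s35ft_thetaDer_apply, s35ft_thetaDer_apply, smul_eq_mul, smul_eq_mul,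
    smul_eq_mul] at h

/-- In characteristic zero, `θ f = 0` only for constants. -/
theorem s35ft_theta_eq_zero_iff [CharZero L] (f : LaurentSeries L) :
    s35ft_theta f = 0 ↔ f = C (f.coeff 0) := by
  constructor
  · intro h
    ext n
    by_cases hn : n = 0
    · subst hn; simp
    · have h1 := congrArg (fun g : LaurentSeries L => g.coeff n) h
      simp only [s35ft_theta_coeff, coeff_zero] at h1
      rcases mul_eq_zero.mp h1 with h2 | h2
      · exact absurd (by exact_mod_cast h2) hn
      · rw [h2, C_apply, coeff_single_of_ne hn]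
  · intro h
    rw [h, s35ft_theta_C]

end Field

/-- Bridge between the two shapes of `θ` in this file. -/
theorem s35ftTheta_eq_theta {R : Type*} [CommRing R] (f : LaurentSeries R) :
    s35ftTheta R f = s35ft_theta f := rfl

end Fermat.Agent.S35
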