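import Mathlib
import Fermat.Agent.S35.FtTheta
import Fermat.Agent.S18.GaussLRing
import Fermat.Prelude.Thm_ModularCurve_coeffMap_qExpand

/-!
# P20 (S35), block FT-CERT: `θ = Q · d/dQ` and the Gauss ring of `K((Q))`

* `θ` preserves `GaussL.gaussO Λ res` and commutes with the reduction `gaussRedO`;
* Gauss units (`s35ftGU`): `j`, `j - c`, `j (Q^q)`, `j (Q^q) - c`, `θ j`, `(θ j) (Q^q)`;
* the series of the modular unit `φ / q^12` is a Gauss unit (`s35ft_phi_series`).
-/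

set_option autoImplicit false

namespace Fermat.Agent.S35

open ModularCurve HahnSeries
open Fermat.Agent.S18 Fermat.Agent.S18.GaussL

noncomputable section

variable {K k : Type*} [Field K] [Field k] {Λ : Subring K} {res : ↥Λ →+* k}

section Theta

/-- `θ` preserves the Gauss ring. -/
theorem s35ftTheta_mem_gaussO {x : LaurentSeries K} (hx : x ∈ gaussO Λ res) :
    s35ftTheta K x ∈ gaussO Λ res := by
  obtain ⟨a, b, hb, hab⟩ := hx
  refine ⟨s35ftTheta ↥Λ a * b - a * s35ftTheta ↥Λ b, b * b, ?_, ?_⟩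
  · rw [map_mul]
    exact mul_ne_zero hb hb
  · have h1 := congrArg (s35ftTheta K) hab
    rw [s35ftTheta_mul, s35ftTheta_coeffMap, s35ftTheta_coeffMap] at h1
    rw [map_mul, map_sub, map_mul, map_mul, ← h1, ← hab]
    ring

/-- `θ` commutes with the reduction of the Gauss ring. -/
theorem s35ftTheta_gaussRedO {x : LaurentSeries K} (hx : x ∈ gaussO Λ res) :
    gaussRedO Λ res ⟨s35ftTheta K x, s35ftTheta_mem_gaussO hx⟩
      = s35ftTheta k (gaussRedO Λ res ⟨x, hx⟩) := by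
  obtain ⟨a, b, hb, hab⟩ := (mem_gaussO_iff x).mp hx
  have hθ : s35ftTheta K x * coeffMap Λ.subtype (b * b)
      = coeffMap Λ.subtype (s35ftTheta ↥Λ a * b - a * s35ftTheta ↥Λ b) := by
    have h1 := congrArg (s35ftTheta K) hab
    rw [s35ftTheta_mul, s35ftTheta_coeffMap, s35ftTheta_coeffMap] at h1
    rw [map_mul, map_sub, map_mul, map_mul, ← h1, ← hab]
    ring
  have h2 := gaussRedO_mul_eq (res := res) ⟨s35ftTheta K x, s35ftTheta_mem_gaussO hx⟩ _ _ hθ
  have h3 := gaussRedO_mul_eq (res := res) ⟨x, hx⟩ a b hab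
  have h4 := congrArg (s35ftTheta k) h3
  rw [s35ftTheta_mul] at h4
  rw [map_mul, map_sub, map_mul, map_mul, ← s35ftTheta_coeffMap, ← s35ftTheta_coeffMap] at h2
  have hbb : coeffMap res b * coeffMap res b ≠ 0 := mul_ne_zero hb hb
  apply mul_right_cancel₀ hbb
  rw [h2, ← h4, ← h3]
  ring

end Theta

section GU

variable (Λ res) in
/-- Gauss units of `K((Q))`: quotients of two series with coefficients in `Λ`, both nonzero
after reduction. -/
def s35ftGU (x : LaurentSeries K) : Prop :=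
  ∃ a b : LaurentSeries ↥Λ, coeffMap res a ≠ 0 ∧ coeffMap res b ≠ 0 ∧
    x * coeffMap Λ.subtype b = coeffMap Λ.subtype a

theorem s35ftGU_mem {x : LaurentSeries K} (h : s35ftGU Λ res x) : x ∈ gaussO Λ res := by
  obtain ⟨a, b, _, hb, hab⟩ := h
  exact ⟨a, b, hb, hab⟩

theorem s35ftGU_ne_zero {x : LaurentSeries K} (h : s35ftGU Λ res x) : x ≠ 0 := by
  obtain ⟨a, b, ha, _, hab⟩ := h
  rintro rfl
  rw [zero_mul] at hab
  exact ne_zero_of_red_ne_zero ha ((incl_eq_zero_iff a).mp hab.symm)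

theorem s35ftGU_inv {x : LaurentSeries K} (h : s35ftGU Λ res x) : s35ftGU Λ res x⁻¹ := by
  have hx0 := s35ftGU_ne_zero h
  obtain ⟨a, b, ha, hb, hab⟩ := h
  exact ⟨b, a, hb, ha, by rw [← hab, ← mul_assoc, inv_mul_cancel₀ hx0, one_mul]⟩

theorem s35ftGU_inv_mem {x : LaurentSeries K} (h : s35ftGU Λ res x) : x⁻¹ ∈ gaussO Λ res :=
  s35ftGU_mem (s35ftGU_inv h)

theorem s35ftGU_mul {x y : LaurentSeries K} (hx : s35ftGU Λ res x) (hy : s35ftGU Λ res y) :
    s35ftGU Λ res (x * y) := by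
  obtain ⟨a, b, ha, hb, hab⟩ := hx
  obtain ⟨a', b', ha', hb', hab'⟩ := hy
  refine ⟨a * a', b * b', ?_, ?_, ?_⟩
  · rw [map_mul]
    exact mul_ne_zero ha ha'
  · rw [map_mul]
    exact mul_ne_zero hb hb'
  · rw [map_mul, map_mul, ← hab, ← hab']
    ring

theorem s35ftGU_one : s35ftGU Λ res (1 : LaurentSeries K) :=
  ⟨1, 1, by rw [map_one]; exact one_ne_zero, by rw [map_one]; exact one_ne_zero,
    by rw [one_mul]⟩

theorem s35ftGU_pow {x : LaurentSeries K} (hx : s35ftGU Λ res x) (n : ℕ) :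
    s35ftGU Λ res (x ^ n) := by
  induction n with
  | zero => rw [pow_zero]; exact s35ftGU_one
  | succ n ih => rw [pow_succ]; exact s35ftGU_mul ih hx

theorem s35ftGU_div {x y : LaurentSeries K} (hx : s35ftGU Λ res x) (hy : s35ftGU Λ res y) :
    s35ftGU Λ res (x / y) := by
  rw [div_eq_mul_inv]
  exact s35ftGU_mul hx (s35ftGU_inv hy)

/-- The reduction of a Gauss unit is nonzero. -/
theorem s35ftGU_gaussRedO_ne_zero {x : LaurentSeries K} (h : s35ftGU Λ res x)
    (hx : x ∈ gaussO Λ res) : gaussRedO Λ res ⟨x, hx⟩ ≠ 0 := by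
  obtain ⟨a, b, ha, hb, hab⟩ := h
  have h1 := gaussRedO_mul_eq (res := res) ⟨x, hx⟩ a b hab
  intro h0
  rw [h0, zero_mul] at h1
  exact ha h1.symm

/-- Conversely, an element of the Gauss ring with nonzero reduction is a Gauss unit. -/
theorem s35ftGU_of_gaussRedO_ne_zero {x : LaurentSeries K} (hx : x ∈ gaussO Λ res)
    (h : gaussRedO Λ res ⟨x, hx⟩ ≠ 0) : s35ftGU Λ res x := by
  obtain ⟨a, b, hb, hab⟩ := hx
  have h1 := gaussRedO_mul_eq (res := res) ⟨x, ⟨a, b, hb, hab⟩⟩ a b hab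
  refine ⟨a, b, ?_, hb, hab⟩
  rw [← h1]
  exact mul_ne_zero h hb

/-- A series with coefficients in `Λ` and nonzero reduction is a Gauss unit. -/
theorem s35ftGU_of_coeffMap (a : LaurentSeries ↥Λ) (ha : coeffMap res a ≠ 0) :
    s35ftGU Λ res (coeffMap Λ.subtype a) :=
  ⟨a, 1, ha, by rw [map_one]; exact one_ne_zero, by rw [map_one, mul_one]⟩

/-- The image of a series with integer coefficients is a Gauss unit as soon as its reduction
is nonzero. -/
theorem s35ftGU_of_int (a : LaurentSeries ℤ) (ha : coeffMap (Int.castRingHom k) a ≠ 0) :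
    s35ftGU Λ res (coeffMap (Int.castRingHom K) a) := by
  have h1 : coeffMap (Int.castRingHom K) a
      = coeffMap Λ.subtype (coeffMap (Int.castRingHom ↥Λ) a) := by
    rw [coeffMap_coeffMap]
    exact coeffMap_congr (RingHom.ext_int _ _) a
  rw [h1]
  apply s35ftGU_of_coeffMap
  rw [coeffMap_coeffMap]
  rw [coeffMap_congr (RingHom.ext_int (res.comp (Int.castRingHom ↥Λ)) (Int.castRingHom k)) a]
  exact ha

end GU

section J

variable (Λ res)

/-- `j - c` (`c ∈ ℤ`) is a Gauss unit. -/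
theorem s35ftGU_jqModC_sub (c : ℤ) : s35ftGU Λ res (jqModC K - C (c : K)) := by
  have h1 : jqModC K - C (c : K) = coeffMap (Int.castRingHom K) (jqModC ℤ - C c) := by
    rw [map_sub, coeffMap_jqModC, GaussL.coeffMap_C]
    rfl
  rw [h1]
  apply s35ftGU_of_int
  rw [map_sub, coeffMap_jqModC, GaussL.coeffMap_C]
  intro h
  have h2 := congrArg (fun x : LaurentSeries k => x.coeff (-1)) h
  simp only [coeff_sub, coeff_jqModC_neg_one, C_apply, coeff_zero] at h2
  rw [coeff_single_of_ne (by norm_num), sub_zero] at h2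
  exact one_ne_zero h2

/-- `j` is a Gauss unit. -/
theorem s35ftGU_jqModC : s35ftGU Λ res (jqModC K) := by
  have h := s35ftGU_jqModC_sub (K := K) Λ res 0
  rwa [Int.cast_zero, map_zero, sub_zero] at h

/-- `θ j` is a Gauss unit. -/
theorem s35ftGU_theta_jqModC : s35ftGU Λ res (s35ftTheta K (jqModC K)) := by
  have h1 : s35ftTheta K (jqModC K)
      = coeffMap (Int.castRingHom K) (s35ftTheta ℤ (jqModC ℤ)) := by
    rw [← s35ftTheta_coeffMap, coeffMap_jqModC]
  rw [h1]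
  apply s35ftGU_of_int
  rw [← s35ftTheta_coeffMap, coeffMap_jqModC]
  exact s35ftTheta_jqModC_ne_zero k

/-- `qExpand` preserves Gauss units. -/
theorem s35ftGU_qExpand (q : ℕ) [NeZero q] {x : LaurentSeries K} (hx : s35ftGU Λ res x) :
    s35ftGU Λ res (qExpand K q x) := by
  obtain ⟨a, b, ha, hb, hab⟩ := hx
  refine ⟨qExpand ↥Λ q a, qExpand ↥Λ q b, ?_, ?_, ?_⟩
  · rw [coeffMap_qExpand]
    intro h
    exact ha (qExpand_injective (R := k) q (by rw [h, map_zero]))
  · rw [coeffMap_qExpand]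
    intro h
    exact hb (qExpand_injective (R := k) q (by rw [h, map_zero]))
  · rw [coeffMap_qExpand, coeffMap_qExpand, ← hab, map_mul]

/-- `j (Q^q) - c` is a Gauss unit. -/
theorem s35ftGU_jqNModC_sub (q : ℕ) [NeZero q] (c : ℤ) :
    s35ftGU Λ res (jqNModC K q - C (c : K)) := by
  have h := s35ftGU_qExpand Λ res q (s35ftGU_jqModC_sub (K := K) Λ res c)
  rwa [map_sub, qExpand_C] at h

/-- `j (Q^q)` is a Gauss unit. -/
theorem s35ftGU_jqNModC (q : ℕ) [NeZero q] : s35ftGU Λ res (jqNModC K q) :=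
  s35ftGU_qExpand Λ res q (s35ftGU_jqModC Λ res)

/-- `θ (j (Q^q)) / θ j = q · u` with `u = (θ j) (Q^q) / θ j` a Gauss unit. -/
theorem s35ft_omega_series (q : ℕ) [NeZero q] :
    ∃ u : LaurentSeries K, s35ftGU Λ res u ∧
      s35ftTheta K (jqNModC K q) / s35ftTheta K (jqModC K) = C (q : K) * u := by
  refine ⟨qExpand K q (s35ftTheta K (jqModC K)) / s35ftTheta K (jqModC K),
    s35ftGU_div (s35ftGU_qExpand Λ res q (s35ftGU_theta_jqModC Λ res))
      (s35ftGU_theta_jqModC Λ res), ?_⟩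
  rw [s35ftTheta_jqNModC, mul_div_assoc]

/-- The series of the modular unit `φ = q^6 ω^6 j^4 (j - 1728)^3 / (j_q^4 (j_q - 1728)^3)`,
`ω = θ j_q / θ j`, is `q^12` times a Gauss unit. -/
theorem s35ft_phi_series (q : ℕ) [NeZero q] :
    ∃ u : LaurentSeries K, s35ftGU Λ res u ∧
      C (q : K) ^ 6 * (s35ftTheta K (jqNModC K q) / s35ftTheta K (jqModC K)) ^ 6
          * (jqModC K ^ 4 * (jqModC K - C ((1728 : ℤ) : K)) ^ 3)
          / (jqNModC K q ^ 4 * (jqNModC K q - C ((1728 : ℤ) : K)) ^ 3)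
        = C (q : K) ^ 12 * u := by
  obtain ⟨u, hu, hω⟩ := s35ft_omega_series (K := K) Λ res q
  refine ⟨u ^ 6 * (jqModC K ^ 4 * (jqModC K - C ((1728 : ℤ) : K)) ^ 3)
      / (jqNModC K q ^ 4 * (jqNModC K q - C ((1728 : ℤ) : K)) ^ 3), ?_, ?_⟩
  · exact s35ftGU_div
      (s35ftGU_mul (s35ftGU_pow hu 6)
        (s35ftGU_mul (s35ftGU_pow (s35ftGU_jqModC Λ res) 4)
          (s35ftGU_pow (s35ftGU_jqModC_sub Λ res 1728) 3)))
      (s35ftGU_mul (s35ftGU_pow (s35ftGU_jqNModC Λ res q) 4)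
        (s35ftGU_pow (s35ftGU_jqNModC_sub Λ res q 1728) 3))
  · rw [hω]
    ring

end J

end

end Fermat.Agent.S35
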