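import Mathlib
import Fermat.Agent.S35.FtOmegaDefs
import Fermat.Agent.S34.KronInt
import Fermat.Agent.S35.FtThetaGauss
import Fermat.Agent.S18.GaussLVal

/-!
# P20 (S35), block FT-CERT, (C1): `φ / q^12` is a unit of the Gauss valuation ring `V_∞`
-/

set_option autoImplicit false

namespace Fermat.Agent.S35

open ModularCurve AlgebraicCurve HahnSeries
open Fermat.Agent.S18 Fermat.Agent.S24 Fermat.Agent.S28 Fermat.Agent.S28.FreeBasisAbs
open Fermat.Agent.S34

noncomputable section

section Series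

variable {L : Type*} [Field L] [Algebra ℚ L] (M q : ℕ) [NeZero M] [NeZero q]

/-- The series of `ω` is `θ j_q / θ j`. -/
theorem s35ftphi_coe_omega {ω : FFL L (M * q)} (hω : s35ftIsOmega L M q ω) :
    (ω : LaurentSeries L) = s35ftTheta L (jqNModC L q) / s35ftTheta L (jqModC L) := by
  have h1 : (ω : LaurentSeries L) * LaurentDeriv.lsDer L (jqModC L)
      = LaurentDeriv.lsDer L (jqNModC L q) := by
    have h := hω
    unfold s35ftIsOmega at h
    rw [KronInt.coe_jL_eq, KronInt.coe_beta_jL_eq] at h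
    exact h
  rw [eq_div_iff (s35ftTheta_jqModC_ne_zero L), s35ftTheta_apply, s35ftTheta_apply, ← h1]
  ring

/-- The series of `φ / q^12`. -/
theorem s35ftphi_coe_phi {k : Type*} [Field k] (Λ : Subring L) (res : ↥Λ →+* k)
    {ω : FFL L (M * q)} (hω : s35ftIsOmega L M q ω) :
    s35ftGU Λ res
      ((algebraMap L (FFL L (M * q)) ((q : L) ^ 12)⁻¹ * s35ftPhi L M q ω : FFL L (M * q)) :
        LaurentSeries L) := by
  obtain ⟨u, hu, hφ⟩ := s35ft_phi_series (K := L) Λ res q
  haveI : CharZero L := charZero_of_injective_algebraMap (algebraMap ℚ L).injective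
  have hq : (C (q : L) : LaurentSeries L) ≠ 0 := by
    intro h
    have h1 := congrArg (fun x : LaurentSeries L => x.coeff 0) h
    simp only [C_apply, coeff_single_same, coeff_zero] at h1
    exact (Nat.cast_ne_zero.mpr (NeZero.ne q)) h1
  have hval : ∀ x : FFL L (M * q), (laurentBaseChange L (modularFunctionFieldFull (M * q))).val x
      = (x : LaurentSeries L) := fun _ => rfl
  have key : ((algebraMap L (FFL L (M * q)) ((q : L) ^ 12)⁻¹ * s35ftPhi L M q ω :
      FFL L (M * q)) : LaurentSeries L) = u := by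
    rw [← hval]
    unfold s35ftPhi
    simp only [map_mul, map_div₀, map_pow, map_sub, AlgHom.commutes, GaussL.algebraMap_eq_C,
      map_inv₀]
    rw [hval, hval, hval, s35ftphi_coe_omega M q hω, KronInt.coe_jL_eq, KronInt.coe_beta_jL_eq]
    have h1728 : ((1728 : ℤ) : L) = 1728 := by norm_num
    rw [h1728] at hφ
    have hφ' : C (q : L) ^ 6 * (s35ftTheta L (jqNModC L q) / s35ftTheta L (jqModC L)) ^ 6
        * jqModC L ^ 4 * (jqModC L - C (1728 : L)) ^ 3
        / (qExpand L q (jqModC L) ^ 4 * (qExpand L q (jqModC L) - C (1728 : L)) ^ 3)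
        = C (q : L) ^ 12 * u := by
      rw [← hφ]
      unfold jqNModC
      ring
    rw [hφ']
    field_simp
  rw [key]
  exact hu

end Series

section Gauss

variable {L k : Type*} [Field L] [Algebra ℚ L] [Field k] (Λ : Subring L) (res : ↥Λ →+* k)
  (M q : ℕ) [NeZero M] [NeZero q]

/-- **(C1)** `φ / q^12` is a unit of the Gauss valuation ring `V_∞` (`w_∞(φ) = 12 v(q)`). -/
theorem s35ft_phi_gauss_unit {ω : FFL L (M * q)} (hω : s35ftIsOmega L M q ω) :
    ∃ h : algebraMap L (FFL L (M * q)) ((q : L) ^ 12)⁻¹ * s35ftPhi L M q ω ∈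
        GaussL.gaussV Λ res (laurentBaseChange L (modularFunctionFieldFull (M * q))),
      GaussL.gaussRed Λ res (laurentBaseChange L (modularFunctionFieldFull (M * q))) ⟨_, h⟩ ≠ 0 := by
  have hu := s35ftphi_coe_phi M q Λ res hω
  refine ⟨(GaussL.mem_gaussV_iff _ _).mpr (s35ftGU_mem hu), ?_⟩
  rw [GaussL.gaussRed_apply]
  exact s35ftGU_gaussRedO_ne_zero hu _

/-- The inverse `q^12 / φ` also lies in `V_∞`. -/
theorem s35ft_phi_inv_mem_gaussV {ω : FFL L (M * q)} (hω : s35ftIsOmega L M q ω) :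
    (algebraMap L (FFL L (M * q)) ((q : L) ^ 12)⁻¹ * s35ftPhi L M q ω)⁻¹ ∈
      GaussL.gaussV Λ res (laurentBaseChange L (modularFunctionFieldFull (M * q))) := by
  have hu := s35ftphi_coe_phi M q Λ res hω
  rw [GaussL.mem_gaussV_iff]
  exact s35ftGU_inv_mem hu

end Gauss

end

end Fermat.Agent.S35
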