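import Mathlib
import Fermat.Agent.S24.Analytic
import Fermat.Agent.S35.FtOmegaDefs
import Fermat.Agent.S35.FtAnaDefs
import Fermat.Agent.S35.FtOmegaHom
import Fermat.Agent.S35.FtJDeriv
import Fermat.Agent.S35.FtPhi
import Fermat.Agent.S35.FtMerDeriv
import Fermat.Agent.S35.FtConjJq

/-!
# P20 (S35), block FT-CERT, (C3a): the conjugates of the modular unit `φ`

* `s35ft_phi_ne_zero` : `φ ≠ 0`;
* `s35ft_merOrd_phi` : every conjugate of `φ` is holomorphic and nowhere zero on `ℍ`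
  (`conjMer x φ = q^6 · V / U` with `U = Δ`, `V = (a/d)^6 · Δ∘μ` nowhere vanishing).
-/

set_option autoImplicit false

namespace Fermat.Agent.S35

open ModularCurve AlgebraicCurve UpperHalfPlane
open Fermat.Agent.S18 Fermat.Agent.S24

noncomputable section

/-- A holomorphic function without zeros is nonzero in `Mer`, of order zero everywhere. -/
theorem s35ftAna_ne_zero_of_forall {f : Hol} (hf : ∀ τ : ℍ, (f : ℍ → ℂ) τ ≠ 0) :
    algebraMap Hol Mer f ≠ 0 := by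
  refine mer_algebraMap_ne_zero fun h => ?_
  have τ : ℍ := UpperHalfPlane.I
  apply hf τ
  rw [h]
  rfl

/-- The field identity behind (C3a). -/
theorem s35ftAna_field {K : Type*} [Field K] {κ w J J' G G' t u v : K}
    (hO : G' = w * J')
    (hkey : G' ^ 6 * (J ^ 4 * (J - t) ^ 3) * u = G ^ 4 * (G - t) ^ 3 * v * J' ^ 6)
    (hJ' : J' ≠ 0) (hG : G ≠ 0) (hGt : G - t ≠ 0) (hu : u ≠ 0) :
    κ * w ^ 6 * J ^ 4 * (J - t) ^ 3 / (G ^ 4 * (G - t) ^ 3) = κ * (v / u) := by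
  have h1 : w ^ 6 * (J ^ 4 * (J - t) ^ 3) * u = G ^ 4 * (G - t) ^ 3 * v := by
    rw [hO] at hkey
    apply mul_right_cancel₀ (pow_ne_zero 6 hJ')
    linear_combination hkey
  have hden : G ^ 4 * (G - t) ^ 3 ≠ 0 := mul_ne_zero (pow_ne_zero 4 hG) (pow_ne_zero 3 hGt)
  rw [← mul_div_assoc, div_eq_div_iff hden hu]
  linear_combination κ * h1

/-- `φ ≠ 0`. -/
theorem s35ft_phi_ne_zero {L : Type*} [Field L] [Algebra ℚ L] (M q : ℕ) [NeZero M] [NeZero q]
    {ω : FFL L (M * q)} (hω : s35ftIsOmega L M q ω) : s35ftPhi L M q ω ≠ 0 := by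
  have hu := s35ftphi_coe_phi M q (⊤ : Subring L)
    (Subring.topEquiv : ↥(⊤ : Subring L) ≃+* L).toRingHom hω
  intro h0
  apply s35ftGU_ne_zero hu
  rw [h0, mul_zero]
  rfl

/-- **(C3a)** every conjugate of `φ` is holomorphic and nowhere zero on `ℍ`. -/
theorem s35ft_merOrd_phi {L : Type*} [Field L] [Algebra ℚ L] (ι : L →+* ℂ) (M q : ℕ) [NeZero M]
    [NeZero q] {ω : FFL L (M * q)} (hω : s35ftIsOmega L M q ω) (x : XX (M * q)) (τ : ℍ) :
    merOrd τ (conjMer (M * q) ι x (s35ftPhi L M q ω)) = 0 := by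
  obtain ⟨a, b, d, ha, hd, -, hG⟩ := s35ft_conjMer_jq ι M q x
  obtain ⟨U, V, hU, hV, hkey⟩ := s35ftJ_key a b d ha hd
  obtain ⟨-, -, hJ', hG0, hG1⟩ := s35ftJ_ne_zero a b d ha hd
  have hJ : conjMer (M * q) ι x (jL L (M * q)) = algebraMap Hol Mer s35ftJHol :=
    conjMer_jL (M * q) ι x
  have hconst : ∀ r : L, conjMer (M * q) ι x (algebraMap L (FFL L (M * q)) r) =
      algebraMap Hol Mer (holC (ι r)) := conjMer_algebraMap (M * q) ι x
  have hDc : ∀ r : L,
      s35ftMerDeriv (conjMer (M * q) ι x (algebraMap L (FFL L (M * q)) r)) = 0 := by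
    intro r
    rw [hconst, s35ftMerDeriv_algebraMap, s35ftMD_holDeriv_holC, map_zero]
  have hO := s35ft_derivation_omega_hom M q hω (conjMer (M * q) ι x) s35ftMerDeriv
    s35ftMerDeriv_mul hDc
  rw [hG, hJ, s35ftMerDeriv_algebraMap, s35ftMerDeriv_algebraMap] at hO
  have hkeyM := congrArg (algebraMap Hol Mer) hkey
  simp only [map_mul, map_pow, map_sub] at hkeyM
  have h1728 : ι (1728 : L) = 1728 := map_ofNat ι 1728
  have hφ : conjMer (M * q) ι x (s35ftPhi L M q ω) =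
      algebraMap Hol Mer (holC (ι ((q : L) ^ 6))) * conjMer (M * q) ι x ω ^ 6 *
          algebraMap Hol Mer s35ftJHol ^ 4 *
          (algebraMap Hol Mer s35ftJHol - algebraMap Hol Mer (holC 1728)) ^ 3 /
        (algebraMap Hol Mer (s35ftJabdHol a b d ha hd) ^ 4 *
          (algebraMap Hol Mer (s35ftJabdHol a b d ha hd) - algebraMap Hol Mer (holC 1728)) ^ 3) := by
    unfold s35ftPhi
    simp only [map_div₀, map_mul, map_pow, map_sub, hG, hJ, hconst, h1728]
  have hu0 : algebraMap Hol Mer U ≠ 0 := s35ftAna_ne_zero_of_forall hU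
  have hv0 : algebraMap Hol Mer V ≠ 0 := s35ftAna_ne_zero_of_forall hV
  have hκ : ι ((q : L) ^ 6) ≠ 0 := by
    rw [map_pow, map_natCast]
    exact pow_ne_zero 6 (Nat.cast_ne_zero.mpr (NeZero.ne q))
  have hκ0 : algebraMap Hol Mer (holC (ι ((q : L) ^ 6))) ≠ 0 :=
    s35ftAna_ne_zero_of_forall (f := holC (ι ((q : L) ^ 6))) (fun _ => hκ)
  have hG1' : algebraMap Hol Mer (s35ftJabdHol a b d ha hd) - algebraMap Hol Mer (holC 1728) ≠ 0 := by
    rw [← map_sub]
    exact mer_algebraMap_ne_zero hG1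
  rw [hφ, s35ftAna_field hO hkeyM (mer_algebraMap_ne_zero hJ') (mer_algebraMap_ne_zero hG0) hG1' hu0,
    merOrd_mul τ hκ0 (div_ne_zero hv0 hu0), merOrd_div τ hv0 hu0, merOrd_const τ hκ,
    merOrd_algebraMap_eq_zero τ V (hV τ), merOrd_algebraMap_eq_zero τ U (hU τ)]
  norm_num

end

end Fermat.Agent.S35
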