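import Mathlib
import Fermat.Agent.S24.Analytic
import Fermat.Agent.S35.FtOmegaHom
import Fermat.Agent.S35.FtAnaDefs
import Fermat.Agent.S35.FtMerDeriv
import Fermat.Agent.S35.FtJDeriv
import Fermat.Agent.S35.FtConjJq

/-!
# P20 (S35), block FT-CERT, (C3a): the conjugates of `φ` as quotients of nowhere vanishing
holomorphic functions

`s35ft_conjMer_phi` : for every `x`, `conjMer x φ · U = q^6 · V` in `Mer` with `U`, `V`
holomorphic and nowhere zero on the upper half plane.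
-/

set_option autoImplicit false

namespace Fermat.Agent.S35

open ModularCurve AlgebraicCurve UpperHalfPlane
open Fermat.Agent.S24

noncomputable section

/-- The derivative of a constant function is zero. -/
theorem s35ftAI_holDeriv_holC (z : ℂ) : s35ftHolDeriv (holC z) = 0 := by
  apply Subtype.ext
  funext τ
  have h : ((holC z : Hol) : ℍ → ℂ) ∘ ofComplex = fun _ => z := rfl
  show deriv (((holC z : Hol) : ℍ → ℂ) ∘ ofComplex) (τ : ℂ) = 0
  rw [h, deriv_const]

/-- Pure field algebra behind `s35ft_conjMer_phi`. -/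
theorem s35ftAI_field {K : Type*} [Field K] {Q w J T G G' J' U V : K}
    (hO : G' = w * J') (hkey : G' ^ 6 * (J ^ 4 * (J - T) ^ 3) * U = G ^ 4 * (G - T) ^ 3 * V * J' ^ 6)
    (hJ' : J' ≠ 0) (hG : G ≠ 0) (hGT : G - T ≠ 0) :
    Q * w ^ 6 * J ^ 4 * (J - T) ^ 3 / (G ^ 4 * (G - T) ^ 3) * U = Q * V := by
  have h1 : w ^ 6 * (J ^ 4 * (J - T) ^ 3) * U = G ^ 4 * (G - T) ^ 3 * V := by
    rw [hO] at hkey
    apply mul_right_cancel₀ (pow_ne_zero 6 hJ')
    linear_combination hkey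
  rw [div_mul_eq_mul_div, div_eq_iff (mul_ne_zero (pow_ne_zero _ hG) (pow_ne_zero _ hGT))]
  linear_combination Q * h1

/-- **(C3a), identity form**: `conjMer x φ · U = q^6 · V` with `U`, `V` nowhere zero. -/
theorem s35ft_conjMer_phi {L : Type*} [Field L] [Algebra ℚ L] (ι : L →+* ℂ) (M q : ℕ) [NeZero M]
    [NeZero q] {ω : FFL L (M * q)} (hω : s35ftIsOmega L M q ω) (x : XX (M * q)) :
    ∃ U V : Hol, (∀ τ : ℍ, (U : ℍ → ℂ) τ ≠ 0) ∧ (∀ τ : ℍ, (V : ℍ → ℂ) τ ≠ 0) ∧
      conjMer (M * q) ι x (s35ftPhi L M q ω) * algebraMap Hol Mer U =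
        algebraMap Hol Mer (holC ((q : ℂ) ^ 6)) * algebraMap Hol Mer V := by
  obtain ⟨a, b, d, ha, hd, -, hG⟩ := s35ft_conjMer_jq ι M q x
  obtain ⟨U, V, hU, hV, hkey⟩ := s35ftJ_key a b d ha hd
  obtain ⟨-, -, hJ', hG0, hG1⟩ := s35ftJ_ne_zero a b d ha hd
  refine ⟨U, V, hU, hV, ?_⟩
  have hcj : conjMer (M * q) ι x (jL L (M * q)) = algebraMap Hol Mer s35ftJHol :=
    conjMer_jL (M * q) ι x
  have hconst : ∀ z : L,
      s35ftMerDeriv (conjMer (M * q) ι x (algebraMap L (FFL L (M * q)) z)) = 0 := by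
    intro z
    rw [conjMer_algebraMap, s35ftMerDeriv_algebraMap, s35ftAI_holDeriv_holC, map_zero]
  have hO := s35ft_derivation_omega_hom M q hω (conjMer (M * q) ι x) s35ftMerDeriv
    s35ftMerDeriv_mul hconst
  rw [hG, hcj, s35ftMerDeriv_algebraMap, s35ftMerDeriv_algebraMap] at hO
  have hkey' := congrArg (algebraMap Hol Mer) hkey
  simp only [map_mul, map_pow, map_sub] at hkey'
  have hA : conjMer (M * q) ι x (algebraMap L (FFL L (M * q)) ((q : L) ^ 6)) =
      algebraMap Hol Mer (holC ((q : ℂ) ^ 6)) := by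
    rw [conjMer_algebraMap, map_pow, map_natCast]
  have hB : conjMer (M * q) ι x (algebraMap L (FFL L (M * q)) 1728) =
      algebraMap Hol Mer (holC 1728) := by
    rw [conjMer_algebraMap, map_ofNat]
  have hφ : conjMer (M * q) ι x (s35ftPhi L M q ω) =
      algebraMap Hol Mer (holC ((q : ℂ) ^ 6)) * conjMer (M * q) ι x ω ^ 6 *
          algebraMap Hol Mer s35ftJHol ^ 4 *
          (algebraMap Hol Mer s35ftJHol - algebraMap Hol Mer (holC 1728)) ^ 3 /
        (algebraMap Hol Mer (s35ftJabdHol a b d ha hd) ^ 4 *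
          (algebraMap Hol Mer (s35ftJabdHol a b d ha hd) - algebraMap Hol Mer (holC 1728)) ^ 3) := by
    rw [s35ftPhi, map_div₀, map_mul, map_mul, map_mul, map_mul, hA]
    generalize (algebraMap Hol Mer) (holC ((q : ℂ) ^ 6)) = Q6
    rw [map_pow, map_pow, map_pow, map_pow, map_pow, map_sub, map_sub, hB, hG, hcj]
  rw [hφ]
  exact s35ftAI_field hO hkey' (mer_algebraMap_ne_zero hJ') (mer_algebraMap_ne_zero hG0)
    (by rw [← map_sub]; exact mer_algebraMap_ne_zero hG1)

end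

end Fermat.Agent.S35
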