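import Mathlib
import Fermat.Agent.S24.Analytic
import Fermat.Agent.S35.FtOmegaDefs
import Fermat.Agent.S35.FtAnaDefs
import Fermat.Agent.S35.FtAnaId
import Fermat.Agent.S35.FtPhi

/-!
# P20 (S35), block FT-CERT, (C3a), second team: `φ ≠ 0` and every conjugate of `φ` has order
zero at every point of the upper half plane
-/

set_option autoImplicit false

namespace Fermat.Agent.S35

open ModularCurve AlgebraicCurve UpperHalfPlane
open Fermat.Agent.S18 Fermat.Agent.S24

noncomputable section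

/-- `φ ≠ 0` (from the Gauss unit statement (C1) with the trivial valuation ring). -/
theorem s35ft_phi_ne_zero_B {L : Type*} [Field L] [Algebra ℚ L] (M q : ℕ) [NeZero M] [NeZero q]
    {ω : FFL L (M * q)} (hω : s35ftIsOmega L M q ω) : s35ftPhi L M q ω ≠ 0 := by
  intro h0
  obtain ⟨h, hne⟩ := s35ft_phi_gauss_unit (⊤ : Subring L)
    (Subring.topEquiv (R := L)).toRingHom M q hω
  apply hne
  have h1 : (⟨_, h⟩ : ↥(GaussL.gaussV (⊤ : Subring L) (Subring.topEquiv (R := L)).toRingHom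
      (laurentBaseChange L (modularFunctionFieldFull (M * q))))) = 0 := by
    apply Subtype.ext
    show algebraMap L (FFL L (M * q)) ((q : L) ^ 12)⁻¹ * s35ftPhi L M q ω = 0
    rw [h0, mul_zero]
  rw [h1, map_zero]

/-- **(C3a)** every conjugate of `φ` is holomorphic and nowhere zero on `ℍ`. -/
theorem s35ft_merOrd_phi_B {L : Type*} [Field L] [Algebra ℚ L] (ι : L →+* ℂ) (M q : ℕ) [NeZero M]
    [NeZero q] {ω : FFL L (M * q)} (hω : s35ftIsOmega L M q ω) (x : XX (M * q)) (τ : ℍ) :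
    merOrd τ (conjMer (M * q) ι x (s35ftPhi L M q ω)) = 0 := by
  obtain ⟨U, V, hU, hV, h⟩ := s35ft_conjMer_phi ι M q hω x
  have hU0 : U ≠ 0 := by
    intro h0
    apply hU τ
    rw [h0]
    rfl
  have hAU : algebraMap Hol Mer U ≠ 0 := mer_algebraMap_ne_zero hU0
  have hq : ((q : ℂ) ^ 6) ≠ 0 := pow_ne_zero 6 (Nat.cast_ne_zero.mpr (NeZero.ne q))
  have hW : ∀ σ : ℍ, ((holC ((q : ℂ) ^ 6) * V : Hol) : ℍ → ℂ) σ ≠ 0 :=
    fun σ => mul_ne_zero hq (hV σ)
  have hW0 : holC ((q : ℂ) ^ 6) * V ≠ 0 := by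
    intro h0
    apply hW τ
    rw [h0]
    rfl
  have hφ : conjMer (M * q) ι x (s35ftPhi L M q ω) =
      algebraMap Hol Mer (holC ((q : ℂ) ^ 6) * V) / algebraMap Hol Mer U := by
    rw [eq_div_iff hAU, h, map_mul]
  rw [hφ, merOrd_div τ (mer_algebraMap_ne_zero hW0) hAU, merOrd_algebraMap_eq_zero τ _ (hW τ),
    merOrd_algebraMap_eq_zero τ _ (hU τ), sub_zero]

end

end Fermat.Agent.S35
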