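import Mathlib
import Fermat.Agent.S35.FtPhi

/-!
# P20 (S35), block FT-CERT: the `q`-expansion of `φ` and descent of integrality

* `s35ftPhiSer K q` : the series of the modular unit `φ` over a field `K`; `s35ftPhiQ q` over `ℚ`;
* `s35ft_coe_phi` : the series of `s35ftPhi L M q ω` is `s35ftPhiSer L q = coeffEmb L (s35ftPhiQ q)`;
* `s35ft_isIntegral_up` / `s35ft_isIntegral_down` : integrality over `ℚ[j]` of a series over `ℚ`
  versus integrality over `L[j]` of an element of the function field with that series.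
-/

set_option autoImplicit false

namespace Fermat.Agent.S35

open ModularCurve AlgebraicCurve HahnSeries
open Fermat.Agent.S18 Fermat.Agent.S24 Fermat.Agent.S28 Fermat.Agent.S34

noncomputable section

/-! ### Integrality along ring homomorphisms -/

section Abstract

variable {A B C : Type*} [CommRing A] [CommRing B] [CommRing C]

theorem s35ftser_push (f : A →+* B) (ψ : B →+* C) {x : B} (h : f.IsIntegralElem x) :
    (ψ.comp f).IsIntegralElem (ψ x) := by
  obtain ⟨p, hp, hx⟩ := h
  exact ⟨p, hp, by rw [← Polynomial.hom_eval₂, hx, map_zero]⟩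

theorem s35ftser_pull (f : A →+* B) (ψ : B →+* C) (hψ : Function.Injective ψ) {x : B}
    (h : (ψ.comp f).IsIntegralElem (ψ x)) : f.IsIntegralElem x := by
  obtain ⟨p, hp, hx⟩ := h
  refine ⟨p, hp, hψ ?_⟩
  rw [Polynomial.hom_eval₂, hx, map_zero]

/-- If the range of `g` is contained in the range of `f`, integrality with respect to `g`
implies integrality with respect to `f`. -/
theorem s35ftser_range_le (f : A →+* C) (g : B →+* C) (h : ∀ s : B, ∃ r : A, f r = g s) {y : C}
    (hy : g.IsIntegralElem y) : f.IsIntegralElem y := by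
  obtain ⟨q, hqm, hq⟩ := hy
  have hl : q.map g ∈ Polynomial.lifts f := by
    rw [Polynomial.lifts_iff_coeff_lifts]
    intro n
    rw [Polynomial.coeff_map]
    obtain ⟨r, hr⟩ := h (q.coeff n)
    exact ⟨r, hr⟩
  obtain ⟨q', hq', -, hq'm⟩ := Polynomial.lifts_and_natDegree_eq_and_monic hl (hqm.map g)
  refine ⟨q', hq'm, ?_⟩
  rw [← Polynomial.eval_map, hq', Polynomial.eval_map]
  exact hq

/-- Transitivity: if the range of `g` is integral with respect to `f`, integrality with respect
to `g` implies integrality with respect to `f`. -/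
theorem s35ftser_trans (f : A →+* C) (g : B →+* C) (h : ∀ s : B, f.IsIntegralElem (g s)) {y : C}
    (hy : g.IsIntegralElem y) : f.IsIntegralElem y := by
  letI : Algebra A C := f.toAlgebra
  have h1 : (algebraMap (integralClosure A C) C).IsIntegralElem y :=
    s35ftser_range_le _ g (fun s => ⟨⟨g s, h s⟩, rfl⟩) hy
  have h2 : y ∈ integralClosure (integralClosure A C) C := h1
  rw [integralClosure_idem, Algebra.mem_bot] at h2
  obtain ⟨b, rfl⟩ := h2
  exact b.2

end Abstract

/-! ### The series of `φ` -/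

section Series

/-- The `q`-expansion of `φ = q^6 ω^6 j^4 (j - 1728)^3 / (j_q^4 (j_q - 1728)^3)`,
`ω = θ j_q / θ j`, over a field `K`. -/
def s35ftPhiSer (K : Type*) [Field K] (q : ℕ) [NeZero q] : LaurentSeries K :=
  C (q : K) ^ 6 * (s35ftTheta K (jqNModC K q) / s35ftTheta K (jqModC K)) ^ 6 * jqModC K ^ 4 *
      (jqModC K - C (1728 : K)) ^ 3 /
    (jqNModC K q ^ 4 * (jqNModC K q - C (1728 : K)) ^ 3)

/-- The `q`-expansion of `φ` over `ℚ`. -/
def s35ftPhiQ (q : ℕ) [NeZero q] : LaurentSeries ℚ := s35ftPhiSer ℚ q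

theorem s35ftPhiSer_coeffMap {K K' : Type*} [Field K] [Field K'] (f : K →+* K') (q : ℕ)
    [NeZero q] : coeffMap f (s35ftPhiSer K q) = s35ftPhiSer K' q := by
  unfold s35ftPhiSer
  simp only [map_mul, map_div₀, map_pow, map_sub, ← s35ftTheta_coeffMap, coeffMap_jqModC,
    coeffMap_jqNModC, map_natCast, map_ofNat]

variable {L : Type*} [Field L] [Algebra ℚ L]

theorem s35ftPhiSer_eq_coeffEmb (q : ℕ) [NeZero q] :
    s35ftPhiSer L q = coeffEmb L (s35ftPhiQ q) :=
  (s35ftPhiSer_coeffMap (algebraMap ℚ L) q).symm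

variable (M q : ℕ) [NeZero M] [NeZero q]

/-- The series of `φ`. -/
theorem s35ft_coe_phi {ω : FFL L (M * q)} (hω : s35ftIsOmega L M q ω) :
    ((s35ftPhi L M q ω : FFL L (M * q)) : LaurentSeries L) = s35ftPhiSer L q := by
  have hval : ∀ x : FFL L (M * q), (laurentBaseChange L (modularFunctionFieldFull (M * q))).val x
      = (x : LaurentSeries L) := fun _ => rfl
  rw [← hval]
  unfold s35ftPhi s35ftPhiSer
  simp only [map_mul, map_div₀, map_pow, map_sub, AlgHom.commutes, GaussL.algebraMap_eq_C]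
  rw [hval, hval, hval, s35ftphi_coe_omega M q hω, KronInt.coe_jL_eq, KronInt.coe_beta_jL_eq]
  rfl

/-- The series of `φ` comes from `ℚ`. -/
theorem s35ft_coe_phi_eq_coeffEmb {ω : FFL L (M * q)} (hω : s35ftIsOmega L M q ω) :
    ((s35ftPhi L M q ω : FFL L (M * q)) : LaurentSeries L) = coeffEmb L (s35ftPhiQ q) := by
  rw [s35ft_coe_phi M q hω, s35ftPhiSer_eq_coeffEmb]

/-- The series of `φ⁻¹` comes from `ℚ`. -/
theorem s35ft_coe_phi_inv_eq_coeffEmb {ω : FFL L (M * q)} (hω : s35ftIsOmega L M q ω) :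
    (((s35ftPhi L M q ω)⁻¹ : FFL L (M * q)) : LaurentSeries L)
      = coeffEmb L (s35ftPhiQ q)⁻¹ := by
  rw [map_inv₀, ← s35ft_coe_phi_eq_coeffEmb M q hω]
  rfl

end Series

/-! ### Descent of integrality -/

section Descent

variable {L : Type*} [Field L] [Algebra ℚ L] (N : ℕ) [NeZero N]

theorem s35ftser_coeffEmb_injective : Function.Injective (coeffEmb L) := by
  intro a b h
  ext n
  have h1 := congrArg (fun z : LaurentSeries L => z.coeff n) h
  simp only [coeffEmb_coeff] at h1
  exact (algebraMap ℚ L).injective h1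

theorem s35ftser_coeffEmb_algebraMap (r : ℚ) :
    coeffEmb L (algebraMap ℚ (LaurentSeries ℚ) r) = C ((r : L)) := by
  rw [eq_ratCast, map_ratCast, ← map_ratCast (C : L →+* LaurentSeries L)]

/-- UP: a series over `ℚ` integral over `ℚ[j]` gives an element integral over `L[j]`. -/
theorem s35ft_isIntegral_up (x : FFL L N) (y : LaurentSeries ℚ)
    (hxy : (x : LaurentSeries L) = coeffEmb L y)
    (hy : IsIntegral (Algebra.adjoin ℚ {jq}) y) :
    IsIntegral (Algebra.adjoin L {jL L N}) x := by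
  have hval : ∀ z : FFL L N, (laurentBaseChange L (modularFunctionFieldFull N)).val z
      = (z : LaurentSeries L) := fun _ => rfl
  have h1 := s35ftser_push (algebraMap (Algebra.adjoin ℚ {jq}) (LaurentSeries ℚ)) (coeffEmb L) hy
  have h2 : (((laurentBaseChange L (modularFunctionFieldFull N)).val : FFL L N →+*
      LaurentSeries L).comp (algebraMap (Algebra.adjoin L {jL L N}) (FFL L N))).IsIntegralElem
      (coeffEmb L y) := by
    refine s35ftser_range_le _ _ (fun s => ?_) h1
    obtain ⟨s, hs⟩ := s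
    show ∃ r : Algebra.adjoin L {jL L N}, (((r : FFL L N)) : LaurentSeries L) = coeffEmb L s
    induction hs using Algebra.adjoin_induction with
    | mem z hz =>
      rw [Set.mem_singleton_iff] at hz
      subst hz
      exact ⟨⟨jL L N, Algebra.self_mem_adjoin_singleton L _⟩, by
        rw [KronInt.coe_jL_eq, Fermat.Agent.S28.coeffEmb_jq]⟩
    | algebraMap r =>
      exact ⟨algebraMap L _ (r : L), by
        rw [s35ftser_coeffEmb_algebraMap]
        exact GaussL.coe_algebraMap_K _ _⟩
    | add u v _ _ hu hv =>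
      obtain ⟨a, ha⟩ := hu
      obtain ⟨b, hb⟩ := hv
      exact ⟨a + b, by rw [map_add, ← ha, ← hb]; rfl⟩
    | mul u v _ _ hu hv =>
      obtain ⟨a, ha⟩ := hu
      obtain ⟨b, hb⟩ := hv
      exact ⟨a * b, by rw [map_mul, ← ha, ← hb]; rfl⟩
  rw [← hxy, ← hval] at h2
  exact s35ftser_pull _ _ (laurentBaseChange L (modularFunctionFieldFull N)).val.injective h2

/-- DOWN: if `L / ℚ` is algebraic, integrality over `L[j]` descends to `ℚ[j]`. -/
theorem s35ft_isIntegral_down [Algebra.IsAlgebraic ℚ L] (x : FFL L N) (y : LaurentSeries ℚ)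
    (hxy : (x : LaurentSeries L) = coeffEmb L y)
    (hx : IsIntegral (Algebra.adjoin L {jL L N}) x) :
    IsIntegral (Algebra.adjoin ℚ {jq}) y := by
  have hval : ∀ z : FFL L N, (laurentBaseChange L (modularFunctionFieldFull N)).val z
      = (z : LaurentSeries L) := fun _ => rfl
  have h1 := s35ftser_push (algebraMap (Algebra.adjoin L {jL L N}) (FFL L N))
    ((laurentBaseChange L (modularFunctionFieldFull N)).val : FFL L N →+* LaurentSeries L) hx
  have h2 : ((coeffEmb L).comp (algebraMap (Algebra.adjoin ℚ {jq}) (LaurentSeries ℚ))).IsIntegralElem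
      (coeffEmb L y) := by
    rw [← hxy, ← hval]
    refine s35ftser_trans _ _ (fun s => ?_) h1
    obtain ⟨s, hs⟩ := s
    show ((coeffEmb L).comp (algebraMap (Algebra.adjoin ℚ {jq}) (LaurentSeries ℚ))).IsIntegralElem
      ((s : FFL L N) : LaurentSeries L)
    induction hs using Algebra.adjoin_induction with
    | mem z hz =>
      rw [Set.mem_singleton_iff] at hz
      subst hz
      have h3 : ((jL L N : FFL L N) : LaurentSeries L)
          = ((coeffEmb L).comp (algebraMap (Algebra.adjoin ℚ {jq}) (LaurentSeries ℚ)))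
            ⟨jq, Algebra.self_mem_adjoin_singleton ℚ _⟩ := by
        rw [KronInt.coe_jL_eq, ← Fermat.Agent.S28.coeffEmb_jq]
        rfl
      rw [h3]
      exact RingHom.isIntegralElem_map _
    | algebraMap l =>
      have hl : IsIntegral ℚ l := Algebra.IsIntegral.isIntegral l
      obtain ⟨p, hp, hpl⟩ := hl
      refine ⟨p.map (algebraMap ℚ (Algebra.adjoin ℚ {jq})), hp.map _, ?_⟩
      rw [Polynomial.eval₂_map, GaussL.coe_algebraMap_K]
      have h4 : (((coeffEmb L).comp (algebraMap (Algebra.adjoin ℚ {jq}) (LaurentSeries ℚ))).comp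
          (algebraMap ℚ (Algebra.adjoin ℚ {jq})))
          = (C : L →+* LaurentSeries L).comp (algebraMap ℚ L) := Subsingleton.elim _ _
      rw [h4, ← Polynomial.hom_eval₂, hpl, map_zero]
    | add u v _ _ hu hv =>
      exact RingHom.IsIntegralElem.add _ hu hv
    | mul u v _ _ hu hv =>
      exact RingHom.IsIntegralElem.mul _ hu hv
  exact s35ftser_pull _ _ s35ftser_coeffEmb_injective h2

end Descent

/-! ### The two transfers for `φ` and `φ⁻¹` -/

section Phi

variable {L : Type*} [Field L] [Algebra ℚ L] (M q : ℕ) [NeZero M] [NeZero q]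

/-- (S3) UP for `φ`. -/
theorem s35ft_phi_isIntegral_up {ω : FFL L (M * q)} (hω : s35ftIsOmega L M q ω)
    (h : IsIntegral (Algebra.adjoin ℚ {jq}) (s35ftPhiQ q)) :
    IsIntegral (Algebra.adjoin L {jL L (M * q)}) (s35ftPhi L M q ω) :=
  s35ft_isIntegral_up (M * q) _ _ (s35ft_coe_phi_eq_coeffEmb M q hω) h

/-- (S3) UP for `φ⁻¹`. -/
theorem s35ft_phi_inv_isIntegral_up {ω : FFL L (M * q)} (hω : s35ftIsOmega L M q ω)
    (h : IsIntegral (Algebra.adjoin ℚ {jq}) (s35ftPhiQ q)⁻¹) :
    IsIntegral (Algebra.adjoin L {jL L (M * q)}) (s35ftPhi L M q ω)⁻¹ :=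
  s35ft_isIntegral_up (M * q) _ _ (s35ft_coe_phi_inv_eq_coeffEmb M q hω) h

/-- (S4) DOWN for `φ`. -/
theorem s35ft_phi_isIntegral_down [Algebra.IsAlgebraic ℚ L] {ω : FFL L (M * q)}
    (hω : s35ftIsOmega L M q ω)
    (h : IsIntegral (Algebra.adjoin L {jL L (M * q)}) (s35ftPhi L M q ω)) :
    IsIntegral (Algebra.adjoin ℚ {jq}) (s35ftPhiQ q) :=
  s35ft_isIntegral_down (M * q) _ _ (s35ft_coe_phi_eq_coeffEmb M q hω) h

/-- (S4) DOWN for `φ⁻¹`. -/
theorem s35ft_phi_inv_isIntegral_down [Algebra.IsAlgebraic ℚ L] {ω : FFL L (M * q)}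
    (hω : s35ftIsOmega L M q ω)
    (h : IsIntegral (Algebra.adjoin L {jL L (M * q)}) (s35ftPhi L M q ω)⁻¹) :
    IsIntegral (Algebra.adjoin ℚ {jq}) (s35ftPhiQ q)⁻¹ :=
  s35ft_isIntegral_down (M * q) _ _ (s35ft_coe_phi_inv_eq_coeffEmb M q hω) h

end Phi

end

end Fermat.Agent.S35
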