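import Mathlib
import Fermat.Agent.S24.Analytic
import Fermat.Agent.S24.LocalCount
import Fermat.Agent.S18.UnramConv

/-!
P20 (S35), block FT-CERT, slice (P): holomorphic conjugates ⇒ integral over `L[j]`.

Let `L` be an algebraically closed field of characteristic zero with an embedding `ι : L → ℂ`,
and let `f` be an element of the function field `FFL L N` of `X₀(N)` over `L`.  If all the
conjugates `conjMer N ι x f` (`x ∈ SL(2, ℤ) / Γ₀(N)`) are holomorphic on the upper half plane
(`merOrd τ ≥ 0` at every `τ`), then `f` is integral over `L[j]` (`s35ft_isIntegral_of_ordAt`).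

Proof: by `S18.UnramConv.isIntegral_of_forall_ord_nonneg` it suffices to see `ord_W f ≥ 0` at every
place `W` of `FFL L N` with `ord_W j ≥ 0`.  The residue field of `W` is `L`, so `W` is a zero of
`j - c` for some `c : L`; choose `τ` with `J(τ) = ι c` (`τ = ρ` if `c = 0`, `τ = i` if `c = 1728`).
The S24 local family at `τ` identifies `W` with one of the places `P x` attached to the
conjugates, with `merOrd τ (conjMer N ι x f) * (period of x) = E * ord_W f`, `E ∈ {1, 2, 3}`.
-/

set_option autoImplicit false

namespace Fermat.Agent.S35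

open ModularCurve AlgebraicCurve UpperHalfPlane
open Fermat.Agent.S18 Fermat.Agent.S24

/-- A place in the zero set of `j - c` at which a local family of conjugate orders at `τ` is
available: the order of `f` is nonnegative if all the conjugates of `f` have nonnegative order
at `τ`. -/
theorem s35ftPl_ord_nonneg_of_localFamily {L : Type*} [Field L] [Algebra ℚ L] [IsAlgClosed L]
    [CharZero L] (N : ℕ) [NeZero N] (ι : L →+* ℂ) (f : FFL L N) (hf0 : f ≠ 0) (τ : ℍ)
    (hf : ∀ x : XX N, 0 ≤ merOrd τ (conjMer N ι x f)) (c : L)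
    (W : Place L (FFL L N)) (hW : 0 < W.ord (jL L N - algebraMap L (FFL L N) c))
    (E : ℕ) (hE : 0 < E) (σ : Equiv.Perm (XX N))
    (hfam : IsLocalFamily (IntermediateField.adjoin L {jL L N})
      (jL L N - algebraMap L (FFL L N) c) E σ (ordAt N L ι τ)) :
    0 ≤ W.ord f := by
  have hx : Transcendental L (jL L N) := transcendental_jL N L
  have : FiniteDimensional (IntermediateField.adjoin L {jL L N}) (FFL L N) :=
    finiteDimensional_jL_of_emb N ι
  have hn : Module.finrank (IntermediateField.adjoin L {jL L N}) (FFL L N) =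
      Fintype.card (XX N) := finrank_jL_of_emb N ι
  obtain ⟨Pl, -, hsurj, -, -, hord⟩ :=
    exists_place_of_localFamily (Fermat.Agent.S24.transcendental_sub_algebraMap hx c)
      (Fermat.Agent.S24.adjoin_sub_algebraMap (jL L N) c) hn.symm hE hfam
  obtain ⟨i, rfl⟩ := hsurj W hW
  have h1 := hord i f hf0
  have h2 : 0 ≤ ordAt N L ι τ i f := hf i
  have h3 : 0 ≤ (E : ℤ) * (Pl i).ord f := by
    rw [← h1]
    exact mul_nonneg h2 (Int.natCast_nonneg _)
  have hEZ : (0 : ℤ) < E := by exact_mod_cast hE
  exact nonneg_of_mul_nonneg_right h3 hEZ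

/-- **(P)** An element of the function field of `X₀(N)` over an algebraically closed field
`L ⊆ ℂ` all of whose conjugates are holomorphic on the upper half plane is integral over
`L[j]`. -/
theorem s35ft_isIntegral_of_ordAt {L : Type*} [Field L] [Algebra ℚ L] [IsAlgClosed L]
    (N : ℕ) [NeZero N] (ι : L →+* ℂ) (f : FFL L N)
    (hf : ∀ (x : XX N) (τ : ℍ), 0 ≤ merOrd τ (conjMer N ι x f)) :
    IsIntegral (Algebra.adjoin L {jL L N}) f := by
  have : CharZero L := algebraRat.charZero L
  have hx : Transcendental L (jL L N) := transcendental_jL N L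
  have : FiniteDimensional (IntermediateField.adjoin L {jL L N}) (FFL L N) :=
    finiteDimensional_jL_of_emb N ι
  refine UnramConv.isIntegral_of_forall_ord_nonneg hx f fun W hW => ?_
  rcases eq_or_ne f 0 with rfl | hf0
  · rw [W.ord_zero]
  obtain ⟨c, hc | hc⟩ := PlacesDeg.exists_sub_mem_maximal hx W hW
  · exact absurd (hc ▸ isAlgebraic_algebraMap c) hx
  by_cases hc0 : c = 0
  · subst hc0
    exact s35ftPl_ord_nonneg_of_localFamily N ι f hf0 ptRho (fun x => hf x ptRho) 0 W hc 3
      three_pos _ (isLocalFamily_ptRho N L ι)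
  · by_cases hc1 : c = 1728
    · subst hc1
      exact s35ftPl_ord_nonneg_of_localFamily N ι f hf0 ptI (fun x => hf x ptI) 1728 W hc 2
        two_pos _ (isLocalFamily_ptI N L ι)
    · obtain ⟨τ, hτ⟩ := Jfun_surjective (ι c)
      exact s35ftPl_ord_nonneg_of_localFamily N ι f hf0 τ (fun x => hf x τ) c W hc 1
        one_pos _ (isLocalFamily_generic N L ι τ c hτ hc0 hc1)

end Fermat.Agent.S35
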