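import Mathlib
import Fermat.Agent.S35.FtPhiSeries
import Fermat.Agent.S35.FtAna
import Fermat.Agent.S35.FtPlaces
import Fermat.Agent.S35.FtOmega

/-!
# P20 (S35), block FT-CERT, slice (T) (second team): (C3) over every field of characteristic zero

`φ` and `φ⁻¹` are integral over `L[j]`: analytic proof over an algebraically closed field
(`s35ft_merOrd_phi` + `s35ft_isIntegral_of_ordAt`), then descent `ℚ̄ → ℚ → L` on `q`-expansions
(`s35ft_phi_isIntegral_down` / `_up`).
-/

set_option autoImplicit false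

namespace Fermat.Agent.S35

open ModularCurve AlgebraicCurve UpperHalfPlane
open Fermat.Agent.S18 Fermat.Agent.S24

noncomputable section

/-- **(C3)**, `L` algebraically closed. -/
theorem s35ft_phi_isIntegral_algClosed_B {L : Type*} [Field L] [Algebra ℚ L] [IsAlgClosed L]
    (ι : L →+* ℂ) (M q : ℕ) [NeZero M] [NeZero q] {ω : FFL L (M * q)}
    (hω : s35ftIsOmega L M q ω) :
    IsIntegral (Algebra.adjoin L {jL L (M * q)}) (s35ftPhi L M q ω) ∧
      IsIntegral (Algebra.adjoin L {jL L (M * q)}) (s35ftPhi L M q ω)⁻¹ := by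
  refine ⟨s35ft_isIntegral_of_ordAt (M * q) ι _ fun x τ => ?_,
    s35ft_isIntegral_of_ordAt (M * q) ι _ fun x τ => ?_⟩
  · rw [s35ft_merOrd_phi ι M q hω x τ]
  · rw [map_inv₀, merOrd_inv, s35ft_merOrd_phi ι M q hω x τ, neg_zero]

/-- **(C3)**, general `L`. -/
theorem s35ft_phi_isIntegral_B {L : Type*} [Field L] [Algebra ℚ L] (M q : ℕ) [NeZero M]
    [NeZero q] {ω : FFL L (M * q)} (hω : s35ftIsOmega L M q ω) :
    IsIntegral (Algebra.adjoin L {jL L (M * q)}) (s35ftPhi L M q ω) ∧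
      IsIntegral (Algebra.adjoin L {jL L (M * q)}) (s35ftPhi L M q ω)⁻¹ := by
  obtain ⟨ι⟩ := nonempty_ringHom_algebraicClosure_rat_complex
  haveI : Algebra.IsAlgebraic ℚ (AlgebraicClosure ℚ) := AlgebraicClosure.isAlgebraic ℚ
  obtain ⟨ω', hω'⟩ := s35ft_exists_omega (L := AlgebraicClosure ℚ) M q
  obtain ⟨h1, h2⟩ := s35ft_phi_isIntegral_algClosed_B ι M q hω'
  exact ⟨s35ft_phi_isIntegral_up M q hω (s35ft_phi_isIntegral_down M q hω' h1),
    s35ft_phi_inv_isIntegral_up M q hω (s35ft_phi_inv_isIntegral_down M q hω' h2)⟩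

end

end Fermat.Agent.S35
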