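import Mathlib
import Fermat.Agent.S34.KronDefs
import Fermat.Agent.S34.KronBasic
import Fermat.Agent.S34.KronWGal
import Fermat.Agent.S18.GaussLVal
import Fermat.Agent.S35.FtOmegaDefs
import Fermat.Agent.S35.FtOmega

/-! P20 (S35) block FT-CERT, (C2): the Atkin–Lehner involution on the modular unit `φ`:
`W ω = 1 / ω`, `W φ = q^12 / φ`, hence `w_0(φ) = 0`. -/

set_option autoImplicit false

namespace Fermat.Agent.S35

open ModularCurve AlgebraicCurve
open Fermat.Agent.S18 Fermat.Agent.S24 Fermat.Agent.S34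

/-! ### general algebra -/

/-- Conjugating a derivation by an automorphism. -/
theorem s35ftW_twist {L F : Type*} [Field L] [Field F] [Algebra L F] (W : F ≃ₐ[L] F)
    (c : Derivation L F F) :
    ∃ c' : Derivation L F F, ∀ x : F, c' x = W.symm (c (W x)) := by
  refine ⟨{ toFun := fun x => W.symm (c (W x))
            map_add' := fun x y => by simp only [map_add]
            map_smul' := fun r x => by
              show W.symm (c (W (r • x))) = r • W.symm (c (W x))
              rw [map_smul, Derivation.map_smul, map_smul]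
            map_one_eq_zero' := by
              show W.symm (c (W 1)) = 0
              rw [map_one, Derivation.map_one_eq_zero, map_zero]
            leibniz' := fun a b => by
              show W.symm (c (W (a * b))) = a • W.symm (c (W b)) + b • W.symm (c (W a))
              rw [map_mul, Derivation.leibniz, map_add, smul_eq_mul, smul_eq_mul, map_mul,
                map_mul, AlgEquiv.symm_apply_apply, AlgEquiv.symm_apply_apply, smul_eq_mul,
                smul_eq_mul] }, fun x => rfl⟩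

/-- If `δ y = ω * δ x` for all derivations, `d/dx` exists and `W` swaps `x` and `y`, then
`W ω * ω = 1`. -/
theorem s35ftW_swap {L F : Type*} [Field L] [Field F] [Algebra L F] (W : F ≃ₐ[L] F)
    {x y ω : F} (hδ : ∀ δ : Derivation L F F, δ y = ω * δ x)
    (c : Derivation L F F) (hc : c x = 1) (hx : W x = y) (hy : W y = x) :
    W ω * ω = 1 := by
  obtain ⟨c', hc'⟩ := s35ftW_twist W c
  have h1 : c y = ω := by rw [hδ c, hc, mul_one]
  have h2 : c' y = 1 := by rw [hc', hy, hc, map_one]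
  have h3 : c' x = W.symm ω := by rw [hc', hx, h1]
  have h4 := hδ c'
  rw [h2, h3] at h4
  have h5 := congrArg W h4
  rw [map_one, map_mul, AlgEquiv.apply_symm_apply] at h5
  exact h5.symm

/-- Field identity behind `W φ = q^12 / φ`. -/
theorem s35ftW_field_aux {F : Type*} [Field F] (a w P Q R S : F) (ha : a ≠ 0) :
    a * w⁻¹ ^ 6 * R * S / (P * Q) = a * a * (a * w ^ 6 * P * Q / (R * S))⁻¹ := by
  have h : a * a * a⁻¹ = a := by rw [mul_assoc, mul_inv_cancel₀ ha, mul_one]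
  rw [div_eq_mul_inv, div_eq_mul_inv]
  simp only [mul_inv, inv_inv]
  calc a * w⁻¹ ^ 6 * R * S * (P⁻¹ * Q⁻¹)
      = (a * a * a⁻¹) * (w⁻¹ ^ 6 * R * S * (P⁻¹ * Q⁻¹)) := by rw [h]; ring
    _ = a * a * (a⁻¹ * (w ^ 6)⁻¹ * P⁻¹ * Q⁻¹ * (R * S)) := by rw [inv_pow]; ring

/-- A natural number `q ≠ 0` is nonzero in a `ℚ`-algebra field. -/
theorem s35ftW_natCast_ne_zero (L : Type*) [Field L] [Algebra ℚ L] (q : ℕ) [NeZero q] :
    (q : L) ≠ 0 := by
  intro h0
  have h1 : algebraMap ℚ L (q : ℚ) = 0 := by rw [map_natCast]; exact h0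
  rw [map_eq_zero_iff _ (algebraMap ℚ L).injective] at h1
  exact NeZero.ne q (by exact_mod_cast h1)

/-! ### the modular unit -/

section W

variable {L k : Type*} [Field L] [Algebra ℚ L] [Field k] (Λ : Subring L) (res : ↥Λ →+* k)
  (ι : L →+* ℂ) (M q : ℕ) [NeZero M] [NeZero q] (hcop : Nat.Coprime M q)

/-- `W j = j_q`. -/
theorem s35ft_kronW_j :
    kronW L ι M q hcop (jL L (M * q)) = heckeBetaBar L M q (jL L M) := by
  rw [← kron_alpha_jL (L := L) M q, kronW_alpha]

/-- `W j_q = j`. -/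
theorem s35ft_kronW_jq :
    kronW L ι M q hcop (heckeBetaBar L M q (jL L M)) = jL L (M * q) := by
  rw [kronW_beta, kron_alpha_jL]

/-- `W ω * ω = 1`. -/
theorem s35ft_kronW_omega_mul {ω : FFL L (M * q)} (hω : s35ftIsOmega L M q ω) :
    kronW L ι M q hcop ω * ω = 1 := by
  obtain ⟨c, hc⟩ := s35ft_exists_ddj (L := L) M q
  refine s35ftW_swap (kronW L ι M q hcop) (fun δ => ?_) c hc (s35ft_kronW_j ι M q hcop)
    (s35ft_kronW_jq ι M q hcop)
  exact s35ft_derivation_omega M q hω δ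

include ι hcop in
/-- `ω ≠ 0`. -/
theorem s35ft_omega_ne_zero {ω : FFL L (M * q)} (hω : s35ftIsOmega L M q ω) : ω ≠ 0 := by
  intro h0
  have h := s35ft_kronW_omega_mul ι M q hcop hω
  rw [h0, mul_zero] at h
  exact zero_ne_one h

/-- **(C2a)** `W ω = 1 / ω`. -/
theorem s35ft_kronW_omega {ω : FFL L (M * q)} (hω : s35ftIsOmega L M q ω) :
    kronW L ι M q hcop ω = ω⁻¹ :=
  eq_inv_of_mul_eq_one_left (s35ft_kronW_omega_mul ι M q hcop hω)

/-- **(C2b)** `W φ = q^12 / φ`. -/
theorem s35ft_kronW_phi {ω : FFL L (M * q)} (hω : s35ftIsOmega L M q ω) :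
    kronW L ι M q hcop (s35ftPhi L M q ω) =
      algebraMap L (FFL L (M * q)) ((q : L) ^ 12) * (s35ftPhi L M q ω)⁻¹ := by
  have hq : algebraMap L (FFL L (M * q)) ((q : L) ^ 6) ≠ 0 := by
    rw [Ne, map_eq_zero_iff _ (algebraMap L (FFL L (M * q))).injective]
    exact pow_ne_zero _ (s35ftW_natCast_ne_zero L q)
  have hq12 : algebraMap L (FFL L (M * q)) ((q : L) ^ 12) =
      algebraMap L (FFL L (M * q)) ((q : L) ^ 6) * algebraMap L (FFL L (M * q)) ((q : L) ^ 6) := by
    rw [← map_mul, ← pow_add]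
  rw [hq12]
  unfold s35ftPhi
  rw [← s35ftW_field_aux _ _ _ _ _ _ hq]
  simp only [map_div₀, map_mul, map_pow, map_sub, AlgEquiv.commutes, s35ft_kronW_j,
    s35ft_kronW_jq, s35ft_kronW_omega ι M q hcop hω]

/-- **(C2c)** `w_0(φ) = 0`: if `φ / q^12` is a unit of `V_∞` (C1), then `W φ` is a unit of
`V_∞`. -/
theorem s35ft_kronW_phi_unit {ω : FFL L (M * q)} (hω : s35ftIsOmega L M q ω)
    (h1 : algebraMap L (FFL L (M * q)) ((q : L) ^ 12)⁻¹ * s35ftPhi L M q ω ∈
      GaussL.gaussV Λ res (laurentBaseChange L (modularFunctionFieldFull (M * q))))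
    (h2 : GaussL.gaussRed Λ res (laurentBaseChange L (modularFunctionFieldFull (M * q)))
      ⟨_, h1⟩ ≠ 0) :
    ∃ h : kronW L ι M q hcop (s35ftPhi L M q ω) ∈
        GaussL.gaussV Λ res (laurentBaseChange L (modularFunctionFieldFull (M * q))),
      GaussL.gaussRed Λ res (laurentBaseChange L (modularFunctionFieldFull (M * q)))
        ⟨_, h⟩ ≠ 0 := by
  have hu0 : algebraMap L (FFL L (M * q)) ((q : L) ^ 12)⁻¹ * s35ftPhi L M q ω ≠ 0 := by
    intro h0
    apply h2
    have : (⟨_, h1⟩ : ↥(GaussL.gaussV Λ res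
        (laurentBaseChange L (modularFunctionFieldFull (M * q))))) = 0 := Subtype.ext h0
    rw [this, map_zero]
  have hinv : kronW L ι M q hcop (s35ftPhi L M q ω) =
      (algebraMap L (FFL L (M * q)) ((q : L) ^ 12)⁻¹ * s35ftPhi L M q ω)⁻¹ := by
    rw [s35ft_kronW_phi ι M q hcop hω, mul_inv, map_inv₀, inv_inv]
  have hmem := GaussL.inv_mem_gaussV _ h1 h2
  rw [← hinv] at hmem
  refine ⟨hmem, ?_⟩
  have hred := GaussL.gaussRed_inv _ h1 (GaussL.inv_mem_gaussV _ h1 h2) hu0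
  have hcongr : (⟨kronW L ι M q hcop (s35ftPhi L M q ω), hmem⟩ : ↥(GaussL.gaussV Λ res
      (laurentBaseChange L (modularFunctionFieldFull (M * q))))) =
      ⟨(algebraMap L (FFL L (M * q)) ((q : L) ^ 12)⁻¹ * s35ftPhi L M q ω)⁻¹,
        GaussL.inv_mem_gaussV _ h1 h2⟩ := Subtype.ext hinv
  rw [hcongr, hred]
  exact inv_ne_zero h2

omit [Algebra ℚ L] in
/-- Constants of `Λ` lie in the Gauss ring. -/
theorem s35ftW_algebraMap_mem (E : IntermediateField L (LaurentSeries L)) {c : L} (hc : c ∈ Λ) :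
    algebraMap L ↥E c ∈ GaussL.gaussV Λ res E := by
  refine GaussL.mem_gaussV_of_coeffMap E (HahnSeries.C (⟨c, hc⟩ : ↥Λ)) ?_
  rw [GaussL.coeffMap_C, GaussL.coe_algebraMap_K]
  rfl

/-- **(C2d)** consumer form: `φ ∈ 𝒪 = V_∞ ∩ V_0` with nonzero reduction at `w_0`. -/
theorem s35ft_phi_mem_kronO {ω : FFL L (M * q)} (hω : s35ftIsOmega L M q ω)
    (h1 : algebraMap L (FFL L (M * q)) ((q : L) ^ 12)⁻¹ * s35ftPhi L M q ω ∈
      GaussL.gaussV Λ res (laurentBaseChange L (modularFunctionFieldFull (M * q))))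
    (h2 : GaussL.gaussRed Λ res (laurentBaseChange L (modularFunctionFieldFull (M * q)))
      ⟨_, h1⟩ ≠ 0) :
    ∃ h : s35ftPhi L M q ω ∈ kronO Λ res ι M q hcop,
      kronRedZero Λ res ι M q hcop ⟨_, h⟩ ≠ 0 := by
  obtain ⟨hW, hWred⟩ := s35ft_kronW_phi_unit Λ res ι M q hcop hω h1 h2
  have hq12 : ((q : L) ^ 12) ∈ Λ := Λ.pow_mem (natCast_mem Λ q) 12
  have hq0 : ((q : L) ^ 12) ≠ 0 := pow_ne_zero _ (s35ftW_natCast_ne_zero L q)
  have hphi : s35ftPhi L M q ω = algebraMap L (FFL L (M * q)) ((q : L) ^ 12) *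
      (algebraMap L (FFL L (M * q)) ((q : L) ^ 12)⁻¹ * s35ftPhi L M q ω) := by
    rw [← mul_assoc, ← map_mul, mul_inv_cancel₀ hq0, map_one, one_mul]
  have hV : s35ftPhi L M q ω ∈
      GaussL.gaussV Λ res (laurentBaseChange L (modularFunctionFieldFull (M * q))) := by
    rw [hphi]
    exact (GaussL.gaussV Λ res _).mul_mem (s35ftW_algebraMap_mem Λ res _ hq12) h1
  refine ⟨(mem_kronO_iff Λ res ι M q hcop).mpr ⟨hV, hW⟩, ?_⟩
  rw [kronRedZero_apply]
  exact hWred

end W

end Fermat.Agent.S35
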