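import Mathlib
import Fermat.Agent.S34.KronDefs
import Fermat.Agent.S35.FtOmega
import Fermat.Agent.S35.FtPhi
import Fermat.Agent.S35.FtW
import Fermat.Agent.S35.FtDescentB

/-!
# P20 (S35), block FT-CERT: the modular unit certificate (export consumed by F1)

Level `M * q`, `F = FFL L (M * q)` (the function field of `X₀(M q)` over `L`, inside `L((s))`),
`j = jL L (M * q)`, `W = kronW` the Atkin-Lehner involution, `V_∞ = GaussL.gaussV Λ res F` the
Gauss valuation ring.  For `ω` with `ω · D(j) = D(j_q)` the function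
`φ = q^6 ω^6 j^4 (j - 1728)^3 / (j_q^4 (j_q - 1728)^3)` (`= q^12 Δ(q z) / Δ(z)`) satisfies

* (C1) `ψ = φ / q^12` is a unit of `V_∞` (`FtPhi`),
* (C2) `W φ = q^12 / φ = ψ⁻¹` (`FtW`),
* (C3) `φ` and `φ⁻¹` are integral over `L[j]` (`FtAna`, `FtPlaces`, `FtPhiSeries`, `FtDescentB`).
-/

set_option autoImplicit false

namespace Fermat.Agent.S35

open ModularCurve AlgebraicCurve
open Fermat.Agent.S18 Fermat.Agent.S24 Fermat.Agent.S34

noncomputable section

section Cert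

variable {L k : Type*} [Field L] [Algebra ℚ L] [Field k] (Λ : Subring L) (res : ↥Λ →+* k)
  (ι : L →+* ℂ) (M q : ℕ) [NeZero M] [NeZero q] (hcop : Nat.Coprime M q)

/-- **FT-CERT**, `ω`-form: the modular unit `φ = s35ftPhi L M q ω` (`= q^12 Δ(qz)/Δ(z)`):
`ψ = φ / q^12` is a unit of the Gauss valuation ring `V_∞`, `W φ = ψ⁻¹ = q^12 / φ`, and `φ`,
`φ⁻¹` are integral over `L[j]`. -/
theorem s35ft_cert_omega {ω : FFL L (M * q)} (hω : s35ftIsOmega L M q ω) :
    ∃ ψ : FFL L (M * q),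
      s35ftPhi L M q ω = algebraMap L (FFL L (M * q)) ((q : L) ^ 12) * ψ ∧
      ψ ∈ GaussL.gaussV Λ res (laurentBaseChange L (modularFunctionFieldFull (M * q))) ∧
      ψ⁻¹ ∈ GaussL.gaussV Λ res (laurentBaseChange L (modularFunctionFieldFull (M * q))) ∧
      kronW L ι M q hcop (s35ftPhi L M q ω) = ψ⁻¹ ∧
      IsIntegral (Algebra.adjoin L {jL L (M * q)}) (s35ftPhi L M q ω) ∧
      IsIntegral (Algebra.adjoin L {jL L (M * q)}) (s35ftPhi L M q ω)⁻¹ := by
  have hchar : CharZero L := charZero_of_injective_algebraMap (algebraMap ℚ L).injective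
  obtain ⟨h1, -⟩ := s35ft_phi_gauss_unit Λ res M q hω
  have hq0 : ((q : L) ^ 12) ≠ 0 := pow_ne_zero _ (Nat.cast_ne_zero.mpr (NeZero.ne q))
  have hq : algebraMap L (FFL L (M * q)) ((q : L) ^ 12) *
      algebraMap L (FFL L (M * q)) ((q : L) ^ 12)⁻¹ = 1 := by
    rw [← map_mul, mul_inv_cancel₀ hq0, map_one]
  refine ⟨algebraMap L (FFL L (M * q)) ((q : L) ^ 12)⁻¹ * s35ftPhi L M q ω, ?_, h1,
    s35ft_phi_inv_mem_gaussV Λ res M q hω, ?_, (s35ft_phi_isIntegral_B M q hω).1,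
    (s35ft_phi_isIntegral_B M q hω).2⟩
  · rw [← mul_assoc, hq, one_mul]
  · rw [s35ft_kronW_phi ι M q hcop hω, mul_inv, ← map_inv₀, inv_inv]

/-- **FT-CERT** (the export consumed by F1): there is `φ ∈ F_{Mq}` with `φ / q^12` a unit of
`V_∞`, `W φ = q^12 / φ` (so `φ` is a unit of `V_0 = W⁻¹ V_∞`), and `φ`, `φ⁻¹` integral over
`L[j]`. -/
theorem s35ft_cert :
    ∃ φ ψ : FFL L (M * q),
      φ = algebraMap L (FFL L (M * q)) ((q : L) ^ 12) * ψ ∧
      ψ ∈ GaussL.gaussV Λ res (laurentBaseChange L (modularFunctionFieldFull (M * q))) ∧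
      ψ⁻¹ ∈ GaussL.gaussV Λ res (laurentBaseChange L (modularFunctionFieldFull (M * q))) ∧
      kronW L ι M q hcop φ = ψ⁻¹ ∧
      IsIntegral (Algebra.adjoin L {jL L (M * q)}) φ ∧
      IsIntegral (Algebra.adjoin L {jL L (M * q)}) φ⁻¹ := by
  obtain ⟨ω, hω⟩ := s35ft_exists_omega (L := L) M q
  obtain ⟨ψ, h⟩ := s35ft_cert_omega Λ res ι M q hcop hω
  exact ⟨s35ftPhi L M q ω, ψ, h⟩

/-- **FT-CERT**, helper13's seven-clause form. -/
theorem s35ft_cert' :
    ∃ φ ψ : FFL L (M * q),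
      φ = algebraMap L (FFL L (M * q)) ((q : L) ^ 12) * ψ ∧
      ψ ∈ GaussL.gaussV Λ res (laurentBaseChange L (modularFunctionFieldFull (M * q))) ∧
      ψ⁻¹ ∈ GaussL.gaussV Λ res (laurentBaseChange L (modularFunctionFieldFull (M * q))) ∧
      kronW L ι M q hcop φ ∈
        GaussL.gaussV Λ res (laurentBaseChange L (modularFunctionFieldFull (M * q))) ∧
      (kronW L ι M q hcop φ)⁻¹ ∈
        GaussL.gaussV Λ res (laurentBaseChange L (modularFunctionFieldFull (M * q))) ∧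
      IsIntegral (Algebra.adjoin L {jL L (M * q)}) φ ∧
      IsIntegral (Algebra.adjoin L {jL L (M * q)}) φ⁻¹ := by
  obtain ⟨φ, ψ, h1, h2, h3, h4, h5, h6⟩ := s35ft_cert Λ res ι M q hcop
  refine ⟨φ, ψ, h1, h2, h3, ?_, ?_, h5, h6⟩
  · rw [h4]; exact h3
  · rw [h4, inv_inv]; exact h2

end Cert

end

end Fermat.Agent.S35
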