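import Mathlib
import Fermat.Agent.S35.FtW
import Fermat.Agent.S35.FtPhi
import Fermat.Agent.S35.FtDescentB

/-!
# P20 (S35), block FT-CERT (second team): the modular unit certificate

`φ = q^6 ω^6 j^4 (j - 1728)^3 / (j_q^4 (j_q - 1728)^3)`, `ψ = φ / q^12`: `ψ` is a unit of the
Gauss ring `V_∞` (C1), `W φ = ψ⁻¹` (C2), and `φ`, `φ⁻¹` are integral over `L[j]` (C3).
-/

set_option autoImplicit false

namespace Fermat.Agent.S35

open ModularCurve AlgebraicCurve UpperHalfPlane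
open Fermat.Agent.S18 Fermat.Agent.S24

noncomputable section

/-- **(CERT)** the finite-thickness certificate. -/
theorem s35ft_cert_B {L k : Type*} [Field L] [Algebra ℚ L] [Field k] (Λ : Subring L)
    (res : ↥Λ →+* k) (ι : L →+* ℂ) (M q : ℕ) [NeZero M] [NeZero q] (hcop : Nat.Coprime M q) :
    ∃ φ ψ : FFL L (M * q),
      φ = algebraMap L (FFL L (M * q)) ((q : L) ^ 12) * ψ ∧
      ψ ∈ GaussL.gaussV Λ res (laurentBaseChange L (modularFunctionFieldFull (M * q))) ∧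
      ψ⁻¹ ∈ GaussL.gaussV Λ res (laurentBaseChange L (modularFunctionFieldFull (M * q))) ∧
      Fermat.Agent.S34.kronW L ι M q hcop φ = ψ⁻¹ ∧
      IsIntegral (Algebra.adjoin L {jL L (M * q)}) φ ∧
      IsIntegral (Algebra.adjoin L {jL L (M * q)}) φ⁻¹ := by
  obtain ⟨ω, hω⟩ := s35ft_exists_omega (L := L) M q
  obtain ⟨h1, -⟩ := s35ft_phi_gauss_unit Λ res M q hω
  have h2 := s35ft_phi_inv_mem_gaussV Λ res M q hω
  obtain ⟨h3, h4⟩ := s35ft_phi_isIntegral_B M q hω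
  have hq0 : ((q : L) ^ 12) ≠ 0 := pow_ne_zero _ (s35ftW_natCast_ne_zero L q)
  refine ⟨s35ftPhi L M q ω,
    algebraMap L (FFL L (M * q)) ((q : L) ^ 12)⁻¹ * s35ftPhi L M q ω, ?_, h1, h2, ?_, h3, h4⟩
  · rw [← mul_assoc, ← map_mul, mul_inv_cancel₀ hq0, map_one, one_mul]
  · rw [s35ft_kronW_phi ι M q hcop hω, mul_inv, map_inv₀, inv_inv]

end

end Fermat.Agent.S35
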