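import Mathlib
import Fermat.Agent.S35.FtCert
import Fermat.Agent.S35.FtAna

/-!
# P20 (S35), block FT-CERT: the modular unit certificate, with `φ ≠ 0`

`s35ft_cert` of `FtCert.lean` does not record `φ ≠ 0` (and is then satisfied by `φ = ψ = 0`);
the statements below add it.  Use these.
-/

set_option autoImplicit false

namespace Fermat.Agent.S35

open ModularCurve AlgebraicCurve
open Fermat.Agent.S18 Fermat.Agent.S24 Fermat.Agent.S34

noncomputable section

section Cert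

variable {L k : Type*} [Field L] [Algebra ℚ L] [Field k] (Λ : Subring L) (res : ↥Λ →+* k)
  (ι : L →+* ℂ) (M q : ℕ) [NeZero M] [NeZero q] (hcop : Nat.Coprime M q)

/-- **FT-CERT** (the export consumed by F1): there is `φ ≠ 0` in `F_{Mq}` with `ψ = φ / q^12` a
unit of `V_∞`, `W φ = q^12 / φ = ψ⁻¹` (so `φ` is a unit of `V_0 = W⁻¹ V_∞`), and `φ`, `φ⁻¹`
integral over `L[j]`. -/
theorem s35ft_cert_ne_zero :
    ∃ φ ψ : FFL L (M * q), φ ≠ 0 ∧ ψ ≠ 0 ∧
      φ = algebraMap L (FFL L (M * q)) ((q : L) ^ 12) * ψ ∧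
      ψ ∈ GaussL.gaussV Λ res (laurentBaseChange L (modularFunctionFieldFull (M * q))) ∧
      ψ⁻¹ ∈ GaussL.gaussV Λ res (laurentBaseChange L (modularFunctionFieldFull (M * q))) ∧
      kronW L ι M q hcop φ = ψ⁻¹ ∧
      IsIntegral (Algebra.adjoin L {jL L (M * q)}) φ ∧
      IsIntegral (Algebra.adjoin L {jL L (M * q)}) φ⁻¹ := by
  obtain ⟨ω, hω⟩ := s35ft_exists_omega (L := L) M q
  obtain ⟨ψ, h1, h2, h3, h4, h5, h6⟩ := s35ft_cert_omega Λ res ι M q hcop hω
  have hφ : s35ftPhi L M q ω ≠ 0 := s35ft_phi_ne_zero M q hω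
  refine ⟨s35ftPhi L M q ω, ψ, hφ, ?_, h1, h2, h3, h4, h5, h6⟩
  rintro rfl
  rw [mul_zero] at h1
  exact hφ h1

/-- **FT-CERT**, seven-clause form with `φ ≠ 0`: `φ / q^12` and `W φ` are units of `V_∞`. -/
theorem s35ft_cert_ne_zero' :
    ∃ φ ψ : FFL L (M * q), φ ≠ 0 ∧
      φ = algebraMap L (FFL L (M * q)) ((q : L) ^ 12) * ψ ∧
      ψ ∈ GaussL.gaussV Λ res (laurentBaseChange L (modularFunctionFieldFull (M * q))) ∧
      ψ⁻¹ ∈ GaussL.gaussV Λ res (laurentBaseChange L (modularFunctionFieldFull (M * q))) ∧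
      kronW L ι M q hcop φ ∈
        GaussL.gaussV Λ res (laurentBaseChange L (modularFunctionFieldFull (M * q))) ∧
      (kronW L ι M q hcop φ)⁻¹ ∈
        GaussL.gaussV Λ res (laurentBaseChange L (modularFunctionFieldFull (M * q))) ∧
      IsIntegral (Algebra.adjoin L {jL L (M * q)}) φ ∧
      IsIntegral (Algebra.adjoin L {jL L (M * q)}) φ⁻¹ := by
  obtain ⟨φ, ψ, h0, -, h1, h2, h3, h4, h5, h6⟩ := s35ft_cert_ne_zero Λ res ι M q hcop
  refine ⟨φ, ψ, h0, h1, h2, h3, ?_, ?_, h5, h6⟩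
  · rw [h4]; exact h3
  · rw [h4, inv_inv]; exact h2

end Cert

end

end Fermat.Agent.S35
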