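import Mathlib
import Fermat.Agent.S34.KronDefs
import Fermat.Agent.S34.KronInt
import Fermat.Agent.S35.FtOmegaDefs

/-!
# P20 (S35), block FT-CERT, (G1)–(G4): `j`, `j - 1728`, `j_q`, `j_q - 1728` are Gauss units

For a subring `Λ ⊆ L` with a ring hom `res : Λ → k`, the elements `j = jL L (M * q)`,
`j - 1728`, `j_q = heckeBetaBar L M q (jL L M)`, `j_q - 1728` of `F_{Mq}` lie in the Gauss
valuation ring `gaussV Λ res F_{Mq}` and their reductions are the corresponding series over `k`.
-/

set_option autoImplicit false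

namespace Fermat.Agent.S35

open ModularCurve AlgebraicCurve
open Fermat.Agent.S18 Fermat.Agent.S24 Fermat.Agent.S28 Fermat.Agent.S28.FreeBasisAbs

noncomputable section

section Gauss

variable {L k : Type*} [Field L] [Algebra ℚ L] [Field k] (Λ : Subring L) (res : ↥Λ →+* k)
  (M q : ℕ) [NeZero M] [NeZero q]

/-- The series of `j - c` (`c ∈ Λ`) has coefficients in `Λ`. -/
theorem s35ftGaussJ_coe_sub (c : ↥Λ) :
    coeffMap Λ.subtype (jqModC ↥Λ - HahnSeries.C c)
      = ((jL L (M * q) - algebraMap L (FFL L (M * q)) (c : L) : FFL L (M * q)) :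
          LaurentSeries L) := by
  have h1 : ((jL L (M * q) - algebraMap L (FFL L (M * q)) (c : L) : FFL L (M * q)) :
      LaurentSeries L) = jqModC L - HahnSeries.C (c : L) := by
    rw [← Fermat.Agent.S34.KronInt.coe_jL_eq L (M * q),
      ← GaussL.coe_algebraMap_K (laurentBaseChange L (modularFunctionFieldFull (M * q))) (c : L)]
    rfl
  rw [h1, map_sub, coeffMap_jqModC, GaussL.coeffMap_C]
  rfl

/-- The series of `j_q - c` (`c ∈ Λ`) has coefficients in `Λ`. -/
theorem s35ftGaussJ_coe_beta_sub (c : ↥Λ) :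
    coeffMap Λ.subtype (jqNModC ↥Λ q - HahnSeries.C c)
      = ((heckeBetaBar L M q (jL L M) - algebraMap L (FFL L (M * q)) (c : L) : FFL L (M * q)) :
          LaurentSeries L) := by
  have h1 : ((heckeBetaBar L M q (jL L M) - algebraMap L (FFL L (M * q)) (c : L) :
      FFL L (M * q)) : LaurentSeries L) = qExpand L q (jqModC L) - HahnSeries.C (c : L) := by
    rw [← Fermat.Agent.S34.KronInt.coe_beta_jL_eq L M q,
      ← GaussL.coe_algebraMap_K (laurentBaseChange L (modularFunctionFieldFull (M * q))) (c : L)]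
    rfl
  rw [h1, map_sub, coeffMap_jqNModC, GaussL.coeffMap_C]
  rfl

/-- `j - c` for `c ∈ Λ`: membership and exact reduction. -/
theorem s35ftGaussJ_sub (c : ↥Λ) :
    ∃ h : jL L (M * q) - algebraMap L (FFL L (M * q)) (c : L) ∈
        GaussL.gaussV Λ res (laurentBaseChange L (modularFunctionFieldFull (M * q))),
      GaussL.gaussRed Λ res (laurentBaseChange L (modularFunctionFieldFull (M * q))) ⟨_, h⟩ =
        jqModC k - HahnSeries.C (res c) := by
  refine ⟨GaussL.mem_gaussV_of_coeffMap _ _ (s35ftGaussJ_coe_sub Λ M q c), ?_⟩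
  rw [GaussL.gaussRed_of_coeffMap (res := res) _ _ (s35ftGaussJ_coe_sub Λ M q c), map_sub,
    coeffMap_jqModC, GaussL.coeffMap_C]

/-- `j_q - c` for `c ∈ Λ`: membership and exact reduction. -/
theorem s35ftGaussJ_beta_sub (c : ↥Λ) :
    ∃ h : heckeBetaBar L M q (jL L M) - algebraMap L (FFL L (M * q)) (c : L) ∈
        GaussL.gaussV Λ res (laurentBaseChange L (modularFunctionFieldFull (M * q))),
      GaussL.gaussRed Λ res (laurentBaseChange L (modularFunctionFieldFull (M * q))) ⟨_, h⟩ =
        qExpand k q (jqModC k) - HahnSeries.C (res c) := by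
  refine ⟨GaussL.mem_gaussV_of_coeffMap _ _ (s35ftGaussJ_coe_beta_sub Λ M q c), ?_⟩
  rw [GaussL.gaussRed_of_coeffMap (res := res) _ _ (s35ftGaussJ_coe_beta_sub Λ M q c), map_sub,
    coeffMap_jqNModC, GaussL.coeffMap_C]
  rfl

/-- (G1) `j` is a Gauss unit, with reduction the `q`-expansion of `j` over `k`. -/
theorem s35ft_gauss_j :
    ∃ h : jL L (M * q) ∈ GaussL.gaussV Λ res (laurentBaseChange L (modularFunctionFieldFull (M * q))),
      GaussL.gaussRed Λ res (laurentBaseChange L (modularFunctionFieldFull (M * q))) ⟨_, h⟩ =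
        jqModC k := by
  obtain ⟨h, hred⟩ := s35ftGaussJ_sub Λ res M q 0
  have e : jL L (M * q) - algebraMap L (FFL L (M * q)) ((0 : ↥Λ) : L) = jL L (M * q) := by
    rw [ZeroMemClass.coe_zero, map_zero, sub_zero]
  have h' : jL L (M * q) ∈
      GaussL.gaussV Λ res (laurentBaseChange L (modularFunctionFieldFull (M * q))) := e ▸ h
  refine ⟨h', ?_⟩
  have e2 : (⟨jL L (M * q), h'⟩ :
      ↥(GaussL.gaussV Λ res (laurentBaseChange L (modularFunctionFieldFull (M * q))))) =
      ⟨jL L (M * q) - algebraMap L (FFL L (M * q)) ((0 : ↥Λ) : L), h⟩ := Subtype.ext e.symm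
  rw [e2, hred, map_zero, map_zero, sub_zero]

/-- (G2) `j - 1728`. -/
theorem s35ft_gauss_j_sub :
    ∃ h : jL L (M * q) - algebraMap L (FFL L (M * q)) 1728 ∈
        GaussL.gaussV Λ res (laurentBaseChange L (modularFunctionFieldFull (M * q))),
      GaussL.gaussRed Λ res (laurentBaseChange L (modularFunctionFieldFull (M * q))) ⟨_, h⟩ =
        jqModC k - HahnSeries.C (1728 : k) := by
  obtain ⟨h, hred⟩ := s35ftGaussJ_sub Λ res M q 1728
  have e : jL L (M * q) - algebraMap L (FFL L (M * q)) ((1728 : ↥Λ) : L)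
      = jL L (M * q) - algebraMap L (FFL L (M * q)) 1728 := by
    congr 2
  have h' : jL L (M * q) - algebraMap L (FFL L (M * q)) 1728 ∈
      GaussL.gaussV Λ res (laurentBaseChange L (modularFunctionFieldFull (M * q))) := e ▸ h
  refine ⟨h', ?_⟩
  have e2 : (⟨jL L (M * q) - algebraMap L (FFL L (M * q)) 1728, h'⟩ :
      ↥(GaussL.gaussV Λ res (laurentBaseChange L (modularFunctionFieldFull (M * q))))) =
      ⟨jL L (M * q) - algebraMap L (FFL L (M * q)) ((1728 : ↥Λ) : L), h⟩ := Subtype.ext e.symm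
  rw [e2, hred, map_ofNat]

/-- (G3) `j_q`. -/
theorem s35ft_gauss_jq :
    ∃ h : heckeBetaBar L M q (jL L M) ∈
        GaussL.gaussV Λ res (laurentBaseChange L (modularFunctionFieldFull (M * q))),
      GaussL.gaussRed Λ res (laurentBaseChange L (modularFunctionFieldFull (M * q))) ⟨_, h⟩ =
        qExpand k q (jqModC k) := by
  obtain ⟨h, hred⟩ := s35ftGaussJ_beta_sub Λ res M q 0
  have e : heckeBetaBar L M q (jL L M) - algebraMap L (FFL L (M * q)) ((0 : ↥Λ) : L)
      = heckeBetaBar L M q (jL L M) := by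
    rw [ZeroMemClass.coe_zero, map_zero, sub_zero]
  have h' : heckeBetaBar L M q (jL L M) ∈
      GaussL.gaussV Λ res (laurentBaseChange L (modularFunctionFieldFull (M * q))) := e ▸ h
  refine ⟨h', ?_⟩
  have e2 : (⟨heckeBetaBar L M q (jL L M), h'⟩ :
      ↥(GaussL.gaussV Λ res (laurentBaseChange L (modularFunctionFieldFull (M * q))))) =
      ⟨heckeBetaBar L M q (jL L M) - algebraMap L (FFL L (M * q)) ((0 : ↥Λ) : L), h⟩ :=
    Subtype.ext e.symm
  rw [e2, hred, map_zero, map_zero, sub_zero]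

/-- (G4) `j_q - 1728`. -/
theorem s35ft_gauss_jq_sub :
    ∃ h : heckeBetaBar L M q (jL L M) - algebraMap L (FFL L (M * q)) 1728 ∈
        GaussL.gaussV Λ res (laurentBaseChange L (modularFunctionFieldFull (M * q))),
      GaussL.gaussRed Λ res (laurentBaseChange L (modularFunctionFieldFull (M * q))) ⟨_, h⟩ =
        qExpand k q (jqModC k) - HahnSeries.C (1728 : k) := by
  obtain ⟨h, hred⟩ := s35ftGaussJ_beta_sub Λ res M q 1728
  have e : heckeBetaBar L M q (jL L M) - algebraMap L (FFL L (M * q)) ((1728 : ↥Λ) : L)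
      = heckeBetaBar L M q (jL L M) - algebraMap L (FFL L (M * q)) 1728 := by
    congr 2
  have h' : heckeBetaBar L M q (jL L M) - algebraMap L (FFL L (M * q)) 1728 ∈
      GaussL.gaussV Λ res (laurentBaseChange L (modularFunctionFieldFull (M * q))) := e ▸ h
  refine ⟨h', ?_⟩
  have e2 : (⟨heckeBetaBar L M q (jL L M) - algebraMap L (FFL L (M * q)) 1728, h'⟩ :
      ↥(GaussL.gaussV Λ res (laurentBaseChange L (modularFunctionFieldFull (M * q))))) =
      ⟨heckeBetaBar L M q (jL L M) - algebraMap L (FFL L (M * q)) ((1728 : ↥Λ) : L), h⟩ :=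
    Subtype.ext e.symm
  rw [e2, hred, map_ofNat]

end Gauss

end

end Fermat.Agent.S35
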