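import Mathlib
import Fermat.Agent.S24.Analytic
import Fermat.Agent.S35.FtOmegaDefs
import Fermat.Agent.S35.FtPlaces
import Fermat.Agent.S35.FtAnaB

/-!
# P20 (S35), block FT-CERT, (C3) over an algebraically closed field

`φ` and `φ⁻¹` are integral over `L[j]` when `L` is algebraically closed: all conjugates of `φ`
are holomorphic and nowhere zero on `ℍ` (`s35ft_merOrd_phi_B`), and holomorphic conjugates give
integrality (`s35ft_isIntegral_of_ordAt`).
-/

set_option autoImplicit false

namespace Fermat.Agent.S35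

open ModularCurve AlgebraicCurve UpperHalfPlane
open Fermat.Agent.S24

/-- **(C3)**, `L` algebraically closed. -/
theorem s35ft_phi_isIntegral_algClosed {L : Type*} [Field L] [Algebra ℚ L] [IsAlgClosed L]
    (ι : L →+* ℂ) (M q : ℕ) [NeZero M] [NeZero q] {ω : FFL L (M * q)}
    (hω : s35ftIsOmega L M q ω) :
    IsIntegral (Algebra.adjoin L {jL L (M * q)}) (s35ftPhi L M q ω) ∧
      IsIntegral (Algebra.adjoin L {jL L (M * q)}) (s35ftPhi L M q ω)⁻¹ := by
  refine ⟨s35ft_isIntegral_of_ordAt (M * q) ι _ fun x τ => ?_,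
    s35ft_isIntegral_of_ordAt (M * q) ι _ fun x τ => ?_⟩
  · rw [s35ft_merOrd_phi_B ι M q hω x τ]
  · rw [map_inv₀, merOrd_inv, s35ft_merOrd_phi_B ι M q hω x τ, neg_zero]

end Fermat.Agent.S35
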