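import Fermat.Agent.S35.Defs
import Fermat.Agent.S42.NormConj

/-!
# P20 (S35), block KD, leaf L1: the `A`-side norm as a product over coset representatives

For a prime `q ∤ N` and ANY system of representatives `R` of the right cosets
`Γ₀(N q) \ Γ₀(N)` (indexed by `Option (Fin q)`):

* `s35kd_exists_repsA` : such a system of representatives exists (from `S42.exists_heckeReps`);
* `s35kd_toMer_normAlpha` : the analytic realisation of the norm of `x ∈ F_{Nq}` along the
  degeneracy map `α : F_N → F_{Nq}` is the product of the translates of (the realisation of) `x`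
  by the representatives `R.r i`.

The proof of the second statement is the argument of `S42.NormConj.toMer_realHom_normAlpha`:
the `q + 1` ring homomorphisms `x ↦ (realisation of x) ∘ r_i` of `F_{Nq}` into the field of
meromorphic functions are pairwise distinct and agree on `α(F_N)`, and `[F_{Nq} : α(F_N)] = q + 1`.
-/

set_option autoImplicit false
set_option linter.style.haveILetI false

namespace Fermat.Agent.S35

open Fermat.Agent.S24 Fermat.Agent.S31 Fermat.Agent.S42
open CongruenceSubgroup ModularCurve AlgebraicCurve UpperHalfPlane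
open scoped MatrixGroups

/-- (C2) A system of representatives of `Γ₀(N q) \ Γ₀(N)` indexed by `Option (Fin q)`. -/
theorem s35kd_exists_repsA {N q : ℕ} (hq : q.Prime) (hqN : ¬ q ∣ N) :
    Nonempty (S35RightReps (Gamma0 (N * q)) (Gamma0 N) (Option (Fin q))) := by
  obtain ⟨δ, -, -, hinj, hcov⟩ := exists_heckeReps hq hqN
  exact ⟨{ r := fun i => (δ i : SL(2, ℤ))
           mem := fun i => (δ i).2
           cover := fun g hg => hcov ⟨g, hg⟩
           inj := hinj }⟩

/-- The conjugate embedding of `F_{Nq}` into the meromorphic functions attached to `γ`. -/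
noncomputable def s35kdna_E (N q : ℕ) [NeZero N] [NeZero q] (γ : SL(2, ℤ)) :
    FFL (AlgebraicClosure ℚ) (N * q) →+* Mer :=
  (compSL γ).comp ((toMer (N * q)).comp (realHom (N * q) embQ))

theorem s35kdna_E_apply (N q : ℕ) [NeZero N] [NeZero q] (γ : SL(2, ℤ))
    (x : FFL (AlgebraicClosure ℚ) (N * q)) :
    s35kdna_E N q γ x = compSL γ (toMer (N * q) (realHom (N * q) embQ x)) := rfl

/-- The conjugate embeddings attached to elements of `Γ₀(N)` agree on `α(F_N)`. -/
theorem s35kdna_E_alpha (N q : ℕ) [NeZero N] [NeZero q] {γ : SL(2, ℤ)} (hγ : γ ∈ Gamma0 N)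
    (a : FFL (AlgebraicClosure ℚ) N) :
    s35kdna_E N q γ (heckeAlphaBar (AlgebraicClosure ℚ) N q a) = toMer N (realHom N embQ a) := by
  rw [s35kdna_E_apply, toMer_realHom_heckeAlphaBar, ← toMer_act,
    act_realHom_of_mem N embQ _ hγ]

/-- Two elements of `SL(2, ℤ)` with the same conjugate embedding are in the same right coset of
`Γ₀(N q)`. -/
theorem s35kdna_E_inj (N q : ℕ) [NeZero N] [NeZero q] {γ γ' : SL(2, ℤ)}
    (h : s35kdna_E N q γ = s35kdna_E N q γ') : γ * γ'⁻¹ ∈ Gamma0 (N * q) := by
  have h1 : conj (N * q) embQ (QuotientGroup.mk (γ⁻¹) : XX (N * q)) =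
      conj (N * q) embQ (QuotientGroup.mk (γ'⁻¹) : XX (N * q)) := by
    ext x
    rw [conj_mk_apply, conj_mk_apply, inv_inv, inv_inv]
    apply toMer_injective (N * q)
    rw [toMer_act, toMer_act]
    exact RingHom.congr_fun h x
  have h2 := conj_injective (N * q) embQ h1
  rw [QuotientGroup.eq, inv_inv] at h2
  exact h2

/-- (C1) **Norm along `α` = product of the translates by the coset representatives.** -/
theorem s35kd_toMer_normAlpha (N q : ℕ) [NeZero N] [NeZero q] (hq : q.Prime) (hqN : ¬ q ∣ N)
    (R : S35RightReps (Gamma0 (N * q)) (Gamma0 N) (Option (Fin q)))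
    (x : FFL (AlgebraicClosure ℚ) (N * q)) :
    toMer N (realHom N embQ (NormConj.normAlpha N q x)) =
      ∏ i : Option (Fin q), compSL (R.r i) (toMer (N * q) (realHom (N * q) embQ x)) := by
  classical
  letI : Algebra (FFL (AlgebraicClosure ℚ) N) (FFL (AlgebraicClosure ℚ) (N * q)) :=
    algebraAlong (heckeAlphaBar (AlgebraicClosure ℚ) N q)
  haveI : Module.Finite (FFL (AlgebraicClosure ℚ) N) (FFL (AlgebraicClosure ℚ) (N * q)) :=
    Fermat.Agent.S37.heckeAlphaBar_finiteAlong N q
  haveI : Algebra.IsSeparable (FFL (AlgebraicClosure ℚ) N) (FFL (AlgebraicClosure ℚ) (N * q)) :=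
    Algebra.IsAlgebraic.isSeparable_of_perfectField
  -- the `q + 1` conjugate embeddings of `F_{Nq}` over `α(F_N)`
  let E : Option (Fin q) → FFL (AlgebraicClosure ℚ) (N * q) →+* Mer := fun i =>
    s35kdna_E N q (R.r i)
  -- they agree on `α(F_N)`
  have hEα : ∀ i (a : FFL (AlgebraicClosure ℚ) N),
      E i (algebraMap (FFL (AlgebraicClosure ℚ) N) (FFL (AlgebraicClosure ℚ) (N * q)) a) =
        toMer N (realHom N embQ a) := fun i a => s35kdna_E_alpha N q (R.mem i) a
  -- they are pairwise distinct
  have hEinj : Function.Injective E := fun i k hik => R.inj i k (s35kdna_E_inj N q hik)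
  -- their number is the degree
  have hcard : Module.finrank (FFL (AlgebraicClosure ℚ) N) (FFL (AlgebraicClosure ℚ) (N * q)) =
      Fintype.card (Option (Fin q)) := by
    rw [Fintype.card_option, Fintype.card_fin]
    exact Fermat.Agent.S37.finrankAlong_heckeAlphaBar N q hq hqN
  have key := prod_eq_map_norm_of_embeddings E hEinj (fun i j a => by rw [hEα, hEα]) hcard none x
  rw [hEα] at key
  rw [NormConj.normAlpha_eq, ← key]
  exact Finset.prod_congr rfl fun i _ => s35kdna_E_apply N q (R.r i) x

end Fermat.Agent.S35
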