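import Fermat.Agent.S35.Defs

/-!
# P20 block KD, leaf L6 (second team): the `B`-side representatives

For a prime `q` not dividing `N` choose integers `a`, `b` with `a q + b N = 1` and put
`γ₀ = (a, -b; N, q)`, `γ₁ = (q a, -b; N, 1)`; both lie in `Γ₀(N)` and
`diag(q, 1) γ₀ = γ₁ (1 0; 0 q)`, `(1 0; 0 q) γ₁ = γ₀ diag(q, 1)`.  For `g ∈ Γ₀(N)` the
conjugate `γ₁ g γ₁⁻¹` lies in `Γ₀(N) ∩ Γ⁰(q)` (`s35_HB N q`) iff `g ∈ Γ₀(N q)`; hence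
`γ₁ r_i` is a system of representatives of `s35_HB N q \ Γ₀(N)` whenever `r_i` is one of
`Γ₀(N q) \ Γ₀(N)`.

Main statement: `s35kd_exists_repsB_B`.
-/

set_option autoImplicit false

namespace Fermat.Agent.S35

open Fermat.Agent.S42
open CongruenceSubgroup
open scoped MatrixGroups

/-- The matrix `γ₁ = (q a, -b; N, 1)`. -/
def s35kdrb_g1 (N q : ℕ) (a b : ℤ) (h : a * q + b * N = 1) : SL(2, ℤ) :=
  ⟨!![(q : ℤ) * a, -b; (N : ℤ), 1], by rw [Matrix.det_fin_two_of]; linarith⟩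

/-- The matrix `γ₀ = (a, -b; N, q)`. -/
def s35kdrb_g0 (N q : ℕ) (a b : ℤ) (h : a * q + b * N = 1) : SL(2, ℤ) :=
  ⟨!![a, -b; (N : ℤ), (q : ℤ)], by rw [Matrix.det_fin_two_of]; linarith⟩

theorem s35kdrb_coe_g1 (N q : ℕ) (a b : ℤ) (h : a * q + b * N = 1) :
    ((s35kdrb_g1 N q a b h : SL(2, ℤ)) : Matrix (Fin 2) (Fin 2) ℤ) =
      !![(q : ℤ) * a, -b; (N : ℤ), 1] := rfl

theorem s35kdrb_coe_g0 (N q : ℕ) (a b : ℤ) (h : a * q + b * N = 1) :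
    ((s35kdrb_g0 N q a b h : SL(2, ℤ)) : Matrix (Fin 2) (Fin 2) ℤ) =
      !![a, -b; (N : ℤ), (q : ℤ)] := rfl

theorem s35kdrb_g1_mem (N q : ℕ) (a b : ℤ) (h : a * q + b * N = 1) :
    s35kdrb_g1 N q a b h ∈ Gamma0 N := by
  rw [Gamma0_mem, ZMod.intCast_zmod_eq_zero_iff_dvd, s35kdrb_coe_g1]
  simp

theorem s35kdrb_g0_mem (N q : ℕ) (a b : ℤ) (h : a * q + b * N = 1) :
    s35kdrb_g0 N q a b h ∈ Gamma0 N := by
  rw [Gamma0_mem, ZMod.intCast_zmod_eq_zero_iff_dvd, s35kdrb_coe_g0]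
  simp

theorem s35kdrb_mat_none (N q : ℕ) (hq : 0 < q) (a b : ℤ) (h : a * q + b * N = 1) :
    heckeMat q none * ((s35kdrb_g0 N q a b h : SL(2, ℤ)) : Matrix (Fin 2) (Fin 2) ℤ) =
      ((s35kdrb_g1 N q a b h : SL(2, ℤ)) : Matrix (Fin 2) (Fin 2) ℤ) *
        heckeMat q (some ⟨0, hq⟩) := by
  rw [s35kdrb_coe_g0, s35kdrb_coe_g1]
  ext i j
  fin_cases i <;> fin_cases j <;>
    simp [heckeMat, Matrix.mul_apply, Fin.sum_univ_two, mul_comm]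

theorem s35kdrb_mat_some (N q : ℕ) (hq : 0 < q) (a b : ℤ) (h : a * q + b * N = 1) :
    heckeMat q (some ⟨0, hq⟩) * ((s35kdrb_g1 N q a b h : SL(2, ℤ)) : Matrix (Fin 2) (Fin 2) ℤ) =
      ((s35kdrb_g0 N q a b h : SL(2, ℤ)) : Matrix (Fin 2) (Fin 2) ℤ) * heckeMat q none := by
  rw [s35kdrb_coe_g0, s35kdrb_coe_g1]
  ext i j
  fin_cases i <;> fin_cases j <;>
    simp [heckeMat, Matrix.mul_apply, Fin.sum_univ_two, mul_comm]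

/-- The upper right entry of `γ₁ g γ₁⁻¹`. -/
theorem s35kdrb_conj_entry (N q : ℕ) (a b : ℤ) (h : a * q + b * N = 1) (g : SL(2, ℤ)) :
    (s35kdrb_g1 N q a b h * g * (s35kdrb_g1 N q a b h)⁻¹) 0 1 =
      (q : ℤ) * (a * b * g 0 0 + q * a ^ 2 * g 0 1 - a * b * g 1 1) - b ^ 2 * g 1 0 := by
  rw [Matrix.SpecialLinearGroup.coe_mul, Matrix.SpecialLinearGroup.coe_mul,
    Matrix.SpecialLinearGroup.coe_inv, Matrix.adjugate_fin_two, s35kdrb_coe_g1]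
  simp [Matrix.mul_apply, Fin.sum_univ_two, Matrix.vecMul, dotProduct]
  ring

/-- `g ∈ Γ₀(N q)` implies `γ₁ g γ₁⁻¹ ∈ Γ₀(N) ∩ Γ⁰(q)`. -/
theorem s35kdrb_conj_mem (N q : ℕ) (a b : ℤ) (h : a * q + b * N = 1) {g : SL(2, ℤ)}
    (hg : g ∈ Gamma0 (N * q)) :
    s35kdrb_g1 N q a b h * g * (s35kdrb_g1 N q a b h)⁻¹ ∈ s35_HB N q := by
  rw [s35_mem_HB]
  have h1 := s35kdrb_g1_mem N q a b h
  refine ⟨(Gamma0 N).mul_mem ((Gamma0 N).mul_mem h1 (s35_gamma0_mul_le N q hg))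
    ((Gamma0 N).inv_mem h1), ?_⟩
  rw [s35kdrb_conj_entry]
  have hc : ((N * q : ℕ) : ℤ) ∣ g 1 0 := s35_dvd_of_mem_gamma0 hg
  have hq : (q : ℤ) ∣ g 1 0 := dvd_trans (by push_cast; exact dvd_mul_left _ _) hc
  exact dvd_sub (dvd_mul_right _ _) (dvd_mul_of_dvd_right hq _)

/-- `g ∈ Γ₀(N)` and `γ₁ g γ₁⁻¹ ∈ Γ₀(N) ∩ Γ⁰(q)` imply `g ∈ Γ₀(N q)`. -/
theorem s35kdrb_mem_of_conj (N q : ℕ) (a b : ℤ) (h : a * q + b * N = 1) {g : SL(2, ℤ)}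
    (hg : g ∈ Gamma0 N)
    (hc : s35kdrb_g1 N q a b h * g * (s35kdrb_g1 N q a b h)⁻¹ ∈ s35_HB N q) :
    g ∈ Gamma0 (N * q) := by
  rw [s35_mem_HB] at hc
  have h2 := hc.2
  rw [s35kdrb_conj_entry] at h2
  obtain ⟨c, hcN⟩ := s35_dvd_of_mem_gamma0 hg
  -- `q ∣ b ^ 2 * g 1 0`
  have h3 : (q : ℤ) ∣ b ^ 2 * g 1 0 := by
    have := dvd_sub (dvd_mul_right (q : ℤ)
      (a * b * g 0 0 + q * a ^ 2 * g 0 1 - a * b * g 1 1)) h2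
    rwa [sub_sub_cancel] at this
  obtain ⟨d, hd⟩ := h3
  -- `q ∣ g 1 0`
  have h4 : g 1 0 = (q : ℤ) * (g 1 0 * (a ^ 2 * q + 2 * a * b * N) + d * (N : ℤ) ^ 2) := by
    linear_combination ((N : ℤ) ^ 2) * hd - (g 1 0 * (a * q + b * N + 1)) * h
  -- `N q ∣ g 1 0`
  have h5 : g 1 0 = ((N * q : ℕ) : ℤ) *
      (a * c + b * (g 1 0 * (a ^ 2 * q + 2 * a * b * N) + d * (N : ℤ) ^ 2)) := by
    push_cast
    linear_combination (1 - b * N) * hcN + (b * N) * h4 - ((N : ℤ) * c) * h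
  rw [Gamma0_mem, ZMod.intCast_zmod_eq_zero_iff_dvd]
  exact ⟨_, h5⟩

/-- The `B`-side representatives `γ₁ r_i`. -/
def s35kdrb_reps (N q : ℕ) (a b : ℤ) (h : a * q + b * N = 1) {ι : Type*}
    (R : S35RightReps (Gamma0 (N * q)) (Gamma0 N) ι) :
    S35RightReps (s35_HB N q) (Gamma0 N) ι where
  r i := s35kdrb_g1 N q a b h * R.r i
  mem i := (Gamma0 N).mul_mem (s35kdrb_g1_mem N q a b h) (R.mem i)
  cover g hg := by
    have h1 := s35kdrb_g1_mem N q a b h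
    obtain ⟨i, hi⟩ := R.cover ((s35kdrb_g1 N q a b h)⁻¹ * g)
      ((Gamma0 N).mul_mem ((Gamma0 N).inv_mem h1) hg)
    refine ⟨i, ?_⟩
    have e : g * (s35kdrb_g1 N q a b h * R.r i)⁻¹ =
        s35kdrb_g1 N q a b h * ((s35kdrb_g1 N q a b h)⁻¹ * g * (R.r i)⁻¹) *
          (s35kdrb_g1 N q a b h)⁻¹ := by group
    rw [e]
    exact s35kdrb_conj_mem N q a b h hi
  inj i j hij := by
    have e : s35kdrb_g1 N q a b h * R.r i * (s35kdrb_g1 N q a b h * R.r j)⁻¹ =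
        s35kdrb_g1 N q a b h * (R.r i * (R.r j)⁻¹) * (s35kdrb_g1 N q a b h)⁻¹ := by group
    rw [e] at hij
    exact R.inj i j (s35kdrb_mem_of_conj N q a b h
      ((Gamma0 N).mul_mem (R.mem i) ((Gamma0 N).inv_mem (R.mem j))) hij)

/-- (B-R), second team: the matrices `γ₀ = (x y; N z, q t)`, `γ₁ = (q x, y; N z, t)`
(`q x t - N y z = 1`) and the `B`-side representatives `γ₁ r_i`. -/
theorem s35kd_exists_repsB_B {N q : ℕ} (hq : q.Prime) (hqN : ¬ q ∣ N)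
    (R : S35RightReps (Gamma0 (N * q)) (Gamma0 N) (Option (Fin q))) :
    ∃ (γ₀ γ₁ : SL(2, ℤ)) (RB : S35RightReps (s35_HB N q) (Gamma0 N) (Option (Fin q))),
      γ₀ ∈ Gamma0 N ∧ γ₁ ∈ Gamma0 N ∧
      heckeMat q none * (γ₀ : Matrix (Fin 2) (Fin 2) ℤ) =
        (γ₁ : Matrix (Fin 2) (Fin 2) ℤ) * heckeMat q (some ⟨0, hq.pos⟩) ∧
      heckeMat q (some ⟨0, hq.pos⟩) * (γ₁ : Matrix (Fin 2) (Fin 2) ℤ) =
        (γ₀ : Matrix (Fin 2) (Fin 2) ℤ) * heckeMat q none ∧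
      ∀ i, RB.r i = γ₁ * R.r i := by
  have hcop : IsCoprime (q : ℤ) (N : ℤ) :=
    Nat.isCoprime_iff_coprime.2 ((Nat.Prime.coprime_iff_not_dvd hq).2 hqN)
  obtain ⟨a, b, hab⟩ := hcop
  exact ⟨s35kdrb_g0 N q a b hab, s35kdrb_g1 N q a b hab, s35kdrb_reps N q a b hab R,
    s35kdrb_g0_mem N q a b hab, s35kdrb_g1_mem N q a b hab,
    s35kdrb_mat_none N q hq.pos a b hab, s35kdrb_mat_some N q hq.pos a b hab, fun _ => rfl⟩

end Fermat.Agent.S35
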