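import Fermat.Agent.S35.Defs
import Fermat.Agent.S42.RealDegen

/-!
# P20 (S35), block KD, leaf L5: the analytic realisation of the Atkin–Lehner involution

Level `N * q`, `q` a prime not dividing `N`.  Let `W` be an automorphism of the function field
`F_{Nq}` (over the constants) which exchanges the two degeneracy maps `α = heckeAlphaBar` and
`β = heckeBetaBar` from `F_N`.  If `γ₀, γ₁ ∈ Γ₀(N)` satisfy the matrix identity
`diag(q, 1) γ₀ = γ₁ (1 0; 0 q)`, then the analytic realisation of `W x` is the realisation of `x`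
composed with `γ₀` and then with `τ ↦ q τ` (`s35kd_toMer_realHom_W`).

The proof compares two ring homomorphisms `F_{Nq} → Mer` on the generators of `F_{Nq}`
(`FFL_ringHom_ext`): the constants and the `j(dτ)`, `d ∣ N`, are in the image of `α`, and the
`j(dτ)`, `d ∣ N q`, `d ∤ N`, are in the image of `β`.
-/

set_option autoImplicit false

namespace Fermat.Agent.S35

open Fermat.Agent.S24 Fermat.Agent.S31 Fermat.Agent.S42
open CongruenceSubgroup ModularCurve AlgebraicCurve UpperHalfPlane
open scoped MatrixGroups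

/-- `τ ↦ q τ` followed by `τ ↦ τ / q` is the identity of the upper half plane. -/
theorem s35kdw_hGL_some_none_smul {q : ℕ} (hq : 0 < q) (τ : ℍ) :
    PeriodHecke.hGL q (some ⟨0, hq⟩) • (PeriodHecke.hGL q none • τ) = τ := by
  have hqC : (q : ℂ) ≠ 0 := by exact_mod_cast hq.ne'
  apply UpperHalfPlane.ext
  rw [MobiusMer.coe_hGL_some_smul hq.ne', MobiusMer.coe_hGL_none_smul hq.ne', Nat.cast_zero,
    add_zero, mul_div_cancel_left₀ _ hqC]

/-- `τ ↦ q τ` followed by `τ ↦ τ / q`, on holomorphic functions. -/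
theorem s35kdw_compMHol_none_some {q : ℕ} (hq : 0 < q) (a : Hol) :
    MobiusMer.compMHol q none (MobiusMer.compMHol q (some ⟨0, hq⟩) a) = a := by
  apply Subtype.ext
  funext τ
  rw [MobiusMer.compMHol_apply, MobiusMer.compMHol_apply, s35kdw_hGL_some_none_smul hq]

/-- `τ ↦ q τ` followed by `τ ↦ τ / q`, on meromorphic functions. -/
theorem s35kdw_compM_none_some {q : ℕ} (hq : 0 < q) (X : Mer) :
    MobiusMer.compM q none (MobiusMer.compM q (some ⟨0, hq⟩) X) = X := by
  obtain ⟨a, b, -, rfl⟩ := mer_exists_div X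
  rw [MobiusMer.compM_div, MobiusMer.compM_div, s35kdw_compMHol_none_some,
    s35kdw_compMHol_none_some]

/-- A divisor of `N * q` (`q` prime) which does not divide `N` is `q * d'` with `d' ∣ N`. -/
theorem s35kdw_exists_of_dvd_mul {N q d : ℕ} (hq : q.Prime) (hd : d ∣ N * q) (hdN : ¬ d ∣ N) :
    ∃ d' : ℕ, d' ∣ N ∧ d = q * d' := by
  have hqd : q ∣ d := by
    by_contra hqd
    exact hdN (Nat.Coprime.dvd_of_dvd_mul_right
      ((Nat.Prime.coprime_iff_not_dvd hq).2 hqd).symm hd)
  obtain ⟨d', rfl⟩ := hqd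
  refine ⟨d', ?_, rfl⟩
  rw [mul_comm N q] at hd
  exact Nat.dvd_of_mul_dvd_mul_left hq.pos hd

/-- (B-W) The analytic realisation of the Atkin–Lehner involution. -/
theorem s35kd_toMer_realHom_W (N q : ℕ) [NeZero N] [NeZero q] (hq : q.Prime) (hqN : ¬ q ∣ N)
    (γ₀ γ₁ : SL(2, ℤ)) (hγ₀ : γ₀ ∈ Gamma0 N) (hγ₁ : γ₁ ∈ Gamma0 N)
    (hmat : heckeMat q none * (γ₀ : Matrix (Fin 2) (Fin 2) ℤ) =
      (γ₁ : Matrix (Fin 2) (Fin 2) ℤ) * heckeMat q (some ⟨0, hq.pos⟩))
    (W : FFL (AlgebraicClosure ℚ) (N * q) ≃ₐ[AlgebraicClosure ℚ] FFL (AlgebraicClosure ℚ) (N * q))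
    (hWβ : ∀ g : FFL (AlgebraicClosure ℚ) N,
      W (heckeBetaBar (AlgebraicClosure ℚ) N q g) = heckeAlphaBar (AlgebraicClosure ℚ) N q g)
    (hWα : ∀ g : FFL (AlgebraicClosure ℚ) N,
      W (heckeAlphaBar (AlgebraicClosure ℚ) N q g) = heckeBetaBar (AlgebraicClosure ℚ) N q g)
    (x : FFL (AlgebraicClosure ℚ) (N * q)) :
    toMer (N * q) (realHom (N * q) embQ (W x)) =
      MobiusMer.compM q none (compSL γ₀ (toMer (N * q) (realHom (N * q) embQ x))) := by
  have _ := hqN
  -- the two sides agree on the image of `α`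
  have hα : ∀ a : FFL (AlgebraicClosure ℚ) N,
      toMer (N * q) (realHom (N * q) embQ (W (heckeAlphaBar (AlgebraicClosure ℚ) N q a))) =
        MobiusMer.compM q none (compSL γ₀ (toMer (N * q)
          (realHom (N * q) embQ (heckeAlphaBar (AlgebraicClosure ℚ) N q a)))) := by
    intro a
    rw [hWα, toMer_realHom_heckeBetaBar, toMer_realHom_heckeAlphaBar, ← toMer_act,
      act_realHom_of_mem N embQ γ₀ hγ₀]
  -- the two sides agree on the image of `β`
  have hβ : ∀ a : FFL (AlgebraicClosure ℚ) N,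
      toMer (N * q) (realHom (N * q) embQ (W (heckeBetaBar (AlgebraicClosure ℚ) N q a))) =
        MobiusMer.compM q none (compSL γ₀ (toMer (N * q)
          (realHom (N * q) embQ (heckeBetaBar (AlgebraicClosure ℚ) N q a)))) := by
    intro a
    rw [hWβ, toMer_realHom_heckeAlphaBar, toMer_realHom_heckeBetaBar,
      MobiusMer.compSL_compM_of_eq hq.ne_zero hmat, ← toMer_act,
      act_realHom_of_mem N embQ γ₁ hγ₁, s35kdw_compM_none_some]
  have h : (toMer (N * q)).comp ((realHom (N * q) embQ).comp W.toRingEquiv.toRingHom) =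
      (MobiusMer.compM q none).comp
        ((compSL γ₀).comp ((toMer (N * q)).comp (realHom (N * q) embQ))) := by
    refine FFL_ringHom_ext (N * q) (AlgebraicClosure ℚ) (fun c => ?_) (fun d hd => ?_)
    · have hc : algebraMap (AlgebraicClosure ℚ) (FFL (AlgebraicClosure ℚ) (N * q)) c =
          heckeAlphaBar (AlgebraicClosure ℚ) N q
            (algebraMap (AlgebraicClosure ℚ) (FFL (AlgebraicClosure ℚ) N) c) :=
        (AlgHom.commutes _ c).symm
      rw [hc]
      exact hα _
    · by_cases hdN : d ∣ N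
      · have hj : jdL (N * q) (AlgebraicClosure ℚ) d hd =
            heckeAlphaBar (AlgebraicClosure ℚ) N q (jdL N (AlgebraicClosure ℚ) d hdN) :=
          (RealDegen.heckeAlphaBar_jdL N q (AlgebraicClosure ℚ) d hdN).symm
        rw [hj]
        exact hα _
      · obtain ⟨d', hd', rfl⟩ := s35kdw_exists_of_dvd_mul hq hd hdN
        have hj : jdL (N * q) (AlgebraicClosure ℚ) (q * d') hd =
            heckeBetaBar (AlgebraicClosure ℚ) N q (jdL N (AlgebraicClosure ℚ) d' hd') :=
          (RealDegen.heckeBetaBar_jdL N q (AlgebraicClosure ℚ) d' hd').symm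
        rw [hj]
        exact hβ _
  exact RingHom.congr_fun h x

end Fermat.Agent.S35
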