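import Mathlib

/-!
# P20 (S35), block LAT: abstract lattice lemma (homogenised Cayley–Hamilton)

Let `C` be a finitely generated torsion-free abelian group, `T` an endomorphism of `C` and `n ≠ 0`
an integer such that `T C ⊆ n C`.  Then `T = n E` for an endomorphism `E`, and with `χ` a monic
integer polynomial killing `E` (Cayley–Hamilton), the polynomial `s35_latScale χ n = n^d χ(X/n)`
kills `T`.  Conversely an element `c` of an integrally closed domain (in which `n ≠ 0`) killed by
`s35_latScale χ n` is divisible by `n`.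
-/

set_option autoImplicit false

namespace Fermat.Agent.S35

open Polynomial

/-- The polynomial `n ^ d * χ(X / n)`, `d = natDegree χ`. -/
noncomputable def s35_latScale (χ : ℤ[X]) (n : ℤ) : ℤ[X] :=
  ∑ i ∈ Finset.range (χ.natDegree + 1), C (χ.coeff i * n ^ (χ.natDegree - i)) * X ^ i

/-- `(n^d χ(X/n))(n a) = n^d χ(a)`. -/
theorem s35_lat_aeval_scale {A : Type*} [Ring A] (χ : ℤ[X]) (n : ℤ) (a : A) :
    aeval (n • a) (s35_latScale χ n) = n ^ χ.natDegree • aeval a χ := by
  rw [s35_latScale, map_sum]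
  conv_rhs => rw [aeval_eq_sum_range, Finset.smul_sum]
  refine Finset.sum_congr rfl fun i hi => ?_
  have hi' : i ≤ χ.natDegree := Nat.lt_succ_iff.mp (Finset.mem_range.mp hi)
  rw [map_mul, aeval_C, map_pow, aeval_X, _root_.smul_pow, Algebra.algebraMap_eq_smul_one, smul_mul_assoc,
    one_mul, smul_smul, smul_smul]
  congr 1
  rw [mul_assoc, ← pow_add, Nat.sub_add_cancel hi', mul_comm]

/-- **Homogenised Cayley–Hamilton.** -/
theorem s35_lat_exists_poly {C : Type*} [AddCommGroup C] [Module.Finite ℤ C]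
    (htf : ∀ (x : C) (k : ℤ), k ≠ 0 → k • x = 0 → x = 0)
    (T : Module.End ℤ C) (n : ℤ) (hn : n ≠ 0) (hT : ∀ x, ∃ y, T x = n • y) :
    ∃ χ : ℤ[X], χ.Monic ∧ aeval T (s35_latScale χ n) = 0 := by
  have hinj : Function.Injective (n • (LinearMap.id : C →ₗ[ℤ] C)) := by
    intro x y hxy
    have h : n • (x - y) = 0 := by
      rw [smul_sub, sub_eq_zero]; exact hxy
    exact sub_eq_zero.mp (htf _ n hn h)
  let φ := LinearEquiv.ofInjective (n • (LinearMap.id : C →ₗ[ℤ] C)) hinj
  let T' : C →ₗ[ℤ] LinearMap.range (n • (LinearMap.id : C →ₗ[ℤ] C)) :=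
    LinearMap.codRestrict _ T (fun x => by
      obtain ⟨y, hy⟩ := hT x
      exact ⟨y, by rw [hy]; rfl⟩)
  let E : Module.End ℤ C := φ.symm.toLinearMap ∘ₗ T'
  have hE : T = n • E := by
    refine LinearMap.ext fun x => ?_
    have h1 : (φ (E x) : C) = T x := by
      show (φ (φ.symm (T' x)) : C) = T x
      rw [LinearEquiv.apply_symm_apply]; rfl
    rw [LinearMap.smul_apply, ← h1]
    rfl
  obtain ⟨χ, hχ, hχE⟩ := LinearMap.exists_monic_and_aeval_eq_zero ℤ E
  refine ⟨χ, hχ, ?_⟩
  rw [hE, s35_lat_aeval_scale, hχE, smul_zero]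

/-- `eval₂` form of `s35_lat_aeval_scale` for commutative rings (no `ℤ`-algebra instance
involved). -/
theorem s35_lat_eval₂_scale {A : Type*} [CommRing A] (χ : ℤ[X]) (n : ℤ) (a : A) :
    eval₂ (Int.castRingHom A) ((n : A) * a) (s35_latScale χ n) =
      (n : A) ^ χ.natDegree * eval₂ (Int.castRingHom A) a χ := by
  rw [s35_latScale, eval₂_finsetSum]
  conv_rhs => rw [eval₂_eq_sum_range, Finset.mul_sum]
  refine Finset.sum_congr rfl fun i hi => ?_
  have hi' : i ≤ χ.natDegree := Nat.lt_succ_iff.mp (Finset.mem_range.mp hi)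
  rw [eval₂_mul, eval₂_C, eval₂_pow, eval₂_X, mul_pow]
  have h : (n : A) ^ χ.natDegree = (n : A) ^ (χ.natDegree - i) * (n : A) ^ i := by
    rw [← pow_add, Nat.sub_add_cancel hi']
  rw [h]
  simp only [eq_intCast, Int.cast_mul, Int.cast_pow]
  ring

/-- An element of an integrally closed domain killed by `n^d χ(X/n)`, `χ` monic, is divisible by
`n`. -/
theorem s35_lat_dvd_of_eval₂_eq_zero {R : Type*} [CommRing R] [IsDomain R] [IsIntegrallyClosed R]
    (χ : ℤ[X]) (hχ : χ.Monic) (n : ℤ) (hn : (n : R) ≠ 0) (c : R)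
    (h : eval₂ (Int.castRingHom R) c (s35_latScale χ n) = 0) : ∃ t : R, c = (n : R) * t := by
  let K := FractionRing R
  have hnK : (algebraMap R K (n : R)) ≠ 0 := by
    rwa [Ne, FaithfulSMul.algebraMap_eq_zero_iff]
  have hnK' : ((n : ℤ) : K) = algebraMap R K (n : R) := by rw [map_intCast]
  let x : K := algebraMap R K c / algebraMap R K (n : R)
  have hx : ((n : ℤ) : K) * x = algebraMap R K c := by
    rw [hnK']
    exact mul_div_cancel₀ _ hnK
  have hcomp : (algebraMap R K).comp (Int.castRingHom R) = Int.castRingHom K :=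
    RingHom.ext_int _ _
  have h1 := s35_lat_eval₂_scale χ n x
  have h0 : eval₂ (Int.castRingHom K) (algebraMap R K c) (s35_latScale χ n) = 0 := by
    rw [← hcomp, ← hom_eval₂, h, map_zero]
  rw [hx, h0] at h1
  have h2 : eval₂ (Int.castRingHom K) x χ = 0 := by
    rcases mul_eq_zero.mp h1.symm with h3 | h3
    · exfalso
      rw [hnK'] at h3
      exact hnK (eq_zero_of_pow_eq_zero h3)
    · exact h3
  have hint' : IsIntegral R x := by
    refine ⟨χ.map (Int.castRingHom R), hχ.map _, ?_⟩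
    rw [eval₂_map, hcomp]
    exact h2
  obtain ⟨t, ht⟩ := IsIntegrallyClosed.algebraMap_eq_of_integral hint'
  refine ⟨t, ?_⟩
  apply FaithfulSMul.algebraMap_injective R K
  rw [map_mul, ht]
  exact (mul_div_cancel₀ _ hnK).symm

/-- `aeval` form of `s35_lat_dvd_of_eval₂_eq_zero` (with the canonical `ℤ`-algebra structure). -/
theorem s35_lat_dvd_of_aeval_eq_zero {R : Type*} [CommRing R] [IsDomain R] [IsIntegrallyClosed R]
    (χ : ℤ[X]) (hχ : χ.Monic) (n : ℤ) (hn : (n : R) ≠ 0) (c : R)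
    (h : aeval c (s35_latScale χ n) = 0) : ∃ t : R, c = (n : R) * t := by
  refine s35_lat_dvd_of_eval₂_eq_zero χ hχ n hn c ?_
  rw [← h, aeval_def]
  congr 1

end Fermat.Agent.S35
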