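import Mathlib
import Fermat.Agent.S35.LatCores

/-!
# P20 (S35), block LAT-MOD: the coset bijection behind `trace ∘ T_ℓ = T_ℓ ∘ trace`

Abstract form of (E1) + (E2) of note 858.  `H ≤ G` subgroups of a group `𝔾`, `R` a system of
representatives of `H \ G` (`S35RightReps`), `j : 𝔾 →* 𝕄` a homomorphism to a monoid (integral
`2 × 2` matrices in the application) and `M : κ → 𝕄` a finite family (the Hecke matrices) such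
that

* (a)  `M i * j g ∈ j G * M i'` for every `g ∈ G` (the family is stable under `G`);
* (b1) `M i₁ * j ρ = j γ * M i₂` with `ρ ∈ G`, `γ ∈ H` forces `ρ ∈ H`;
* (b2) `M i₁ = j γ * M i₂` with `γ ∈ H` forces `i₁ = i₂`.

Then there are a bijection `σ` of `κ × ι` and elements `γ p ∈ H` with
`M i * j (r k) = j (γ (i, k)) * j (r k') * M i'`, `(i', k') = σ (i, k)`: `s35bij_exists`.
-/

set_option autoImplicit false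

namespace Fermat.Agent.S35

theorem s35bij_exists {𝔾 𝕄 : Type*} [Group 𝔾] [Monoid 𝕄] (j : 𝔾 →* 𝕄) {H G : Subgroup 𝔾}
    {ι κ : Type*} [Finite ι] [Finite κ] (R : S35RightReps H G ι) (M : κ → 𝕄)
    (ha : ∀ (i : κ) (g : 𝔾), g ∈ G → ∃ (i' : κ) (g' : 𝔾), g' ∈ G ∧ M i * j g = j g' * M i')
    (hb1 : ∀ (i₁ i₂ : κ) (ρ γ : 𝔾), ρ ∈ G → γ ∈ H → M i₁ * j ρ = j γ * M i₂ → ρ ∈ H)
    (hb2 : ∀ (i₁ i₂ : κ) (γ : 𝔾), γ ∈ H → M i₁ = j γ * M i₂ → i₁ = i₂) :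
    ∃ (σ : κ × ι ≃ κ × ι) (γ : κ × ι → 𝔾), ∀ p : κ × ι, γ p ∈ H ∧
      M p.1 * j (R.r p.2) = j (γ p) * j (R.r (σ p).2) * M (σ p).1 := by
  classical
  -- (E1)
  have hE1 : ∀ p : κ × ι, ∃ (p' : κ × ι) (γ : 𝔾), γ ∈ H ∧
      M p.1 * j (R.r p.2) = j γ * j (R.r p'.2) * M p'.1 := by
    rintro ⟨i, k⟩
    obtain ⟨i', g', hg', hM⟩ := ha i (R.r k) (R.mem k)
    obtain ⟨k', hk'⟩ := R.cover g' hg'
    refine ⟨(i', k'), g' * (R.r k')⁻¹, hk', ?_⟩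
    show M i * j (R.r k) = j (g' * (R.r k')⁻¹) * j (R.r k') * M i'
    rw [hM, ← map_mul, inv_mul_cancel_right]
  choose σ₀ γ hγ hσ₀ using hE1
  -- (E2)
  have hinj : Function.Injective σ₀ := by
    rintro ⟨i₁, k₁⟩ ⟨i₂, k₂⟩ h12
    have e1 := hσ₀ (i₁, k₁)
    have e2 := hσ₀ (i₂, k₂)
    rw [h12] at e1
    simp only at e1 e2
    set γ₁ := γ (i₁, k₁) with hγ₁
    set γ₂ := γ (i₂, k₂) with hγ₂
    have h1 : γ₁ ∈ H := hγ (i₁, k₁)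
    have h2 : γ₂ ∈ H := hγ (i₂, k₂)
    -- `M i₁ * j (r k₁ * (r k₂)⁻¹) = j (γ₁ * γ₂⁻¹) * M i₂`
    have e3 : j (R.r (σ₀ (i₂, k₂)).2) * M (σ₀ (i₂, k₂)).1 = j γ₂⁻¹ * (M i₂ * j (R.r k₂)) := by
      rw [e2, ← mul_assoc, ← mul_assoc, ← map_mul, inv_mul_cancel, map_one, one_mul]
    have e4 : M i₁ * j (R.r k₁ * (R.r k₂)⁻¹) = j (γ₁ * γ₂⁻¹) * M i₂ := by
      rw [map_mul, ← mul_assoc, e1, mul_assoc (j γ₁), e3, map_mul]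
      simp only [mul_assoc]
      rw [← map_mul j (R.r k₂), mul_inv_cancel, map_one, mul_one]
    have hρ : R.r k₁ * (R.r k₂)⁻¹ ∈ H :=
      hb1 i₁ i₂ _ _ (G.mul_mem (R.mem k₁) (G.inv_mem (R.mem k₂))) (H.mul_mem h1 (H.inv_mem h2)) e4
    have hk : k₁ = k₂ := R.inj k₁ k₂ hρ
    subst hk
    rw [mul_inv_cancel, map_one, mul_one] at e4
    have hi : i₁ = i₂ := hb2 i₁ i₂ _ (H.mul_mem h1 (H.inv_mem h2)) e4
    rw [hi]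
  have hbij : Function.Bijective σ₀ := Finite.injective_iff_bijective.mp hinj
  exact ⟨Equiv.ofBijective σ₀ hbij, γ, fun p => ⟨hγ p, hσ₀ p⟩⟩

/-- Consequence for sums: if `Φ : 𝕄 → A` is invariant under left multiplication by `j H`, then
`∑_{i,k} Φ (M i * j (r k)) = ∑_{i,k} Φ (j (r k) * M i)`. -/
theorem s35bij_sum {𝔾 𝕄 : Type*} [Group 𝔾] [Monoid 𝕄] (j : 𝔾 →* 𝕄) {H G : Subgroup 𝔾}
    {ι κ : Type*} [Fintype ι] [Fintype κ] (R : S35RightReps H G ι) (M : κ → 𝕄)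
    (ha : ∀ (i : κ) (g : 𝔾), g ∈ G → ∃ (i' : κ) (g' : 𝔾), g' ∈ G ∧ M i * j g = j g' * M i')
    (hb1 : ∀ (i₁ i₂ : κ) (ρ γ : 𝔾), ρ ∈ G → γ ∈ H → M i₁ * j ρ = j γ * M i₂ → ρ ∈ H)
    (hb2 : ∀ (i₁ i₂ : κ) (γ : 𝔾), γ ∈ H → M i₁ = j γ * M i₂ → i₁ = i₂)
    {A : Type*} [AddCommMonoid A] (Φ : 𝕄 → A)
    (hΦ : ∀ (γ : 𝔾) (x : 𝕄), γ ∈ H → Φ (j γ * x) = Φ x) :
    ∑ i, ∑ k, Φ (M i * j (R.r k)) = ∑ i, ∑ k, Φ (j (R.r k) * M i) := by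
  obtain ⟨σ, γ, hσ⟩ := s35bij_exists j R M ha hb1 hb2
  rw [← Finset.sum_product', ← Finset.sum_product', Finset.univ_product_univ]
  rw [← Equiv.sum_comp σ (fun p : κ × ι => Φ (j (R.r p.2) * M p.1))]
  refine Finset.sum_congr rfl fun p _ => ?_
  rw [(hσ p).2, mul_assoc, hΦ _ _ (hσ p).1]

end Fermat.Agent.S35
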