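import Fermat.Agent.S49.Hecke
import Fermat.Agent.S30.EigenCharB
import Fermat.Prelude.Def_CuspForm_Newforms

/-!
P20 (S35), block LAT-MOD, leaf M3: a common eigenvector at level `N` for the Hecke operators
`T_ℓ`, `ℓ ∤ N q`, gives a normalised eigenform at level `N` with the same eigenvalues.

The joint eigenspace of the `T_ℓ`, `ℓ ∤ N q`, is nonzero and stable under the commuting family of
all Hecke operators `T_ℓ` (`ℓ ∤ N`), `U_ℓ` (`ℓ ∣ N`) of level `N`; a common eigenvector of the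
whole family in this eigenspace, normalised, is a normalised eigenform.
-/

set_option autoImplicit false

namespace Fermat.Agent.S35

open CongruenceSubgroup UpperHalfPlane

open Fermat.Agent.S49 CuspForm ModularFormClass in
/-- A nonzero cusp form of level `N` which is an eigenvector of `T_ℓ` with eigenvalue `a ℓ` for
all primes `ℓ ∤ M` (`N ∣ M`) gives a normalised eigenform of level `N` with `ℓ`-th coefficient
`a ℓ` for all primes `ℓ ∤ M`. -/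
theorem s35m3_exists_eigenform {N M : ℕ} [NeZero N] (hNM : N ∣ M) (a : ℕ → ℂ)
    (h : CuspForm (Gamma0 N) 2) (hh : h ≠ 0)
    (hev : ∀ ℓ : ℕ, ℓ.Prime → ¬ ℓ ∣ M →
      ∀ τ : ℍ, ModularForm.heckeT 2 ℓ (h : ℍ → ℂ) τ = a ℓ * h τ) :
    ∃ f : CuspForm (Gamma0 N) 2, f.IsNormalizedEigenform ∧
      ∀ ℓ : ℕ, ℓ.Prime → ¬ ℓ ∣ M → qCoeff f ℓ = a ℓ := by
  classical
  have : FiniteDimensional ℂ (CuspForm (Gamma0 N) 2) :=
    Fermat.Agent.S22.FinalAlgebra.finiteDimensional N 2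
  -- the joint eigenspace
  let W : Submodule ℂ (CuspForm (Gamma0 N) 2) :=
    ⨅ (ℓ : {p : ℕ // p.Prime}) (_ : ¬ (ℓ : ℕ) ∣ M),
      LinearMap.ker (heckeFam N ℓ - a ℓ • (1 : Module.End ℂ (CuspForm (Gamma0 N) 2)))
  have hWmem : ∀ x, x ∈ W ↔ ∀ ℓ : {p : ℕ // p.Prime}, ¬ (ℓ : ℕ) ∣ M →
      heckeFam N ℓ x = a ℓ • x := by
    intro x
    simp only [W, Submodule.mem_iInf, LinearMap.mem_ker, LinearMap.sub_apply,
      LinearMap.smul_apply, Module.End.one_apply, sub_eq_zero]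
  have hhW : h ∈ W := by
    rw [hWmem]
    intro ℓ hℓ
    have hℓN : ¬ (ℓ : ℕ) ∣ N := fun hd => hℓ (hd.trans hNM)
    have h1 : heckeFam N ℓ h = CuspForm.heckeTLin 2 ℓ.prop hℓN h := by
      unfold heckeFam
      rw [dif_neg hℓN]
    rw [h1]
    apply DFunLike.ext
    intro τ
    exact hev ℓ ℓ.prop hℓ τ
  have hW : W ≠ ⊥ := by
    intro h0
    rw [h0, Submodule.mem_bot] at hhW
    exact hh hhW
  have hcomm : ∀ T ∈ Set.range (heckeFam N), ∀ T' ∈ Set.range (heckeFam N), Commute T T' := by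
    rintro _ ⟨ℓ, rfl⟩ _ ⟨ℓ', rfl⟩
    exact heckeFam_commute ℓ ℓ'
  have hinv : ∀ T ∈ Set.range (heckeFam N), ∀ w ∈ W, T w ∈ W := by
    rintro _ ⟨ℓ', rfl⟩ w hw
    rw [hWmem] at hw ⊢
    intro ℓ hℓ
    have hc := heckeFam_commute (N := N) ℓ ℓ'
    have h1 : heckeFam N ℓ (heckeFam N ℓ' w) = heckeFam N ℓ' (heckeFam N ℓ w) :=
      congrArg (fun f : Module.End ℂ (CuspForm (Gamma0 N) 2) => f w) hc.eq
    rw [h1, hw ℓ hℓ, map_smul]
  obtain ⟨g, hgW, hg0, hgall⟩ := Fermat.Agent.S30.EigenCharB.exists_common_eigenvector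
    (Set.range (heckeFam N)) hcomm _ W inferInstance rfl hW hinv
  have hχ : ∀ ℓ : {p : ℕ // p.Prime}, ∃ c : ℂ, heckeFam N ℓ g = c • g :=
    fun ℓ => hgall _ ⟨ℓ, rfl⟩
  choose χ hgeig using hχ
  -- from here on: the tail of the proof of `Fermat.Agent.S49.result`
  have hrel : ∀ (ℓ : {p : ℕ // p.Prime}) (n : ℕ), qCoeff ⇑g (n * ℓ) =
      (χ ℓ : ℂ) * qCoeff ⇑g n -
        (dfac N ℓ : ℂ) * (if (ℓ : ℕ) ∣ n then qCoeff ⇑g (n / ℓ) else 0) := by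
    intro ℓ n
    have := qCoeff_heckeFam ℓ g n
    rw [hgeig ℓ, qCoeff_smul_cusp] at this
    linear_combination -this
  have hc1 : qCoeff ⇑g 1 ≠ 0 := by
    intro h0
    apply hg0
    apply eq_zero_of_forall_qCoeff_eq_zero
    intro n
    rcases Nat.eq_zero_or_pos n with rfl | hn
    · exact qCoeff_zero_cusp g
    · exact formal_vanish (fun n => qCoeff ⇑g n)
        (fun ℓ => if hℓ : ℓ.Prime then (χ ⟨ℓ, hℓ⟩ : ℂ) else 0) (fun ℓ => (dfac N ℓ : ℂ)) h0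
        (fun ℓ hℓ n => by simpa [hℓ] using hrel ⟨ℓ, hℓ⟩ n) n hn
  have hb : ∀ n, qCoeff ⇑((qCoeff ⇑g 1)⁻¹ • g) n = (qCoeff ⇑g 1)⁻¹ * qCoeff ⇑g n :=
    fun n => qCoeff_smul_cusp _ _ _
  have hb1 : qCoeff ⇑((qCoeff ⇑g 1)⁻¹ • g) 1 = 1 := by
    rw [hb]; exact inv_mul_cancel₀ hc1
  have hbℓ : ∀ ℓ : {p : ℕ // p.Prime}, qCoeff ⇑((qCoeff ⇑g 1)⁻¹ • g) ℓ = χ ℓ := by
    intro ℓ
    have := hrel ℓ 1
    rw [one_mul, if_neg (Nat.Prime.not_dvd_one ℓ.prop), mul_zero, sub_zero] at this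
    rw [hb, this]
    field_simp
  have hrel' : ∀ ℓ : ℕ, ℓ.Prime → ∀ n, qCoeff ⇑((qCoeff ⇑g 1)⁻¹ • g) (n * ℓ) =
      qCoeff ⇑((qCoeff ⇑g 1)⁻¹ • g) ℓ * qCoeff ⇑((qCoeff ⇑g 1)⁻¹ • g) n -
        (dfac N ℓ : ℂ) * (if ℓ ∣ n then qCoeff ⇑((qCoeff ⇑g 1)⁻¹ • g) (n / ℓ) else 0) := by
    intro ℓ hℓ n
    rw [hbℓ ⟨ℓ, hℓ⟩, hb, hb, hb, hrel ⟨ℓ, hℓ⟩ n]
    split_ifs <;> ring
  refine ⟨(qCoeff ⇑g 1)⁻¹ • g, ⟨hb1, formal_mul_coprime _ _ hb1 hrel', ?_, ?_⟩, ?_⟩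
  · intro p r hp hpN
    have := hrel' p hp (p ^ (r + 1))
    rw [← pow_succ, if_pos (dvd_pow_self p (by omega)),
      show p ^ (r + 1) / p = p ^ r from by rw [pow_succ, Nat.mul_div_cancel _ hp.pos],
      dfac, if_neg hpN] at this
    exact this
  · intro p r hp hpN
    have := hrel' p hp (p ^ (r + 1))
    rw [← pow_succ, dfac, if_pos hpN] at this
    simpa using this
  · intro ℓ hℓ hℓM
    rw [hbℓ ⟨ℓ, hℓ⟩]
    have h1 := (hWmem g).mp hgW ⟨ℓ, hℓ⟩ hℓM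
    rw [hgeig ⟨ℓ, hℓ⟩] at h1
    exact smul_left_injective ℂ hg0 h1

/-- (M3) an eigenvector at level `N` for all `T_ℓ`, `ℓ ∤ N q`, gives a normalised eigenform at
level `N` with the same eigenvalues. -/
theorem s35_occurs_of_eigen {N q : ℕ} [NeZero N] [NeZero q]
    {g : CuspForm (Gamma0 (N * q)) 2} (h : CuspForm (Gamma0 N) 2) (hh : h ≠ 0)
    (hev : ∀ ℓ : ℕ, ℓ.Prime → ¬ ℓ ∣ N * q →
      ∀ τ : ℍ, ModularForm.heckeT 2 ℓ (h : ℍ → ℂ) τ = ModularFormClass.qCoeff g ℓ * h τ) :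
    CuspForm.GoodEigensystemOccursAt g N :=
  s35m3_exists_eigenform (Dvd.intro q rfl) (fun ℓ => ModularFormClass.qCoeff g ℓ) h hh hev

end Fermat.Agent.S35
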