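import Mathlib

/-!
# P20 (S35), block LAT-MOD: re-indexing sums of slashes over two families of matrices

`s35_fam_sum_eq`: let `f` be invariant under a subgroup `Γ` of `GL₂(ℝ)` (for the weight `k` slash
action), and let `x : X → GL₂(ℝ)`, `y : Y → GL₂(ℝ)` be two finite families with
`card X = card Y` such that every `x a` lies in some coset `Γ (y b)` (E1) and the `x a` lie in
pairwise distinct `Γ`-cosets (E2).  Then `∑ a, f ∣[k] x a = ∑ b, f ∣[k] y b`.

This is the combinatorial core of "the trace commutes with the Hecke operators".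
-/

set_option autoImplicit false

namespace Fermat.Agent.S35

open UpperHalfPlane
open scoped MatrixGroups ModularForm

/-- Re-indexing a sum of slashes of a `Γ`-invariant function along two families of matrices
representing the same `Γ`-cosets. -/
theorem s35_fam_sum_eq {k : ℤ} (f : ℍ → ℂ) (Γ : Subgroup (GL (Fin 2) ℝ))
    (hf : ∀ γ ∈ Γ, f ∣[k] γ = f)
    {X Y : Type*} [Fintype X] [Fintype Y] (hcard : Fintype.card X = Fintype.card Y)
    (x : X → GL (Fin 2) ℝ) (y : Y → GL (Fin 2) ℝ)
    (E1 : ∀ a, ∃ b, x a * (y b)⁻¹ ∈ Γ)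
    (E2 : ∀ a a', x a * (x a')⁻¹ ∈ Γ → a = a') :
    ∑ a, f ∣[k] x a = ∑ b, f ∣[k] y b := by
  classical
  choose Φ hΦ using E1
  have hinj : Function.Injective Φ := by
    intro a a' h
    apply E2
    have h1 : x a * (x a')⁻¹ = (x a * (y (Φ a))⁻¹) * (x a' * (y (Φ a'))⁻¹)⁻¹ := by
      rw [h]
      group
    rw [h1]
    exact Γ.mul_mem (hΦ a) (Γ.inv_mem (hΦ a'))
  have hbij : Function.Bijective Φ :=
    (Fintype.bijective_iff_injective_and_card Φ).mpr ⟨hinj, hcard⟩
  have hterm : ∀ a, f ∣[k] x a = f ∣[k] y (Φ a) := by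
    intro a
    have h1 : x a = (x a * (y (Φ a))⁻¹) * y (Φ a) := by group
    rw [h1, SlashAction.slash_mul, hf _ (hΦ a)]
  rw [Finset.sum_congr rfl (fun a _ => hterm a)]
  exact Fintype.sum_bijective Φ hbij _ _ (fun a => rfl)

end Fermat.Agent.S35
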