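import Fermat.Agent.S35.Defs
import Fermat.Agent.S35.LatBij
import Fermat.Agent.S42.PeriodHecke
import Fermat.Agent.S42.PeriodEigen

/-!
# P20 (S35), block LAT-MOD, leaf (A3): `T_ℓ` commutes with the trace `Γ₀(N q) → Γ₀(N)`

For a cusp form `g` of level `Γ₀(N q)` and representatives `r i` of `Γ₀(N q) \ Γ₀(N)`,
`T_ℓ (∑ i, g ∣ r i) = ∑ i, (T_ℓ g) ∣ r i` for a prime `ℓ ∤ N q`.  The proof applies the abstract
coset bijection `s35bij_sum` to the Hecke matrices.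
-/

set_option autoImplicit false

namespace Fermat.Agent.S35

open CongruenceSubgroup ModularCurve AlgebraicCurve UpperHalfPlane
open Fermat.Agent.S31 Fermat.Agent.S42 Fermat.Agent.S30
open scoped MatrixGroups ModularForm

/-- `T_ℓ` as a sum of slashes over the Hecke matrices. -/
theorem s35hka_heckeT_eq_sum (ℓ : ℕ) (f : ℍ → ℂ) :
    ModularForm.heckeT 2 ℓ f = ∑ i : Option (Fin ℓ), f ∣[(2 : ℤ)] PeriodHecke.hGL ℓ i := by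
  rw [ModularForm.heckeT_def, Fintype.sum_option, PeriodHecke.hGL_none, add_comm]
  congr 1
  rw [← Fin.sum_univ_eq_sum_range (fun j => f ∣[(2 : ℤ)] ModularForm.heckeMatrix ℓ j) ℓ]
  rfl

theorem s35hka_val_mapGL (γ : SL(2, ℤ)) :
    ((Matrix.SpecialLinearGroup.mapGL ℝ γ : GL (Fin 2) ℝ) : Matrix (Fin 2) (Fin 2) ℝ) =
      (γ : Matrix (Fin 2) (Fin 2) ℤ).map (Int.castRingHom ℝ) := rfl

/-- A matrix identity in `GL (Fin 2) ℝ` between Hecke matrices and integral unimodular matrices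
is the same as the identity of integer matrices. -/
theorem s35hka_gl_iff {ℓ : ℕ} (hℓ : ℓ ≠ 0) (i k : Option (Fin ℓ)) (ρ γ : SL(2, ℤ)) :
    PeriodHecke.hGL ℓ i * Matrix.SpecialLinearGroup.mapGL ℝ ρ =
        Matrix.SpecialLinearGroup.mapGL ℝ γ * PeriodHecke.hGL ℓ k ↔
      heckeMat ℓ i * (ρ : Matrix (Fin 2) (Fin 2) ℤ) =
        (γ : Matrix (Fin 2) (Fin 2) ℤ) * heckeMat ℓ k := by
  rw [← Units.val_inj, Units.val_mul, Units.val_mul, PeriodHecke.val_hGL hℓ,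
    PeriodHecke.val_hGL hℓ, s35hka_val_mapGL, s35hka_val_mapGL, ← Matrix.map_mul,
    ← Matrix.map_mul]
  exact (Matrix.map_injective (Int.castRingHom ℝ).injective_int).eq_iff

/-- The level of `ρ` goes up: `M_{i₁} ρ = γ M_{i₂}` with `ρ ∈ Γ₀(N)`, `γ ∈ Γ₀(N q)` forces
`ρ ∈ Γ₀(N q)`. -/
theorem s35hka_mem {N q ℓ : ℕ} (hq : q.Prime) (hqN : ¬ q ∣ N) (hℓ : ℓ.Prime) (hqℓ : q ≠ ℓ)
    {i₁ i₂ : Option (Fin ℓ)} {ρ γ : SL(2, ℤ)} (hρ : ρ ∈ Gamma0 N) (hγ : γ ∈ Gamma0 (N * q))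
    (h : heckeMat ℓ i₁ * (ρ : Matrix (Fin 2) (Fin 2) ℤ) =
      (γ : Matrix (Fin 2) (Fin 2) ℤ) * heckeMat ℓ i₂) :
    ρ ∈ Gamma0 (N * q) := by
  rw [HeckeCosets.mem_Gamma0_iff] at hρ hγ ⊢
  have hqγ : (q : ℤ) ∣ (γ : Matrix (Fin 2) (Fin 2) ℤ) 1 0 :=
    Dvd.dvd.trans ⟨(N : ℤ), by push_cast; ring⟩ hγ
  have hqℓρ : (q : ℤ) ∣ (ℓ : ℤ) * (ρ : Matrix (Fin 2) (Fin 2) ℤ) 1 0 := by
    rcases i₁ with _ | j₁ <;> rcases i₂ with _ | j₂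
    · rw [HeckeCosets.none_mul, HeckeCosets.mul_none, HeckeCosets.of_eq_of_iff] at h
      obtain ⟨-, -, h10, -⟩ := h
      rw [h10]
      exact (hqγ.mul_right _).mul_left _
    · rw [HeckeCosets.none_mul, HeckeCosets.mul_some, HeckeCosets.of_eq_of_iff] at h
      obtain ⟨-, -, h10, -⟩ := h
      rw [h10]
      exact hqγ.mul_left _
    · rw [HeckeCosets.some_mul, HeckeCosets.mul_none, HeckeCosets.of_eq_of_iff] at h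
      obtain ⟨-, -, h10, -⟩ := h
      rw [h10]
      exact hqγ.mul_right _
    · rw [HeckeCosets.some_mul, HeckeCosets.mul_some, HeckeCosets.of_eq_of_iff] at h
      obtain ⟨-, -, h10, -⟩ := h
      rw [h10]
      exact hqγ
  have hcop : IsCoprime (q : ℤ) (ℓ : ℤ) :=
    Nat.isCoprime_iff_coprime.2 ((Nat.coprime_primes hq hℓ).2 hqℓ)
  have hqρ : (q : ℤ) ∣ (ρ : Matrix (Fin 2) (Fin 2) ℤ) 1 0 := hcop.dvd_of_dvd_mul_left hqℓρ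
  have hNq : IsCoprime (N : ℤ) (q : ℤ) :=
    Nat.isCoprime_iff_coprime.2 ((Nat.Prime.coprime_iff_not_dvd hq).2 hqN).symm
  rw [Nat.cast_mul]
  exact hNq.mul_dvd hρ hqρ

theorem s35_heckeT_traceA {N q ℓ : ℕ} [NeZero N] [NeZero q] (hq : q.Prime) (hqN : ¬ q ∣ N)
    (hℓ : ℓ.Prime) (hℓNq : ¬ ℓ ∣ N * q)
    (g : CuspForm (Gamma0 (N * q)) 2)
    (R : S35RightReps (Gamma0 (N * q)) (Gamma0 N) (Option (Fin q))) :
    ModularForm.heckeT 2 ℓ (∑ i, (g : ℍ → ℂ) ∣[(2 : ℤ)] (R.r i)) =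
      ∑ i, (ModularForm.heckeT 2 ℓ (g : ℍ → ℂ)) ∣[(2 : ℤ)] (R.r i) := by
  have hℓ0 : ℓ ≠ 0 := hℓ.ne_zero
  have hℓN : ¬ ℓ ∣ N := fun h => hℓNq (h.mul_right q)
  have hqℓ : q ≠ ℓ := by
    rintro rfl
    exact hℓNq (dvd_mul_left _ _)
  let j : SL(2, ℤ) →* GL (Fin 2) ℝ := Matrix.SpecialLinearGroup.mapGL ℝ
  let Φ : GL (Fin 2) ℝ → (ℍ → ℂ) := fun x => (g : ℍ → ℂ) ∣[(2 : ℤ)] x
  have ha : ∀ (i : Option (Fin ℓ)) (γ : SL(2, ℤ)), γ ∈ Gamma0 N →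
      ∃ (i' : Option (Fin ℓ)) (g' : SL(2, ℤ)), g' ∈ Gamma0 N ∧
        PeriodHecke.hGL ℓ i * j γ = j g' * PeriodHecke.hGL ℓ i' := by
    intro i γ hγ
    obtain ⟨k, g', hk⟩ := HeckeCosets.exists_step hℓ hℓN ⟨γ, hγ⟩ i
    exact ⟨k, g', g'.2, (s35hka_gl_iff hℓ0 i k γ g').mpr hk⟩
  have hb1 : ∀ (i₁ i₂ : Option (Fin ℓ)) (ρ γ : SL(2, ℤ)), ρ ∈ Gamma0 N → γ ∈ Gamma0 (N * q) →
      PeriodHecke.hGL ℓ i₁ * j ρ = j γ * PeriodHecke.hGL ℓ i₂ → ρ ∈ Gamma0 (N * q) := by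
    intro i₁ i₂ ρ γ hρ hγ h
    exact s35hka_mem hq hqN hℓ hqℓ hρ hγ ((s35hka_gl_iff hℓ0 i₁ i₂ ρ γ).mp h)
  have hb2 : ∀ (i₁ i₂ : Option (Fin ℓ)) (γ : SL(2, ℤ)), γ ∈ Gamma0 (N * q) →
      PeriodHecke.hGL ℓ i₁ = j γ * PeriodHecke.hGL ℓ i₂ → i₁ = i₂ := by
    intro i₁ i₂ γ _ h
    have h1 : PeriodHecke.hGL ℓ i₁ * j 1 = j γ * PeriodHecke.hGL ℓ i₂ := by
      rw [map_one, mul_one]
      exact h
    have h2 := (s35hka_gl_iff hℓ0 i₁ i₂ 1 γ).mp h1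
    rw [Matrix.SpecialLinearGroup.coe_one, Matrix.mul_one] at h2
    have h3 : (1 : Matrix (Fin 2) (Fin 2) ℤ) * heckeMat ℓ i₁ =
        (γ : Matrix (Fin 2) (Fin 2) ℤ) * heckeMat ℓ i₂ := by
      rw [Matrix.one_mul]
      exact h2
    exact (HeckeCosets.key hℓ.two_le Matrix.det_one (Matrix.SpecialLinearGroup.det_coe γ) h3).1
  have hΦ : ∀ (γ : SL(2, ℤ)) (x : GL (Fin 2) ℝ), γ ∈ Gamma0 (N * q) → Φ (j γ * x) = Φ x := by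
    intro γ x hγ
    show (g : ℍ → ℂ) ∣[(2 : ℤ)] (j γ * x) = (g : ℍ → ℂ) ∣[(2 : ℤ)] x
    rw [SlashAction.slash_mul,
      SlashInvariantForm.slash_action_eqn g _ (Subgroup.mem_map_of_mem _ hγ)]
  have key : ∑ i : Option (Fin ℓ), ∑ k, Φ (PeriodHecke.hGL ℓ i * j (R.r k)) =
      ∑ i : Option (Fin ℓ), ∑ k, Φ (j (R.r k) * PeriodHecke.hGL ℓ i) :=
    s35bij_sum j R (PeriodHecke.hGL ℓ) ha hb1 hb2 Φ hΦ
  have hL : ModularForm.heckeT 2 ℓ (∑ i, (g : ℍ → ℂ) ∣[(2 : ℤ)] (R.r i)) =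
      ∑ i : Option (Fin ℓ), ∑ k, Φ (j (R.r k) * PeriodHecke.hGL ℓ i) := by
    rw [s35hka_heckeT_eq_sum]
    refine Finset.sum_congr rfl fun i _ => ?_
    rw [SlashAction.sum_slash]
    refine Finset.sum_congr rfl fun k _ => ?_
    show ((g : ℍ → ℂ) ∣[(2 : ℤ)] (j (R.r k))) ∣[(2 : ℤ)] PeriodHecke.hGL ℓ i =
      (g : ℍ → ℂ) ∣[(2 : ℤ)] (j (R.r k) * PeriodHecke.hGL ℓ i)
    rw [SlashAction.slash_mul]
  have hR : ∑ i, (ModularForm.heckeT 2 ℓ (g : ℍ → ℂ)) ∣[(2 : ℤ)] (R.r i) =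
      ∑ i : Option (Fin ℓ), ∑ k, Φ (PeriodHecke.hGL ℓ i * j (R.r k)) := by
    rw [Finset.sum_comm]
    refine Finset.sum_congr rfl fun k _ => ?_
    rw [s35hka_heckeT_eq_sum]
    show (∑ i : Option (Fin ℓ), (g : ℍ → ℂ) ∣[(2 : ℤ)] PeriodHecke.hGL ℓ i) ∣[(2 : ℤ)]
        (j (R.r k)) =
      ∑ i : Option (Fin ℓ), (g : ℍ → ℂ) ∣[(2 : ℤ)] (PeriodHecke.hGL ℓ i * j (R.r k))
    rw [SlashAction.sum_slash]
    refine Finset.sum_congr rfl fun i _ => ?_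
    rw [SlashAction.slash_mul]
  rw [hL, hR, key]

end Fermat.Agent.S35
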