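import Fermat.Agent.S35.Defs
import Fermat.Agent.S42.PeriodHecke
import Fermat.Agent.S42.PeriodEigen

/-!
# P20 (S35), block LAT-MOD, sub-leaf (A2): the period map and the trace to level `N`

For a weight two cusp form `g` of level `Γ₀(N q)` and a system `R` of representatives of
`Γ₀(N q) \ Γ₀(N)`, if the cusp form `h` of level `Γ₀(N)` is the trace `∑ i, g ∣[2] r i` of `g`,
then the period homomorphism of `h` is the corestriction (transfer) of the period homomorphism
of `g` (`s35_periodMap_traceA`).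

The proof follows `Fermat.Agent.S42.periodMap_hecke`: if `G` is the equivariant primitive of `g`
then `w ↦ ∑ i, G (r i • w)` is a primitive of `h`, and the identity `r i * δ = elt δ i * r (idx δ i)`
turns its increment along `δ ∈ Γ₀(N)` into `∑ i, period_g (elt δ i)`.
-/

set_option autoImplicit false

namespace Fermat.Agent.S35

open CongruenceSubgroup ModularCurve AlgebraicCurve UpperHalfPlane
open Fermat.Agent.S31 Fermat.Agent.S42 Fermat.Agent.S30
open scoped MatrixGroups ModularForm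

/-- If `G` is a primitive of `g` then `w ↦ G (γ • w)` is a primitive of `g ∣[2] γ`, for
`γ ∈ SL(2, ℤ)`. -/
theorem s35pA_hasDerivAt_comp_sl {G g : ℍ → ℂ}
    (hG : ∀ τ : ℍ, HasDerivAt (G ∘ ofComplex) (g τ) (τ : ℂ)) (γ : SL(2, ℤ)) (τ : ℍ) :
    HasDerivAt ((fun w : ℍ => G (γ • w)) ∘ ofComplex) ((g ∣[(2 : ℤ)] γ) τ) (τ : ℂ) := by
  have hdet : ((γ : GL (Fin 2) ℝ) : Matrix (Fin 2) (Fin 2) ℝ).det = 1 :=
    (Matrix.SpecialLinearGroup.map (Int.castRingHom ℝ) γ).det_coe
  have h1 := PeriodHecke.hasDerivAt_comp_gl hG (g := (γ : GL (Fin 2) ℝ))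
    (by rw [hdet]; exact one_pos) τ
  rw [hdet] at h1
  have hval : g ((γ : GL (Fin 2) ℝ) • τ) *
      (((1 : ℝ) : ℂ) / denom (γ : GL (Fin 2) ℝ) (τ : ℂ) ^ 2) = (g ∣[(2 : ℤ)] γ) τ := by
    rw [ModularForm.SL_slash_apply, ModularGroup.sl_moeb, Complex.ofReal_one, one_div, zpow_neg]
    norm_cast
  rw [hval] at h1
  exact h1

/-- (A2) The period map of the trace of `g` to level `N` is the corestriction of the period map
of `g`. -/
theorem s35_periodMap_traceA {N q : ℕ} [NeZero N] [NeZero q]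
    (g : CuspForm (Gamma0 (N * q)) 2)
    (R : S35RightReps (Gamma0 (N * q)) (Gamma0 N) (Option (Fin q)))
    (h : CuspForm (Gamma0 N) 2)
    (hh : (h : ℍ → ℂ) = ∑ i, (g : ℍ → ℂ) ∣[(2 : ℤ)] (R.r i)) :
    periodMap N h = R.cores (periodMap (N * q) g) := by
  obtain ⟨G, hG⟩ := Fermat.Agent.S21.exists_hasEquivariantPrimitive (N * q) g
  obtain ⟨F', hF'⟩ := Fermat.Agent.S21.exists_hasEquivariantPrimitive N h
  rw [Fermat.Agent.S21.periodMap_eq_periodHom_of (N * q) g hG,
    Fermat.Agent.S21.periodMap_eq_periodHom_of N h hF']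
  refine AddMonoidHom.ext fun δ' => ?_
  obtain ⟨δ, rfl⟩ : ∃ δ : ↥(Gamma0 N), Additive.ofMul δ = δ' := ⟨Additive.toMul δ', rfl⟩
  rw [S35RightReps.cores_apply]
  simp only [Period.IsEquivariantPrimitive.periodHom_apply]
  -- `w ↦ ∑ i, G (r i • w)` is a primitive of `h`
  obtain ⟨c, hc⟩ := Fermat.Agent.S21.eq_add_const_of_hasDerivAt
    (G₁ := fun w : ℍ => ∑ i : Option (Fin q), G (R.r i • w)) (G₂ := F') (g := fun τ => h τ)
    (fun τ => by
      have h1 : ∀ i ∈ (Finset.univ : Finset (Option (Fin q))),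
          HasDerivAt ((fun w : ℍ => G (R.r i • w)) ∘ ofComplex)
            (((g : ℍ → ℂ) ∣[(2 : ℤ)] (R.r i)) τ) (τ : ℂ) :=
        fun i _ => s35pA_hasDerivAt_comp_sl hG.1 (R.r i) τ
      have h2 := HasDerivAt.fun_sum h1
      have hfun : (fun z : ℂ => ∑ i : Option (Fin q),
            ((fun w : ℍ => G (R.r i • w)) ∘ ofComplex) z)
          = (fun w : ℍ => ∑ i : Option (Fin q), G (R.r i • w)) ∘ ofComplex := by
        funext z
        simp only [Function.comp_apply]
      rw [hfun] at h2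
      have hval : (∑ i : Option (Fin q), ((g : ℍ → ℂ) ∣[(2 : ℤ)] (R.r i)) τ) = h τ := by
        have h3 := congrFun hh τ
        rw [Finset.sum_apply] at h3
        exact h3.symm
      rw [hval] at h2
      exact h2)
    hF'.1
  have e1 : hF'.2.2.1.period δ
      = F' ((δ : SL(2, ℤ)) • UpperHalfPlane.I) - F' UpperHalfPlane.I := rfl
  have e2 := hc ((δ : SL(2, ℤ)) • UpperHalfPlane.I)
  have e3 := hc UpperHalfPlane.I
  have e4 : ∀ i : Option (Fin q), G (R.r i • ((δ : SL(2, ℤ)) • UpperHalfPlane.I))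
      = hG.2.2.1.period (R.elt δ i) + G (R.r (R.perm δ i) • UpperHalfPlane.I) := by
    intro i
    rw [← mul_smul, ← R.elt_mul_r δ i, mul_smul, R.perm_apply,
      ← hG.2.2.1.sub_eq_period (R.elt δ i) (R.r (R.idx δ i) • UpperHalfPlane.I)]
    ring
  have e5 : ∑ i : Option (Fin q), G (R.r (R.perm δ i) • UpperHalfPlane.I)
      = ∑ i : Option (Fin q), G (R.r i • UpperHalfPlane.I) :=
    Equiv.sum_comp (R.perm δ) (fun i => G (R.r i • UpperHalfPlane.I))
  simp only [e4, Finset.sum_add_distrib] at e2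
  rw [e5] at e2
  rw [e1]
  linear_combination e3 - e2

end Fermat.Agent.S35
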