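import Fermat.Agent.S35.Defs
import Fermat.Agent.S42.PeriodHecke
import Fermat.Agent.S42.PeriodEigen

/-!
# P20 (S35), block LAT-MOD, leaf (A1): the trace form along `Γ₀(N q) ⊂ Γ₀(N)`

For a cusp form `g` of weight `2` and level `Γ₀(N q)` and any system `R` of representatives of
the right cosets `Γ₀(N q) \ Γ₀(N)`, the sum `∑ i, g ∣[2] (R.r i)` is a cusp form of level
`Γ₀(N)` (Mathlib's `CuspForm.trace`, reindexed along `R`).
-/

set_option autoImplicit false

namespace Fermat.Agent.S35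

open CongruenceSubgroup ModularCurve AlgebraicCurve UpperHalfPlane
open Fermat.Agent.S31 Fermat.Agent.S42 Fermat.Agent.S30
open scoped MatrixGroups ModularForm

open Matrix.SpecialLinearGroup in
/-- The trace of a weight `2` cusp form along `H ≤ G` (finite index subgroups of `SL(2, ℤ)`),
written as the sum of the translates by a system of right coset representatives. -/
theorem s35tra_exists_trace {H G : Subgroup SL(2, ℤ)} [H.FiniteIndex] {ι : Type*} [Fintype ι]
    (g : CuspForm H 2) (R : S35RightReps H G ι) :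
    ∃ h : CuspForm G 2, (h : ℍ → ℂ) = ∑ i, (g : ℍ → ℂ) ∣[(2 : ℤ)] (R.r i) := by
  have hle : (G.map (mapGL ℝ) : Subgroup (GL (Fin 2) ℝ)) ≤
      (mapGL ℝ : SL(2, ℤ) →* GL (Fin 2) ℝ).range := Subgroup.map_le_range _ _
  have : (H.map (mapGL ℝ) : Subgroup (GL (Fin 2) ℝ)).IsFiniteRelIndex (G.map (mapGL ℝ)) :=
    Subgroup.isFiniteRelIndex_of_le_right _ hle
  refine ⟨CuspForm.trace (G.map (mapGL ℝ)) g, ?_⟩
  rw [CuspForm.coe_trace]
  let _ : Fintype ((G.map (mapGL ℝ) : Subgroup (GL (Fin 2) ℝ)) ⧸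
      (H.map (mapGL ℝ) : Subgroup (GL (Fin 2) ℝ)).subgroupOf (G.map (mapGL ℝ))) :=
    Fintype.ofFinite _
  let e : ι → (G.map (mapGL ℝ) : Subgroup (GL (Fin 2) ℝ)) ⧸
      (H.map (mapGL ℝ) : Subgroup (GL (Fin 2) ℝ)).subgroupOf (G.map (mapGL ℝ)) :=
    fun i => QuotientGroup.mk
      ⟨mapGL ℝ (R.r i)⁻¹, Subgroup.mem_map_of_mem _ (G.inv_mem (R.mem i))⟩
  have he : Function.Bijective e := by
    constructor
    · intro i j hij
      apply R.inj
      have h1 := QuotientGroup.eq.mp hij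
      rw [Subgroup.mem_subgroupOf] at h1
      have h2 : mapGL ℝ (R.r i * (R.r j)⁻¹) ∈ H.map (mapGL ℝ) := by
        convert h1 using 1
        simp [map_mul, map_inv]
      exact (Subgroup.mem_map_iff_mem mapGL_injective).mp h2
    · intro c
      induction c using QuotientGroup.induction_on with
      | H x =>
        obtain ⟨x, hx⟩ := x
        obtain ⟨γ, hγ, rfl⟩ := Subgroup.mem_map.mp hx
        obtain ⟨i, hi⟩ := R.cover γ⁻¹ (G.inv_mem hγ)
        refine ⟨i, QuotientGroup.eq.mpr ?_⟩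
        rw [Subgroup.mem_subgroupOf]
        have h2 : mapGL ℝ (R.r i * γ) ∈ H.map (mapGL ℝ) := by
          apply Subgroup.mem_map_of_mem
          have h3 : R.r i * γ = (γ⁻¹ * (R.r i)⁻¹)⁻¹ := by group
          rw [h3]
          exact H.inv_mem hi
        convert h2 using 1
        simp [map_mul, map_inv]
  have hval : ∀ i, SlashInvariantForm.quotientFunc g (e i) = (g : ℍ → ℂ) ∣[(2 : ℤ)] (R.r i) := by
    intro i
    show (g : ℍ → ℂ) ∣[(2 : ℤ)] (mapGL ℝ (R.r i)⁻¹)⁻¹ = _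
    rw [map_inv, inv_inv]
    rfl
  rw [← he.sum_comp]
  exact Finset.sum_congr rfl fun i _ => hval i

/-- (A1) The trace form along `Γ₀(N q) ⊂ Γ₀(N)`. -/
theorem s35_exists_traceA {N q : ℕ} [NeZero N] [NeZero q]
    (g : CuspForm (Gamma0 (N * q)) 2)
    (R : S35RightReps (Gamma0 (N * q)) (Gamma0 N) (Option (Fin q))) :
    ∃ h : CuspForm (Gamma0 N) 2,
      (h : ℍ → ℂ) = ∑ i, (g : ℍ → ℂ) ∣[(2 : ℤ)] (R.r i) := by
  have : NeZero (N * q) := ⟨Nat.mul_ne_zero (NeZero.ne N) (NeZero.ne q)⟩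
  exact s35tra_exists_trace g R

end Fermat.Agent.S35
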