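import Fermat.Agent.S35.Defs
import Fermat.Agent.S35.LatTrA
import Fermat.Agent.S35.LatPerA
import Fermat.Agent.S35.LatHeckeA
import Fermat.Agent.S42.PeriodHecke
import Fermat.Agent.S42.PeriodEigen

/-!
# P20 (S35), block LAT-MOD, leaf (MA): the trace form along `Γ₀(N q) ⊂ Γ₀(N)`

Given a weight two cusp form `g` of level `Γ₀(N q)` which is an eigenvector of the Hecke operators
`T_ℓ`, `ℓ ∤ N q`, with eigenvalues `a ℓ`, and a system `R` of representatives of
`Γ₀(N q) \ Γ₀(N)`, the trace `h = ∑ i, g ∣[2] r i` is a cusp form of level `Γ₀(N)`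
(`s35_exists_traceA`), its period homomorphism is the corestriction of the period homomorphism
of `g` (`s35_periodMap_traceA`), and it is again an eigenvector of the `T_ℓ`, `ℓ ∤ N q`, with the
same eigenvalues, because the trace commutes with these Hecke operators (`s35_heckeT_traceA`).
-/

set_option autoImplicit false

namespace Fermat.Agent.S35

open CongruenceSubgroup ModularCurve AlgebraicCurve UpperHalfPlane
open Fermat.Agent.S31 Fermat.Agent.S42 Fermat.Agent.S30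
open scoped MatrixGroups ModularForm

/-- (MA) the trace form along `Γ₀(N q) ⊂ Γ₀(N)`. -/
theorem s35_exists_form_coresA {N q : ℕ} [NeZero N] [NeZero q] (hq : q.Prime) (hqN : ¬ q ∣ N)
    (g : CuspForm (Gamma0 (N * q)) 2) (a : ℕ → ℂ)
    (hg : ∀ ℓ : ℕ, ℓ.Prime → ¬ ℓ ∣ N * q →
      ∀ τ : ℍ, ModularForm.heckeT 2 ℓ (g : ℍ → ℂ) τ = a ℓ * g τ)
    (R : S35RightReps (Gamma0 (N * q)) (Gamma0 N) (Option (Fin q))) :
    ∃ h : CuspForm (Gamma0 N) 2, periodMap N h = R.cores (periodMap (N * q) g) ∧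
      ∀ ℓ : ℕ, ℓ.Prime → ¬ ℓ ∣ N * q →
        ∀ τ : ℍ, ModularForm.heckeT 2 ℓ (h : ℍ → ℂ) τ = a ℓ * h τ := by
  obtain ⟨h, hh⟩ := s35_exists_traceA g R
  refine ⟨h, s35_periodMap_traceA g R h hh, ?_⟩
  intro ℓ hℓ hℓNq τ
  rw [hh, s35_heckeT_traceA hq hqN hℓ hℓNq g R]
  have h1 : ModularForm.heckeT 2 ℓ (g : ℍ → ℂ) = a ℓ • (g : ℍ → ℂ) := by
    funext τ
    rw [hg ℓ hℓ hℓNq τ]
    rfl
  rw [h1]
  simp only [Finset.sum_apply]
  rw [Finset.mul_sum]
  refine Finset.sum_congr rfl fun i _ => ?_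
  rw [ModularForm.SL_smul_slash]
  rfl

end Fermat.Agent.S35
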