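import Fermat.Agent.S35.Defs
import Fermat.Agent.S42.PeriodHecke
import Fermat.Agent.S42.PeriodEigen

/-!
# P20 (S35), block LAT-MOD, leaf (B2): the period character of the `B`-side trace form

`g` a weight-2 cusp form of level `Γ₀(N q)`, `β = (1 0; 0 q)` (`ModularForm.heckeMatrix q 0`),
`f_B = g ∣[2] β` (so `f_B(w) = q⁻¹ g(w / q)`), which is invariant under
`Γ₀(N) ∩ Γ⁰(q) = s35_HB N q` because `β h = κ_B(h) β`.  If a cusp form `h` of level `Γ₀(N)` is the
trace `∑ i, f_B ∣[2] r_i` over a system of representatives of `s35_HB N q \ Γ₀(N)`, then its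
period character is the transfer of the period character of `g` transported by `κ_B`
(`s35_periodMap_traceB`).  Same proof as `S42.periodMap_hecke`.
-/

set_option autoImplicit false

namespace Fermat.Agent.S35

open CongruenceSubgroup ModularCurve AlgebraicCurve UpperHalfPlane
open Fermat.Agent.S31 Fermat.Agent.S42 Fermat.Agent.S30
open scoped MatrixGroups ModularForm

/-- The real matrix of `β = (1 0; 0 q)` is the image of the integral one. -/
theorem s35pB_val_beta {q : ℕ} (hq : q ≠ 0) :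
    ((ModularForm.heckeMatrix q 0 : GL (Fin 2) ℝ) : Matrix (Fin 2) (Fin 2) ℝ)
      = (!![1, 0; 0, (q : ℤ)] : Matrix (Fin 2) (Fin 2) ℤ).map (Int.castRingHom ℝ) := by
  rw [ModularForm.val_heckeMatrix hq]
  ext a b
  fin_cases a <;> fin_cases b <;> simp

/-- `β h = κ_B(h) β` in `GL (Fin 2) ℝ`, for `β = (1 0; 0 q)` and `h ∈ Γ₀(N) ∩ Γ⁰(q)`. -/
theorem s35pB_conj {N q : ℕ} (hq : q ≠ 0) (h : ↥(s35_HB N q)) :
    ModularForm.heckeMatrix q 0 * (((h : SL(2, ℤ)) : GL (Fin 2) ℝ))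
      = ((((s35_kappaB N q h : ↥(Gamma0 (N * q))) : SL(2, ℤ)) : GL (Fin 2) ℝ))
          * ModularForm.heckeMatrix q 0 := by
  apply Units.ext
  rw [Units.val_mul, Units.val_mul, s35pB_val_beta hq]
  obtain ⟨b, hb⟩ := h.2.2
  have hq' : (q : ℤ) ≠ 0 := by exact_mod_cast hq
  have key : (!![1, 0; 0, (q : ℤ)] : Matrix (Fin 2) (Fin 2) ℤ)
        * ((h : SL(2, ℤ)) : Matrix (Fin 2) (Fin 2) ℤ)
      = s35_matK q (h : SL(2, ℤ)) * !![1, 0; 0, (q : ℤ)] := by
    ext i j
    fin_cases i <;> fin_cases j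
    · simp [s35_matK, Matrix.mul_apply, Fin.sum_univ_two]
    · simp only [s35_matK, Matrix.mul_apply, Fin.sum_univ_two, Fin.mk_one, Fin.isValue,
        Fin.zero_eta, Matrix.of_apply, Matrix.cons_val', Matrix.cons_val_zero,
        Matrix.cons_val_one, Matrix.cons_val_fin_one]
      rw [hb, Int.mul_ediv_cancel_left _ hq']
      ring
    · simp [s35_matK, Matrix.mul_apply, Fin.sum_univ_two]
    · simp [s35_matK, Matrix.mul_apply, Fin.sum_univ_two]
      ring
  have h2 := congrArg (fun M : Matrix (Fin 2) (Fin 2) ℤ => M.map (Int.castRingHom ℝ)) key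
  simp only [Matrix.map_mul] at h2
  exact h2

/-- `β (h w) = κ_B(h) (β w)` on the upper half plane. -/
theorem s35pB_smul {N q : ℕ} (hq : q ≠ 0) (h : ↥(s35_HB N q)) (τ : ℍ) :
    ModularForm.heckeMatrix q 0 • ((h : SL(2, ℤ)) • τ)
      = ((s35_kappaB N q h : ↥(Gamma0 (N * q))) : SL(2, ℤ))
          • (ModularForm.heckeMatrix q 0 • τ) := by
  rw [ModularGroup.sl_moeb, ModularGroup.sl_moeb, ← mul_smul, ← mul_smul, s35pB_conj hq h]

/-- If `F` is a primitive of `f` then `w ↦ F (β w)` is a primitive of `f ∣[2] β`. -/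
theorem s35pB_hasDerivAt_beta {q : ℕ} (hq : q ≠ 0) {F f : ℍ → ℂ}
    (hF : ∀ τ : ℍ, HasDerivAt (F ∘ ofComplex) (f τ) (τ : ℂ)) (τ : ℍ) :
    HasDerivAt ((fun w : ℍ => F (ModularForm.heckeMatrix q 0 • w)) ∘ ofComplex)
      ((f ∣[(2 : ℤ)] (ModularForm.heckeMatrix q 0)) τ) (τ : ℂ) := by
  have hqC : (q : ℂ) ≠ 0 := by exact_mod_cast hq
  have hpos : 0 < ((ModularForm.heckeMatrix q 0 : GL (Fin 2) ℝ) :
      Matrix (Fin 2) (Fin 2) ℝ).det := by
    have h := ModularForm.det_heckeMatrix_pos q 0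
    rwa [Matrix.GeneralLinearGroup.val_det_apply] at h
  have h1 := PeriodHecke.hasDerivAt_comp_gl hF hpos τ
  have hdet : (((ModularForm.heckeMatrix q 0 : GL (Fin 2) ℝ) :
      Matrix (Fin 2) (Fin 2) ℝ).det : ℝ) = (q : ℝ) := by
    rw [← Matrix.GeneralLinearGroup.val_det_apply]
    exact ModularForm.det_heckeMatrix hq 0
  rw [hdet, ModularForm.denom_heckeMatrix hq] at h1
  rw [ModularForm.slash_heckeMatrix_apply 2 hq]
  have e : f (ModularForm.heckeMatrix q 0 • τ) * (((q : ℝ) : ℂ) / (q : ℂ) ^ 2)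
      = (q : ℂ)⁻¹ * f (ModularForm.heckeMatrix q 0 • τ) := by
    push_cast
    field_simp
  rw [← e]
  exact h1

/-- **(B2)** The period character of the `B`-side trace form is the transfer of the transported
period character of `g`. -/
theorem s35_periodMap_traceB {N q : ℕ} [NeZero N] [NeZero q]
    (g : CuspForm (Gamma0 (N * q)) 2)
    (R : S35RightReps (s35_HB N q) (Gamma0 N) (Option (Fin q)))
    (h : CuspForm (Gamma0 N) 2)
    (hh : (h : ℍ → ℂ) = ∑ i, ((g : ℍ → ℂ) ∣[(2 : ℤ)] (ModularForm.heckeMatrix q 0))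
      ∣[(2 : ℤ)] (R.r i)) :
    periodMap N h = R.cores (s35_charB N q (periodMap (N * q) g)) := by
  have hq0 : q ≠ 0 := NeZero.ne q
  obtain ⟨F, hF⟩ := Fermat.Agent.S21.exists_hasEquivariantPrimitive (N * q) g
  obtain ⟨F', hF'⟩ := Fermat.Agent.S21.exists_hasEquivariantPrimitive N h
  rw [Fermat.Agent.S21.periodMap_eq_periodHom_of (N * q) g hF,
    Fermat.Agent.S21.periodMap_eq_periodHom_of N h hF']
  refine AddMonoidHom.ext fun δ' => ?_
  obtain ⟨δ, rfl⟩ : ∃ δ : ↥(Gamma0 N), Additive.ofMul δ = δ' := ⟨Additive.toMul δ', rfl⟩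
  rw [R.cores_apply]
  simp only [s35_charB_apply, Period.IsEquivariantPrimitive.periodHom_apply]
  have hFβ : ∀ τ : ℍ, HasDerivAt ((fun w : ℍ => F (ModularForm.heckeMatrix q 0 • w)) ∘ ofComplex)
      (((g : ℍ → ℂ) ∣[(2 : ℤ)] (ModularForm.heckeMatrix q 0)) τ) (τ : ℂ) :=
    fun τ => s35pB_hasDerivAt_beta hq0 hF.1 τ
  have hsum : ∀ τ : ℍ, HasDerivAt
      ((fun w : ℍ => ∑ i, F (ModularForm.heckeMatrix q 0 • (R.r i • w))) ∘ ofComplex)
      (h τ) (τ : ℂ) := by
    intro τ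
    have h1 : ∀ i ∈ (Finset.univ : Finset (Option (Fin q))),
        HasDerivAt ((fun w : ℍ => F (ModularForm.heckeMatrix q 0 • (R.r i • w))) ∘ ofComplex)
          ((((g : ℍ → ℂ) ∣[(2 : ℤ)] (ModularForm.heckeMatrix q 0)) ∣[(2 : ℤ)] (R.r i)) τ)
          (τ : ℂ) :=
      fun i _ => Fermat.Agent.S21.hasDerivAt_comp_smul hFβ (R.r i) τ
    have h2 := HasDerivAt.fun_sum h1
    have hfun : (fun z : ℂ => ∑ i : Option (Fin q),
          ((fun w : ℍ => F (ModularForm.heckeMatrix q 0 • (R.r i • w))) ∘ ofComplex) z)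
        = (fun w : ℍ => ∑ i : Option (Fin q),
            F (ModularForm.heckeMatrix q 0 • (R.r i • w))) ∘ ofComplex := by
      funext z
      simp only [Function.comp_apply]
    rw [hfun] at h2
    have hval : h τ = ∑ i, (((g : ℍ → ℂ) ∣[(2 : ℤ)] (ModularForm.heckeMatrix q 0))
        ∣[(2 : ℤ)] (R.r i)) τ := by
      have h3 := congrFun hh τ
      rw [h3, Finset.sum_apply]
    rw [hval]
    exact h2
  obtain ⟨c, hc⟩ := Fermat.Agent.S21.eq_add_const_of_hasDerivAt
    (G₁ := fun w : ℍ => ∑ i, F (ModularForm.heckeMatrix q 0 • (R.r i • w))) (G₂ := F')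
    (g := fun τ => h τ) hsum hF'.1
  have e1 : hF'.2.2.1.period δ
      = F' ((δ : SL(2, ℤ)) • UpperHalfPlane.I) - F' UpperHalfPlane.I := rfl
  have e2 := hc ((δ : SL(2, ℤ)) • UpperHalfPlane.I)
  have e3 := hc UpperHalfPlane.I
  have e4 : ∀ i : Option (Fin q),
      F (ModularForm.heckeMatrix q 0 • (R.r i • ((δ : SL(2, ℤ)) • UpperHalfPlane.I)))
        = hF.2.2.1.period (s35_kappaB N q (R.elt δ i))
          + F (ModularForm.heckeMatrix q 0 • (R.r (R.idx δ i) • UpperHalfPlane.I)) := by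
    intro i
    have hmul : R.r i • ((δ : SL(2, ℤ)) • UpperHalfPlane.I)
        = ((R.elt δ i : ↥(s35_HB N q)) : SL(2, ℤ)) • (R.r (R.idx δ i) • UpperHalfPlane.I) := by
      rw [← mul_smul, ← mul_smul, R.elt_mul_r δ i]
    rw [hmul, s35pB_smul hq0, ← hF.2.2.1.sub_eq_period (s35_kappaB N q (R.elt δ i))
      (ModularForm.heckeMatrix q 0 • (R.r (R.idx δ i) • UpperHalfPlane.I))]
    ring
  have e5 : ∑ i : Option (Fin q),
        F (ModularForm.heckeMatrix q 0 • (R.r (R.idx δ i) • UpperHalfPlane.I))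
      = ∑ i : Option (Fin q), F (ModularForm.heckeMatrix q 0 • (R.r i • UpperHalfPlane.I)) :=
    Equiv.sum_comp (R.perm δ)
      (fun i => F (ModularForm.heckeMatrix q 0 • (R.r i • UpperHalfPlane.I)))
  simp only [e4, Finset.sum_add_distrib] at e2
  rw [e5] at e2
  rw [e1]
  linear_combination e3 - e2

end Fermat.Agent.S35
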