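import Fermat.Agent.S35.Defs
import Fermat.Agent.S35.LatFam
import Fermat.Agent.S35.LatPerB
import Fermat.Agent.S42.PeriodHecke
import Fermat.Agent.S42.PeriodEigen

/-!
# P20 (S35), block LAT-MOD, leaf (B3)

The Hecke operator `T_ℓ` (`ℓ ∤ N q`) commutes with the second degeneracy trace
`g ↦ ∑ i, (g ∣ β) ∣ r_i` from level `N q` to level `N`, where `β = (1 0; 0 q)` and `r` is a
system of representatives of `(Γ₀(N) ∩ Γ⁰(q)) \ Γ₀(N)`.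

Both sides are sums of slashes of `g` by the two families `M_i β r_k` and `β r_k M_j`
(`M_i` the `ℓ + 1` Hecke matrices), and the two families agree up to left multiplication by
`Γ₀(N q)` and a bijection of the index sets (`s35_fam_sum_eq`).
-/

set_option autoImplicit false

namespace Fermat.Agent.S35

open CongruenceSubgroup ModularCurve AlgebraicCurve UpperHalfPlane
open Fermat.Agent.S31 Fermat.Agent.S42 Fermat.Agent.S30
open scoped MatrixGroups ModularForm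

/-- `T_ℓ` as a sum of slashes over the `ℓ + 1` Hecke matrices. -/
theorem s35hB_heckeT_eq_sum (ℓ : ℕ) (f : ℍ → ℂ) :
    ModularForm.heckeT 2 ℓ f = ∑ i : Option (Fin ℓ), f ∣[(2 : ℤ)] PeriodHecke.hGL ℓ i := by
  rw [ModularForm.heckeT_def, Fintype.sum_option, PeriodHecke.hGL_none, add_comm]
  congr 1
  exact (Fin.sum_univ_eq_sum_range (fun j => f ∣[(2 : ℤ)] ModularForm.heckeMatrix ℓ j) ℓ).symm

/-- The real matrix of the image of `γ ∈ SL(2, ℤ)` in `GL (Fin 2) ℝ`. -/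
theorem s35hB_val_sl (γ : SL(2, ℤ)) :
    ((Matrix.SpecialLinearGroup.mapGL ℝ γ : GL (Fin 2) ℝ) : Matrix (Fin 2) (Fin 2) ℝ) =
      (γ : Matrix (Fin 2) (Fin 2) ℤ).map (Int.castRingHom ℝ) := rfl

/-- `β h = κ_B(h) β` for integer matrices, `β = (1 0; 0 q)`, `q ∣ h 0 1`. -/
theorem s35hB_beta_mul {q : ℕ} (hq : q ≠ 0) (h : SL(2, ℤ))
    (hb : (q : ℤ) ∣ (h : Matrix (Fin 2) (Fin 2) ℤ) 0 1) :
    (!![1, 0; 0, (q : ℤ)] : Matrix (Fin 2) (Fin 2) ℤ) * (h : Matrix (Fin 2) (Fin 2) ℤ)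
      = s35_matK q h * !![1, 0; 0, (q : ℤ)] := by
  obtain ⟨b, hb⟩ := hb
  have hq' : (q : ℤ) ≠ 0 := by exact_mod_cast hq
  ext i j
  fin_cases i <;> fin_cases j
  · simp [s35_matK, Matrix.mul_apply, Fin.sum_univ_two]
  · simp only [s35_matK, Matrix.mul_apply, Fin.sum_univ_two, Fin.mk_one, Fin.isValue,
      Fin.zero_eta, Matrix.of_apply, Matrix.cons_val', Matrix.cons_val_zero,
      Matrix.cons_val_one, Matrix.cons_val_fin_one]
    rw [hb, Int.mul_ediv_cancel_left _ hq']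
    ring
  · simp [s35_matK, Matrix.mul_apply, Fin.sum_univ_two]
  · simp [s35_matK, Matrix.mul_apply, Fin.sum_univ_two]
    ring

/-- Comparing upper right entries in `M_i β P = A β`. -/
theorem s35hB_dvd_upper {q ℓ : ℕ} (hcop : IsCoprime (q : ℤ) (ℓ : ℤ)) {i : Option (Fin ℓ)}
    {P A : Matrix (Fin 2) (Fin 2) ℤ}
    (h : heckeMat ℓ i * !![1, 0; 0, (q : ℤ)] * P = A * !![1, 0; 0, (q : ℤ)]) :
    (q : ℤ) ∣ P 0 1 := by
  have h01 := congrFun (congrFun h 0) 1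
  rcases i with _ | j
  · simp [heckeMat, Matrix.mul_apply, Fin.sum_univ_two] at h01
    have h1 : (q : ℤ) ∣ (ℓ : ℤ) * P 0 1 := ⟨A 0 1, by rw [h01]; ring⟩
    exact hcop.dvd_of_dvd_mul_left h1
  · simp [heckeMat, Matrix.mul_apply, Fin.sum_univ_two] at h01
    exact ⟨A 0 1 - ((j : ℕ) : ℤ) * P 1 1, by linear_combination h01⟩

/-- (E1), integer form: `M_i β r_k = κ_B(h) β r_{k'} M_{j'}` with `h ∈ Γ₀(N) ∩ Γ⁰(q)`. -/
theorem s35hB_exists_step {N q ℓ : ℕ} (hq : q ≠ 0) (hℓ : ℓ.Prime) (hℓN : ¬ ℓ ∣ N)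
    (R : S35RightReps (s35_HB N q) (Gamma0 N) (Option (Fin q)))
    (i : Option (Fin ℓ)) (k : Option (Fin q)) :
    ∃ (k' : Option (Fin q)) (j' : Option (Fin ℓ)) (h : ↥(s35_HB N q)),
      heckeMat ℓ i * !![1, 0; 0, (q : ℤ)] * ((R.r k : SL(2, ℤ)) : Matrix (Fin 2) (Fin 2) ℤ) =
        s35_matK q (h : SL(2, ℤ)) *
          (!![1, 0; 0, (q : ℤ)] * ((R.r k' : SL(2, ℤ)) : Matrix (Fin 2) (Fin 2) ℤ) *
            heckeMat ℓ j') := by
  have hcop : Nat.Coprime N ℓ := ((Nat.Prime.coprime_iff_not_dvd hℓ).2 hℓN).symm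
  -- `M_i β = β M̃_i`
  obtain ⟨Mt, hMtdet, hMt10, hMt⟩ : ∃ Mt : Matrix (Fin 2) (Fin 2) ℤ, Mt.det = (ℓ : ℤ) ∧
      Mt 1 0 = 0 ∧ heckeMat ℓ i * !![1, 0; 0, (q : ℤ)] = !![1, 0; 0, (q : ℤ)] * Mt := by
    rcases i with _ | j
    · refine ⟨!![(ℓ : ℤ), 0; 0, 1], by simp [Matrix.det_fin_two_of], by simp, ?_⟩
      ext a b
      fin_cases a <;> fin_cases b <;> simp [heckeMat, Matrix.mul_apply, Fin.sum_univ_two]
    · refine ⟨!![1, (q : ℤ) * ((j : ℕ) : ℤ); 0, (ℓ : ℤ)], by simp [Matrix.det_fin_two_of],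
        by simp, ?_⟩
      ext a b
      fin_cases a <;> fin_cases b <;> simp [heckeMat, Matrix.mul_apply, Fin.sum_univ_two] <;>
        ring
  have hdet : (Mt * ((R.r k : SL(2, ℤ)) : Matrix (Fin 2) (Fin 2) ℤ)).det = (ℓ : ℤ) := by
    rw [Matrix.det_mul, hMtdet, Matrix.SpecialLinearGroup.det_coe, mul_one]
  obtain ⟨j', g', hg'⟩ := HeckeCosets.exists_factor hℓ _ hdet
  have hN : (N : ℤ) ∣ (Mt * ((R.r k : SL(2, ℤ)) : Matrix (Fin 2) (Fin 2) ℤ)) 1 0 := by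
    rw [Matrix.mul_apply, Fin.sum_univ_two, hMt10, zero_mul, zero_add]
    exact Dvd.dvd.mul_left (HeckeCosets.mem_Gamma0_iff.1 (R.mem k)) _
  have hg'N : g' ∈ Gamma0 N :=
    HeckeCosets.mem_Gamma0_iff.2 (HeckeCosets.dvd_of_factor hcop hg' hN)
  obtain ⟨k', hk'⟩ := R.cover g' hg'N
  refine ⟨k', j', ⟨g' * (R.r k')⁻¹, hk'⟩, ?_⟩
  have hg'eq : (g' : Matrix (Fin 2) (Fin 2) ℤ) =
      ((g' * (R.r k')⁻¹ : SL(2, ℤ)) : Matrix (Fin 2) (Fin 2) ℤ) *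
        ((R.r k' : SL(2, ℤ)) : Matrix (Fin 2) (Fin 2) ℤ) := by
    rw [← Matrix.SpecialLinearGroup.coe_mul, inv_mul_cancel_right]
  calc heckeMat ℓ i * !![1, 0; 0, (q : ℤ)] * ((R.r k : SL(2, ℤ)) : Matrix (Fin 2) (Fin 2) ℤ)
      = !![1, 0; 0, (q : ℤ)] * (Mt * ((R.r k : SL(2, ℤ)) : Matrix (Fin 2) (Fin 2) ℤ)) := by
        rw [hMt, Matrix.mul_assoc]
    _ = !![1, 0; 0, (q : ℤ)] * ((g' : Matrix (Fin 2) (Fin 2) ℤ) * heckeMat ℓ j') := by rw [hg']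
    _ = (!![1, 0; 0, (q : ℤ)] * ((g' * (R.r k')⁻¹ : SL(2, ℤ)) : Matrix (Fin 2) (Fin 2) ℤ)) *
          (((R.r k' : SL(2, ℤ)) : Matrix (Fin 2) (Fin 2) ℤ) * heckeMat ℓ j') := by
        rw [hg'eq]
        simp only [Matrix.mul_assoc]
    _ = (s35_matK q (g' * (R.r k')⁻¹) * !![1, 0; 0, (q : ℤ)]) *
          (((R.r k' : SL(2, ℤ)) : Matrix (Fin 2) (Fin 2) ℤ) * heckeMat ℓ j') := by
        rw [s35hB_beta_mul hq _ (s35_mem_HB.mp hk').2]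
    _ = s35_matK q (g' * (R.r k')⁻¹) *
          (!![1, 0; 0, (q : ℤ)] * ((R.r k' : SL(2, ℤ)) : Matrix (Fin 2) (Fin 2) ℤ) *
            heckeMat ℓ j') := by
        simp only [Matrix.mul_assoc]

/-- Transport of the identity of (E1) to `GL (Fin 2) ℝ`. -/
theorem s35hB_toGL {N q ℓ : ℕ} (hq : q ≠ 0) (hℓ : ℓ ≠ 0) (i j' : Option (Fin ℓ))
    (r r' : SL(2, ℤ)) (h : ↥(s35_HB N q))
    (hint : heckeMat ℓ i * !![1, 0; 0, (q : ℤ)] * (r : Matrix (Fin 2) (Fin 2) ℤ) =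
      s35_matK q (h : SL(2, ℤ)) *
        (!![1, 0; 0, (q : ℤ)] * (r' : Matrix (Fin 2) (Fin 2) ℤ) * heckeMat ℓ j')) :
    PeriodHecke.hGL ℓ i * ModularForm.heckeMatrix q 0 * Matrix.SpecialLinearGroup.mapGL ℝ r =
      Matrix.SpecialLinearGroup.mapGL ℝ ((s35_kappaB N q h : ↥(Gamma0 (N * q))) : SL(2, ℤ)) *
        (ModularForm.heckeMatrix q 0 * Matrix.SpecialLinearGroup.mapGL ℝ r' *
          PeriodHecke.hGL ℓ j') := by
  apply Units.ext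
  simp only [Units.val_mul]
  rw [PeriodHecke.val_hGL hℓ, PeriodHecke.val_hGL hℓ, s35pB_val_beta hq, s35hB_val_sl,
    s35hB_val_sl, s35hB_val_sl, s35_coe_kappaB]
  simp only [← Matrix.map_mul]
  rw [hint]

/-- Transport of an identity `M_{i₁} β ρ = γ M_{i₂} β` from `GL (Fin 2) ℝ` to integer matrices. -/
theorem s35hB_ofGL {q ℓ : ℕ} (hq : q ≠ 0) (hℓ : ℓ ≠ 0) (i₁ i₂ : Option (Fin ℓ)) (ρ γ : SL(2, ℤ))
    (h : PeriodHecke.hGL ℓ i₁ * ModularForm.heckeMatrix q 0 *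
        Matrix.SpecialLinearGroup.mapGL ℝ ρ =
      Matrix.SpecialLinearGroup.mapGL ℝ γ * PeriodHecke.hGL ℓ i₂ *
        ModularForm.heckeMatrix q 0) :
    heckeMat ℓ i₁ * !![1, 0; 0, (q : ℤ)] * (ρ : Matrix (Fin 2) (Fin 2) ℤ) =
      (γ : Matrix (Fin 2) (Fin 2) ℤ) * heckeMat ℓ i₂ * !![1, 0; 0, (q : ℤ)] := by
  have h' := congrArg Units.val h
  simp only [Units.val_mul] at h'
  rw [PeriodHecke.val_hGL hℓ, PeriodHecke.val_hGL hℓ, s35pB_val_beta hq, s35hB_val_sl,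
    s35hB_val_sl] at h'
  simp only [← Matrix.map_mul] at h'
  exact Matrix.map_injective (Int.castRingHom ℝ).injective_int h'

/-- Transport of an identity `M_{i₁} = γ M_{i₂}` from `GL (Fin 2) ℝ` to integer matrices. -/
theorem s35hB_ofGL' {ℓ : ℕ} (hℓ : ℓ ≠ 0) (i₁ i₂ : Option (Fin ℓ)) (γ : SL(2, ℤ))
    (h : PeriodHecke.hGL ℓ i₁ = Matrix.SpecialLinearGroup.mapGL ℝ γ * PeriodHecke.hGL ℓ i₂) :
    heckeMat ℓ i₁ = (γ : Matrix (Fin 2) (Fin 2) ℤ) * heckeMat ℓ i₂ := by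
  have h' := congrArg Units.val h
  simp only [Units.val_mul] at h'
  rw [PeriodHecke.val_hGL hℓ, PeriodHecke.val_hGL hℓ, s35hB_val_sl] at h'
  simp only [← Matrix.map_mul] at h'
  exact Matrix.map_injective (Int.castRingHom ℝ).injective_int h'

/-- **LAT-MOD (B3).** For a prime `ℓ ∤ N q`, the Hecke operator `T_ℓ` commutes with the second
degeneracy trace `g ↦ ∑ i, (g ∣ β) ∣ r_i` (`β = (1 0; 0 q)`, `r` representatives of
`(Γ₀(N) ∩ Γ⁰(q)) \ Γ₀(N)`) on cusp forms of weight 2 and level `Γ₀(N q)`. -/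
theorem s35_heckeT_traceB {N q : ℕ} [NeZero N] [NeZero q] (hq : q.Prime) (hqN : ¬ q ∣ N)
    (g : CuspForm (Gamma0 (N * q)) 2)
    (R : S35RightReps (s35_HB N q) (Gamma0 N) (Option (Fin q)))
    (ℓ : ℕ) (hℓ : ℓ.Prime) (hℓN : ¬ ℓ ∣ N * q) :
    ModularForm.heckeT 2 ℓ
        (∑ i, ((g : ℍ → ℂ) ∣[(2 : ℤ)] (ModularForm.heckeMatrix q 0)) ∣[(2 : ℤ)] (R.r i)) =
      ∑ i, ((ModularForm.heckeT 2 ℓ (g : ℍ → ℂ)) ∣[(2 : ℤ)] (ModularForm.heckeMatrix q 0))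
        ∣[(2 : ℤ)] (R.r i) := by
  have _ := hqN
  have hℓ0 : ℓ ≠ 0 := hℓ.ne_zero
  have hq0 : q ≠ 0 := hq.ne_zero
  have hℓN' : ¬ ℓ ∣ N := fun h => hℓN (h.mul_right q)
  have hqℓ : q ≠ ℓ := by
    rintro rfl
    exact hℓN (dvd_mul_left _ _)
  have hcop : IsCoprime (q : ℤ) (ℓ : ℤ) :=
    Nat.isCoprime_iff_coprime.2 ((Nat.coprime_primes hq hℓ).2 hqℓ)
  let j : SL(2, ℤ) →* GL (Fin 2) ℝ := Matrix.SpecialLinearGroup.mapGL ℝ
  -- the two sums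
  have hL : ModularForm.heckeT 2 ℓ
        (∑ k, ((g : ℍ → ℂ) ∣[(2 : ℤ)] (ModularForm.heckeMatrix q 0)) ∣[(2 : ℤ)] (R.r k)) =
      ∑ b : Option (Fin q) × Option (Fin ℓ), (g : ℍ → ℂ) ∣[(2 : ℤ)]
        (ModularForm.heckeMatrix q 0 * j (R.r b.1) * PeriodHecke.hGL ℓ b.2) := by
    rw [s35hB_heckeT_eq_sum, Fintype.sum_prod_type_right]
    refine Finset.sum_congr rfl fun i _ => ?_
    rw [SlashAction.sum_slash]
    refine Finset.sum_congr rfl fun k _ => ?_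
    show (((g : ℍ → ℂ) ∣[(2 : ℤ)] (ModularForm.heckeMatrix q 0)) ∣[(2 : ℤ)] (j (R.r k)))
        ∣[(2 : ℤ)] PeriodHecke.hGL ℓ i =
      (g : ℍ → ℂ) ∣[(2 : ℤ)] (ModularForm.heckeMatrix q 0 * j (R.r k) * PeriodHecke.hGL ℓ i)
    rw [SlashAction.slash_mul, SlashAction.slash_mul]
  have hR : ∑ k, ((ModularForm.heckeT 2 ℓ (g : ℍ → ℂ)) ∣[(2 : ℤ)]
        (ModularForm.heckeMatrix q 0)) ∣[(2 : ℤ)] (R.r k) =
      ∑ a : Option (Fin ℓ) × Option (Fin q), (g : ℍ → ℂ) ∣[(2 : ℤ)]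
        (PeriodHecke.hGL ℓ a.1 * ModularForm.heckeMatrix q 0 * j (R.r a.2)) := by
    rw [Fintype.sum_prod_type_right]
    refine Finset.sum_congr rfl fun k _ => ?_
    rw [s35hB_heckeT_eq_sum, SlashAction.sum_slash]
    show (∑ i : Option (Fin ℓ), ((g : ℍ → ℂ) ∣[(2 : ℤ)] PeriodHecke.hGL ℓ i) ∣[(2 : ℤ)]
        (ModularForm.heckeMatrix q 0)) ∣[(2 : ℤ)] (j (R.r k)) =
      ∑ i : Option (Fin ℓ), (g : ℍ → ℂ) ∣[(2 : ℤ)]
        (PeriodHecke.hGL ℓ i * ModularForm.heckeMatrix q 0 * j (R.r k))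
    rw [SlashAction.sum_slash]
    refine Finset.sum_congr rfl fun i _ => ?_
    rw [SlashAction.slash_mul, SlashAction.slash_mul]
  rw [hL, hR]
  symm
  refine s35_fam_sum_eq (g : ℍ → ℂ) ((Gamma0 (N * q)).map j) ?_ ?_
    (fun a : Option (Fin ℓ) × Option (Fin q) =>
      PeriodHecke.hGL ℓ a.1 * ModularForm.heckeMatrix q 0 * j (R.r a.2))
    (fun b : Option (Fin q) × Option (Fin ℓ) =>
      ModularForm.heckeMatrix q 0 * j (R.r b.1) * PeriodHecke.hGL ℓ b.2) ?_ ?_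
  · -- invariance of `g`
    intro γ hγ
    exact SlashInvariantForm.slash_action_eqn g γ hγ
  · -- cardinalities
    rw [Fintype.card_prod, Fintype.card_prod, mul_comm]
  · -- (E1)
    rintro ⟨i, k⟩
    obtain ⟨k', j', h, hint⟩ := s35hB_exists_step hq0 hℓ hℓN' R i k
    refine ⟨(k', j'), ?_⟩
    have e := s35hB_toGL hq0 hℓ0 i j' (R.r k) (R.r k') h hint
    show PeriodHecke.hGL ℓ i * ModularForm.heckeMatrix q 0 * j (R.r k) *
      (ModularForm.heckeMatrix q 0 * j (R.r k') * PeriodHecke.hGL ℓ j')⁻¹ ∈ (Gamma0 (N * q)).map j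
    rw [show PeriodHecke.hGL ℓ i * ModularForm.heckeMatrix q 0 * j (R.r k) =
      j ((s35_kappaB N q h : ↥(Gamma0 (N * q))) : SL(2, ℤ)) *
        (ModularForm.heckeMatrix q 0 * j (R.r k') * PeriodHecke.hGL ℓ j') from e,
      mul_inv_cancel_right]
    exact Subgroup.mem_map_of_mem j (s35_kappaB N q h).2
  · -- (E2)
    rintro ⟨i₁, k₁⟩ ⟨i₂, k₂⟩ hmem
    obtain ⟨γ, hγ, hγeq⟩ := Subgroup.mem_map.mp hmem
    have e : PeriodHecke.hGL ℓ i₁ * ModularForm.heckeMatrix q 0 * j (R.r k₁) =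
        j γ * (PeriodHecke.hGL ℓ i₂ * ModularForm.heckeMatrix q 0 * j (R.r k₂)) := by
      rw [hγeq]
      show _ = PeriodHecke.hGL ℓ i₁ * ModularForm.heckeMatrix q 0 * j (R.r k₁) *
        (PeriodHecke.hGL ℓ i₂ * ModularForm.heckeMatrix q 0 * j (R.r k₂))⁻¹ *
        (PeriodHecke.hGL ℓ i₂ * ModularForm.heckeMatrix q 0 * j (R.r k₂))
      rw [inv_mul_cancel_right]
    -- `k₁ = k₂`
    have e2 : PeriodHecke.hGL ℓ i₁ * ModularForm.heckeMatrix q 0 *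
        j (R.r k₁ * (R.r k₂)⁻¹) =
        j γ * PeriodHecke.hGL ℓ i₂ * ModularForm.heckeMatrix q 0 := by
      rw [map_mul, map_inv, ← mul_assoc, e]
      simp only [mul_assoc]
      rw [mul_inv_cancel, mul_one]
    have e3 := s35hB_ofGL hq0 hℓ0 i₁ i₂ _ γ e2
    have hqdvd : (q : ℤ) ∣ ((R.r k₁ * (R.r k₂)⁻¹ : SL(2, ℤ)) : Matrix (Fin 2) (Fin 2) ℤ) 0 1 :=
      s35hB_dvd_upper hcop e3
    have hk : k₁ = k₂ := R.inj k₁ k₂
      (s35_mem_HB.mpr ⟨(Gamma0 N).mul_mem (R.mem k₁) ((Gamma0 N).inv_mem (R.mem k₂)), hqdvd⟩)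
    subst hk
    -- `i₁ = i₂`
    have e4 : PeriodHecke.hGL ℓ i₁ = j γ * PeriodHecke.hGL ℓ i₂ := by
      have e5 : PeriodHecke.hGL ℓ i₁ * (ModularForm.heckeMatrix q 0 * j (R.r k₁)) =
          (j γ * PeriodHecke.hGL ℓ i₂) * (ModularForm.heckeMatrix q 0 * j (R.r k₁)) := by
        simp only [← mul_assoc]
        rw [e]
        simp only [mul_assoc]
      exact mul_right_cancel e5
    have e6 := s35hB_ofGL' hℓ0 i₁ i₂ γ e4
    have e7 : (1 : Matrix (Fin 2) (Fin 2) ℤ) * heckeMat ℓ i₁ =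
        (γ : Matrix (Fin 2) (Fin 2) ℤ) * heckeMat ℓ i₂ := by
      rw [Matrix.one_mul]
      exact e6
    have hi : i₁ = i₂ :=
      (HeckeCosets.key hℓ.two_le Matrix.det_one (Matrix.SpecialLinearGroup.det_coe γ) e7).1
    rw [hi]

end Fermat.Agent.S35
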