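import Fermat.Agent.S35.Defs
import Fermat.Agent.S35.LatTrA
import Fermat.Agent.S35.LatPerB
import Fermat.Agent.S42.PeriodHecke
import Fermat.Agent.S42.PeriodEigen

/-!
# P20 (S35), block LAT-MOD, leaf (B1): the `B`-side trace form

For a cusp form `g` of weight `2` and level `Γ₀(N q)` and `β = (1 0; 0 q)`
(`ModularForm.heckeMatrix q 0`), the translate `g ∣[2] β` is a cusp form for
`Γ₀(N) ∩ Γ⁰(q) = s35_HB N q` (because `β h = κ_B(h) β`, `s35pB_conj`), and for any system `R` of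
representatives of the right cosets `s35_HB N q \ Γ₀(N)` the sum `∑ i, (g ∣[2] β) ∣[2] (R.r i)` is
a cusp form of level `Γ₀(N)` (`s35tra_exists_trace`).
-/

set_option autoImplicit false

namespace Fermat.Agent.S35

open CongruenceSubgroup ModularCurve AlgebraicCurve UpperHalfPlane
open Fermat.Agent.S31 Fermat.Agent.S42 Fermat.Agent.S30
open scoped MatrixGroups ModularForm

/-- The principal congruence subgroup of level `N q` is contained in `Γ₀(N) ∩ Γ⁰(q)`. -/
theorem s35tB_Gamma_le (N q : ℕ) : Gamma (N * q) ≤ s35_HB N q := by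
  intro γ hγ
  rw [Gamma_mem] at hγ
  obtain ⟨-, h01, h10, -⟩ := hγ
  rw [ZMod.intCast_zmod_eq_zero_iff_dvd] at h01 h10
  refine ⟨?_, ?_⟩
  · rw [Gamma0_mem, ZMod.intCast_zmod_eq_zero_iff_dvd]
    exact dvd_trans (by push_cast; exact dvd_mul_right _ _) h10
  · exact dvd_trans (by push_cast; exact dvd_mul_left _ _) h01

/-- `Γ₀(N) ∩ Γ⁰(q)` has finite index in `SL(2, ℤ)`. -/
theorem s35tB_finiteIndex (N q : ℕ) [NeZero N] [NeZero q] : (s35_HB N q).FiniteIndex := by
  have : NeZero (N * q) := ⟨Nat.mul_ne_zero (NeZero.ne N) (NeZero.ne q)⟩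
  exact Subgroup.finiteIndex_of_le (s35tB_Gamma_le N q)

open Pointwise in
/-- The image of `Γ₀(N) ∩ Γ⁰(q)` in `GL (Fin 2) ℝ` is contained in the conjugate
`β⁻¹ Γ₀(N q) β`, `β = (1 0; 0 q)`. -/
theorem s35tB_le_conj (N q : ℕ) [NeZero q] :
    (s35_HB N q).map (Matrix.SpecialLinearGroup.mapGL ℝ) ≤
      ConjAct.toConjAct (ModularForm.heckeMatrix q 0)⁻¹ •
        (Gamma0 (N * q)).map (Matrix.SpecialLinearGroup.mapGL ℝ) := by
  rintro x ⟨h, hh, rfl⟩
  have hconj := s35pB_conj (NeZero.ne q) (⟨h, hh⟩ : ↥(s35_HB N q))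
  have h1 : Matrix.SpecialLinearGroup.mapGL ℝ h =
      ConjAct.toConjAct (ModularForm.heckeMatrix q 0)⁻¹ •
        Matrix.SpecialLinearGroup.mapGL ℝ
          ((s35_kappaB N q ⟨h, hh⟩ : ↥(Gamma0 (N * q))) : SL(2, ℤ)) := by
    rw [ConjAct.toConjAct_smul, inv_inv]
    have h2 : (ModularForm.heckeMatrix q 0)⁻¹ * (ModularForm.heckeMatrix q 0 *
        Matrix.SpecialLinearGroup.mapGL ℝ h) = Matrix.SpecialLinearGroup.mapGL ℝ h := by
      rw [inv_mul_cancel_left]
    rw [← h2, mul_assoc]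
    congr 1
  rw [h1]
  exact Subgroup.smul_mem_pointwise_smul _ _ _
    (Subgroup.mem_map_of_mem _ (s35_kappaB N q ⟨h, hh⟩).2)

set_option linter.unusedVariables false in
/-- (B1) The `B`-side trace form along `Γ₀(N) ∩ Γ⁰(q) ⊂ Γ₀(N)`. -/
theorem s35_exists_traceB {N q : ℕ} [NeZero N] [NeZero q] (hq : q.Prime) (hqN : ¬ q ∣ N)
    (g : CuspForm (Gamma0 (N * q)) 2)
    (R : S35RightReps (s35_HB N q) (Gamma0 N) (Option (Fin q))) :
    ∃ h : CuspForm (Gamma0 N) 2,
      (h : ℍ → ℂ) = ∑ i, ((g : ℍ → ℂ) ∣[(2 : ℤ)] (ModularForm.heckeMatrix q 0)) ∣[(2 : ℤ)] (R.r i) := by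
  have hfin : (s35_HB N q).FiniteIndex := s35tB_finiteIndex N q
  have hle := s35tB_le_conj N q
  let gB : CuspForm (s35_HB N q) 2 :=
    { toFun := (g : ℍ → ℂ) ∣[(2 : ℤ)] (ModularForm.heckeMatrix q 0)
      slash_action_eq' := fun γ hγ =>
        (CuspForm.translate g (ModularForm.heckeMatrix q 0)).slash_action_eq' γ (hle hγ)
      holo' := (CuspForm.translate g (ModularForm.heckeMatrix q 0)).holo'
      zero_at_cusps' := fun hc =>
        (CuspForm.translate g (ModularForm.heckeMatrix q 0)).zero_at_cusps' (hc.mono hle) }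
  exact s35tra_exists_trace gB R

end Fermat.Agent.S35
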