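import Fermat.Agent.S35.Defs
import Fermat.Agent.S35.LatTrB
import Fermat.Agent.S35.LatPerB
import Fermat.Agent.S35.LatHeckeB

/-!
# P20 (S35), block LAT-MOD, leaf (MB): the trace form along `Γ₀(N) ∩ Γ⁰(q) ⊂ Γ₀(N)`

Assembly of (B1) `s35_exists_traceB` (construction), (B2) `s35_periodMap_traceB` (period character
= `B`-side transfer) and (B3) `s35_heckeT_traceB` (the trace commutes with `T_ℓ`, `ℓ ∤ N q`).
-/

set_option autoImplicit false

namespace Fermat.Agent.S35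

open CongruenceSubgroup ModularCurve AlgebraicCurve UpperHalfPlane
open Fermat.Agent.S31 Fermat.Agent.S42 Fermat.Agent.S30
open scoped MatrixGroups ModularForm

/-- (MB) The trace form along `Γ₀(N) ∩ Γ⁰(q) ⊂ Γ₀(N)` of `τ ↦ q⁻¹ g (τ / q)`: its period character
is the `B`-side transfer of the period character of `g`, and it is an eigenvector of the `T_ℓ`,
`ℓ ∤ N q`, with the eigenvalues of `g`. -/
theorem s35_exists_form_coresB {N q : ℕ} [NeZero N] [NeZero q] (hq : q.Prime) (hqN : ¬ q ∣ N)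
    (g : CuspForm (Gamma0 (N * q)) 2) (a : ℕ → ℂ)
    (hg : ∀ ℓ : ℕ, ℓ.Prime → ¬ ℓ ∣ N * q →
      ∀ τ : ℍ, ModularForm.heckeT 2 ℓ (g : ℍ → ℂ) τ = a ℓ * g τ)
    (R : S35RightReps (s35_HB N q) (Gamma0 N) (Option (Fin q))) :
    ∃ h : CuspForm (Gamma0 N) 2,
      periodMap N h = R.cores (s35_charB N q (periodMap (N * q) g)) ∧
      ∀ ℓ : ℕ, ℓ.Prime → ¬ ℓ ∣ N * q →
        ∀ τ : ℍ, ModularForm.heckeT 2 ℓ (h : ℍ → ℂ) τ = a ℓ * h τ := by
  obtain ⟨h, hh⟩ := s35_exists_traceB hq hqN g R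
  refine ⟨h, s35_periodMap_traceB g R h hh, ?_⟩
  intro ℓ hℓ hℓN τ
  have hg' : ModularForm.heckeT 2 ℓ (g : ℍ → ℂ) = a ℓ • (g : ℍ → ℂ) :=
    funext fun τ => hg ℓ hℓ hℓN τ
  have hsl : ∀ i : Option (Fin q),
      ((a ℓ • (g : ℍ → ℂ)) ∣[(2 : ℤ)] (ModularForm.heckeMatrix q 0)) ∣[(2 : ℤ)] (R.r i) =
        a ℓ • (((g : ℍ → ℂ) ∣[(2 : ℤ)] (ModularForm.heckeMatrix q 0)) ∣[(2 : ℤ)] (R.r i)) := by
    intro i
    rw [ModularForm.smul_slash, ModularForm.σ_heckeMatrix, ModularForm.SL_smul_slash]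
    rfl
  rw [hh, s35_heckeT_traceB hq hqN g R ℓ hℓ hℓN, hg', Finset.sum_congr rfl (fun i _ => hsl i),
    ← Finset.smul_sum]
  rfl

end Fermat.Agent.S35
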