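import Fermat.Agent.S35.Defs
import Fermat.Agent.S42.PeriodHecke
import Fermat.Agent.S42.PeriodEigen

/-!
# P20 (S35), block LAT-MOD, leaf (A3), second team

The Hecke operator `T_ℓ` (`ℓ ∤ N q`) commutes with the trace `∑ i, g ∣ R_i` from level `N q` to
level `N` (`R` a system of representatives of `Γ₀(N q) \ Γ₀(N)`).
-/

set_option autoImplicit false

namespace Fermat.Agent.S35

open CongruenceSubgroup ModularCurve AlgebraicCurve UpperHalfPlane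
open Fermat.Agent.S31 Fermat.Agent.S42 Fermat.Agent.S30
open scoped MatrixGroups ModularForm

/-- Transport of an integer matrix identity to `GL (Fin 2) ℝ`. -/
theorem s35hkb_toGL {ℓ : ℕ} (hℓ : ℓ ≠ 0) {A B : SL(2, ℤ)} {i i' : Option (Fin ℓ)}
    (h : heckeMat ℓ i * (A : Matrix (Fin 2) (Fin 2) ℤ) =
      (B : Matrix (Fin 2) (Fin 2) ℤ) * heckeMat ℓ i') :
    PeriodHecke.hGL ℓ i * (A : GL (Fin 2) ℝ) = (B : GL (Fin 2) ℝ) * PeriodHecke.hGL ℓ i' := by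
  apply Units.ext
  rw [Units.val_mul, Units.val_mul, PeriodHecke.val_hGL hℓ, PeriodHecke.val_hGL hℓ]
  have h' := congrArg (fun M : Matrix (Fin 2) (Fin 2) ℤ => M.map (Int.castRingHom ℝ)) h
  simp only [Matrix.map_mul] at h'
  exact h'

/-- The Hecke operator as a sum of slashes by the `ℓ + 1` Hecke matrices. -/
theorem s35hkb_heckeT_eq_sum (ℓ : ℕ) (f : ℍ → ℂ) :
    ModularForm.heckeT 2 ℓ f = ∑ i : Option (Fin ℓ), f ∣[(2 : ℤ)] PeriodHecke.hGL ℓ i := by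
  rw [ModularForm.heckeT_def, Fintype.sum_option, PeriodHecke.hGL_none, add_comm]
  congr 1
  exact (Fin.sum_univ_eq_sum_range (fun j => f ∣[(2 : ℤ)] ModularForm.heckeMatrix ℓ j) ℓ).symm

/-- Comparing lower left entries in `M_i P = Q M_{i'}`. -/
theorem s35hkb_dvd_lower {ℓ q : ℕ} (hcop : IsCoprime (q : ℤ) (ℓ : ℤ))
    {P Q : Matrix (Fin 2) (Fin 2) ℤ} {i i' : Option (Fin ℓ)}
    (h : heckeMat ℓ i * P = Q * heckeMat ℓ i') (hQ : (q : ℤ) ∣ Q 1 0) : (q : ℤ) ∣ P 1 0 := by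
  rcases i with _ | j <;> rcases i' with _ | j'
  · rw [HeckeCosets.none_mul, HeckeCosets.mul_none, HeckeCosets.of_eq_of_iff] at h
    rw [h.2.2.1]
    exact hQ.mul_right _
  · rw [HeckeCosets.none_mul, HeckeCosets.mul_some, HeckeCosets.of_eq_of_iff] at h
    rw [h.2.2.1]
    exact hQ
  · rw [HeckeCosets.some_mul, HeckeCosets.mul_none, HeckeCosets.of_eq_of_iff] at h
    have h1 : (q : ℤ) ∣ (ℓ : ℤ) * P 1 0 := by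
      rw [h.2.2.1]
      exact hQ.mul_right _
    exact hcop.dvd_of_dvd_mul_left h1
  · rw [HeckeCosets.some_mul, HeckeCosets.mul_some, HeckeCosets.of_eq_of_iff] at h
    have h1 : (q : ℤ) ∣ (ℓ : ℤ) * P 1 0 := by
      rw [h.2.2.1]
      exact hQ
    exact hcop.dvd_of_dvd_mul_left h1

/-- (E1) `M_i R_k = g' M_{i'}` with `g' ∈ Γ₀(N q) R_{k'}`. -/
theorem s35hkb_exists_step {N q ℓ : ℕ} (hℓ : ℓ.Prime) (hℓN : ¬ ℓ ∣ N)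
    (R : S35RightReps (Gamma0 (N * q)) (Gamma0 N) (Option (Fin q)))
    (p : Option (Fin ℓ) × Option (Fin q)) :
    ∃ (p' : Option (Fin ℓ) × Option (Fin q)) (g' : SL(2, ℤ)),
      heckeMat ℓ p.1 * ((R.r p.2 : SL(2, ℤ)) : Matrix (Fin 2) (Fin 2) ℤ) =
        (g' : Matrix (Fin 2) (Fin 2) ℤ) * heckeMat ℓ p'.1 ∧
      g' * (R.r p'.2)⁻¹ ∈ Gamma0 (N * q) := by
  obtain ⟨i', g', hg'⟩ := HeckeCosets.exists_step hℓ hℓN ⟨R.r p.2, R.mem p.2⟩ p.1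
  obtain ⟨k', hk'⟩ := R.cover (g' : SL(2, ℤ)) g'.2
  exact ⟨(i', k'), g', hg', hk'⟩

/-- (E2) the assignment `(i, k) ↦ (i', k')` is injective. -/
theorem s35hkb_inj {N q ℓ : ℕ} (hq : q.Prime) (hqN : ¬ q ∣ N) (hℓ : ℓ.Prime) (hℓq : ¬ ℓ ∣ q)
    (R : S35RightReps (Gamma0 (N * q)) (Gamma0 N) (Option (Fin q)))
    {i₁ i₂ i' : Option (Fin ℓ)} {k₁ k₂ k' : Option (Fin q)} {g₁ g₂ : SL(2, ℤ)}
    (h₁ : heckeMat ℓ i₁ * ((R.r k₁ : SL(2, ℤ)) : Matrix (Fin 2) (Fin 2) ℤ) =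
      (g₁ : Matrix (Fin 2) (Fin 2) ℤ) * heckeMat ℓ i')
    (h₂ : heckeMat ℓ i₂ * ((R.r k₂ : SL(2, ℤ)) : Matrix (Fin 2) (Fin 2) ℤ) =
      (g₂ : Matrix (Fin 2) (Fin 2) ℤ) * heckeMat ℓ i')
    (m₁ : g₁ * (R.r k')⁻¹ ∈ Gamma0 (N * q)) (m₂ : g₂ * (R.r k')⁻¹ ∈ Gamma0 (N * q)) :
    i₁ = i₂ ∧ k₁ = k₂ := by
  have hγ : g₁ * g₂⁻¹ ∈ Gamma0 (N * q) := by
    have e : g₁ * g₂⁻¹ = (g₁ * (R.r k')⁻¹) * (g₂ * (R.r k')⁻¹)⁻¹ := by group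
    rw [e]
    exact (Gamma0 (N * q)).mul_mem m₁ ((Gamma0 (N * q)).inv_mem m₂)
  have h3 := HeckeCosets.inv_mul_eq_of_eq h₂
  have h4 : heckeMat ℓ i₁ * ((R.r k₁ * (R.r k₂)⁻¹ : SL(2, ℤ)) : Matrix (Fin 2) (Fin 2) ℤ) =
      ((g₁ * g₂⁻¹ : SL(2, ℤ)) : Matrix (Fin 2) (Fin 2) ℤ) * heckeMat ℓ i₂ := by
    rw [Matrix.SpecialLinearGroup.coe_mul, Matrix.SpecialLinearGroup.coe_mul]
    calc heckeMat ℓ i₁ * (((R.r k₁ : SL(2, ℤ)) : Matrix (Fin 2) (Fin 2) ℤ) *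
            (((R.r k₂)⁻¹ : SL(2, ℤ)) : Matrix (Fin 2) (Fin 2) ℤ))
        = (heckeMat ℓ i₁ * ((R.r k₁ : SL(2, ℤ)) : Matrix (Fin 2) (Fin 2) ℤ)) *
            (((R.r k₂)⁻¹ : SL(2, ℤ)) : Matrix (Fin 2) (Fin 2) ℤ) := (Matrix.mul_assoc _ _ _).symm
      _ = ((g₁ : Matrix (Fin 2) (Fin 2) ℤ) * heckeMat ℓ i') *
            (((R.r k₂)⁻¹ : SL(2, ℤ)) : Matrix (Fin 2) (Fin 2) ℤ) := by rw [h₁]
      _ = (g₁ : Matrix (Fin 2) (Fin 2) ℤ) * (heckeMat ℓ i' *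
            (((R.r k₂)⁻¹ : SL(2, ℤ)) : Matrix (Fin 2) (Fin 2) ℤ)) := Matrix.mul_assoc _ _ _
      _ = (g₁ : Matrix (Fin 2) (Fin 2) ℤ) * (((g₂⁻¹ : SL(2, ℤ)) : Matrix (Fin 2) (Fin 2) ℤ) *
            heckeMat ℓ i₂) := by rw [h3]
      _ = ((g₁ : Matrix (Fin 2) (Fin 2) ℤ) * ((g₂⁻¹ : SL(2, ℤ)) : Matrix (Fin 2) (Fin 2) ℤ)) *
            heckeMat ℓ i₂ := (Matrix.mul_assoc _ _ _).symm
  have hqℓ : q ≠ ℓ := by
    intro hqℓ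
    apply hℓq
    rw [hqℓ]
  have hcopqℓ : IsCoprime (q : ℤ) (ℓ : ℤ) :=
    Nat.isCoprime_iff_coprime.2 ((Nat.coprime_primes hq hℓ).2 hqℓ)
  have hqdvd : (q : ℤ) ∣ ((R.r k₁ * (R.r k₂)⁻¹ : SL(2, ℤ)) : Matrix (Fin 2) (Fin 2) ℤ) 1 0 :=
    s35hkb_dvd_lower hcopqℓ h4
      (Dvd.dvd.trans ⟨(N : ℤ), by push_cast; ring⟩ (HeckeCosets.mem_Gamma0_iff.1 hγ))
  have hNdvd : (N : ℤ) ∣ ((R.r k₁ * (R.r k₂)⁻¹ : SL(2, ℤ)) : Matrix (Fin 2) (Fin 2) ℤ) 1 0 :=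
    HeckeCosets.mem_Gamma0_iff.1 ((Gamma0 N).mul_mem (R.mem k₁) ((Gamma0 N).inv_mem (R.mem k₂)))
  have hcopNq : IsCoprime (N : ℤ) (q : ℤ) :=
    Nat.isCoprime_iff_coprime.2 ((Nat.Prime.coprime_iff_not_dvd hq).2 hqN).symm
  have hk : k₁ = k₂ := R.inj k₁ k₂ (HeckeCosets.mem_Gamma0_iff.2 (by
    rw [Nat.cast_mul]
    exact hcopNq.mul_dvd hNdvd hqdvd))
  subst hk
  refine ⟨?_, rfl⟩
  have h5 := HeckeCosets.inv_mul_eq_of_eq h₁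
  exact (HeckeCosets.key hℓ.two_le (Matrix.SpecialLinearGroup.det_coe _)
    (Matrix.SpecialLinearGroup.det_coe _) (h5.trans h3.symm)).1

theorem s35_heckeT_traceA_B {N q ℓ : ℕ} [NeZero N] [NeZero q] (hq : q.Prime) (hqN : ¬ q ∣ N)
    (hℓ : ℓ.Prime) (hℓNq : ¬ ℓ ∣ N * q)
    (g : CuspForm (Gamma0 (N * q)) 2)
    (R : S35RightReps (Gamma0 (N * q)) (Gamma0 N) (Option (Fin q))) :
    ModularForm.heckeT 2 ℓ (∑ i, (g : ℍ → ℂ) ∣[(2 : ℤ)] (R.r i)) =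
      ∑ i, (ModularForm.heckeT 2 ℓ (g : ℍ → ℂ)) ∣[(2 : ℤ)] (R.r i) := by
  classical
  have hℓN : ¬ ℓ ∣ N := fun h => hℓNq (h.mul_right q)
  have hℓq : ¬ ℓ ∣ q := fun h => hℓNq (h.mul_left N)
  choose φ gg hφ1 hφ2 using s35hkb_exists_step hℓ hℓN R
  have hinj : Function.Injective φ := by
    intro p₁ p₂ h
    have h2 := hφ1 p₂
    have m2 := hφ2 p₂
    rw [← h] at h2 m2
    obtain ⟨e1, e2⟩ := s35hkb_inj hq hqN hℓ hℓq R (hφ1 p₁) h2 (hφ2 p₁) m2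
    exact Prod.ext e1 e2
  have hbij : Function.Bijective φ := Finite.injective_iff_bijective.1 hinj
  have hG : ∀ p : Option (Fin ℓ) × Option (Fin q),
      ((g : ℍ → ℂ) ∣[(2 : ℤ)] PeriodHecke.hGL ℓ p.1) ∣[(2 : ℤ)] (R.r p.2) =
        ((g : ℍ → ℂ) ∣[(2 : ℤ)] (R.r (φ p).2)) ∣[(2 : ℤ)] PeriodHecke.hGL ℓ (φ p).1 := by
    intro p
    have e1 := s35hkb_toGL hℓ.ne_zero (hφ1 p)
    have e2 : (g : ℍ → ℂ) ∣[(2 : ℤ)] (gg p) = (g : ℍ → ℂ) ∣[(2 : ℤ)] (R.r (φ p).2) := by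
      have e3 : gg p = (gg p * (R.r (φ p).2)⁻¹) * R.r (φ p).2 := by group
      conv_lhs => rw [e3]
      rw [SlashAction.slash_mul, Fermat.Agent.S21.slash_eq_self_of_mem_Gamma0 g (hφ2 p)]
    rw [ModularForm.SL_slash _ (R.r p.2), ← SlashAction.slash_mul, e1, SlashAction.slash_mul,
      ← ModularForm.SL_slash, e2]
  have hL : ∑ i : Option (Fin ℓ), ∑ k : Option (Fin q),
        ((g : ℍ → ℂ) ∣[(2 : ℤ)] (R.r k)) ∣[(2 : ℤ)] PeriodHecke.hGL ℓ i =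
      ∑ p : Option (Fin ℓ) × Option (Fin q),
        ((g : ℍ → ℂ) ∣[(2 : ℤ)] (R.r p.2)) ∣[(2 : ℤ)] PeriodHecke.hGL ℓ p.1 :=
    (Fintype.sum_prod_type (fun p : Option (Fin ℓ) × Option (Fin q) =>
      ((g : ℍ → ℂ) ∣[(2 : ℤ)] (R.r p.2)) ∣[(2 : ℤ)] PeriodHecke.hGL ℓ p.1)).symm
  have hR : ∑ k : Option (Fin q), ∑ i : Option (Fin ℓ),
        ((g : ℍ → ℂ) ∣[(2 : ℤ)] PeriodHecke.hGL ℓ i) ∣[(2 : ℤ)] (R.r k) =
      ∑ p : Option (Fin ℓ) × Option (Fin q),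
        ((g : ℍ → ℂ) ∣[(2 : ℤ)] PeriodHecke.hGL ℓ p.1) ∣[(2 : ℤ)] (R.r p.2) :=
    (Fintype.sum_prod_type_right (fun p : Option (Fin ℓ) × Option (Fin q) =>
      ((g : ℍ → ℂ) ∣[(2 : ℤ)] PeriodHecke.hGL ℓ p.1) ∣[(2 : ℤ)] (R.r p.2))).symm
  rw [s35hkb_heckeT_eq_sum, s35hkb_heckeT_eq_sum]
  simp only [SlashAction.sum_slash]
  rw [hL, hR, Finset.sum_congr rfl (fun p _ => hG p)]
  exact ((Equiv.ofBijective φ hbij).sum_comp (fun p : Option (Fin ℓ) × Option (Fin q) =>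
    ((g : ℍ → ℂ) ∣[(2 : ℤ)] (R.r p.2)) ∣[(2 : ℤ)] PeriodHecke.hGL ℓ p.1)).symm

end Fermat.Agent.S35
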