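import Fermat.Agent.S35.Defs
import Fermat.Agent.S42.PeriodHecke
import Fermat.Agent.S42.PeriodEigen
import Fermat.Agent.S35.LatPerB
import Fermat.Agent.S35.LatHeckeAB

/-!
# P20 (S35), block LAT-MOD, sub-leaf (B3), second team

The Hecke operator `T_ℓ` (`ℓ ∤ N q`) commutes with the `B`-side trace
`g ↦ ∑ i, (g ∣ β) ∣ R_i` from level `N q` to level `N` (`β = (1 0; 0 q)`, `R` a system of
representatives of `(Γ₀(N) ∩ Γ⁰(q)) \ Γ₀(N)`).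
-/

set_option autoImplicit false

namespace Fermat.Agent.S35

open CongruenceSubgroup ModularCurve AlgebraicCurve UpperHalfPlane
open Fermat.Agent.S31 Fermat.Agent.S42 Fermat.Agent.S30
open scoped MatrixGroups ModularForm

/-- The Hecke matrices conjugated by `β = (1 0; 0 q)`: `(ℓ 0; 0 1)` and `(1 j q; 0 ℓ)`. -/
def s35hkbb_tw (q ℓ : ℕ) : Option (Fin ℓ) → Matrix (Fin 2) (Fin 2) ℤ
  | none => !![(ℓ : ℤ), 0; 0, 1]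
  | some j => !![1, ((j : ℕ) : ℤ) * (q : ℤ); 0, (ℓ : ℤ)]

theorem s35hkbb_tw_none_mul (q ℓ : ℕ) (A : Matrix (Fin 2) (Fin 2) ℤ) :
    s35hkbb_tw q ℓ none * A = !![(ℓ : ℤ) * A 0 0, (ℓ : ℤ) * A 0 1; A 1 0, A 1 1] := by
  ext i j
  fin_cases i <;> fin_cases j <;> simp [s35hkbb_tw, Matrix.mul_apply, Fin.sum_univ_two]

theorem s35hkbb_tw_some_mul (q ℓ : ℕ) (A : Matrix (Fin 2) (Fin 2) ℤ) (j : Fin ℓ) :
    s35hkbb_tw q ℓ (some j) * A =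
      !![A 0 0 + ((j : ℕ) : ℤ) * (q : ℤ) * A 1 0, A 0 1 + ((j : ℕ) : ℤ) * (q : ℤ) * A 1 1;
         (ℓ : ℤ) * A 1 0, (ℓ : ℤ) * A 1 1] := by
  ext i k
  fin_cases i <;> fin_cases k <;> simp [s35hkbb_tw, Matrix.mul_apply, Fin.sum_univ_two]

theorem s35hkbb_mul_tw_none (q ℓ : ℕ) (A : Matrix (Fin 2) (Fin 2) ℤ) :
    A * s35hkbb_tw q ℓ none = !![A 0 0 * (ℓ : ℤ), A 0 1; A 1 0 * (ℓ : ℤ), A 1 1] := by
  ext i j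
  fin_cases i <;> fin_cases j <;> simp [s35hkbb_tw, Matrix.mul_apply, Fin.sum_univ_two]

theorem s35hkbb_mul_tw_some (q ℓ : ℕ) (A : Matrix (Fin 2) (Fin 2) ℤ) (j : Fin ℓ) :
    A * s35hkbb_tw q ℓ (some j) =
      !![A 0 0, A 0 0 * (((j : ℕ) : ℤ) * (q : ℤ)) + A 0 1 * (ℓ : ℤ);
         A 1 0, A 1 0 * (((j : ℕ) : ℤ) * (q : ℤ)) + A 1 1 * (ℓ : ℤ)] := by
  ext i k
  fin_cases i <;> fin_cases k <;> simp [s35hkbb_tw, Matrix.mul_apply, Fin.sum_univ_two]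

theorem s35hkbb_det_tw (q ℓ : ℕ) (i : Option (Fin ℓ)) : (s35hkbb_tw q ℓ i).det = (ℓ : ℤ) := by
  cases i <;> simp [s35hkbb_tw, Matrix.det_fin_two_of]

/-- `M_i β = β M̃_i` (integer matrices). -/
theorem s35hkbb_heckeMat_mul_beta (q ℓ : ℕ) (i : Option (Fin ℓ)) :
    heckeMat ℓ i * (!![1, 0; 0, (q : ℤ)] : Matrix (Fin 2) (Fin 2) ℤ) =
      (!![1, 0; 0, (q : ℤ)] : Matrix (Fin 2) (Fin 2) ℤ) * s35hkbb_tw q ℓ i := by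
  rcases i with _ | j
  · ext a b
    fin_cases a <;> fin_cases b <;>
      simp [heckeMat, s35hkbb_tw, Matrix.mul_apply, Fin.sum_univ_two]
  · ext a b
    fin_cases a <;> fin_cases b <;>
      simp [heckeMat, s35hkbb_tw, Matrix.mul_apply, Fin.sum_univ_two, mul_comm]

/-- Lower left entries of `M̃_i P`. -/
theorem s35hkbb_dvd_lower {N : ℕ} (q ℓ : ℕ) (i : Option (Fin ℓ))
    {P : Matrix (Fin 2) (Fin 2) ℤ} (hP : (N : ℤ) ∣ P 1 0) :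
    (N : ℤ) ∣ (s35hkbb_tw q ℓ i * P) 1 0 := by
  rcases i with _ | j
  · rw [s35hkbb_tw_none_mul]
    simpa using hP
  · rw [s35hkbb_tw_some_mul]
    simpa using hP.mul_left (ℓ : ℤ)

/-- Comparing upper right entries in `M̃_i P = Q M̃_{i'}`. -/
theorem s35hkbb_dvd_upper {ℓ q : ℕ} (hcop : IsCoprime (q : ℤ) (ℓ : ℤ))
    {P Q : Matrix (Fin 2) (Fin 2) ℤ} {i i' : Option (Fin ℓ)}
    (h : s35hkbb_tw q ℓ i * P = Q * s35hkbb_tw q ℓ i') (hQ : (q : ℤ) ∣ Q 0 1) :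
    (q : ℤ) ∣ P 0 1 := by
  obtain ⟨c, hc⟩ := hQ
  rcases i with _ | j <;> rcases i' with _ | j'
  · rw [s35hkbb_tw_none_mul, s35hkbb_mul_tw_none, HeckeCosets.of_eq_of_iff] at h
    have h1 : (q : ℤ) ∣ (ℓ : ℤ) * P 0 1 := ⟨c, by rw [h.2.1, hc]⟩
    exact hcop.dvd_of_dvd_mul_left h1
  · rw [s35hkbb_tw_none_mul, s35hkbb_mul_tw_some, HeckeCosets.of_eq_of_iff] at h
    have h1 : (q : ℤ) ∣ (ℓ : ℤ) * P 0 1 :=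
      ⟨Q 0 0 * ((j' : ℕ) : ℤ) + c * (ℓ : ℤ), by rw [h.2.1, hc]; ring⟩
    exact hcop.dvd_of_dvd_mul_left h1
  · rw [s35hkbb_tw_some_mul, s35hkbb_mul_tw_none, HeckeCosets.of_eq_of_iff] at h
    exact ⟨c - ((j : ℕ) : ℤ) * P 1 1, by linear_combination h.2.1 + hc⟩
  · rw [s35hkbb_tw_some_mul, s35hkbb_mul_tw_some, HeckeCosets.of_eq_of_iff] at h
    exact ⟨Q 0 0 * ((j' : ℕ) : ℤ) + c * (ℓ : ℤ) - ((j : ℕ) : ℤ) * P 1 1, by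
      linear_combination h.2.1 + (ℓ : ℤ) * hc⟩

/-- The conjugated Hecke matrices lie in distinct left `SL(2, ℤ)`-cosets. -/
theorem s35hkbb_key {q ℓ : ℕ} (hℓ : 2 ≤ ℓ) (hcop : IsCoprime (ℓ : ℤ) (q : ℤ))
    {A B : Matrix (Fin 2) (Fin 2) ℤ} (hA : A.det = 1) (hB : B.det = 1)
    {i k : Option (Fin ℓ)} (h : A * s35hkbb_tw q ℓ i = B * s35hkbb_tw q ℓ k) : i = k := by
  rw [Matrix.det_fin_two] at hA hB
  rcases i with _ | j <;> rcases k with _ | j'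
  · rfl
  · exfalso
    rw [s35hkbb_mul_tw_none, s35hkbb_mul_tw_some, HeckeCosets.of_eq_of_iff] at h
    obtain ⟨h1, h2, h3, h4⟩ := h
    have hdvd : (ℓ : ℤ) ∣ 1 := ⟨A 0 0 * B 1 1 - B 0 1 * A 1 0, by
      rw [← hB, ← h1, ← h3]; ring⟩
    have := Int.le_of_dvd one_pos hdvd
    have : (2 : ℤ) ≤ (ℓ : ℤ) := by exact_mod_cast hℓ
    omega
  · exfalso
    rw [s35hkbb_mul_tw_none, s35hkbb_mul_tw_some, HeckeCosets.of_eq_of_iff] at h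
    obtain ⟨h1, h2, h3, h4⟩ := h
    have hdvd : (ℓ : ℤ) ∣ 1 := ⟨B 0 0 * A 1 1 - A 0 1 * B 1 0, by
      rw [← hA, h1, h3]; ring⟩
    have := Int.le_of_dvd one_pos hdvd
    have : (2 : ℤ) ≤ (ℓ : ℤ) := by exact_mod_cast hℓ
    omega
  · rw [s35hkbb_mul_tw_some, s35hkbb_mul_tw_some, HeckeCosets.of_eq_of_iff] at h
    obtain ⟨h1, h2, h3, h4⟩ := h
    have hdvd' : (ℓ : ℤ) ∣ (((j : ℕ) : ℤ) - ((j' : ℕ) : ℤ)) * (q : ℤ) :=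
      ⟨A 1 1 * B 0 1 - A 0 1 * B 1 1, by
        rw [← h1] at h2
        rw [← h3] at h4
        linear_combination -((((j : ℕ) : ℤ) - ((j' : ℕ) : ℤ)) * (q : ℤ)) * hA + A 1 1 * h2
          - A 0 1 * h4⟩
    have hdvd : (ℓ : ℤ) ∣ ((j : ℕ) : ℤ) - ((j' : ℕ) : ℤ) := hcop.dvd_of_dvd_mul_right hdvd'
    have hjj : ((j : ℕ) : ℤ) - ((j' : ℕ) : ℤ) = 0 := by
      apply Int.eq_zero_of_abs_lt_dvd hdvd
      have hj := j.2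
      have hj' := j'.2
      rw [abs_lt]
      constructor <;> omega
    have hjj' : j = j' := by
      apply Fin.ext
      omega
    rw [hjj']

/-- (E1) `M̃_i R_k = δ M_{i'}` with `δ ∈ (Γ₀(N) ∩ Γ⁰(q)) R_{k'}`. -/
theorem s35hkbb_exists_step {N q ℓ : ℕ} (hℓ : ℓ.Prime) (hℓN : ¬ ℓ ∣ N)
    (R : S35RightReps (s35_HB N q) (Gamma0 N) (Option (Fin q)))
    (p : Option (Fin ℓ) × Option (Fin q)) :
    ∃ (p' : Option (Fin ℓ) × Option (Fin q)) (δ : SL(2, ℤ)),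
      s35hkbb_tw q ℓ p.1 * ((R.r p.2 : SL(2, ℤ)) : Matrix (Fin 2) (Fin 2) ℤ) =
        (δ : Matrix (Fin 2) (Fin 2) ℤ) * heckeMat ℓ p'.1 ∧
      δ * (R.r p'.2)⁻¹ ∈ s35_HB N q := by
  have hcop : Nat.Coprime N ℓ := ((Nat.Prime.coprime_iff_not_dvd hℓ).2 hℓN).symm
  have hdet : (s35hkbb_tw q ℓ p.1 *
      ((R.r p.2 : SL(2, ℤ)) : Matrix (Fin 2) (Fin 2) ℤ)).det = (ℓ : ℤ) := by
    rw [Matrix.det_mul, s35hkbb_det_tw, Matrix.SpecialLinearGroup.det_coe, mul_one]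
  obtain ⟨i', δ, hδ⟩ := HeckeCosets.exists_factor hℓ _ hdet
  have hN : (N : ℤ) ∣ (s35hkbb_tw q ℓ p.1 *
      ((R.r p.2 : SL(2, ℤ)) : Matrix (Fin 2) (Fin 2) ℤ)) 1 0 :=
    s35hkbb_dvd_lower q ℓ p.1 (HeckeCosets.mem_Gamma0_iff.1 (R.mem p.2))
  have hδN : δ ∈ Gamma0 N := HeckeCosets.mem_Gamma0_iff.2 (HeckeCosets.dvd_of_factor hcop hδ hN)
  obtain ⟨k', hk'⟩ := R.cover δ hδN
  exact ⟨(i', k'), δ, hδ, hk'⟩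

/-- (E2) the assignment `(i, k) ↦ (i', k')` is injective. -/
theorem s35hkbb_inj {N q ℓ : ℕ} (hq : q.Prime) (hℓ : ℓ.Prime) (hℓq : ¬ ℓ ∣ q)
    (R : S35RightReps (s35_HB N q) (Gamma0 N) (Option (Fin q)))
    {i₁ i₂ i' : Option (Fin ℓ)} {k₁ k₂ k' : Option (Fin q)} {δ₁ δ₂ : SL(2, ℤ)}
    (h₁ : s35hkbb_tw q ℓ i₁ * ((R.r k₁ : SL(2, ℤ)) : Matrix (Fin 2) (Fin 2) ℤ) =
      (δ₁ : Matrix (Fin 2) (Fin 2) ℤ) * heckeMat ℓ i')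
    (h₂ : s35hkbb_tw q ℓ i₂ * ((R.r k₂ : SL(2, ℤ)) : Matrix (Fin 2) (Fin 2) ℤ) =
      (δ₂ : Matrix (Fin 2) (Fin 2) ℤ) * heckeMat ℓ i')
    (m₁ : δ₁ * (R.r k')⁻¹ ∈ s35_HB N q) (m₂ : δ₂ * (R.r k')⁻¹ ∈ s35_HB N q) :
    i₁ = i₂ ∧ k₁ = k₂ := by
  have hη : δ₁ * δ₂⁻¹ ∈ s35_HB N q := by
    have e : δ₁ * δ₂⁻¹ = (δ₁ * (R.r k')⁻¹) * (δ₂ * (R.r k')⁻¹)⁻¹ := by group
    rw [e]
    exact (s35_HB N q).mul_mem m₁ ((s35_HB N q).inv_mem m₂)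
  have h3 := HeckeCosets.inv_mul_eq_of_eq h₂
  have h4 : s35hkbb_tw q ℓ i₁ *
        ((R.r k₁ * (R.r k₂)⁻¹ : SL(2, ℤ)) : Matrix (Fin 2) (Fin 2) ℤ) =
      ((δ₁ * δ₂⁻¹ : SL(2, ℤ)) : Matrix (Fin 2) (Fin 2) ℤ) * s35hkbb_tw q ℓ i₂ := by
    rw [Matrix.SpecialLinearGroup.coe_mul, Matrix.SpecialLinearGroup.coe_mul]
    calc s35hkbb_tw q ℓ i₁ * (((R.r k₁ : SL(2, ℤ)) : Matrix (Fin 2) (Fin 2) ℤ) *
            (((R.r k₂)⁻¹ : SL(2, ℤ)) : Matrix (Fin 2) (Fin 2) ℤ))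
        = (s35hkbb_tw q ℓ i₁ * ((R.r k₁ : SL(2, ℤ)) : Matrix (Fin 2) (Fin 2) ℤ)) *
            (((R.r k₂)⁻¹ : SL(2, ℤ)) : Matrix (Fin 2) (Fin 2) ℤ) := (Matrix.mul_assoc _ _ _).symm
      _ = ((δ₁ : Matrix (Fin 2) (Fin 2) ℤ) * heckeMat ℓ i') *
            (((R.r k₂)⁻¹ : SL(2, ℤ)) : Matrix (Fin 2) (Fin 2) ℤ) := by rw [h₁]
      _ = (δ₁ : Matrix (Fin 2) (Fin 2) ℤ) * (heckeMat ℓ i' *
            (((R.r k₂)⁻¹ : SL(2, ℤ)) : Matrix (Fin 2) (Fin 2) ℤ)) := Matrix.mul_assoc _ _ _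
      _ = (δ₁ : Matrix (Fin 2) (Fin 2) ℤ) * (((δ₂⁻¹ : SL(2, ℤ)) : Matrix (Fin 2) (Fin 2) ℤ) *
            s35hkbb_tw q ℓ i₂) := by rw [h3]
      _ = ((δ₁ : Matrix (Fin 2) (Fin 2) ℤ) * ((δ₂⁻¹ : SL(2, ℤ)) : Matrix (Fin 2) (Fin 2) ℤ)) *
            s35hkbb_tw q ℓ i₂ := (Matrix.mul_assoc _ _ _).symm
  have hqℓ : q ≠ ℓ := by
    intro hqℓ
    apply hℓq
    rw [hqℓ]
  have hcopqℓ : IsCoprime (q : ℤ) (ℓ : ℤ) :=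
    Nat.isCoprime_iff_coprime.2 ((Nat.coprime_primes hq hℓ).2 hqℓ)
  have hqdvd : (q : ℤ) ∣ ((R.r k₁ * (R.r k₂)⁻¹ : SL(2, ℤ)) : Matrix (Fin 2) (Fin 2) ℤ) 0 1 :=
    s35hkbb_dvd_upper hcopqℓ h4 hη.2
  have hk : k₁ = k₂ := R.inj k₁ k₂
    ⟨(Gamma0 N).mul_mem (R.mem k₁) ((Gamma0 N).inv_mem (R.mem k₂)), hqdvd⟩
  subst hk
  refine ⟨?_, rfl⟩
  have h5 := HeckeCosets.inv_mul_eq_of_eq h₁
  exact s35hkbb_key hℓ.two_le hcopqℓ.symm (Matrix.SpecialLinearGroup.det_coe _)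
    (Matrix.SpecialLinearGroup.det_coe _) (h5.trans h3.symm)

/-- The identity `M_i β R_k = β (δ R_{k'}⁻¹) R_{k'} M_{i'}` in `GL (Fin 2) ℝ`. -/
theorem s35hkbb_toGL {q ℓ : ℕ} (hq : q ≠ 0) (hℓ : ℓ ≠ 0) {r r' δ : SL(2, ℤ)}
    {i i' : Option (Fin ℓ)}
    (h : s35hkbb_tw q ℓ i * (r : Matrix (Fin 2) (Fin 2) ℤ) =
      (δ : Matrix (Fin 2) (Fin 2) ℤ) * heckeMat ℓ i') :
    PeriodHecke.hGL ℓ i * ModularForm.heckeMatrix q 0 * (r : GL (Fin 2) ℝ) =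
      ModularForm.heckeMatrix q 0 * ((δ * r'⁻¹ : SL(2, ℤ)) : GL (Fin 2) ℝ) *
        (r' : GL (Fin 2) ℝ) * PeriodHecke.hGL ℓ i' := by
  have hint : heckeMat ℓ i * (!![1, 0; 0, (q : ℤ)] : Matrix (Fin 2) (Fin 2) ℤ) *
        (r : Matrix (Fin 2) (Fin 2) ℤ) =
      (!![1, 0; 0, (q : ℤ)] : Matrix (Fin 2) (Fin 2) ℤ) *
        ((δ * r'⁻¹ : SL(2, ℤ)) : Matrix (Fin 2) (Fin 2) ℤ) * (r' : Matrix (Fin 2) (Fin 2) ℤ) *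
          heckeMat ℓ i' := by
    have e1 : ((δ * r'⁻¹ : SL(2, ℤ)) : Matrix (Fin 2) (Fin 2) ℤ) *
        (r' : Matrix (Fin 2) (Fin 2) ℤ) = (δ : Matrix (Fin 2) (Fin 2) ℤ) := by
      rw [← Matrix.SpecialLinearGroup.coe_mul, inv_mul_cancel_right]
    rw [s35hkbb_heckeMat_mul_beta, Matrix.mul_assoc, h, Matrix.mul_assoc
      (!![1, 0; 0, (q : ℤ)] : Matrix (Fin 2) (Fin 2) ℤ), e1, Matrix.mul_assoc]
  apply Units.ext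
  simp only [Units.val_mul]
  rw [PeriodHecke.val_hGL hℓ, PeriodHecke.val_hGL hℓ, s35pB_val_beta hq]
  have h' := congrArg (fun M : Matrix (Fin 2) (Fin 2) ℤ => M.map (Int.castRingHom ℝ)) hint
  simp only [Matrix.map_mul] at h'
  exact h'

theorem s35_heckeT_traceB_B {N q : ℕ} [NeZero N] [NeZero q] (hq : q.Prime) (hqN : ¬ q ∣ N)
    (g : CuspForm (Gamma0 (N * q)) 2)
    (R : S35RightReps (s35_HB N q) (Gamma0 N) (Option (Fin q)))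
    (ℓ : ℕ) (hℓ : ℓ.Prime) (hℓN : ¬ ℓ ∣ N * q) :
    ModularForm.heckeT 2 ℓ
        (∑ i, ((g : ℍ → ℂ) ∣[(2 : ℤ)] (ModularForm.heckeMatrix q 0)) ∣[(2 : ℤ)] (R.r i)) =
      ∑ i, ((ModularForm.heckeT 2 ℓ (g : ℍ → ℂ)) ∣[(2 : ℤ)] (ModularForm.heckeMatrix q 0))
        ∣[(2 : ℤ)] (R.r i) := by
  classical
  have _hqN := hqN
  have hℓN' : ¬ ℓ ∣ N := fun h => hℓN (h.mul_right q)
  have hℓq : ¬ ℓ ∣ q := fun h => hℓN (h.mul_left N)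
  choose φ dd hφ1 hφ2 using s35hkbb_exists_step (q := q) hℓ hℓN' R
  have hinj : Function.Injective φ := by
    intro p₁ p₂ h
    have h2 := hφ1 p₂
    have m2 := hφ2 p₂
    rw [← h] at h2 m2
    obtain ⟨e1, e2⟩ := s35hkbb_inj hq hℓ hℓq R (hφ1 p₁) h2 (hφ2 p₁) m2
    exact Prod.ext e1 e2
  have hbij : Function.Bijective φ := Finite.injective_iff_bijective.1 hinj
  have hG : ∀ p : Option (Fin ℓ) × Option (Fin q),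
      (((g : ℍ → ℂ) ∣[(2 : ℤ)] PeriodHecke.hGL ℓ p.1) ∣[(2 : ℤ)]
          (ModularForm.heckeMatrix q 0)) ∣[(2 : ℤ)] (R.r p.2) =
        (((g : ℍ → ℂ) ∣[(2 : ℤ)] (ModularForm.heckeMatrix q 0)) ∣[(2 : ℤ)] (R.r (φ p).2))
          ∣[(2 : ℤ)] PeriodHecke.hGL ℓ (φ p).1 := by
    intro p
    have e1 := s35hkbb_toGL (NeZero.ne q) hℓ.ne_zero (r' := R.r (φ p).2) (hφ1 p)
    have e2 := s35pB_conj (N := N) (NeZero.ne q) ⟨dd p * (R.r (φ p).2)⁻¹, hφ2 p⟩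
    rw [e2] at e1
    have e3 := congrArg (fun A : GL (Fin 2) ℝ => (g : ℍ → ℂ) ∣[(2 : ℤ)] A) e1
    simp only [SlashAction.slash_mul] at e3
    have e4 : (g : ℍ → ℂ) ∣[(2 : ℤ)]
        ((((s35_kappaB N q ⟨dd p * (R.r (φ p).2)⁻¹, hφ2 p⟩ : ↥(Gamma0 (N * q))) : SL(2, ℤ)) :
          GL (Fin 2) ℝ)) = (g : ℍ → ℂ) := by
      rw [← ModularForm.SL_slash]
      exact Fermat.Agent.S21.slash_eq_self_of_mem_Gamma0 g (SetLike.coe_mem _)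
    rw [e4] at e3
    exact e3
  have hL : ∑ i : Option (Fin ℓ), ∑ k : Option (Fin q),
        (((g : ℍ → ℂ) ∣[(2 : ℤ)] (ModularForm.heckeMatrix q 0)) ∣[(2 : ℤ)] (R.r k))
          ∣[(2 : ℤ)] PeriodHecke.hGL ℓ i =
      ∑ p : Option (Fin ℓ) × Option (Fin q),
        (((g : ℍ → ℂ) ∣[(2 : ℤ)] (ModularForm.heckeMatrix q 0)) ∣[(2 : ℤ)] (R.r p.2))
          ∣[(2 : ℤ)] PeriodHecke.hGL ℓ p.1 :=
    (Fintype.sum_prod_type (fun p : Option (Fin ℓ) × Option (Fin q) =>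
      (((g : ℍ → ℂ) ∣[(2 : ℤ)] (ModularForm.heckeMatrix q 0)) ∣[(2 : ℤ)] (R.r p.2))
        ∣[(2 : ℤ)] PeriodHecke.hGL ℓ p.1)).symm
  have hR : ∑ k : Option (Fin q), ∑ i : Option (Fin ℓ),
        (((g : ℍ → ℂ) ∣[(2 : ℤ)] PeriodHecke.hGL ℓ i) ∣[(2 : ℤ)]
          (ModularForm.heckeMatrix q 0)) ∣[(2 : ℤ)] (R.r k) =
      ∑ p : Option (Fin ℓ) × Option (Fin q),
        (((g : ℍ → ℂ) ∣[(2 : ℤ)] PeriodHecke.hGL ℓ p.1) ∣[(2 : ℤ)]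
          (ModularForm.heckeMatrix q 0)) ∣[(2 : ℤ)] (R.r p.2) :=
    (Fintype.sum_prod_type_right (fun p : Option (Fin ℓ) × Option (Fin q) =>
      (((g : ℍ → ℂ) ∣[(2 : ℤ)] PeriodHecke.hGL ℓ p.1) ∣[(2 : ℤ)]
        (ModularForm.heckeMatrix q 0)) ∣[(2 : ℤ)] (R.r p.2))).symm
  rw [s35hkb_heckeT_eq_sum, s35hkb_heckeT_eq_sum]
  simp only [SlashAction.sum_slash]
  rw [hL, hR, Finset.sum_congr rfl (fun p _ => hG p)]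
  exact ((Equiv.ofBijective φ hbij).sum_comp (fun p : Option (Fin ℓ) × Option (Fin q) =>
    (((g : ℍ → ℂ) ∣[(2 : ℤ)] (ModularForm.heckeMatrix q 0)) ∣[(2 : ℤ)] (R.r p.2))
      ∣[(2 : ℤ)] PeriodHecke.hGL ℓ p.1)).symm

end Fermat.Agent.S35
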