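import Fermat.Agent.S35.LatFormA
import Fermat.Agent.S35.LatFormB
import Fermat.Agent.S35.LatEigen
import Fermat.Prelude.Def_CuspForm_Newforms
import Fermat.Agent.S42.EigenIntegral
import Fermat.Agent.S21.Linear

/-!
# P20 (S35), block LAT-NEW: the period character of a newform is `q`-new

`s35_cores_periodMap_eq_zero`: for a newform `g` of level `N q` (`q ∤ N` prime), both transfers
to `Γ₀(N)` of the period character of `g` vanish.  Indeed the transfer is the period character of
a cusp form `h` of level `N` (`s35_exists_form_coresA/B`) which is an eigenvector of all `T_ℓ`,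
`ℓ ∤ N q`, with the eigenvalues of `g`; if `h ≠ 0` the eigensystem of `g` would occur at level `N`
(`s35_occurs_of_eigen`), contradicting `IsNewform`.
-/

set_option autoImplicit false

namespace Fermat.Agent.S35

open CongruenceSubgroup ModularCurve AlgebraicCurve UpperHalfPlane
open Fermat.Agent.S31 Fermat.Agent.S42 Fermat.Agent.S30
open scoped MatrixGroups

/-- (NEW) The period character of a newform is `q`-new. -/
theorem s35_cores_periodMap_eq_zero {N q : ℕ} [NeZero N] [NeZero q] (hq : q.Prime) (hqN : ¬ q ∣ N)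
    {g : CuspForm (Gamma0 (N * q)) 2} (hg : g.IsNewform) :
    (∀ R : S35RightReps (Gamma0 (N * q)) (Gamma0 N) (Option (Fin q)),
      R.cores (periodMap (N * q) g) = 0) ∧
    (∀ R : S35RightReps (s35_HB N q) (Gamma0 N) (Option (Fin q)),
      R.cores (s35_charB N q (periodMap (N * q) g)) = 0) := by
  have hNq : NeZero (N * q) := ⟨Nat.mul_ne_zero (NeZero.ne N) (NeZero.ne q)⟩
  have hev : ∀ ℓ : ℕ, ℓ.Prime → ¬ ℓ ∣ N * q →
      ∀ τ : ℍ, ModularForm.heckeT 2 ℓ (g : ℍ → ℂ) τ = ModularFormClass.qCoeff g ℓ * g τ := by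
    intro ℓ hℓ hℓN τ
    rw [heckeT_eq_qCoeff_smul hg.1 hℓ hℓN]
    rfl
  have hne : N ≠ N * q := by
    intro h
    have h1 : N * 1 = N * q := by rw [mul_one]; exact h
    have h2 := Nat.eq_of_mul_eq_mul_left (Nat.pos_of_ne_zero (NeZero.ne N)) h1
    exact hq.one_lt.ne h2
  have hnot : ¬ CuspForm.GoodEigensystemOccursAt g N := hg.2 N (dvd_mul_right N q) hne
  have key : ∀ h : CuspForm (Gamma0 N) 2,
      (∀ ℓ : ℕ, ℓ.Prime → ¬ ℓ ∣ N * q →
        ∀ τ : ℍ, ModularForm.heckeT 2 ℓ (h : ℍ → ℂ) τ = ModularFormClass.qCoeff g ℓ * h τ) →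
      periodMap N h = 0 := by
    intro h hh
    by_contra hper
    have h0 : h ≠ 0 := by
      rintro rfl
      apply hper
      obtain ⟨pml, hpml⟩ := Fermat.Agent.S21.existsPeriodMapLinear' N
      rw [← hpml, map_zero]
    exact hnot (s35_occurs_of_eigen h h0 hh)
  constructor
  · intro R
    obtain ⟨h, hper, hh⟩ :=
      s35_exists_form_coresA hq hqN g (fun ℓ => ModularFormClass.qCoeff g ℓ) hev R
    rw [← hper]
    exact key h hh
  · intro R
    obtain ⟨h, hper, hh⟩ :=
      s35_exists_form_coresB hq hqN g (fun ℓ => ModularFormClass.qCoeff g ℓ) hev R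
    rw [← hper]
    exact key h hh

end Fermat.Agent.S35
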