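import Fermat.Agent.S35.Defs
import Fermat.Agent.S42.PeriodHecke
import Fermat.Agent.S42.PeriodEigen

/-!
# P20 (S35), block LAT-MOD, leaf (A2), second team

The period map intertwines the trace of cusp forms from level `Γ₀(N q)` to level `Γ₀(N)` with
the corestriction of additive characters: if `h = ∑ i, g ∣[2] r i` over a system of
representatives of `Γ₀(N q) \ Γ₀(N)`, then `periodMap N h = cores (periodMap (N q) g)`.
-/

set_option autoImplicit false

namespace Fermat.Agent.S35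

open CongruenceSubgroup ModularCurve AlgebraicCurve UpperHalfPlane
open Fermat.Agent.S31 Fermat.Agent.S42 Fermat.Agent.S30
open scoped MatrixGroups ModularForm

/-- Chain rule for `w ↦ G (γ • w)`, `γ ∈ SL(2, ℤ)`. -/
theorem s35perb_hasDerivAt_sl {G g : ℍ → ℂ}
    (hG : ∀ τ : ℍ, HasDerivAt (G ∘ ofComplex) (g τ) (τ : ℂ)) (γ : SL(2, ℤ)) (τ : ℍ) :
    HasDerivAt ((fun w : ℍ => G (γ • w)) ∘ ofComplex) ((g ∣[(2 : ℤ)] γ) τ) (τ : ℂ) := by
  have hdet : ((γ : GL (Fin 2) ℝ) : Matrix (Fin 2) (Fin 2) ℝ).det = 1 :=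
    (Matrix.SpecialLinearGroup.map (Int.castRingHom ℝ) γ).det_coe
  have h1 := PeriodHecke.hasDerivAt_comp_gl hG (g := (γ : GL (Fin 2) ℝ))
    (by rw [hdet]; exact one_pos) τ
  rw [hdet] at h1
  have hval : (g ∣[(2 : ℤ)] γ) τ =
      g ((γ : GL (Fin 2) ℝ) • τ) * (((1 : ℝ) : ℂ) / denom (γ : GL (Fin 2) ℝ) (τ : ℂ) ^ 2) := by
    rw [ModularForm.SL_slash_apply, ModularGroup.sl_moeb, zpow_neg, Complex.ofReal_one, one_div]
    rfl
  rw [hval]
  exact h1

/-- **(A2)** The period map of a trace is the corestriction of the period map. -/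
theorem s35_periodMap_traceA_B {N q : ℕ} [NeZero N] [NeZero q]
    (g : CuspForm (Gamma0 (N * q)) 2)
    (R : S35RightReps (Gamma0 (N * q)) (Gamma0 N) (Option (Fin q)))
    (h : CuspForm (Gamma0 N) 2)
    (hh : (h : ℍ → ℂ) = ∑ i, (g : ℍ → ℂ) ∣[(2 : ℤ)] (R.r i)) :
    periodMap N h = R.cores (periodMap (N * q) g) := by
  obtain ⟨G, hG⟩ := Fermat.Agent.S21.exists_hasEquivariantPrimitive (N * q) g
  obtain ⟨F', hF'⟩ := Fermat.Agent.S21.exists_hasEquivariantPrimitive N h
  rw [Fermat.Agent.S21.periodMap_eq_periodHom_of N h hF',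
    Fermat.Agent.S21.periodMap_eq_periodHom_of (N * q) g hG]
  suffices H : ∀ δ : ↥(Gamma0 N), hF'.2.2.1.periodHom (Additive.ofMul δ) =
      R.cores hG.2.2.1.periodHom (Additive.ofMul δ) from
    AddMonoidHom.ext fun δ' => H (Additive.toMul δ')
  intro δ
  rw [R.cores_apply]
  simp only [Period.IsEquivariantPrimitive.periodHom_apply]
  obtain ⟨c, hc⟩ := Fermat.Agent.S21.eq_add_const_of_hasDerivAt
    (G₁ := fun w : ℍ => ∑ i : Option (Fin q), G (R.r i • w)) (G₂ := F')
    (g := fun τ => h τ)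
    (fun τ => by
      show HasDerivAt _ (h τ) (τ : ℂ)
      have h1 : ∀ i ∈ (Finset.univ : Finset (Option (Fin q))),
          HasDerivAt ((fun w : ℍ => G (R.r i • w)) ∘ ofComplex)
            (((g : ℍ → ℂ) ∣[(2 : ℤ)] (R.r i)) τ) (τ : ℂ) :=
        fun i _ => s35perb_hasDerivAt_sl hG.1 (R.r i) τ
      have h2 := HasDerivAt.fun_sum h1
      have hfun : (fun z : ℂ => ∑ i : Option (Fin q),
            ((fun w : ℍ => G (R.r i • w)) ∘ ofComplex) z)
          = (fun w : ℍ => ∑ i : Option (Fin q), G (R.r i • w)) ∘ ofComplex := by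
        funext z
        simp only [Function.comp_apply]
      rw [hfun] at h2
      have hval : h τ = ∑ i : Option (Fin q), ((g : ℍ → ℂ) ∣[(2 : ℤ)] (R.r i)) τ := by
        have h3 := congrFun hh τ
        rw [Finset.sum_apply] at h3
        exact h3
      rw [hval]
      exact h2)
    hF'.1
  have e1 : hF'.2.2.1.period δ
      = F' ((δ : SL(2, ℤ)) • UpperHalfPlane.I) - F' UpperHalfPlane.I := rfl
  have e2 := hc ((δ : SL(2, ℤ)) • UpperHalfPlane.I)
  have e3 := hc UpperHalfPlane.I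
  have e4 : ∀ i : Option (Fin q), G (R.r i • ((δ : SL(2, ℤ)) • UpperHalfPlane.I))
      = hG.2.2.1.period (R.elt δ i) + G (R.r (R.idx δ i) • UpperHalfPlane.I) := by
    intro i
    rw [← mul_smul, ← R.elt_mul_r δ i, mul_smul,
      ← hG.2.2.1.sub_eq_period (R.elt δ i) (R.r (R.idx δ i) • UpperHalfPlane.I)]
    ring
  have e5 : ∑ i : Option (Fin q), G (R.r (R.idx δ i) • UpperHalfPlane.I)
      = ∑ i : Option (Fin q), G (R.r i • UpperHalfPlane.I) :=
    Equiv.sum_comp (R.perm δ) (fun i => G (R.r i • UpperHalfPlane.I))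
  simp only [e4, Finset.sum_add_distrib] at e2
  rw [e5] at e2
  rw [e1]
  linear_combination e3 - e2

end Fermat.Agent.S35
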