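import Fermat.Agent.S35.Defs
import Fermat.Agent.S42.PeriodHecke
import Fermat.Agent.S42.PeriodEigen

/-!
P20 (S35), block LAT-MOD, sub-leaf (A1), second team: the trace of a cusp form of level
`Γ₀(N q)` to level `Γ₀(N)`, written as the sum of the slashes by a system of representatives of
`Γ₀(N q) \ Γ₀(N)`.  The form is Mathlib's `CuspForm.trace`; its underlying sum over the quotient
`ℋ ⧸ 𝒢` is reindexed along the bijection `i ↦ (r i)⁻¹ 𝒢`.
-/

set_option autoImplicit false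

namespace Fermat.Agent.S35

open CongruenceSubgroup ModularCurve AlgebraicCurve UpperHalfPlane
open Fermat.Agent.S31 Fermat.Agent.S42 Fermat.Agent.S30
open scoped MatrixGroups ModularForm

/-- (A1) The sum of the slashes of `g` by the representatives `R.r i` is a cusp form of level
`Γ₀(N)`. -/
theorem s35_exists_traceA_B {N q : ℕ} [NeZero N] [NeZero q]
    (g : CuspForm (Gamma0 (N * q)) 2)
    (R : S35RightReps (Gamma0 (N * q)) (Gamma0 N) (Option (Fin q))) :
    ∃ h : CuspForm (Gamma0 N) 2,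
      (h : ℍ → ℂ) = ∑ i, (g : ℍ → ℂ) ∣[(2 : ℤ)] (R.r i) := by
  have hfin : (Subgroup.map (Matrix.SpecialLinearGroup.mapGL ℝ) (Gamma0 (N * q))).IsFiniteRelIndex
      (Subgroup.map (Matrix.SpecialLinearGroup.mapGL ℝ) (Gamma0 N)) :=
    Subgroup.isFiniteRelIndex_of_le_right _ (Subgroup.map_le_range _ _)
  refine ⟨CuspForm.trace (Subgroup.map (Matrix.SpecialLinearGroup.mapGL ℝ) (Gamma0 N)) g, ?_⟩
  rw [CuspForm.coe_trace]
  have hmem : ∀ γ : SL(2, ℤ), γ ∈ Gamma0 N → Matrix.SpecialLinearGroup.mapGL ℝ γ ∈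
      Subgroup.map (Matrix.SpecialLinearGroup.mapGL ℝ) (Gamma0 N) :=
    fun γ hγ => Subgroup.mem_map_of_mem _ hγ
  have hinj_map : Function.Injective
      (Matrix.SpecialLinearGroup.mapGL ℝ : SL(2, ℤ) →* GL (Fin 2) ℝ) :=
    Matrix.SpecialLinearGroup.mapGL_injective
  have he : Function.Bijective (fun i : Option (Fin q) =>
      (QuotientGroup.mk ⟨Matrix.SpecialLinearGroup.mapGL ℝ (R.r i)⁻¹,
        hmem _ ((Gamma0 N).inv_mem (R.mem i))⟩ :
        (Subgroup.map (Matrix.SpecialLinearGroup.mapGL ℝ) (Gamma0 N)) ⧸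
          (Subgroup.map (Matrix.SpecialLinearGroup.mapGL ℝ) (Gamma0 (N * q))).subgroupOf
            (Subgroup.map (Matrix.SpecialLinearGroup.mapGL ℝ) (Gamma0 N)))) := by
    constructor
    · intro i j hij
      rw [QuotientGroup.eq, Subgroup.mem_subgroupOf] at hij
      apply R.inj
      obtain ⟨γ, hγ, hγe⟩ := hij
      have h1 : γ = R.r i * (R.r j)⁻¹ := hinj_map (by rw [hγe]; simp)
      rw [← h1]
      exact hγ
    · intro x
      induction x using QuotientGroup.induction_on with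
      | _ x =>
        obtain ⟨x, hx⟩ := x
        obtain ⟨γ, hγ, rfl⟩ := hx
        obtain ⟨i, hi⟩ := R.cover γ⁻¹ ((Gamma0 N).inv_mem hγ)
        refine ⟨i, ?_⟩
        rw [QuotientGroup.eq, Subgroup.mem_subgroupOf]
        refine ⟨R.r i * γ, ?_, ?_⟩
        · have h1 : R.r i * γ = (γ⁻¹ * (R.r i)⁻¹)⁻¹ := by group
          rw [h1]
          exact (Gamma0 (N * q)).inv_mem hi
        · simp
  let _ : Fintype ((Subgroup.map (Matrix.SpecialLinearGroup.mapGL ℝ) (Gamma0 N)) ⧸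
      (Subgroup.map (Matrix.SpecialLinearGroup.mapGL ℝ) (Gamma0 (N * q))).subgroupOf
        (Subgroup.map (Matrix.SpecialLinearGroup.mapGL ℝ) (Gamma0 N))) := Fintype.ofFinite _
  symm
  refine Fintype.sum_bijective _ he _ _ (fun i => ?_)
  show (g : ℍ → ℂ) ∣[(2 : ℤ)] (Matrix.SpecialLinearGroup.mapGL ℝ (R.r i)) =
    (g : ℍ → ℂ) ∣[(2 : ℤ)] ((Matrix.SpecialLinearGroup.mapGL ℝ (R.r i)⁻¹)⁻¹)
  rw [map_inv, inv_inv]

end Fermat.Agent.S35
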