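import Fermat.Agent.S35.Defs
import Fermat.Agent.S42.PeriodHecke
import Fermat.Agent.S42.PeriodEigen
import Fermat.Agent.S35.LatPerB

/-!
# P20 (S35), block LAT-MOD, leaf (B1), second team: the `B`-side trace form

For a cusp form `g` of weight `2` and level `Γ₀(N q)`, `β = (1 0; 0 q)`
(`ModularForm.heckeMatrix q 0`) and any system `R` of representatives of the right cosets
`(Γ₀(N) ∩ Γ⁰(q)) \ Γ₀(N)`, the sum `∑ i, (g ∣[2] β) ∣[2] (R.r i)` is a cusp form of level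
`Γ₀(N)`: Mathlib's `CuspForm.translate` and `CuspForm.trace`, reindexed along `R`.
-/

set_option autoImplicit false

namespace Fermat.Agent.S35

open CongruenceSubgroup ModularCurve AlgebraicCurve UpperHalfPlane
open Fermat.Agent.S31 Fermat.Agent.S42 Fermat.Agent.S30
open scoped MatrixGroups ModularForm

open Matrix.SpecialLinearGroup in
/-- The trace to `G ≤ SL(2, ℤ)` of a weight `2` cusp form for a subgroup `𝒢` of `GL(2, ℝ)` whose
intersection with (the image of) `G` is (the image of) `H`, written as the sum of the translates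
by a system of representatives of the right cosets `H \ G`. -/
theorem s35trbb_exists_trace {𝒢 : Subgroup (GL (Fin 2) ℝ)} {H G : Subgroup SL(2, ℤ)}
    {ι : Type*} [Fintype ι] (f : CuspForm 𝒢 2) (R : S35RightReps H G ι)
    (h1 : ∀ x ∈ H, mapGL ℝ x ∈ 𝒢) (h2 : ∀ x ∈ G, mapGL ℝ x ∈ 𝒢 → x ∈ H) :
    ∃ h : CuspForm G 2, (h : ℍ → ℂ) = ∑ i, (f : ℍ → ℂ) ∣[(2 : ℤ)] (R.r i) := by
  let e : ι → (G.map (mapGL ℝ) : Subgroup (GL (Fin 2) ℝ)) ⧸ 𝒢.subgroupOf (G.map (mapGL ℝ)) :=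
    fun i => QuotientGroup.mk
      ⟨mapGL ℝ (R.r i)⁻¹, Subgroup.mem_map_of_mem _ (G.inv_mem (R.mem i))⟩
  have he : Function.Bijective e := by
    constructor
    · intro i j hij
      apply R.inj
      have h3 := QuotientGroup.eq.mp hij
      rw [Subgroup.mem_subgroupOf] at h3
      have h4 : mapGL ℝ (R.r i * (R.r j)⁻¹) ∈ 𝒢 := by
        convert h3 using 1
        simp [map_mul, map_inv]
      exact h2 _ (G.mul_mem (R.mem i) (G.inv_mem (R.mem j))) h4
    · intro c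
      induction c using QuotientGroup.induction_on with
      | H x =>
        obtain ⟨x, hx⟩ := x
        obtain ⟨γ, hγ, rfl⟩ := Subgroup.mem_map.mp hx
        obtain ⟨i, hi⟩ := R.cover γ⁻¹ (G.inv_mem hγ)
        refine ⟨i, QuotientGroup.eq.mpr ?_⟩
        rw [Subgroup.mem_subgroupOf]
        have h4 : mapGL ℝ (R.r i * γ) ∈ 𝒢 := by
          apply h1
          have h5 : R.r i * γ = (γ⁻¹ * (R.r i)⁻¹)⁻¹ := by group
          rw [h5]
          exact H.inv_mem hi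
        convert h4 using 1
        simp [map_mul, map_inv]
  have hfin : Finite ((G.map (mapGL ℝ) : Subgroup (GL (Fin 2) ℝ)) ⧸
      𝒢.subgroupOf (G.map (mapGL ℝ))) := Finite.of_surjective e he.2
  have : 𝒢.IsFiniteRelIndex (G.map (mapGL ℝ)) :=
    Subgroup.isFiniteRelIndex_iff_finiteIndex.mpr Subgroup.finiteIndex_of_finite_quotient
  refine ⟨CuspForm.trace (G.map (mapGL ℝ)) f, ?_⟩
  rw [CuspForm.coe_trace]
  let _ : Fintype ((G.map (mapGL ℝ) : Subgroup (GL (Fin 2) ℝ)) ⧸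
      𝒢.subgroupOf (G.map (mapGL ℝ))) := Fintype.ofFinite _
  have hval : ∀ i, SlashInvariantForm.quotientFunc f (e i) = (f : ℍ → ℂ) ∣[(2 : ℤ)] (R.r i) := by
    intro i
    show (f : ℍ → ℂ) ∣[(2 : ℤ)] (mapGL ℝ (R.r i)⁻¹)⁻¹ = _
    rw [map_inv, inv_inv]
    rfl
  rw [← he.sum_comp]
  exact Finset.sum_congr rfl fun i _ => hval i

open Matrix.SpecialLinearGroup in
/-- (B1) The trace form along `Γ₀(N) ∩ Γ⁰(q) ⊂ Γ₀(N)` of `g ∣[2] (1 0; 0 q)`. -/
theorem s35_exists_traceB_B {N q : ℕ} [NeZero N] [NeZero q] (hq : q.Prime) (hqN : ¬ q ∣ N)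
    (g : CuspForm (Gamma0 (N * q)) 2)
    (R : S35RightReps (s35_HB N q) (Gamma0 N) (Option (Fin q))) :
    ∃ h : CuspForm (Gamma0 N) 2,
      (h : ℍ → ℂ) = ∑ i, ((g : ℍ → ℂ) ∣[(2 : ℤ)] (ModularForm.heckeMatrix q 0))
        ∣[(2 : ℤ)] (R.r i) := by
  have _ := hq
  have _ := hqN
  have hq0 : q ≠ 0 := NeZero.ne q
  refine s35trbb_exists_trace (CuspForm.translate g (ModularForm.heckeMatrix q 0)) R ?_ ?_
  · intro x hx
    rw [map_inv, Subgroup.mem_inv_pointwise_smul_iff, ConjAct.toConjAct_smul]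
    have h3 : ModularForm.heckeMatrix q 0 * mapGL ℝ x =
        mapGL ℝ ((s35_kappaB N q ⟨x, hx⟩ : ↥(Gamma0 (N * q))) : SL(2, ℤ)) *
          ModularForm.heckeMatrix q 0 := s35pB_conj (N := N) hq0 ⟨x, hx⟩
    rw [h3, mul_inv_cancel_right]
    exact Subgroup.mem_map_of_mem _ (s35_kappaB N q ⟨x, hx⟩).2
  · intro x hx hmem
    rw [map_inv, Subgroup.mem_inv_pointwise_smul_iff, ConjAct.toConjAct_smul] at hmem
    obtain ⟨γ, -, hγe⟩ := Subgroup.mem_map.mp hmem
    refine ⟨hx, ?_⟩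
    have h3 : mapGL ℝ γ * ModularForm.heckeMatrix q 0 = ModularForm.heckeMatrix q 0 * mapGL ℝ x := by
      rw [hγe, inv_mul_cancel_right]
    have h4 := congrArg (fun M : GL (Fin 2) ℝ => (M : Matrix (Fin 2) (Fin 2) ℝ) 0 1) h3
    simp [Matrix.mul_apply, Fin.sum_univ_two, ModularForm.val_heckeMatrix hq0] at h4
    refine ⟨γ 0 1, ?_⟩
    have h5 : ((x 0 1 : ℤ) : ℝ) = (((q : ℤ) * γ 0 1 : ℤ) : ℝ) := by
      push_cast
      linarith
    exact_mod_cast h5

end Fermat.Agent.S35
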