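import Fermat.Agent.S35.N3Defs
import Fermat.Agent.S34.KronGalO
import Fermat.Agent.S37.Frob
import Fermat.Agent.S37.Kronecker

/-!
# P20 (S35), block N3, leaf G1: Frobenius elements and the semi-local ring `𝒪`

Let `A` be a valuation ring of `ℚ̄` and `σ` a Frobenius element at `A` (for the prime `q`).  Then
`σ` (acting coefficientwise on `F_{Nq}` over `ℚ̄`) preserves the semi-local ring
`𝒪 = V_∞ ∩ W⁻¹ V_∞` (`s35n3_frob_mem`), and on both reductions it induces the `q`-power Frobenius
of the coefficients, i.e. `red (σ z) (T^q) = (red z)^q` (`s35n3_redInf_frob`,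
`s35n3_redZero_frob`).  Pure assembly of `S34/KronGalO.lean` (Galois and the two reductions),
`S37/Frob.lean` (Frobenius elements on residues) and `S37/Kronecker.lean` (`pow_char`).
-/

set_option autoImplicit false

namespace Fermat.Agent.S35

open ModularCurve AlgebraicCurve Fermat.Agent.S18 Fermat.Agent.S34 Fermat.Agent.S37

local notation "Qb" => AlgebraicClosure ℚ

section LeafG

variable (A : ValuationSubring Qb)

/-- The ring endomorphism of the residue field of `A` induced by an element of the decomposition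
group of `A`. -/
noncomputable def s35n3g_sbar (σ : Qb ≃ₐ[ℚ] Qb) (h : σ ∈ A.decompositionSubgroup ℚ) :
    IsLocalRing.ResidueField ↥A →+* IsLocalRing.ResidueField ↥A :=
  MulSemiringAction.toRingHom (↥(A.decompositionSubgroup ℚ)) (IsLocalRing.ResidueField ↥A)
    (⟨σ, h⟩ : ↥(A.decompositionSubgroup ℚ))

theorem s35n3g_sbar_apply (σ : Qb ≃ₐ[ℚ] Qb) (h : σ ∈ A.decompositionSubgroup ℚ)
    (x : IsLocalRing.ResidueField ↥A) :
    s35n3g_sbar A σ h x = (⟨σ, h⟩ : ↥(A.decompositionSubgroup ℚ)) • x :=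
  rfl

/-- Elements of the decomposition group preserve `A`. -/
theorem s35n3g_mem (σ : Qb ≃ₐ[ℚ] Qb) (h : σ ∈ A.decompositionSubgroup ℚ) :
    ∀ a ∈ A.toSubring, σ a ∈ A.toSubring :=
  fun _ ha => apply_mem_of_mem_decomposition h ha

/-- The compatibility of `σ` with the residue map. -/
theorem s35n3g_res (σ : Qb ≃ₐ[ℚ] Qb) (h : σ ∈ A.decompositionSubgroup ℚ)
    (a : ↥A.toSubring) :
    resA A ⟨σ a, s35n3g_mem A σ h a a.2⟩ = s35n3g_sbar A σ h (resA A a) := by
  rw [s35n3g_sbar_apply]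
  exact (smul_residue h a.2).symm

/-- A Frobenius element at `A` induces the `q`-power map on the residue field. -/
theorem s35n3g_sbar_frob {q : ℕ} (σ : Qb ≃ₐ[ℚ] Qb) (hσ : A.IsFrobeniusAt σ q)
    (x : IsLocalRing.ResidueField ↥A) :
    s35n3g_sbar A σ hσ.mem_decompositionSubgroup x = x ^ q := by
  rw [s35n3g_sbar_apply]
  exact hσ.smul_residue_eq x

/-- In characteristic `q`: if `s` is the `q`-power map, then `(s X)(T^q) = X^q`. -/
theorem s35n3g_qExpand_coeffMap {k : Type*} [Field k] (q : ℕ) [NeZero q] (hq : q.Prime)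
    [CharP k q] (s : k →+* k) (hs : ∀ x : k, s x = x ^ q) (X : LaurentSeries k) :
    qExpand k q (coeffMap s X) = X ^ q := by
  have : Fact q.Prime := ⟨hq⟩
  rw [Fermat.Agent.S37.Kronecker.pow_char q]
  congr 1
  refine coeffMap_congr (RingHom.ext fun c => ?_) X
  rw [frobenius_def]
  exact hs c

variable (N q : ℕ) [NeZero N] [NeZero q] (hcop : Nat.Coprime N q)

theorem s35n3_frob_mem (hq : q.Prime) (σ : Qb ≃ₐ[ℚ] Qb) (hσ : A.IsFrobeniusAt σ q)
    {z : ↥(modularFunctionFieldBar (N * q))} (hz : z ∈ s35_O A N q hcop) :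
    arithmeticRingAut (modularFunctionFieldFull (N * q)) σ z ∈ s35_O A N q hcop :=
  kronO_ringAut_mem (Λ := A.toSubring) (res := resA A) barToComplex N q hcop hq σ
    (s35n3g_mem A σ hσ.mem_decompositionSubgroup)
    (s35n3g_sbar A σ hσ.mem_decompositionSubgroup)
    (s35n3g_res A σ hσ.mem_decompositionSubgroup) hz

theorem s35n3_redInf_frob (hq : q.Prime) (hA : A.LiesOverPrime q) (σ : Qb ≃ₐ[ℚ] Qb)
    (hσ : A.IsFrobeniusAt σ q) (z : ↥(s35_O A N q hcop)) :
    qExpand (IsLocalRing.ResidueField ↥A) q (s35_redInf A N q hcop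
        ⟨_, s35n3_frob_mem A N q hcop hq σ hσ z.2⟩) =
      s35_redInf A N q hcop z ^ q := by
  have : CharP (IsLocalRing.ResidueField ↥A) q := charP_residueField A hq hA
  have h := kronRedInf_ringAut (Λ := A.toSubring) (res := resA A) barToComplex N q hcop hq σ
    (s35n3g_mem A σ hσ.mem_decompositionSubgroup)
    (s35n3g_sbar A σ hσ.mem_decompositionSubgroup)
    (s35n3g_res A σ hσ.mem_decompositionSubgroup) z.2
  have h' : s35_redInf A N q hcop ⟨_, s35n3_frob_mem A N q hcop hq σ hσ z.2⟩ =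
      coeffMap (s35n3g_sbar A σ hσ.mem_decompositionSubgroup) (s35_redInf A N q hcop z) := h
  rw [h']
  exact s35n3g_qExpand_coeffMap q hq _ (s35n3g_sbar_frob A σ hσ) _

theorem s35n3_redZero_frob (hq : q.Prime) (hA : A.LiesOverPrime q) (σ : Qb ≃ₐ[ℚ] Qb)
    (hσ : A.IsFrobeniusAt σ q) (z : ↥(s35_O A N q hcop)) :
    qExpand (IsLocalRing.ResidueField ↥A) q (s35_redZero A N q hcop
        ⟨_, s35n3_frob_mem A N q hcop hq σ hσ z.2⟩) =
      s35_redZero A N q hcop z ^ q := by
  have : CharP (IsLocalRing.ResidueField ↥A) q := charP_residueField A hq hA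
  have h := kronRedZero_ringAut (Λ := A.toSubring) (res := resA A) barToComplex N q hcop hq σ
    (s35n3g_mem A σ hσ.mem_decompositionSubgroup)
    (s35n3g_sbar A σ hσ.mem_decompositionSubgroup)
    (s35n3g_res A σ hσ.mem_decompositionSubgroup) z.2
  have h' : s35_redZero A N q hcop ⟨_, s35n3_frob_mem A N q hcop hq σ hσ z.2⟩ =
      coeffMap (s35n3g_sbar A σ hσ.mem_decompositionSubgroup) (s35_redZero A N q hcop z) := h
  rw [h']
  exact s35n3g_qExpand_coeffMap q hq _ (s35n3g_sbar_frob A σ hσ) _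

end LeafG

end Fermat.Agent.S35
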