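import Fermat.Agent.S35.N3Defs
import Fermat.Agent.S34.GalField
import Fermat.Agent.S34.DegK

/-!
# P20 (S35), block N3, leaf B (second team): norms along `α`, `β` and base change

* `s35n3_normAlong_beta_eq_B` : `N_β(u) = N_α(W u)`;
* `s35n3_normAlong_alpha_emb_B` : the norm along `α` commutes with the coefficientwise embedding
  `F(K) → F(ℚ̄)`.
-/

set_option autoImplicit false

namespace Fermat.Agent.S35

open ModularCurve AlgebraicCurve Fermat.Agent.S18 Fermat.Agent.S34

local notation "Qb" => AlgebraicClosure ℚ

/-- **Norm and base change (abstract).**  `E → F` a finite field extension, `E' → F'` another one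
of the same degree, `e : E → E'`, `f : F → F'` compatible ring homs such that `F'` is generated as
a field by `E'` and `f(F)`.  Then `e (N_{F/E} u) = N_{F'/E'} (f u)`. -/
theorem s35n3bB_norm_map {E F E' F' : Type*} [Field E] [Field F] [Field E'] [Field F']
    [Algebra E F] [Algebra E' F'] [FiniteDimensional E F] (e : E →+* E') (f : F →+* F')
    (hcomp : ∀ x, f (algebraMap E F x) = algebraMap E' F' (e x))
    (hrank : Module.finrank E' F' = Module.finrank E F)
    (hgen : ∀ S : Subfield F', (∀ x, algebraMap E' F' x ∈ S) → (∀ y, f y ∈ S) → ∀ z, z ∈ S)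
    (u : F) : e (Algebra.norm E u) = Algebra.norm E' (f u) := by
  classical
  have hpos : 0 < Module.finrank E F := Module.finrank_pos
  have hfin' : FiniteDimensional E' F' := Module.finite_of_finrank_pos (by rw [hrank]; exact hpos)
  set n := Module.finrank E F with hn
  let b : Module.Basis (Fin n) E F := Module.finBasis E F
  -- image of an `E`-combination
  have hsum : ∀ (c : Fin n → E), f (∑ i, c i • b i) = ∑ i, e (c i) • f (b i) := by
    intro c
    rw [map_sum]
    refine Finset.sum_congr rfl fun i _ => ?_
    rw [Algebra.smul_def, map_mul, hcomp, Algebra.smul_def]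
  let T : Submodule E' F' := Submodule.span E' (Set.range (f ∘ b))
  have hfT : ∀ y : F, f y ∈ T := by
    intro y
    rw [← b.sum_repr y, hsum]
    exact Submodule.sum_mem _ fun i _ =>
      Submodule.smul_mem _ _ (Submodule.subset_span ⟨i, rfl⟩)
  -- the subalgebra generated by `f(F)` stabilises `T`
  have hstab : ∀ r ∈ Algebra.adjoin E' (Set.range f), ∀ t ∈ T, r * t ∈ T := by
    intro r hr
    induction hr using Algebra.adjoin_induction with
    | mem x hx =>
      obtain ⟨y, rfl⟩ := hx
      intro t ht
      induction ht using Submodule.span_induction with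
      | mem z hz =>
        obtain ⟨i, rfl⟩ := hz
        rw [Function.comp_apply, ← map_mul]
        exact hfT _
      | zero => rw [mul_zero]; exact T.zero_mem
      | add z w _ _ hz hw => rw [mul_add]; exact T.add_mem hz hw
      | smul c z _ hz => rw [mul_smul_comm]; exact T.smul_mem c hz
    | algebraMap c =>
      intro t ht
      rw [← Algebra.smul_def]
      exact T.smul_mem c ht
    | add x y _ _ hx hy =>
      intro t ht
      rw [add_mul]
      exact T.add_mem (hx t ht) (hy t ht)
    | mul x y _ _ hx hy =>
      intro t ht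
      rw [mul_assoc]
      exact hx _ (hy t ht)
  -- the subalgebra is a field, hence everything
  let S : Subfield F' :=
    { (Algebra.adjoin E' (Set.range f)).toSubring with
      inv_mem' := fun x hx => by
        have hx' : x ∈ Algebra.adjoin E' (Set.range f) := hx
        have := (Algebra.adjoin E' (Set.range f)).inv_mem_of_algebraic (x := ⟨x, hx'⟩)
          (Algebra.IsAlgebraic.isAlgebraic (R := E') x)
        exact this }
  have hS : ∀ z : F', z ∈ Algebra.adjoin E' (Set.range f) := fun z =>
    hgen S (fun x => (Algebra.adjoin E' (Set.range f)).algebraMap_mem x)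
      (fun y => Algebra.subset_adjoin ⟨y, rfl⟩) z
  have htop : ⊤ ≤ Submodule.span E' (Set.range (f ∘ b)) := by
    intro z _
    have h1 : z * 1 ∈ T := hstab z (hS z) 1 (by rw [← map_one f]; exact hfT 1)
    rwa [mul_one] at h1
  have hcard : Fintype.card (Fin n) = Module.finrank E' F' := by
    rw [Fintype.card_fin, hrank]
  let b' : Module.Basis (Fin n) E' F' := basisOfTopLeSpanOfCardEqFinrank (f ∘ b) htop hcard
  have hb' : ∀ i, b' i = f (b i) := fun i => by
    show (basisOfTopLeSpanOfCardEqFinrank (f ∘ b) htop hcard) i = f (b i)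
    rw [coe_basisOfTopLeSpanOfCardEqFinrank]
    rfl
  rw [Algebra.norm_eq_matrix_det b u, Algebra.norm_eq_matrix_det b' (f u), RingHom.map_det]
  congr 1
  ext i j
  rw [RingHom.mapMatrix_apply, Matrix.map_apply, Algebra.leftMulMatrix_eq_repr_mul,
    Algebra.leftMulMatrix_eq_repr_mul, hb', ← map_mul]
  have h1 : f (u * b j) = ∑ k, e (b.repr (u * b j) k) • b' k := by
    conv_lhs => rw [← b.sum_repr (u * b j)]
    rw [hsum]
    exact Finset.sum_congr rfl fun k _ => by rw [hb']
  rw [h1, b'.repr_sum_self]

/-- `N_β(u) = N_α(W u)` (second team). -/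
theorem s35n3_normAlong_beta_eq_B {L : Type*} [Field L] [Algebra ℚ L] (ι : L →+* ℂ) (M q : ℕ)
    [NeZero M] [NeZero q] (hcop : Nat.Coprime M q)
    (u : ↥(laurentBaseChange L (modularFunctionFieldFull (M * q)))) :
    s35_normAlong (heckeBetaBar L M q) u =
      s35_normAlong (heckeAlphaBar L M q) (kronW L ι M q hcop u) :=
  @Algebra.norm_eq_of_equiv_equiv _ _ _ _ _ _ _ _ (algebraAlong (heckeBetaBar L M q))
    (algebraAlong (heckeAlphaBar L M q)) (RingEquiv.refl _) (kronW L ι M q hcop).toRingEquiv
    (RingHom.ext fun g => (kronW_beta L ι M q hcop g).symm) u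

/-- The norm along `α` commutes with the base change `K → ℚ̄` (second team). -/
theorem s35n3_normAlong_alpha_emb_B (K : IntermediateField ℚ Qb) (N q : ℕ) [NeZero N] [NeZero q]
    (hq : q.Prime) (hqN : ¬ q ∣ N)
    (u : ↥(laurentBaseChange ↥K (modularFunctionFieldFull (N * q)))) :
    s34galEmb (modularFunctionFieldFull N) K (s35_normAlong (heckeAlphaBar ↥K N q) u) =
      s35_normAlong (heckeAlphaBar Qb N q) (s34galEmb (modularFunctionFieldFull (N * q)) K u) := by
  letI algK := algebraAlong (heckeAlphaBar ↥K N q)
  letI algQ := algebraAlong (heckeAlphaBar Qb N q)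
  have hK : Module.finrank ↥(laurentBaseChange ↥K (modularFunctionFieldFull N))
      ↥(laurentBaseChange ↥K (modularFunctionFieldFull (N * q))) = q + 1 :=
    s34deg_finrankAlong_alpha ↥K N q hq hqN
  have hQ : Module.finrank ↥(laurentBaseChange Qb (modularFunctionFieldFull N))
      ↥(laurentBaseChange Qb (modularFunctionFieldFull (N * q))) = q + 1 :=
    s34deg_finrankAlong_alpha Qb N q hq hqN
  haveI : FiniteDimensional ↥(laurentBaseChange ↥K (modularFunctionFieldFull N))
      ↥(laurentBaseChange ↥K (modularFunctionFieldFull (N * q))) :=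
    Module.finite_of_finrank_pos (by rw [hK]; omega)
  have hcomp : ∀ x : ↥(laurentBaseChange ↥K (modularFunctionFieldFull N)),
      s34galEmb (modularFunctionFieldFull (N * q)) K
        (algebraMap ↥(laurentBaseChange ↥K (modularFunctionFieldFull N))
          ↥(laurentBaseChange ↥K (modularFunctionFieldFull (N * q))) x) =
      algebraMap ↥(laurentBaseChange Qb (modularFunctionFieldFull N))
        ↥(laurentBaseChange Qb (modularFunctionFieldFull (N * q)))
        (s34galEmb (modularFunctionFieldFull N) K x) := by
    intro x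
    apply Subtype.ext
    show ((s34galEmb (modularFunctionFieldFull (N * q)) K (heckeAlphaBar ↥K N q x) :
        ↥(laurentBaseChange Qb (modularFunctionFieldFull (N * q)))) : LaurentSeries Qb) =
      ((heckeAlphaBar Qb N q (s34galEmb (modularFunctionFieldFull N) K x) :
        ↥(laurentBaseChange Qb (modularFunctionFieldFull (N * q)))) : LaurentSeries Qb)
    rw [coe_s34galEmb, coe_heckeAlphaBar, coe_heckeAlphaBar, coe_s34galEmb]
  have hgen : ∀ S : Subfield ↥(laurentBaseChange Qb (modularFunctionFieldFull (N * q))),
      (∀ x, algebraMap ↥(laurentBaseChange Qb (modularFunctionFieldFull N))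
        ↥(laurentBaseChange Qb (modularFunctionFieldFull (N * q))) x ∈ S) →
      (∀ y, s34galEmb (modularFunctionFieldFull (N * q)) K y ∈ S) → ∀ z, z ∈ S := by
    intro S h1 h2 z
    have hz := z.2
    rw [mem_laurentBaseChange_iff] at hz
    have hle : Subfield.closure
        (Set.range (algebraMap Qb (LaurentSeries Qb)) ∪
          (⇑(coeffEmb Qb) '' ((modularFunctionFieldFull (N * q) :
            IntermediateField ℚ (LaurentSeries ℚ)) : Set (LaurentSeries ℚ)))) ≤
        S.map (laurentBaseChange Qb (modularFunctionFieldFull (N * q))).val.toRingHom := by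
      rw [Subfield.closure_le]
      rintro y (⟨c, rfl⟩ | ⟨x, hx, rfl⟩)
      · refine ⟨algebraMap Qb ↥(laurentBaseChange Qb (modularFunctionFieldFull (N * q))) c, ?_, rfl⟩
        have h3 := h1 (algebraMap Qb ↥(laurentBaseChange Qb (modularFunctionFieldFull N)) c)
        have h4 : algebraMap ↥(laurentBaseChange Qb (modularFunctionFieldFull N))
            ↥(laurentBaseChange Qb (modularFunctionFieldFull (N * q)))
            (algebraMap Qb ↥(laurentBaseChange Qb (modularFunctionFieldFull N)) c) =
            algebraMap Qb ↥(laurentBaseChange Qb (modularFunctionFieldFull (N * q))) c :=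
          (heckeAlphaBar Qb N q).commutes c
        rw [h4] at h3
        exact h3
      · refine ⟨s34galEmb (modularFunctionFieldFull (N * q)) K
          ⟨coeffEmb ↥K x, coeffEmb_mem_laurentBaseChange ↥K hx⟩, h2 _, ?_⟩
        show coeffMap (algebraMap ↥K Qb) (coeffEmb ↥K x) = coeffEmb Qb x
        exact s34gal_coeffMap_coeffEmb _ x
    obtain ⟨s, hs, hsz⟩ := hle hz
    have hsz' : s = z := Subtype.ext hsz
    rw [← hsz']
    exact hs
  exact s35n3bB_norm_map (s34galEmb (modularFunctionFieldFull N) K)
    (s34galEmb (modularFunctionFieldFull (N * q)) K) hcomp (hQ.trans hK.symm) hgen u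

end Fermat.Agent.S35
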