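import Mathlib

/-!
# P20 (S35), block N3, abstract part (1): a determinant in characteristic `q`

`s35n3_det_pow_scalar` : over a field of characteristic `q`, a `q × q` matrix `D` with
`D ^ q = c • 1` has determinant `c` (`det D ^ q = det (D ^ q) = c ^ q` and the Frobenius is
injective).

`s35n3_det_block` : a `(1 + q) × (1 + q)` matrix `M` which is block diagonal `[c₀] ⊕ D` with
`(M ^ q)` restricted to the second block equal to `c₁ • 1` has determinant `c₀ * c₁`.

This is the residue computation of the norm of `u` from a ring `R`, free of rank `q + 1` over a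
discrete valuation ring with two primes above the maximal ideal, one of residue degree one and
one purely inseparable of degree `q`:  `Nm(u) ≡ red₀(u) · red_∞(u) ^ q`.
-/

set_option autoImplicit false

namespace Fermat.Agent.S35

open Matrix

/-- A `q × q` matrix over a field of characteristic `q` whose `q`-th power is the scalar `c` has
determinant `c`. -/
theorem s35n3_det_pow_scalar {k : Type*} [Field k] (q : ℕ) [Fact q.Prime] [CharP k q]
    (D : Matrix (Fin q) (Fin q) k) (c : k) (hD : D ^ q = c • (1 : Matrix (Fin q) (Fin q) k)) :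
    D.det = c := by
  have h1 : D.det ^ q = c ^ q := by
    rw [← Matrix.det_pow, hD, Matrix.det_smul, Matrix.det_one, mul_one, Fintype.card_fin]
  exact frobenius_inj k q h1

/-- Powers of a block diagonal matrix. -/
theorem s35n3_fromBlocks_diag_pow {k : Type*} [CommRing k] {m n : Type*} [Fintype m] [Fintype n]
    [DecidableEq m] [DecidableEq n] (A : Matrix m m k) (D : Matrix n n k) (e : ℕ) :
    (Matrix.fromBlocks A 0 0 D) ^ e = Matrix.fromBlocks (A ^ e) 0 0 (D ^ e) := by
  induction e with
  | zero => simp [Matrix.fromBlocks_one]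
  | succ e ih =>
    rw [pow_succ, ih, Matrix.fromBlocks_multiply, pow_succ, pow_succ]
    simp

/-- Reindexing along an equivalence commutes with powers. -/
theorem s35n3_submatrix_pow {k : Type*} [CommRing k] {m n : Type*} [Fintype m] [Fintype n]
    [DecidableEq m] [DecidableEq n] (M : Matrix n n k) (e : m ≃ n) (r : ℕ) :
    (M.submatrix e e) ^ r = (M ^ r).submatrix e e := by
  induction r with
  | zero => simp
  | succ r ih => rw [pow_succ, ih, pow_succ, Matrix.submatrix_mul_equiv]

/-- **The block determinant.**  `M` is block diagonal with blocks `[c₀]` and `D`, and the second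
block of `M ^ q` is the scalar `c₁`; then `det M = c₀ * c₁`. -/
theorem s35n3_det_block {k : Type*} [Field k] (q : ℕ) [Fact q.Prime] [CharP k q]
    (M : Matrix (Fin (1 + q)) (Fin (1 + q)) k) (c₀ c₁ : k)
    (h00 : M (Fin.castAdd q 0) (Fin.castAdd q 0) = c₀)
    (h0j : ∀ j : Fin q, M (Fin.castAdd q 0) (Fin.natAdd 1 j) = 0)
    (hi0 : ∀ i : Fin q, M (Fin.natAdd 1 i) (Fin.castAdd q 0) = 0)
    (hpow : ∀ i j : Fin q, (M ^ q) (Fin.natAdd 1 i) (Fin.natAdd 1 j) = if i = j then c₁ else 0) :
    M.det = c₀ * c₁ := by
  classical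
  -- reindex by `Fin 1 ⊕ Fin q`
  let e : Fin 1 ⊕ Fin q ≃ Fin (1 + q) := finSumFinEquiv
  let M' : Matrix (Fin 1 ⊕ Fin q) (Fin 1 ⊕ Fin q) k := M.submatrix e e
  have hdet : M'.det = M.det := Matrix.det_submatrix_equiv_self e M
  let A : Matrix (Fin 1) (Fin 1) k := Matrix.of fun _ _ => c₀
  let D : Matrix (Fin q) (Fin q) k := Matrix.of fun i j => M (Fin.natAdd 1 i) (Fin.natAdd 1 j)
  have hM' : M' = Matrix.fromBlocks A 0 0 D := by
    ext i j
    rcases i with i | i <;> rcases j with j | j
    · have hi : i = 0 := Subsingleton.elim _ _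
      have hj : j = 0 := Subsingleton.elim _ _
      subst hi; subst hj
      simp only [M', A, Matrix.submatrix_apply, Matrix.fromBlocks_apply₁₁, Matrix.of_apply, e,
        finSumFinEquiv_apply_left]
      exact h00
    · have hi : i = 0 := Subsingleton.elim _ _
      subst hi
      simp only [M', Matrix.submatrix_apply, Matrix.fromBlocks_apply₁₂, Matrix.zero_apply, e,
        finSumFinEquiv_apply_left, finSumFinEquiv_apply_right]
      exact h0j j
    · have hj : j = 0 := Subsingleton.elim _ _
      subst hj
      simp only [M', Matrix.submatrix_apply, Matrix.fromBlocks_apply₂₁, Matrix.zero_apply, e,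
        finSumFinEquiv_apply_left, finSumFinEquiv_apply_right]
      exact hi0 i
    · simp only [M', D, Matrix.submatrix_apply, Matrix.fromBlocks_apply₂₂, Matrix.of_apply, e,
        finSumFinEquiv_apply_right]
  -- the second block of `M ^ q`
  have hpow' : M' ^ q = (M ^ q).submatrix e e := s35n3_submatrix_pow M e q
  have hD : D ^ q = c₁ • (1 : Matrix (Fin q) (Fin q) k) := by
    have h1 : M' ^ q = Matrix.fromBlocks (A ^ q) 0 0 (D ^ q) := by
      rw [hM', s35n3_fromBlocks_diag_pow]
    ext i j
    have h2 : (M' ^ q) (Sum.inr i) (Sum.inr j) = (D ^ q) i j := by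
      rw [h1, Matrix.fromBlocks_apply₂₂]
    rw [← h2, hpow', Matrix.submatrix_apply]
    simp only [e, finSumFinEquiv_apply_right]
    rw [hpow i j, Matrix.smul_apply, Matrix.one_apply]
    split_ifs <;> simp
  have hDdet : D.det = c₁ := s35n3_det_pow_scalar q D c₁ hD
  have hAdet : A.det = c₀ := by
    rw [Matrix.det_unique]
    rfl
  rw [← hdet, hM', Matrix.det_fromBlocks_zero₂₁, hAdet, hDdet]

end Fermat.Agent.S35
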