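import Mathlib
import Fermat.Agent.S34.TwoValRes
import Fermat.Agent.S35.N3AbsDet

/-!
# P20 (S35), block N3, abstract part (2): the norm modulo `π` with two valuations above

Setting of `S34/TwoValK.lean`, `S34/TwoValRes.lean`: `F` a field, `K'` a field with an algebra
structure `K' → F`, `E` the image of `K'`, `V ⊆ E` a "discrete valuation ring" with uniformiser
`π`, and `O₁ ≠ O₂` two valuation rings of `F` above `V` in which `π` is a uniformiser, `O₁` with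
residue degree one and `O₂` with `q` residually independent elements, `[F : K'] ≤ 1 + q`, residue
characteristic `q`.

`s35n3_norm_two_val` : for `u ∈ O₁ ∩ O₂` with `u ≡ c₀ (mod π O₁)` and `u ^ q ≡ c₁ (mod π O₂)`,
`c₀, c₁ ∈ V`:  `Nm_{F/K'}(u) ∈ V` and `Nm_{F/K'}(u) ≡ c₀ * c₁ (mod π V)`.
-/

set_option autoImplicit false

namespace Fermat.Agent.S35

open Fermat.Agent.S34

section Aux

variable {F : Type*} [Field F]

/-- Residue at `O₁` of a `V`-combination of the adapted basis: it is the first coefficient. -/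
theorem s35n3_res₁ (O₁ : ValuationSubring F) (V : Subring F) (hV1 : ∀ v ∈ V, v ∈ O₁) (π : F)
    {q : ℕ} (B : Fin 1 → F) (B' : Fin q → F) (hB2 : ∀ i, π⁻¹ * (B i - 1) ∈ O₁)
    (hB'3 : ∀ i, π⁻¹ * B' i ∈ O₁) (m : Fin (1 + q) → F) (hm : ∀ i, m i ∈ V) :
    π⁻¹ * (∑ i, m i * Fin.append B B' i - m (Fin.castAdd q 0)) ∈ O₁ := by
  have h1 : π⁻¹ * (∑ i, m i * Fin.append B B' i - m (Fin.castAdd q 0)) =
      m (Fin.castAdd q 0) * (π⁻¹ * (B 0 - 1)) +
        ∑ j : Fin q, m (Fin.natAdd 1 j) * (π⁻¹ * B' j) := by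
    rw [Fin.sum_univ_add, Fin.sum_univ_one]
    simp only [Fin.append_left, Fin.append_right]
    have e1 : ∀ j : Fin q, m (Fin.natAdd 1 j) * (π⁻¹ * B' j) =
        π⁻¹ * (m (Fin.natAdd 1 j) * B' j) := fun j => by ring
    simp only [e1]
    rw [← Finset.mul_sum]
    ring
  rw [h1]
  refine O₁.add_mem _ _ (O₁.mul_mem _ _ (hV1 _ (hm _)) (hB2 0)) ?_
  exact O₁.toSubring.sum_mem fun j _ => O₁.mul_mem _ _ (hV1 _ (hm _)) (hB'3 j)

/-- Residue at `O₂` of a `V`-combination of the adapted basis. -/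
theorem s35n3_res₂ (O₂ : ValuationSubring F) (V : Subring F) (hV2 : ∀ v ∈ V, v ∈ O₂) (π : F)
    {q : ℕ} (B : Fin 1 → F) (B' b' : Fin q → F) (hB3 : ∀ i, π⁻¹ * B i ∈ O₂)
    (hB'2 : ∀ i, π⁻¹ * (B' i - b' i) ∈ O₂) (m : Fin (1 + q) → F) (hm : ∀ i, m i ∈ V) :
    π⁻¹ * (∑ i, m i * Fin.append B B' i - ∑ j : Fin q, m (Fin.natAdd 1 j) * b' j) ∈ O₂ := by
  have h1 : π⁻¹ * (∑ i, m i * Fin.append B B' i - ∑ j : Fin q, m (Fin.natAdd 1 j) * b' j) =
      m (Fin.castAdd q 0) * (π⁻¹ * B 0) +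
        ∑ j : Fin q, m (Fin.natAdd 1 j) * (π⁻¹ * (B' j - b' j)) := by
    rw [Fin.sum_univ_add, Fin.sum_univ_one]
    simp only [Fin.append_left, Fin.append_right]
    have e1 : ∀ j : Fin q, m (Fin.natAdd 1 j) * (π⁻¹ * (B' j - b' j)) =
        π⁻¹ * (m (Fin.natAdd 1 j) * B' j) - π⁻¹ * (m (Fin.natAdd 1 j) * b' j) := fun j => by ring
    simp only [e1, Finset.sum_sub_distrib, ← Finset.mul_sum]
    ring
  rw [h1]
  refine O₂.add_mem _ _ (O₂.mul_mem _ _ (hV2 _ (hm _)) (hB3 0)) ?_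
  exact O₂.toSubring.sum_mem fun j _ => O₂.mul_mem _ _ (hV2 _ (hm _)) (hB'2 j)

/-- Two elements of a valuation ring which differ by a multiple of `π` have the same residue. -/
theorem s35n3_residue_eq (O : ValuationSubring F) (π : F) (hπO : π ∈ O) (hπ : π⁻¹ ∉ O)
    (x y : O) (h : π⁻¹ * ((x : F) - (y : F)) ∈ O) :
    IsLocalRing.residue O x = IsLocalRing.residue O y := by
  rw [← sub_eq_zero, ← map_sub, IsLocalRing.residue_eq_zero_iff]
  have hπm : (⟨π, hπO⟩ : O) ∈ IsLocalRing.maximalIdeal O := by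
    rw [IsLocalRing.mem_maximalIdeal, mem_nonunits_iff]
    intro hunit
    obtain ⟨w, hw⟩ := hunit.exists_right_inv
    have h1 : π * (w : F) = 1 := by
      have := congrArg (Subtype.val) hw
      simpa using this
    have h2 : π⁻¹ = (w : F) := inv_eq_of_mul_eq_one_right h1
    exact hπ (h2 ▸ w.2)
  have heq : x - y = ⟨π, hπO⟩ * ⟨π⁻¹ * ((x : F) - (y : F)), h⟩ := by
    apply Subtype.ext
    have hπ0 : π ≠ 0 := by
      rintro rfl
      exact hπ (by rw [inv_zero]; exact O.zero_mem)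
    show (x : F) - (y : F) = π * (π⁻¹ * ((x : F) - (y : F)))
    field_simp
  rw [heq]
  exact Ideal.mul_mem_right _ _ hπm

/-- Conversely, equal residues differ by a multiple of `π` (when `π` generates the maximal
ideal). -/
theorem s35n3_of_residue_eq (O : ValuationSubring F) (π : F)
    (hu : ∀ z ∈ O, z⁻¹ ∉ O → π⁻¹ * z ∈ O)
    (x y : O) (h : IsLocalRing.residue O x = IsLocalRing.residue O y) :
    π⁻¹ * ((x : F) - (y : F)) ∈ O := by
  rw [← sub_eq_zero, ← map_sub, IsLocalRing.residue_eq_zero_iff, IsLocalRing.mem_maximalIdeal,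
    mem_nonunits_iff] at h
  have hmem : (x : F) - (y : F) ∈ O := O.toSubring.sub_mem x.2 y.2
  by_cases h0 : (x : F) - (y : F) = 0
  · rw [h0, mul_zero]
    exact O.zero_mem
  · refine hu _ hmem fun hinv => h ?_
    refine IsUnit.of_mul_eq_one (⟨((x : F) - (y : F))⁻¹, hinv⟩ : O) ?_
    apply Subtype.ext
    show ((x : F) - (y : F)) * ((x : F) - (y : F))⁻¹ = 1
    exact mul_inv_cancel₀ h0

end Aux

/-- **Norm modulo `π` over a discrete valuation ring with two valuations above** (`O₁` of residue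
degree one, `O₂` purely inseparable of degree `q`):
`Nm_{F/K'}(u) ≡ red₁(u) · red₂(u) ^ q (mod π)`, the residues being given by witnesses
`c₀, c₁ ∈ V` with `u ≡ c₀ (mod π O₁)` and `u ^ q ≡ c₁ (mod π O₂)`. -/
theorem s35n3_norm_two_val {F K' : Type*} [Field F] [Field K'] [Algebra K' F]
    (V : Subring F) (hVE : ∀ v ∈ V, v ∈ (algebraMap K' F).fieldRange)
    (π : F) (hπV : π ∈ V) (hπ0 : π ≠ 0)
    (hE : ∀ c ∈ (algebraMap K' F).fieldRange, c ≠ 0 →
      ∃ (k : ℤ) (u : F), u ∈ V ∧ u⁻¹ ∈ V ∧ c = π ^ k * u)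
    (O₁ O₂ : ValuationSubring F) (hV1 : ∀ v ∈ V, v ∈ O₁) (hV2 : ∀ v ∈ V, v ∈ O₂)
    (hπ1 : π⁻¹ ∉ O₁) (hπ2 : π⁻¹ ∉ O₂)
    (hu1 : ∀ z ∈ O₁, z⁻¹ ∉ O₁ → π⁻¹ * z ∈ O₁) (hu2 : ∀ z ∈ O₂, z⁻¹ ∉ O₂ → π⁻¹ * z ∈ O₂)
    (ha1 : ∀ z : F, ∃ k : ℕ, π ^ k * z ∈ O₁) (ha2 : ∀ z : F, ∃ k : ℕ, π ^ k * z ∈ O₂)
    (hne : O₁ ≠ O₂) (q : ℕ) (hq : q.Prime) (hqπ : π⁻¹ * (q : F) ∈ V)
    (hdim : ∀ s : Fin (1 + q + 1) → F, ∃ c : Fin (1 + q + 1) → F,
      (∀ i, c i ∈ (algebraMap K' F).fieldRange) ∧ (∃ i, c i ≠ 0) ∧ ∑ i, c i * s i = 0)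
    (hsat : ∀ c ∈ V, π⁻¹ * c ∈ O₁ → π⁻¹ * c ∈ V)
    (b' : Fin q → F) (hb' : ∀ i, b' i ∈ O₂)
    (hbi' : ∀ c : Fin q → F, (∀ i, c i ∈ V) → π⁻¹ * ∑ i, c i * b' i ∈ O₂ →
      ∀ i, π⁻¹ * c i ∈ V)
    {u : F} (huO1 : u ∈ O₁) (huO2 : u ∈ O₂) {c₀ c₁ : F} (hc₀ : c₀ ∈ V) (hc₁ : c₁ ∈ V)
    (h₀ : π⁻¹ * (u - c₀) ∈ O₁) (h₁ : π⁻¹ * (u ^ q - c₁) ∈ O₂) :
    algebraMap K' F (Algebra.norm K' u) ∈ V ∧
      π⁻¹ * (algebraMap K' F (Algebra.norm K' u) - c₀ * c₁) ∈ V := by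
  classical
  have : Fact q.Prime := ⟨hq⟩
  -- Step 1: the adapted basis
  have hbi : ∀ c : Fin 1 → F, (∀ i, c i ∈ V) →
      π⁻¹ * ∑ i, c i * (fun _ : Fin 1 => (1 : F)) i ∈ O₁ → ∀ i, π⁻¹ * c i ∈ V := by
    intro c hc h i
    have hi : i = 0 := Subsingleton.elim _ _
    subst hi
    rw [Fin.sum_univ_one, mul_one] at h
    exact hsat _ (hc 0) h
  obtain ⟨B, B', hB1, hB2, hB3, hB'1, hB'2, hB'3, hspan⟩ :=
    s34k2_exists_basis_res (algebraMap K' F).fieldRange V π hπV hπ0 hE O₁ O₂ hV1 hV2 hπ1 hπ2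
      hu1 hu2 ha1 ha2 hne 1 q hdim (fun _ => 1) (fun _ => O₁.one_mem) hbi b' hb' hbi'
  have hB2' : ∀ i, π⁻¹ * (B i - 1) ∈ O₁ := hB2
  set G : Fin (1 + q) → F := Fin.append B B' with hG
  have hπ1m : π ∈ O₁ := hV1 π hπV
  have hπ2m : π ∈ O₂ := hV2 π hπV
  have hmemπ1 : ∀ x : F, π⁻¹ * x ∈ O₁ → x ∈ O₁ := by
    intro x hx
    have : x = π * (π⁻¹ * x) := by field_simp
    rw [this]; exact O₁.mul_mem _ _ hπ1m hx
  have hmemπ2 : ∀ x : F, π⁻¹ * x ∈ O₂ → x ∈ O₂ := by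
    intro x hx
    have : x = π * (π⁻¹ * x) := by field_simp
    rw [this]; exact O₂.mul_mem _ _ hπ2m hx
  have hGmem : ∀ i, G i ∈ O₁ ∧ G i ∈ O₂ := by
    intro i
    refine Fin.addCases (fun j => ?_) (fun j => ?_) i
    · rw [hG, Fin.append_left]
      exact ⟨hB1 j, hmemπ2 _ (hB3 j)⟩
    · rw [hG, Fin.append_right]
      exact ⟨hmemπ1 _ (hB'3 j), hB'1 j⟩
  -- `V`-coordinates of the elements of `O₁ ∩ O₂`
  have hcoord : ∀ z : F, z ∈ O₁ → z ∈ O₂ →
      ∃ m : Fin (1 + q) → F, (∀ i, m i ∈ V) ∧ z = ∑ i, m i * G i := by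
    intro z hz1 hz2
    obtain ⟨c, c', hc, hc', hz⟩ := hspan z hz1 hz2
    refine ⟨Fin.append c c', ?_, ?_⟩
    · intro i
      refine Fin.addCases (fun j => ?_) (fun j => ?_) i
      · rw [Fin.append_left]; exact hc j
      · rw [Fin.append_right]; exact hc' j
    · rw [Fin.sum_univ_add]
      simp only [hG, Fin.append_left, Fin.append_right]
      exact hz
  have hX1 : ∀ m : Fin (1 + q) → F, (∀ i, m i ∈ V) →
      π⁻¹ * (∑ i, m i * G i - m (Fin.castAdd q 0)) ∈ O₁ :=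
    fun m hm => s35n3_res₁ O₁ V hV1 π B B' hB2' hB'3 m hm
  have hX2 : ∀ m : Fin (1 + q) → F, (∀ i, m i ∈ V) →
      π⁻¹ * (∑ i, m i * G i - ∑ j : Fin q, m (Fin.natAdd 1 j) * b' j) ∈ O₂ :=
    fun m hm => s35n3_res₂ O₂ V hV2 π B B' b' hB3 hB'2 m hm
  -- a `V`-combination vanishing modulo `π` at both valuations has coefficients in `π V`
  have hdiv : ∀ m : Fin (1 + q) → F, (∀ i, m i ∈ V) → π⁻¹ * ∑ i, m i * G i ∈ O₁ →
      π⁻¹ * ∑ i, m i * G i ∈ O₂ → ∀ i, π⁻¹ * m i ∈ V := by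
    intro m hm h1 h2
    have h0 : π⁻¹ * m (Fin.castAdd q 0) ∈ V := by
      apply hsat _ (hm _)
      have : π⁻¹ * m (Fin.castAdd q 0) =
          π⁻¹ * ∑ i, m i * G i - π⁻¹ * (∑ i, m i * G i - m (Fin.castAdd q 0)) := by ring
      rw [this]
      exact O₁.toSubring.sub_mem h1 (hX1 m hm)
    have hj : ∀ j : Fin q, π⁻¹ * m (Fin.natAdd 1 j) ∈ V := by
      apply hbi' (fun j => m (Fin.natAdd 1 j)) (fun j => hm _)
      have : π⁻¹ * ∑ j : Fin q, m (Fin.natAdd 1 j) * b' j =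
          π⁻¹ * ∑ i, m i * G i -
            π⁻¹ * (∑ i, m i * G i - ∑ j : Fin q, m (Fin.natAdd 1 j) * b' j) := by ring
      rw [this]
      exact O₂.toSubring.sub_mem h2 (hX2 m hm)
    intro i
    refine Fin.addCases (fun j => ?_) (fun j => hj j) i
    have : j = 0 := Subsingleton.elim _ _
    subst this
    exact h0
  -- Step 2: `G` is a basis of `F` over `K'`
  have hli : LinearIndependent K' G := by
    rw [Fintype.linearIndependent_iff]
    intro a ha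
    by_contra hcon
    push Not at hcon
    obtain ⟨i₀, hi₀⟩ := hcon
    have hcE : ∀ i, algebraMap K' F (a i) ∈ (algebraMap K' F).fieldRange :=
      fun i => RingHom.mem_fieldRange_self _ _
    have hc0 : ∃ i, algebraMap K' F (a i) ≠ 0 :=
      ⟨i₀, fun h => hi₀ ((algebraMap K' F).injective (by rw [h, map_zero]))⟩
    obtain ⟨k, hk, i₁, hi₁0, hi₁⟩ := s34k2_exists_scaling (algebraMap K' F).fieldRange V π hπV
      hπ0 hE (fun i => algebraMap K' F (a i)) hcE hc0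
    have hsum0 : ∑ i, (π ^ k * algebraMap K' F (a i)) * G i = 0 := by
      have : ∑ i, (π ^ k * algebraMap K' F (a i)) * G i = π ^ k * ∑ i, a i • G i := by
        rw [Finset.mul_sum]
        refine Finset.sum_congr rfl fun i _ => ?_
        rw [Algebra.smul_def]; ring
      rw [this, ha, mul_zero]
    have h3 := hdiv (fun i => π ^ k * algebraMap K' F (a i)) hk
      (by rw [hsum0, mul_zero]; exact O₁.zero_mem) (by rw [hsum0, mul_zero]; exact O₂.zero_mem) i₁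
    have h4 : π⁻¹ = π⁻¹ * (π ^ k * algebraMap K' F (a i₁)) *
        (π ^ k * algebraMap K' F (a i₁))⁻¹ := by
      rw [mul_assoc, mul_inv_cancel₀ hi₁0, mul_one]
    exact hπ1 (hV1 _ (h4 ▸ V.mul_mem h3 hi₁))
  have hsp : ⊤ ≤ Submodule.span K' (Set.range G) := by
    intro z _
    obtain ⟨k₁, hk₁⟩ := ha1 z
    obtain ⟨k₂, hk₂⟩ := ha2 z
    have hz1 : π ^ (k₁ + k₂) * z ∈ O₁ := by
      have : π ^ (k₁ + k₂) * z = π ^ k₂ * (π ^ k₁ * z) := by ring
      rw [this]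
      exact O₁.mul_mem _ _ (O₁.toSubring.pow_mem hπ1m _) hk₁
    have hz2 : π ^ (k₁ + k₂) * z ∈ O₂ := by
      have : π ^ (k₁ + k₂) * z = π ^ k₁ * (π ^ k₂ * z) := by ring
      rw [this]
      exact O₂.mul_mem _ _ (O₂.toSubring.pow_mem hπ2m _) hk₂
    obtain ⟨m, hm, hz⟩ := hcoord _ hz1 hz2
    obtain ⟨π', hπ'⟩ : ∃ π' : K', algebraMap K' F π' = π := RingHom.mem_fieldRange.mp (hVE π hπV)
    have hzz : z = ((π') ^ (k₁ + k₂))⁻¹ • ∑ i, m i * G i := by
      rw [Algebra.smul_def, map_inv₀, map_pow, hπ', ← hz]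
      field_simp
    rw [hzz]
    refine Submodule.smul_mem _ _ (Submodule.sum_mem _ fun i _ => ?_)
    obtain ⟨a, ha⟩ := RingHom.mem_fieldRange.mp (hVE _ (hm i))
    rw [← ha, ← Algebra.smul_def]
    exact Submodule.smul_mem _ _ (Submodule.subset_span ⟨i, rfl⟩)
  let 𝔟 : Module.Basis (Fin (1 + q)) K' F := Module.Basis.mk hli hsp
  have h𝔟 : ∀ i, 𝔟 i = G i := fun i => Module.Basis.mk_apply hli hsp i
  -- Step 3: coordinates of the elements of `O₁ ∩ O₂` are in `V`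
  have hrepr : ∀ z : F, z ∈ O₁ → z ∈ O₂ → (∀ i, algebraMap K' F (𝔟.repr z i) ∈ V) ∧
      z = ∑ i, algebraMap K' F (𝔟.repr z i) * G i := by
    intro z hz1 hz2
    have hsum : z = ∑ i, algebraMap K' F (𝔟.repr z i) * G i := by
      conv_lhs => rw [← 𝔟.sum_repr z]
      refine Finset.sum_congr rfl fun i _ => ?_
      rw [Algebra.smul_def, h𝔟]
    refine ⟨?_, hsum⟩
    obtain ⟨m, hm, hz⟩ := hcoord z hz1 hz2
    choose a ha using fun i => RingHom.mem_fieldRange.mp (hVE _ (hm i))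
    have hza : z = ∑ i, a i • 𝔟 i := by
      rw [hz]
      refine Finset.sum_congr rfl fun i _ => ?_
      rw [Algebra.smul_def, ha, h𝔟]
    intro i
    have h1 : 𝔟.repr z i = a i := by
      rw [hza, 𝔟.repr_sum_self]
    rw [h1, ha]
    exact hm i
  -- Step 4: the matrix of multiplication by `x ∈ O₁ ∩ O₂`
  have hent : ∀ x : F, x ∈ O₁ → x ∈ O₂ → ∀ j,
      (∀ i, algebraMap K' F (Algebra.leftMulMatrix 𝔟 x i j) ∈ V) ∧
        x * G j = ∑ i, algebraMap K' F (Algebra.leftMulMatrix 𝔟 x i j) * G i := by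
    intro x hx1 hx2 j
    have h := hrepr (x * G j) (O₁.mul_mem _ _ hx1 (hGmem j).1) (O₂.mul_mem _ _ hx2 (hGmem j).2)
    simp only [Algebra.leftMulMatrix_eq_repr_mul, h𝔟]
    exact h
  set M : Matrix (Fin (1 + q)) (Fin (1 + q)) K' := Algebra.leftMulMatrix 𝔟 u with hM
  have hnorm : Algebra.norm K' u = M.det := Algebra.norm_eq_matrix_det 𝔟 u
  have hMq : Algebra.leftMulMatrix 𝔟 (u ^ q) = M ^ q := by rw [map_pow]
  have hMV : ∀ i j, algebraMap K' F (M i j) ∈ V := fun i j => (hent u huO1 huO2 j).1 i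
  have huq1 : u ^ q ∈ O₁ := O₁.toSubring.pow_mem huO1 q
  have huq2 : u ^ q ∈ O₂ := O₂.toSubring.pow_mem huO2 q
  have hMqV : ∀ i j, algebraMap K' F ((M ^ q) i j) ∈ V := by
    intro i j
    rw [← hMq]
    exact (hent (u ^ q) huq1 huq2 j).1 i
  have hG0 : G (Fin.castAdd q 0) = B 0 := by rw [hG, Fin.append_left]
  have hGj : ∀ j : Fin q, G (Fin.natAdd 1 j) = B' j := fun j => by rw [hG, Fin.append_right]
  -- (a1) the corner entry
  have ha1' : π⁻¹ * (algebraMap K' F (M (Fin.castAdd q 0) (Fin.castAdd q 0)) - c₀) ∈ V := by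
    obtain ⟨hmV, hz⟩ := hent u huO1 huO2 (Fin.castAdd q 0)
    apply hsat _ (V.sub_mem (hmV _) hc₀)
    have h1 := hX1 (fun i => algebraMap K' F (M i (Fin.castAdd q 0))) hmV
    rw [← hz, hG0] at h1
    have h2 : π⁻¹ * (algebraMap K' F (M (Fin.castAdd q 0) (Fin.castAdd q 0)) - c₀) =
        u * (π⁻¹ * (B 0 - 1)) + π⁻¹ * (u - c₀) -
          π⁻¹ * (u * B 0 - algebraMap K' F (M (Fin.castAdd q 0) (Fin.castAdd q 0))) := by ring
    rw [h2]
    exact O₁.toSubring.sub_mem (O₁.add_mem _ _ (O₁.mul_mem _ _ huO1 (hB2' 0)) h₀) h1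
  -- (a2) the first column
  have ha2' : ∀ i : Fin q, π⁻¹ * algebraMap K' F (M (Fin.natAdd 1 i) (Fin.castAdd q 0)) ∈ V := by
    obtain ⟨hmV, hz⟩ := hent u huO1 huO2 (Fin.castAdd q 0)
    apply hbi' (fun i => algebraMap K' F (M (Fin.natAdd 1 i) (Fin.castAdd q 0))) (fun i => hmV _)
    have h1 := hX2 (fun i => algebraMap K' F (M i (Fin.castAdd q 0))) hmV
    rw [← hz, hG0] at h1
    have h2 : π⁻¹ * ∑ i : Fin q, algebraMap K' F (M (Fin.natAdd 1 i) (Fin.castAdd q 0)) * b' i =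
        u * (π⁻¹ * B 0) - π⁻¹ * (u * B 0 -
          ∑ i : Fin q, algebraMap K' F (M (Fin.natAdd 1 i) (Fin.castAdd q 0)) * b' i) := by ring
    rw [h2]
    exact O₂.toSubring.sub_mem (O₂.mul_mem _ _ huO2 (hB3 0)) h1
  -- (b) the first row
  have hb1' : ∀ j : Fin q, π⁻¹ * algebraMap K' F (M (Fin.castAdd q 0) (Fin.natAdd 1 j)) ∈ V := by
    intro j
    obtain ⟨hmV, hz⟩ := hent u huO1 huO2 (Fin.natAdd 1 j)
    apply hsat _ (hmV _)
    have h1 := hX1 (fun i => algebraMap K' F (M i (Fin.natAdd 1 j))) hmV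
    rw [← hz, hGj] at h1
    have h2 : π⁻¹ * algebraMap K' F (M (Fin.castAdd q 0) (Fin.natAdd 1 j)) =
        u * (π⁻¹ * B' j) -
          π⁻¹ * (u * B' j - algebraMap K' F (M (Fin.castAdd q 0) (Fin.natAdd 1 j))) := by ring
    rw [h2]
    exact O₁.toSubring.sub_mem (O₁.mul_mem _ _ huO1 (hB'3 j)) h1
  -- (c) the second block of `M ^ q`
  have hc1' : ∀ i j : Fin q, π⁻¹ * (algebraMap K' F ((M ^ q) (Fin.natAdd 1 i) (Fin.natAdd 1 j)) -
      (if i = j then c₁ else 0)) ∈ V := by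
    intro i j
    obtain ⟨hmV, hz⟩ := hent (u ^ q) huq1 huq2 (Fin.natAdd 1 j)
    rw [hMq] at hmV hz
    have hcV : ∀ l : Fin q, algebraMap K' F ((M ^ q) (Fin.natAdd 1 l) (Fin.natAdd 1 j)) -
        (if l = j then c₁ else 0) ∈ V := by
      intro l
      refine V.sub_mem (hmV _) ?_
      split_ifs
      · exact hc₁
      · exact V.zero_mem
    refine hbi' (fun l => algebraMap K' F ((M ^ q) (Fin.natAdd 1 l) (Fin.natAdd 1 j)) -
        (if l = j then c₁ else 0)) hcV ?_ i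
    have h1 := hX2 (fun i => algebraMap K' F ((M ^ q) i (Fin.natAdd 1 j))) hmV
    rw [← hz, hGj] at h1
    have hsum : ∑ l : Fin q, (algebraMap K' F ((M ^ q) (Fin.natAdd 1 l) (Fin.natAdd 1 j)) -
        (if l = j then c₁ else 0)) * b' l =
        ∑ l : Fin q, algebraMap K' F ((M ^ q) (Fin.natAdd 1 l) (Fin.natAdd 1 j)) * b' l -
          c₁ * b' j := by
      simp only [sub_mul, Finset.sum_sub_distrib, ite_mul, zero_mul, Finset.sum_ite_eq',
        Finset.mem_univ, if_true]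
    rw [hsum]
    have h2 : π⁻¹ * (∑ l : Fin q, algebraMap K' F ((M ^ q) (Fin.natAdd 1 l) (Fin.natAdd 1 j)) *
        b' l - c₁ * b' j) =
        π⁻¹ * (u ^ q - c₁) * B' j + c₁ * (π⁻¹ * (B' j - b' j)) -
          π⁻¹ * (u ^ q * B' j -
            ∑ l : Fin q, algebraMap K' F ((M ^ q) (Fin.natAdd 1 l) (Fin.natAdd 1 j)) * b' l) := by
      ring
    rw [h2]
    exact O₂.toSubring.sub_mem (O₂.add_mem _ _ (O₂.mul_mem _ _ h₁ (hB'1 j))
      (O₂.mul_mem _ _ (hV2 _ hc₁) (hB'2 j))) h1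
  -- Step 5: reduction modulo the maximal ideal of `O₁`
  have hchar : CharP (IsLocalRing.ResidueField O₁) q := by
    refine (CharP.charP_iff_prime_eq_zero hq).mpr ?_
    have h := s35n3_residue_eq O₁ π hπ1m hπ1 (q : O₁) 0 (by
      have : (((q : O₁) : F) - ((0 : O₁) : F)) = (q : F) := by simp
      rw [this]
      exact hV1 _ hqπ)
    rw [map_natCast, map_zero] at h
    exact h
  let MO : Matrix (Fin (1 + q)) (Fin (1 + q)) O₁ :=
    fun i j => ⟨algebraMap K' F (M i j), hV1 _ (hMV i j)⟩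
  have hMOmap : O₁.subtype.mapMatrix MO = (algebraMap K' F).mapMatrix M := by
    ext i j
    rfl
  have hMO_det : ((MO.det : O₁) : F) = algebraMap K' F M.det := by
    have h1 := RingHom.map_det O₁.subtype MO
    rw [hMOmap, ← RingHom.map_det] at h1
    exact h1
  have hMO_pow : ∀ i j, (((MO ^ q) i j : O₁) : F) = algebraMap K' F ((M ^ q) i j) := by
    intro i j
    have h2 : O₁.subtype.mapMatrix (MO ^ q) = (algebraMap K' F).mapMatrix (M ^ q) := by
      rw [map_pow, map_pow, hMOmap]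
    exact congrFun (congrFun h2 i) j
  have hdetbar : ((IsLocalRing.residue O₁).mapMatrix MO).det =
      IsLocalRing.residue O₁ ⟨c₀, hV1 _ hc₀⟩ * IsLocalRing.residue O₁ ⟨c₁, hV1 _ hc₁⟩ := by
    apply s35n3_det_block q
    · exact s35n3_residue_eq O₁ π hπ1m hπ1 _ _ (hV1 _ ha1')
    · intro j
      rw [← map_zero (IsLocalRing.residue O₁)]
      refine s35n3_residue_eq O₁ π hπ1m hπ1 _ _ ?_
      have : ((MO (Fin.castAdd q 0) (Fin.natAdd 1 j) : O₁) : F) - ((0 : O₁) : F) =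
          algebraMap K' F (M (Fin.castAdd q 0) (Fin.natAdd 1 j)) := by
        show algebraMap K' F (M (Fin.castAdd q 0) (Fin.natAdd 1 j)) - 0 = _
        rw [sub_zero]
      rw [this]
      exact hV1 _ (hb1' j)
    · intro i
      rw [← map_zero (IsLocalRing.residue O₁)]
      refine s35n3_residue_eq O₁ π hπ1m hπ1 _ _ ?_
      have : ((MO (Fin.natAdd 1 i) (Fin.castAdd q 0) : O₁) : F) - ((0 : O₁) : F) =
          algebraMap K' F (M (Fin.natAdd 1 i) (Fin.castAdd q 0)) := by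
        show algebraMap K' F (M (Fin.natAdd 1 i) (Fin.castAdd q 0)) - 0 = _
        rw [sub_zero]
      rw [this]
      exact hV1 _ (ha2' i)
    · intro i j
      rw [← map_pow]
      show IsLocalRing.residue O₁ ((MO ^ q) (Fin.natAdd 1 i) (Fin.natAdd 1 j)) = _
      have hkey := hc1' i j
      split_ifs with hij
      · rw [if_pos hij] at hkey
        refine s35n3_residue_eq O₁ π hπ1m hπ1 _ _ ?_
        rw [hMO_pow]
        exact hV1 _ hkey
      · rw [if_neg hij] at hkey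
        rw [← map_zero (IsLocalRing.residue O₁)]
        refine s35n3_residue_eq O₁ π hπ1m hπ1 _ _ ?_
        rw [hMO_pow]
        exact hV1 _ hkey
  -- conclusion
  have hdetV : algebraMap K' F M.det ∈ V := by
    let MV : Matrix (Fin (1 + q)) (Fin (1 + q)) V := fun i j => ⟨algebraMap K' F (M i j), hMV i j⟩
    have h1 : V.subtype.mapMatrix MV = (algebraMap K' F).mapMatrix M := by
      ext i j
      rfl
    have h2 := RingHom.map_det V.subtype MV
    rw [h1, ← RingHom.map_det] at h2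
    rw [← h2]
    exact (MV.det).2
  rw [hnorm]
  refine ⟨hdetV, ?_⟩
  apply hsat _ (V.sub_mem hdetV (V.mul_mem hc₀ hc₁))
  have h5 : IsLocalRing.residue O₁ MO.det =
      IsLocalRing.residue O₁ (⟨c₀, hV1 _ hc₀⟩ * ⟨c₁, hV1 _ hc₁⟩) := by
    rw [map_mul, ← hdetbar]
    exact RingHom.map_det (IsLocalRing.residue O₁) MO
  have h6 := s35n3_of_residue_eq O₁ π hu1 _ _ h5
  rw [hMO_det] at h6
  exact h6

end Fermat.Agent.S35
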