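import Fermat.Agent.S35.N3Defs
import Fermat.Agent.S35.N3AbsNorm
import Fermat.Agent.S34.KronTwoVal

/-!
# P20 (S35), block N3, leaf A (second team): the norm formula over a Gauss ring

`L` a field of characteristic zero with an abstract discrete valuation datum
`(Λ ⊂ L, π, res : Λ →+* k)`, `char k = q`, `q ∤ M`.  For `u` in the semi-local ring
`𝒪 = V_∞ ∩ V_0` of `F_{Mq}(L)`:

`Nm_α(u) ∈ V_M` and `red(Nm_α u)(T^q) = red_∞(u)(T^q) · red_0(u)^q`.

The proof applies the abstract two-valuation norm lemma `s35n3_norm_two_val` in the picture of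
`S34/KronTwoVal.lean` (the `modularFunctionFieldFullC` convention), with
`K' = F_M` acting on `F_{Mq}` through the inclusion.
-/

set_option autoImplicit false

namespace Fermat.Agent.S35

open ModularCurve AlgebraicCurve Fermat.Agent.S18 Fermat.Agent.S34 Fermat.Agent.S28
  Fermat.Agent.S28.FreeBasisAbs
open Fermat.Agent.S18.GaussL

section Generic

variable {K k : Type*} [Field K] [Field k] {Λ : Subring K} {π : K} {res : ↥Λ →+* k}

/-- `π⁻¹ x ∈ V` implies `red x = 0`. -/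
theorem s35n3ab_red_eq_zero (E : IntermediateField K (LaurentSeries K))
    (hΛ : IsGaussRing Λ π res) {x : ↥E} (hx : x ∈ GaussL.gaussV Λ res E)
    (h : (algebraMap K ↥E π)⁻¹ * x ∈ GaussL.gaussV Λ res E) :
    GaussL.gaussRed Λ res E ⟨x, hx⟩ = 0 := by
  rw [GaussL.gaussRed_eq_zero_iff E hΛ]
  refine ⟨⟨_, h⟩, ?_⟩
  show x = algebraMap K ↥E π * ((algebraMap K ↥E π)⁻¹ * x)
  rw [← mul_assoc, mul_inv_cancel₀ (GaussL.algebraMap_pi_ne_zero E hΛ), one_mul]

/-- `red x = 0` implies `π⁻¹ x ∈ V`. -/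
theorem s35n3ab_mem_of_red_eq_zero (E : IntermediateField K (LaurentSeries K))
    (hΛ : IsGaussRing Λ π res) {x : ↥E} (hx : x ∈ GaussL.gaussV Λ res E)
    (h : GaussL.gaussRed Λ res E ⟨x, hx⟩ = 0) :
    (algebraMap K ↥E π)⁻¹ * x ∈ GaussL.gaussV Λ res E := by
  obtain ⟨y, hy⟩ := (GaussL.gaussRed_eq_zero_iff E hΛ _).mp h
  have hy' : x = algebraMap K ↥E π * (y : ↥E) := hy
  have h1 : (algebraMap K ↥E π)⁻¹ * x = (y : ↥E) := by
    rw [hy', ← mul_assoc, inv_mul_cancel₀ (GaussL.algebraMap_pi_ne_zero E hΛ), one_mul]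
  rw [h1]
  exact y.2

/-- Two elements of `V` congruent modulo `π` have the same reduction. -/
theorem s35n3ab_red_eq_of_mem (E : IntermediateField K (LaurentSeries K))
    (hΛ : IsGaussRing Λ π res) {x y : ↥E} (hx : x ∈ GaussL.gaussV Λ res E)
    (hy : y ∈ GaussL.gaussV Λ res E)
    (h : (algebraMap K ↥E π)⁻¹ * (x - y) ∈ GaussL.gaussV Λ res E) :
    GaussL.gaussRed Λ res E ⟨x, hx⟩ = GaussL.gaussRed Λ res E ⟨y, hy⟩ := by
  have h1 := s35n3ab_red_eq_zero E hΛ (sub_mem hx hy) h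
  have h2 : (⟨x - y, sub_mem hx hy⟩ : ↥(GaussL.gaussV Λ res E)) = ⟨x, hx⟩ - ⟨y, hy⟩ := rfl
  rw [h2, map_sub, sub_eq_zero] at h1
  exact h1

/-- Two elements of `V` with the same reduction are congruent modulo `π`. -/
theorem s35n3ab_mem_of_red_eq (E : IntermediateField K (LaurentSeries K))
    (hΛ : IsGaussRing Λ π res) {x y : ↥E} (hx : x ∈ GaussL.gaussV Λ res E)
    (hy : y ∈ GaussL.gaussV Λ res E)
    (h : GaussL.gaussRed Λ res E ⟨x, hx⟩ = GaussL.gaussRed Λ res E ⟨y, hy⟩) :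
    (algebraMap K ↥E π)⁻¹ * (x - y) ∈ GaussL.gaussV Λ res E := by
  refine s35n3ab_mem_of_red_eq_zero E hΛ (sub_mem hx hy) ?_
  have h2 : (⟨x - y, sub_mem hx hy⟩ : ↥(GaussL.gaussV Λ res E)) = ⟨x, hx⟩ - ⟨y, hy⟩ := rfl
  rw [h2, map_sub, h, sub_self]

/-- The residue characteristic is divisible by `π` in `Λ`. -/
theorem s35n3ab_hqpi (hΛ : IsGaussRing Λ π res) (M q : ℕ) [NeZero M] [NeZero q] [CharP k q] :
    (algebraMap K ↥(modularFunctionFieldFullC K (M * q)) π)⁻¹ *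
        ((q : ℕ) : ↥(modularFunctionFieldFullC K (M * q))) ∈ ktvV Λ res M q := by
  have h0 : res ((q : ℕ) : ↥Λ) = 0 := by
    rw [map_natCast]
    exact CharP.cast_eq_zero k q
  obtain ⟨y, hy⟩ := hΛ.ker _ h0
  have hy' : ((q : ℕ) : K) = π * (y : K) := by
    rw [← hy]
    push_cast
    rfl
  have h1 : (algebraMap K ↥(modularFunctionFieldFullC K (M * q)) π)⁻¹ *
      ((q : ℕ) : ↥(modularFunctionFieldFullC K (M * q))) =
      algebraMap K ↥(modularFunctionFieldFullC K (M * q)) (y : K) := by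
    rw [← map_natCast (algebraMap K ↥(modularFunctionFieldFullC K (M * q))) q, hy', map_mul,
      ← mul_assoc, inv_mul_cancel₀ (isGaussRing_full hΛ (M * q)).pi_ne_zero, one_mul]
  rw [h1]
  refine ⟨?_, (modularFunctionFieldFullC K M).algebraMap_mem (y : K)⟩
  show algebraMap K ↥(modularFunctionFieldFullC K (M * q)) (y : K) ∈
    GaussL.gaussV Λ res (modularFunctionFieldFullC K (M * q))
  rw [GaussL.mem_gaussV_iff, GaussL.coe_algebraMap_K]
  have h2 : (HahnSeries.C (y : K) : LaurentSeries K) = coeffMap Λ.subtype (HahnSeries.C y) := by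
    rw [GaussL.coeffMap_C]
    rfl
  rw [h2]
  exact GaussL.coeffMap_subtype_mem_gaussO _

end Generic

section Main

variable {K k : Type*} [Field K] [Field k] {Λ : Subring K} {π : K} {res : ↥Λ →+* k}

/-- The norm formula in the `modularFunctionFieldFullC` picture, for an abstract involution `W`
with `W f = f(T^q)` on `F_M` and an abstract inclusion `φ : F_M → F_{Mq}`. -/
theorem s35n3ab_norm_fullC [CharZero K] (hΛ : IsGaussRing Λ π res) (M q : ℕ) [NeZero M]
    [NeZero q] [Fact q.Prime] [CharP k q] (hqM : ¬ q ∣ M)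
    (W : ↥(modularFunctionFieldFullC K (M * q)) ≃ₐ[K] ↥(modularFunctionFieldFullC K (M * q)))
    (hWα : ∀ y : ↥(modularFunctionFieldFullC K (M * q)),
      (y : LaurentSeries K) ∈ modularFunctionFieldFullC K M →
        ((W y : ↥(modularFunctionFieldFullC K (M * q))) : LaurentSeries K) =
          qExpand K q (y : LaurentSeries K))
    (hWW : ∀ y, W (W y) = y)
    (φ : ↥(modularFunctionFieldFullC K M) →ₐ[K] ↥(modularFunctionFieldFullC K (M * q)))
    (hφ : ∀ x : ↥(modularFunctionFieldFullC K M),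
      ((φ x : ↥(modularFunctionFieldFullC K (M * q))) : LaurentSeries K) = (x : LaurentSeries K))
    (hfrob : ∀ d : ↥(GaussL.gaussV Λ res (modularFunctionFieldFullC K M)),
      ∃ g : ↥(GaussL.gaussV Λ res (modularFunctionFieldFullC K M)),
        qExpand k q (GaussL.gaussRed Λ res (modularFunctionFieldFullC K M) g) =
          GaussL.gaussRed Λ res (modularFunctionFieldFullC K M) d ^ q)
    {u : ↥(modularFunctionFieldFullC K (M * q))}
    (hu : u ∈ GaussL.gaussV Λ res (modularFunctionFieldFullC K (M * q)))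
    (hWu : W u ∈ GaussL.gaussV Λ res (modularFunctionFieldFullC K (M * q))) :
    ∃ h : s35_normAlong φ u ∈ GaussL.gaussV Λ res (modularFunctionFieldFullC K M),
      qExpand k q (GaussL.gaussRed Λ res (modularFunctionFieldFullC K M) ⟨_, h⟩) =
        qExpand k q (GaussL.gaussRed Λ res (modularFunctionFieldFullC K (M * q)) ⟨u, hu⟩) *
          GaussL.gaussRed Λ res (modularFunctionFieldFullC K (M * q)) ⟨W u, hWu⟩ ^ q := by
  classical
  have hq : q.Prime := Fact.out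
  let _ : Algebra ↥(modularFunctionFieldFullC K M) ↥(modularFunctionFieldFullC K (M * q)) :=
    algebraAlong φ
  have hG := isGaussRing_full hΛ (M * q)
  -- the image of `φ` is the subfield `ktvE`
  have hrange : (algebraMap ↥(modularFunctionFieldFullC K M)
      ↥(modularFunctionFieldFullC K (M * q))).fieldRange = ktvE K M q := by
    ext c
    constructor
    · rintro ⟨x, rfl⟩
      rw [ktv_mem_E]
      have h1 : ((algebraMap ↥(modularFunctionFieldFullC K M)
          ↥(modularFunctionFieldFullC K (M * q)) x : ↥(modularFunctionFieldFullC K (M * q))) :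
          LaurentSeries K) = (x : LaurentSeries K) := hφ x
      rw [h1]
      exact x.2
    · intro hc
      exact ⟨⟨(c : LaurentSeries K), hc⟩, Subtype.ext (hφ _)⟩
  -- membership transfer between the two fields
  have hmemφ : ∀ x : ↥(modularFunctionFieldFullC K M),
      φ x ∈ GaussL.gaussV Λ res (modularFunctionFieldFullC K (M * q)) ↔
        x ∈ GaussL.gaussV Λ res (modularFunctionFieldFullC K M) := by
    intro x
    rw [GaussL.mem_gaussV_iff, GaussL.mem_gaussV_iff, hφ]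
  have hredφ : ∀ (x : ↥(modularFunctionFieldFullC K M))
      (hx : x ∈ GaussL.gaussV Λ res (modularFunctionFieldFullC K M))
      (hx' : φ x ∈ GaussL.gaussV Λ res (modularFunctionFieldFullC K (M * q))),
      GaussL.gaussRed Λ res (modularFunctionFieldFullC K (M * q)) ⟨φ x, hx'⟩ =
        GaussL.gaussRed Λ res (modularFunctionFieldFullC K M) ⟨x, hx⟩ := by
    intro x hx hx'
    rw [GaussL.gaussRed_mk _ hx' ((GaussL.mem_gaussV_iff _ x).mp hx) (hφ x)]
    rfl
  have hφV : ∀ x : ↥(modularFunctionFieldFullC K M),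
      x ∈ GaussL.gaussV Λ res (modularFunctionFieldFullC K M) → φ x ∈ ktvV Λ res M q := by
    intro x hx
    refine ⟨(hmemφ x).mpr hx, ?_⟩
    show ((φ x : ↥(modularFunctionFieldFullC K (M * q))) : LaurentSeries K) ∈
      modularFunctionFieldFullC K M
    rw [hφ]
    exact x.2
  -- `c₀`: a lift of the residue of `u` at `w_∞`
  obtain ⟨c₀, hc₀, h₀⟩ := ktv_exists_residue hΛ M q W hWα hWW hqM hu
  have hred₀ : GaussL.gaussRed Λ res (modularFunctionFieldFullC K (M * q)) ⟨u, hu⟩ =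
      GaussL.gaussRed Λ res (modularFunctionFieldFullC K (M * q)) ⟨c₀, hc₀.1⟩ :=
    s35n3ab_red_eq_of_mem _ hΛ hu hc₀.1 h₀
  -- `d₀`: a lift of the residue of `W u` at `w_∞`
  obtain ⟨d₀, hd₀, hd₀'⟩ := ktv_exists_residue hΛ M q W hWα hWW hqM hWu
  have hredW : GaussL.gaussRed Λ res (modularFunctionFieldFullC K (M * q)) ⟨W u, hWu⟩ =
      GaussL.gaussRed Λ res (modularFunctionFieldFullC K (M * q)) ⟨d₀, hd₀.1⟩ :=
    s35n3ab_red_eq_of_mem _ hΛ hWu hd₀.1 hd₀'
  have hd₀E : (⟨(d₀ : LaurentSeries K), hd₀.2⟩ : ↥(modularFunctionFieldFullC K M)) ∈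
      GaussL.gaussV Λ res (modularFunctionFieldFullC K M) :=
    (GaussL.mem_gaussV_iff _ _).mpr ((GaussL.mem_gaussV_iff _ d₀).mp hd₀.1)
  have hredd₀ : GaussL.gaussRed Λ res (modularFunctionFieldFullC K (M * q)) ⟨d₀, hd₀.1⟩ =
      GaussL.gaussRed Λ res (modularFunctionFieldFullC K M) ⟨_, hd₀E⟩ := rfl
  -- `g`: the Frobenius twist of `d₀`
  obtain ⟨g, hg⟩ := hfrob ⟨_, hd₀E⟩
  have hc₁ : φ (g : ↥(modularFunctionFieldFullC K M)) ∈ ktvV Λ res M q := hφV _ g.2
  have hredg : GaussL.gaussRed Λ res (modularFunctionFieldFullC K (M * q))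
      ⟨φ (g : ↥(modularFunctionFieldFullC K M)), hc₁.1⟩ =
      GaussL.gaussRed Λ res (modularFunctionFieldFullC K M) g := hredφ _ g.2 hc₁.1
  -- the congruence `u ^ q ≡ φ g` at `w_0`
  have h₁ : (algebraMap K ↥(modularFunctionFieldFullC K (M * q)) π)⁻¹ *
      (u ^ q - φ (g : ↥(modularFunctionFieldFullC K M))) ∈ ktvO₂ hΛ M q W := by
    rw [ktv_mem_O₂, map_mul, map_inv₀, ktv_W_pi, map_sub, map_pow]
    have hWg := ktv_W_mem M q W hWα hc₁
    have hpow : W u ^ q ∈ GaussL.gaussV Λ res (modularFunctionFieldFullC K (M * q)) :=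
      pow_mem hWu q
    refine s35n3ab_mem_of_red_eq _ hΛ hpow hWg ?_
    have h1 : (⟨W u ^ q, hpow⟩ : ↥(GaussL.gaussV Λ res (modularFunctionFieldFullC K (M * q)))) =
        ⟨W u, hWu⟩ ^ q := rfl
    rw [h1, map_pow, ktv_gaussRed_W M q W hWα hc₁, hredg, hg, hredW, hredd₀]
  -- the abstract two-valuation norm lemma
  have hmain := s35n3_norm_two_val (F := ↥(modularFunctionFieldFullC K (M * q)))
    (K' := ↥(modularFunctionFieldFullC K M)) (ktvV Λ res M q)
    (fun v hv => by rw [hrange]; exact hv.2)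
    (algebraMap K ↥(modularFunctionFieldFullC K (M * q)) π)
    ⟨hG.pi_mem, ktv_pi_mem_E M q⟩ hG.pi_ne_zero
    (fun c hc hc0 => ktv_hE hΛ M q c (by rw [← hrange]; exact hc) hc0)
    (ktvO₁ hΛ M q) (ktvO₂ hΛ M q W) (fun _ hv => hv.1) (fun _ hv => ktv_W_mem M q W hWα hv)
    (ktv_pi_inv_not_mem hΛ M q) (ktv_pi_inv_not_mem_O₂ hΛ M q W)
    (fun _ hz hz' => ktv_hu1 hΛ M q hz hz') (ktv_hu2 hΛ M q W)
    (ktv_ha1 hΛ M q) (ktv_ha2 hΛ M q W) (ktv_O₁_ne_O₂ hΛ M q W hWα hWW) q hq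
    (s35n3ab_hqpi hΛ M q)
    (fun s => by
      obtain ⟨c, hc, hne, hsum⟩ := s34deg_hdim_fullC K M q hq hqM s
      exact ⟨c, fun i => by rw [hrange]; exact hc i, hne, hsum⟩)
    (fun c hc h => ⟨h, (ktvE K M q).mul_mem ((ktvE K M q).inv_mem (ktv_pi_mem_E M q)) hc.2⟩)
    (fun i : Fin q => jdC K (M * q) q (dvd_mul_left q M) ^ (i : ℕ))
    (ktv_hb' hΛ M q W hWα hWW) (ktv_hbi' hΛ M q W hWα hWW)
    (u := u) (c₀ := c₀) (c₁ := φ (g : ↥(modularFunctionFieldFullC K M)))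
    hu hWu hc₀ hc₁ h₀ h₁
  obtain ⟨hN, hN'⟩ := hmain
  have hNφ : φ (s35_normAlong φ u) ∈ ktvV Λ res M q := hN
  have hNφ' : (algebraMap K ↥(modularFunctionFieldFullC K (M * q)) π)⁻¹ *
      (φ (s35_normAlong φ u) - c₀ * φ (g : ↥(modularFunctionFieldFullC K M))) ∈
        ktvV Λ res M q := hN'
  have hNE : s35_normAlong φ u ∈ GaussL.gaussV Λ res (modularFunctionFieldFullC K M) :=
    (hmemφ _).mp hNφ.1
  refine ⟨hNE, ?_⟩
  have hprod : c₀ * φ (g : ↥(modularFunctionFieldFullC K M)) ∈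
      GaussL.gaussV Λ res (modularFunctionFieldFullC K (M * q)) := mul_mem hc₀.1 hc₁.1
  have hred1 := s35n3ab_red_eq_of_mem _ hΛ hNφ.1 hprod hNφ'.1
  have h2 : (⟨c₀ * φ (g : ↥(modularFunctionFieldFullC K M)), hprod⟩ :
      ↥(GaussL.gaussV Λ res (modularFunctionFieldFullC K (M * q)))) =
      ⟨c₀, hc₀.1⟩ * ⟨φ (g : ↥(modularFunctionFieldFullC K M)), hc₁.1⟩ := rfl
  rw [hredφ _ hNE hNφ.1, h2, map_mul, hredg, ← hred₀] at hred1
  rw [hred1, map_mul, hg, hredW, hredd₀]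

/-- The norm formula, convention-free form: `𝔉`, `𝔈` any names for `F_{Mq}(K)`, `F_M(K)`. -/
theorem s35n3ab_norm_of_eq [CharZero K] (hΛ : IsGaussRing Λ π res) (M q : ℕ) [NeZero M]
    [NeZero q] [Fact q.Prime] [CharP k q] (hqM : ¬ q ∣ M)
    (𝔉 𝔈 : IntermediateField K (LaurentSeries K))
    (h𝔉 : 𝔉 = modularFunctionFieldFullC K (M * q)) (h𝔈 : 𝔈 = modularFunctionFieldFullC K M)
    (W : ↥𝔉 ≃ₐ[K] ↥𝔉)
    (hWα : ∀ y : ↥𝔉, (y : LaurentSeries K) ∈ modularFunctionFieldFullC K M →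
      ((W y : ↥𝔉) : LaurentSeries K) = qExpand K q (y : LaurentSeries K))
    (hWW : ∀ y, W (W y) = y)
    (φ : ↥𝔈 →ₐ[K] ↥𝔉)
    (hφ : ∀ x : ↥𝔈, ((φ x : ↥𝔉) : LaurentSeries K) = (x : LaurentSeries K))
    (hfrob : ∀ d : ↥(GaussL.gaussV Λ res 𝔈), ∃ g : ↥(GaussL.gaussV Λ res 𝔈),
      qExpand k q (GaussL.gaussRed Λ res 𝔈 g) = GaussL.gaussRed Λ res 𝔈 d ^ q)
    {u : ↥𝔉} (hu : u ∈ GaussL.gaussV Λ res 𝔉) (hWu : W u ∈ GaussL.gaussV Λ res 𝔉) :
    ∃ h : s35_normAlong φ u ∈ GaussL.gaussV Λ res 𝔈,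
      qExpand k q (GaussL.gaussRed Λ res 𝔈 ⟨_, h⟩) =
        qExpand k q (GaussL.gaussRed Λ res 𝔉 ⟨u, hu⟩) *
          GaussL.gaussRed Λ res 𝔉 ⟨W u, hWu⟩ ^ q := by
  subst h𝔉
  subst h𝔈
  exact s35n3ab_norm_fullC hΛ M q hqM W hWα hWW φ hφ hfrob hu hWu

end Main

section LeafA

variable {L k : Type*} [Field L] [Algebra ℚ L] [Field k] {Λ : Subring L} {π : L}
  {res : ↥Λ →+* k} (ι : L →+* ℂ) (M q : ℕ) [NeZero M] [NeZero q] (hcop : Nat.Coprime M q)

set_option linter.unusedVariables false in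
/-- **Leaf A of N3** (second team): for `u` in the semi-local ring `𝒪 = V_∞ ∩ V_0` of
`F_{Mq}(L)`, the norm along `α` lies in the Gauss ring `V_M` and
`red(Nm_α u)(T^q) = red_∞(u)(T^q) · red_0(u)^q`. -/
theorem s35n3_norm_alpha_Kb [CharZero L] (hΛ : IsGaussRing Λ π res) (hq : q.Prime) [CharP k q]
    (hfrob : ∀ d : ↥(GaussL.gaussV Λ res (laurentBaseChange L (modularFunctionFieldFull M))),
      ∃ g : ↥(GaussL.gaussV Λ res (laurentBaseChange L (modularFunctionFieldFull M))),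
        qExpand k q (GaussL.gaussRed Λ res (laurentBaseChange L (modularFunctionFieldFull M)) g) =
          GaussL.gaussRed Λ res (laurentBaseChange L (modularFunctionFieldFull M)) d ^ q)
    (u : ↥(kronO Λ res ι M q hcop))
    (hi : kronRedInf Λ res ι M q hcop u ≠ 0) (h0 : kronRedZero Λ res ι M q hcop u ≠ 0) :
    ∃ h : s35_normAlong (heckeAlphaBar L M q)
        (u : ↥(laurentBaseChange L (modularFunctionFieldFull (M * q)))) ∈
          GaussL.gaussV Λ res (laurentBaseChange L (modularFunctionFieldFull M)),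
      qExpand k q (GaussL.gaussRed Λ res (laurentBaseChange L (modularFunctionFieldFull M))
          ⟨_, h⟩) =
        qExpand k q (kronRedInf Λ res ι M q hcop u) * kronRedZero Λ res ι M q hcop u ^ q :=
  haveI : Fact q.Prime := ⟨hq⟩
  s35n3ab_norm_of_eq hΛ M q (ktv_not_dvd_of_coprime M q hcop hq) _ _
    (Fermat.Agent.S37.ALEmb.baseChange_eq_fullC L (M * q))
    (Fermat.Agent.S37.ALEmb.baseChange_eq_fullC L M) (kronW L ι M q hcop)
    (ktv_hWα_of_alpha M q (kronW L ι M q hcop) (kronW_alpha L ι M q hcop))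
    (kronW_kronW L ι M q hcop) (heckeAlphaBar L M q) (coe_heckeAlphaBar M q) hfrob u.2.1 u.2.2

end LeafA

end Fermat.Agent.S35
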