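import Fermat.Agent.S35.N3Defs
import Fermat.Agent.S34.KronWGal
import Fermat.Agent.S34.GalField
import Fermat.Agent.S37.GaussADesc
import Fermat.Prelude.Thm_ModularCurve_coeffMap_qExpand

/-!
# P20 (S35), block N3, leaf C: transport `K ↔ ℚ̄` in the KRON vocabulary

`K ⊆ ℚ̄` an intermediate field, `A` a valuation ring of `ℚ̄`, `Λ_K = A ∩ K`.  The coefficientwise
embedding `s34galEmb : F_N(K) → F_N(ℚ̄)`

* maps the Gauss ring over `Λ_K` into the Gauss ring `gaussA` over `A`, compatibly with the
  reductions (`s35n3_emb_mem_gaussA`, `s35n3_redA_emb`), and detects Gauss-integrality for a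
  number field `K` (`s35n3_mem_gaussV_of_emb`);
* commutes with the two degeneracy maps `α`, `β` (`s35n3_emb_alpha`, `s35n3_emb_beta`) and with
  the Atkin–Lehner involution (`s35n3_emb_W`, `q` prime).
-/

set_option autoImplicit false

namespace Fermat.Agent.S35

open ModularCurve AlgebraicCurve Fermat.Agent.S18 Fermat.Agent.S18.NumField Fermat.Agent.S34
  Fermat.Agent.S28 Fermat.Agent.S28.FreeBasisAbs Fermat.Agent.S37

local notation "Qb" => AlgebraicClosure ℚ

/-! ### Generic helpers -/

/-- Membership in the Gauss ring only depends on the underlying Laurent series. -/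
theorem s35n3c_mem_gaussV_of_coe_eq {K k : Type*} [Field K] [Field k] {Λ : Subring K}
    {res : ↥Λ →+* k} {E E' : IntermediateField K (LaurentSeries K)} {x : ↥E} {y : ↥E'}
    (hxy : (x : LaurentSeries K) = (y : LaurentSeries K))
    (hx : x ∈ GaussL.gaussV Λ res E) : y ∈ GaussL.gaussV Λ res E' := by
  have h1 : (x : LaurentSeries K) ∈ GaussL.gaussO Λ res := (GaussL.mem_gaussV_iff E x).mp hx
  rw [hxy] at h1
  exact (GaussL.mem_gaussV_iff E' y).mpr h1

/-- For `q` prime, two ring homomorphisms out of `F_{Mq}` which agree on the images of the two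
degeneracy maps `α`, `β` from `F_M` are equal. -/
theorem s35n3c_ringHom_ext {L : Type*} [Field L] [Algebra ℚ L] {S : Type*} [Ring S] (M q : ℕ)
    [NeZero M] [NeZero q] (hq : q.Prime)
    {φ ψ : ↥(laurentBaseChange L (modularFunctionFieldFull (M * q))) →+* S}
    (hα : ∀ g : ↥(laurentBaseChange L (modularFunctionFieldFull M)),
      φ (heckeAlphaBar L M q g) = ψ (heckeAlphaBar L M q g))
    (hβ : ∀ g : ↥(laurentBaseChange L (modularFunctionFieldFull M)),
      φ (heckeBetaBar L M q g) = ψ (heckeBetaBar L M q g)) : φ = ψ := by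
  refine Fermat.Agent.S24.FFL_ringHom_ext (M * q) L (fun c => ?_) (fun d hd => ?_)
  · have hc : algebraMap L (Fermat.Agent.S24.FFL L (M * q)) c =
        heckeAlphaBar L M q (algebraMap L (Fermat.Agent.S24.FFL L M) c) :=
      (AlgHom.commutes _ c).symm
    rw [hc]
    exact hα _
  · by_cases hqd : q ∣ d
    · obtain ⟨d', rfl⟩ := hqd
      have hd' : d' ∣ M := by
        rw [mul_comm M q] at hd
        exact Nat.dvd_of_mul_dvd_mul_left hq.pos hd
      have e1 : Fermat.Agent.S24.jdL (M * q) L (q * d') hd =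
          heckeBetaBar L M q (Fermat.Agent.S24.jdL M L d' hd') :=
        (Fermat.Agent.S42.RealDegen.heckeBetaBar_jdL M q L d' hd').symm
      rw [e1]
      exact hβ _
    · have hd' : d ∣ M :=
        Nat.Coprime.dvd_of_dvd_mul_right
          (Nat.Coprime.symm ((Nat.Prime.coprime_iff_not_dvd hq).mpr hqd)) hd
      have e1 : Fermat.Agent.S24.jdL (M * q) L d hd =
          heckeAlphaBar L M q (Fermat.Agent.S24.jdL M L d hd') :=
        (Fermat.Agent.S42.RealDegen.heckeAlphaBar_jdL M q L d hd').symm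
      rw [e1]
      exact hα _

section LeafC

variable (A : ValuationSubring Qb) (K : IntermediateField ℚ Qb)

theorem s35n3_emb_mem_gaussA {N : ℕ}
    {f : ↥(laurentBaseChange ↥K (modularFunctionFieldFull N))}
    (hf : f ∈ GaussL.gaussV (lam A K).toSubring (lamResA A K)
      (laurentBaseChange ↥K (modularFunctionFieldFull N))) :
    s34galEmb (modularFunctionFieldFull N) K f ∈ gaussA A N := by
  obtain ⟨a, b, hb, hab⟩ := hf
  refine mem_gaussA_iff.mpr ⟨coeffMap (lamIncl A K) a, coeffMap (lamIncl A K) b, ?_, ?_⟩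
  · rw [coeffMap_residue_lamIncl]
    exact hb
  · rw [coeffMap_subtype_lamIncl, coeffMap_subtype_lamIncl, coe_s34galEmb, ← map_mul]
    exact congrArg _ hab

theorem s35n3_redA_emb {N : ℕ}
    {f : ↥(laurentBaseChange ↥K (modularFunctionFieldFull N))}
    (hf : f ∈ GaussL.gaussV (lam A K).toSubring (lamResA A K)
      (laurentBaseChange ↥K (modularFunctionFieldFull N))) :
    redA A N ⟨s34galEmb (modularFunctionFieldFull N) K f, s35n3_emb_mem_gaussA A K hf⟩ =
      GaussL.gaussRed (lam A K).toSubring (lamResA A K)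
        (laurentBaseChange ↥K (modularFunctionFieldFull N)) ⟨f, hf⟩ := by
  obtain ⟨a, b, hb, hab⟩ := hf
  have h1 := GaussL.gaussRed_mul_eq (laurentBaseChange ↥K (modularFunctionFieldFull N))
    (⟨f, ⟨a, b, hb, hab⟩⟩ : ↥(GaussL.gaussV (lam A K).toSubring (lamResA A K)
      (laurentBaseChange ↥K (modularFunctionFieldFull N)))) a b hab
  have h2 := redA_mul_eq (⟨s34galEmb (modularFunctionFieldFull N) K f,
      s35n3_emb_mem_gaussA A K ⟨a, b, hb, hab⟩⟩ : ↥(gaussA A N))
    (coeffMap (lamIncl A K) a) (coeffMap (lamIncl A K) b) (by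
      rw [coeffMap_subtype_lamIncl, coeffMap_subtype_lamIncl]
      show coeffMap (algebraMap ↥K (AlgebraicClosure ℚ)) _ * _ = _
      rw [← map_mul]
      exact congrArg _ hab)
  rw [coeffMap_residue_lamIncl, coeffMap_residue_lamIncl] at h2
  exact mul_right_cancel₀ hb (h2.trans h1.symm)

theorem s35n3_mem_gaussV_of_emb {ℓ : ℕ} [Fact ℓ.Prime] (hA : A.LiesOverPrime ℓ)
    [FiniteDimensional ℚ ↥K] {N : ℕ} [NeZero N]
    {f : ↥(laurentBaseChange ↥K (modularFunctionFieldFull N))}
    (h : s34galEmb (modularFunctionFieldFull N) K f ∈ gaussA A N) :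
    f ∈ GaussL.gaussV (lam A K).toSubring (lamResA A K)
      (laurentBaseChange ↥K (modularFunctionFieldFull N)) := by
  have hmem : (f : LaurentSeries ↥K) ∈ modularFunctionFieldFullC ↥K N := by
    rw [Descent.fullC_eq_laurentBaseChange]
    exact f.2
  have he : Descent.toFL K N (⟨(f : LaurentSeries ↥K), hmem⟩ :
      ↥(modularFunctionFieldFullC ↥K N)) =
      s34galEmb (modularFunctionFieldFull N) K f := Subtype.ext rfl
  have h' : Descent.toFL K N (⟨(f : LaurentSeries ↥K), hmem⟩ :
      ↥(modularFunctionFieldFullC ↥K N)) ∈ gaussA A N := by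
    rw [he]
    exact h
  have h3 : (⟨(f : LaurentSeries ↥K), hmem⟩ : ↥(modularFunctionFieldFullC ↥K N)) ∈
      GaussL.gaussV (lam A K).toSubring (lamResA A K) (modularFunctionFieldFullC ↥K N) :=
    mem_gaussV_of_toFL_mem hA K h'
  have h4 : ((⟨(f : LaurentSeries ↥K), hmem⟩ : ↥(modularFunctionFieldFullC ↥K N)) :
      LaurentSeries ↥K) = (f : LaurentSeries ↥K) := rfl
  exact s35n3c_mem_gaussV_of_coe_eq (E := modularFunctionFieldFullC ↥K N)
    (E' := laurentBaseChange ↥K (modularFunctionFieldFull N))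
    (x := ⟨(f : LaurentSeries ↥K), hmem⟩) (y := f) h4 h3

theorem s35n3_emb_alpha (N q : ℕ) [NeZero N] [NeZero q]
    (g : ↥(laurentBaseChange ↥K (modularFunctionFieldFull N))) :
    s34galEmb (modularFunctionFieldFull (N * q)) K (heckeAlphaBar ↥K N q g) =
      heckeAlphaBar Qb N q (s34galEmb (modularFunctionFieldFull N) K g) := by
  apply Subtype.ext
  rw [coe_s34galEmb, coe_heckeAlphaBar, coe_heckeAlphaBar, coe_s34galEmb]

theorem s35n3_emb_beta (N q : ℕ) [NeZero N] [NeZero q]
    (g : ↥(laurentBaseChange ↥K (modularFunctionFieldFull N))) :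
    s34galEmb (modularFunctionFieldFull (N * q)) K (heckeBetaBar ↥K N q g) =
      heckeBetaBar Qb N q (s34galEmb (modularFunctionFieldFull N) K g) := by
  apply Subtype.ext
  rw [coe_s34galEmb, coe_heckeBetaBar, coe_heckeBetaBar, coe_s34galEmb, coeffMap_qExpand]

theorem s35n3_emb_W (N q : ℕ) [NeZero N] [NeZero q] (hcop : Nat.Coprime N q) (hq : q.Prime)
    (ι : ↥K →+* ℂ) (z : ↥(laurentBaseChange ↥K (modularFunctionFieldFull (N * q)))) :
    s34galEmb (modularFunctionFieldFull (N * q)) K (kronW ↥K ι N q hcop z) =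
      s35_W N q hcop (s34galEmb (modularFunctionFieldFull (N * q)) K z) := by
  have h : (s34galEmb (modularFunctionFieldFull (N * q)) K).comp
        (kronW ↥K ι N q hcop : ↥(laurentBaseChange ↥K (modularFunctionFieldFull (N * q))) →+*
          ↥(laurentBaseChange ↥K (modularFunctionFieldFull (N * q)))) =
      (s35_W N q hcop : ↥(modularFunctionFieldBar (N * q)) →+*
          ↥(modularFunctionFieldBar (N * q))).comp
        (s34galEmb (modularFunctionFieldFull (N * q)) K) := by
    refine s35n3c_ringHom_ext N q hq (fun g => ?_) (fun g => ?_)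
    · show s34galEmb (modularFunctionFieldFull (N * q)) K
          (kronW ↥K ι N q hcop (heckeAlphaBar ↥K N q g)) =
        s35_W N q hcop (s34galEmb (modularFunctionFieldFull (N * q)) K (heckeAlphaBar ↥K N q g))
      rw [kronW_alpha, s35n3_emb_alpha, s35n3_emb_beta]
      exact (kronW_alpha Qb Fermat.Agent.S37.barToComplex N q hcop _).symm
    · show s34galEmb (modularFunctionFieldFull (N * q)) K
          (kronW ↥K ι N q hcop (heckeBetaBar ↥K N q g)) =
        s35_W N q hcop (s34galEmb (modularFunctionFieldFull (N * q)) K (heckeBetaBar ↥K N q g))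
      rw [kronW_beta, s35n3_emb_alpha, s35n3_emb_beta]
      exact (kronW_beta Qb Fermat.Agent.S37.barToComplex N q hcop _).symm
  exact RingHom.congr_fun h z

end LeafC

end Fermat.Agent.S35
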