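import Fermat.Agent.S35.N3Defs
import Fermat.Agent.S35.N3NormKb
import Fermat.Agent.S35.N3NormBCB
import Fermat.Agent.S35.N3Transport
import Fermat.Agent.S34.KronBasic
import Fermat.Agent.S34.KronGalRed
import Fermat.Agent.S34.KronFrob
import Fermat.Agent.S34.GalField
import Fermat.Agent.S37.GaussADesc
import Fermat.Agent.S37.Frob
import Fermat.Agent.S37.FrobBasic
import Fermat.Agent.S37.FrobRes
import Fermat.Agent.S18.NumField

/-!
# P20 (S35), block N3, leaf D: the norm formula over `ℚ̄`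

For `u ∈ 𝒪 = V_∞ ∩ W⁻¹ V_∞ ⊆ F_{Nq}(ℚ̄)` with both reductions nonzero, the norms of `u` along
`α` and `β` lie in the Gauss ring of `F_N(ℚ̄)` and

* `s35n3_norm_alpha_red`: `red (N_α u)(T^q) = (red_∞ u)(T^q) * (red_0 u)^q`;
* `s35n3_norm_beta_red`: `red (N_β u)(T^q) = (red_0 u)(T^q) * (red_∞ u)^q`.

Proof: descend `u` to a Galois number field `K ⊆ ℚ̄`, apply the formula over the discrete Gauss
ring `Λ = A ∩ K` (leaf A) with a Frobenius lift supplying the hypothesis `hfrob`, and come back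
with the base change of the norm (leaf B) and the transport lemmas (leaf C).
-/

set_option autoImplicit false

namespace Fermat.Agent.S35

open ModularCurve AlgebraicCurve Fermat.Agent.S18 Fermat.Agent.S18.NumField Fermat.Agent.S34
  Fermat.Agent.S28 Fermat.Agent.S28.FreeBasisAbs Fermat.Agent.S37

local notation "Qb" => AlgebraicClosure ℚ

/-- A Frobenius lift on a Galois number field `K ⊆ ℚ̄`, with respect to the residue map of
`Λ = A ∩ K` with values in the residue field of `A`. -/
theorem s35n3d_exists_frob (A : ValuationSubring Qb) (q : ℕ) (hq : q.Prime)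
    (hA : A.LiesOverPrime q)
    (K : IntermediateField ℚ Qb) [FiniteDimensional ℚ ↥K] [Normal ℚ ↥K] :
    ∃ (φ : ↥K ≃ₐ[ℚ] ↥K) (hφ : ∀ a ∈ (lam A K).toSubring, φ a ∈ (lam A K).toSubring)
      (hφΛ : ∀ a ∈ (lam A K).toSubring, φ.symm a ∈ (lam A K).toSubring),
      (∀ a : ↥(lam A K).toSubring, lamResA A K ⟨φ a, hφ a a.2⟩ = lamResA A K a ^ q) ∧
      ∀ a : ↥(lam A K).toSubring, lamResA A K ⟨φ.symm a, hφΛ a a.2⟩ ^ q = lamResA A K a := by
  obtain ⟨σ, hσ⟩ := Fermat.Agent.S37.exists_isFrobeniusAt_of_liesOver A q hq hA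
  have hdec : σ ∈ A.decompositionSubgroup ℚ := hσ.mem_decompositionSubgroup
  have hdec' : σ⁻¹ ∈ A.decompositionSubgroup ℚ := (A.decompositionSubgroup ℚ).inv_mem hdec
  have hcomm : ∀ a : ↥K, (((σ.restrictNormal ↥K).symm a : ↥K) : Qb) = σ.symm (a : Qb) := by
    intro a
    have h := AlgEquiv.restrictNormal_commutes σ ↥K ((σ.restrictNormal ↥K).symm a)
    rw [AlgEquiv.apply_symm_apply] at h
    exact (σ.symm_apply_eq.mpr h).symm
  have hcomm' : ∀ a : ↥K, (((σ.restrictNormal ↥K) a : ↥K) : Qb) = σ (a : Qb) :=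
    fun a => AlgEquiv.restrictNormal_commutes σ ↥K a
  have hmem : ∀ a ∈ (lam A K).toSubring, (σ.restrictNormal ↥K) a ∈ (lam A K).toSubring := by
    intro a ha
    have ha' : (a : Qb) ∈ A := mem_lam_iff.mp ha
    have h1 := Fermat.Agent.S37.apply_mem_of_mem_decomposition hdec ha'
    show (σ.restrictNormal ↥K) a ∈ lam A K
    rw [mem_lam_iff, hcomm']
    exact h1
  have hmem' : ∀ a ∈ (lam A K).toSubring,
      (σ.restrictNormal ↥K).symm a ∈ (lam A K).toSubring := by
    intro a ha
    have ha' : (a : Qb) ∈ A := mem_lam_iff.mp ha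
    have h1 := Fermat.Agent.S37.apply_mem_of_mem_decomposition hdec' ha'
    show (σ.restrictNormal ↥K).symm a ∈ lam A K
    rw [mem_lam_iff, hcomm]
    exact h1
  refine ⟨σ.restrictNormal ↥K, hmem, hmem', fun a => ?_, fun a => ?_⟩
  · show IsLocalRing.residue A (lamIncl A K ⟨(σ.restrictNormal ↥K) a, hmem a a.2⟩) =
      IsLocalRing.residue A (lamIncl A K a) ^ q
    refine Fermat.Agent.S37.residue_eq_pow_of_isFrobeniusAt hσ ?_
    rw [coe_lamIncl, coe_lamIncl]
    exact hcomm' a
  · show IsLocalRing.residue A (lamIncl A K ⟨(σ.restrictNormal ↥K).symm a, hmem' a a.2⟩) ^ q =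
      IsLocalRing.residue A (lamIncl A K a)
    refine (Fermat.Agent.S37.residue_eq_pow_of_isFrobeniusAt hσ ?_).symm
    rw [coe_lamIncl, coe_lamIncl]
    show ((a : ↥K) : Qb) = σ (((σ.restrictNormal ↥K).symm a : ↥K) : Qb)
    rw [hcomm, AlgEquiv.apply_symm_apply]

/-- The hypothesis `hfrob` of the norm formula over `Λ = A ∩ K`: every reduction to the power
`q` is of the form `g(T^q)` with `g` a reduction. -/
theorem s35n3d_hfrob (A : ValuationSubring Qb) (N q : ℕ) [NeZero N] [NeZero q] (hq : q.Prime)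
    (hA : A.LiesOverPrime q)
    (K : IntermediateField ℚ Qb) [FiniteDimensional ℚ ↥K] [Normal ℚ ↥K]
    (d : ↥(GaussL.gaussV (lam A K).toSubring (lamResA A K)
      (laurentBaseChange ↥K (modularFunctionFieldFull N)))) :
    ∃ g : ↥(GaussL.gaussV (lam A K).toSubring (lamResA A K)
        (laurentBaseChange ↥K (modularFunctionFieldFull N))),
      qExpand (IsLocalRing.ResidueField ↥A) q
          (GaussL.gaussRed (lam A K).toSubring (lamResA A K)
            (laurentBaseChange ↥K (modularFunctionFieldFull N)) g) =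
        GaussL.gaussRed (lam A K).toSubring (lamResA A K)
          (laurentBaseChange ↥K (modularFunctionFieldFull N)) d ^ q := by
  have hchar : CharP (IsLocalRing.ResidueField ↥A) q :=
    Fermat.Agent.S37.charP_residueField A hq hA
  have hqF : Fact q.Prime := ⟨hq⟩
  obtain ⟨φ, hφ, hφΛ, h1, h2⟩ := s35n3d_exists_frob A q hq hA K
  have hg : arithmeticRingAut (modularFunctionFieldFull N) φ
      (d : ↥(laurentBaseChange ↥K (modularFunctionFieldFull N))) ∈
        GaussL.gaussV (lam A K).toSubring (lamResA A K)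
          (laurentBaseChange ↥K (modularFunctionFieldFull N)) :=
    kron_ringAut_mem_gaussV (modularFunctionFieldFull N) φ hφ d.2
      (frobenius (IsLocalRing.ResidueField ↥A) q) (fun a => by rw [frobenius_def]; exact h1 a)
  obtain ⟨hg₁, e⟩ := kron_frob N q hq φ hφΛ h2 hg
  refine ⟨⟨_, hg⟩, ?_⟩
  rw [← e]
  congr 2
  exact Subtype.ext ((arithmeticRingAut (modularFunctionFieldFull N) φ).symm_apply_apply
    (d : ↥(laurentBaseChange ↥K (modularFunctionFieldFull N))))

section Main

variable (A : ValuationSubring Qb) (N q : ℕ) [NeZero N] [NeZero q] (hcop : Nat.Coprime N q)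

/-- The norm formula for an element of `𝒪` defined over a Galois number field `K`. -/
theorem s35n3d_core (hq : q.Prime) (hA : A.LiesOverPrime q)
    (K : IntermediateField ℚ Qb) [FiniteDimensional ℚ ↥K] [Normal ℚ ↥K]
    (u : ↥(s35_O A N q hcop))
    (uK : ↥(laurentBaseChange ↥K (modularFunctionFieldFull (N * q))))
    (huK : s34galEmb (modularFunctionFieldFull (N * q)) K uK =
      (u : ↥(modularFunctionFieldBar (N * q))))
    (hi : s35_redInf A N q hcop u ≠ 0) (h0 : s35_redZero A N q hcop u ≠ 0) :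
    ∃ h : s35_normAlong (heckeAlphaBar Qb N q) (u : ↥(modularFunctionFieldBar (N * q))) ∈
        gaussA A N,
      qExpand (IsLocalRing.ResidueField ↥A) q (redA A N ⟨_, h⟩) =
        qExpand (IsLocalRing.ResidueField ↥A) q (s35_redInf A N q hcop u) *
          s35_redZero A N q hcop u ^ q := by
  have hqF : Fact q.Prime := ⟨hq⟩
  have hchar : CharP (IsLocalRing.ResidueField ↥A) q :=
    Fermat.Agent.S37.charP_residueField A hq hA
  obtain ⟨ϖ, hϖ⟩ := exists_irreducible_lam (K := K) hA
  have hΛ : IsGaussRing (lam A K).toSubring (ϖ : ↥K) (lamResA A K) :=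
    isGaussRing_lam_resA hA hϖ
  let ιK : ↥K →+* ℂ := (Fermat.Agent.S37.barToComplex).comp (algebraMap ↥K Qb)
  -- `u_K ∈ 𝒪_K`
  have hu1 : uK ∈ GaussL.gaussV (lam A K).toSubring (lamResA A K)
      (laurentBaseChange ↥K (modularFunctionFieldFull (N * q))) := by
    apply s35n3_mem_gaussV_of_emb A K hA
    rw [huK]
    exact u.2.1
  have hu2 : kronW ↥K ιK N q hcop uK ∈ GaussL.gaussV (lam A K).toSubring (lamResA A K)
      (laurentBaseChange ↥K (modularFunctionFieldFull (N * q))) := by
    apply s35n3_mem_gaussV_of_emb A K hA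
    rw [s35n3_emb_W K N q hcop hq ιK uK, huK]
    exact u.2.2
  have huO : uK ∈ kronO (lam A K).toSubring (lamResA A K) ιK N q hcop :=
    (mem_kronO_iff (lam A K).toSubring (lamResA A K) ιK N q hcop).mpr ⟨hu1, hu2⟩
  -- the two reductions
  have hredInf : kronRedInf (lam A K).toSubring (lamResA A K) ιK N q hcop ⟨uK, huO⟩ =
      s35_redInf A N q hcop u := by
    rw [kronRedInf_apply, ← s35n3_redA_emb A K hu1]
    show redA A (N * q) ⟨s34galEmb (modularFunctionFieldFull (N * q)) K uK, _⟩ =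
      redA A (N * q) ⟨(u : ↥(modularFunctionFieldBar (N * q))), u.2.1⟩
    congr 1
    exact Subtype.ext huK
  have hredZero : kronRedZero (lam A K).toSubring (lamResA A K) ιK N q hcop ⟨uK, huO⟩ =
      s35_redZero A N q hcop u := by
    rw [kronRedZero_apply, ← s35n3_redA_emb A K hu2]
    show redA A (N * q) ⟨s34galEmb (modularFunctionFieldFull (N * q)) K
        (kronW ↥K ιK N q hcop uK), _⟩ =
      redA A (N * q) ⟨s35_W N q hcop (u : ↥(modularFunctionFieldBar (N * q))), u.2.2⟩
    congr 1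
    apply Subtype.ext
    show s34galEmb (modularFunctionFieldFull (N * q)) K (kronW ↥K ιK N q hcop uK) =
      s35_W N q hcop (u : ↥(modularFunctionFieldBar (N * q)))
    rw [s35n3_emb_W K N q hcop hq ιK uK, huK]
  -- the formula over `K`
  obtain ⟨hν, eν⟩ := s35n3_norm_alpha_Kb (Λ := (lam A K).toSubring) (res := lamResA A K) ιK N q
    hcop hΛ hq (s35n3d_hfrob A N q hq hA K) ⟨uK, huO⟩ (by rw [hredInf]; exact hi)
    (by rw [hredZero]; exact h0)
  -- back to `ℚ̄`
  have hqN : ¬ q ∣ N := fun h => hq.one_lt.ne' (Nat.Coprime.eq_one_of_dvd hcop.symm h)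
  have hB := s35n3_normAlong_alpha_emb_B K N q hq hqN uK
  rw [huK] at hB
  have hmem : s35_normAlong (heckeAlphaBar Qb N q) (u : ↥(modularFunctionFieldBar (N * q))) ∈
      gaussA A N := by
    rw [← hB]
    exact s35n3_emb_mem_gaussA A K hν
  refine ⟨hmem, ?_⟩
  have hred : redA A N ⟨_, hmem⟩ =
      GaussL.gaussRed (lam A K).toSubring (lamResA A K)
        (laurentBaseChange ↥K (modularFunctionFieldFull N)) ⟨_, hν⟩ := by
    rw [← s35n3_redA_emb A K hν]
    congr 1
    exact Subtype.ext hB.symm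
  rw [hred, eν, hredInf, hredZero]

theorem s35n3_norm_alpha_red (hq : q.Prime) (hA : A.LiesOverPrime q) (u : ↥(s35_O A N q hcop))
    (hi : s35_redInf A N q hcop u ≠ 0) (h0 : s35_redZero A N q hcop u ≠ 0) :
    ∃ h : s35_normAlong (heckeAlphaBar Qb N q) (u : ↥(modularFunctionFieldBar (N * q))) ∈
        gaussA A N,
      qExpand (IsLocalRing.ResidueField ↥A) q (redA A N ⟨_, h⟩) =
        qExpand (IsLocalRing.ResidueField ↥A) q (s35_redInf A N q hcop u) *
          s35_redZero A N q hcop u ^ q := by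
  obtain ⟨K₀, hK₀, hK₀u⟩ := s34gal_exists_emb_eq (modularFunctionFieldFull (N * q))
    (u : ↥(modularFunctionFieldBar (N * q)))
  have hKfd : FiniteDimensional ℚ ↥(IntermediateField.normalClosure ℚ ↥K₀ Qb) :=
    normalClosure.is_finiteDimensional ℚ ↥K₀ Qb
  have hKn : Normal ℚ ↥(IntermediateField.normalClosure ℚ ↥K₀ Qb) :=
    normalClosure.normal ℚ ↥K₀ Qb
  obtain ⟨uK, huK⟩ := hK₀u (IntermediateField.normalClosure ℚ ↥K₀ Qb)
    (IntermediateField.le_normalClosure K₀)
  exact s35n3d_core A N q hcop hq hA (IntermediateField.normalClosure ℚ ↥K₀ Qb) u uK huK hi h0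

theorem s35n3_norm_beta_red (hq : q.Prime) (hA : A.LiesOverPrime q) (u : ↥(s35_O A N q hcop))
    (hi : s35_redInf A N q hcop u ≠ 0) (h0 : s35_redZero A N q hcop u ≠ 0) :
    ∃ h : s35_normAlong (heckeBetaBar Qb N q) (u : ↥(modularFunctionFieldBar (N * q))) ∈
        gaussA A N,
      qExpand (IsLocalRing.ResidueField ↥A) q (redA A N ⟨_, h⟩) =
        qExpand (IsLocalRing.ResidueField ↥A) q (s35_redZero A N q hcop u) *
          s35_redInf A N q hcop u ^ q := by
  have hW : s35_W N q hcop (u : ↥(modularFunctionFieldBar (N * q))) ∈ s35_O A N q hcop :=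
    kronW_mem_kronO A.toSubring (resA A) Fermat.Agent.S37.barToComplex N q hcop u.2
  have e1 : s35_redInf A N q hcop ⟨_, hW⟩ = s35_redZero A N q hcop u := rfl
  have e2 : s35_redZero A N q hcop ⟨_, hW⟩ = s35_redInf A N q hcop u := by
    show redA A (N * q) ⟨s35_W N q hcop (s35_W N q hcop
        (u : ↥(modularFunctionFieldBar (N * q)))), hW.2⟩ =
      redA A (N * q) ⟨(u : ↥(modularFunctionFieldBar (N * q))), u.2.1⟩
    congr 1
    exact Subtype.ext (kronW_kronW Qb Fermat.Agent.S37.barToComplex N q hcop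
      (u : ↥(modularFunctionFieldBar (N * q))))
  obtain ⟨h, e⟩ := s35n3_norm_alpha_red A N q hcop hq hA ⟨_, hW⟩ (by rw [e1]; exact h0)
    (by rw [e2]; exact hi)
  have hB := s35n3_normAlong_beta_eq_B Fermat.Agent.S37.barToComplex N q hcop
    (u : ↥(modularFunctionFieldBar (N * q)))
  have hmem : s35_normAlong (heckeBetaBar Qb N q) (u : ↥(modularFunctionFieldBar (N * q))) ∈
      gaussA A N := by
    rw [hB]
    exact h
  refine ⟨hmem, ?_⟩
  have hred : redA A N ⟨_, hmem⟩ = redA A N ⟨_, h⟩ := by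
    congr 1
    exact Subtype.ext hB
  rw [hred, e, e1, e2]

end Main

end Fermat.Agent.S35
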