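import Fermat.Agent.S35.N3Defs
import Fermat.Agent.S34.KronWGal
import Fermat.Agent.S34.GalPic

/-!
# P20 (S35), block N3, leaf G2: Kummer pairs and the actions of Galois and `W` on `J₀(N q)`

Bookkeeping in the frozen `Pic⁰` formalism.

* `s35n3_kummer_galois` : a Kummer pair `(D, u)` of `x` gives the Kummer pair `(σ D, σ u)` of
  `σ • x` (coefficientwise Galois action);
* `s35n3_kummer_W` : the same for the Atkin–Lehner involution `W`;
* `s35n3_kummer_combine` : Kummer pairs `(D₁, u₁)`, `(D₂, u₂)` and a function `G ≠ 0` give the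
  Kummer pair `(D₁ + D₂ - div G, u₁ u₂ / G ^ m)` of the sum of the classes;
* `s35n3_W_smul_galois` : on `J₀(N q)` the involution `W` commutes with the Galois action;
* `s35n3_W_smul_W` : `W` is an involution of `J₀(N q)`.
-/

set_option autoImplicit false
set_option linter.unusedVariables false
set_option linter.unusedSectionVars false

namespace Fermat.Agent.S35

open ModularCurve AlgebraicCurve Fermat.Agent.S34

local notation "Qb" => AlgebraicClosure ℚ

/-! ### Abstract versions -/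

section Abstract

variable {K F : Type*} [Field K] [Field F] [Algebra K F]

/-- The Kummer pair of `g • [D]` for a semilinear automorphism `g`. -/
theorem s35n3p_kummer_semilinear (g : SemilinearAut K F) {m : ℕ}
    (D : Divisor.degZero (K := K) (F := F)) (u : F)
    (hdiv : ∀ v : Place K F, (m • (D : Divisor K F)) v = v.ord u) :
    ∃ D' : Divisor.degZero (K := K) (F := F),
      Pic0.mk D' = g • (Pic0.mk D : Pic0 K F) ∧
      ∀ v : Place K F, (m • (D' : Divisor K F)) v = v.ord (g • u) := by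
  refine ⟨SemilinearAut.degZeroSMulHom g D, (SemilinearAut.pic0_smul_mk g D).symm, fun v => ?_⟩
  have h1 : (m • (g • (D : Divisor K F))) v = (m • (D : Divisor K F)) (g⁻¹ • v) := by
    simp only [Finsupp.smul_apply, SemilinearAut.divisor_smul_apply]
  rw [SemilinearAut.coe_degZeroSMulHom, h1, hdiv (g⁻¹ • v), s34gal_ord_smul g v u]

/-- The Kummer pair of `σ • [D]` for a `K`-linear automorphism `σ`. -/
theorem s35n3p_kummer_algEquiv (σ : F ≃ₐ[K] F) {m : ℕ}
    (D : Divisor.degZero (K := K) (F := F)) (u : F)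
    (hdiv : ∀ v : Place K F, (m • (D : Divisor K F)) v = v.ord u) :
    ∃ D' : Divisor.degZero (K := K) (F := F),
      Pic0.mk D' = σ • (Pic0.mk D : Pic0 K F) ∧
      ∀ v : Place K F, (m • (D' : Divisor K F)) v = v.ord (σ u) := by
  refine ⟨Pic0.degZeroSMulHom σ D, (Pic0.smul_mk σ D).symm, fun v => ?_⟩
  have h := Place.ord_smul σ (σ⁻¹ • v) u
  rw [smul_inv_smul] at h
  have h1 : (m • (σ • (D : Divisor K F))) v = (m • (D : Divisor K F)) (σ⁻¹ • v) := by
    simp only [Finsupp.smul_apply, Divisor.smul_apply]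
  rw [Pic0.coe_degZeroSMulHom, h1, hdiv (σ⁻¹ • v), h]

/-- Sum of two Kummer pairs, corrected by the divisor of a function. -/
theorem s35n3p_kummer_combine [HasPrincipalDivisors K F] {m : ℕ}
    (D₁ D₂ : Divisor.degZero (K := K) (F := F)) (u₁ u₂ G : F) (hu₁ : u₁ ≠ 0) (hu₂ : u₂ ≠ 0)
    (hG : G ≠ 0)
    (h₁ : ∀ v : Place K F, (m • (D₁ : Divisor K F)) v = v.ord u₁)
    (h₂ : ∀ v : Place K F, (m • (D₂ : Divisor K F)) v = v.ord u₂) :
    ∃ D' : Divisor.degZero (K := K) (F := F),
      Pic0.mk D' = (Pic0.mk D₁ + Pic0.mk D₂ : Pic0 K F) ∧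
      ∀ v : Place K F, (m • (D' : Divisor K F)) v = v.ord (u₁ * u₂ * (G ^ m)⁻¹) := by
  obtain ⟨E, hE, hEdeg⟩ := HasPrincipalDivisors.exists_divisor (K := K) G hG
  have hEmem : E ∈ Divisor.degZero (K := K) (F := F) := hEdeg
  have h0 : Pic0.mk (⟨E, hEmem⟩ : Divisor.degZero (K := K) (F := F)) = 0 := by
    refine (QuotientAddGroup.eq_zero_iff _).mpr ?_
    rw [AddSubgroup.mem_addSubgroupOf]
    exact ⟨G, hG, hE⟩
  refine ⟨D₁ + D₂ - ⟨E, hEmem⟩, ?_, fun v => ?_⟩
  · have h3 : Pic0.mk (D₁ + D₂ - ⟨E, hEmem⟩) =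
        Pic0.mk D₁ + Pic0.mk D₂ - Pic0.mk (⟨E, hEmem⟩ : Divisor.degZero (K := K) (F := F)) :=
      rfl
    rw [h3, h0, sub_zero]
  · have hGm : (G ^ m)⁻¹ ≠ 0 := inv_ne_zero (pow_ne_zero m hG)
    have h4 : (m • ((D₁ : Divisor K F) + (D₂ : Divisor K F) - E)) v =
        (m • (D₁ : Divisor K F)) v + (m • (D₂ : Divisor K F)) v - (m : ℤ) * E v := by
      simp only [Finsupp.smul_apply, Finsupp.add_apply, Finsupp.sub_apply, nsmul_eq_mul]
      ring
    show (m • ((D₁ : Divisor K F) + (D₂ : Divisor K F) - E)) v = _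
    rw [h4, v.ord_mul (mul_ne_zero hu₁ hu₂) hGm, v.ord_mul hu₁ hu₂, v.ord_inv, ← zpow_natCast,
      v.ord_zpow, h₁ v, h₂ v, hE v]
    ring

open scoped Pointwise in
/-- A `K`-linear automorphism commuting with a semilinear automorphism on functions commutes
with it on places. -/
theorem s35n3p_place_smul_comm (σ : F ≃ₐ[K] F) (g : SemilinearAut K F)
    (h : ∀ x : F, σ (g • x) = g • σ x) (v : Place K F) : σ • g • v = g • σ • v := by
  apply Place.ext
  rw [Place.smul_toValuationSubring, SemilinearAut.smul_toValuationSubring,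
    SemilinearAut.smul_toValuationSubring, Place.smul_toValuationSubring]
  ext x
  simp only [ValuationSubring.mem_smul_pointwise_iff_exists]
  constructor
  · rintro ⟨s, ⟨t, ht, rfl⟩, rfl⟩
    exact ⟨σ • t, ⟨t, ht, rfl⟩, (h t).symm⟩
  · rintro ⟨s, ⟨t, ht, rfl⟩, rfl⟩
    exact ⟨g • t, ⟨t, ht, rfl⟩, h t⟩

/-- … and on divisors. -/
theorem s35n3p_divisor_smul_comm (σ : F ≃ₐ[K] F) (g : SemilinearAut K F)
    (h : ∀ x : F, σ (g • x) = g • σ x) (D : Divisor K F) : σ • g • D = g • σ • D := by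
  rw [Divisor.smul_def, SemilinearAut.divisor_smul_def, SemilinearAut.divisor_smul_def,
    Divisor.smul_def, ← Finsupp.mapDomain_comp, ← Finsupp.mapDomain_comp]
  congr 1
  funext v
  exact s35n3p_place_smul_comm σ g h v

/-- … and on `Pic⁰`. -/
theorem s35n3p_pic0_smul_comm (σ : F ≃ₐ[K] F) (g : SemilinearAut K F)
    (h : ∀ x : F, σ (g • x) = g • σ x) (x : Pic0 K F) : σ • g • x = g • σ • x := by
  obtain ⟨D, rfl⟩ := Pic0.mk_surjective x
  rw [SemilinearAut.pic0_smul_mk, Pic0.smul_mk, Pic0.smul_mk, SemilinearAut.pic0_smul_mk]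
  exact congrArg Pic0.mk (Subtype.ext (s35n3p_divisor_smul_comm σ g h D))

end Abstract

/-! ### The statements for `J₀(N q)` -/

section LeafG

variable (N q : ℕ) [NeZero N] [NeZero q] (hcop : Nat.Coprime N q)

theorem s35n3_kummer_galois (σ : Qb ≃ₐ[ℚ] Qb) {m : ℕ}
    (D : Divisor.degZero (K := Qb) (F := modularFunctionFieldBar (N * q)))
    (u : ↥(modularFunctionFieldBar (N * q))) (hu : u ≠ 0)
    (hdiv : ∀ v : Place Qb (modularFunctionFieldBar (N * q)),
      (m • (D : Divisor Qb (modularFunctionFieldBar (N * q)))) v = v.ord u) :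
    ∃ D' : Divisor.degZero (K := Qb) (F := modularFunctionFieldBar (N * q)),
      Pic0.mk D' = σ • (Pic0.mk D : JZero (N * q)) ∧
      ∀ v : Place Qb (modularFunctionFieldBar (N * q)),
        (m • (D' : Divisor Qb (modularFunctionFieldBar (N * q)))) v =
          v.ord (arithmeticRingAut (modularFunctionFieldFull (N * q)) σ u) :=
  s35n3p_kummer_semilinear (arithmeticGalois (modularFunctionFieldFull (N * q)) σ) D u hdiv

theorem s35n3_kummer_W {m : ℕ}
    (D : Divisor.degZero (K := Qb) (F := modularFunctionFieldBar (N * q)))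
    (u : ↥(modularFunctionFieldBar (N * q))) (hu : u ≠ 0)
    (hdiv : ∀ v : Place Qb (modularFunctionFieldBar (N * q)),
      (m • (D : Divisor Qb (modularFunctionFieldBar (N * q)))) v = v.ord u) :
    ∃ D' : Divisor.degZero (K := Qb) (F := modularFunctionFieldBar (N * q)),
      Pic0.mk D' = s35_W N q hcop • (Pic0.mk D : JZero (N * q)) ∧
      ∀ v : Place Qb (modularFunctionFieldBar (N * q)),
        (m • (D' : Divisor Qb (modularFunctionFieldBar (N * q)))) v =
          v.ord (s35_W N q hcop u) :=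
  s35n3p_kummer_algEquiv (s35_W N q hcop) D u hdiv

theorem s35n3_kummer_combine {m : ℕ}
    (D₁ D₂ : Divisor.degZero (K := Qb) (F := modularFunctionFieldBar (N * q)))
    (u₁ u₂ G : ↥(modularFunctionFieldBar (N * q))) (hu₁ : u₁ ≠ 0) (hu₂ : u₂ ≠ 0) (hG : G ≠ 0)
    (h₁ : ∀ v : Place Qb (modularFunctionFieldBar (N * q)),
      (m • (D₁ : Divisor Qb (modularFunctionFieldBar (N * q)))) v = v.ord u₁)
    (h₂ : ∀ v : Place Qb (modularFunctionFieldBar (N * q)),
      (m • (D₂ : Divisor Qb (modularFunctionFieldBar (N * q)))) v = v.ord u₂) :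
    ∃ D' : Divisor.degZero (K := Qb) (F := modularFunctionFieldBar (N * q)),
      Pic0.mk D' = (Pic0.mk D₁ + Pic0.mk D₂ : JZero (N * q)) ∧
      ∀ v : Place Qb (modularFunctionFieldBar (N * q)),
        (m • (D' : Divisor Qb (modularFunctionFieldBar (N * q)))) v =
          v.ord (u₁ * u₂ * (G ^ m)⁻¹) :=
  s35n3p_kummer_combine D₁ D₂ u₁ u₂ G hu₁ hu₂ hG h₁ h₂

theorem s35n3_W_smul_galois (hq : q.Prime) (σ : Qb ≃ₐ[ℚ] Qb) (x : JZero (N * q)) :
    s35_W N q hcop • σ • x = σ • s35_W N q hcop • x := by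
  rw [galois_smul_pic0_def, galois_smul_pic0_def]
  exact s35n3p_pic0_smul_comm (s35_W N q hcop)
    (arithmeticGalois (modularFunctionFieldFull (N * q)) σ)
    (fun z => kronW_ringAut Fermat.Agent.S37.barToComplex N q hcop hq σ z) x

theorem s35n3_W_smul_W (x : JZero (N * q)) :
    s35_W N q hcop • s35_W N q hcop • x = x := by
  have h : s35_W N q hcop * s35_W N q hcop = 1 :=
    AlgEquiv.ext fun z =>
      kronW_kronW (AlgebraicClosure ℚ) Fermat.Agent.S37.barToComplex N q hcop z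
  rw [← mul_smul, h, one_smul]

end LeafG

end Fermat.Agent.S35
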