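import Fermat.Agent.S35.N3Defs
import Fermat.Agent.S42.KummerBasic

/-!
# P20 (S35), block N3, leaf F: `α_* x = 0`, `β_* x = 0` in terms of Kummer generators

Let `x = [D] ∈ J₀(N q)` with a Kummer generator `u` (`m D = div u`).  If the push-forward of `x`
along a degeneracy map `φ ∈ {α, β} : F_N → F_{Nq}` vanishes, then the norm of `u` along `φ` is an
`m`-th power up to a nonzero constant:

* `s35n3_norm_of_pushA` : `α_* [D] = 0 → Nm_α u = c · h ^ m`;
* `s35n3_norm_of_pushB` : `β_* [D] = 0 → Nm_β u = c · h ^ m`.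

Indeed `φ_* D = div h` for some `h ≠ 0`, and by the norm formula `div (Nm_φ u) = φ_* (m D) =
m · div h = div (h ^ m)`, so `Nm_φ u / h ^ m` has neither zeros nor poles, hence is a constant.
-/

set_option autoImplicit false
set_option linter.style.haveILetI false

namespace Fermat.Agent.S35

open ModularCurve AlgebraicCurve

local notation "Qb" => AlgebraicClosure ℚ

section Abstract

variable {K F F' : Type*} [Field K] [Field F] [Field F'] [Algebra K F] [Algebra K F']

/-- The norm along a finite map of a nonzero element is nonzero. -/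
theorem s35n3f_normAlong_ne_zero (φ : F →ₐ[K] F') (hfin : FiniteAlong K φ) {u : F'}
    (hu : u ≠ 0) : s35_normAlong φ u ≠ 0 := by
  letI := algebraAlong φ
  haveI : Module.Finite F F' := hfin
  haveI : Module.Free F F' := Module.Free.of_divisionRing _ _
  exact Algebra.norm_ne_zero_iff.mpr hu

/-- The norm formula, for `s35_normAlong`. -/
theorem s35n3f_pushforwardAlong_apply (φ : F →ₐ[K] F') (hφ : φ.toRingHom.IsIntegral)
    (hfin : FiniteAlong K φ) (hN : NormFormulaAlong K φ hfin) {u : F'} (hu : u ≠ 0)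
    (E : Divisor K F') (hE : ∀ w : Place K F', E w = w.ord u) (v : Place K F) :
    Divisor.pushforwardAlong φ hφ E v = v.ord (s35_normAlong φ u) :=
  hN u hu E hE v

/-- Abstract form: if `m D = div u` and the class of `φ_* D` vanishes, then `Nm_φ u` is an
`m`-th power up to a constant (provided the functions of `F` without zeros and poles are
constant). -/
theorem s35n3f_norm_of_push [HasPrincipalDivisors K F'] (φ : F →ₐ[K] F')
    (hφ : φ.toRingHom.IsIntegral) (hfin : FiniteAlong K φ) (hN : NormFormulaAlong K φ hfin)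
    (hconst : ∀ x : F, (∀ v : Place K F, v.ord x = 0) → ∃ a : K, x = algebraMap K F a)
    {m : ℕ} (D : Divisor.degZero (K := K) (F := F')) (u : F') (hu : u ≠ 0)
    (hdiv : ∀ v : Place K F', (m • (D : Divisor K F')) v = v.ord u)
    (hpush : s35_pushAlong φ hφ hfin hN (Pic0.mk D) = 0) :
    ∃ (h : F) (c : K), h ≠ 0 ∧ c ≠ 0 ∧ s35_normAlong φ u = algebraMap K F c * h ^ m := by
  -- the push-forward of `D` is principal
  have h1 : Pic0.mk (⟨Divisor.pushforwardAlong φ hφ (D : Divisor K F'),
      Divisor.pushforwardAlong_mem_degZero φ hφ D.2⟩ : Divisor.degZero (K := K) (F := F)) = 0 :=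
    hpush
  have h2 := (QuotientAddGroup.eq_zero_iff _).mp h1
  rw [AddSubgroup.mem_addSubgroupOf] at h2
  obtain ⟨h, hh, hD⟩ := h2
  have hD' : ∀ v : Place K F, Divisor.pushforwardAlong φ hφ (D : Divisor K F') v = v.ord h :=
    fun v => hD v
  -- the norm formula
  have hnorm : ∀ v : Place K F,
      Divisor.pushforwardAlong φ hφ (m • (D : Divisor K F')) v = v.ord (s35_normAlong φ u) :=
    fun v => s35n3f_pushforwardAlong_apply φ hφ hfin hN hu _ hdiv v
  have hnm0 : s35_normAlong φ u ≠ 0 := s35n3f_normAlong_ne_zero φ hfin hu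
  have hhm : h ^ m ≠ 0 := pow_ne_zero _ hh
  -- the quotient has neither zeros nor poles
  have hord : ∀ v : Place K F, v.ord (s35_normAlong φ u * (h ^ m)⁻¹) = 0 := by
    intro v
    have e1 : v.ord (s35_normAlong φ u) = (m : ℤ) * v.ord h := by
      rw [← hnorm v, map_nsmul, Finsupp.smul_apply, hD' v, nsmul_eq_mul]
    have e2 : v.ord (h ^ m) = (m : ℤ) * v.ord h := by
      rw [← zpow_natCast, v.ord_zpow]
    rw [v.ord_mul hnm0 (inv_ne_zero hhm), v.ord_inv, e1, e2, add_neg_cancel]
  obtain ⟨c, hc⟩ := hconst _ hord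
  refine ⟨h, c, hh, ?_, ?_⟩
  · rintro rfl
    rw [map_zero] at hc
    exact mul_ne_zero hnm0 (inv_ne_zero hhm) hc
  · rw [← hc, inv_mul_cancel_right₀ hhm]

end Abstract

section LeafF

variable (N q : ℕ) [NeZero N] [NeZero q]

theorem s35n3_norm_of_pushA {m : ℕ}
    (D : Divisor.degZero (K := Qb) (F := modularFunctionFieldBar (N * q)))
    (u : ↥(modularFunctionFieldBar (N * q))) (hu : u ≠ 0)
    (hdiv : ∀ v : Place Qb (modularFunctionFieldBar (N * q)),
      (m • (D : Divisor Qb (modularFunctionFieldBar (N * q)))) v = v.ord u)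
    (hpush : s35_pushA N q (Pic0.mk D) = 0) :
    ∃ (h : ↥(modularFunctionFieldBar N)) (c : Qb), h ≠ 0 ∧ c ≠ 0 ∧
      s35_normAlong (heckeAlphaBar Qb N q) u =
        algebraMap Qb ↥(modularFunctionFieldBar N) c * h ^ m :=
  s35n3f_norm_of_push (heckeAlphaBar Qb N q) (Fermat.Agent.S37.heckeAlphaBar_isIntegral N q)
    (Fermat.Agent.S37.heckeAlphaBar_finiteAlong N q)
    (Fermat.Agent.S37.heckeAlphaBar_normFormulaAlong N q)
    (Fermat.Agent.S42.KummerBasic.exists_algebraMap_eq_of_ord_eq_zero N) D u hu hdiv hpush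

theorem s35n3_norm_of_pushB {m : ℕ}
    (D : Divisor.degZero (K := Qb) (F := modularFunctionFieldBar (N * q)))
    (u : ↥(modularFunctionFieldBar (N * q))) (hu : u ≠ 0)
    (hdiv : ∀ v : Place Qb (modularFunctionFieldBar (N * q)),
      (m • (D : Divisor Qb (modularFunctionFieldBar (N * q)))) v = v.ord u)
    (hpush : s35_pushB N q (Pic0.mk D) = 0) :
    ∃ (h : ↥(modularFunctionFieldBar N)) (c : Qb), h ≠ 0 ∧ c ≠ 0 ∧
      s35_normAlong (heckeBetaBar Qb N q) u =
        algebraMap Qb ↥(modularFunctionFieldBar N) c * h ^ m :=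
  s35n3f_norm_of_push (heckeBetaBar Qb N q) (Fermat.Agent.S37.heckeBetaBar_isIntegral N q)
    (Fermat.Agent.S37.heckeBetaBar_finiteAlong N q)
    (Fermat.Agent.S37.heckeBetaBar_normFormulaAlong N q)
    (Fermat.Agent.S42.KummerBasic.exists_algebraMap_eq_of_ord_eq_zero N) D u hu hdiv hpush

end LeafF

end Fermat.Agent.S35
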