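import Fermat.Agent.S35.N3Defs
import Fermat.Agent.S34.KronBasic
import Fermat.Agent.S34.KronTwoVal
import Fermat.Agent.S37.GaussADesc
import Fermat.Agent.S37.Frob

/-!
# P20 (S35), block N3, leaf E1: the separating element

Level `N * q`, `q ∤ N`, over `ℚ̄` with a valuation ring `A` of `ℚ̄` lying over `q`.

* `s35n3_sep_W_eq`, `s35n3_exists_sep` : there is `e ∈ 𝒪 = V_∞ ∩ V_0` with `red_∞ e = 1`,
  `red_0 e = 0`, and moreover `W e = q · e₂` with `e₂ ∈ V_∞`
  (`e = (α j - (β j)^q) / (α j - (α j)^(q^2))`, Kronecker's congruence);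
* `s35n3_exists_pow_div_mem` : for `t ≠ 0` in `ℚ̄` some `q ^ n / t` lies in the maximal ideal
  of `A`;
* `s35n3_exists_root_unit` : if `c · h ^ m` lies in the Gauss ring, it is the `m`-th power of an
  element of the Gauss ring.
-/

set_option autoImplicit false

namespace Fermat.Agent.S35

open ModularCurve AlgebraicCurve Fermat.Agent.S18 Fermat.Agent.S18.NumField Fermat.Agent.S34
  Fermat.Agent.S28 Fermat.Agent.S28.FreeBasisAbs Fermat.Agent.S37

local notation "Qb" => AlgebraicClosure ℚ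

/-! ### Auxiliary lemmas -/

/-- A Laurent series of nonzero order is not equal to its `n`-th power, `n ≥ 2`. -/
theorem s35n3e_sub_pow_ne_zero {k : Type*} [Field k] (u : LaurentSeries k) (hu : u.order ≠ 0)
    {n : ℕ} (hn : 2 ≤ n) : u - u ^ n ≠ 0 := by
  intro h
  rw [sub_eq_zero] at h
  have ho := congrArg HahnSeries.order h
  rw [HahnSeries.order_pow, nsmul_eq_mul] at ho
  have h1 : ((n : ℤ) - 1) * u.order = 0 := by linarith
  rcases mul_eq_zero.mp h1 with h2 | h2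
  · have h3 : (n : ℤ) = 1 := by linarith
    have h4 : n = 1 := by exact_mod_cast h3
    omega
  · exact hu h2

/-- Frobenius congruence for `j`: all coefficients of `j(T^q) - j(T)^q` are divisible by `q`. -/
theorem s35n3e_dvd_coeff (q : ℕ) [NeZero q] (hq : q.Prime) (n : ℤ) :
    (q : ℤ) ∣ (qExpand ℤ q (jqModC ℤ) - jqModC ℤ ^ q).coeff n := by
  have : Fact q.Prime := ⟨hq⟩
  have hzero : coeffMap (Int.castRingHom (ZMod q)) (qExpand ℤ q (jqModC ℤ) - jqModC ℤ ^ q) = 0 := by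
    rw [map_sub, map_pow, coeffMap_qExpand, coeffMap_jqModC, ktv_qExpand_jqModC, sub_self]
  have h1 : (coeffMap (Int.castRingHom (ZMod q))
      (qExpand ℤ q (jqModC ℤ) - jqModC ℤ ^ q)).coeff n = 0 := by
    rw [hzero, HahnSeries.coeff_zero]
  rw [coeffMap_coeff, eq_intCast] at h1
  exact (ZMod.intCast_zmod_eq_zero_iff_dvd _ q).mp h1

/-- Kronecker's congruence over `A`: `β j - (α j) ^ q = q · y` with `y` in the Gauss ring. -/
theorem s35n3e_kron_div (A : ValuationSubring Qb) (N q : ℕ) [NeZero N] [NeZero q] (hq : q.Prime) :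
    ∃ y : ↥(modularFunctionFieldBar (N * q)), y ∈ gaussA A (N * q) ∧
      heckeBetaBar Qb N q (Fermat.Agent.S24.jL Qb N) -
          heckeAlphaBar Qb N q (Fermat.Agent.S24.jL Qb N) ^ q =
        algebraMap Qb ↥(modularFunctionFieldBar (N * q)) (q : Qb) * y := by
  have hq0 : (q : Qb) ≠ 0 := Nat.cast_ne_zero.mpr hq.ne_zero
  refine ⟨algebraMap Qb ↥(modularFunctionFieldBar (N * q)) ((q : Qb)⁻¹) *
    (heckeBetaBar Qb N q (Fermat.Agent.S24.jL Qb N) -
      heckeAlphaBar Qb N q (Fermat.Agent.S24.jL Qb N) ^ q), ?_, ?_⟩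
  · apply mem_gaussA_of_coeff_mem
    intro n
    have hcoe : ((algebraMap Qb ↥(modularFunctionFieldBar (N * q)) ((q : Qb)⁻¹) *
        (heckeBetaBar Qb N q (Fermat.Agent.S24.jL Qb N) -
          heckeAlphaBar Qb N q (Fermat.Agent.S24.jL Qb N) ^ q) :
        ↥(modularFunctionFieldBar (N * q))) : LaurentSeries Qb) =
        HahnSeries.single 0 ((q : Qb)⁻¹) *
          coeffMap (Int.castRingHom Qb) (qExpand ℤ q (jqModC ℤ) - jqModC ℤ ^ q) := by
      rw [map_sub, map_pow, coeffMap_qExpand, coeffMap_jqModC,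
        ← algebraMap_laurentSeries_eq_single]
      show algebraMap Qb (LaurentSeries Qb) ((q : Qb)⁻¹) *
        (((heckeBetaBar Qb N q (Fermat.Agent.S24.jL Qb N) :
            ↥(modularFunctionFieldBar (N * q))) : LaurentSeries Qb) -
          ((heckeAlphaBar Qb N q (Fermat.Agent.S24.jL Qb N) :
            ↥(modularFunctionFieldBar (N * q))) : LaurentSeries Qb) ^ q) = _
      rw [coe_heckeBetaBar, coe_heckeAlphaBar, ktv_coe_jL]
    rw [hcoe, HahnSeries.coeff_single_zero_mul, coeffMap_coeff]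
    obtain ⟨d, hd⟩ := s35n3e_dvd_coeff q hq n
    rw [hd]
    have h2 : (q : Qb)⁻¹ * (Int.castRingHom Qb) ((q : ℤ) * d) = ((d : ℤ) : Qb) := by
      rw [map_mul, eq_intCast, eq_intCast, Int.cast_natCast, ← mul_assoc,
        inv_mul_cancel₀ hq0, one_mul]
    rw [h2]
    exact intCast_mem A d
  · rw [← mul_assoc, ← map_mul, mul_inv_cancel₀ hq0, map_one, one_mul]

/-! ### `q ^ n / t` -/

theorem s35n3_exists_pow_div_mem (A : ValuationSubring Qb) {q : ℕ} (hq : q.Prime)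
    (hA : A.LiesOverPrime q) (t : Qb) (ht : t ≠ 0) :
    ∃ n : ℕ, ∃ h : (q : Qb) ^ n / t ∈ A,
      IsLocalRing.residue ↥A ⟨(q : Qb) ^ n / t, h⟩ = 0 := by
  have : Fact q.Prime := ⟨hq⟩
  have hq0 : (q : Qb) ≠ 0 := Nat.cast_ne_zero.mpr hq.ne_zero
  have halgQ : IsAlgebraic ℚ (t⁻¹ : Qb) := (AlgebraicClosure.isAlgebraic ℚ).isAlgebraic _
  have halg : IsAlgebraic ℤ (t⁻¹ : Qb) := (IsFractionRing.isAlgebraic_iff ℤ ℚ Qb).mpr halgQ
  obtain ⟨y, hy0, hy⟩ := halg.exists_integral_multiple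
  rw [zsmul_eq_mul] at hy
  have hyA : ((y : ℤ) : Qb) * t⁻¹ ∈ A := mem_of_isIntegral_int hy
  -- the absolute value
  have hnA : ((y.natAbs : ℕ) : Qb) * t⁻¹ ∈ A := by
    rcases Int.natAbs_eq y with h | h
    · have h1 : ((y.natAbs : ℕ) : Qb) = ((y : ℤ) : Qb) := by
        conv_rhs => rw [h]
        rw [Int.cast_natCast]
      rw [h1]
      exact hyA
    · have h1 : ((y.natAbs : ℕ) : Qb) = -((y : ℤ) : Qb) := by
        conv_rhs => rw [h]
        rw [Int.cast_neg, Int.cast_natCast, neg_neg]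
      rw [h1, neg_mul]
      exact A.neg_mem _ hyA
  have hn0 : y.natAbs ≠ 0 := Int.natAbs_ne_zero.mpr hy0
  obtain ⟨a, d, hd, hyd⟩ := Nat.exists_eq_pow_mul_and_not_dvd hn0 q hq.ne_one
  have hdinv : ((d : ℕ) : Qb)⁻¹ ∈ A := natCast_inv_mem hA hd
  have hd0 : ((d : ℕ) : Qb) ≠ 0 := by
    intro h0
    have h1 : d = 0 := by exact_mod_cast h0
    exact hd (h1 ▸ dvd_zero q)
  have hpow : (q : Qb) ^ a / t ∈ A := by
    have h1 : (q : Qb) ^ a / t = ((d : ℕ) : Qb)⁻¹ * (((y.natAbs : ℕ) : Qb) * t⁻¹) := by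
      rw [hyd, Nat.cast_mul, Nat.cast_pow, div_eq_mul_inv]
      field_simp
    rw [h1]
    exact A.mul_mem _ _ hdinv hnA
  have hqA : (q : Qb) ∈ A := natCast_mem A q
  have hres : IsLocalRing.residue ↥A ⟨(q : Qb), hqA⟩ = 0 :=
    (IsLocalRing.residue_eq_zero_iff _).mpr (ValuationSubring.coe_mem_nonunits_iff.mp hA)
  have heq : (q : Qb) ^ (a + 1) / t = (q : Qb) * ((q : Qb) ^ a / t) := by
    rw [pow_succ]
    ring
  have hmem : (q : Qb) ^ (a + 1) / t ∈ A := by
    rw [heq]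
    exact A.mul_mem _ _ hqA hpow
  refine ⟨a + 1, hmem, ?_⟩
  have h2 : (⟨(q : Qb) ^ (a + 1) / t, hmem⟩ : ↥A) = ⟨(q : Qb), hqA⟩ * ⟨(q : Qb) ^ a / t, hpow⟩ :=
    Subtype.ext heq
  rw [h2, map_mul, hres, zero_mul]

section LeafE

variable (A : ValuationSubring Qb) (N q : ℕ) [NeZero N] [NeZero q] (hcop : Nat.Coprime N q)

/-! ### The separating element -/

theorem s35n3_sep_W_eq (hq : q.Prime) (hA : A.LiesOverPrime q) :
    ∃ (e : ↥(s35_O A N q hcop)) (e₂ : ↥(modularFunctionFieldBar (N * q))),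
      e₂ ∈ gaussA A (N * q) ∧
      s35_redInf A N q hcop e = 1 ∧ s35_redZero A N q hcop e = 0 ∧
      s35_W N q hcop (e : ↥(modularFunctionFieldBar (N * q))) =
        algebraMap Qb ↥(modularFunctionFieldBar (N * q)) (q : Qb) * e₂ := by
  have : Fact q.Prime := ⟨hq⟩
  have : CharP (IsLocalRing.ResidueField ↥A) q := Fermat.Agent.S37.charP_residueField A hq hA
  have hq2 : 2 ≤ q := hq.two_le
  have hqq : 2 ≤ q ^ 2 := by nlinarith
  have hJ : Fermat.Agent.S24.jL Qb N ∈ GaussL.gaussV A.toSubring (resA A)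
      (laurentBaseChange Qb (modularFunctionFieldFull N)) := jL_mem_gaussA
  have hJred : GaussL.gaussRed A.toSubring (resA A)
      (laurentBaseChange Qb (modularFunctionFieldFull N)) ⟨_, hJ⟩ =
      jqModC (IsLocalRing.ResidueField ↥A) := redA_jL
  -- `a = α j`, `b = β j` in `𝒪`
  let a : ↥(s35_O A N q hcop) :=
    ⟨heckeAlphaBar Qb N q (Fermat.Agent.S24.jL Qb N),
      kron_alpha_mem_kronO barToComplex N q hcop hJ⟩
  let b : ↥(s35_O A N q hcop) :=
    ⟨heckeBetaBar Qb N q (Fermat.Agent.S24.jL Qb N),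
      kron_beta_mem_kronO barToComplex N q hcop hJ⟩
  have haInf : s35_redInf A N q hcop a = jqModC (IsLocalRing.ResidueField ↥A) :=
    (kronRedInf_alpha barToComplex N q hcop hJ).trans hJred
  have haZero : s35_redZero A N q hcop a =
      qExpand (IsLocalRing.ResidueField ↥A) q (jqModC (IsLocalRing.ResidueField ↥A)) :=
    (kronRedZero_alpha barToComplex N q hcop hJ).trans (congrArg _ hJred)
  have hbInf : s35_redInf A N q hcop b =
      qExpand (IsLocalRing.ResidueField ↥A) q (jqModC (IsLocalRing.ResidueField ↥A)) :=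
    (kronRedInf_beta barToComplex N q hcop hJ).trans (congrArg _ hJred)
  have hbZero : s35_redZero A N q hcop b = jqModC (IsLocalRing.ResidueField ↥A) :=
    (kronRedZero_beta barToComplex N q hcop hJ).trans hJred
  -- `z = α j - (β j)^q`, `δ = α j - (α j)^(q^2)`
  have hne : jqModC (IsLocalRing.ResidueField ↥A) -
      jqModC (IsLocalRing.ResidueField ↥A) ^ (q ^ 2) ≠ 0 :=
    s35n3e_sub_pow_ne_zero _ (by rw [ktv_order_jqModC]; norm_num) hqq
  have hzInf : s35_redInf A N q hcop (a - b ^ q) = jqModC (IsLocalRing.ResidueField ↥A) -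
      jqModC (IsLocalRing.ResidueField ↥A) ^ (q ^ 2) := by
    rw [map_sub, map_pow, haInf, hbInf, ktv_qExpand_jqModC, ← pow_mul, sq]
  have hzZero : s35_redZero A N q hcop (a - b ^ q) = 0 := by
    rw [map_sub, map_pow, haZero, hbZero, ktv_qExpand_jqModC, sub_self]
  have hdInf : s35_redInf A N q hcop (a - a ^ (q ^ 2)) = jqModC (IsLocalRing.ResidueField ↥A) -
      jqModC (IsLocalRing.ResidueField ↥A) ^ (q ^ 2) := by
    rw [map_sub, map_pow, haInf]
  have hdZero : s35_redZero A N q hcop (a - a ^ (q ^ 2)) =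
      qExpand (IsLocalRing.ResidueField ↥A) q (jqModC (IsLocalRing.ResidueField ↥A) -
        jqModC (IsLocalRing.ResidueField ↥A) ^ (q ^ 2)) := by
    rw [map_sub, map_pow, haZero, map_sub, map_pow]
  have hdZero_ne : s35_redZero A N q hcop (a - a ^ (q ^ 2)) ≠ 0 := by
    rw [hdZero]
    intro h0
    exact hne (qExpand_injective (R := IsLocalRing.ResidueField ↥A) q (by rw [h0, map_zero]))
  have hdInf_ne : s35_redInf A N q hcop (a - a ^ (q ^ 2)) ≠ 0 := by
    rw [hdInf]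
    exact hne
  -- the inverse of `δ` lies in `𝒪`
  obtain ⟨δ, hδ⟩ : ∃ δ : ↥(s35_O A N q hcop), δ = a - a ^ (q ^ 2) := ⟨_, rfl⟩
  rw [← hδ] at hdInf_ne hdZero_ne hdInf
  have hδ1 : (δ : ↥(modularFunctionFieldBar (N * q))) ∈ gaussA A (N * q) := δ.2.1
  have hδred : redA A (N * q) ⟨(δ : ↥(modularFunctionFieldBar (N * q))), hδ1⟩ ≠ 0 := hdInf_ne
  have hδinv1 : (δ : ↥(modularFunctionFieldBar (N * q)))⁻¹ ∈ gaussA A (N * q) :=
    inv_mem_gaussA hδ1 hδred
  have hWδ : s35_W N q hcop (δ : ↥(modularFunctionFieldBar (N * q))) ∈ gaussA A (N * q) := δ.2.2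
  have hWδred : redA A (N * q) ⟨_, hWδ⟩ ≠ 0 := hdZero_ne
  have hδinv2 : s35_W N q hcop ((δ : ↥(modularFunctionFieldBar (N * q)))⁻¹) ∈
      gaussA A (N * q) := by
    rw [map_inv₀]
    exact inv_mem_gaussA hWδ hWδred
  have hδ0 : (δ : ↥(modularFunctionFieldBar (N * q))) ≠ 0 := by
    intro h0
    have h1 : δ = 0 := Subtype.ext h0
    rw [h1, map_zero] at hdInf_ne
    exact hdInf_ne rfl
  obtain ⟨dinv, hdinv⟩ : ∃ dinv : ↥(s35_O A N q hcop),
      (dinv : ↥(modularFunctionFieldBar (N * q))) =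
        (δ : ↥(modularFunctionFieldBar (N * q)))⁻¹ :=
    ⟨⟨_, (mem_kronO_iff A.toSubring (resA A) barToComplex N q hcop).mpr ⟨hδinv1, hδinv2⟩⟩, rfl⟩
  have hmul : δ * dinv = 1 := by
    apply Subtype.ext
    show (δ : ↥(modularFunctionFieldBar (N * q))) * (dinv : ↥(modularFunctionFieldBar (N * q))) = 1
    rw [hdinv, mul_inv_cancel₀ hδ0]
  have hInf1 : s35_redInf A N q hcop δ * s35_redInf A N q hcop dinv = 1 := by
    rw [← map_mul, hmul, map_one]
  -- Kronecker's congruence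
  obtain ⟨y, hy, hyeq⟩ := s35n3e_kron_div A N q hq
  have hWz : s35_W N q hcop ((a - b ^ q : ↥(s35_O A N q hcop)) :
      ↥(modularFunctionFieldBar (N * q))) =
      algebraMap Qb ↥(modularFunctionFieldBar (N * q)) (q : Qb) * y := by
    rw [← hyeq]
    show s35_W N q hcop (heckeAlphaBar Qb N q (Fermat.Agent.S24.jL Qb N) -
      heckeBetaBar Qb N q (Fermat.Agent.S24.jL Qb N) ^ q) = _
    rw [map_sub, map_pow, kronW_alpha, kronW_beta]
  refine ⟨(a - b ^ q) * dinv, y * s35_W N q hcop ((δ : ↥(modularFunctionFieldBar (N * q)))⁻¹),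
    mul_mem hy hδinv2, ?_, ?_, ?_⟩
  · rw [map_mul, hzInf, ← hdInf, hInf1]
  · rw [map_mul, hzZero, zero_mul]
  · show s35_W N q hcop (((a - b ^ q : ↥(s35_O A N q hcop)) :
        ↥(modularFunctionFieldBar (N * q))) * (dinv : ↥(modularFunctionFieldBar (N * q)))) = _
    rw [map_mul, hWz, hdinv, mul_assoc]

theorem s35n3_exists_sep (hq : q.Prime) (hA : A.LiesOverPrime q) :
    ∃ e : ↥(s35_O A N q hcop), s35_redInf A N q hcop e = 1 ∧ s35_redZero A N q hcop e = 0 := by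
  obtain ⟨e, -, -, h1, h2, -⟩ := s35n3_sep_W_eq A N q hcop hq hA
  exact ⟨e, h1, h2⟩

/-! ### Roots of Gauss units -/

/-- an `m`-th power times a constant which is a Gauss unit is the `m`-th power of a Gauss unit. -/
theorem s35n3_exists_root_unit {ℓ : ℕ} [Fact ℓ.Prime] (hA : A.LiesOverPrime ℓ) {M : ℕ} [NeZero M]
    {m : ℕ} (hm : m ≠ 0) (c : Qb) (h : ↥(modularFunctionFieldBar M))
    (hmem : algebraMap Qb ↥(modularFunctionFieldBar M) c * h ^ m ∈ gaussA A M)
    (hred : redA A M ⟨_, hmem⟩ ≠ 0) :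
    ∃ h' : ↥(gaussA A M), (h' : ↥(modularFunctionFieldBar M)) ^ m =
      algebraMap Qb ↥(modularFunctionFieldBar M) c * h ^ m := by
  by_cases hh : h = 0
  · refine ⟨0, ?_⟩
    rw [hh]
    show (0 : ↥(modularFunctionFieldBar M)) ^ m = _
    rw [zero_pow hm, mul_zero]
  obtain ⟨c₁, u, hu, hc₁, hured, -, hhu⟩ := exists_unit_mul hA hh
  have hum : u ^ m ∈ gaussA A M := pow_mem hu m
  have humred : redA A M ⟨u ^ m, hum⟩ ≠ 0 := by
    have h1 : (⟨u ^ m, hum⟩ : ↥(gaussA A M)) = ⟨u, hu⟩ ^ m := rfl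
    rw [h1, map_pow]
    exact pow_ne_zero m hured
  have heq : algebraMap Qb ↥(modularFunctionFieldBar M) c * h ^ m =
      algebraMap Qb ↥(modularFunctionFieldBar M) (c * c₁ ^ m) * u ^ m := by
    rw [hhu, mul_pow, map_mul, map_pow, mul_assoc]
  have hc₂ : c * c₁ ^ m ∈ A := by
    rw [heq] at hmem
    exact (mul_unit_mem_gaussA_iff hum humred).mp hmem
  obtain ⟨γ, hγ⟩ := IsAlgClosed.exists_pow_nat_eq (c * c₁ ^ m) (Nat.pos_of_ne_zero hm)
  have hγA : γ ∈ A := by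
    rcases A.mem_or_inv_mem γ with h1 | h1
    · exact h1
    · by_cases hγ0 : γ = 0
      · rw [hγ0]
        exact A.zero_mem
      have h2 : γ = γ⁻¹ ^ (m - 1) * (c * c₁ ^ m) := by
        rw [← hγ]
        obtain ⟨m', rfl⟩ : ∃ m', m = m' + 1 := Nat.exists_eq_succ_of_ne_zero hm
        rw [Nat.add_sub_cancel, pow_succ, ← mul_assoc, ← mul_pow, inv_mul_cancel₀ hγ0, one_pow,
          one_mul]
      rw [h2]
      exact A.mul_mem _ _ (pow_mem h1 _) hc₂
  refine ⟨⟨algebraMap Qb ↥(modularFunctionFieldBar M) γ * u,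
    mul_mem (algebraMap_mem_gaussA hγA) hu⟩, ?_⟩
  show (algebraMap Qb ↥(modularFunctionFieldBar M) γ * u) ^ m = _
  rw [heq, mul_pow, ← map_pow, hγ]

end LeafE

end Fermat.Agent.S35
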