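import Fermat.Agent.S35.N3Normalise
import Fermat.Agent.S35.N3NormQb
import Fermat.Agent.S35.N3Push
import Fermat.Agent.S35.N3Sep
import Fermat.Agent.S35.N3Frob
import Fermat.Agent.S35.N3Pic
import Fermat.Agent.S34.KronBasic

/-!
# P20 (S35), block N3: the theorem [N3′] and (★) from [F1]

* `s35_n3` : for `x` in the `q`-new part of `J₀(N q)[m]` and a Frobenius lift `σ` at `A ∣ q`, the
  class `σ x + W x` lies in `ker κ` (`s35_kerKappa`): it has a Kummer generator which is `≡ 1` at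
  both Gauss valuations.
* `s35_star_of_f1` : (★) `σ⁴ x − (q² + 1) σ² x + q² x = 0` on the new part, from [F1]
  (`σ² = q²` on `ker κ`).
-/

set_option autoImplicit false

namespace Fermat.Agent.S35

open ModularCurve AlgebraicCurve Fermat.Agent.S18 Fermat.Agent.S34 Fermat.Agent.S37

local notation "Qb" => AlgebraicClosure ℚ

section Aux

variable (A : ValuationSubring Qb) (N q : ℕ) [NeZero N] [NeZero q] (hcop : Nat.Coprime N q)

/-- An element of the semi-local ring with nonzero reductions at both valuations is a unit. -/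
theorem s35n3h_inv_mem (z : ↥(s35_O A N q hcop)) (hi : s35_redInf A N q hcop z ≠ 0)
    (h0 : s35_redZero A N q hcop z ≠ 0) :
    (z : ↥(modularFunctionFieldBar (N * q)))⁻¹ ∈ s35_O A N q hcop := by
  refine (mem_kronO_iff _ _ _ _ _ _).mpr ⟨?_, ?_⟩
  · exact inv_mem_gaussA (A := A) (N := N * q) z.2.1 hi
  · rw [map_inv₀]
    exact inv_mem_gaussA (A := A) (N := N * q) z.2.2 h0

theorem s35n3h_ne_zero (z : ↥(s35_O A N q hcop)) (hi : s35_redInf A N q hcop z ≠ 0) :
    (z : ↥(modularFunctionFieldBar (N * q))) ≠ 0 := by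
  intro h
  apply hi
  have : z = 0 := Subtype.ext h
  rw [this, map_zero]

/-- `red_∞ (W z) = red_0 z`. -/
theorem s35n3h_redInf_W (z : ↥(s35_O A N q hcop)) :
    s35_redInf A N q hcop ⟨s35_W N q hcop z, kronW_mem_kronO _ _ _ _ _ _ z.2⟩ =
      s35_redZero A N q hcop z := rfl

/-- `red_0 (W z) = red_∞ z`. -/
theorem s35n3h_redZero_W (z : ↥(s35_O A N q hcop)) :
    s35_redZero A N q hcop ⟨s35_W N q hcop z, kronW_mem_kronO _ _ _ _ _ _ z.2⟩ =
      s35_redInf A N q hcop z := by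
  rw [kronRedZero_apply, kronRedInf_apply]
  congr 1
  exact Subtype.ext (kronW_kronW _ _ _ _ _ _)

/-- CRT in the semi-local ring: an element with prescribed reductions `red_∞ = red (α g₁)`,
`red_0 = red (β g₂)`. -/
theorem s35n3h_exists_corr (hq : q.Prime) (hA : A.LiesOverPrime q) (g₁ g₂ : ↥(gaussA A N)) :
    ∃ G : ↥(s35_O A N q hcop), s35_redInf A N q hcop G = redA A N g₁ ∧
      s35_redZero A N q hcop G = redA A N g₂ := by
  obtain ⟨e, hei, he0⟩ := s35n3_exists_sep A N q hcop hq hA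
  obtain ⟨Gα, hGα⟩ : ∃ Gα : ↥(s35_O A N q hcop), Gα =
      ⟨heckeAlphaBar Qb N q (g₁ : ↥(modularFunctionFieldBar N)),
        kron_alpha_mem_kronO Fermat.Agent.S37.barToComplex N q hcop g₁.2⟩ := ⟨_, rfl⟩
  obtain ⟨Gβ, hGβ⟩ : ∃ Gβ : ↥(s35_O A N q hcop), Gβ =
      ⟨heckeBetaBar Qb N q (g₂ : ↥(modularFunctionFieldBar N)),
        kron_beta_mem_kronO Fermat.Agent.S37.barToComplex N q hcop g₂.2⟩ := ⟨_, rfl⟩
  have hGαi : s35_redInf A N q hcop Gα = redA A N g₁ := by
    rw [hGα]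
    exact kronRedInf_alpha Fermat.Agent.S37.barToComplex N q hcop g₁.2
  have hGβ0 : s35_redZero A N q hcop Gβ = redA A N g₂ := by
    rw [hGβ]
    exact kronRedZero_beta Fermat.Agent.S37.barToComplex N q hcop g₂.2
  refine ⟨Gα * e + Gβ * (1 - e), ?_, ?_⟩
  · have h1 := (s35_redInf A N q hcop).map_add (Gα * e) (Gβ * (1 - e))
    have h2 := (s35_redInf A N q hcop).map_mul Gα e
    have h3 := (s35_redInf A N q hcop).map_mul Gβ (1 - e)
    have h4 := (s35_redInf A N q hcop).map_sub 1 e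
    rw [(s35_redInf A N q hcop).map_one, hei, sub_self] at h4
    rw [h2, h3, h4, hei, hGαi, mul_one, mul_zero, add_zero] at h1
    exact h1
  · have h1 := (s35_redZero A N q hcop).map_add (Gα * e) (Gβ * (1 - e))
    have h2 := (s35_redZero A N q hcop).map_mul Gα e
    have h3 := (s35_redZero A N q hcop).map_mul Gβ (1 - e)
    have h4 := (s35_redZero A N q hcop).map_sub 1 e
    rw [(s35_redZero A N q hcop).map_one, he0, sub_zero] at h4
    rw [h2, h3, h4, he0, hGβ0, mul_one, mul_zero, zero_add] at h1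
    exact h1

/-- Dividing by an `m`-th power with the same reductions. -/
theorem s35n3h_normalise (m : ℕ) (U₀ G : ↥(s35_O A N q hcop))
    (hGi : s35_redInf A N q hcop G ≠ 0) (hG0 : s35_redZero A N q hcop G ≠ 0)
    (hi : s35_redInf A N q hcop U₀ = s35_redInf A N q hcop G ^ m)
    (h0 : s35_redZero A N q hcop U₀ = s35_redZero A N q hcop G ^ m) :
    ∃ U : ↥(s35_O A N q hcop),
      (U : ↥(modularFunctionFieldBar (N * q))) =
        (U₀ : ↥(modularFunctionFieldBar (N * q))) *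
          ((G : ↥(modularFunctionFieldBar (N * q))) ^ m)⁻¹ ∧
      s35_redInf A N q hcop U = 1 ∧ s35_redZero A N q hcop U = 1 := by
  have hGm_i : s35_redInf A N q hcop (G ^ m) ≠ 0 := by
    rw [(s35_redInf A N q hcop).map_pow]
    exact pow_ne_zero m hGi
  have hGm_0 : s35_redZero A N q hcop (G ^ m) ≠ 0 := by
    rw [(s35_redZero A N q hcop).map_pow]
    exact pow_ne_zero m hG0
  have hGinv := s35n3h_inv_mem A N q hcop (G ^ m) hGm_i hGm_0
  have hne := s35n3h_ne_zero A N q hcop (G ^ m) hGm_i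
  obtain ⟨Ginv, hGinv_def⟩ : ∃ Ginv : ↥(s35_O A N q hcop), Ginv = ⟨_, hGinv⟩ := ⟨_, rfl⟩
  have hGG : Ginv * G ^ m = 1 := by
    rw [hGinv_def]
    exact Subtype.ext (inv_mul_cancel₀ hne)
  have hUG : U₀ * Ginv * G ^ m = U₀ := by
    rw [mul_assoc, hGG, mul_one]
  refine ⟨U₀ * Ginv, ?_, ?_, ?_⟩
  · rw [hGinv_def]
    rfl
  · have h := congrArg (s35_redInf A N q hcop) hUG
    rw [(s35_redInf A N q hcop).map_mul, (s35_redInf A N q hcop).map_pow, hi] at h
    exact mul_right_cancel₀ (pow_ne_zero m hGi) (h.trans (one_mul _).symm)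
  · have h := congrArg (s35_redZero A N q hcop) hUG
    rw [(s35_redZero A N q hcop).map_mul, (s35_redZero A N q hcop).map_pow, h0] at h
    exact mul_right_cancel₀ (pow_ne_zero m hG0) (h.trans (one_mul _).symm)

end Aux

/-- **[N3′]**: for `x` in the `q`-new part of `J₀(N q)[m]` and a Frobenius lift `σ` at `A ∣ q`,
the class `σ x + W x` has a Kummer generator which is `≡ 1` at both Gauss valuations. -/
theorem s35_n3 {N q m : ℕ} [NeZero N] [NeZero q] (hq : q.Prime) (hcop : Nat.Coprime N q)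
    (hm : m ≠ 0) {x : JZero (N * q)} (hx : x ∈ s35_newPart N q m)
    (A : ValuationSubring Qb) (hA : A.LiesOverPrime q)
    (σ : Qb ≃ₐ[ℚ] Qb) (hσ : A.IsFrobeniusAt σ q) :
    s35_kerKappa A N q hcop m (σ • x + s35_W N q hcop • x) := by
  have hqF : Fact q.Prime := ⟨hq⟩
  obtain ⟨hxJ, hxA, hxB⟩ := s35_mem_newPart.mp hx
  have hmx : m • x = 0 := by
    have h := Fermat.Agent.S42.mem_Jp.mp hxJ
    rwa [natCast_zsmul] at h
  -- a Kummer generator which is a unit at both valuations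
  obtain ⟨D, u, hD, hdiv, hui, hu0⟩ := s35n3_exists_kummer_unit A N q hcop hq hA hm x hmx
  have hune : (u : ↥(modularFunctionFieldBar (N * q))) ≠ 0 := s35n3h_ne_zero A N q hcop u hui
  subst hD
  -- the norms are `m`-th powers up to constants
  obtain ⟨hα, cα, -, -, hNα⟩ := s35n3_norm_of_pushA N q D _ hune hdiv hxA
  obtain ⟨hβ, cβ, -, -, hNβ⟩ := s35n3_norm_of_pushB N q D _ hune hdiv hxB
  -- the norm formulas
  obtain ⟨hmemα, hredα⟩ := s35n3_norm_alpha_red A N q hcop hq hA u hui hu0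
  obtain ⟨hmemβ, hredβ⟩ := s35n3_norm_beta_red A N q hcop hq hA u hui hu0
  have hqe : ∀ X : LaurentSeries (IsLocalRing.ResidueField ↥A),
      X ≠ 0 → qExpand (IsLocalRing.ResidueField ↥A) q X ≠ 0 := by
    intro X hX h
    exact hX (qExpand_injective (R := IsLocalRing.ResidueField ↥A) q (by rw [h, map_zero]))
  have hredα0 : redA A N ⟨_, hmemα⟩ ≠ 0 := by
    intro h
    rw [h, map_zero] at hredα
    exact mul_ne_zero (hqe _ hui) (pow_ne_zero q hu0) hredα.symm
  have hredβ0 : redA A N ⟨_, hmemβ⟩ ≠ 0 := by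
    intro h
    rw [h, map_zero] at hredβ
    exact mul_ne_zero (hqe _ hu0) (pow_ne_zero q hui) hredβ.symm
  -- `m`-th roots which are Gauss units
  have hmemα' : algebraMap Qb ↥(modularFunctionFieldBar N) cα * hα ^ m ∈ gaussA A N :=
    hNα ▸ hmemα
  have hmemβ' : algebraMap Qb ↥(modularFunctionFieldBar N) cβ * hβ ^ m ∈ gaussA A N :=
    hNβ ▸ hmemβ
  have hredα' : redA A N ⟨_, hmemα'⟩ ≠ 0 := by
    have : (⟨_, hmemα'⟩ : ↥(gaussA A N)) = ⟨_, hmemα⟩ := Subtype.ext hNα.symm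
    rw [this]
    exact hredα0
  have hredβ' : redA A N ⟨_, hmemβ'⟩ ≠ 0 := by
    have : (⟨_, hmemβ'⟩ : ↥(gaussA A N)) = ⟨_, hmemβ⟩ := Subtype.ext hNβ.symm
    rw [this]
    exact hredβ0
  obtain ⟨gα, hgα⟩ := s35n3_exists_root_unit A hA hm cα hα hmemα' hredα'
  obtain ⟨gβ, hgβ⟩ := s35n3_exists_root_unit A hA hm cβ hβ hmemβ' hredβ'
  have hgα' : redA A N gα ^ m = redA A N ⟨_, hmemα⟩ := by
    rw [← (redA A N).map_pow]
    congr 1
    exact Subtype.ext (hgα.trans hNα.symm)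
  have hgβ' : redA A N gβ ^ m = redA A N ⟨_, hmemβ⟩ := by
    rw [← (redA A N).map_pow]
    congr 1
    exact Subtype.ext (hgβ.trans hNβ.symm)
  have hgβ0 : redA A N gβ ≠ 0 := by
    intro h
    rw [h, zero_pow hm] at hgβ'
    exact hredβ0 hgβ'.symm
  have hgα0 : redA A N gα ≠ 0 := by
    intro h
    rw [h, zero_pow hm] at hgα'
    exact hredα0 hgα'.symm
  -- Frobenius and `W` applied to `u`
  have hσu := s35n3_frob_mem A N q hcop hq σ hσ u.2
  have hσi := s35n3_redInf_frob A N q hcop hq hA σ hσ u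
  have hσ0 := s35n3_redZero_frob A N q hcop hq hA σ hσ u
  have hWu : s35_W N q hcop (u : ↥(modularFunctionFieldBar (N * q))) ∈ s35_O A N q hcop :=
    kronW_mem_kronO _ _ _ _ _ _ u.2
  have hWi := s35n3h_redInf_W A N q hcop u
  have hW0 := s35n3h_redZero_W A N q hcop u
  -- the correcting function
  obtain ⟨G, hGi, hG0⟩ := s35n3h_exists_corr A N q hcop hq hA gβ gα
  -- reductions of `U₀ = σ u * W u`
  obtain ⟨σu, hσu_def⟩ : ∃ σu : ↥(s35_O A N q hcop), σu = ⟨_, hσu⟩ := ⟨_, rfl⟩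
  obtain ⟨Wu, hWu_def⟩ : ∃ Wu : ↥(s35_O A N q hcop), Wu = ⟨_, hWu⟩ := ⟨_, rfl⟩
  have hσi' : qExpand (IsLocalRing.ResidueField ↥A) q (s35_redInf A N q hcop σu) =
      s35_redInf A N q hcop u ^ q := by rw [hσu_def]; exact hσi
  have hσ0' : qExpand (IsLocalRing.ResidueField ↥A) q (s35_redZero A N q hcop σu) =
      s35_redZero A N q hcop u ^ q := by rw [hσu_def]; exact hσ0
  have hWi' : s35_redInf A N q hcop Wu = s35_redZero A N q hcop u := by rw [hWu_def]; exact hWi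
  have hW0' : s35_redZero A N q hcop Wu = s35_redInf A N q hcop u := by rw [hWu_def]; exact hW0
  have hU0i : s35_redInf A N q hcop (σu * Wu) = s35_redInf A N q hcop G ^ m := by
    apply qExpand_injective (R := IsLocalRing.ResidueField ↥A) q
    rw [(s35_redInf A N q hcop).map_mul, map_mul, hσi', hWi', hGi, hgβ', hredβ, mul_comm]
  have hU00 : s35_redZero A N q hcop (σu * Wu) = s35_redZero A N q hcop G ^ m := by
    apply qExpand_injective (R := IsLocalRing.ResidueField ↥A) q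
    rw [(s35_redZero A N q hcop).map_mul, map_mul, hσ0', hW0', hG0, hgα', hredα, mul_comm]
  have hGi0 : s35_redInf A N q hcop G ≠ 0 := by rw [hGi]; exact hgβ0
  have hG00 : s35_redZero A N q hcop G ≠ 0 := by rw [hG0]; exact hgα0
  obtain ⟨U, hU, hUi, hU0⟩ := s35n3h_normalise A N q hcop m (σu * Wu) G hGi0 hG00 hU0i hU00
  have hGne : (G : ↥(modularFunctionFieldBar (N * q))) ≠ 0 :=
    s35n3h_ne_zero A N q hcop G hGi0
  -- the divisor
  have hσune : arithmeticRingAut (modularFunctionFieldFull (N * q)) σ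
      (u : ↥(modularFunctionFieldBar (N * q))) ≠ 0 :=
    (map_ne_zero_iff _ (arithmeticRingAut (modularFunctionFieldFull (N * q)) σ).injective).mpr hune
  have hWune : s35_W N q hcop (u : ↥(modularFunctionFieldBar (N * q))) ≠ 0 :=
    (map_ne_zero_iff _ (s35_W N q hcop).injective).mpr hune
  obtain ⟨Dσ, hDσ, hdivσ⟩ := s35n3_kummer_galois N q σ D _ hune hdiv
  obtain ⟨DW, hDW, hdivW⟩ := s35n3_kummer_W N q hcop D _ hune hdiv
  obtain ⟨D', hD', hdiv'⟩ := s35n3_kummer_combine N q Dσ DW _ _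
    (G : ↥(modularFunctionFieldBar (N * q))) hσune hWune hGne hdivσ hdivW
  refine ⟨D', U, ?_, ?_, hUi, hU0⟩
  · rw [hD', hDσ, hDW]
  · intro v
    rw [hdiv' v, hU, hσu_def, hWu_def]
    rfl

/-- **(★) from [N3′] and [F1]**: if `σ² = q²` on `ker κ ∩ J₀(N q)[m]`, then
`σ⁴ x − (q² + 1) σ² x + q² x = 0` for `x` in the `q`-new part of `J₀(N q)[m]`. -/
theorem s35_star_of_f1 {N q m : ℕ} [NeZero N] [NeZero q] (hq : q.Prime) (hcop : Nat.Coprime N q)
    (hm : m ≠ 0) {x : JZero (N * q)} (hx : x ∈ s35_newPart N q m)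
    (A : ValuationSubring Qb) (hA : A.LiesOverPrime q)
    (σ : Qb ≃ₐ[ℚ] Qb) (hσ : A.IsFrobeniusAt σ q)
    (hF1 : ∀ y : JZero (N * q), m • y = 0 → s35_kerKappa A N q hcop m y →
      σ • σ • y = ((q ^ 2 : ℕ) : ℤ) • y) :
    σ • σ • σ • σ • x - ((q ^ 2 + 1 : ℕ) : ℤ) • σ • σ • x + ((q ^ 2 : ℕ) : ℤ) • x = 0 := by
  have hWσ : ∀ z : JZero (N * q), s35_W N q hcop • σ • z = σ • s35_W N q hcop • z :=
    s35n3_W_smul_galois N q hcop hq σ
  have hWW : ∀ z : JZero (N * q), s35_W N q hcop • s35_W N q hcop • z = z :=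
    s35n3_W_smul_W N q hcop
  have hmx : m • x = 0 := by
    have h := Fermat.Agent.S42.mem_Jp.mp (s35_mem_newPart.mp hx).1
    rwa [natCast_zsmul] at h
  obtain ⟨S, hS⟩ : ∃ S : JZero (N * q) →+ JZero (N * q), ∀ z, S z = σ • z :=
    ⟨DistribSMul.toAddMonoidHom (JZero (N * q)) σ, fun _ => rfl⟩
  obtain ⟨T, hT⟩ : ∃ T : JZero (N * q) →+ JZero (N * q), ∀ z, T z = s35_W N q hcop • z :=
    ⟨DistribSMul.toAddMonoidHom (JZero (N * q)) (s35_W N q hcop), fun _ => rfl⟩
  have hTS : ∀ z, T (S z) = S (T z) := by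
    intro z
    rw [hT, hS, hS, hT]
    exact hWσ z
  have hTT : ∀ z, T (T z) = z := by
    intro z
    rw [hT, hT]
    exact hWW z
  have hmy : m • (σ • x + s35_W N q hcop • x) = 0 := by
    rw [← hS, ← hT, nsmul_add, ← map_nsmul, ← map_nsmul, hmx, map_zero, map_zero, add_zero]
  have hE := hF1 _ hmy (s35_n3 hq hcop hm hx A hA σ hσ)
  obtain ⟨n, hn⟩ : ∃ n : ℤ, n = ((q ^ 2 : ℕ) : ℤ) := ⟨_, rfl⟩
  have hn1 : ((q ^ 2 + 1 : ℕ) : ℤ) = n + 1 := by rw [hn]; push_cast; ring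
  rw [hn1, ← hn]
  rw [← hn] at hE
  simp only [← hS, ← hT] at hE ⊢
  -- apply `σ` and `W` to the relation
  have E1 := congrArg S hE
  have E2 := congrArg T hE
  simp only [map_add, map_zsmul] at E1 E2
  simp only [hTS, hTT] at E2
  -- `E1 : σ⁴x + σ³Wx = n σ²x + n σWx`, `E2 : σ³Wx + σ²x = n σWx + n x`
  have h := congrArg₂ (fun a b => a - b) E1 E2
  beta_reduce at h
  have hgoal : S (S (S (S x))) - (n + 1) • S (S x) + n • x =
      (S (S (S (S x))) + S (S (S (T x))) - (S (S (S (T x))) + S (S x))) -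
        (n • (S (S x) + S (T x)) - n • (S (T x) + x)) := by
    rw [add_zsmul, one_zsmul, zsmul_add, zsmul_add]
    abel
  rw [hgoal, h, sub_self]

end Fermat.Agent.S35
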