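import Mathlib
import Fermat.Agent.S34.TwoValRes
import Fermat.Agent.S35.N3AbsNorm

/-!
# P20 (S35), block N3, abstract part (3): the norm of a semilocal uniformiser

Setting of `S35/N3AbsNorm.lean`: `F` a field, `K'` a field with an algebra structure `K' → F`,
`V` a "discrete valuation ring" of the image of `K'` with uniformiser `π`, and `O₁ ≠ O₂` two
valuation rings of `F` above `V` in which `π` is a uniformiser, `O₁` with residue degree one and
`O₂` with `q` residually independent elements, `[F : K'] ≤ 1 + q`.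

`s35n3_norm_unif` : there is `t` with `t ≡ 1 (mod π O₁)`, `t / π ≡ 1 (mod π O₂)` and
`Nm_{F/K'}(t) = π ^ q * ε` with `ε ∈ V`, `ε ≡ 1 (mod π V)`; moreover `[F : K'] = 1 + q`.

The proof uses the adapted basis of `s35n3_norm_two_val` (same set-up): in that basis the matrix
of the multiplication by `t = π + (1 - π) * B₀ ^ 2` is `diag(1, π, …, π)` times a matrix which is
lower unitriangular modulo `π`.
-/

set_option autoImplicit false

namespace Fermat.Agent.S35

open Fermat.Agent.S34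

/-- A `(1 + q) × (1 + q)` matrix which is block lower triangular with diagonal blocks `[1]` and
the identity has determinant one. -/
theorem s35n3u_det_lower {k : Type*} [CommRing k] (q : ℕ)
    (M : Matrix (Fin (1 + q)) (Fin (1 + q)) k)
    (h00 : M (Fin.castAdd q 0) (Fin.castAdd q 0) = 1)
    (h0j : ∀ j : Fin q, M (Fin.castAdd q 0) (Fin.natAdd 1 j) = 0)
    (hij : ∀ i j : Fin q, M (Fin.natAdd 1 i) (Fin.natAdd 1 j) = if i = j then 1 else 0) :
    M.det = 1 := by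
  classical
  let e : Fin 1 ⊕ Fin q ≃ Fin (1 + q) := finSumFinEquiv
  let M' : Matrix (Fin 1 ⊕ Fin q) (Fin 1 ⊕ Fin q) k := M.submatrix e e
  have hdet : M'.det = M.det := Matrix.det_submatrix_equiv_self e M
  let C : Matrix (Fin q) (Fin 1) k :=
    Matrix.of fun i _ => M (Fin.natAdd 1 i) (Fin.castAdd q 0)
  have hM' : M' = Matrix.fromBlocks (1 : Matrix (Fin 1) (Fin 1) k) 0 C
      (1 : Matrix (Fin q) (Fin q) k) := by
    ext i j
    rcases i with i | i <;> rcases j with j | j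
    · have hi : i = 0 := Subsingleton.elim _ _
      have hj : j = 0 := Subsingleton.elim _ _
      subst hi; subst hj
      simp only [M', Matrix.submatrix_apply, Matrix.fromBlocks_apply₁₁, e,
        finSumFinEquiv_apply_left, Matrix.one_apply_eq]
      exact h00
    · have hi : i = 0 := Subsingleton.elim _ _
      subst hi
      simp only [M', Matrix.submatrix_apply, Matrix.fromBlocks_apply₁₂, Matrix.zero_apply, e,
        finSumFinEquiv_apply_left, finSumFinEquiv_apply_right]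
      exact h0j j
    · have hj : j = 0 := Subsingleton.elim _ _
      subst hj
      simp only [M', C, Matrix.submatrix_apply, Matrix.fromBlocks_apply₂₁, Matrix.of_apply, e,
        finSumFinEquiv_apply_left, finSumFinEquiv_apply_right]
    · simp only [M', Matrix.submatrix_apply, Matrix.fromBlocks_apply₂₂, e,
        finSumFinEquiv_apply_right, Matrix.one_apply]
      exact hij i j
  rw [← hdet, hM', Matrix.det_fromBlocks_zero₁₂, Matrix.det_one, Matrix.det_one, mul_one]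

set_option linter.unusedVariables false in
/-- **Norm of a semilocal uniformiser**: there is `t` with `t ≡ 1 (mod π O₁)`, `t / π ≡ 1 (mod π O₂)`
and `Nm_{F/K'}(t) = π ^ q * ε`, `ε ∈ V`, `ε ≡ 1 (mod π V)`; moreover `[F : K'] = 1 + q`. -/
theorem s35n3_norm_unif {F K' : Type*} [Field F] [Field K'] [Algebra K' F]
    (V : Subring F) (hVE : ∀ v ∈ V, v ∈ (algebraMap K' F).fieldRange)
    (π : F) (hπV : π ∈ V) (hπ0 : π ≠ 0)
    (hE : ∀ c ∈ (algebraMap K' F).fieldRange, c ≠ 0 →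
      ∃ (k : ℤ) (u : F), u ∈ V ∧ u⁻¹ ∈ V ∧ c = π ^ k * u)
    (O₁ O₂ : ValuationSubring F) (hV1 : ∀ v ∈ V, v ∈ O₁) (hV2 : ∀ v ∈ V, v ∈ O₂)
    (hπ1 : π⁻¹ ∉ O₁) (hπ2 : π⁻¹ ∉ O₂)
    (hu1 : ∀ z ∈ O₁, z⁻¹ ∉ O₁ → π⁻¹ * z ∈ O₁) (hu2 : ∀ z ∈ O₂, z⁻¹ ∉ O₂ → π⁻¹ * z ∈ O₂)
    (ha1 : ∀ z : F, ∃ k : ℕ, π ^ k * z ∈ O₁) (ha2 : ∀ z : F, ∃ k : ℕ, π ^ k * z ∈ O₂)
    (hne : O₁ ≠ O₂) (q : ℕ) (hq : q.Prime) (hqπ : π⁻¹ * (q : F) ∈ V)
    (hdim : ∀ s : Fin (1 + q + 1) → F, ∃ c : Fin (1 + q + 1) → F,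
      (∀ i, c i ∈ (algebraMap K' F).fieldRange) ∧ (∃ i, c i ≠ 0) ∧ ∑ i, c i * s i = 0)
    (hsat : ∀ c ∈ V, π⁻¹ * c ∈ O₁ → π⁻¹ * c ∈ V)
    (b' : Fin q → F) (hb' : ∀ i, b' i ∈ O₂)
    (hbi' : ∀ c : Fin q → F, (∀ i, c i ∈ V) → π⁻¹ * ∑ i, c i * b' i ∈ O₂ →
      ∀ i, π⁻¹ * c i ∈ V) :
    ∃ t : F, π⁻¹ * (t - 1) ∈ O₁ ∧ π⁻¹ * (π⁻¹ * t - 1) ∈ O₂ ∧
      Module.finrank K' F = 1 + q ∧
      ∃ ε : F, ε ∈ V ∧ π⁻¹ * (ε - 1) ∈ V ∧
        algebraMap K' F (Algebra.norm K' t) = π ^ q * ε := by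
  classical
  have : Fact q.Prime := ⟨hq⟩
  -- Step 1: the adapted basis
  have hbi : ∀ c : Fin 1 → F, (∀ i, c i ∈ V) →
      π⁻¹ * ∑ i, c i * (fun _ : Fin 1 => (1 : F)) i ∈ O₁ → ∀ i, π⁻¹ * c i ∈ V := by
    intro c hc h i
    have hi : i = 0 := Subsingleton.elim _ _
    subst hi
    rw [Fin.sum_univ_one, mul_one] at h
    exact hsat _ (hc 0) h
  obtain ⟨B, B', hB1, hB2, hB3, hB'1, hB'2, hB'3, hspan⟩ :=
    s34k2_exists_basis_res (algebraMap K' F).fieldRange V π hπV hπ0 hE O₁ O₂ hV1 hV2 hπ1 hπ2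
      hu1 hu2 ha1 ha2 hne 1 q hdim (fun _ => 1) (fun _ => O₁.one_mem) hbi b' hb' hbi'
  have hB2' : ∀ i, π⁻¹ * (B i - 1) ∈ O₁ := hB2
  set G : Fin (1 + q) → F := Fin.append B B' with hG
  have hπ1m : π ∈ O₁ := hV1 π hπV
  have hπ2m : π ∈ O₂ := hV2 π hπV
  have hmemπ1 : ∀ x : F, π⁻¹ * x ∈ O₁ → x ∈ O₁ := by
    intro x hx
    have : x = π * (π⁻¹ * x) := by field_simp
    rw [this]; exact O₁.mul_mem _ _ hπ1m hx
  have hmemπ2 : ∀ x : F, π⁻¹ * x ∈ O₂ → x ∈ O₂ := by
    intro x hx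
    have : x = π * (π⁻¹ * x) := by field_simp
    rw [this]; exact O₂.mul_mem _ _ hπ2m hx
  have hGmem : ∀ i, G i ∈ O₁ ∧ G i ∈ O₂ := by
    intro i
    refine Fin.addCases (fun j => ?_) (fun j => ?_) i
    · rw [hG, Fin.append_left]
      exact ⟨hB1 j, hmemπ2 _ (hB3 j)⟩
    · rw [hG, Fin.append_right]
      exact ⟨hmemπ1 _ (hB'3 j), hB'1 j⟩
  -- `V`-coordinates of the elements of `O₁ ∩ O₂`
  have hcoord : ∀ z : F, z ∈ O₁ → z ∈ O₂ →
      ∃ m : Fin (1 + q) → F, (∀ i, m i ∈ V) ∧ z = ∑ i, m i * G i := by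
    intro z hz1 hz2
    obtain ⟨c, c', hc, hc', hz⟩ := hspan z hz1 hz2
    refine ⟨Fin.append c c', ?_, ?_⟩
    · intro i
      refine Fin.addCases (fun j => ?_) (fun j => ?_) i
      · rw [Fin.append_left]; exact hc j
      · rw [Fin.append_right]; exact hc' j
    · rw [Fin.sum_univ_add]
      simp only [hG, Fin.append_left, Fin.append_right]
      exact hz
  have hX1 : ∀ m : Fin (1 + q) → F, (∀ i, m i ∈ V) →
      π⁻¹ * (∑ i, m i * G i - m (Fin.castAdd q 0)) ∈ O₁ :=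
    fun m hm => s35n3_res₁ O₁ V hV1 π B B' hB2' hB'3 m hm
  have hX2 : ∀ m : Fin (1 + q) → F, (∀ i, m i ∈ V) →
      π⁻¹ * (∑ i, m i * G i - ∑ j : Fin q, m (Fin.natAdd 1 j) * b' j) ∈ O₂ :=
    fun m hm => s35n3_res₂ O₂ V hV2 π B B' b' hB3 hB'2 m hm
  -- a `V`-combination vanishing modulo `π` at both valuations has coefficients in `π V`
  have hdiv : ∀ m : Fin (1 + q) → F, (∀ i, m i ∈ V) → π⁻¹ * ∑ i, m i * G i ∈ O₁ →
      π⁻¹ * ∑ i, m i * G i ∈ O₂ → ∀ i, π⁻¹ * m i ∈ V := by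
    intro m hm h1 h2
    have h0 : π⁻¹ * m (Fin.castAdd q 0) ∈ V := by
      apply hsat _ (hm _)
      have : π⁻¹ * m (Fin.castAdd q 0) =
          π⁻¹ * ∑ i, m i * G i - π⁻¹ * (∑ i, m i * G i - m (Fin.castAdd q 0)) := by ring
      rw [this]
      exact O₁.toSubring.sub_mem h1 (hX1 m hm)
    have hj : ∀ j : Fin q, π⁻¹ * m (Fin.natAdd 1 j) ∈ V := by
      apply hbi' (fun j => m (Fin.natAdd 1 j)) (fun j => hm _)
      have : π⁻¹ * ∑ j : Fin q, m (Fin.natAdd 1 j) * b' j =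
          π⁻¹ * ∑ i, m i * G i -
            π⁻¹ * (∑ i, m i * G i - ∑ j : Fin q, m (Fin.natAdd 1 j) * b' j) := by ring
      rw [this]
      exact O₂.toSubring.sub_mem h2 (hX2 m hm)
    intro i
    refine Fin.addCases (fun j => ?_) (fun j => hj j) i
    have : j = 0 := Subsingleton.elim _ _
    subst this
    exact h0
  -- Step 2: `G` is a basis of `F` over `K'`
  have hli : LinearIndependent K' G := by
    rw [Fintype.linearIndependent_iff]
    intro a ha
    by_contra hcon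
    push Not at hcon
    obtain ⟨i₀, hi₀⟩ := hcon
    have hcE : ∀ i, algebraMap K' F (a i) ∈ (algebraMap K' F).fieldRange :=
      fun i => RingHom.mem_fieldRange_self _ _
    have hc0 : ∃ i, algebraMap K' F (a i) ≠ 0 :=
      ⟨i₀, fun h => hi₀ ((algebraMap K' F).injective (by rw [h, map_zero]))⟩
    obtain ⟨k, hk, i₁, hi₁0, hi₁⟩ := s34k2_exists_scaling (algebraMap K' F).fieldRange V π hπV
      hπ0 hE (fun i => algebraMap K' F (a i)) hcE hc0
    have hsum0 : ∑ i, (π ^ k * algebraMap K' F (a i)) * G i = 0 := by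
      have : ∑ i, (π ^ k * algebraMap K' F (a i)) * G i = π ^ k * ∑ i, a i • G i := by
        rw [Finset.mul_sum]
        refine Finset.sum_congr rfl fun i _ => ?_
        rw [Algebra.smul_def]; ring
      rw [this, ha, mul_zero]
    have h3 := hdiv (fun i => π ^ k * algebraMap K' F (a i)) hk
      (by rw [hsum0, mul_zero]; exact O₁.zero_mem) (by rw [hsum0, mul_zero]; exact O₂.zero_mem) i₁
    have h4 : π⁻¹ = π⁻¹ * (π ^ k * algebraMap K' F (a i₁)) *
        (π ^ k * algebraMap K' F (a i₁))⁻¹ := by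
      rw [mul_assoc, mul_inv_cancel₀ hi₁0, mul_one]
    exact hπ1 (hV1 _ (h4 ▸ V.mul_mem h3 hi₁))
  have hsp : ⊤ ≤ Submodule.span K' (Set.range G) := by
    intro z _
    obtain ⟨k₁, hk₁⟩ := ha1 z
    obtain ⟨k₂, hk₂⟩ := ha2 z
    have hz1 : π ^ (k₁ + k₂) * z ∈ O₁ := by
      have : π ^ (k₁ + k₂) * z = π ^ k₂ * (π ^ k₁ * z) := by ring
      rw [this]
      exact O₁.mul_mem _ _ (O₁.toSubring.pow_mem hπ1m _) hk₁
    have hz2 : π ^ (k₁ + k₂) * z ∈ O₂ := by
      have : π ^ (k₁ + k₂) * z = π ^ k₁ * (π ^ k₂ * z) := by ring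
      rw [this]
      exact O₂.mul_mem _ _ (O₂.toSubring.pow_mem hπ2m _) hk₂
    obtain ⟨m, hm, hz⟩ := hcoord _ hz1 hz2
    obtain ⟨π', hπ'⟩ : ∃ π' : K', algebraMap K' F π' = π := RingHom.mem_fieldRange.mp (hVE π hπV)
    have hzz : z = ((π') ^ (k₁ + k₂))⁻¹ • ∑ i, m i * G i := by
      rw [Algebra.smul_def, map_inv₀, map_pow, hπ', ← hz]
      field_simp
    rw [hzz]
    refine Submodule.smul_mem _ _ (Submodule.sum_mem _ fun i _ => ?_)
    obtain ⟨a, ha⟩ := RingHom.mem_fieldRange.mp (hVE _ (hm i))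
    rw [← ha, ← Algebra.smul_def]
    exact Submodule.smul_mem _ _ (Submodule.subset_span ⟨i, rfl⟩)
  let 𝔟 : Module.Basis (Fin (1 + q)) K' F := Module.Basis.mk hli hsp
  have h𝔟 : ∀ i, 𝔟 i = G i := fun i => Module.Basis.mk_apply hli hsp i
  -- Step 3: coordinates of the elements of `O₁ ∩ O₂` are in `V`
  have hrepr : ∀ z : F, z ∈ O₁ → z ∈ O₂ → (∀ i, algebraMap K' F (𝔟.repr z i) ∈ V) ∧
      z = ∑ i, algebraMap K' F (𝔟.repr z i) * G i := by
    intro z hz1 hz2
    have hsum : z = ∑ i, algebraMap K' F (𝔟.repr z i) * G i := by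
      conv_lhs => rw [← 𝔟.sum_repr z]
      refine Finset.sum_congr rfl fun i _ => ?_
      rw [Algebra.smul_def, h𝔟]
    refine ⟨?_, hsum⟩
    obtain ⟨m, hm, hz⟩ := hcoord z hz1 hz2
    choose a ha using fun i => RingHom.mem_fieldRange.mp (hVE _ (hm i))
    have hza : z = ∑ i, a i • 𝔟 i := by
      rw [hz]
      refine Finset.sum_congr rfl fun i _ => ?_
      rw [Algebra.smul_def, ha, h𝔟]
    intro i
    have h1 : 𝔟.repr z i = a i := by
      rw [hza, 𝔟.repr_sum_self]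
    rw [h1, ha]
    exact hm i
  -- Step 4: the matrix of multiplication by `x ∈ O₁ ∩ O₂`
  have hent : ∀ x : F, x ∈ O₁ → x ∈ O₂ → ∀ j,
      (∀ i, algebraMap K' F (Algebra.leftMulMatrix 𝔟 x i j) ∈ V) ∧
        x * G j = ∑ i, algebraMap K' F (Algebra.leftMulMatrix 𝔟 x i j) * G i := by
    intro x hx1 hx2 j
    have h := hrepr (x * G j) (O₁.mul_mem _ _ hx1 (hGmem j).1) (O₂.mul_mem _ _ hx2 (hGmem j).2)
    simp only [Algebra.leftMulMatrix_eq_repr_mul, h𝔟]
    exact h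
  have hG0 : G (Fin.castAdd q 0) = B 0 := by rw [hG, Fin.append_left]
  have hGj : ∀ j : Fin q, G (Fin.natAdd 1 j) = B' j := fun j => by rw [hG, Fin.append_right]
  -- Step 5: the degree
  have hfinrank : Module.finrank K' F = 1 + q := by
    rw [Module.finrank_eq_card_basis 𝔟, Fintype.card_fin]
  have hB0O1 : B 0 ∈ O₁ := hB1 0
  have hB0O2 : B 0 ∈ O₂ := hmemπ2 _ (hB3 0)
  -- Step 6: the element `t`
  set t : F := π + (1 - π) * B 0 ^ 2 with ht
  have ht1 : π⁻¹ * (t - 1) ∈ O₁ := by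
    have h1 : π⁻¹ * (t - 1) = (1 - π) * (π⁻¹ * (B 0 - 1)) * (B 0 + 1) := by
      rw [ht]
      ring
    rw [h1]
    exact O₁.mul_mem _ _ (O₁.mul_mem _ _ (O₁.toSubring.sub_mem O₁.one_mem hπ1m) (hB2' 0))
      (O₁.add_mem _ _ hB0O1 O₁.one_mem)
  have hππ : π⁻¹ * π = 1 := inv_mul_cancel₀ hπ0
  have ht2 : π⁻¹ * (π⁻¹ * t - 1) ∈ O₂ := by
    have h1 : π⁻¹ * (π⁻¹ * t - 1) = (1 - π) * (π⁻¹ * B 0) ^ 2 := by
      rw [ht]
      linear_combination π⁻¹ * hππ
    rw [h1]
    exact O₂.mul_mem _ _ (O₂.toSubring.sub_mem O₂.one_mem hπ2m)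
      (O₂.toSubring.pow_mem (hB3 0) 2)
  have htO1 : t ∈ O₁ := by
    rw [ht]
    exact O₁.add_mem _ _ hπ1m (O₁.mul_mem _ _ (O₁.toSubring.sub_mem O₁.one_mem hπ1m)
      (O₁.toSubring.pow_mem hB0O1 2))
  have htO2 : t ∈ O₂ := by
    rw [ht]
    exact O₂.add_mem _ _ hπ2m (O₂.mul_mem _ _ (O₂.toSubring.sub_mem O₂.one_mem hπ2m)
      (O₂.toSubring.pow_mem hB0O2 2))
  have hπt2 : π⁻¹ * t ∈ O₂ := by
    have h1 : π⁻¹ * t = 1 + π * (π⁻¹ * (π⁻¹ * t - 1)) := by
      linear_combination (1 - π⁻¹ * t) * hππ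
    rw [h1]
    exact O₂.add_mem _ _ O₂.one_mem (O₂.mul_mem _ _ hπ2m ht2)
  -- Step 7: the matrix of the multiplication by `t`
  set M : Matrix (Fin (1 + q)) (Fin (1 + q)) K' := Algebra.leftMulMatrix 𝔟 t with hM
  have hnorm : Algebra.norm K' t = M.det := Algebra.norm_eq_matrix_det 𝔟 t
  have hMV : ∀ i j, algebraMap K' F (M i j) ∈ V := fun i j => (hent t htO1 htO2 j).1 i
  have hcol : ∀ j, t * G j = ∑ i, algebraMap K' F (M i j) * G i :=
    fun j => (hent t htO1 htO2 j).2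
  -- the rows of the second block are divisible by `π`
  have hrow : ∀ (k : Fin q) (j : Fin (1 + q)),
      π⁻¹ * algebraMap K' F (M (Fin.natAdd 1 k) j) ∈ V := by
    intro k j
    refine hbi' (fun k => algebraMap K' F (M (Fin.natAdd 1 k) j)) (fun k => hMV _ _) ?_ k
    have h1 := hX2 (fun i => algebraMap K' F (M i j)) (fun i => hMV i j)
    rw [← hcol j] at h1
    have h2 : π⁻¹ * ∑ k : Fin q, algebraMap K' F (M (Fin.natAdd 1 k) j) * b' k =
        π⁻¹ * t * G j -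
          π⁻¹ * (t * G j - ∑ k : Fin q, algebraMap K' F (M (Fin.natAdd 1 k) j) * b' k) := by
      ring
    rw [h2]
    exact O₂.toSubring.sub_mem (O₂.mul_mem _ _ hπt2 (hGmem j).2) h1
  -- (i) the corner entry
  have hc00 : π⁻¹ * (algebraMap K' F (M (Fin.castAdd q 0) (Fin.castAdd q 0)) - 1) ∈ V := by
    apply hsat _ (V.sub_mem (hMV _ _) V.one_mem)
    have h1 := hX1 (fun i => algebraMap K' F (M i (Fin.castAdd q 0))) (fun i => hMV i _)
    rw [← hcol (Fin.castAdd q 0), hG0] at h1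
    have h2 : π⁻¹ * (algebraMap K' F (M (Fin.castAdd q 0) (Fin.castAdd q 0)) - 1) =
        π⁻¹ * (t - 1) * B 0 + π⁻¹ * (B 0 - 1) -
          π⁻¹ * (t * B 0 - algebraMap K' F (M (Fin.castAdd q 0) (Fin.castAdd q 0))) := by ring
    rw [h2]
    exact O₁.toSubring.sub_mem (O₁.add_mem _ _ (O₁.mul_mem _ _ ht1 hB0O1) (hB2' 0)) h1
  -- (ii) the first row
  have hc0j : ∀ j : Fin q,
      π⁻¹ * algebraMap K' F (M (Fin.castAdd q 0) (Fin.natAdd 1 j)) ∈ V := by
    intro j
    apply hsat _ (hMV _ _)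
    have h1 := hX1 (fun i => algebraMap K' F (M i (Fin.natAdd 1 j))) (fun i => hMV i _)
    rw [← hcol (Fin.natAdd 1 j), hGj] at h1
    have h2 : π⁻¹ * algebraMap K' F (M (Fin.castAdd q 0) (Fin.natAdd 1 j)) =
        t * (π⁻¹ * B' j) -
          π⁻¹ * (t * B' j - algebraMap K' F (M (Fin.castAdd q 0) (Fin.natAdd 1 j))) := by ring
    rw [h2]
    exact O₁.toSubring.sub_mem (O₁.mul_mem _ _ htO1 (hB'3 j)) h1
  -- (iii) the second block, divided by `π`
  have hckj : ∀ k j : Fin q,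
      π⁻¹ * (π⁻¹ * algebraMap K' F (M (Fin.natAdd 1 k) (Fin.natAdd 1 j)) -
        (if k = j then (1 : F) else 0)) ∈ V := by
    intro k j
    have hmV : ∀ i, π⁻¹ * algebraMap K' F (M i (Fin.natAdd 1 j)) ∈ V := by
      intro i
      refine Fin.addCases (fun l => ?_) (fun l => ?_) i
      · have hl : l = 0 := Subsingleton.elim _ _
        subst hl
        exact hc0j j
      · exact hrow l _
    have hcV : ∀ l : Fin q, π⁻¹ * algebraMap K' F (M (Fin.natAdd 1 l) (Fin.natAdd 1 j)) -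
        (if l = j then (1 : F) else 0) ∈ V := by
      intro l
      refine V.sub_mem (hmV _) ?_
      split_ifs
      · exact V.one_mem
      · exact V.zero_mem
    refine hbi' (fun l => π⁻¹ * algebraMap K' F (M (Fin.natAdd 1 l) (Fin.natAdd 1 j)) -
        (if l = j then (1 : F) else 0)) hcV ?_ k
    have h1 := hX2 (fun i => π⁻¹ * algebraMap K' F (M i (Fin.natAdd 1 j))) hmV
    have hsumG : ∑ i, π⁻¹ * algebraMap K' F (M i (Fin.natAdd 1 j)) * G i =
        π⁻¹ * (t * B' j) := by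
      rw [← hGj j, hcol (Fin.natAdd 1 j), Finset.mul_sum]
      exact Finset.sum_congr rfl fun i _ => by ring
    rw [hsumG] at h1
    have hsum : ∑ l : Fin q, (π⁻¹ * algebraMap K' F (M (Fin.natAdd 1 l) (Fin.natAdd 1 j)) -
        (if l = j then (1 : F) else 0)) * b' l =
        ∑ l : Fin q, π⁻¹ * algebraMap K' F (M (Fin.natAdd 1 l) (Fin.natAdd 1 j)) * b' l -
          b' j := by
      simp only [sub_mul, Finset.sum_sub_distrib, ite_mul, one_mul, zero_mul,
        Finset.sum_ite_eq', Finset.mem_univ, if_true]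
    rw [hsum]
    have h2 : π⁻¹ * (∑ l : Fin q,
        π⁻¹ * algebraMap K' F (M (Fin.natAdd 1 l) (Fin.natAdd 1 j)) * b' l - b' j) =
        π⁻¹ * (π⁻¹ * t - 1) * B' j + π⁻¹ * (B' j - b' j) -
          π⁻¹ * (π⁻¹ * (t * B' j) - ∑ l : Fin q,
            π⁻¹ * algebraMap K' F (M (Fin.natAdd 1 l) (Fin.natAdd 1 j)) * b' l) := by
      ring
    rw [h2]
    exact O₂.toSubring.sub_mem (O₂.add_mem _ _ (O₂.mul_mem _ _ ht2 (hB'1 j)) (hB'2 j)) h1
  -- Step 8: `M = diag(1, π, …, π) * T`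
  obtain ⟨π', hπ'⟩ : ∃ π' : K', algebraMap K' F π' = π :=
    RingHom.mem_fieldRange.mp (hVE π hπV)
  have hπ'0 : π' ≠ 0 := by
    rintro rfl
    exact hπ0 (by rw [← hπ', map_zero])
  have hidx : ∀ k : Fin q, Fin.natAdd 1 k ≠ Fin.castAdd q (0 : Fin 1) := by
    intro k h
    have h1 := congrArg Fin.val h
    simp at h1
  let T : Matrix (Fin (1 + q)) (Fin (1 + q)) K' :=
    fun i j => if i = Fin.castAdd q 0 then M i j else π'⁻¹ * M i j
  let d : Fin (1 + q) → K' := fun i => if i = Fin.castAdd q 0 then 1 else π'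
  have hT0 : ∀ j, T (Fin.castAdd q 0) j = M (Fin.castAdd q 0) j := fun j => if_pos rfl
  have hTk : ∀ (k : Fin q) (j : Fin (1 + q)),
      T (Fin.natAdd 1 k) j = π'⁻¹ * M (Fin.natAdd 1 k) j := fun k j => if_neg (hidx k)
  have hMDT : M = Matrix.diagonal d * T := by
    ext i j
    rw [Matrix.diagonal_mul]
    by_cases hi : i = Fin.castAdd q 0
    · simp only [d, T, if_pos hi, one_mul]
    · simp only [d, T, if_neg hi]
      rw [mul_inv_cancel_left₀ hπ'0]
  have hdprod : ∏ i, d i = π' ^ q := by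
    rw [Fin.prod_univ_add, Fin.prod_univ_one]
    have h1 : d (Fin.castAdd q 0) = 1 := if_pos rfl
    have h2 : ∀ k : Fin q, d (Fin.natAdd 1 k) = π' := fun k => if_neg (hidx k)
    rw [h1, one_mul, Finset.prod_congr rfl (fun k _ => h2 k), Finset.prod_const,
      Finset.card_univ, Fintype.card_fin]
  have hdetM : M.det = π' ^ q * T.det := by
    calc M.det = (Matrix.diagonal d * T).det := congrArg Matrix.det hMDT
      _ = π' ^ q * T.det := by rw [Matrix.det_mul, Matrix.det_diagonal, hdprod]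
  have hTV : ∀ i j, algebraMap K' F (T i j) ∈ V := by
    intro i j
    refine Fin.addCases (fun l => ?_) (fun k => ?_) i
    · have hl : l = 0 := Subsingleton.elim _ _
      subst hl
      rw [hT0]
      exact hMV _ _
    · rw [hTk, map_mul, map_inv₀, hπ']
      exact hrow k j
  -- Step 9: reduction modulo the maximal ideal of `O₁`
  let TO : Matrix (Fin (1 + q)) (Fin (1 + q)) O₁ :=
    fun i j => ⟨algebraMap K' F (T i j), hV1 _ (hTV i j)⟩
  have hTOmap : O₁.subtype.mapMatrix TO = (algebraMap K' F).mapMatrix T := by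
    ext i j
    rfl
  have hTO_det : ((TO.det : O₁) : F) = algebraMap K' F T.det := by
    have h1 := RingHom.map_det O₁.subtype TO
    rw [hTOmap, ← RingHom.map_det] at h1
    exact h1
  have hdetbar : ((IsLocalRing.residue O₁).mapMatrix TO).det = 1 := by
    apply s35n3u_det_lower q
    · rw [← map_one (IsLocalRing.residue O₁)]
      refine s35n3_residue_eq O₁ π hπ1m hπ1 _ _ ?_
      have h1 : ((TO (Fin.castAdd q 0) (Fin.castAdd q 0) : O₁) : F) - ((1 : O₁) : F) =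
          algebraMap K' F (M (Fin.castAdd q 0) (Fin.castAdd q 0)) - 1 := by
        show algebraMap K' F (T (Fin.castAdd q 0) (Fin.castAdd q 0)) - 1 = _
        rw [hT0]
      rw [h1]
      exact hV1 _ hc00
    · intro j
      rw [← map_zero (IsLocalRing.residue O₁)]
      refine s35n3_residue_eq O₁ π hπ1m hπ1 _ _ ?_
      have h1 : ((TO (Fin.castAdd q 0) (Fin.natAdd 1 j) : O₁) : F) - ((0 : O₁) : F) =
          algebraMap K' F (M (Fin.castAdd q 0) (Fin.natAdd 1 j)) := by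
        show algebraMap K' F (T (Fin.castAdd q 0) (Fin.natAdd 1 j)) - 0 = _
        rw [sub_zero, hT0]
      rw [h1]
      exact hV1 _ (hc0j j)
    · intro i j
      have hkey := hckj i j
      have hval : ((TO (Fin.natAdd 1 i) (Fin.natAdd 1 j) : O₁) : F) =
          π⁻¹ * algebraMap K' F (M (Fin.natAdd 1 i) (Fin.natAdd 1 j)) := by
        show algebraMap K' F (T (Fin.natAdd 1 i) (Fin.natAdd 1 j)) = _
        rw [hTk, map_mul, map_inv₀, hπ']
      show IsLocalRing.residue O₁ (TO (Fin.natAdd 1 i) (Fin.natAdd 1 j)) = _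
      split_ifs with hij
      · rw [if_pos hij] at hkey
        rw [← map_one (IsLocalRing.residue O₁)]
        refine s35n3_residue_eq O₁ π hπ1m hπ1 _ _ ?_
        rw [hval]
        exact hV1 _ hkey
      · rw [if_neg hij] at hkey
        rw [← map_zero (IsLocalRing.residue O₁)]
        refine s35n3_residue_eq O₁ π hπ1m hπ1 _ _ ?_
        rw [hval]
        exact hV1 _ hkey
  -- conclusion
  have hdetV : algebraMap K' F T.det ∈ V := by
    let TV : Matrix (Fin (1 + q)) (Fin (1 + q)) V := fun i j => ⟨algebraMap K' F (T i j), hTV i j⟩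
    have h1 : V.subtype.mapMatrix TV = (algebraMap K' F).mapMatrix T := by
      ext i j
      rfl
    have h2 := RingHom.map_det V.subtype TV
    rw [h1, ← RingHom.map_det] at h2
    rw [← h2]
    exact (TV.det).2
  have hε1 : π⁻¹ * (algebraMap K' F T.det - 1) ∈ V := by
    apply hsat _ (V.sub_mem hdetV V.one_mem)
    have h5 : IsLocalRing.residue O₁ TO.det = IsLocalRing.residue O₁ 1 := by
      rw [map_one, ← hdetbar]
      exact RingHom.map_det (IsLocalRing.residue O₁) TO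
    have h6 := s35n3_of_residue_eq O₁ π hu1 _ _ h5
    rw [hTO_det] at h6
    exact h6
  refine ⟨t, ht1, ht2, hfinrank, algebraMap K' F T.det, hdetV, hε1, ?_⟩
  rw [hnorm, hdetM, map_mul, map_pow, hπ']

end Fermat.Agent.S35
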