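import Mathlib
import Fermat.Agent.S34.TwoValRes
import Fermat.Agent.S35.N3AbsNorm
import Fermat.Agent.S35.N3AbsUnif

/-!
# P20 (S35), block N3, abstract part (3): the norm with two valuations above, general orders

Setting of `N3AbsNorm.lean` (`V` a discrete valuation ring with uniformiser `π` inside the image
`E` of `K'` in `F`, `[F : K'] = 1 + q`, `O₁` of residue degree one and `O₂` purely inseparable of
degree `q` above `V`, both unramified).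

`s35n3_norm_two_val_gen` (NORM-GEN): if `u` has order `b` at `O₁` and order `a` at `O₂`, with
`π ^ (-b) * u ≡ c₀ (mod π O₁)` and `(π ^ (-a) * u) ^ q ≡ c₁ (mod π O₂)`, `c₀, c₁ ∈ V`, then
`Nm_{F/K'}(u) = π ^ (b + q a) * ν` with `ν ∈ V`, `ν ≡ c₀ * c₁ (mod π V)`.

Proof: the semilocal uniformiser `t` of `N3AbsUnif.lean` (`t ≡ 1` at `O₁`, `t / π ≡ 1` at `O₂`,
`Nm t = π ^ q * ε`, `ε ≡ 1`) reduces to the unit case `s35n3_norm_two_val` for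
`π ^ (-b) * u * t ^ (b - a)`.
-/

set_option autoImplicit false

namespace Fermat.Agent.S35

open Fermat.Agent.S34

section Aux

variable {F : Type*} [Field F]

/-- Integer powers of an element `x ≡ 1 (mod π)` of a subring `S` with `x⁻¹ ∈ S`. -/
theorem s35n3g_zpow_congr_one (S : Subring F) (π : F) {x : F} (hx0 : x ≠ 0) (hx : x ∈ S)
    (hxi : x⁻¹ ∈ S) (h : π⁻¹ * (x - 1) ∈ S) (n : ℤ) :
    x ^ n ∈ S ∧ π⁻¹ * (x ^ n - 1) ∈ S := by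
  have hnat : ∀ y : F, y ∈ S → π⁻¹ * (y - 1) ∈ S → ∀ k : ℕ,
      y ^ k ∈ S ∧ π⁻¹ * (y ^ k - 1) ∈ S := by
    intro y hy hy1 k
    induction k with
    | zero =>
      refine ⟨by rw [pow_zero]; exact S.one_mem, ?_⟩
      rw [pow_zero, sub_self, mul_zero]
      exact S.zero_mem
    | succ k ih =>
      refine ⟨S.pow_mem hy _, ?_⟩
      have e : π⁻¹ * (y ^ (k + 1) - 1) = y ^ k * (π⁻¹ * (y - 1)) + π⁻¹ * (y ^ k - 1) := by ring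
      rw [e]
      exact S.add_mem (S.mul_mem ih.1 hy1) ih.2
  have hi1 : π⁻¹ * (x⁻¹ - 1) ∈ S := by
    have e : π⁻¹ * (x⁻¹ - 1) = -(x⁻¹ * (π⁻¹ * (x - 1))) := by
      field_simp
      ring
    rw [e]
    exact S.neg_mem (S.mul_mem hxi h)
  obtain ⟨k, rfl | rfl⟩ := n.eq_nat_or_neg
  · rw [zpow_natCast]
    exact hnat x hx h k
  · rw [zpow_neg, zpow_natCast, ← inv_pow]
    exact hnat x⁻¹ hxi hi1 k

/-- An element `≡ 1 (mod π)` of a valuation ring is a unit. -/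
theorem s35n3g_inv_mem (O : ValuationSubring F) (π : F) (hπO : π ∈ O) (hπ : π⁻¹ ∉ O)
    {x : F} (hx : π⁻¹ * (x - 1) ∈ O) : x ≠ 0 ∧ x ∈ O ∧ x⁻¹ ∈ O := by
  have hπ0 : π ≠ 0 := by
    rintro rfl
    exact hπ (by rw [inv_zero]; exact O.zero_mem)
  have hxO : x ∈ O := by
    have e : x = 1 + π * (π⁻¹ * (x - 1)) := by
      field_simp
      ring
    rw [e]
    exact O.add_mem _ _ O.one_mem (O.mul_mem _ _ hπO hx)
  have hres : IsLocalRing.residue O ⟨x, hxO⟩ = 1 := by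
    have h1 := s35n3_residue_eq O π hπO hπ ⟨x, hxO⟩ 1 (by simpa using hx)
    rw [h1, map_one]
  have hunit : IsUnit (⟨x, hxO⟩ : O) := by
    by_contra hnu
    have hm : (⟨x, hxO⟩ : O) ∈ IsLocalRing.maximalIdeal O := by
      rwa [IsLocalRing.mem_maximalIdeal, mem_nonunits_iff]
    rw [← IsLocalRing.residue_eq_zero_iff, hres] at hm
    exact one_ne_zero hm
  obtain ⟨w, hw⟩ := hunit.exists_right_inv
  have h1 : x * (w : F) = 1 := by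
    have := congrArg Subtype.val hw
    simpa using this
  have hx0 : x ≠ 0 := left_ne_zero_of_mul_eq_one h1
  refine ⟨hx0, hxO, ?_⟩
  rw [inv_eq_of_mul_eq_one_right h1]
  exact w.2

end Aux

/-- **NORM-GEN**: the norm over a discrete valuation ring with two valuations above (`O₁` of
residue degree one, `O₂` purely inseparable of degree `q`), for an element of order `b` at `O₁`
and order `a` at `O₂`:
`Nm_{F/K'}(u) = π ^ (b + q a) * ν`, `ν ≡ red₁(π ^ (-b) u) · red₂(π ^ (-a) u) ^ q (mod π)`. -/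
theorem s35n3_norm_two_val_gen {F K' : Type*} [Field F] [Field K'] [Algebra K' F]
    (V : Subring F) (hVE : ∀ v ∈ V, v ∈ (algebraMap K' F).fieldRange)
    (π : F) (hπV : π ∈ V) (hπ0 : π ≠ 0)
    (hE : ∀ c ∈ (algebraMap K' F).fieldRange, c ≠ 0 →
      ∃ (k : ℤ) (u : F), u ∈ V ∧ u⁻¹ ∈ V ∧ c = π ^ k * u)
    (O₁ O₂ : ValuationSubring F) (hV1 : ∀ v ∈ V, v ∈ O₁) (hV2 : ∀ v ∈ V, v ∈ O₂)
    (hπ1 : π⁻¹ ∉ O₁) (hπ2 : π⁻¹ ∉ O₂)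
    (hu1 : ∀ z ∈ O₁, z⁻¹ ∉ O₁ → π⁻¹ * z ∈ O₁) (hu2 : ∀ z ∈ O₂, z⁻¹ ∉ O₂ → π⁻¹ * z ∈ O₂)
    (ha1 : ∀ z : F, ∃ k : ℕ, π ^ k * z ∈ O₁) (ha2 : ∀ z : F, ∃ k : ℕ, π ^ k * z ∈ O₂)
    (hne : O₁ ≠ O₂) (q : ℕ) (hq : q.Prime) (hqπ : π⁻¹ * (q : F) ∈ V)
    (hdim : ∀ s : Fin (1 + q + 1) → F, ∃ c : Fin (1 + q + 1) → F,
      (∀ i, c i ∈ (algebraMap K' F).fieldRange) ∧ (∃ i, c i ≠ 0) ∧ ∑ i, c i * s i = 0)
    (hsat : ∀ c ∈ V, π⁻¹ * c ∈ O₁ → π⁻¹ * c ∈ V)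
    (b' : Fin q → F) (hb' : ∀ i, b' i ∈ O₂)
    (hbi' : ∀ c : Fin q → F, (∀ i, c i ∈ V) → π⁻¹ * ∑ i, c i * b' i ∈ O₂ →
      ∀ i, π⁻¹ * c i ∈ V)
    (a b : ℤ) {u : F} {c₀ c₁ : F} (hc₀ : c₀ ∈ V) (hc₁ : c₁ ∈ V)
    (h₀ : π⁻¹ * (π ^ (-b) * u - c₀) ∈ O₁) (h₁ : π⁻¹ * ((π ^ (-a) * u) ^ q - c₁) ∈ O₂) :
    ∃ ν : F, ν ∈ V ∧ algebraMap K' F (Algebra.norm K' u) = π ^ (b + (q : ℤ) * a) * ν ∧
      π⁻¹ * (ν - c₀ * c₁) ∈ V := by
  obtain ⟨t, ht1, ht2, hfr, ε, hεV, hε1, hNt⟩ := s35n3_norm_unif V hVE π hπV hπ0 hE O₁ O₂ hV1 hV2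
    hπ1 hπ2 hu1 hu2 ha1 ha2 hne q hq hqπ hdim hsat b' hb' hbi'
  have hπ1m : π ∈ O₁ := hV1 π hπV
  have hπ2m : π ∈ O₂ := hV2 π hπV
  have hq0 : q ≠ 0 := hq.ne_zero
  obtain ⟨ht0, htO1, htiO1⟩ := s35n3g_inv_mem O₁ π hπ1m hπ1 ht1
  obtain ⟨hs0, hsO2, hsiO2⟩ := s35n3g_inv_mem O₂ π hπ2m hπ2 ht2
  obtain ⟨n, hn⟩ : ∃ n : ℤ, n = a - b := ⟨_, rfl⟩
  have hT := s35n3g_zpow_congr_one O₁.toSubring π ht0 htO1 htiO1 ht1 (-n)
  have hS := s35n3g_zpow_congr_one O₂.toSubring π hs0 hsO2 hsiO2 ht2 (-n * q)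
  have hS' := s35n3g_zpow_congr_one O₂.toSubring π hs0 hsO2 hsiO2 ht2 (-n)
  obtain ⟨u₀, hu₀⟩ : ∃ x : F, x = π ^ (-b) * u := ⟨_, rfl⟩
  obtain ⟨u₁, hu₁⟩ : ∃ x : F, x = π ^ (-a) * u := ⟨_, rfl⟩
  rw [← hu₀] at h₀
  rw [← hu₁] at h₁
  obtain ⟨u'', hu''⟩ : ∃ x : F, x = u₀ * t ^ (-n) := ⟨_, rfl⟩
  have hu₀O : u₀ ∈ O₁ := by
    have e : u₀ = c₀ + π * (π⁻¹ * (u₀ - c₀)) := by
      field_simp
      ring
    rw [e]
    exact O₁.add_mem _ _ (hV1 _ hc₀) (O₁.mul_mem _ _ hπ1m h₀)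
  have hu''O1 : u'' ∈ O₁ := by
    rw [hu'']
    exact O₁.mul_mem _ _ hu₀O hT.1
  have h₀'' : π⁻¹ * (u'' - c₀) ∈ O₁ := by
    have e : π⁻¹ * (u'' - c₀) =
        π⁻¹ * (u₀ - c₀) * t ^ (-n) + c₀ * (π⁻¹ * (t ^ (-n) - 1)) := by
      rw [hu'']
      ring
    rw [e]
    exact O₁.add_mem _ _ (O₁.mul_mem _ _ h₀ hT.1) (O₁.mul_mem _ _ (hV1 _ hc₀) hT.2)
  have hu₁q : u₁ ^ q ∈ O₂ := by
    have e : u₁ ^ q = c₁ + π * (π⁻¹ * (u₁ ^ q - c₁)) := by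
      field_simp
      ring
    rw [e]
    exact O₂.add_mem _ _ (hV2 _ hc₁) (O₂.mul_mem _ _ hπ2m h₁)
  have hu₁O : u₁ ∈ O₂ := by
    by_contra hcon
    have hinv : u₁⁻¹ ∈ O₂ := (O₂.mem_or_inv_mem u₁).resolve_left hcon
    have hu₁0 : u₁ ≠ 0 := fun h0 => hcon (h0 ▸ O₂.zero_mem)
    obtain ⟨k, hk⟩ : ∃ k, q = k + 1 := ⟨q - 1, by omega⟩
    have e : u₁ = u₁ ^ q * (u₁⁻¹) ^ k := by
      rw [hk, pow_succ, inv_pow]
      field_simp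
    apply hcon
    rw [e]
    exact O₂.mul_mem _ _ hu₁q (O₂.toSubring.pow_mem hinv k)
  have hu''eq : u'' = u₁ * (π⁻¹ * t) ^ (-n) := by
    have e1 : (π⁻¹ * t) ^ (-n) = π ^ n * t ^ (-n) := by
      rw [mul_zpow, inv_zpow', neg_neg]
    have e2 : π ^ (-b) = π ^ (-a) * π ^ n := by
      rw [← zpow_add₀ hπ0, hn]
      congr 1
      ring
    rw [hu'', hu₀, hu₁, e1, e2]
    ring
  have hu''O2 : u'' ∈ O₂ := by
    rw [hu''eq]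
    exact O₂.mul_mem _ _ hu₁O hS'.1
  have h₁'' : π⁻¹ * (u'' ^ q - c₁) ∈ O₂ := by
    have e1 : u'' ^ q = u₁ ^ q * (π⁻¹ * t) ^ (-n * q) := by
      rw [hu''eq, mul_pow, zpow_mul, zpow_natCast]
    have e : π⁻¹ * (u'' ^ q - c₁) = π⁻¹ * (u₁ ^ q - c₁) * (π⁻¹ * t) ^ (-n * q) +
        c₁ * (π⁻¹ * ((π⁻¹ * t) ^ (-n * q) - 1)) := by
      rw [e1]
      ring
    rw [e]
    exact O₂.add_mem _ _ (O₂.mul_mem _ _ h₁ hS.1) (O₂.mul_mem _ _ (hV2 _ hc₁) hS.2)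
  -- the unit case
  obtain ⟨hνV, hνc⟩ := s35n3_norm_two_val V hVE π hπV hπ0 hE O₁ O₂ hV1 hV2 hπ1 hπ2 hu1 hu2
    ha1 ha2 hne q hq hqπ hdim hsat b' hb' hbi' hu''O1 hu''O2 hc₀ hc₁ h₀'' h₁''
  -- `ε` is a unit of `V`
  have hεO1 : π⁻¹ * (ε - 1) ∈ O₁ := hV1 _ hε1
  obtain ⟨hε0, -, -⟩ := s35n3g_inv_mem O₁ π hπ1m hπ1 hεO1
  have hεiV : ε⁻¹ ∈ V := by
    obtain ⟨k, w, hw, hwi, hεk⟩ := hE ε (hVE _ hεV) hε0
    rcases le_or_gt k 0 with hk | hk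
    · have e : ε⁻¹ = π ^ (-k).toNat * w⁻¹ := by
        rw [hεk, mul_inv, ← zpow_neg, ← zpow_natCast, Int.toNat_of_nonneg (by omega)]
      rw [e]
      exact V.mul_mem (V.pow_mem hπV _) hwi
    · exfalso
      have e : π⁻¹ * ε = π ^ (k - 1).toNat * w := by
        rw [hεk, ← zpow_natCast, Int.toNat_of_nonneg (by omega), zpow_sub_one₀ hπ0]
        ring
      have h1 : π⁻¹ * ε ∈ O₁ := by
        rw [e]
        exact hV1 _ (V.mul_mem (V.pow_mem hπV _) hw)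
      apply hπ1
      have e2 : π⁻¹ = π⁻¹ * ε - π⁻¹ * (ε - 1) := by ring
      rw [e2]
      exact O₁.toSubring.sub_mem h1 hεO1
  have hεn := s35n3g_zpow_congr_one V π hε0 hεV hεiV hε1 n
  -- norms
  have : FiniteDimensional K' F := Module.finite_of_finrank_pos (by rw [hfr]; omega)
  have hinvN : ∀ x : F, Algebra.norm K' x⁻¹ = (Algebra.norm K' x)⁻¹ := by
    intro x
    by_cases hx : x = 0
    · rw [hx, inv_zero, Algebra.norm_zero, inv_zero]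
    · symm
      apply inv_eq_of_mul_eq_one_right
      rw [← map_mul, mul_inv_cancel₀ hx, map_one]
  have hNz : ∀ (x : F) (m : ℤ), algebraMap K' F (Algebra.norm K' (x ^ m)) =
      (algebraMap K' F (Algebra.norm K' x)) ^ m := by
    intro x m
    rw [map_zpow' (Algebra.norm K') hinvN, map_zpow₀]
  obtain ⟨π', hπ'⟩ : ∃ π' : K', algebraMap K' F π' = π :=
    RingHom.mem_fieldRange.mp (hVE π hπV)
  have hNπ : algebraMap K' F (Algebra.norm K' π) = π ^ (1 + q) := by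
    rw [← hπ', Algebra.norm_algebraMap, hfr, map_pow]
  have hu_eq : u = π ^ b * t ^ n * u'' := by
    rw [hu'', hu₀, zpow_neg, zpow_neg]
    have h1 : π ^ b ≠ 0 := zpow_ne_zero _ hπ0
    have h2 : t ^ n ≠ 0 := zpow_ne_zero _ ht0
    field_simp
  refine ⟨ε ^ n * algebraMap K' F (Algebra.norm K' u''), V.mul_mem hεn.1 hνV, ?_, ?_⟩
  · have e3 : (π ^ (1 + q)) ^ b * (π ^ q * ε) ^ n = π ^ (b + (q : ℤ) * a) * ε ^ n := by
      rw [mul_zpow, ← zpow_natCast π (1 + q), ← zpow_natCast π q, ← zpow_mul, ← zpow_mul,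
        ← mul_assoc, ← zpow_add₀ hπ0, hn]
      congr 2
      push_cast
      ring
    rw [hu_eq, map_mul, map_mul, map_mul, map_mul, hNz, hNz, hNπ, hNt, e3]
    ring
  · have e : π⁻¹ * (ε ^ n * algebraMap K' F (Algebra.norm K' u'') - c₀ * c₁) =
        π⁻¹ * (ε ^ n - 1) * algebraMap K' F (Algebra.norm K' u'') +
          π⁻¹ * (algebraMap K' F (Algebra.norm K' u'') - c₀ * c₁) := by ring
    rw [e]
    exact V.add_mem (V.mul_mem hεn.2 hνV) hνc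

end Fermat.Agent.S35
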