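import Fermat.Agent.S35.Defs
import Fermat.Agent.S34.KronDefs
import Fermat.Agent.S37.GaussA

/-!
# P20 (S35), block N3: definitions

Level `N * q`, `q ∤ N`, over `ℚ̄` with a valuation ring `A` of `ℚ̄` (lying over `q`).

* `s35_W N q hcop` : the Atkin–Lehner involution of `F_{Nq}` over `ℚ̄` (`= kronW` of the KRON block
  of P19 at `L = ℚ̄`);
* `s35_O A N q hcop` : the semi-local ring `V_∞ ∩ W⁻¹ V_∞` of the two Gauss valuations over `A`
  (`= kronO` at `Λ = A`), with its two reductions `s35_redInf`, `s35_redZero` to `k_A((T))`;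
* `s35_normAlong φ u` : the norm of `u : F'` along a homomorphism of fields `φ : F → F'`
  (`Algebra.norm` for the algebra structure `algebraAlong φ`);
* `s35_kerKappa A N q hcop m y` : the class `y ∈ J₀(N q)` has a Kummer pair `(D, u)`
  (`[D] = y`, `m D = div u`) whose generator `u` reduces to `1` at both Gauss valuations.
-/

set_option autoImplicit false

namespace Fermat.Agent.S35

open ModularCurve AlgebraicCurve Fermat.Agent.S18 Fermat.Agent.S34

/-- The Atkin–Lehner involution `W_q` of `F_{Nq}` over `ℚ̄`. -/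
noncomputable abbrev s35_W (N q : ℕ) [NeZero N] [NeZero q] (hcop : Nat.Coprime N q) :
    ↥(modularFunctionFieldBar (N * q)) ≃ₐ[AlgebraicClosure ℚ] ↥(modularFunctionFieldBar (N * q)) :=
  kronW (AlgebraicClosure ℚ) Fermat.Agent.S37.barToComplex N q hcop

/-- The semi-local ring of the two Gauss valuations `w_∞`, `w_0 = w_∞ ∘ W` of `F_{Nq}` over `A`. -/
noncomputable abbrev s35_O (A : ValuationSubring (AlgebraicClosure ℚ)) (N q : ℕ) [NeZero N]
    [NeZero q] (hcop : Nat.Coprime N q) : Subring ↥(modularFunctionFieldBar (N * q)) :=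
  kronO A.toSubring (Fermat.Agent.S37.resA A) Fermat.Agent.S37.barToComplex N q hcop

/-- Reduction at `w_∞`. -/
noncomputable abbrev s35_redInf (A : ValuationSubring (AlgebraicClosure ℚ)) (N q : ℕ) [NeZero N]
    [NeZero q] (hcop : Nat.Coprime N q) :
    ↥(s35_O A N q hcop) →+* LaurentSeries (IsLocalRing.ResidueField ↥A) :=
  kronRedInf A.toSubring (Fermat.Agent.S37.resA A) Fermat.Agent.S37.barToComplex N q hcop

/-- Reduction at `w_0`. -/
noncomputable abbrev s35_redZero (A : ValuationSubring (AlgebraicClosure ℚ)) (N q : ℕ) [NeZero N]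
    [NeZero q] (hcop : Nat.Coprime N q) :
    ↥(s35_O A N q hcop) →+* LaurentSeries (IsLocalRing.ResidueField ↥A) :=
  kronRedZero A.toSubring (Fermat.Agent.S37.resA A) Fermat.Agent.S37.barToComplex N q hcop

/-- The norm along a homomorphism of fields `φ : F → F'` (for the algebra structure
`algebraAlong φ`). -/
noncomputable def s35_normAlong {K F F' : Type*} [Field K] [Field F] [Field F'] [Algebra K F]
    [Algebra K F'] (φ : F →ₐ[K] F') (u : F') : F :=
  letI := algebraAlong φ
  Algebra.norm F u

/-- `y ∈ ker κ`: `y` has a Kummer pair `(D, u)` (`[D] = y`, `m D = div u`) with `u ≡ 1` at both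
Gauss valuations `w_∞` and `w_0`. -/
def s35_kerKappa (A : ValuationSubring (AlgebraicClosure ℚ)) (N q : ℕ) [NeZero N] [NeZero q]
    (hcop : Nat.Coprime N q) (m : ℕ) (y : JZero (N * q)) : Prop :=
  ∃ (D : Divisor.degZero (K := AlgebraicClosure ℚ) (F := modularFunctionFieldBar (N * q)))
    (u : ↥(s35_O A N q hcop)),
    Pic0.mk D = y ∧
    (∀ v : Place (AlgebraicClosure ℚ) (modularFunctionFieldBar (N * q)),
      (m • (D : Divisor (AlgebraicClosure ℚ) (modularFunctionFieldBar (N * q)))) v =
        v.ord (u : ↥(modularFunctionFieldBar (N * q)))) ∧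
    s35_redInf A N q hcop u = 1 ∧ s35_redZero A N q hcop u = 1

end Fermat.Agent.S35
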