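import Fermat.Agent.S35.N3Transport
import Fermat.Agent.S34.KronBasic
import Fermat.Agent.S34.GalKummerField
import Fermat.Agent.S34.GalRatExists

/-!
# P20 (S35), block N3: descent of `ker κ` to number fields (interface for [F1])

`s35_kerKappa_descend` : a class `y ∈ ker κ` has, over every large enough number field `K`, a
Kummer generator `u_K ∈ F_{Nq}(K)` lying in the semi-local ring `kronO` of the two Gauss
valuations over `Λ_K = lam A K`, with both reductions equal to `1` (residue map `lamRes A K`),
and with `K`-rational zeros and poles.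
-/

set_option autoImplicit false

namespace Fermat.Agent.S35

open ModularCurve AlgebraicCurve Fermat.Agent.S18 Fermat.Agent.S18.NumField Fermat.Agent.S34
  Fermat.Agent.S37 IntermediateField

local notation "Qb" => AlgebraicClosure ℚ

section Res

variable (A : ValuationSubring Qb) (K : IntermediateField ℚ Qb)

/-- The Gauss rings of `F_N(K)` for the two residue maps `lamRes`, `lamResA` coincide. -/
theorem s35n3x_mem_gaussV_lamRes_iff {N : ℕ}
    {f : ↥(laurentBaseChange ↥K (modularFunctionFieldFull N))} :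
    f ∈ GaussL.gaussV (lam A K).toSubring (lamRes A K)
        (laurentBaseChange ↥K (modularFunctionFieldFull N)) ↔
      f ∈ GaussL.gaussV (lam A K).toSubring (lamResA A K)
        (laurentBaseChange ↥K (modularFunctionFieldFull N)) := by
  constructor
  · rintro ⟨a, b, hb, hab⟩
    exact ⟨a, b, (coeffMap_lamResA_ne_zero_iff K b).mpr hb, hab⟩
  · rintro ⟨a, b, hb, hab⟩
    exact ⟨a, b, (coeffMap_lamResA_ne_zero_iff K b).mp hb, hab⟩

theorem s35n3x_gaussRed_lamResA_eq {N : ℕ}
    {f : ↥(laurentBaseChange ↥K (modularFunctionFieldFull N))}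
    (hf : f ∈ GaussL.gaussV (lam A K).toSubring (lamRes A K)
      (laurentBaseChange ↥K (modularFunctionFieldFull N))) :
    GaussL.gaussRed (lam A K).toSubring (lamResA A K)
        (laurentBaseChange ↥K (modularFunctionFieldFull N))
        ⟨f, (s35n3x_mem_gaussV_lamRes_iff A K).mp hf⟩ =
      coeffMap (lamResMap A K)
        (GaussL.gaussRed (lam A K).toSubring (lamRes A K)
          (laurentBaseChange ↥K (modularFunctionFieldFull N)) ⟨f, hf⟩) := by
  obtain ⟨a, b, hb, hab⟩ := hf
  have h1 := GaussL.gaussRed_mul_eq (laurentBaseChange ↥K (modularFunctionFieldFull N))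
    (⟨f, ⟨a, b, hb, hab⟩⟩ : ↥(GaussL.gaussV (lam A K).toSubring (lamRes A K)
      (laurentBaseChange ↥K (modularFunctionFieldFull N)))) a b hab
  have h2 := GaussL.gaussRed_mul_eq (laurentBaseChange ↥K (modularFunctionFieldFull N))
    (⟨f, (s35n3x_mem_gaussV_lamRes_iff A K).mp ⟨a, b, hb, hab⟩⟩ :
      ↥(GaussL.gaussV (lam A K).toSubring (lamResA A K)
      (laurentBaseChange ↥K (modularFunctionFieldFull N)))) a b hab
  have h3 := congrArg (coeffMap (lamResMap A K)) h1
  rw [map_mul, coeffMap_lamResMap_lamRes, coeffMap_lamResMap_lamRes] at h3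
  exact mul_right_cancel₀ ((coeffMap_lamResA_ne_zero_iff K b).mpr hb) (h2.trans h3.symm)

end Res

/-- **Descent of `ker κ`**: over every large enough number field `K` there is a Kummer generator
in `kronO` over `Λ_K` with both reductions `1` and `K`-rational zeros and poles. -/
theorem s35_kerKappa_descend {N q m : ℕ} [NeZero N] [NeZero q] (hq : q.Prime)
    (hcop : Nat.Coprime N q) (A : ValuationSubring Qb) (hA : A.LiesOverPrime q)
    {y : JZero (N * q)} (hy : s35_kerKappa A N q hcop m y) :
    ∃ (D : Divisor.degZero (K := Qb) (F := modularFunctionFieldBar (N * q)))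
      (K₀ : IntermediateField ℚ Qb), FiniteDimensional ℚ ↥K₀ ∧ Pic0.mk D = y ∧
      ∀ K : IntermediateField ℚ Qb, K₀ ≤ K → FiniteDimensional ℚ ↥K → ∀ ι : ↥K →+* ℂ,
        ∃ u : ↥(kronO (lam A K).toSubring (lamRes A K) ι N q hcop),
          (∀ v : Place Qb (modularFunctionFieldBar (N * q)),
            (m • (D : Divisor Qb (modularFunctionFieldBar (N * q)))) v =
              v.ord (s34galEmb (modularFunctionFieldFull (N * q)) K
                (u : ↥(laurentBaseChange ↥K (modularFunctionFieldFull (N * q)))))) ∧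
          kronRedInf (lam A K).toSubring (lamRes A K) ι N q hcop u = 1 ∧
          kronRedZero (lam A K).toSubring (lamRes A K) ι N q hcop u = 1 ∧
          (∀ P : Place Qb (modularFunctionFieldBar (N * q)),
            P.ord (s34galEmb (modularFunctionFieldFull (N * q)) K
                (u : ↥(laurentBaseChange ↥K (modularFunctionFieldFull (N * q))))) ≠ 0 →
              s34galRational (modularFunctionFieldFull (N * q)) K P) := by
  have hqF : Fact q.Prime := ⟨hq⟩
  obtain ⟨D, U, hD, hdiv, hUi, hU0⟩ := hy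
  have hUne : (U : ↥(modularFunctionFieldBar (N * q))) ≠ 0 := by
    intro h
    have h0 : U = 0 := Subtype.ext h
    rw [h0, map_zero] at hUi
    exact zero_ne_one hUi
  obtain ⟨K₁, hK₁, hemb⟩ := s34gal_exists_emb_eq (modularFunctionFieldFull (N * q))
    (U : ↥(modularFunctionFieldBar (N * q)))
  have hj : Transcendental Qb (S24.jL Qb (N * q)) := S24.transcendental_jL (N * q) Qb
  have : FiniteDimensional Qb⟮S24.jL Qb (N * q)⟯
      ↥(laurentBaseChange Qb (modularFunctionFieldFull (N * q))) :=
    S24.finiteDimensional_jL (N * q) Qb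
  have hfin : {P : Place Qb (modularFunctionFieldBar (N * q)) |
      P.ord (U : ↥(modularFunctionFieldBar (N * q))) ≠ 0}.Finite :=
    S24.finite_setOf_ord_ne_zero hj hUne
  obtain ⟨L, hL, -, hrat⟩ :=
    s34gal_exists_rational (modularFunctionFieldFull (N * q)) hj _ hfin
  refine ⟨D, K₁ ⊔ L, IntermediateField.finiteDimensional_sup K₁ L, hD, fun K hK hKfd ι => ?_⟩
  obtain ⟨u, hu⟩ := hemb K (le_trans le_sup_left hK)
  -- membership in the two Gauss rings
  have hu1A : u ∈ GaussL.gaussV (lam A K).toSubring (lamResA A K)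
      (laurentBaseChange ↥K (modularFunctionFieldFull (N * q))) := by
    apply s35n3_mem_gaussV_of_emb A K hA
    rw [hu]
    exact U.2.1
  have hWemb := s35n3_emb_W K N q hcop hq ι u
  rw [hu] at hWemb
  have hu2A : kronW ↥K ι N q hcop u ∈ GaussL.gaussV (lam A K).toSubring (lamResA A K)
      (laurentBaseChange ↥K (modularFunctionFieldFull (N * q))) := by
    apply s35n3_mem_gaussV_of_emb A K hA
    rw [hWemb]
    exact U.2.2
  have hu1 := (s35n3x_mem_gaussV_lamRes_iff A K).mpr hu1A
  have hu2 := (s35n3x_mem_gaussV_lamRes_iff A K).mpr hu2A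
  have hmem : u ∈ kronO (lam A K).toSubring (lamRes A K) ι N q hcop :=
    (mem_kronO_iff _ _ _ _ _ _).mpr ⟨hu1, hu2⟩
  have hone : coeffMap (lamResMap A K) (1 : LaurentSeries (IsLocalRing.ResidueField ↥(lam A K)))
      = 1 := map_one _
  refine ⟨⟨u, hmem⟩, ?_, ?_, ?_, ?_⟩
  · intro v
    rw [hu]
    exact hdiv v
  · have e1 := s35n3x_gaussRed_lamResA_eq A K hu1
    have e2 := s35n3_redA_emb A K hu1A
    have h1 : (⟨s34galEmb (modularFunctionFieldFull (N * q)) K u,
        s35n3_emb_mem_gaussA A K hu1A⟩ : ↥(gaussA A (N * q))) =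
        ⟨(U : ↥(modularFunctionFieldBar (N * q))), U.2.1⟩ := Subtype.ext hu
    have e3 : redA A (N * q) ⟨s34galEmb (modularFunctionFieldFull (N * q)) K u,
        s35n3_emb_mem_gaussA A K hu1A⟩ = 1 := (congrArg (redA A (N * q)) h1).trans hUi
    apply coeffMap_lamResMap_injective A K
    exact (e1.symm.trans (e2.symm.trans e3)).trans hone.symm
  · have e1 := s35n3x_gaussRed_lamResA_eq A K hu2
    have e2 := s35n3_redA_emb A K hu2A
    have h1 : (⟨s34galEmb (modularFunctionFieldFull (N * q)) K (kronW ↥K ι N q hcop u),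
        s35n3_emb_mem_gaussA A K hu2A⟩ : ↥(gaussA A (N * q))) =
        ⟨s35_W N q hcop (U : ↥(modularFunctionFieldBar (N * q))), U.2.2⟩ := Subtype.ext hWemb
    have e3 : redA A (N * q) ⟨s34galEmb (modularFunctionFieldFull (N * q)) K
        (kronW ↥K ι N q hcop u), s35n3_emb_mem_gaussA A K hu2A⟩ = 1 :=
      (congrArg (redA A (N * q)) h1).trans hU0
    apply coeffMap_lamResMap_injective A K
    exact (e1.symm.trans (e2.symm.trans e3)).trans hone.symm
  · intro P hP
    rw [hu] at hP
    exact s34galRational_mono _ (le_trans le_sup_right hK) (hrat P hP)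

end Fermat.Agent.S35
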