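import Fermat.Agent.S35.N3Defs
import Fermat.Agent.S34.KronBasic
import Fermat.Agent.S34.GalField
import Fermat.Agent.S34.DegK

/-!
# P20 (S35), block N3, leaf B: the norm and base change

* `s35n3_normAlong_beta_eq` : the norm along `β` is the norm along `α` after applying the
  Atkin–Lehner involution `W` (because `W ∘ β = α`);
* `s35n3_normAlong_alpha_emb` : the norm along `α : F_N → F_{Nq}` commutes with the coefficientwise
  embedding `F(K) → F(ℚ̄)` for every intermediate field `K ⊆ ℚ̄`.

The second statement rests on an abstract lemma (`s35n3b_norm_map`): for finite field extensions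
`F / E`, `F' / E'` of the same degree and compatible homomorphisms `e : E → E'`, `f : F → F'` such
that `F'` is generated over `E'` by the image of `f`, one has `e (N_{F/E} u) = N_{F'/E'} (f u)`.
-/

set_option autoImplicit false

namespace Fermat.Agent.S35

open ModularCurve AlgebraicCurve Fermat.Agent.S34

local notation "Qb" => AlgebraicClosure ℚ

/-- Abstract core: the norm commutes with a "base change" of finite field extensions of the same
degree, as soon as the big field upstairs is generated by the image of the big field downstairs. -/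
theorem s35n3b_norm_map {E F E' F' : Type*} [Field E] [Field F] [Field E'] [Field F']
    [Algebra E F] [Algebra E' F'] (e : E →+* E') (f : F →+* F')
    (hcomp : ∀ x : E, f (algebraMap E F x) = algebraMap E' F' (e x))
    (d : ℕ) (hd : 0 < d) (hrank : Module.finrank E F = d) (hrank' : Module.finrank E' F' = d)
    (hgen : IntermediateField.adjoin E' (Set.range f) = ⊤)
    (u : F) : e (Algebra.norm E u) = Algebra.norm E' (f u) := by
  classical
  have hfin : FiniteDimensional E F := Module.finite_of_finrank_pos (by rw [hrank]; exact hd)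
  have hfin' : FiniteDimensional E' F' := Module.finite_of_finrank_pos (by rw [hrank']; exact hd)
  let b : Module.Basis (Fin (Module.finrank E F)) E F := Module.finBasis E F
  -- images of elements of `F` are `E'`-combinations of the `f (b i)`
  have hsum : ∀ y : F, f y = ∑ i, e (b.repr y i) • f (b i) := by
    intro y
    conv_lhs => rw [← b.sum_repr y]
    rw [map_sum]
    refine Finset.sum_congr rfl fun i _ => ?_
    rw [Algebra.smul_def, map_mul, hcomp, Algebra.smul_def]
  -- the span of the `f (b i)` is everything
  have hadj : Algebra.adjoin E' (Set.range f) = ⊤ := by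
    have h1 := IntermediateField.adjoin_toSubalgebra_of_isAlgebraic (F := E')
      (S := Set.range f) (fun x _ => Algebra.IsAlgebraic.isAlgebraic x)
    rw [← h1, hgen, IntermediateField.top_toSubalgebra]
  have hspan : ⊤ ≤ Submodule.span E' (Set.range (fun i => f (b i))) := by
    have h2 : Subalgebra.toSubmodule (Algebra.adjoin E' (Set.range f)) =
        Submodule.span E' (Set.range f) := by
      rw [Algebra.adjoin_eq_span]
      congr 1
      have h3 : (Set.range f : Set F') =
          ((MonoidHom.mrange (f : F →* F') : Submonoid F') : Set F') := by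
        ext x
        simp only [Set.mem_range, SetLike.mem_coe, MonoidHom.mem_mrange]
        exact Iff.rfl
      rw [h3, Submonoid.closure_eq]
    rw [hadj, Algebra.top_toSubmodule] at h2
    rw [h2, Submodule.span_le]
    rintro _ ⟨y, rfl⟩
    rw [hsum y]
    exact Submodule.sum_mem _ fun i _ =>
      Submodule.smul_mem _ _ (Submodule.subset_span ⟨i, rfl⟩)
  have hcard : Fintype.card (Fin (Module.finrank E F)) = Module.finrank E' F' := by
    rw [Fintype.card_fin, hrank, hrank']
  let b' : Module.Basis (Fin (Module.finrank E F)) E' F' :=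
    basisOfTopLeSpanOfCardEqFinrank (fun i => f (b i)) hspan hcard
  have hb' : ∀ i, b' i = f (b i) := fun i => by
    simp only [b', coe_basisOfTopLeSpanOfCardEqFinrank]
  have hrepr : ∀ (y : F) (i : Fin (Module.finrank E F)), b'.repr (f y) i = e (b.repr y i) := by
    intro y i
    have h4 : f y = ∑ i, e (b.repr y i) • b' i := by
      rw [hsum y]
      exact Finset.sum_congr rfl fun i _ => by rw [hb']
    rw [h4, Module.Basis.repr_sum_self]
  rw [Algebra.norm_eq_matrix_det b u, Algebra.norm_eq_matrix_det b' (f u), RingHom.map_det]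
  congr 1
  ext i j
  rw [RingHom.mapMatrix_apply, Matrix.map_apply, Algebra.leftMulMatrix_eq_repr_mul,
    Algebra.leftMulMatrix_eq_repr_mul, hb', ← map_mul, hrepr]

/-- The abstract core, for algebra structures given by ring homomorphisms. -/
theorem s35n3b_norm_map_hom {E F E' F' : Type*} [Field E] [Field F] [Field E'] [Field F']
    (φ : E →+* F) (φ' : E' →+* F') (e : E →+* E') (f : F →+* F')
    (hcomp : ∀ x : E, f (φ x) = φ' (e x))
    (d : ℕ) (hd : 0 < d) (hrank : @Module.finrank E F _ _ φ.toAlgebra.toModule = d)
    (hrank' : @Module.finrank E' F' _ _ φ'.toAlgebra.toModule = d)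
    (hgen : @IntermediateField.adjoin E' _ F' _ φ'.toAlgebra (Set.range f) = ⊤)
    (u : F) :
    e (@Algebra.norm E F _ _ φ.toAlgebra u) = @Algebra.norm E' F' _ _ φ'.toAlgebra (f u) :=
  @s35n3b_norm_map E F E' F' _ _ _ _ φ.toAlgebra φ'.toAlgebra e f hcomp d hd hrank hrank' hgen u

section BaseChange

variable (K : IntermediateField ℚ Qb) (N q : ℕ) [NeZero N] [NeZero q]

/-- The coefficientwise embedding is compatible with the inclusions `α`. -/
theorem s35n3b_emb_alpha (g : ↥(laurentBaseChange ↥K (modularFunctionFieldFull N))) :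
    s34galEmb (modularFunctionFieldFull (N * q)) K (heckeAlphaBar ↥K N q g) =
      heckeAlphaBar Qb N q (s34galEmb (modularFunctionFieldFull N) K g) := by
  apply Subtype.ext
  rw [coe_s34galEmb, coe_heckeAlphaBar, coe_heckeAlphaBar, coe_s34galEmb]

/-- `F_{Nq}(ℚ̄)` is generated over `α (F_N(ℚ̄))` by the image of `F_{Nq}(K)`. -/
theorem s35n3b_adjoin_range_emb :
    @IntermediateField.adjoin ↥(laurentBaseChange Qb (modularFunctionFieldFull N)) _
      ↥(laurentBaseChange Qb (modularFunctionFieldFull (N * q))) _
      (heckeAlphaBar Qb N q).toRingHom.toAlgebra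
      (Set.range (s34galEmb (modularFunctionFieldFull (N * q)) K)) = ⊤ := by
  let iQ : Algebra ↥(laurentBaseChange Qb (modularFunctionFieldFull N))
      ↥(laurentBaseChange Qb (modularFunctionFieldFull (N * q))) :=
    (heckeAlphaBar Qb N q).toRingHom.toAlgebra
  have key : ∀ y : LaurentSeries Qb,
      y ∈ Subfield.closure (Set.range (algebraMap Qb (LaurentSeries Qb)) ∪
          (⇑(coeffEmb Qb) '' ((modularFunctionFieldFull (N * q) :
            IntermediateField ℚ (LaurentSeries ℚ)) : Set (LaurentSeries ℚ)))) →
      y ∈ (IntermediateField.adjoin ↥(laurentBaseChange Qb (modularFunctionFieldFull N))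
        (Set.range (s34galEmb (modularFunctionFieldFull (N * q)) K))).toSubfield.map
        (laurentBaseChange Qb (modularFunctionFieldFull (N * q))).toSubfield.subtype := by
    intro y hy
    refine (Subfield.closure_le.mpr ?_) hy
    rintro y (⟨c, rfl⟩ | ⟨z, hz, rfl⟩)
    · refine Subfield.mem_map.mpr ⟨algebraMap ↥(laurentBaseChange Qb (modularFunctionFieldFull N))
        ↥(laurentBaseChange Qb (modularFunctionFieldFull (N * q)))
        (algebraMap Qb ↥(laurentBaseChange Qb (modularFunctionFieldFull N)) c),
        IntermediateField.algebraMap_mem _ _, ?_⟩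
      rfl
    · refine Subfield.mem_map.mpr ⟨s34galEmb (modularFunctionFieldFull (N * q)) K
        ⟨coeffEmb ↥K z, coeffEmb_mem_laurentBaseChange ↥K hz⟩,
        IntermediateField.subset_adjoin _ _ ⟨_, rfl⟩, ?_⟩
      exact s34gal_coeffMap_coeffEmb (algebraMap ↥K Qb) z
  rw [eq_top_iff]
  intro x _
  obtain ⟨y, hy, hyx⟩ := Subfield.mem_map.mp (key x.1 x.2)
  have hxy : y = x := Subtype.ext hyx
  rw [← hxy]
  exact hy

/-- The norm along `α` commutes with the coefficientwise embedding `F(K) → F(ℚ̄)`. -/
theorem s35n3_normAlong_alpha_emb (hq : q.Prime) (hqN : ¬ q ∣ N)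
    (u : ↥(laurentBaseChange ↥K (modularFunctionFieldFull (N * q)))) :
    s34galEmb (modularFunctionFieldFull N) K (s35_normAlong (heckeAlphaBar ↥K N q) u) =
      s35_normAlong (heckeAlphaBar Qb N q) (s34galEmb (modularFunctionFieldFull (N * q)) K u) :=
  s35n3b_norm_map_hom (heckeAlphaBar ↥K N q).toRingHom (heckeAlphaBar Qb N q).toRingHom
    (s34galEmb (modularFunctionFieldFull N) K) (s34galEmb (modularFunctionFieldFull (N * q)) K)
    (s35n3b_emb_alpha K N q) (q + 1) (Nat.succ_pos q)
    (s34deg_finrankAlong_alpha ↥K N q hq hqN) (s34deg_finrankAlong_alpha Qb N q hq hqN)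
    (s35n3b_adjoin_range_emb K N q) u

end BaseChange

/-- The norm along `β` equals the norm along `α` of the Atkin–Lehner transform. -/
theorem s35n3_normAlong_beta_eq {L : Type*} [Field L] [Algebra ℚ L] (ι : L →+* ℂ) (M q : ℕ)
    [NeZero M] [NeZero q] (hcop : Nat.Coprime M q)
    (u : ↥(laurentBaseChange L (modularFunctionFieldFull (M * q)))) :
    s35_normAlong (heckeBetaBar L M q) u =
      s35_normAlong (heckeAlphaBar L M q) (kronW L ι M q hcop u) := by
  have h := @Algebra.norm_eq_of_equiv_equiv
    ↥(laurentBaseChange L (modularFunctionFieldFull M))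
    ↥(laurentBaseChange L (modularFunctionFieldFull (M * q)))
    ↥(laurentBaseChange L (modularFunctionFieldFull M))
    ↥(laurentBaseChange L (modularFunctionFieldFull (M * q))) _ _ _ _
    (algebraAlong (heckeBetaBar L M q)) (algebraAlong (heckeAlphaBar L M q))
    (RingEquiv.refl _) (kronW L ι M q hcop).toRingEquiv
    (RingHom.ext fun g => (kronW_beta L ι M q hcop g).symm) u
  exact h

end Fermat.Agent.S35
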