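import Fermat.Agent.S35.N3NormQbBAux
import Fermat.Agent.S35.N3NormKb

/-!
# P20 (S35), block N3, leaf D (second team): the norm formula over `ℚ̄`

For `u` in the semi-local ring `s35_O A N q hcop` of the two Gauss valuations of `F_{Nq}(ℚ̄)`, with
nonzero reductions at both, the norms of `u` along `α` and `β` down to `F_N(ℚ̄)` are Gauss-integral
and

* `(red (N_α u))(T^q) = (red_∞ u)(T^q) * (red_0 u)^q`   (`s35n3_norm_alpha_red_B`),
* `(red (N_β u))(T^q) = (red_0 u)(T^q) * (red_∞ u)^q`   (`s35n3_norm_beta_red_B`).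

The proofs are in `N3NormQbBAux.lean` (descent to a finite normal `K ⊆ ℚ̄`, with the norm formula
over the Gauss ring `A ∩ K` as a hypothesis); here that hypothesis is discharged by leaf A
(`s35n3_norm_alpha_Kb`, file `N3NormKb.lean`).
-/

set_option autoImplicit false

namespace Fermat.Agent.S35

open ModularCurve AlgebraicCurve Fermat.Agent.S18 Fermat.Agent.S18.NumField Fermat.Agent.S34
  Fermat.Agent.S28 Fermat.Agent.S28.FreeBasisAbs Fermat.Agent.S37

local notation "Qb" => AlgebraicClosure ℚ

section LeafD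

variable (A : ValuationSubring Qb) (N q : ℕ) [NeZero N] [NeZero q] (hcop : Nat.Coprime N q)

/-- Leaf A gives the hypothesis of the core statements. -/
theorem s35n3dB_leafA (hq : q.Prime) (hA : A.LiesOverPrime q) : s35n3dB_LeafA A N q hcop := by
  intro K π hΛ hfrob u hi h0
  have hchar : CharP (IsLocalRing.ResidueField ↥A) q := charP_residueField A hq hA
  exact s35n3_norm_alpha_Kb (barToComplex.comp (algebraMap ↥K Qb)) N q hcop hΛ hq hfrob u hi h0

theorem s35n3_norm_alpha_red_B (hq : q.Prime) (hA : A.LiesOverPrime q) (u : ↥(s35_O A N q hcop))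
    (hi : s35_redInf A N q hcop u ≠ 0) (h0 : s35_redZero A N q hcop u ≠ 0) :
    ∃ h : s35_normAlong (heckeAlphaBar Qb N q) (u : ↥(modularFunctionFieldBar (N * q))) ∈
        gaussA A N,
      qExpand (IsLocalRing.ResidueField ↥A) q (redA A N ⟨_, h⟩) =
        qExpand (IsLocalRing.ResidueField ↥A) q (s35_redInf A N q hcop u) *
          s35_redZero A N q hcop u ^ q :=
  s35n3dB_norm_alpha_red_core A N q hcop (s35n3dB_leafA A N q hcop hq hA) hq hA u hi h0

theorem s35n3_norm_beta_red_B (hq : q.Prime) (hA : A.LiesOverPrime q) (u : ↥(s35_O A N q hcop))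
    (hi : s35_redInf A N q hcop u ≠ 0) (h0 : s35_redZero A N q hcop u ≠ 0) :
    ∃ h : s35_normAlong (heckeBetaBar Qb N q) (u : ↥(modularFunctionFieldBar (N * q))) ∈
        gaussA A N,
      qExpand (IsLocalRing.ResidueField ↥A) q (redA A N ⟨_, h⟩) =
        qExpand (IsLocalRing.ResidueField ↥A) q (s35_redZero A N q hcop u) *
          s35_redInf A N q hcop u ^ q :=
  s35n3dB_norm_beta_red_core A N q hcop (s35n3dB_leafA A N q hcop hq hA) hq hA u hi h0

end LeafD

end Fermat.Agent.S35
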