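import Fermat.Agent.S35.N3Defs
import Fermat.Agent.S35.N3NormBC
import Fermat.Agent.S35.N3Transport
import Fermat.Agent.S34.KronBasic
import Fermat.Agent.S34.KronGalRed
import Fermat.Agent.S34.KronFrob
import Fermat.Agent.S34.GalField
import Fermat.Agent.S37.GaussADesc
import Fermat.Agent.S37.Frob
import Fermat.Agent.S37.FrobBasic
import Fermat.Agent.S37.FrobRes
import Fermat.Agent.S37.Kronecker
import Fermat.Agent.S18.NumField

/-!
# P20 (S35), block N3, leaf D (second team): the norm formula over `ℚ̄`, core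

For `u` in the semi-local ring `s35_O A N q hcop` of the two Gauss valuations of `F_{Nq}(ℚ̄)`, with
nonzero reductions at both, the norms of `u` along `α` and `β` down to `F_N(ℚ̄)` are Gauss-integral
and

* `(red (N_α u))(T^q) = (red_∞ u)(T^q) * (red_0 u)^q`   (`s35n3dB_norm_alpha_red_core`),
* `(red (N_β u))(T^q) = (red_0 u)(T^q) * (red_∞ u)^q`   (`s35n3dB_norm_beta_red_core`).

Proof: descend `u` to a finite normal `K ⊆ ℚ̄`, apply the formula over the Gauss ring `A ∩ K`
(leaf A), and come back with the base-change lemmas (leaves B and C).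

In this file the norm formula over the Gauss rings `A ∩ K` (the statement of leaf A, specialised)
is a hypothesis, `s35n3dB_LeafA`; the file `N3NormQbB.lean` discharges it.
-/

set_option autoImplicit false

namespace Fermat.Agent.S35

open ModularCurve AlgebraicCurve Fermat.Agent.S18 Fermat.Agent.S18.NumField Fermat.Agent.S34
  Fermat.Agent.S28 Fermat.Agent.S28.FreeBasisAbs Fermat.Agent.S37

local notation "Qb" => AlgebraicClosure ℚ

/-- Every number field inside `ℚ̄` lies in a finite normal one. -/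
theorem s35n3dB_exists_normal (K₀ : IntermediateField ℚ Qb) [FiniteDimensional ℚ ↥K₀] :
    ∃ K : IntermediateField ℚ Qb, K₀ ≤ K ∧ Normal ℚ ↥K ∧ FiniteDimensional ℚ ↥K := by
  have hn : Normal ℚ Qb :=
    @IsAlgClosure.normal ℚ Qb _ _ _ ⟨inferInstance, AlgebraicClosure.isAlgebraic ℚ⟩
  exact ⟨IntermediateField.normalClosure ℚ ↥K₀ Qb, K₀.le_normalClosure,
    normalClosure.normal ℚ ↥K₀ Qb, normalClosure.is_finiteDimensional ℚ ↥K₀ Qb⟩

/-- A Frobenius lift on a finite normal `K ⊆ ℚ̄`: an automorphism of `K` preserving `A ∩ K` and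
inducing the `q`-th power map on residues. -/
theorem s35n3dB_exists_frob (A : ValuationSubring Qb) (q : ℕ) (hq : q.Prime)
    (hA : A.LiesOverPrime q) (K : IntermediateField ℚ Qb) [Normal ℚ ↥K] :
    ∃ (φ : ↥K ≃ₐ[ℚ] ↥K) (hφΛ : ∀ a ∈ (lam A K).toSubring, φ a ∈ (lam A K).toSubring),
      ∀ a : ↥(lam A K).toSubring, lamResA A K ⟨φ a, hφΛ a a.2⟩ = lamResA A K a ^ q := by
  obtain ⟨σ, hσ⟩ := exists_isFrobeniusAt_of_liesOver A q hq hA
  have hdec : σ ∈ A.decompositionSubgroup ℚ := hσ.mem_decompositionSubgroup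
  have hcomm : ∀ a : ↥K, (((σ.restrictNormal ↥K) a : ↥K) : Qb) = σ (a : Qb) :=
    fun a => AlgEquiv.restrictNormal_commutes σ ↥K a
  have hmem : ∀ a ∈ (lam A K).toSubring, (σ.restrictNormal ↥K) a ∈ (lam A K).toSubring := by
    intro a ha
    have ha' : (a : Qb) ∈ A := mem_lam_iff.mp ha
    have h1 := apply_mem_of_mem_decomposition hdec ha'
    show (σ.restrictNormal ↥K) a ∈ lam A K
    rw [mem_lam_iff, hcomm]
    exact h1
  refine ⟨σ.restrictNormal ↥K, hmem, fun a => ?_⟩
  show IsLocalRing.residue ↥A (lamIncl A K ⟨(σ.restrictNormal ↥K) a, hmem a a.2⟩) =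
    IsLocalRing.residue ↥A (lamIncl A K a) ^ q
  refine residue_eq_pow_of_isFrobeniusAt hσ ?_
  rw [coe_lamIncl, coe_lamIncl]
  exact hcomm a

/-- The hypothesis `hfrob` of the norm formula over a Gauss ring, for `Λ = A ∩ K`, `K / ℚ` finite
normal: every reduction of a Gauss-integral function has a "Frobenius twist". -/
theorem s35n3dB_hfrob (A : ValuationSubring Qb) (N q : ℕ) [NeZero N] [NeZero q] (hq : q.Prime)
    (hA : A.LiesOverPrime q) (K : IntermediateField ℚ Qb) [Normal ℚ ↥K]
    (d : ↥(GaussL.gaussV (lam A K).toSubring (lamResA A K)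
      (laurentBaseChange ↥K (modularFunctionFieldFull N)))) :
    ∃ g : ↥(GaussL.gaussV (lam A K).toSubring (lamResA A K)
        (laurentBaseChange ↥K (modularFunctionFieldFull N))),
      qExpand (IsLocalRing.ResidueField ↥A) q (GaussL.gaussRed (lam A K).toSubring (lamResA A K)
          (laurentBaseChange ↥K (modularFunctionFieldFull N)) g) =
        GaussL.gaussRed (lam A K).toSubring (lamResA A K)
          (laurentBaseChange ↥K (modularFunctionFieldFull N)) d ^ q := by
  have hfact : Fact q.Prime := ⟨hq⟩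
  have hchar : CharP (IsLocalRing.ResidueField ↥A) q := charP_residueField A hq hA
  obtain ⟨φ, hφΛ, hφ⟩ := s35n3dB_exists_frob A q hq hA K
  have hφ' : ∀ a : ↥(lam A K).toSubring, lamResA A K ⟨φ a, hφΛ a a.2⟩ =
      frobenius (IsLocalRing.ResidueField ↥A) q (lamResA A K a) := by
    intro a
    rw [frobenius_def]
    exact hφ a
  have hmem := kron_ringAut_mem_gaussV (modularFunctionFieldFull N) φ hφΛ d.2
    (frobenius (IsLocalRing.ResidueField ↥A) q) hφ'
  have hred := kron_gaussRed_ringAut (modularFunctionFieldFull N) φ hφΛ d.2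
    (frobenius (IsLocalRing.ResidueField ↥A) q) hφ'
  refine ⟨⟨_, hmem⟩, ?_⟩
  rw [hred]
  exact (Fermat.Agent.S37.Kronecker.pow_char q _).symm

/-- The norm formula over the Gauss rings `A ∩ K` (`K ⊆ ℚ̄` an intermediate field): the statement
of leaf A of block N3, specialised to `L = K`, `Λ = A ∩ K`, `res = lamResA A K`. -/
def s35n3dB_LeafA (A : ValuationSubring Qb) (N q : ℕ) [NeZero N] [NeZero q]
    (hcop : Nat.Coprime N q) : Prop :=
  ∀ (K : IntermediateField ℚ Qb) (π : ↥K), IsGaussRing (lam A K).toSubring π (lamResA A K) →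
    (∀ d : ↥(GaussL.gaussV (lam A K).toSubring (lamResA A K)
        (laurentBaseChange ↥K (modularFunctionFieldFull N))),
      ∃ g : ↥(GaussL.gaussV (lam A K).toSubring (lamResA A K)
          (laurentBaseChange ↥K (modularFunctionFieldFull N))),
        qExpand (IsLocalRing.ResidueField ↥A) q (GaussL.gaussRed (lam A K).toSubring (lamResA A K)
            (laurentBaseChange ↥K (modularFunctionFieldFull N)) g) =
          GaussL.gaussRed (lam A K).toSubring (lamResA A K)
            (laurentBaseChange ↥K (modularFunctionFieldFull N)) d ^ q) →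
    ∀ u : ↥(kronO (lam A K).toSubring (lamResA A K) (barToComplex.comp (algebraMap ↥K Qb))
        N q hcop),
      kronRedInf (lam A K).toSubring (lamResA A K) (barToComplex.comp (algebraMap ↥K Qb))
          N q hcop u ≠ 0 →
      kronRedZero (lam A K).toSubring (lamResA A K) (barToComplex.comp (algebraMap ↥K Qb))
          N q hcop u ≠ 0 →
      ∃ h : s35_normAlong (heckeAlphaBar ↥K N q)
          (u : ↥(laurentBaseChange ↥K (modularFunctionFieldFull (N * q)))) ∈
            GaussL.gaussV (lam A K).toSubring (lamResA A K)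
              (laurentBaseChange ↥K (modularFunctionFieldFull N)),
        qExpand (IsLocalRing.ResidueField ↥A) q (GaussL.gaussRed (lam A K).toSubring
            (lamResA A K) (laurentBaseChange ↥K (modularFunctionFieldFull N)) ⟨_, h⟩) =
          qExpand (IsLocalRing.ResidueField ↥A) q (kronRedInf (lam A K).toSubring (lamResA A K)
              (barToComplex.comp (algebraMap ↥K Qb)) N q hcop u) *
            kronRedZero (lam A K).toSubring (lamResA A K) (barToComplex.comp (algebraMap ↥K Qb))
              N q hcop u ^ q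

section LeafD

variable (A : ValuationSubring Qb) (N q : ℕ) [NeZero N] [NeZero q] (hcop : Nat.Coprime N q)

theorem s35n3dB_norm_alpha_red_core (hLA : s35n3dB_LeafA A N q hcop) (hq : q.Prime)
    (hA : A.LiesOverPrime q) (u : ↥(s35_O A N q hcop))
    (hi : s35_redInf A N q hcop u ≠ 0) (h0 : s35_redZero A N q hcop u ≠ 0) :
    ∃ h : s35_normAlong (heckeAlphaBar Qb N q) (u : ↥(modularFunctionFieldBar (N * q))) ∈
        gaussA A N,
      qExpand (IsLocalRing.ResidueField ↥A) q (redA A N ⟨_, h⟩) =
        qExpand (IsLocalRing.ResidueField ↥A) q (s35_redInf A N q hcop u) *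
          s35_redZero A N q hcop u ^ q := by
  have hfact : Fact q.Prime := ⟨hq⟩
  have hchar : CharP (IsLocalRing.ResidueField ↥A) q := charP_residueField A hq hA
  have hqN : ¬ q ∣ N := (Nat.Prime.coprime_iff_not_dvd hq).1 hcop.symm
  -- Step 1: descend `u` to a finite normal `K`
  obtain ⟨K₀, hK₀, hK₀u⟩ := s34gal_exists_emb_eq (modularFunctionFieldFull (N * q))
    (u : ↥(modularFunctionFieldBar (N * q)))
  obtain ⟨K, hK₀K, hKn, hKf⟩ := s35n3dB_exists_normal K₀
  obtain ⟨uK, huK⟩ := hK₀u K hK₀K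
  -- Step 2: the Gauss ring `Λ = A ∩ K`
  obtain ⟨ϖ, hϖ⟩ := exists_irreducible_lam (A := A) (K := K) hA
  have hΛ : IsGaussRing (lam A K).toSubring (ϖ : ↥K) (lamResA A K) := isGaussRing_lam_resA hA hϖ
  -- Step 3: `uK` lies in the semi-local ring over `Λ`, with the same reductions
  have hu1 : s34galEmb (modularFunctionFieldFull (N * q)) K uK ∈ gaussA A (N * q) := by
    rw [huK]
    exact u.2.1
  have hWemb : s34galEmb (modularFunctionFieldFull (N * q)) K
      (kronW ↥K (barToComplex.comp (algebraMap ↥K Qb)) N q hcop uK) =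
      s35_W N q hcop (u : ↥(modularFunctionFieldBar (N * q))) := by
    rw [s35n3_emb_W K N q hcop hq, huK]
  have hu2 : s34galEmb (modularFunctionFieldFull (N * q)) K
      (kronW ↥K (barToComplex.comp (algebraMap ↥K Qb)) N q hcop uK) ∈ gaussA A (N * q) := by
    rw [hWemb]
    exact u.2.2
  have ha : uK ∈ GaussL.gaussV (lam A K).toSubring (lamResA A K)
      (laurentBaseChange ↥K (modularFunctionFieldFull (N * q))) :=
    s35n3_mem_gaussV_of_emb A K hA hu1
  have hb : kronW ↥K (barToComplex.comp (algebraMap ↥K Qb)) N q hcop uK ∈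
      GaussL.gaussV (lam A K).toSubring (lamResA A K)
        (laurentBaseChange ↥K (modularFunctionFieldFull (N * q))) :=
    s35n3_mem_gaussV_of_emb A K hA hu2
  have huKO : uK ∈ kronO (lam A K).toSubring (lamResA A K)
      (barToComplex.comp (algebraMap ↥K Qb)) N q hcop :=
    (mem_kronO_iff (lam A K).toSubring (lamResA A K) (barToComplex.comp (algebraMap ↥K Qb))
      N q hcop).2 ⟨ha, hb⟩
  have hInf : kronRedInf (lam A K).toSubring (lamResA A K)
      (barToComplex.comp (algebraMap ↥K Qb)) N q hcop ⟨uK, huKO⟩ = s35_redInf A N q hcop u := by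
    have e1 := s35n3_redA_emb A K ha
    have e2 : (⟨s34galEmb (modularFunctionFieldFull (N * q)) K uK,
        s35n3_emb_mem_gaussA A K ha⟩ : ↥(gaussA A (N * q))) =
        ⟨(u : ↥(modularFunctionFieldBar (N * q))), u.2.1⟩ := Subtype.ext huK
    rw [e2] at e1
    exact e1.symm
  have hZero : kronRedZero (lam A K).toSubring (lamResA A K)
      (barToComplex.comp (algebraMap ↥K Qb)) N q hcop ⟨uK, huKO⟩ = s35_redZero A N q hcop u := by
    have e1 := s35n3_redA_emb A K hb
    have e2 : (⟨s34galEmb (modularFunctionFieldFull (N * q)) K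
          (kronW ↥K (barToComplex.comp (algebraMap ↥K Qb)) N q hcop uK),
        s35n3_emb_mem_gaussA A K hb⟩ : ↥(gaussA A (N * q))) =
        ⟨s35_W N q hcop (u : ↥(modularFunctionFieldBar (N * q))), u.2.2⟩ := Subtype.ext hWemb
    rw [e2] at e1
    exact e1.symm
  -- Steps 4 and 5: the formula over `K` (leaf A), then back to `ℚ̄`
  have hiK : kronRedInf (lam A K).toSubring (lamResA A K)
      (barToComplex.comp (algebraMap ↥K Qb)) N q hcop ⟨uK, huKO⟩ ≠ 0 := by
    rw [hInf]
    exact hi
  have h0K : kronRedZero (lam A K).toSubring (lamResA A K)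
      (barToComplex.comp (algebraMap ↥K Qb)) N q hcop ⟨uK, huKO⟩ ≠ 0 := by
    rw [hZero]
    exact h0
  obtain ⟨hν, hform⟩ := hLA K (ϖ : ↥K) hΛ (s35n3dB_hfrob A N q hq hA K) ⟨uK, huKO⟩ hiK h0K
  have hB := s35n3_normAlong_alpha_emb K N q hq hqN uK
  rw [huK] at hB
  have hmemN := s35n3_emb_mem_gaussA A K hν
  have hredN := s35n3_redA_emb A K hν
  have hmem : s35_normAlong (heckeAlphaBar Qb N q) (u : ↥(modularFunctionFieldBar (N * q))) ∈
      gaussA A N := by
    rw [← hB]
    exact hmemN
  refine ⟨hmem, ?_⟩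
  have e3 : (⟨s35_normAlong (heckeAlphaBar Qb N q) (u : ↥(modularFunctionFieldBar (N * q))),
      hmem⟩ : ↥(gaussA A N)) =
      ⟨s34galEmb (modularFunctionFieldFull N) K (s35_normAlong (heckeAlphaBar ↥K N q) uK),
        hmemN⟩ := Subtype.ext hB.symm
  rw [e3, hredN, ← hInf, ← hZero]
  exact hform

theorem s35n3dB_norm_beta_red_core (hLA : s35n3dB_LeafA A N q hcop) (hq : q.Prime)
    (hA : A.LiesOverPrime q) (u : ↥(s35_O A N q hcop))
    (hi : s35_redInf A N q hcop u ≠ 0) (h0 : s35_redZero A N q hcop u ≠ 0) :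
    ∃ h : s35_normAlong (heckeBetaBar Qb N q) (u : ↥(modularFunctionFieldBar (N * q))) ∈
        gaussA A N,
      qExpand (IsLocalRing.ResidueField ↥A) q (redA A N ⟨_, h⟩) =
        qExpand (IsLocalRing.ResidueField ↥A) q (s35_redZero A N q hcop u) *
          s35_redInf A N q hcop u ^ q := by
  have hW : s35_W N q hcop (u : ↥(modularFunctionFieldBar (N * q))) ∈ s35_O A N q hcop :=
    kronW_mem_kronO A.toSubring (resA A) barToComplex N q hcop u.2
  have e := s35n3_normAlong_beta_eq barToComplex N q hcop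
    (u : ↥(modularFunctionFieldBar (N * q)))
  have hi' : s35_redInf A N q hcop ⟨_, hW⟩ = s35_redZero A N q hcop u := rfl
  have h0' : s35_redZero A N q hcop ⟨_, hW⟩ = s35_redInf A N q hcop u := by
    rw [kronRedZero_apply, kronRedInf_apply]
    congr 1
    exact Subtype.ext (kronW_kronW Qb barToComplex N q hcop _)
  obtain ⟨h, hform⟩ := s35n3dB_norm_alpha_red_core A N q hcop hLA hq hA ⟨_, hW⟩
    (by rw [hi']; exact h0) (by rw [h0']; exact hi)
  have hmem : s35_normAlong (heckeBetaBar Qb N q) (u : ↥(modularFunctionFieldBar (N * q))) ∈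
      gaussA A N := by
    rw [e]
    exact h
  refine ⟨hmem, ?_⟩
  have e3 : (⟨s35_normAlong (heckeBetaBar Qb N q) (u : ↥(modularFunctionFieldBar (N * q))),
      hmem⟩ : ↥(gaussA A N)) =
      ⟨s35_normAlong (heckeAlphaBar Qb N q)
        (s35_W N q hcop (u : ↥(modularFunctionFieldBar (N * q)))), h⟩ := Subtype.ext e
  rw [e3, hform, hi', h0']

end LeafD

end Fermat.Agent.S35
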