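import Fermat.Agent.S35.N3NormaliseAux
import Fermat.Agent.S35.N3Sep

/-!
# P20 (S35), block N3, leaf E2: normalised Kummer pairs

Every `m`-torsion class `x ∈ J₀(N q)` has a Kummer pair `(D, u)` (`[D] = x`, `m D = div u`) whose
generator `u` lies in the semi-local ring `s35_O` of the two Gauss valuations `w_∞`, `w_0` over
`A` and is a unit at both of them.  (The construction is in `N3NormaliseAux.lean`; here it is
combined with the separating element of leaf E1.)
-/

set_option autoImplicit false

namespace Fermat.Agent.S35

open ModularCurve AlgebraicCurve Fermat.Agent.S18 Fermat.Agent.S34 Fermat.Agent.S37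

local notation "Qb" => AlgebraicClosure ℚ

section LeafE

variable (A : ValuationSubring Qb) (N q : ℕ) [NeZero N] [NeZero q] (hcop : Nat.Coprime N q)

theorem s35n3_exists_kummer_unit (hq : q.Prime) (hA : A.LiesOverPrime q) {m : ℕ} (hm : m ≠ 0)
    (x : JZero (N * q)) (hx : m • x = 0) :
    ∃ (D : Divisor.degZero (K := Qb) (F := modularFunctionFieldBar (N * q)))
      (u : ↥(s35_O A N q hcop)),
      Pic0.mk D = x ∧
      (∀ v : Place Qb (modularFunctionFieldBar (N * q)),
        (m • (D : Divisor Qb (modularFunctionFieldBar (N * q)))) v =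
          v.ord (u : ↥(modularFunctionFieldBar (N * q)))) ∧
      s35_redInf A N q hcop u ≠ 0 ∧ s35_redZero A N q hcop u ≠ 0 :=
  s35n3n_exists_kummer_unit_of_sep (s35n3_sep_W_eq A N q hcop hq hA) hq hA hm x hx

end LeafE

end Fermat.Agent.S35
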