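import Fermat.Agent.S35.N3Defs
import Fermat.Agent.S34.KronBasic
import Fermat.Agent.S34.GalPic
import Fermat.Agent.S37.GaussADesc
import Fermat.Agent.S37.Hecke

/-!
# P20 (S35), block N3, leaf E2 (auxiliary file): normalised Kummer pairs from a separating element

Level `N q`, `q ∤ N`, over `ℚ̄` with a valuation ring `A` lying over `q`.  A *Gauss unit* is an
element of the Gauss valuation ring `gaussA A (N q)` with nonzero reduction.

* `s35n3n_HasSep A N q hcop` : the separating datum (the conclusion of `s35n3_sep_W_eq` of leaf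
  E1): `e ∈ s35_O` with `e ≡ 1` at `w_∞`, `e ≡ 0` at `w_0` and `W e = q · e₂`, `e₂` Gauss-integral;
* `s35n3n_exists_pow_div` : for `t ≠ 0` in `ℚ̄` some `q ^ n / t` lies in the maximal ideal of `A`;
* `s35n3n_exists_g` : given a separating datum, for every nonzero constant `γ` there is a Gauss
  unit `g` such that `γ · W g` is a Gauss unit;
* `s35n3n_kummer_scale` : changing a Kummer pair `(D, u)` to `(D + div g, c · u · g ^ m)`;
* `s35n3n_exists_kummer_unit_of_sep` : given a separating datum, every `m`-torsion class of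
  `J₀(N q)` has a Kummer pair `(D, u)` with `u ∈ s35_O` a unit at both Gauss valuations.
-/

set_option autoImplicit false

namespace Fermat.Agent.S35

open ModularCurve AlgebraicCurve Fermat.Agent.S18 Fermat.Agent.S34 Fermat.Agent.S37

local notation "Qb" => AlgebraicClosure ℚ

/-! ### Gauss units -/

/-- "Gauss unit": an element of the Gauss valuation ring over `A` with nonzero reduction. -/
def s35n3n_IsGU (A : ValuationSubring Qb) {M : ℕ} (z : ↥(modularFunctionFieldBar M)) : Prop :=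
  ∃ h : z ∈ gaussA A M, redA A M ⟨z, h⟩ ≠ 0

theorem s35n3n_isGU_coe {A : ValuationSubring Qb} {M : ℕ} (G : ↥(gaussA A M))
    (h : redA A M G ≠ 0) : s35n3n_IsGU A (G : ↥(modularFunctionFieldBar M)) :=
  ⟨G.2, h⟩

theorem s35n3n_isGU_mul {A : ValuationSubring Qb} {M : ℕ} {z w : ↥(modularFunctionFieldBar M)}
    (hz : s35n3n_IsGU A z) (hw : s35n3n_IsGU A w) : s35n3n_IsGU A (z * w) := by
  obtain ⟨hz1, hz2⟩ := hz
  obtain ⟨hw1, hw2⟩ := hw
  have h := s35n3n_isGU_coe ((⟨z, hz1⟩ : ↥(gaussA A M)) * ⟨w, hw1⟩)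
    (by rw [map_mul]; exact mul_ne_zero hz2 hw2)
  exact h

theorem s35n3n_isGU_pow {A : ValuationSubring Qb} {M : ℕ} {z : ↥(modularFunctionFieldBar M)}
    (hz : s35n3n_IsGU A z) (m : ℕ) : s35n3n_IsGU A (z ^ m) := by
  obtain ⟨hz1, hz2⟩ := hz
  have h := s35n3n_isGU_coe ((⟨z, hz1⟩ : ↥(gaussA A M)) ^ m)
    (by rw [map_pow]; exact pow_ne_zero m hz2)
  exact h

theorem s35n3n_isGU_ne_zero {A : ValuationSubring Qb} {M : ℕ} {z : ↥(modularFunctionFieldBar M)}
    (hz : s35n3n_IsGU A z) : z ≠ 0 := by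
  obtain ⟨hz1, hz2⟩ := hz
  rintro rfl
  exact hz2 (map_zero (redA A M))

/-! ### Constants: some `q ^ n / t` lies in the maximal ideal of `A` -/

theorem s35n3n_exists_pow_div (A : ValuationSubring Qb) {q : ℕ} (hq : q.Prime)
    (hA : A.LiesOverPrime q) (t : Qb) (ht : t ≠ 0) :
    ∃ n : ℕ, ∃ h : (q : Qb) ^ n / t ∈ A,
      IsLocalRing.residue ↥A ⟨(q : Qb) ^ n / t, h⟩ = 0 := by
  have : Fact q.Prime := ⟨hq⟩
  have halg : IsAlgebraic ℤ t⁻¹ :=
    (IsFractionRing.isAlgebraic_iff ℤ ℚ Qb).mpr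
      ((AlgebraicClosure.isAlgebraic ℚ).isAlgebraic t⁻¹)
  obtain ⟨d, hd0, hd⟩ := halg.exists_integral_multiple
  have h1 : (d : Qb) * t⁻¹ ∈ A := by
    have h := NumField.mem_of_isIntegral_int (A := A) hd
    rwa [zsmul_eq_mul] at h
  obtain ⟨a, d', hd', hdd⟩ :=
    Nat.exists_eq_pow_mul_and_not_dvd (Int.natAbs_ne_zero.mpr hd0) q hq.ne_one
  have h2 : ((d' : ℕ) : Qb)⁻¹ ∈ A := NumField.natCast_inv_mem hA hd'
  have hd'0 : ((d' : ℕ) : Qb) ≠ 0 := by
    intro h0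
    have h00 : d' = 0 := by exact_mod_cast h0
    exact hd' (h00 ▸ dvd_zero q)
  have h3 : ((d.natAbs : ℕ) : Qb) * t⁻¹ ∈ A := by
    rcases Int.natAbs_eq d with h | h
    · have h' : ((d.natAbs : ℕ) : Qb) = (d : Qb) := by
        conv_rhs => rw [h]
        rw [Int.cast_natCast]
      rw [h']
      exact h1
    · have h' : ((d.natAbs : ℕ) : Qb) = -(d : Qb) := by
        conv_rhs => rw [h]
        rw [Int.cast_neg, Int.cast_natCast, neg_neg]
      rw [h', neg_mul]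
      exact A.neg_mem _ h1
  have h4 : (q : Qb) ^ a / t ∈ A := by
    have h : (q : Qb) ^ a / t = ((d.natAbs : ℕ) : Qb) * t⁻¹ * ((d' : ℕ) : Qb)⁻¹ := by
      rw [hdd, Nat.cast_mul, Nat.cast_pow]
      field_simp
    rw [h]
    exact A.mul_mem _ _ h3 h2
  obtain ⟨hqA, hqmax⟩ := ValuationSubring.mem_nonunits_iff_exists_mem_maximalIdeal.mp hA
  have hn : (q : Qb) ^ (a + 1) / t ∈ A := by
    have h : (q : Qb) ^ (a + 1) / t = (q : Qb) * ((q : Qb) ^ a / t) := by ring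
    rw [h]
    exact A.mul_mem _ _ hqA h4
  refine ⟨a + 1, hn, ?_⟩
  have h5 : (⟨(q : Qb) ^ (a + 1) / t, hn⟩ : ↥A) = ⟨(q : Qb), hqA⟩ * ⟨(q : Qb) ^ a / t, h4⟩ := by
    apply Subtype.ext
    show (q : Qb) ^ (a + 1) / t = (q : Qb) * ((q : Qb) ^ a / t)
    ring
  rw [h5, map_mul, (IsLocalRing.residue_eq_zero_iff _).mpr hqmax, zero_mul]

/-! ### The separating datum and the normalising function -/

section

variable (A : ValuationSubring Qb) (N q : ℕ) [NeZero N] [NeZero q] (hcop : Nat.Coprime N q)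

/-- The separating datum (the conclusion of `s35n3_sep_W_eq`, leaf E1): an element `e` of the
semi-local ring with `e ≡ 1` at `w_∞`, `e ≡ 0` at `w_0` and `W e = q · e₂` with `e₂`
Gauss-integral. -/
def s35n3n_HasSep : Prop :=
  ∃ (e : ↥(s35_O A N q hcop)) (e₂ : ↥(modularFunctionFieldBar (N * q))),
    e₂ ∈ gaussA A (N * q) ∧
    s35_redInf A N q hcop e = 1 ∧ s35_redZero A N q hcop e = 0 ∧
    s35_W N q hcop (e : ↥(modularFunctionFieldBar (N * q))) =
      algebraMap Qb ↥(modularFunctionFieldBar (N * q)) (q : Qb) * e₂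

variable {A N q hcop}

/-- The key construction, for a constant `t ∈ A`: a Gauss unit `g` with `t⁻¹ · W g` a Gauss
unit. -/
theorem s35n3n_exists_of_mem (hsep : s35n3n_HasSep A N q hcop) (hq : q.Prime)
    (hA : A.LiesOverPrime q) (t : Qb) (ht : t ≠ 0) (htA : t ∈ A) :
    ∃ g : ↥(modularFunctionFieldBar (N * q)), s35n3n_IsGU A g ∧
      s35n3n_IsGU A
        (algebraMap Qb ↥(modularFunctionFieldBar (N * q)) t⁻¹ * s35_W N q hcop g) := by
  obtain ⟨e, e₂, he₂, hinf, hzero, hW⟩ := hsep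
  obtain ⟨n₀, hn₀, hres₀⟩ := s35n3n_exists_pow_div A hq hA t ht
  have hqA : (q : Qb) ∈ A := natCast_mem A q
  have hn : (q : Qb) ^ (n₀ + 1) / t ∈ A := by
    have h1 : (q : Qb) ^ (n₀ + 1) / t = (q : Qb) * ((q : Qb) ^ n₀ / t) := by ring
    rw [h1]
    exact A.mul_mem _ _ hqA hn₀
  have hres : IsLocalRing.residue ↥A ⟨(q : Qb) ^ (n₀ + 1) / t, hn⟩ = 0 := by
    have h1 : (⟨(q : Qb) ^ (n₀ + 1) / t, hn⟩ : ↥A) =
        ⟨(q : Qb), hqA⟩ * ⟨(q : Qb) ^ n₀ / t, hn₀⟩ := by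
      apply Subtype.ext
      show (q : Qb) ^ (n₀ + 1) / t = (q : Qb) * ((q : Qb) ^ n₀ / t)
      ring
    rw [h1, map_mul, hres₀, mul_zero]
  -- the relevant elements of the Gauss ring
  obtain ⟨E, hE, hredE⟩ : ∃ E : ↥(gaussA A (N * q)),
      (E : ↥(modularFunctionFieldBar (N * q))) = (e : ↥(modularFunctionFieldBar (N * q))) ∧
        redA A (N * q) E = 1 :=
    ⟨⟨(e : ↥(modularFunctionFieldBar (N * q))), e.2.1⟩, rfl, hinf⟩
  obtain ⟨E', hE', hredE'⟩ : ∃ E' : ↥(gaussA A (N * q)),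
      (E' : ↥(modularFunctionFieldBar (N * q))) =
          s35_W N q hcop (e : ↥(modularFunctionFieldBar (N * q))) ∧
        redA A (N * q) E' = 0 :=
    ⟨⟨s35_W N q hcop (e : ↥(modularFunctionFieldBar (N * q))), e.2.2⟩, rfl, hzero⟩
  obtain ⟨Tt, hTt⟩ : ∃ Tt : ↥(gaussA A (N * q)),
      (Tt : ↥(modularFunctionFieldBar (N * q))) =
        algebraMap Qb ↥(modularFunctionFieldBar (N * q)) t :=
    ⟨⟨_, algebraMap_mem_gaussA htA⟩, rfl⟩
  obtain ⟨Cn, hCn, hredCn⟩ : ∃ Cn : ↥(gaussA A (N * q)),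
      (Cn : ↥(modularFunctionFieldBar (N * q))) =
          algebraMap Qb ↥(modularFunctionFieldBar (N * q)) ((q : Qb) ^ (n₀ + 1) / t) ∧
        redA A (N * q) Cn = 0 :=
    ⟨⟨_, algebraMap_mem_gaussA hn⟩, rfl, by rw [redA_algebraMap hn, hres, map_zero]⟩
  obtain ⟨E₂, hE₂⟩ : ∃ E₂ : ↥(gaussA A (N * q)),
      (E₂ : ↥(modularFunctionFieldBar (N * q))) = e₂ := ⟨⟨e₂, he₂⟩, rfl⟩
  have hG : redA A (N * q) (E ^ (n₀ + 1) + Tt * (1 - E ^ (n₀ + 1))) = 1 := by
    rw [map_add, map_mul, map_sub, map_pow, map_one, hredE, one_pow, sub_self, mul_zero,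
      add_zero]
  have hH : redA A (N * q) (Cn * E₂ ^ (n₀ + 1) + (1 - E' ^ (n₀ + 1))) = 1 := by
    rw [map_add, map_mul, map_sub, map_pow, map_pow, map_one, hredCn, hredE', zero_mul,
      zero_pow (Nat.succ_ne_zero n₀), sub_zero, zero_add]
  refine ⟨((E ^ (n₀ + 1) + Tt * (1 - E ^ (n₀ + 1)) : ↥(gaussA A (N * q))) :
      ↥(modularFunctionFieldBar (N * q))), s35n3n_isGU_coe _ (by rw [hG]; exact one_ne_zero), ?_⟩
  have ha0 : algebraMap Qb ↥(modularFunctionFieldBar (N * q)) t ≠ 0 := by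
    rw [Ne, map_eq_zero]
    exact ht
  have key : algebraMap Qb ↥(modularFunctionFieldBar (N * q)) t⁻¹ *
      s35_W N q hcop ((E ^ (n₀ + 1) + Tt * (1 - E ^ (n₀ + 1)) : ↥(gaussA A (N * q))) :
        ↥(modularFunctionFieldBar (N * q))) =
      ((Cn * E₂ ^ (n₀ + 1) + (1 - E' ^ (n₀ + 1)) : ↥(gaussA A (N * q))) :
        ↥(modularFunctionFieldBar (N * q))) := by
    have h1 : ((E ^ (n₀ + 1) + Tt * (1 - E ^ (n₀ + 1)) : ↥(gaussA A (N * q))) :
        ↥(modularFunctionFieldBar (N * q))) =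
        (e : ↥(modularFunctionFieldBar (N * q))) ^ (n₀ + 1) +
          algebraMap Qb ↥(modularFunctionFieldBar (N * q)) t *
            (1 - (e : ↥(modularFunctionFieldBar (N * q))) ^ (n₀ + 1)) := by
      rw [← hE, ← hTt]
      rfl
    have h2 : ((Cn * E₂ ^ (n₀ + 1) + (1 - E' ^ (n₀ + 1)) : ↥(gaussA A (N * q))) :
        ↥(modularFunctionFieldBar (N * q))) =
        algebraMap Qb ↥(modularFunctionFieldBar (N * q)) ((q : Qb) ^ (n₀ + 1) / t) *
            e₂ ^ (n₀ + 1) +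
          (1 - (s35_W N q hcop (e : ↥(modularFunctionFieldBar (N * q)))) ^ (n₀ + 1)) := by
      rw [← hE', ← hCn, ← hE₂]
      rfl
    rw [h1, h2, map_add, map_mul, map_sub, map_pow, map_one, AlgEquiv.commutes, hW, map_div₀,
      map_pow, map_inv₀]
    field_simp
    ring
  rw [key]
  exact s35n3n_isGU_coe _ (by rw [hH]; exact one_ne_zero)

/-- For every nonzero constant `γ` there is a Gauss unit `g` with `γ · W g` a Gauss unit. -/
theorem s35n3n_exists_g (hsep : s35n3n_HasSep A N q hcop) (hq : q.Prime)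
    (hA : A.LiesOverPrime q) (γ : Qb) (hγ : γ ≠ 0) :
    ∃ g : ↥(modularFunctionFieldBar (N * q)), s35n3n_IsGU A g ∧
      s35n3n_IsGU A
        (algebraMap Qb ↥(modularFunctionFieldBar (N * q)) γ * s35_W N q hcop g) := by
  rcases A.mem_or_inv_mem γ with h | h
  · obtain ⟨g', hg', hg''⟩ := s35n3n_exists_of_mem hsep hq hA γ hγ h
    refine ⟨algebraMap Qb ↥(modularFunctionFieldBar (N * q)) γ⁻¹ * s35_W N q hcop g', hg'', ?_⟩
    have h1 : algebraMap Qb ↥(modularFunctionFieldBar (N * q)) γ *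
        s35_W N q hcop (algebraMap Qb ↥(modularFunctionFieldBar (N * q)) γ⁻¹ *
          s35_W N q hcop g') = g' := by
      rw [map_mul, AlgEquiv.commutes, kronW_kronW, ← mul_assoc, ← map_mul, mul_inv_cancel₀ hγ,
        map_one, one_mul]
    rw [h1]
    exact hg'
  · obtain ⟨g, hg, hg'⟩ := s35n3n_exists_of_mem hsep hq hA γ⁻¹ (inv_ne_zero hγ) h
    rw [inv_inv] at hg'
    exact ⟨g, hg, hg'⟩

end

/-! ### Changing a Kummer pair -/

/-- From a Kummer pair `(D, u)` (`m D = div u`) to the Kummer pair `(D + div g, c · u · g ^ m)`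
of the same class. -/
theorem s35n3n_kummer_scale {M : ℕ} [NeZero M] {m : ℕ}
    (D : Divisor.degZero (K := Qb) (F := modularFunctionFieldBar M))
    (u g : ↥(modularFunctionFieldBar M)) (c : Qb) (hu : u ≠ 0) (hg : g ≠ 0) (hc : c ≠ 0)
    (h : ∀ v : Place Qb (modularFunctionFieldBar M),
      (m • (D : Divisor Qb (modularFunctionFieldBar M))) v = v.ord u) :
    ∃ D' : Divisor.degZero (K := Qb) (F := modularFunctionFieldBar M),
      Pic0.mk D' = Pic0.mk D ∧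
      ∀ v : Place Qb (modularFunctionFieldBar M),
        (m • (D' : Divisor Qb (modularFunctionFieldBar M))) v =
          v.ord (algebraMap Qb ↥(modularFunctionFieldBar M) c * u * g ^ m) := by
  obtain ⟨E, hE, hE0⟩ := HasPrincipalDivisors.exists_divisor (K := Qb) g hg
  have hEmk : Pic0.mk (⟨E, hE0⟩ : Divisor.degZero (K := Qb) (F := modularFunctionFieldBar M)) =
      0 := by
    refine (QuotientAddGroup.eq_zero_iff _).mpr ?_
    rw [AddSubgroup.mem_addSubgroupOf]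
    exact ⟨g, hg, hE⟩
  refine ⟨D + ⟨E, hE0⟩, ?_, ?_⟩
  · rw [Pic0.mk_add, hEmk, add_zero]
  · intro v
    have hc' : algebraMap Qb ↥(modularFunctionFieldBar M) c ≠ 0 := by
      rw [Ne, map_eq_zero]
      exact hc
    have hpow : v.ord (g ^ m) = (m : ℤ) * v.ord g := by
      rw [← zpow_natCast, v.ord_zpow]
    rw [v.ord_mul (mul_ne_zero hc' hu) (pow_ne_zero m hg), v.ord_mul hc' hu,
      Fermat.Agent.S24.PlacesBasic.ord_algebraMap, zero_add, ← h v, hpow, ← hE v]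
    show (m • ((D : Divisor Qb (modularFunctionFieldBar M)) + E)) v = _
    rw [smul_add, Finsupp.add_apply, Finsupp.smul_apply m E v, nsmul_eq_mul]

/-! ### Normalised Kummer pairs -/

/-- Given a separating datum, every `m`-torsion class of `J₀(N q)` has a Kummer pair `(D, u)`
with `u` in the semi-local ring `s35_O` and a unit at both Gauss valuations. -/
theorem s35n3n_exists_kummer_unit_of_sep {A : ValuationSubring Qb} {N q : ℕ} [NeZero N]
    [NeZero q] {hcop : Nat.Coprime N q} (hsep : s35n3n_HasSep A N q hcop) (hq : q.Prime)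
    (hA : A.LiesOverPrime q) {m : ℕ} (hm : m ≠ 0) (x : JZero (N * q)) (hx : m • x = 0) :
    ∃ (D : Divisor.degZero (K := Qb) (F := modularFunctionFieldBar (N * q)))
      (u : ↥(s35_O A N q hcop)),
      Pic0.mk D = x ∧
      (∀ v : Place Qb (modularFunctionFieldBar (N * q)),
        (m • (D : Divisor Qb (modularFunctionFieldBar (N * q)))) v =
          v.ord (u : ↥(modularFunctionFieldBar (N * q)))) ∧
      s35_redInf A N q hcop u ≠ 0 ∧ s35_redZero A N q hcop u ≠ 0 := by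
  have : Fact q.Prime := ⟨hq⟩
  obtain ⟨D₀, u₀, hD₀, hu₀, hdiv₀⟩ :=
    s34gal_exists_kummer (K := Qb) (F := modularFunctionFieldBar (N * q)) x hx
  have hWu₀ : s35_W N q hcop u₀ ≠ 0 := by
    rw [Ne, map_eq_zero_iff _ (s35_W N q hcop).injective]
    exact hu₀
  obtain ⟨c₁, u₁, hu₁, hc₁, hred₁, -, h₁⟩ := exists_unit_mul hA hu₀
  obtain ⟨c₂, u₂, hu₂, hc₂, hred₂, -, h₂⟩ := exists_unit_mul hA hWu₀
  obtain ⟨γ, hγ⟩ := IsAlgClosed.exists_pow_nat_eq (c₂ / c₁) (Nat.pos_of_ne_zero hm)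
  have hγ0 : γ ≠ 0 := by
    rintro rfl
    rw [zero_pow hm] at hγ
    exact div_ne_zero hc₂ hc₁ hγ.symm
  obtain ⟨g, hg, hg'⟩ := s35n3n_exists_g hsep hq hA γ hγ0
  have hgu₁ : s35n3n_IsGU A u₁ := ⟨hu₁, hred₁⟩
  have hgu₂ : s35n3n_IsGU A u₂ := ⟨hu₂, hred₂⟩
  have hu : s35n3n_IsGU A (u₁ * g ^ m) := s35n3n_isGU_mul hgu₁ (s35n3n_isGU_pow hg m)
  have h4 : u₁ = algebraMap Qb ↥(modularFunctionFieldBar (N * q)) c₁⁻¹ * u₀ := by
    rw [h₁, ← mul_assoc, ← map_mul, inv_mul_cancel₀ hc₁, map_one, one_mul]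
  have hWu_eq : s35_W N q hcop (u₁ * g ^ m) =
      u₂ * (algebraMap Qb ↥(modularFunctionFieldBar (N * q)) γ * s35_W N q hcop g) ^ m := by
    have h3 : s35_W N q hcop u₁ =
        algebraMap Qb ↥(modularFunctionFieldBar (N * q)) (c₂ / c₁) * u₂ := by
      rw [h4, map_mul, AlgEquiv.commutes, h₂, ← mul_assoc, ← map_mul, inv_mul_eq_div]
    rw [map_mul, map_pow, h3, ← hγ, map_pow, mul_pow]
    ring
  have hWu : s35n3n_IsGU A (s35_W N q hcop (u₁ * g ^ m)) := by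
    rw [hWu_eq]
    exact s35n3n_isGU_mul hgu₂ (s35n3n_isGU_pow hg' m)
  obtain ⟨D', hD', hdiv'⟩ := s35n3n_kummer_scale (m := m) D₀ u₀ g c₁⁻¹ hu₀
    (s35n3n_isGU_ne_zero hg) (inv_ne_zero hc₁) hdiv₀
  obtain ⟨hu1, hu2⟩ := hu
  obtain ⟨hWu1, hWu2⟩ := hWu
  refine ⟨D', ⟨u₁ * g ^ m, (mem_kronO_iff _ _ _ _ _ _).mpr ⟨hu1, hWu1⟩⟩, ?_, ?_, hu2, hWu2⟩
  · rw [hD', hD₀]
  · intro v
    rw [hdiv' v, ← h4]

end Fermat.Agent.S35
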