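import Fermat.Agent.S35.N3Defs
import Fermat.Agent.S34.KronBasic
import Fermat.Agent.S34.GalPic
import Fermat.Agent.S37.GaussADesc
import Fermat.Agent.S37.Frob

/-!
# P20 (S35), block N3, leaf E2 (second version), auxiliary file: normalised Kummer pairs

Every class `x ∈ J₀(N q)` killed by `m` has a Kummer pair `(D, u)` whose generator `u` is a unit
at both Gauss valuations `w_∞`, `w_0` of `F_{Nq}` over `A`.  The core statement
`s35n3nB_exists_kummer_unit_core` takes the separating element of leaf E1 as a hypothesis.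
-/

set_option autoImplicit false

namespace Fermat.Agent.S35

open ModularCurve AlgebraicCurve Fermat.Agent.S18 Fermat.Agent.S18.NumField Fermat.Agent.S34
  Fermat.Agent.S37

local notation "Qb" => AlgebraicClosure ℚ

/-- `z` is a Gauss unit: it lies in `gaussA A M` and its reduction does not vanish. -/
def s35n3nB_IsGU (A : ValuationSubring Qb) (M : ℕ) (z : ↥(modularFunctionFieldBar M)) : Prop :=
  ∃ h : z ∈ gaussA A M, redA A M ⟨z, h⟩ ≠ 0

section GU

variable {A : ValuationSubring Qb} {M : ℕ}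

theorem s35n3nB_isGU_mul {z z' : ↥(modularFunctionFieldBar M)} (hz : s35n3nB_IsGU A M z)
    (hz' : s35n3nB_IsGU A M z') : s35n3nB_IsGU A M (z * z') := by
  obtain ⟨h, hr⟩ := hz
  obtain ⟨h', hr'⟩ := hz'
  refine ⟨mul_mem h h', ?_⟩
  have h1 : (⟨z * z', mul_mem h h'⟩ : ↥(gaussA A M)) = ⟨z, h⟩ * ⟨z', h'⟩ := rfl
  rw [h1, map_mul]
  exact mul_ne_zero hr hr'

theorem s35n3nB_isGU_one : s35n3nB_IsGU A M (1 : ↥(modularFunctionFieldBar M)) := by
  refine ⟨one_mem _, ?_⟩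
  have h1 : (⟨1, one_mem _⟩ : ↥(gaussA A M)) = 1 := rfl
  rw [h1, map_one]
  exact one_ne_zero

theorem s35n3nB_isGU_pow {z : ↥(modularFunctionFieldBar M)} (hz : s35n3nB_IsGU A M z) (m : ℕ) :
    s35n3nB_IsGU A M (z ^ m) := by
  induction m with
  | zero => rw [pow_zero]; exact s35n3nB_isGU_one
  | succ m ih => rw [pow_succ]; exact s35n3nB_isGU_mul ih hz

theorem s35n3nB_isGU_coe (G : ↥(gaussA A M)) (hG : redA A M G ≠ 0) :
    s35n3nB_IsGU A M (G : ↥(modularFunctionFieldBar M)) :=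
  ⟨G.2, hG⟩

theorem s35n3nB_isGU_ne_zero {z : ↥(modularFunctionFieldBar M)} (hz : s35n3nB_IsGU A M z) :
    z ≠ 0 := by
  obtain ⟨h, hr⟩ := hz
  rintro rfl
  apply hr
  have h1 : (⟨0, h⟩ : ↥(gaussA A M)) = 0 := rfl
  rw [h1, map_zero]

end GU

section Main

variable (A : ValuationSubring Qb) (N q : ℕ) [NeZero N] [NeZero q] (hcop : Nat.Coprime N q)

omit [NeZero q] in
/-- The residue of `q` vanishes. -/
theorem s35n3nB_residue_q (hq : q.Prime) (hA : A.LiesOverPrime q) (hqA : (q : Qb) ∈ A) :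
    IsLocalRing.residue ↥A ⟨(q : Qb), hqA⟩ = 0 := by
  have hchar := charP_residueField A hq hA
  have h1 : (⟨(q : Qb), hqA⟩ : ↥A) = ((q : ℕ) : ↥A) := rfl
  rw [h1, map_natCast, CharP.cast_eq_zero]

/-- First case of the normalisation: for `t ∈ A`, `t ≠ 0`, there is a Gauss unit `g` such that
`t⁻¹ · W g` is a Gauss unit. -/
theorem s35n3nB_exists_gu_of_mem (hq : q.Prime) (hA : A.LiesOverPrime q)
    (hsep : ∃ (e : ↥(s35_O A N q hcop)) (e₂ : ↥(modularFunctionFieldBar (N * q))),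
      e₂ ∈ gaussA A (N * q) ∧
      s35_redInf A N q hcop e = 1 ∧ s35_redZero A N q hcop e = 0 ∧
      s35_W N q hcop (e : ↥(modularFunctionFieldBar (N * q))) =
        algebraMap Qb ↥(modularFunctionFieldBar (N * q)) (q : Qb) * e₂)
    (hpow : ∀ t : Qb, t ≠ 0 → ∃ n : ℕ, ∃ h : (q : Qb) ^ n / t ∈ A,
      IsLocalRing.residue ↥A ⟨(q : Qb) ^ n / t, h⟩ = 0)
    (t : Qb) (htA : t ∈ A) (ht : t ≠ 0) :
    ∃ g : ↥(modularFunctionFieldBar (N * q)), s35n3nB_IsGU A (N * q) g ∧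
      s35n3nB_IsGU A (N * q)
        (algebraMap Qb ↥(modularFunctionFieldBar (N * q)) t⁻¹ * s35_W N q hcop g) := by
  obtain ⟨e, e₂, he₂, hinf, -, hWe⟩ := hsep
  obtain ⟨n, hn, hnres⟩ := hpow t ht
  have hqA : (q : Qb) ∈ A := natCast_mem A q
  have hqres := s35n3nB_residue_q A q hq hA hqA
  have h1 : (q : Qb) ^ (n + 1) / t ∈ A := by
    have h : (q : Qb) ^ (n + 1) / t = (q : Qb) * ((q : Qb) ^ n / t) := by
      rw [pow_succ]
      ring
    rw [h]
    exact A.mul_mem _ _ hqA hn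
  have h1res : IsLocalRing.residue ↥A ⟨(q : Qb) ^ (n + 1) / t, h1⟩ = 0 := by
    have h : (⟨(q : Qb) ^ (n + 1) / t, h1⟩ : ↥A) = ⟨(q : Qb), hqA⟩ * ⟨(q : Qb) ^ n / t, hn⟩ := by
      apply Subtype.ext
      show (q : Qb) ^ (n + 1) / t = (q : Qb) * ((q : Qb) ^ n / t)
      rw [pow_succ]
      ring
    rw [h, map_mul, hnres, mul_zero]
  have h2 : (q : Qb) ^ (n + 1) ∈ A := pow_mem hqA _
  have h2res : IsLocalRing.residue ↥A ⟨(q : Qb) ^ (n + 1), h2⟩ = 0 := by
    have h : (⟨(q : Qb) ^ (n + 1), h2⟩ : ↥A) = ⟨(q : Qb), hqA⟩ ^ (n + 1) := rfl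
    rw [h, map_pow, hqres, zero_pow (Nat.succ_ne_zero n)]
  -- the elements of the Gauss ring
  have heG : (e : ↥(modularFunctionFieldBar (N * q))) ∈ gaussA A (N * q) := e.2.1
  obtain ⟨E, hEdef⟩ : ∃ E : ↥(gaussA A (N * q)), E = ⟨e, heG⟩ := ⟨_, rfl⟩
  have hE : redA A (N * q) E = 1 := by
    rw [hEdef]
    exact hinf
  obtain ⟨Tt, hTt⟩ : ∃ Tt : ↥(gaussA A (N * q)),
      Tt = ⟨algebraMap Qb ↥(modularFunctionFieldBar (N * q)) t, algebraMap_mem_gaussA htA⟩ :=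
    ⟨_, rfl⟩
  obtain ⟨E₂, hE₂⟩ : ∃ E₂ : ↥(gaussA A (N * q)), E₂ = ⟨e₂, he₂⟩ := ⟨_, rfl⟩
  obtain ⟨P, hP⟩ : ∃ P : ↥(gaussA A (N * q)),
      P = ⟨algebraMap Qb ↥(modularFunctionFieldBar (N * q)) ((q : Qb) ^ (n + 1) / t),
        algebraMap_mem_gaussA h1⟩ := ⟨_, rfl⟩
  obtain ⟨Qn, hQn⟩ : ∃ Qn : ↥(gaussA A (N * q)),
      Qn = ⟨algebraMap Qb ↥(modularFunctionFieldBar (N * q)) ((q : Qb) ^ (n + 1)),
        algebraMap_mem_gaussA h2⟩ := ⟨_, rfl⟩
  have hPred : redA A (N * q) P = 0 := by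
    rw [hP, redA_algebraMap h1, h1res, map_zero]
  have hQnred : redA A (N * q) Qn = 0 := by
    rw [hQn, redA_algebraMap h2, h2res, map_zero]
  have hGred : redA A (N * q) (E ^ (n + 1) + Tt * (1 - E ^ (n + 1))) = 1 := by
    rw [map_add, map_mul, map_sub, map_pow, map_one, hE, one_pow, sub_self, mul_zero, add_zero]
  have hHred : redA A (N * q) (P * E₂ ^ (n + 1) + 1 - Qn * E₂ ^ (n + 1)) = 1 := by
    rw [map_sub, map_add, map_mul, map_mul, map_one, hPred, hQnred, zero_mul, zero_add, sub_zero]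
  have ht' : algebraMap Qb ↥(modularFunctionFieldBar (N * q)) t ≠ 0 := by
    rwa [Ne, map_eq_zero]
  have hHeq : ((P * E₂ ^ (n + 1) + 1 - Qn * E₂ ^ (n + 1) : ↥(gaussA A (N * q))) :
      ↥(modularFunctionFieldBar (N * q))) =
      algebraMap Qb ↥(modularFunctionFieldBar (N * q)) t⁻¹ * s35_W N q hcop
        ((E ^ (n + 1) + Tt * (1 - E ^ (n + 1)) : ↥(gaussA A (N * q))) :
          ↥(modularFunctionFieldBar (N * q))) := by
    have hGc : ((E ^ (n + 1) + Tt * (1 - E ^ (n + 1)) : ↥(gaussA A (N * q))) :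
        ↥(modularFunctionFieldBar (N * q))) =
        (e : ↥(modularFunctionFieldBar (N * q))) ^ (n + 1) +
          algebraMap Qb ↥(modularFunctionFieldBar (N * q)) t *
            (1 - (e : ↥(modularFunctionFieldBar (N * q))) ^ (n + 1)) := by
      rw [hEdef, hTt]
      rfl
    have hHc : ((P * E₂ ^ (n + 1) + 1 - Qn * E₂ ^ (n + 1) : ↥(gaussA A (N * q))) :
        ↥(modularFunctionFieldBar (N * q))) =
        algebraMap Qb ↥(modularFunctionFieldBar (N * q)) ((q : Qb) ^ (n + 1) / t) * e₂ ^ (n + 1)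
          + 1 - algebraMap Qb ↥(modularFunctionFieldBar (N * q)) ((q : Qb) ^ (n + 1)) *
            e₂ ^ (n + 1) := by
      rw [hP, hQn, hE₂]
      rfl
    have hW : s35_W N q hcop ((e : ↥(modularFunctionFieldBar (N * q))) ^ (n + 1) +
          algebraMap Qb ↥(modularFunctionFieldBar (N * q)) t *
            (1 - (e : ↥(modularFunctionFieldBar (N * q))) ^ (n + 1))) =
        (algebraMap Qb ↥(modularFunctionFieldBar (N * q)) (q : Qb) * e₂) ^ (n + 1) +
          algebraMap Qb ↥(modularFunctionFieldBar (N * q)) t *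
            (1 - (algebraMap Qb ↥(modularFunctionFieldBar (N * q)) (q : Qb) * e₂) ^ (n + 1)) := by
      rw [map_add, map_mul, map_sub, map_one, map_pow, AlgEquiv.commutes, hWe]
    rw [hGc, hHc, hW, map_div₀, map_pow, map_inv₀]
    field_simp
    ring
  refine ⟨_, s35n3nB_isGU_coe _ (by rw [hGred]; exact one_ne_zero), ?_⟩
  rw [← hHeq]
  exact s35n3nB_isGU_coe _ (by rw [hHred]; exact one_ne_zero)

/-- The normalising element: for every nonzero constant `γ` there is a Gauss unit `g` such that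
`γ · W g` is a Gauss unit. -/
theorem s35n3nB_exists_gu (hq : q.Prime) (hA : A.LiesOverPrime q)
    (hsep : ∃ (e : ↥(s35_O A N q hcop)) (e₂ : ↥(modularFunctionFieldBar (N * q))),
      e₂ ∈ gaussA A (N * q) ∧
      s35_redInf A N q hcop e = 1 ∧ s35_redZero A N q hcop e = 0 ∧
      s35_W N q hcop (e : ↥(modularFunctionFieldBar (N * q))) =
        algebraMap Qb ↥(modularFunctionFieldBar (N * q)) (q : Qb) * e₂)
    (hpow : ∀ t : Qb, t ≠ 0 → ∃ n : ℕ, ∃ h : (q : Qb) ^ n / t ∈ A,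
      IsLocalRing.residue ↥A ⟨(q : Qb) ^ n / t, h⟩ = 0)
    (γ : Qb) (hγ : γ ≠ 0) :
    ∃ g : ↥(modularFunctionFieldBar (N * q)), s35n3nB_IsGU A (N * q) g ∧
      s35n3nB_IsGU A (N * q)
        (algebraMap Qb ↥(modularFunctionFieldBar (N * q)) γ * s35_W N q hcop g) := by
  rcases A.mem_or_inv_mem γ with hγA | hγA
  · obtain ⟨g', hg', hWg'⟩ := s35n3nB_exists_gu_of_mem A N q hcop hq hA hsep hpow γ hγA hγ
    refine ⟨algebraMap Qb ↥(modularFunctionFieldBar (N * q)) γ⁻¹ * s35_W N q hcop g', hWg', ?_⟩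
    have h : algebraMap Qb ↥(modularFunctionFieldBar (N * q)) γ * s35_W N q hcop
        (algebraMap Qb ↥(modularFunctionFieldBar (N * q)) γ⁻¹ * s35_W N q hcop g') = g' := by
      rw [map_mul, AlgEquiv.commutes, kronW_kronW, ← mul_assoc, ← map_mul, mul_inv_cancel₀ hγ,
        map_one, one_mul]
    rw [h]
    exact hg'
  · obtain ⟨g, hg, hWg⟩ :=
      s35n3nB_exists_gu_of_mem A N q hcop hq hA hsep hpow γ⁻¹ hγA (inv_ne_zero hγ)
    rw [inv_inv] at hWg
    exact ⟨g, hg, hWg⟩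

/-- Changing a Kummer pair by a nonzero constant and an `m`-th power does not change the class. -/
theorem s35n3nB_kummer_twist (M : ℕ) [NeZero M] {m : ℕ}
    (D : Divisor.degZero (K := Qb) (F := modularFunctionFieldBar M))
    (u g : ↥(modularFunctionFieldBar M)) (c : Qb) (hu : u ≠ 0) (hg : g ≠ 0) (hc : c ≠ 0)
    (h : ∀ v : Place Qb (modularFunctionFieldBar M),
      (m • (D : Divisor Qb (modularFunctionFieldBar M))) v = v.ord u) :
    ∃ D' : Divisor.degZero (K := Qb) (F := modularFunctionFieldBar M),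
      Pic0.mk D' = (Pic0.mk D : JZero M) ∧
      ∀ v : Place Qb (modularFunctionFieldBar M),
        (m • (D' : Divisor Qb (modularFunctionFieldBar M))) v =
          v.ord (algebraMap Qb ↥(modularFunctionFieldBar M) c * u * g ^ m) := by
  obtain ⟨E, hE, hEdeg⟩ := HasPrincipalDivisors.exists_divisor (K := Qb) g hg
  have hEmem : E ∈ Divisor.degZero (K := Qb) (F := modularFunctionFieldBar M) :=
    Divisor.mem_degZero.mpr hEdeg
  have hc' : algebraMap Qb ↥(modularFunctionFieldBar M) c ≠ 0 := by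
    rwa [Ne, map_eq_zero]
  refine ⟨D + ⟨E, hEmem⟩, ?_, ?_⟩
  · rw [Pic0.mk_add]
    have h0 : Pic0.mk (⟨E, hEmem⟩ : Divisor.degZero (K := Qb) (F := modularFunctionFieldBar M))
        = 0 := by
      refine (QuotientAddGroup.eq_zero_iff _).mpr ?_
      rw [AddSubgroup.mem_addSubgroupOf]
      exact ⟨g, hg, hE⟩
    rw [h0, add_zero]
  · intro v
    rw [v.ord_mul (mul_ne_zero hc' hu) (pow_ne_zero _ hg), v.ord_mul hc' hu,
      Fermat.Agent.S24.PlacesBasic.ord_algebraMap v c, zero_add, ← zpow_natCast, v.ord_zpow,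
      ← h v, ← hE v]
    simp only [AddSubgroup.coe_add, smul_add, Finsupp.add_apply, Finsupp.smul_apply, nsmul_eq_mul]

/-- Core of leaf E2: normalised Kummer pairs, given the separating element of leaf E1. -/
theorem s35n3nB_exists_kummer_unit_core (hq : q.Prime) (hA : A.LiesOverPrime q)
    (hsep : ∃ (e : ↥(s35_O A N q hcop)) (e₂ : ↥(modularFunctionFieldBar (N * q))),
      e₂ ∈ gaussA A (N * q) ∧
      s35_redInf A N q hcop e = 1 ∧ s35_redZero A N q hcop e = 0 ∧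
      s35_W N q hcop (e : ↥(modularFunctionFieldBar (N * q))) =
        algebraMap Qb ↥(modularFunctionFieldBar (N * q)) (q : Qb) * e₂)
    (hpow : ∀ t : Qb, t ≠ 0 → ∃ n : ℕ, ∃ h : (q : Qb) ^ n / t ∈ A,
      IsLocalRing.residue ↥A ⟨(q : Qb) ^ n / t, h⟩ = 0)
    {m : ℕ} (hm : m ≠ 0) (x : JZero (N * q)) (hx : m • x = 0) :
    ∃ (D : Divisor.degZero (K := Qb) (F := modularFunctionFieldBar (N * q)))
      (u : ↥(s35_O A N q hcop)),
      Pic0.mk D = x ∧
      (∀ v : Place Qb (modularFunctionFieldBar (N * q)),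
        (m • (D : Divisor Qb (modularFunctionFieldBar (N * q)))) v =
          v.ord (u : ↥(modularFunctionFieldBar (N * q)))) ∧
      s35_redInf A N q hcop u ≠ 0 ∧ s35_redZero A N q hcop u ≠ 0 := by
  have hqf : Fact q.Prime := ⟨hq⟩
  obtain ⟨D₀, u₀, hD₀, hu₀, hdiv₀⟩ := s34gal_exists_kummer x hx
  have hWu₀ : s35_W N q hcop u₀ ≠ 0 := by
    rwa [Ne, map_eq_zero_iff _ (s35_W N q hcop).injective]
  obtain ⟨c₁, u₁, hu₁, hc₁, hu₁red, -, hu₀eq⟩ := exists_unit_mul hA hu₀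
  obtain ⟨c₂, u₂, hu₂, hc₂, hu₂red, -, hWu₀eq⟩ := exists_unit_mul hA hWu₀
  obtain ⟨γ, hγ⟩ := IsAlgClosed.exists_pow_nat_eq (c₂ / c₁) (Nat.pos_of_ne_zero hm)
  have hγ0 : γ ≠ 0 := by
    rintro rfl
    rw [zero_pow hm] at hγ
    exact (div_ne_zero hc₂ hc₁) hγ.symm
  obtain ⟨g, hg, hWg⟩ := s35n3nB_exists_gu A N q hcop hq hA hsep hpow γ hγ0
  have hg0 : g ≠ 0 := s35n3nB_isGU_ne_zero hg
  have hc₁' : algebraMap Qb ↥(modularFunctionFieldBar (N * q)) c₁ ≠ 0 := by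
    rwa [Ne, map_eq_zero]
  obtain ⟨u, hu⟩ : ∃ u : ↥(modularFunctionFieldBar (N * q)),
      u = algebraMap Qb ↥(modularFunctionFieldBar (N * q)) c₁⁻¹ * u₀ * g ^ m := ⟨_, rfl⟩
  have hu_eq : u = u₁ * g ^ m := by
    rw [hu, hu₀eq, ← mul_assoc, ← map_mul, inv_mul_cancel₀ hc₁, map_one, one_mul]
  have hWu_eq : s35_W N q hcop u =
      u₂ * (algebraMap Qb ↥(modularFunctionFieldBar (N * q)) γ * s35_W N q hcop g) ^ m := by
    have h1 : (algebraMap Qb ↥(modularFunctionFieldBar (N * q)) γ * s35_W N q hcop g) ^ m =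
        algebraMap Qb ↥(modularFunctionFieldBar (N * q)) (c₂ / c₁) * s35_W N q hcop g ^ m := by
      rw [mul_pow, ← map_pow, hγ]
    rw [h1, hu, map_mul, map_mul, AlgEquiv.commutes, hWu₀eq, map_pow, map_div₀, map_inv₀]
    field_simp
  have hGU : s35n3nB_IsGU A (N * q) u := by
    rw [hu_eq]
    exact s35n3nB_isGU_mul ⟨hu₁, hu₁red⟩ (s35n3nB_isGU_pow hg m)
  have hWGU : s35n3nB_IsGU A (N * q) (s35_W N q hcop u) := by
    rw [hWu_eq]
    exact s35n3nB_isGU_mul ⟨hu₂, hu₂red⟩ (s35n3nB_isGU_pow hWg m)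
  obtain ⟨hmem, hred⟩ := hGU
  obtain ⟨hWmem, hWred⟩ := hWGU
  have huO : u ∈ s35_O A N q hcop := ⟨hmem, hWmem⟩
  obtain ⟨D', hD', hdiv'⟩ :=
    s35n3nB_kummer_twist (N * q) D₀ u₀ g c₁⁻¹ hu₀ hg0 (inv_ne_zero hc₁) hdiv₀
  refine ⟨D', ⟨u, huO⟩, by rw [hD', hD₀], ?_, hred, hWred⟩
  intro v
  rw [hdiv' v]
  exact congrArg v.ord hu.symm

end Main

end Fermat.Agent.S35
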