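import Fermat.Agent.S35.N3Defs
import Fermat.Agent.S34.KronBasic
import Fermat.Agent.S34.KronWGal
import Fermat.Agent.S34.GalField
import Fermat.Agent.S37.GaussADesc

/-!
# P20 (S35), block N3, leaf C (second version): transport `K ↔ ℚ̄` in the KRON vocabulary

`K` an intermediate field of `ℚ̄ / ℚ`, `A` a valuation subring of `ℚ̄`, `Λ_K = A ∩ K`.  The
coefficientwise embedding `s34galEmb : F_N(K) → F_N(ℚ̄)`

* maps the Gauss ring of `F_N(K)` over `Λ_K` into `gaussA A N` and is compatible with the
  reductions (`s35n3_emb_mem_gaussA_B`, `s35n3_redA_emb_B`), and reflects Gauss integrality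
  when `K` is a number field (`s35n3_mem_gaussV_of_emb_B`);
* commutes with the degeneracy maps `α`, `β` (`s35n3_emb_alpha_B`, `s35n3_emb_beta_B`) and with the
  Atkin–Lehner involution (`s35n3_emb_W_B`).
-/

set_option autoImplicit false

namespace Fermat.Agent.S35

open ModularCurve AlgebraicCurve Fermat.Agent.S18 Fermat.Agent.S18.NumField Fermat.Agent.S34
  Fermat.Agent.S37

section LeafC

variable (A : ValuationSubring (AlgebraicClosure ℚ))
  (K : IntermediateField ℚ (AlgebraicClosure ℚ))

theorem s35n3_emb_mem_gaussA_B {N : ℕ}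
    {f : ↥(laurentBaseChange ↥K (modularFunctionFieldFull N))}
    (hf : f ∈ GaussL.gaussV (lam A K).toSubring (lamResA A K)
      (laurentBaseChange ↥K (modularFunctionFieldFull N))) :
    s34galEmb (modularFunctionFieldFull N) K f ∈ gaussA A N := by
  obtain ⟨a, b, hb, hab⟩ := hf
  refine mem_gaussA_iff.mpr ⟨coeffMap (lamIncl A K) a, coeffMap (lamIncl A K) b, ?_, ?_⟩
  · rw [coeffMap_residue_lamIncl]
    exact hb
  · rw [coeffMap_subtype_lamIncl, coeffMap_subtype_lamIncl, coe_s34galEmb, ← map_mul]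
    exact congrArg _ hab

theorem s35n3_redA_emb_B {N : ℕ}
    {f : ↥(laurentBaseChange ↥K (modularFunctionFieldFull N))}
    (hf : f ∈ GaussL.gaussV (lam A K).toSubring (lamResA A K)
      (laurentBaseChange ↥K (modularFunctionFieldFull N))) :
    redA A N ⟨s34galEmb (modularFunctionFieldFull N) K f, s35n3_emb_mem_gaussA_B A K hf⟩ =
      GaussL.gaussRed (lam A K).toSubring (lamResA A K)
        (laurentBaseChange ↥K (modularFunctionFieldFull N)) ⟨f, hf⟩ := by
  obtain ⟨a, b, hb, hab⟩ := hf
  have h1 := GaussL.gaussRed_mul_eq (laurentBaseChange ↥K (modularFunctionFieldFull N))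
    (⟨f, ⟨a, b, hb, hab⟩⟩ : ↥(GaussL.gaussV (lam A K).toSubring (lamResA A K)
      (laurentBaseChange ↥K (modularFunctionFieldFull N)))) a b hab
  have h2 := redA_mul_eq (⟨s34galEmb (modularFunctionFieldFull N) K f,
      s35n3_emb_mem_gaussA_B A K ⟨a, b, hb, hab⟩⟩ : ↥(gaussA A N))
    (coeffMap (lamIncl A K) a) (coeffMap (lamIncl A K) b) (by
      rw [coeffMap_subtype_lamIncl, coeffMap_subtype_lamIncl]
      show coeffMap (algebraMap ↥K (AlgebraicClosure ℚ)) _ * _ = _
      rw [← map_mul]
      exact congrArg _ hab)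
  rw [coeffMap_residue_lamIncl, coeffMap_residue_lamIncl] at h2
  exact mul_right_cancel₀ hb (h2.trans h1.symm)

theorem s35n3_mem_gaussV_of_emb_B {ℓ : ℕ} [Fact ℓ.Prime] (hA : A.LiesOverPrime ℓ)
    [FiniteDimensional ℚ ↥K] {N : ℕ} [NeZero N]
    {f : ↥(laurentBaseChange ↥K (modularFunctionFieldFull N))}
    (h : s34galEmb (modularFunctionFieldFull N) K f ∈ gaussA A N) :
    f ∈ GaussL.gaussV (lam A K).toSubring (lamResA A K)
      (laurentBaseChange ↥K (modularFunctionFieldFull N)) := by
  have hmem : (f : LaurentSeries ↥K) ∈ modularFunctionFieldFullC ↥K N := by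
    rw [Descent.fullC_eq_laurentBaseChange]
    exact f.2
  have heq : Descent.toFL K N ⟨(f : LaurentSeries ↥K), hmem⟩ =
      s34galEmb (modularFunctionFieldFull N) K f := Subtype.ext rfl
  have h' : Descent.toFL K N ⟨(f : LaurentSeries ↥K), hmem⟩ ∈ gaussA A N := by
    rw [heq]
    exact h
  have h2 := mem_gaussV_of_toFL_mem hA K h'
  exact (GaussL.mem_gaussV_iff _ _).mpr ((GaussL.mem_gaussV_iff _ _).mp h2)

theorem s35n3_emb_alpha_B (N q : ℕ) [NeZero N] [NeZero q]
    (g : ↥(laurentBaseChange ↥K (modularFunctionFieldFull N))) :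
    s34galEmb (modularFunctionFieldFull (N * q)) K (heckeAlphaBar ↥K N q g) =
      heckeAlphaBar (AlgebraicClosure ℚ) N q (s34galEmb (modularFunctionFieldFull N) K g) := by
  apply Subtype.ext
  rw [coe_s34galEmb, coe_heckeAlphaBar, coe_heckeAlphaBar, coe_s34galEmb]

theorem s35n3_emb_beta_B (N q : ℕ) [NeZero N] [NeZero q]
    (g : ↥(laurentBaseChange ↥K (modularFunctionFieldFull N))) :
    s34galEmb (modularFunctionFieldFull (N * q)) K (heckeBetaBar ↥K N q g) =
      heckeBetaBar (AlgebraicClosure ℚ) N q (s34galEmb (modularFunctionFieldFull N) K g) := by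
  apply Subtype.ext
  rw [coe_s34galEmb, coe_heckeBetaBar, coe_heckeBetaBar, coe_s34galEmb, coeffMap_qExpand]

theorem s35n3_emb_W_B (N q : ℕ) [NeZero N] [NeZero q] (hcop : Nat.Coprime N q) (hq : q.Prime)
    (ι : ↥K →+* ℂ) (z : ↥(laurentBaseChange ↥K (modularFunctionFieldFull (N * q)))) :
    s34galEmb (modularFunctionFieldFull (N * q)) K (kronW ↥K ι N q hcop z) =
      s35_W N q hcop (s34galEmb (modularFunctionFieldFull (N * q)) K z) := by
  have h : (s34galEmb (modularFunctionFieldFull (N * q)) K).comp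
        (kronW ↥K ι N q hcop : ↥(laurentBaseChange ↥K (modularFunctionFieldFull (N * q))) →+*
          ↥(laurentBaseChange ↥K (modularFunctionFieldFull (N * q)))) =
      ((s35_W N q hcop : ↥(modularFunctionFieldBar (N * q)) →+*
          ↥(modularFunctionFieldBar (N * q)))).comp
        (s34galEmb (modularFunctionFieldFull (N * q)) K) := by
    refine Fermat.Agent.S24.FFL_ringHom_ext (N * q) ↥K (fun c => ?_) (fun d hd => ?_)
    · show s34galEmb (modularFunctionFieldFull (N * q)) K
          (kronW ↥K ι N q hcop (algebraMap ↥K _ c)) =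
        s35_W N q hcop (s34galEmb (modularFunctionFieldFull (N * q)) K (algebraMap ↥K _ c))
      rw [AlgEquiv.commutes, s34galEmb_algebraMap, AlgEquiv.commutes]
    · show s34galEmb (modularFunctionFieldFull (N * q)) K
          (kronW ↥K ι N q hcop (Fermat.Agent.S24.jdL (N * q) ↥K d hd)) =
        s35_W N q hcop (s34galEmb (modularFunctionFieldFull (N * q)) K
          (Fermat.Agent.S24.jdL (N * q) ↥K d hd))
      by_cases hqd : q ∣ d
      · obtain ⟨d', rfl⟩ := hqd
        have hd' : d' ∣ N := by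
          rw [mul_comm N q] at hd
          exact Nat.dvd_of_mul_dvd_mul_left hq.pos hd
        have e1 : Fermat.Agent.S24.jdL (N * q) ↥K (q * d') hd =
            heckeBetaBar ↥K N q (Fermat.Agent.S24.jdL N ↥K d' hd') :=
          (Fermat.Agent.S42.RealDegen.heckeBetaBar_jdL N q ↥K d' hd').symm
        rw [e1, kronW_beta, s35n3_emb_alpha_B, s35n3_emb_beta_B]
        exact (kronW_beta (AlgebraicClosure ℚ) Fermat.Agent.S37.barToComplex N q hcop _).symm
      · have hd' : d ∣ N :=
          Nat.Coprime.dvd_of_dvd_mul_right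
            (Nat.Coprime.symm ((Nat.Prime.coprime_iff_not_dvd hq).mpr hqd)) hd
        have e1 : Fermat.Agent.S24.jdL (N * q) ↥K d hd =
            heckeAlphaBar ↥K N q (Fermat.Agent.S24.jdL N ↥K d hd') :=
          (Fermat.Agent.S42.RealDegen.heckeAlphaBar_jdL N q ↥K d hd').symm
        rw [e1, kronW_alpha, s35n3_emb_beta_B, s35n3_emb_alpha_B]
        exact (kronW_alpha (AlgebraicClosure ℚ) Fermat.Agent.S37.barToComplex N q hcop _).symm
  exact RingHom.congr_fun h z

end LeafC

end Fermat.Agent.S35
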