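import Fermat.Agent.S35.N3

/-!
# P20 (S35), (★) from [F1] alone (no stability of the new part needed)

`s35_star_of_star_f1` : (★) `σ⁴ x − (q² + 1) σ² x + q² x = 0` on the `q`-new part of
`J₀(N q)[m]`, from the statement of (F1-TOP) (`σ² = q²` on `ker κ`, `ℕ`-scalar form) as a
hypothesis.  Uses only [N3′] (`s35_n3`), `W σ = σ W` and `W² = 1`.
-/

set_option autoImplicit false

namespace Fermat.Agent.S35

open ModularCurve AlgebraicCurve Fermat.Agent.S18 Fermat.Agent.S34 Fermat.Agent.S42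

/-- (★) from the statement of (F1-TOP). -/
theorem s35_star_of_star_f1 {N q m : ℕ} [NeZero N] [NeZero q] (hq : q.Prime) (hqN : ¬ q ∣ N)
    (hm : Nat.Coprime m q) {x : JZero (N * q)} (hx : x ∈ s35_newPart N q m)
    (A : ValuationSubring (AlgebraicClosure ℚ)) (hA : A.LiesOverPrime q)
    (σ : AlgebraicClosure ℚ ≃ₐ[ℚ] AlgebraicClosure ℚ) (hσ : A.IsFrobeniusAt σ q)
    (hF1 : ∀ (hcop : Nat.Coprime N q) (y : JZero (N * q)),
      s35_kerKappa A N q hcop m y → σ • σ • y = (q ^ 2 : ℕ) • y) :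
    σ • σ • σ • σ • x - ((q ^ 2 + 1 : ℕ) : ℤ) • σ • σ • x + ((q ^ 2 : ℕ) : ℤ) • x = 0 := by
  have hcop : Nat.Coprime N q := ((Nat.Prime.coprime_iff_not_dvd hq).2 hqN).symm
  have hm0 : m ≠ 0 := by
    rintro rfl
    rw [Nat.coprime_zero_left] at hm
    exact hq.ne_one hm
  refine s35_star_of_f1 hq hcop hm0 hx A hA σ hσ (fun y _ hy => ?_)
  rw [natCast_zsmul]
  exact hF1 hcop y hy

end Fermat.Agent.S35
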