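import Fermat.Agent.S35.N3

/-!
# P20 (S35), (★) assembly piece (N3-TOP)

`s35_star_n3` : the statement of `s35_n3` with the signature pinned by the (★) assembly
(note P20-STAR-SKEL).
-/

set_option autoImplicit false

namespace Fermat.Agent.S35

open ModularCurve AlgebraicCurve Fermat.Agent.S18 Fermat.Agent.S34 Fermat.Agent.S42

/-- (N3-TOP) for `x` in the `q`-new part of `J₀(N q)[m]` and a Frobenius lift `σ` at `A ∣ q`,
`σ x + W x ∈ ker κ`. -/
theorem s35_star_n3 {N q m : ℕ} [NeZero N] [NeZero q] (hq : q.Prime) (hqN : ¬ q ∣ N)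
    (hcop : Nat.Coprime N q) (hm : Nat.Coprime m q) {x : JZero (N * q)}
    (hx : x ∈ s35_newPart N q m)
    (A : ValuationSubring (AlgebraicClosure ℚ)) (hA : A.LiesOverPrime q)
    (σ : AlgebraicClosure ℚ ≃ₐ[ℚ] AlgebraicClosure ℚ) (hσ : A.IsFrobeniusAt σ q) :
    s35_kerKappa A N q hcop m (σ • x + s35_W N q hcop • x) := by
  have hm0 : m ≠ 0 := by
    rintro rfl
    rw [Nat.coprime_zero_left] at hm
    exact hq.ne_one hm
  exact s35_n3 hq hcop hm0 hx A hA σ hσ

end Fermat.Agent.S35
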